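import Fermat.Agent.GCFT.PlaceGal
import Fermat.Agent.GCFT.Val
import Fermat.Agent.Inertia.Decomp
import Fermat.Agent.FrobDensity.Density

set_option autoImplicit false

/-!
# Places of the algebraic numbers: conjugacy, decomposition groups and the local Galois groups
-/

open scoped Pointwise

namespace Fermat.Agent.RT

open Fermat.Agent.GaloisBasics Fermat.Agent.GCFT Fermat.Agent.Coh

/-- The field of algebraic numbers. -/
local notation "Qb" => AlgebraicClosure ℚ
/-- The ring of algebraic integers. -/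
local notation "Zb" => integralClosure ℤ (AlgebraicClosure ℚ)
/-- The absolute Galois group. -/
local notation "GQ" => (AlgebraicClosure ℚ ≃ₐ[ℚ] AlgebraicClosure ℚ)

theorem under_idealOf {q : ℕ} (hq : q.Prime) {A : ValuationSubring Qb} (hA : A.LiesOverPrime q) :
    (idealOf A).under ℤ = Ideal.span {(q : ℤ)} := by
  have h1 : Ideal.span {(q : ℤ)} ≤ (idealOf A).under ℤ := by
    rw [Ideal.span_singleton_le_iff_mem, Ideal.mem_comap, mem_idealOf]
    have : ((algebraMap ℤ Zb (q : ℤ) : Zb) : Qb) = (q : Qb) := by simp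
    rw [this]
    exact hA
  have hmax : (Ideal.span {(q : ℤ)}).IsMaximal :=
    PrincipalIdealRing.isMaximal_of_irreducible (Nat.prime_iff_prime_int.mp hq).irreducible
  exact (hmax.eq_of_le (Ideal.IsPrime.ne_top inferInstance) h1).symm

theorem le_of_idealOf_eq {A B : ValuationSubring Qb} (h : idealOf A = idealOf B) : A ≤ B := by
  intro x hx
  obtain ⟨b, hb, hxb, hbV⟩ := mem_integralClosure_of_div A hx (isAlgebraic_int_Qbar x)
  have h1 : b ∉ B.nonunits := fun h' => hbV (by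
    have : (⟨b, hb⟩ : Zb) ∈ idealOf B := h'
    rw [← h] at this
    exact this)
  rw [← B.valuation_le_one_iff]
  have h2 := valuation_eq_one_of_notMem hb h1
  have h3 : B.valuation x = B.valuation (x * b) := by rw [map_mul, h2, mul_one]
  rw [h3]
  exact (B.valuation_le_one_iff _).mpr (integralClosure_le_valuationSubring B hxb)

theorem idealOf_smul (g : GQ) (A : ValuationSubring Qb) : idealOf (g • A) = g • idealOf A := by
  ext x
  rw [mem_idealOf]
  have h1 : x ∈ g • idealOf A ↔ g⁻¹ • x ∈ idealOf A := by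
    rw [← Ideal.mem_inv_pointwise_smul_iff, inv_inv]
  rw [h1, mem_idealOf, ValuationSubring.mem_nonunits_iff_or, ValuationSubring.mem_nonunits_iff_or,
    ValuationSubring.mem_pointwise_smul_iff_inv_smul_mem]
  have h2 : ((g⁻¹ • x : Zb) : Qb) = g⁻¹ • (x : Qb) := rfl
  have h3 : g⁻¹ • ((x : Qb)⁻¹) = (g⁻¹ • (x : Qb))⁻¹ := map_inv₀ (g⁻¹ : GQ) (x : Qb)
  rw [h2, h3]
  refine or_congr ?_ Iff.rfl
  constructor
  · intro h; rw [h, smul_zero]
  · intro h
    have := congrArg (fun z => g • z) h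
    simpa using this

/-- **All places over `q` are conjugate.** -/
theorem exists_smul_eq {q : ℕ} (hq : q.Prime) {A B : ValuationSubring Qb}
    (hA : A.LiesOverPrime q) (hB : B.LiesOverPrime q) : ∃ g : GQ, B = g • A := by
  letI : TopologicalSpace Zb := ⊥
  haveI : DiscreteTopology Zb := ⟨rfl⟩
  haveI : ContinuousSMul GQ Zb := by
    rw [continuousSMul_iff_stabilizer_isOpen]
    intro x
    convert stabilizer_isOpen_of_isIntegral (K := ℚ) (L := Qb) (x : Qb) using 1
    ext g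
    simp only [SetLike.mem_coe, MulAction.mem_stabilizer_iff]
    exact Subtype.ext_iff
  obtain ⟨g, hg⟩ := Algebra.IsInvariant.exists_smul_of_under_eq_of_profinite (A := ℤ)
    (G := GQ) (idealOf A) (idealOf B) (by rw [under_idealOf hq hA, under_idealOf hq hB])
  refine ⟨g, le_antisymm (le_of_idealOf_eq ?_) (le_of_idealOf_eq ?_)⟩
  · rw [idealOf_smul, hg]
  · rw [idealOf_smul, hg]

theorem mem_nonunits_padicPlace {q : Nat.Primes} {x : Qb} :
    x ∈ (padicPlace (q : ℕ)).nonunits ↔ ‖il q x‖ < 1 := by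
  rw [ValuationSubring.mem_nonunits_iff_or]
  by_cases hx : x = 0
  · subst hx
    simp
  · have hx' : il q x ≠ 0 := fun h => hx ((il q).toRingHom.injective (by
      change il q x = il q 0
      rw [h, map_zero]))
    have h0 : 0 < ‖il q x‖ := norm_pos_iff.mpr hx'
    rw [mem_padicPlace_iff, or_iff_right hx, ← NNReal.coe_le_coe, coe_nnnorm, NNReal.coe_one]
    change ¬ ‖il q x⁻¹‖ ≤ 1 ↔ _
    rw [map_inv₀, norm_inv, not_le, one_lt_inv₀ h0]

theorem mem_nonunits_smul {g : GQ} {A : ValuationSubring Qb} {x : Qb} :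
    x ∈ (g • A).nonunits ↔ g⁻¹ x ∈ A.nonunits := by
  rw [ValuationSubring.mem_nonunits_iff_or, ValuationSubring.mem_nonunits_iff_or,
    ValuationSubring.mem_pointwise_smul_iff_inv_smul_mem]
  refine or_congr ?_ ?_
  · constructor
    · intro h; rw [h, map_zero]
    · intro h
      have := congrArg g h
      rwa [map_zero, ← AlgEquiv.mul_apply, mul_inv_cancel, AlgEquiv.one_apply] at this
  · have h3 : g⁻¹ • (x⁻¹) = (g⁻¹ x)⁻¹ := map_inv₀ (g⁻¹ : GQ) x
    rw [h3]

/-- The decomposition group is the closure of the image of the local Galois group. -/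
theorem exists_rl_mul {q : Nat.Primes} {U : Subgroup GQ} (hU : IsOpen (U : Set GQ)) {g : GQ}
    (hg : g ∈ (padicPlace (q : ℕ)).decompositionSubgroup ℚ) :
    ∃ δ : Gl q, ∃ u ∈ U, g = rl q δ * u := by
  haveI := numberField_fld hU
  have h1 : pr (emb (fld U) q 1) = pr (emb (fld U) q g) := by
    apply IsDedekindDomain.HeightOneSpectrum.ext
    ext a
    rw [mem_pr, mem_pr, emb_apply, emb_apply, AlgEquiv.one_apply, ← mem_nonunits_padicPlace,
      ← mem_nonunits_padicPlace]
    have h2 : g⁻¹ • padicPlace (q : ℕ) = padicPlace (q : ℕ) := inv_mem hg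
    conv_lhs => rw [← h2]
    rw [mem_nonunits_smul, inv_inv]
  obtain ⟨δ, u, hu, h⟩ := exists_eq_of_pr_eq hU h1
  exact ⟨δ, u, hu, by rw [h, mul_one]⟩

/-- The decomposition group at an arbitrary place. -/
theorem exists_rl_conj {q : Nat.Primes} {A : ValuationSubring Qb} (hA : A.LiesOverPrime (q : ℕ)) :
    ∃ γ : GQ, A = γ • padicPlace (q : ℕ) ∧ ∀ U : Subgroup GQ, IsOpen (U : Set GQ) →
      ∀ g ∈ A.decompositionSubgroup ℚ, ∃ δ : Gl q, ∃ u ∈ U, γ⁻¹ * g * γ = rl q δ * u := by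
  obtain ⟨γ, hγ⟩ := exists_smul_eq q.2 (nonunits_padicPlace q) hA
  refine ⟨γ, hγ, fun U hU g hg => exists_rl_mul hU ?_⟩
  have h1 : g • A = A := hg
  change (γ⁻¹ * g * γ) • padicPlace (q : ℕ) = padicPlace (q : ℕ)
  rw [mul_smul, ← hγ, mul_smul, h1, hγ, inv_smul_smul]

section Coc

variable {k V : Type*} [CommRing k] [AddCommGroup V] [Module k V] {τ : Representation k GQ V}

/-- A cocycle is locally trivial at `q`. -/
def LocTriv (q : Nat.Primes) (τ : Representation k GQ V) (c : GQ → V) : Prop :=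
  ∃ Y : V, ∀ δ : Gl q, c (rl q δ) = τ (rl q δ) Y - Y

/-- Local triviality at the standard place implies local triviality at all places over `q`. -/
theorem LocTriv.decomposition {q : Nat.Primes} {c : GQ → V} (h : LocTriv q τ c)
    (hc : ∀ g h, c (g * h) = τ g (c h) + c g) {U : Subgroup GQ} (hU : IsOpen (U : Set GQ))
    (hcU : ∀ g, ∀ u ∈ U, c (g * u) = c g) (hτU : ∀ v : V, ∀ u ∈ U, τ u v = v)
    {A : ValuationSubring Qb} (hA : A.LiesOverPrime (q : ℕ)) :
    ∃ Y : V, ∀ g ∈ A.decompositionSubgroup ℚ, c g = τ g Y - Y := by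
  obtain ⟨Y, hY⟩ := h
  obtain ⟨γ, hγ, hd⟩ := exists_rl_conj hA
  have h1 : c 1 = 0 := by
    have := hc 1 1
    rw [mul_one, map_one, Module.End.one_apply] at this
    simpa using this
  have hinv : c γ + τ γ (c γ⁻¹) = 0 := by
    have := hc γ γ⁻¹
    rw [mul_inv_cancel, h1] at this
    rw [add_comm]
    exact this.symm
  refine ⟨τ γ Y - c γ, fun g hg => ?_⟩
  obtain ⟨δ, u, hu, hδ⟩ := hd U hU g hg
  have h2 : c (γ⁻¹ * g * γ) = τ (γ⁻¹ * g * γ) Y - Y := by
    rw [hδ, hcU _ _ hu, hY, map_mul, Module.End.mul_apply, hτU _ _ hu]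
  have h3 : c (γ * (γ⁻¹ * g * γ) * γ⁻¹) = τ (γ * (γ⁻¹ * g * γ)) (c γ⁻¹) +
      (τ γ (c (γ⁻¹ * g * γ)) + c γ) := by rw [hc, hc]
  have h4 : γ * (γ⁻¹ * g * γ) * γ⁻¹ = g := by group
  have h5 : γ * (γ⁻¹ * g * γ) = g * γ := by group
  rw [h4, h5, h2, map_sub, ← Module.End.mul_apply (τ γ), ← map_mul, h5, map_mul,
    Module.End.mul_apply, Module.End.mul_apply] at h3
  rw [h3, map_sub]
  have h6 : c γ = - τ γ (c γ⁻¹) := eq_neg_of_add_eq_zero_left hinv
  rw [h6, map_neg]
  abel

/-- the converse direction, for one place -/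
theorem LocTriv.of_decomposition {q : Nat.Primes} {c : GQ → V}
    (hc : ∀ g h, c (g * h) = τ g (c h) + c g)
    {A : ValuationSubring Qb} (hA : A.LiesOverPrime (q : ℕ))
    (h : ∃ Y : V, ∀ g ∈ A.decompositionSubgroup ℚ, c g = τ g Y - Y) : LocTriv q τ c := by
  obtain ⟨Y, hY⟩ := h
  obtain ⟨γ, hγ⟩ := exists_smul_eq q.2 hA (nonunits_padicPlace q)
  have h1 : c 1 = 0 := by
    have := hc 1 1
    rw [mul_one, map_one, Module.End.one_apply] at this
    simpa using this
  have hinv : c γ + τ γ (c γ⁻¹) = 0 := by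
    have := hc γ γ⁻¹
    rw [mul_inv_cancel, h1] at this
    rw [add_comm]
    exact this.symm
  refine ⟨τ γ Y - c γ, fun δ => ?_⟩
  set g := rl q δ with hgdef
  have hg : γ⁻¹ * g * γ ∈ A.decompositionSubgroup ℚ := by
    have h1 : g • padicPlace (q : ℕ) = padicPlace (q : ℕ) :=
      localGaloisToGlobal_mem_decompositionSubgroup (q : ℕ) δ
    change (γ⁻¹ * g * γ) • A = A
    rw [mul_smul, ← hγ, mul_smul, h1, hγ, inv_smul_smul]
  have h2 := hY _ hg
  have h3 : c (γ * (γ⁻¹ * g * γ) * γ⁻¹) = τ (γ * (γ⁻¹ * g * γ)) (c γ⁻¹) +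
      (τ γ (c (γ⁻¹ * g * γ)) + c γ) := by rw [hc, hc]
  have h4 : γ * (γ⁻¹ * g * γ) * γ⁻¹ = g := by group
  have h5 : γ * (γ⁻¹ * g * γ) = g * γ := by group
  rw [h4, h5, h2, map_sub, ← Module.End.mul_apply (τ γ), ← map_mul, h5, map_mul,
    Module.End.mul_apply, Module.End.mul_apply] at h3
  rw [h3, map_sub]
  have h6 : c γ = - τ γ (c γ⁻¹) := eq_neg_of_add_eq_zero_left hinv
  rw [h6, map_neg]
  abel

end Coc

end Fermat.Agent.RT
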