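import Mathlib
import Fermat.Agent.ESCore.UnivG
import Fermat.Agent.FrobDensity.Density

set_option autoImplicit false
set_option maxHeartbeats 400000
set_option linter.style.haveILetI false
set_option linter.unusedSectionVars false
set_option linter.unusedVariables false

/-!
# Pseudo-representations with cyclotomic determinant
-/

open IsLocalRing
open Fermat.Agent.ESCore

noncomputable section

namespace Fermat.Agent.RT

/-! ### The cyclotomic character -/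

section Cyc

variable {𝒪 : Type} [CommRing 𝒪] [IsLocalRing 𝒪] [IsNoetherianRing 𝒪] {p : ℕ}

/-- `χ` is the `p`-adic cyclotomic character. -/
def IsCyc (p : ℕ) (χ : GQ →* 𝒪ˣ) : Prop :=
  ∀ (n : ℕ) (σ : GQ) (k : ℕ), (∀ ζ : Qb, ζ ^ (p ^ n) = 1 → σ ζ = ζ ^ k) →
    (χ σ : 𝒪) - k ∈ Ideal.span {(p : 𝒪) ^ n}

lemma act_eq (hp : p.Prime) (n : ℕ) (σ : GQ) : ∃ k : ℕ, ∀ ζ : Qb, ζ ^ (p ^ n) = 1 → σ ζ = ζ ^ k := by
  haveI : NeZero (p ^ n) := ⟨(pow_pos hp.pos n).ne'⟩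
  exact ⟨_, fun ζ hζ => cyc_spec σ hζ⟩

lemma act_congr (hp : p.Prime) {n : ℕ} {σ : GQ} {k k' : ℕ}
    (h : ∀ ζ : Qb, ζ ^ (p ^ n) = 1 → σ ζ = ζ ^ k) (h' : ∀ ζ : Qb, ζ ^ (p ^ n) = 1 → σ ζ = ζ ^ k')
    (T : Type*) [CommRing T] : (k : T) - k' ∈ Ideal.span {(p : T) ^ n} := by
  haveI : NeZero (p ^ n) := ⟨(pow_pos hp.pos n).ne'⟩
  obtain ⟨ζ, hζ⟩ := exists_primitiveRoot (p ^ n)
  have h1 := cyc_eq_of hζ (h ζ hζ.pow_eq_one)
  have h2 := cyc_eq_of hζ (h' ζ hζ.pow_eq_one)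
  rw [h1, ZMod.natCast_eq_natCast_iff] at h2
  have h3 := (Nat.modEq_iff_dvd.mp h2.symm)
  obtain ⟨c, hc⟩ := h3
  rw [Ideal.mem_span_singleton]
  refine ⟨(c : T), ?_⟩
  have h4 := congrArg (Int.cast : ℤ → T) hc
  push_cast at h4
  exact h4

variable [IsAdicComplete (maximalIdeal 𝒪) 𝒪]

theorem exists_isCyc (hp : p.Prime) (hp𝒪 : (p : 𝒪) ∈ maximalIdeal 𝒪) :
    ∃ χ : GQ →* 𝒪ˣ, IsCyc p χ := by
  have key : ∀ σ : GQ, ∃ t : 𝒪, ∀ (n : ℕ) (k : ℕ), (∀ ζ : Qb, ζ ^ (p ^ n) = 1 → σ ζ = ζ ^ k) →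
      t - k ∈ Ideal.span {(p : 𝒪) ^ n} := by
    intro σ
    obtain ⟨t, ht⟩ := exists_lim hp𝒪
      (fun n => {x : 𝒪 | ∃ k : ℕ, x = k ∧ ∀ ζ : Qb, ζ ^ (p ^ n) = 1 → σ ζ = ζ ^ k})
      (fun n => by
        obtain ⟨k, hk⟩ := act_eq hp n σ
        exact ⟨k, k, rfl, hk⟩)
      (fun n x hx => by
        obtain ⟨k, rfl, hk⟩ := hx
        exact ⟨k, rfl, fun ζ hζ => hk ζ (by rw [pow_succ, pow_mul, hζ, one_pow])⟩)
      (fun n x hx y hy => by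
        obtain ⟨k, rfl, hk⟩ := hx
        obtain ⟨k', rfl, hk'⟩ := hy
        exact act_congr hp hk hk' 𝒪)
    exact ⟨t, fun n k hk => ht n k ⟨k, rfl, hk⟩⟩
  choose t ht using key
  have hmul : ∀ σ τ, t (σ * τ) = t σ * t τ := by
    intro σ τ
    refine eq_of_forall_sub_mem hp𝒪 fun n => ?_
    obtain ⟨k, hk⟩ := act_eq hp n σ
    obtain ⟨l, hl⟩ := act_eq hp n τ
    have h1 := ht (σ * τ) n (k * l) (fun ζ hζ => by
      rw [AlgEquiv.mul_apply, hl ζ hζ, map_pow, hk ζ hζ, pow_mul])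
    have h2 := ht σ n k hk
    have h3 := ht τ n l hl
    have h4 : t (σ * τ) - t σ * t τ = (t (σ * τ) - (k * l : ℕ)) - (t σ - k) * t τ -
        k * (t τ - l) := by push_cast; ring
    rw [h4]
    exact Ideal.sub_mem _ (Ideal.sub_mem _ h1 (Ideal.mul_mem_right _ _ h2))
      (Ideal.mul_mem_left _ _ h3)
  have hone : t 1 = 1 := by
    refine eq_of_forall_sub_mem hp𝒪 fun n => ?_
    have h1 := ht 1 n 1 (fun ζ _ => by rw [pow_one]; rfl)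
    rwa [Nat.cast_one] at h1
  let f : GQ →* 𝒪 := { toFun := t, map_one' := hone, map_mul' := hmul }
  exact ⟨f.toHomUnits, fun n σ k hk => ht σ n k hk⟩

omit [IsAdicComplete (maximalIdeal 𝒪) 𝒪] in
/-- Krull: the ideals generated by the powers of `p` have intersection zero. -/
lemma eq_zero_of_pow (hp𝒪 : (p : 𝒪) ∈ maximalIdeal 𝒪) {x : 𝒪}
    (h : ∀ n : ℕ, x ∈ Ideal.span {(p : 𝒪) ^ n}) : x = 0 := by
  have h1 : x ∈ ⨅ n : ℕ, maximalIdeal 𝒪 ^ n := by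
    rw [Submodule.mem_iInf]
    intro n
    have h2 := h n
    rw [← Ideal.span_singleton_pow] at h2
    exact Ideal.pow_right_mono (by rwa [Ideal.span_singleton_le_iff_mem]) n h2
  rw [Ideal.iInf_pow_eq_bot_of_isLocalRing _ (IsLocalRing.maximalIdeal.isMaximal 𝒪).ne_top] at h1
  exact (Submodule.mem_bot 𝒪).mp h1

omit [IsAdicComplete (maximalIdeal 𝒪) 𝒪] in
lemma IsCyc.frob {χ : GQ →* 𝒪ˣ} (hχ : IsCyc p χ) (hp : p.Prime)
    (hp𝒪 : (p : 𝒪) ∈ maximalIdeal 𝒪) {l : ℕ} (hl : l.Prime) (hlp : l ≠ p)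
    {A : ValuationSubring Qb} (hA : A.LiesOverPrime l) {σ : GQ} (hσ : A.IsFrobeniusAt σ l) :
    (χ σ : 𝒪) = l := by
  rw [← sub_eq_zero]
  refine eq_zero_of_pow hp𝒪 fun n => hχ n σ l fun ζ hζ => ?_
  have hnd : ¬ l ∣ p ^ n := fun h => hlp ((Nat.prime_dvd_prime_iff_eq hl hp).mp
    (hl.dvd_of_dvd_pow h))
  exact frob_root hA hl hσ hnd hζ

omit [IsAdicComplete (maximalIdeal 𝒪) 𝒪] in
lemma IsCyc.inertia {χ : GQ →* 𝒪ˣ} (hχ : IsCyc p χ) (hp : p.Prime)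
    (hp𝒪 : (p : 𝒪) ∈ maximalIdeal 𝒪) {l : ℕ} (hl : l.Prime) (hlp : l ≠ p)
    {A : ValuationSubring Qb} (hA : A.LiesOverPrime l) {σ : GQ}
    (hσ : σ ∈ A.inertiaSubgroupIn ℚ) : χ σ = 1 := by
  apply Units.ext
  rw [Units.val_one, ← sub_eq_zero]
  refine eq_zero_of_pow hp𝒪 fun n => ?_
  have h1 := hχ n σ 1 fun ζ hζ => by
    have hnd : ¬ l ∣ p ^ n := fun h => hlp ((Nat.prime_dvd_prime_iff_eq hl hp).mp
      (hl.dvd_of_dvd_pow h))
    rw [pow_one]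
    exact inertia_root hA hl hσ hnd hζ
  rwa [Nat.cast_one] at h1

omit [IsAdicComplete (maximalIdeal 𝒪) 𝒪] in
lemma IsCyc.cc {χ : GQ →* 𝒪ˣ} (hχ : IsCyc p χ) (hp : p.Prime)
    (hp𝒪 : (p : 𝒪) ∈ maximalIdeal 𝒪) : (χ complexConjugation : 𝒪) = -1 := by
  rw [eq_neg_iff_add_eq_zero]
  refine eq_zero_of_pow hp𝒪 fun n => ?_
  have hpn : p ^ n ≠ 0 := (pow_pos hp.pos n).ne'
  have h1 := hχ n complexConjugation (p ^ n - 1) fun ζ hζ => by
    rw [Univ.complexConjugation_root hpn hζ]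
    refine inv_eq_of_mul_eq_one_left ?_
    rw [← pow_succ, Nat.sub_add_cancel (Nat.pos_of_ne_zero hpn), hζ]
  rw [Nat.cast_sub (Nat.pos_of_ne_zero hpn), Nat.cast_one, Nat.cast_pow] at h1
  have h2 : (χ complexConjugation : 𝒪) + 1 =
      ((χ complexConjugation : 𝒪) - ((p : 𝒪) ^ n - 1)) + (p : 𝒪) ^ n := by ring
  rw [h2]
  exact Ideal.add_mem _ h1 (Ideal.mem_span_singleton_self _)

end Cyc

/-! ### Pseudo-representations with cyclotomic determinant -/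

section Ps

/-- Powers. -/
def ltr {T : Type*} [CommRing T] (t d : T) : ℕ → T
  | 0 => 2
  | 1 => t
  | (n + 2) => t * ltr t d (n + 1) - d * ltr t d n

lemma ltr_map {T T' : Type*} [CommRing T] [CommRing T'] (f : T →+* T') (t d : T) : ∀ n : ℕ,
    f (ltr t d n) = ltr (f t) (f d) n
  | 0 => by rw [ltr, ltr, map_ofNat]
  | 1 => by rw [ltr, ltr]
  | (n + 2) => by rw [ltr, ltr, map_sub, map_mul, map_mul, ltr_map f t d (n + 1), ltr_map f t d n]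

lemma IsPseudo_pow {G T : Type*} [Group G] [CommRing T] {t : G → T} {χ : G →* Tˣ}
    (h : IsPseudo t χ) (g : G) : ∀ n : ℕ, t (g ^ n) = ltr (t g) (χ g : T) n
  | 0 => by rw [pow_zero, ltr, h.one]
  | 1 => by rw [pow_one, ltr]
  | (n + 2) => by
    have h1 := h.mul g (g ^ (n + 1))
    rw [← pow_succ' g (n + 1)] at h1
    have h2 : g⁻¹ * g ^ (n + 1) = g ^ n := by rw [pow_succ' g n, inv_mul_cancel_left]
    rw [h2] at h1
    rw [ltr, ← IsPseudo_pow h g (n + 1), ← IsPseudo_pow h g n, h1]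
    ring

variable {𝒪 : Type} [CommRing 𝒪] {T : Type} [CommRing T] [Algebra 𝒪 T]

variable (T) in
/-- The cyclotomic character with values in `T`. -/
def cycT (χ : GQ →* 𝒪ˣ) : GQ →* Tˣ := (Units.map (algebraMap 𝒪 T).toMonoidHom).comp χ

lemma cycT_coe (χ : GQ →* 𝒪ˣ) (σ : GQ) : (cycT T χ σ : T) = algebraMap 𝒪 T (χ σ) := rfl

/-- Continuous pseudo-representations with cyclotomic determinant, unramified outside `B`. -/
structure CycPs (χ : GQ →* 𝒪ˣ) (p : ℕ) (B : Set ℕ) (t : GQ → T) : Prop where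
  ps : IsPseudo t (cycT T χ)
  cont : ∀ n : ℕ, ∃ L : IntermediateField ℚ Qb, FiniteDimensional ℚ L ∧ ∀ σ : GQ,
    (∀ x ∈ L, σ x = x) → ∀ g, t (σ * g) - t g ∈ Ideal.span {(p : T) ^ n}
  unr : ∀ q : ℕ, q.Prime → q ∉ B → ∀ A : ValuationSubring Qb, A.LiesOverPrime q →
    ∀ σ ∈ A.inertiaSubgroupIn ℚ, ∀ g, t (σ * g) = t g

variable {χ : GQ →* 𝒪ˣ} {p : ℕ} {B : Set ℕ} {t t' : GQ → T}

lemma CycPs.map {T' : Type} [CommRing T'] [Algebra 𝒪 T'] (f : T →ₐ[𝒪] T') (h : CycPs χ p B t) :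
    CycPs χ p B (fun σ => f (t σ)) := by
  refine ⟨⟨?_, fun g k => ?_⟩, fun n => ?_, fun q hq hqB A hA σ hσ g => ?_⟩
  · rw [h.ps.one, map_ofNat]
  · rw [← map_mul, h.ps.mul, map_add, map_mul, cycT_coe, cycT_coe, AlgHom.commutes]
  · obtain ⟨L, hL, hL2⟩ := h.cont n
    refine ⟨L, hL, fun σ hσ g => ?_⟩
    have h1 := hL2 σ hσ g
    rw [Ideal.mem_span_singleton] at h1 ⊢
    obtain ⟨c, hc⟩ := h1
    exact ⟨f c, by rw [← map_sub, hc, map_mul, map_pow, map_natCast]⟩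
  · rw [h.unr q hq hqB A hA σ hσ g]

lemma CycPs.mono {B' : Set ℕ} (hB : B ⊆ B') (h : CycPs χ p B t) : CycPs χ p B' t :=
  ⟨h.ps, h.cont, fun q hq hqB => h.unr q hq fun h' => hqB (hB h')⟩

/-- Any element agrees with a power of a Frobenius up to an element of a small subgroup. -/
lemma exists_frob_pow_mul (L : IntermediateField ℚ Qb) [FiniteDimensional ℚ L] (σ : GQ)
    (S : Finset ℕ) : ∃ l : ℕ, l.Prime ∧ l ∉ S ∧ ∃ A : ValuationSubring Qb, A.LiesOverPrime l ∧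
      ∃ φ : GQ, A.IsFrobeniusAt φ l ∧ ∃ (i : ℕ) (u : GQ), σ = u * φ ^ i ∧ ∀ x ∈ L, u x = x := by
  let M : IntermediateField ℚ Qb := IntermediateField.normalClosure ℚ L Qb
  haveI : FiniteDimensional ℚ M := inferInstance
  have hLM : L ≤ M := L.le_normalClosure
  haveI hn : Normal ℚ M := normalClosure.normal ℚ L Qb
  obtain ⟨l, hl, hlS, A, hA, φ, hφ, i, j, h1, h2⟩ :=
    FrobDensity.exists_frobenius_pow M σ S
  refine ⟨l, hl, hlS, A, hA, φ, hφ, i, σ * (φ ^ i)⁻¹, by rw [inv_mul_cancel_right], ?_⟩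
  intro x hx
  have hxM : x ∈ M := hLM hx
  have h3 : (φ ^ i)⁻¹ x ∈ M := by
    have h4 := AlgEquiv.restrictNormal_commutes ((φ ^ i)⁻¹) M ⟨x, hxM⟩
    change _ = (φ ^ i)⁻¹ x at h4
    rw [← h4]
    exact (AlgEquiv.restrictNormal ((φ ^ i)⁻¹) M ⟨x, hxM⟩).2
  rw [AlgEquiv.mul_apply, ← h1 _ h3, ← AlgEquiv.mul_apply, mul_inv_cancel]
  rfl

/-- The values at a Frobenius determine the pseudo-representation. -/
theorem CycPs.ext (hT : ∀ x : T, (∀ n : ℕ, x ∈ Ideal.span {(p : T) ^ n}) → x = 0)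
    (h : CycPs χ p B t) {B' : Set ℕ} (h' : CycPs χ p B' t') (S : Finset ℕ)
    (hfr : ∀ l : ℕ, l.Prime → l ∉ S → ∀ A : ValuationSubring Qb, A.LiesOverPrime l →
      ∀ σ : GQ, A.IsFrobeniusAt σ l → t σ = t' σ) : t = t' := by
  funext σ
  rw [← sub_eq_zero]
  refine hT _ fun n => ?_
  obtain ⟨L, hL, hL2⟩ := h.cont n
  obtain ⟨L', hL', hL2'⟩ := h'.cont n
  haveI := hL
  haveI := hL'
  obtain ⟨l, hl, hlS, A, hA, φ, hφ, i, u, hu, huL⟩ := exists_frob_pow_mul (L ⊔ L') σ S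
  have h1 := hL2 u (fun x hx => huL x (le_sup_left (a := L) hx)) (φ ^ i)
  have h2 := hL2' u (fun x hx => huL x (le_sup_right (a := L) hx)) (φ ^ i)
  have h3 : t (φ ^ i) = t' (φ ^ i) := by
    rw [IsPseudo_pow h.ps, IsPseudo_pow h'.ps, hfr l hl hlS A hA φ hφ]
  rw [← hu] at h1 h2
  have h4 : t σ - t' σ = (t σ - t (φ ^ i)) - (t' σ - t' (φ ^ i)) := by rw [h3]; ring
  rw [h4]
  exact Ideal.sub_mem _ h1 h2

end Ps

/-! ### Descent to a subalgebra -/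

section Descent

variable {𝒪 : Type} [CommRing 𝒪] [IsLocalRing 𝒪] [IsNoetherianRing 𝒪] {T 𝒯 : Type} [CommRing T]
  [Algebra 𝒪 T] [CommRing 𝒯] [Algebra 𝒪 𝒯] [Module.Finite 𝒪 𝒯] (j : T →ₐ[𝒪] 𝒯)
  {χ : GQ →* 𝒪ˣ} {p : ℕ} {B : Set ℕ} {t : GQ → 𝒯}

lemma span_pow_eq_smul {M : Type} [CommRing M] [Algebra 𝒪 M] (n : ℕ) {x : M} :
    x ∈ Ideal.span {(p : M) ^ n} ↔ x ∈ (Ideal.span {(p : 𝒪)}) ^ n • (⊤ : Submodule 𝒪 M) := by
  rw [Ideal.span_singleton_pow, Submodule.ideal_span_singleton_smul, Ideal.mem_span_singleton,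
    Submodule.mem_smul_pointwise_iff_exists]
  constructor
  · rintro ⟨c, hc⟩
    exact ⟨c, Submodule.mem_top, by rw [hc, Algebra.smul_def, map_pow, map_natCast]⟩
  · rintro ⟨c, -, hc⟩
    exact ⟨c, by rw [← hc, Algebra.smul_def, map_pow, map_natCast]⟩

lemma mem_range_of_forall (hp𝒪 : (p : 𝒪) ∈ maximalIdeal 𝒪) {x : 𝒯}
    (h : ∀ n : ℕ, ∃ y : T, x - j y ∈ Ideal.span {(p : 𝒯) ^ n}) : ∃ y, j y = x := by
  let N : Submodule 𝒪 𝒯 := LinearMap.range j.toLinearMap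
  haveI : IsHausdorff (maximalIdeal 𝒪) (𝒯 ⧸ N) := inferInstance
  have h1 : (Submodule.Quotient.mk x : 𝒯 ⧸ N) = 0 := by
    refine IsHausdorff.haus (I := maximalIdeal 𝒪) inferInstance _ fun n => ?_
    rw [SModEq.zero]
    obtain ⟨y, hy⟩ := h n
    rw [Ideal.mem_span_singleton] at hy
    obtain ⟨c, hc⟩ := hy
    have h2 : (Submodule.Quotient.mk x : 𝒯 ⧸ N) = (p : 𝒪) ^ n • Submodule.Quotient.mk c := by
      rw [← Submodule.Quotient.mk_smul, Submodule.Quotient.eq]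
      refine ⟨y, ?_⟩
      rw [Algebra.smul_def, map_pow, map_natCast, ← hc]
      change j y = _
      ring
    rw [h2]
    exact Submodule.smul_mem_smul (Ideal.pow_mem_pow hp𝒪 n) Submodule.mem_top
  rw [Submodule.Quotient.mk_eq_zero] at h1
  exact h1

lemma exists_artin_rees (hj : Function.Injective j) : ∃ k : ℕ, ∀ (n : ℕ) (y : T),
    j y ∈ Ideal.span {(p : 𝒯) ^ (n + k)} → y ∈ Ideal.span {(p : T) ^ n} := by
  let N : Submodule 𝒪 𝒯 := LinearMap.range j.toLinearMap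
  obtain ⟨k, hk⟩ := Ideal.exists_pow_inf_eq_pow_smul (Ideal.span {(p : 𝒪)}) N
  refine ⟨k, fun n y hy => ?_⟩
  rw [span_pow_eq_smul (𝒪 := 𝒪)] at hy
  have h1 : j y ∈ (Ideal.span {(p : 𝒪)}) ^ (n + k) • (⊤ : Submodule 𝒪 𝒯) ⊓ N := ⟨hy, ⟨y, rfl⟩⟩
  rw [hk (n + k) (Nat.le_add_left k n), Nat.add_sub_cancel] at h1
  have h2 : j y ∈ (Ideal.span {(p : 𝒪)}) ^ n • N :=
    (Submodule.smul_mono le_rfl inf_le_right :
      (Ideal.span {(p : 𝒪)}) ^ n • ((Ideal.span {(p : 𝒪)}) ^ k • (⊤ : Submodule 𝒪 𝒯) ⊓ N) ≤ _) h1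
  rw [Ideal.span_singleton_pow, Submodule.ideal_span_singleton_smul,
    Submodule.mem_smul_pointwise_iff_exists] at h2
  obtain ⟨_, ⟨z, rfl⟩, hz⟩ := h2
  rw [Ideal.mem_span_singleton]
  refine ⟨z, hj ?_⟩
  rw [map_mul, map_pow, map_natCast, ← hz, Algebra.smul_def, map_pow, map_natCast]
  rfl

include j in
/-- **Descent.** -/
theorem CycPs.descend (hp : p.Prime) (hp𝒪 : (p : 𝒪) ∈ maximalIdeal 𝒪) (hχ : IsCyc p χ)
    (hj : Function.Injective j) (h : CycPs χ p B t) (S : Finset ℕ)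
    (hfr : ∀ l : ℕ, l.Prime → l ∉ S → ∀ A : ValuationSubring Qb, A.LiesOverPrime l →
      ∀ σ : GQ, A.IsFrobeniusAt σ l → ∃ y, j y = t σ) :
    ∃ t₀ : GQ → T, (∀ σ, j (t₀ σ) = t σ) ∧ CycPs χ p B t₀ := by
  have key : ∀ σ, ∃ y, j y = t σ := by
    intro σ
    refine mem_range_of_forall j hp𝒪 fun n => ?_
    obtain ⟨L, hL, hL2⟩ := h.cont n
    haveI := hL
    obtain ⟨l, hl, hlS, A, hA, φ, hφ, i, u, hu, huL⟩ := exists_frob_pow_mul L σ (insert p S)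
    rw [Finset.mem_insert, not_or] at hlS
    obtain ⟨y, hy⟩ := hfr l hl hlS.2 A hA φ hφ
    refine ⟨ltr y (algebraMap 𝒪 T (χ φ)) i, ?_⟩
    have h1 : j (ltr y (algebraMap 𝒪 T (χ φ)) i) = t (φ ^ i) := by
      rw [IsPseudo_pow h.ps, ← hy, cycT_coe]
      have h2 := ltr_map (j : T →+* 𝒯) y (algebraMap 𝒪 T (χ φ)) i
      rw [AlgHom.coe_toRingHom] at h2
      rw [h2, AlgHom.commutes]
    rw [h1, hu]
    exact hL2 u huL (φ ^ i)
  choose t₀ ht₀ using key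
  refine ⟨t₀, ht₀, ⟨⟨?_, fun g k => ?_⟩, fun n => ?_, fun q hq hqB A hA σ hσ g => ?_⟩⟩
  · apply hj
    rw [ht₀, h.ps.one, map_ofNat]
  · apply hj
    rw [map_mul, map_add, map_mul, ht₀, ht₀, ht₀, ht₀, h.ps.mul, cycT_coe, cycT_coe,
      AlgHom.commutes]
  · obtain ⟨k, hk⟩ := exists_artin_rees (p := p) j hj
    obtain ⟨L, hL, hL2⟩ := h.cont (n + k)
    refine ⟨L, hL, fun σ hσ g => hk n _ ?_⟩
    rw [map_sub, ht₀, ht₀]
    exact hL2 σ hσ g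
  · apply hj
    rw [ht₀, ht₀, h.unr q hq hqB A hA σ hσ g]

end Descent

end Fermat.Agent.RT
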