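import Fermat.Agent.RT.IndexTwo3
import Fermat.Agent.EC.Dichotomy
import Fermat.Agent.EFrob.Det
import Fermat.Prelude.Def_FLTPrelim_ModularRep

set_option autoImplicit false

/-!
# Absolute irreducibility over quadratic fields for the `p`-torsion of a semistable curve
-/

noncomputable section

open Matrix
open scoped Pointwise
open WeierstrassCurve WeierstrassCurve.Affine WeierstrassCurve.Affine.Point

namespace Fermat.Agent.RT

open Fermat.Agent.EC Fermat.Agent.Coh Fermat.Agent.GCFT Fermat.Agent.ESCore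

/-- The field of algebraic numbers. -/
local notation "Kb" => AlgebraicClosure ℚ
/-- The absolute Galois group. -/
local notation "GQ" => (AlgebraicClosure ℚ ≃ₐ[ℚ] AlgebraicClosure ℚ)

variable {E : WeierstrassCurve ℚ} {p : ℕ}

/-- If the `p`-torsion lies in the kernel of reduction, inertia acts transitively on the
nonzero `p`-torsion points up to sign. -/
theorem inertia_transitive [E.IsElliptic] [hp : Fact p.Prime] (hp2 : p ≠ 2)
    {A : ValuationSubring Kb} (hA : A.LiesOverPrime p)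
    (hW : VInt A.valuation (E⁄Kb)) (htop : kerSub (E := E) (p := p) A hW = ⊤)
    {x y : TorsP E p} (hx0 : x ≠ 0) (hy0 : y ≠ 0) :
    ∃ σ ∈ A.inertiaSubgroupIn ℚ, σ • x = y ∨ σ • x = -y := by
  classical
  have hvp : A.valuation (p : Kb) < 1 := hA
  have hp0 : (p : Kb) ≠ 0 := by exact_mod_cast hp.out.ne_zero
  have hodd : Odd p := hp.out.odd_of_ne_two hp2
  have hall : ∀ x : TorsP E p, InKer A.valuation (x : (E⁄Kb).Point) := fun x => by
    rw [← mem_kerSub (hW := hW), htop]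
    exact Submodule.mem_top
  have hX1 : ∀ x ∈ ECT.xtors (E⁄Kb) hp0, 1 < A.valuation x := by
    intro x hx
    obtain ⟨P, hP, hpP, rfl⟩ := (ECT.mem_xtors hp0).mp hx
    rcases hall ⟨P, mem_torsionBy_iff'.mpr hpP⟩ with h | h
    · exact absurd h hP
    · exact h
  have hsm0 : ∀ (σ : GQ) (z : TorsP E p), z ≠ 0 → σ • z ≠ 0 := by
    intro σ z hz h0
    apply hz
    have := congrArg (fun z => σ⁻¹ • z) h0
    simpa using this
  have hc0' : ∀ z : TorsP E p, z ≠ 0 → (z : (E⁄Kb).Point) ≠ 0 := fun z hz h =>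
    hz (Subtype.ext h)
  let XN : Finset Kb := (ECT.xtors (E⁄Kb) hp0).filter
    (fun X => ∃ σ ∈ A.inertiaSubgroupIn ℚ, xc ((σ • x : TorsP E p) : (E⁄Kb).Point) = X)
  have hXNmem : ∀ X, X ∈ XN ↔ ∃ σ ∈ A.inertiaSubgroupIn ℚ,
      xc ((σ • x : TorsP E p) : (E⁄Kb).Point) = X := by
    intro X
    simp only [XN, Finset.mem_filter]
    constructor
    · exact fun h => h.2
    · rintro ⟨σ, hσ, rfl⟩
      exact ⟨(ECT.mem_xtors hp0).mpr ⟨_, hc0' _ (hsm0 σ x hx0), torsion_smul _, rfl⟩, σ, hσ, rfl⟩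
  have hstab : ∀ σ ∈ A.inertiaSubgroupIn ℚ, ∀ X ∈ XN, σ X ∈ XN := by
    intro σ hσ X hX
    rw [hXNmem] at hX ⊢
    obtain ⟨τ, hτ, rfl⟩ := hX
    refine ⟨σ * τ, mul_mem hσ hτ, ?_⟩
    rw [mul_smul, coe_smul_torsion, xc_map]
  obtain ⟨r, hr⟩ : ∃ r, r = ∏ X ∈ XN, X := ⟨_, rfl⟩
  have hrfix : r ∈ LG.KI A := by
    rw [LG.mem_KI]
    intro σ hσ
    rw [hr, map_prod]
    refine Finset.prod_nbij (fun x => σ x) (fun x hx => hstab σ hσ x hx)
      (fun x _ y _ hxy => σ.injective hxy) ?_ (fun _ _ => rfl)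
    intro y hy
    refine ⟨σ.symm y, hstab σ.symm (inv_mem hσ) y hy, ?_⟩
    exact σ.apply_symm_apply y
  have hXNne : XN.Nonempty := ⟨xc ((1 : GQ) • x : TorsP E p).1, (hXNmem _).mpr
    ⟨1, one_mem _, rfl⟩⟩
  have hXN1 : 1 < A.valuation r := by
    rw [hr, map_prod]
    exact one_lt_prod hXNne (fun x hx => hX1 x (Finset.mem_filter.mp hx).1)
  have hvp0 : 0 < A.valuation (p : Kb) := zero_lt_iff.mpr ((Valuation.ne_zero_iff _).mpr hp0)
  have hr0 : r ≠ 0 := by
    rintro rfl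
    rw [_root_.map_zero] at hXN1
    exact absurd hXN1 (not_lt.mpr zero_le)
  obtain ⟨n, hn⟩ := LG.exists_zpow A hp.out hA hrfix hr0
  have hprod : 1 ≤ A.valuation (p : Kb) * A.valuation r := by
    rw [hn] at hXN1 ⊢
    have hk : n < 0 := by
      rw [← zpow_zero (A.valuation (p : Kb)),
        zpow_lt_zpow_iff_right_of_lt_one₀ hvp0 hvp] at hXN1
      exact hXN1
    rw [← zpow_one_add₀ hvp0.ne', ← zpow_zero (A.valuation (p : Kb)),
      zpow_le_zpow_iff_right_of_lt_one₀ hvp0 hvp]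
    omega
  by_cases hyN : xc (y : (E⁄Kb).Point) ∈ XN
  · obtain ⟨σ, hσ, hσy⟩ := (hXNmem _).mp hyN
    refine ⟨σ, hσ, ?_⟩
    rcases eq_or_eq_neg_of_xc (hc0' _ (hsm0 σ x hx0)) (hc0' _ hy0) hσy with h | h
    · exact Or.inl (Subtype.ext h)
    · right
      apply Subtype.ext
      rw [h, NegMemClass.coe_neg]
  exfalso
  have hrest : ((ECT.xtors (E⁄Kb) hp0) \ XN).Nonempty :=
    ⟨xc (y : (E⁄Kb).Point), Finset.mem_sdiff.mpr ⟨(ECT.mem_xtors hp0).mpr
      ⟨y, hc0' y hy0, torsion_smul y, rfl⟩, hyN⟩⟩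
  have hrest1 : 1 < ∏ x ∈ (ECT.xtors (E⁄Kb) hp0) \ XN, A.valuation x :=
    one_lt_prod hrest (fun x hx => hX1 x (Finset.mem_sdiff.mp hx).1)
  have hle := hW.prod_xtors_le hp0 hodd
  rw [← Finset.prod_sdiff (Finset.filter_subset _ _ : XN ⊆ ECT.xtors (E⁄Kb) hp0),
    mul_comm (∏ x ∈ _ \ _, _), ← mul_assoc, ← map_prod, ← hr] at hle
  have hgt : 1 < A.valuation (p : Kb) * A.valuation r *
      ∏ x ∈ (ECT.xtors (E⁄Kb) hp0) \ XN, A.valuation x := by
    rw [mul_comm]
    exact one_lt_mul_of_lt_of_le' hrest1 hprod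
  exact absurd hle (not_le.mpr hgt)

section Rep

variable (b : Module.Basis (Fin 2) (ZMod p) (TorsP E p))

/-- The matrix representation on the `p`-torsion. -/
def modRep : GQ →* GL (Fin 2) (ZMod p) :=
  (Units.map (LinearMap.toMatrixAlgEquiv b : _ →* Matrix (Fin 2) (Fin 2) (ZMod p))).comp
    (galoisRepModuleEnd (K := Kb) ℚ E p).toHomUnits

theorem modRep_coe (σ : GQ) : (modRep b σ).val =
    LinearMap.toMatrix b b (galoisRepModuleEnd (K := Kb) ℚ E p σ) := rfl

theorem modRep_mulVec (σ : GQ) (x : TorsP E p) :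
    (modRep b σ).val *ᵥ (b.repr x) = b.repr (σ • x) := by
  rw [modRep_coe, LinearMap.toMatrix_mulVec_repr]
  rfl

theorem modRep_mulVec' (σ : GQ) (v : Fin 2 → ZMod p) :
    (modRep b σ).val *ᵥ v = b.equivFun (σ • b.equivFun.symm v) := by
  have h := modRep_mulVec b σ (b.equivFun.symm v)
  rw [← b.equivFun_apply, LinearEquiv.apply_symm_apply] at h
  exact h

theorem modRep_det (σ : GQ) : (modRep b σ).val.det =
    LinearMap.det (galoisRepModuleEnd (K := Kb) ℚ E p σ) := by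
  rw [modRep_coe, LinearMap.det_toMatrix]

theorem modRep_trace (σ : GQ) : (modRep b σ).val.trace =
    LinearMap.trace (ZMod p) (TorsP E p) (galoisRepModuleEnd (K := Kb) ℚ E p σ) := by
  rw [modRep_coe, LinearMap.trace_eq_matrix_trace (ZMod p) b]

theorem modRep_eq_one_iff (σ : GQ) : modRep b σ = 1 ↔ ∀ x : TorsP E p, σ • x = x := by
  constructor
  · intro h x
    have h1 := modRep_mulVec b σ x
    rw [h, Units.val_one, one_mulVec] at h1
    exact b.repr.injective (DFunLike.coe_injective h1.symm)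
  · intro h
    apply Units.ext
    apply Matrix.ext_of_mulVec_single
    intro i
    rw [modRep_mulVec', h, LinearEquiv.apply_symm_apply, Units.val_one, one_mulVec]

theorem modRep_unip (σ : GQ) (h : ∀ x : TorsP E p, σ • (σ • x - x) = σ • x - x) :
    ((modRep b σ).val - 1) * ((modRep b σ).val - 1) = 0 := by
  have h1 : ∀ v, ((modRep b σ).val - 1) *ᵥ v = b.equivFun (σ • b.equivFun.symm v -
      b.equivFun.symm v) := by
    intro v
    rw [sub_mulVec, one_mulVec, modRep_mulVec', map_sub, LinearEquiv.apply_symm_apply]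
  apply Matrix.ext_of_mulVec_single
  intro i
  rw [← mulVec_mulVec, h1, h1, LinearEquiv.symm_apply_apply, h, sub_self, _root_.map_zero,
    zero_mulVec]

theorem modRep_ker_isOpen [E.IsElliptic] [hp : Fact p.Prime] :
    IsOpen ((modRep b).ker : Set GQ) := by
  have := finite_torsion' (E := E) hp.out
  apply isOpen_of_fixing (E := E) (p := p)
  intro σ h
  rw [MonoidHom.mem_ker, modRep_eq_one_iff]
  exact h

theorem modRep_irr [hp : Fact p.Prime]
    (h : GaloisRepIsIrreducible (K := Kb) ℚ E p) (v : Fin 2 → ZMod p) :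
    ¬ ComEig (modRep b) ⊤ v := by
  rintro ⟨hv0, hv⟩
  set x := b.equivFun.symm v with hx
  have hx0 : x ≠ 0 := fun h0 => hv0 (by rw [← b.equivFun.apply_symm_apply v, ← hx, h0,
    _root_.map_zero])
  have hstab : IsGaloisStable ℚ (Submodule.span (ZMod p) {x}) := by
    intro σ y hy
    rw [Submodule.mem_span_singleton] at hy ⊢
    obtain ⟨c, rfl⟩ := hy
    obtain ⟨a, ha⟩ := hv σ trivial
    refine ⟨c * a, ?_⟩
    rw [smul_zmod, mul_smul]
    congr 1
    apply b.equivFun.injective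
    rw [map_smul, hx, LinearEquiv.apply_symm_apply, ← modRep_mulVec', ha]
  rcases h.2 _ hstab with h1 | h1
  · exact hx0 (Submodule.span_singleton_eq_bot.mp h1)
  · have h2 : Module.finrank (ZMod p) (TorsP E p) ≤ 1 := by
      rw [← finrank_top, ← h1]
      exact (finrank_span_le_card _).trans (by simp)
    have h3 : Module.finrank (ZMod p) (TorsP E p) = 2 := by
      rw [Module.finrank_eq_card_basis b, Fintype.card_fin]
    omega

end Rep

theorem trace_eq_of_moved (b : Module.Basis (Fin 2) (ZMod p) (TorsP E p)) [hp : Fact p.Prime]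
    {N : Submodule (ZMod p) (TorsP E p)} (hN : N ≠ ⊤) {σ : GQ} (h : ∀ x : TorsP E p, σ • x - x ∈ N) :
    (modRep b σ).val.trace = 1 + (modRep b σ).val.det := by
  set M := (modRep b σ).val with hM
  have hdet : (M - 1).det = 0 := by
    by_contra h0
    apply hN
    rw [eq_top_iff]
    intro y _
    have hu : IsUnit (M - 1).det := isUnit_iff_ne_zero.mpr h0
    set v := (M - 1)⁻¹ *ᵥ b.equivFun y with hv
    have h1 : (M - 1) *ᵥ v = b.equivFun y := by
      rw [hv, mulVec_mulVec, Matrix.mul_nonsing_inv _ hu, one_mulVec]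
    rw [sub_mulVec, one_mulVec, hM, modRep_mulVec'] at h1
    have h2 : σ • b.equivFun.symm v - b.equivFun.symm v = y := by
      apply b.equivFun.injective
      rw [map_sub, LinearEquiv.apply_symm_apply, h1]
    rw [← h2]
    exact h _
  rw [Matrix.det_fin_two] at hdet
  rw [Matrix.trace_fin_two, Matrix.det_fin_two]
  simp only [Matrix.sub_apply, Matrix.one_apply_eq, ne_eq, zero_ne_one, one_ne_zero,
    not_false_eq_true, Matrix.one_apply_ne, sub_zero] at hdet
  linear_combination -hdet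

variable {K : Type*} [Field K] [Algebra (ZMod p) K]

/-- **Absolute irreducibility over quadratic fields.** -/
theorem not_comEig_index_two_EC [E.IsElliptic] [hp : Fact p.Prime] (hp2 : p ≠ 2)
    (hirr : GaloisRepIsIrreducible (K := Kb) ℚ E p)
    (hdet : ∀ σ : GQ, LinearMap.det (galoisRepModuleEnd (K := Kb) ℚ E p σ) =
      ((cyc p σ : (ZMod p)ˣ) : ZMod p))
    (hunip : ∀ q : ℕ, q.Prime → q ≠ p → ∃ A : ValuationSubring Kb, A.LiesOverPrime q ∧
      ∀ σ ∈ A.inertiaSubgroupIn ℚ, ∀ x : TorsP E p, σ • (σ • x - x) = σ • x - x)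
    {A : ValuationSubring Kb} (hA : A.LiesOverPrime p) (hW : VInt A.valuation (E⁄Kb))
    (hker : ∀ σ ∈ A.inertiaSubgroupIn ℚ, ∀ x : TorsP E p,
      InKer A.valuation ((σ • x - x : TorsP E p) : (E⁄Kb).Point))
    (b : Module.Basis (Fin 2) (ZMod p) (TorsP E p))
    {G : Subgroup GQ} (hG : G.index = 2) (v : Fin 2 → K) : ¬ ComEig (bc K (modRep b)) G v := by
  apply not_comEig_index_two hp2 (modRep_irr b hirr)
    (fun g => by rw [modRep_det, hdet]) (modRep_ker_isOpen b) ?_ hA ?_ hG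
  · intro q hq hqp
    obtain ⟨A', hA', h'⟩ := hunip q hq hqp
    exact ⟨A', hA', fun σ hσ => modRep_unip b σ (h' σ hσ)⟩
  · by_cases htop : kerSub (E := E) (p := p) A hW = ⊤
    · right
      intro v w hv hw
      have hne : ∀ u : Fin 2 → ZMod p, u ≠ 0 → b.equivFun.symm u ≠ 0 := fun u hu h0 =>
        hu (by rw [← b.equivFun.apply_symm_apply u, h0, _root_.map_zero])
      obtain ⟨σ, hσ, h⟩ := inertia_transitive hp2 hA hW htop (hne v hv) (hne w hw)
      refine ⟨σ, hσ, ?_⟩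
      rw [modRep_mulVec']
      rcases h with h | h
      · left; rw [h, LinearEquiv.apply_symm_apply]
      · right; rw [h, map_neg, LinearEquiv.apply_symm_apply]
    · left
      intro σ hσ
      exact trace_eq_of_moved b htop (fun x => hker σ hσ x)

/-! ### Semistable integral models -/

section Semistable

variable {W : WeierstrassCurve ℤ}

/-- The rational curve of an integral model. -/
local notation "WQ" => WeierstrassCurve.map W (Int.castRingHom ℚ)

theorem isElliptic_map (hΔ : W.Δ ≠ 0) : (WQ).IsElliptic := by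
  constructor
  rw [WeierstrassCurve.map_Δ, isUnit_iff_ne_zero]
  intro h
  apply hΔ
  rw [eq_intCast, Int.cast_eq_zero] at h
  exact h

theorem ss_vint (W : WeierstrassCurve ℤ) (A : ValuationSubring Kb) :
    VInt A.valuation ((WeierstrassCurve.map W (Int.castRingHom ℚ))⁄Kb) := by
  have h : ∀ n : ℤ, A.valuation (algebraMap ℚ Kb (n : ℚ)) ≤ 1 := fun n => by
    rw [_root_.map_intCast]
    exact v_int_le _
  exact ⟨h W.a₁, h W.a₂, h W.a₃, h W.a₄, h W.a₆⟩

theorem ss_Δ0 (hΔ : W.Δ ≠ 0) : ((WQ)⁄Kb).Δ ≠ 0 := by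
  have e : ((WQ)⁄Kb).Δ = algebraMap ℚ Kb (WQ).Δ := map_Δ _ _
  rw [e]
  refine (map_ne_zero _).mpr ?_
  rw [map_Δ, eq_intCast]
  exact_mod_cast hΔ

variable (W) in
theorem ss_Δ : ((WQ)⁄Kb).Δ = ((W.Δ : ℤ) : Kb) := by
  have e : ((WQ)⁄Kb).Δ = algebraMap ℚ Kb (WQ).Δ := map_Δ _ _
  rw [e, map_Δ, eq_intCast, _root_.map_intCast]

variable (W) in
theorem ss_c₄ : ((WQ)⁄Kb).c₄ = ((W.c₄ : ℤ) : Kb) := by
  have e : ((WQ)⁄Kb).c₄ = algebraMap ℚ Kb (WQ).c₄ := map_c₄ _ _
  rw [e, map_c₄, eq_intCast, _root_.map_intCast]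

theorem v_int_lt {A : ValuationSubring Kb} {q : ℕ} (hvq : A.valuation ((q : ℕ) : Kb) < 1) {n : ℤ}
    (h : (q : ℤ) ∣ n) : A.valuation ((n : ℤ) : Kb) < 1 := by
  obtain ⟨m, rfl⟩ := h
  push_cast
  rw [mul_comm]
  exact v_lt_mul (v_int_le _) hvq

/-- Unipotence outside `p` for semistable models. -/
theorem ss_unip (hΔ : W.Δ ≠ 0) (hW : W.IsSemistableModel) [hp : Fact p.Prime] (hp2 : p ≠ 2)
    {q : ℕ} (hq : q.Prime) (hqp : q ≠ p) {A : ValuationSubring Kb} (hA : A.LiesOverPrime q)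
    {σ : GQ} (hσ : σ ∈ A.inertiaSubgroupIn ℚ) (x : TorsP (WQ) p) :
    σ • (σ • x - x) = σ • x - x := by
  have hvq : A.valuation ((q : ℕ) : Kb) < 1 := hA
  have hpv : A.valuation (p : Kb) = 1 := v_nat_eq_one hq hvq (fun h =>
    hqp ((Nat.prime_dvd_prime_iff_eq hq hp.out).mp h))
  have hP := torsion_smul x
  by_cases hd : (q : ℤ) ∣ W.Δ
  · apply Subtype.ext
    exact unipotent_of_inertia_of_mult hq hvq hσ (WQ) (ss_vint W A)
      (by rw [ss_c₄]; exact v_int_eq_one hq hvq (hW q hq hd))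
      (by rw [ss_Δ]; exact v_int_lt hvq hd) (ss_Δ0 hΔ) hp.out hp2 hpv hP
  · have h1 : σ • x = x := by
      apply Subtype.ext
      exact map_eq_of_inertia_of_good hσ (WQ) (ss_vint W A)
        (by rw [ss_Δ]; exact v_int_eq_one hq hvq hd) hpv hP
    rw [h1, sub_self, smul_zero]

theorem ss_inKer (hΔ : W.Δ ≠ 0) (hW : W.IsSemistableModel) [hp : Fact p.Prime] (hp2 : p ≠ 2)
    {A : ValuationSubring Kb} (hA : A.LiesOverPrime p) {σ : GQ}
    (hσ : σ ∈ A.inertiaSubgroupIn ℚ) (x : TorsP (WQ) p) :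
    InKer A.valuation ((σ • x - x : TorsP (WQ) p) : ((WQ)⁄Kb).Point) := by
  have hvq : A.valuation (p : Kb) < 1 := hA
  have hP := torsion_smul x
  by_cases hd : (p : ℤ) ∣ W.Δ
  · exact sub_inKer_of_inertia_of_mult hσ (WQ) (ss_vint W A)
      (by rw [ss_c₄]; exact v_int_eq_one hp.out hvq (hW p hp.out hd))
      (by rw [ss_Δ]; exact v_int_lt hvq hd) (ss_Δ0 hΔ) hp.out hp2 hvq hP
  · exact sub_inKer_of_inertia_of_good hp.out hvq hσ (WQ) (ss_vint W A)
      (by rw [ss_Δ]; exact v_int_eq_one hp.out hvq hd) _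

theorem ss_det (hΔ : W.Δ ≠ 0) [hp : Fact p.Prime] (σ : GQ) :
    LinearMap.det (galoisRepModuleEnd (K := Kb) ℚ (WQ) p σ) = ((cyc p σ : (ZMod p)ˣ) : ZMod p) := by
  obtain ⟨ζ, hζ⟩ := exists_primitiveRoot p
  have h := EFrob.det_eq_cyclotomic W hΔ σ hζ.pow_eq_one
  rw [cyc_eq_of hζ h, ZMod.natCast_val, ZMod.cast_id', id_eq]

variable (W p) in
/-- A basis of the `p`-torsion. -/
def torsBasis (hΔ : W.Δ ≠ 0) [hp : Fact p.Prime] : Module.Basis (Fin 2) (ZMod p) (TorsP (WQ) p) :=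
  haveI := isElliptic_map hΔ
  haveI := finite_torsion' (E := WQ) hp.out
  haveI : Module.Finite (ZMod p) (TorsP (WQ) p) := Module.Finite.of_finite
  Module.finBasisOfFinrankEq (ZMod p) (TorsP (WQ) p) finrank_torsion

/-- **The restriction of an irreducible `W[p]` to any subgroup of index `2` is absolutely
irreducible**, for `W` semistable and `p` odd. -/
theorem not_comEig_index_two_semistable (hΔ : W.Δ ≠ 0) (hW : W.IsSemistableModel)
    [hp : Fact p.Prime] (hp2 : p ≠ 2) (hirr : W.ModRepIsIrreducible p)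
    (b : Module.Basis (Fin 2) (ZMod p) (TorsP (WQ) p))
    {G : Subgroup GQ} (hG : G.index = 2) (v : Fin 2 → K) : ¬ ComEig (bc K (modRep b)) G v := by
  have := isElliptic_map hΔ
  obtain ⟨A, hA⟩ := GaloisBasics.exists_liesOverPrime hp.out
  refine not_comEig_index_two_EC hp2 hirr (ss_det hΔ) ?_ hA (ss_vint W A)
    (fun σ hσ x => ss_inKer hΔ hW hp2 hA hσ x) b hG v
  intro q hq hqp
  obtain ⟨A', hA'⟩ := GaloisBasics.exists_liesOverPrime hq
  exact ⟨A', hA', fun σ hσ x => ss_unip hΔ hW hp2 hq hqp hA' hσ x⟩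

end Semistable

end Fermat.Agent.RT
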