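import Fermat.Agent.RT.LRGrp
import Fermat.Agent.RT.IndexTwoEC
import Fermat.Agent.DS.Traces

set_option autoImplicit false

/-!
# Non-Eisenstein primes for irreducible `E[p]`
-/

noncomputable section

open Matrix
open WeierstrassCurve WeierstrassCurve.Affine WeierstrassCurve.Affine.Point

namespace Fermat.Agent.RT.LR

open Fermat.Agent.RT Fermat.Agent.EC Fermat.Agent.ESCore Fermat.Agent.GaloisBasics

/-- The field of algebraic numbers. -/
local notation "Kb" => AlgebraicClosure ℚ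
/-- The absolute Galois group. -/
local notation "GQ" => (AlgebraicClosure ℚ ≃ₐ[ℚ] AlgebraicClosure ℚ)

section Mat

variable {F : Type*} [Field F]

theorem eigen_eq {M : Matrix (Fin 2) (Fin 2) F} {v : Fin 2 → F} (hv : v ≠ 0) {e : F}
    (he : e * e = 1) (h : M *ᵥ v = e • v) : e * M.trace = 1 + M.det := by
  have h0 : (M - e • (1 : Matrix (Fin 2) (Fin 2) F)).det = 0 := by
    apply Matrix.exists_mulVec_eq_zero_iff.mp
    refine ⟨v, hv, ?_⟩
    rw [sub_mulVec, smul_mulVec, one_mulVec, h, sub_self]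
  rw [Matrix.det_fin_two] at h0
  rw [Matrix.trace_fin_two, Matrix.det_fin_two]
  simp only [Matrix.sub_apply, Matrix.smul_apply, Matrix.one_apply_eq, ne_eq, zero_ne_one,
    one_ne_zero, not_false_eq_true, Matrix.one_apply_ne, smul_eq_mul, mul_one, mul_zero,
    sub_zero] at h0
  linear_combination -h0 + he

theorem exists_eigen_of_trace {M : Matrix (Fin 2) (Fin 2) F} {e : F} (he : e * e = 1)
    (h : e * M.trace = 1 + M.det) : ∃ v : Fin 2 → F, v ≠ 0 ∧ M *ᵥ v = e • v := by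
  have hdet0 : (M - e • (1 : Matrix (Fin 2) (Fin 2) F)).det = 0 := by
    rw [Matrix.trace_fin_two, Matrix.det_fin_two] at h
    rw [Matrix.det_fin_two]
    simp only [Matrix.sub_apply, Matrix.smul_apply, Matrix.one_apply_eq, ne_eq, zero_ne_one,
      one_ne_zero, not_false_eq_true, Matrix.one_apply_ne, smul_eq_mul, mul_one, mul_zero,
      sub_zero]
    linear_combination -h + he
  obtain ⟨v, hv0, hv⟩ := Matrix.exists_mulVec_eq_zero_iff.mpr hdet0
  rw [sub_mulVec, smul_mulVec, one_mulVec] at hv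
  exact ⟨v, hv0, sub_eq_zero.mp hv⟩

theorem pow_eigen {M : Matrix (Fin 2) (Fin 2) F} {v : Fin 2 → F} {e : F} (h : M *ᵥ v = e • v)
    (i : ℕ) : (M ^ i) *ᵥ v = e ^ i • v := by
  induction i with
  | zero => rw [pow_zero, pow_zero, one_mulVec, one_smul]
  | succ i ih => rw [pow_succ, ← mulVec_mulVec, h, mulVec_smul, ih, smul_smul, pow_succ, mul_comm]

end Mat

variable {p : ℕ} [hp : Fact p.Prime] {ρ : GQ →* GL (Fin 2) (ZMod p)}

/-- **Frobenius elements without eigenvalue `1`** -/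
theorem exists_frob_trace_ne (hp2 : p ≠ 2) (hirr : ∀ v, ¬ ComEig ρ ⊤ v)
    (hdet : ∀ g, (ρ g).val.det = (cyc p g : (ZMod p)ˣ)) {L : IntermediateField ℚ Kb}
    [FiniteDimensional ℚ L] (hL : ∀ σ : GQ, (∀ x ∈ L, σ x = x) → ρ σ = 1) (m : ℕ) [NeZero m]
    (T : Finset ℕ) :
    ∃ l : ℕ, l.Prime ∧ l ∉ T ∧ (m : ℤ) ∣ (l : ℤ) - 1 ∧ ∃ A : ValuationSubring Kb,
      A.LiesOverPrime l ∧ ∃ φ : GQ, A.IsFrobeniusAt φ l ∧
        (ρ φ).val.trace ≠ 1 + (ρ φ).val.det := by
  have h2 := two_ne_zero_zmod (p := p) hp2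
  have hcomm : commutator GQ ≤ (cyc m : GQ →* (ZMod m)ˣ).ker := Abelianization.commutator_subset_ker _
  obtain ⟨σ, hσ, hne⟩ := exists_trace_ne h2 hirr complexConjugation_mul_self
    (by rw [hdet, cyc_complexConjugation]) (cyc m : GQ →* (ZMod m)ˣ).ker hcomm
  obtain ⟨ζ, hζ⟩ := exists_primitiveRoot m
  set L' : IntermediateField ℚ Kb := L ⊔ IntermediateField.adjoin ℚ {ζ} with hL'
  haveI : FiniteDimensional ℚ (IntermediateField.adjoin ℚ {ζ}) :=
    IntermediateField.adjoin.finiteDimensional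
      (FrobDensity.isAlgebraic_Qbar.isAlgebraic ζ).isIntegral
  obtain ⟨l, hl, hlT, A, hA, φ, hφ, i, j, hi, hj⟩ :=
    FrobDensity.exists_frobenius_pow L' σ (T ∪ m.primeFactors)
  rw [Finset.mem_union, not_or] at hlT
  have hlm : ¬ l ∣ m := fun h => hlT.2 (Nat.mem_primeFactors.mpr ⟨hl, h, NeZero.ne m⟩)
  have hζL : ζ ∈ L' := (le_sup_right : _ ≤ L') (IntermediateField.mem_adjoin_simple_self ℚ ζ)
  have hσζ : σ ζ = ζ := by
    have h3 := cyc_spec σ hζ.pow_eq_one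
    have h4 : ζ ^ (1 % m) = ζ := by
      have h5 := pow_mod_orderOf ζ 1
      rw [← hζ.eq_orderOf, pow_one] at h5
      exact h5
    rw [MonoidHom.mem_ker.mp hσ, Units.val_one, ZMod.val_one_eq_one_mod, h4] at h3
    exact h3
  have hφζ : φ ζ = ζ := by
    rw [← hj ζ hζL]
    have : ∀ j : ℕ, (σ ^ j) ζ = ζ := by
      intro j
      induction j with
      | zero => rfl
      | succ j ih => rw [pow_succ, AlgEquiv.mul_apply, hσζ, ih]
    exact this j
  have hcyc := cyc_frob (m := m) hA hl hφ hlm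
  rw [cyc_eq_one_of hζ hφζ, Units.val_one] at hcyc
  refine ⟨l, hl, hlT.1, ?_, A, hA, φ, hφ, fun h => hne ?_⟩
  · have h4 : ((l : ℤ) : ZMod m) = ((1 : ℤ) : ZMod m) := by push_cast; exact hcyc.symm
    exact (ZMod.intCast_eq_intCast_iff_dvd_sub _ _ _).mp h4.symm
  · obtain ⟨v, hv0, hv⟩ := exists_fix_of_trace h
    have hρ : ρ σ = ρ φ ^ i := by
      rw [← map_pow]
      exact (eq_of_restrict_eq' hL fun x hx => hi x ((le_sup_left : L ≤ L') hx)).symm
    have h5 := pow_eigen (M := (ρ φ).val) (v := v) (e := (1 : ZMod p)) (by rw [one_smul, hv]) i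
    rw [one_pow] at h5
    have h6 := eigen_eq (M := (ρ σ).val) hv0 (one_mul (1 : ZMod p)) (by
      rw [hρ, Units.val_pow_eq_pow_val]; exact h5)
    rw [one_mul] at h6
    exact h6

/-- **Frobenius elements without eigenvalue `±1`** -/
theorem exists_frob_trace_sq_ne (hp2 : p ≠ 2) (hirr : ∀ v, ¬ ComEig ρ ⊤ v)
    (hdet : ∀ g, (ρ g).val.det = (cyc p g : (ZMod p)ˣ)) {L : IntermediateField ℚ Kb}
    [FiniteDimensional ℚ L] (hL : ∀ σ : GQ, (∀ x ∈ L, σ x = x) → ρ σ = 1) (T : Finset ℕ) :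
    ∃ l : ℕ, l.Prime ∧ l ∉ T ∧ ∃ A : ValuationSubring Kb,
      A.LiesOverPrime l ∧ ∃ φ : GQ, A.IsFrobeniusAt φ l ∧
        (ρ φ).val.trace ^ 2 ≠ (1 + (ρ φ).val.det) ^ 2 := by
  have h2 := two_ne_zero_zmod (p := p) hp2
  obtain ⟨σ, hne⟩ := exists_trace_sq_ne h2 hirr complexConjugation_mul_self
    (by rw [hdet, cyc_complexConjugation])
  obtain ⟨l, hl, hlT, A, hA, φ, hφ, i, j, hi, hj⟩ := FrobDensity.exists_frobenius_pow L σ T
  refine ⟨l, hl, hlT, A, hA, φ, hφ, fun h => hne ?_⟩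
  obtain ⟨e, he, h3⟩ : ∃ e : ZMod p, e * e = 1 ∧ e * (ρ φ).val.trace = 1 + (ρ φ).val.det := by
    rcases sq_eq_sq_iff_eq_or_eq_neg.mp h with h | h
    · exact ⟨1, one_mul 1, by rw [h, one_mul]⟩
    · exact ⟨-1, by ring, by rw [h]; ring⟩
  obtain ⟨v, hv0, hv⟩ := exists_eigen_of_trace he h3
  have hρ : ρ σ = ρ φ ^ i := by
    rw [← map_pow]
    exact (eq_of_restrict_eq' hL hi).symm
  have h5 := pow_eigen hv i
  have he' : e ^ i * e ^ i = 1 := by rw [← mul_pow, he, one_pow]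
  have h6 := eigen_eq (M := (ρ σ).val) hv0 he' (by
    rw [hρ, Units.val_pow_eq_pow_val]; exact h5)
  rw [← h6, mul_pow, pow_two (e ^ i), he', one_mul]

end Fermat.Agent.RT.LR
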