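import Fermat.Agent.RT.CycPs
import Fermat.Agent.GCFT.Mod
import Fermat.Agent.ESCore.Pseudo

set_option autoImplicit false
set_option maxHeartbeats 400000
set_option linter.style.haveILetI false
set_option linter.unusedSectionVars false
set_option linter.unusedVariables false

/-!
# The representation attached to a pseudo-representation
-/

open IsLocalRing Matrix
open Fermat.Agent.ESCore Fermat.Agent.Coh Fermat.Agent.GCFT

noncomputable section

namespace Fermat.Agent.RT

variable {𝒪 : Type} [CommRing 𝒪] {T : Type} [CommRing T] [Algebra 𝒪 T] {χ : GQ →* 𝒪ˣ} {p : ℕ}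
  {B : Set ℕ} {t : GQ → T}

/-- Complex conjugation squared. -/
lemma cc_sq : complexConjugation * complexConjugation = (1 : GQ) := by
  exact complexConjugation_mul_self

/-- The data for normalised bases. -/
structure PsB (𝒪 : Type) [CommRing 𝒪] (χ : GQ →* 𝒪ˣ) where
  /-- Half. -/
  i2 : 𝒪
  h2 : 2 * i2 = 1
  /-- The first element. -/
  g₀ : GQ
  /-- The second element. -/
  k₀ : GQ
  /-- The base change. -/
  P : Matrix (Fin 2) (Fin 2) 𝒪
  /-- The inverse of the base change. -/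
  P' : Matrix (Fin 2) (Fin 2) 𝒪
  hPP' : P * P' = 1
  hcc : (χ complexConjugation : 𝒪) = -1

namespace PsB

variable (b : PsB 𝒪 χ)

lemma hP'P : b.P' * b.P = 1 := mul_eq_one_comm.mp b.hPP'

variable (T) in
/-- The base change over `T`. -/
def PT : Matrix (Fin 2) (Fin 2) T := b.P.map (algebraMap 𝒪 T)

variable (T) in
/-- The inverse of the base change over `T`. -/
def PT' : Matrix (Fin 2) (Fin 2) T := b.P'.map (algebraMap 𝒪 T)

lemma PT_mul : b.PT T * b.PT' T = 1 := by
  rw [PT, PT', ← Matrix.map_mul, b.hPP']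
  exact Matrix.map_one _ (map_zero _) (map_one _)

lemma PT'_mul : b.PT' T * b.PT T = 1 := by
  rw [PT, PT', ← Matrix.map_mul, b.hP'P]
  exact Matrix.map_one _ (map_zero _) (map_one _)

include b in
lemma hccT : (cycT T χ complexConjugation : T) = -1 := by
  rw [cycT_coe, b.hcc, map_neg, map_one]

lemma h2T : (2 : T) * algebraMap 𝒪 T b.i2 = 1 := by
  have := congrArg (algebraMap 𝒪 T) b.h2
  rwa [map_mul, map_ofNat, map_one] at this

/-- The residual non-vanishing condition. -/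
def Good (t : GQ → T) : Prop :=
  IsUnit (IsPseudo.bb t complexConjugation (algebraMap 𝒪 T b.i2) b.g₀ b.k₀)

/-- The representation as a map to matrices. -/
def rhoM (h : CycPs χ p B t) (hg : b.Good t) : GQ →* Matrix (Fin 2) (Fin 2) T where
  toFun g := b.PT T * h.ps.rep cc_sq b.hccT b.h2T b.g₀ b.k₀ hg.mul_val_inv g * b.PT' T
  map_one' := by rw [map_one, mul_one, b.PT_mul]
  map_mul' g k := by
    rw [map_mul]
    have key : ∀ X Y : Matrix (Fin 2) (Fin 2) T, b.PT T * (X * Y) * b.PT' T =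
        b.PT T * X * b.PT' T * (b.PT T * Y * b.PT' T) := by
      intro X Y
      calc b.PT T * (X * Y) * b.PT' T = b.PT T * X * 1 * Y * b.PT' T := by
            rw [mul_one]; simp only [mul_assoc]
        _ = _ := by rw [← b.PT'_mul]; simp only [mul_assoc]
    exact key _ _

/-- The representation. -/
def rho (h : CycPs χ p B t) (hg : b.Good t) : GQ →* GL (Fin 2) T := (b.rhoM h hg).toHomUnits

lemma rho_val (h : CycPs χ p B t) (hg : b.Good t) (g : GQ) : (b.rho h hg g).val =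
    b.PT T * h.ps.rep cc_sq b.hccT b.h2T b.g₀ b.k₀ hg.mul_val_inv g * b.PT' T := rfl

lemma trace_rho (h : CycPs χ p B t) (hg : b.Good t) (g : GQ) :
    (b.rho h hg g).val.trace = t g := by
  rw [rho_val, Matrix.trace_mul_cycle, b.PT'_mul, one_mul, IsPseudo.rep_apply,
    Matrix.trace_fin_two_of, IsPseudo.aa_add_dd b.h2T]

lemma det_rho (h : CycPs χ p B t) (hg : b.Good t) (g : GQ) :
    (b.rho h hg g).val.det = algebraMap 𝒪 T (χ g) := by
  have h1 := h.ps.det_eq g
  have h2 : ((b.rho h hg g).val * (b.rho h hg g).val).trace = t (g * g) := by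
    rw [← Units.val_mul, ← map_mul, trace_rho]
  have h3 := b.trace_rho h hg g
  rw [← cycT_coe]
  have h4 : (2 : T) * (b.rho h hg g).val.det = 2 * (cycT T χ g : T) := by
    rw [Matrix.det_fin_two]
    rw [Matrix.trace_fin_two] at h2 h3
    simp only [Matrix.mul_apply, Fin.sum_univ_two] at h2
    linear_combination h1 - h2 + (t g + (b.rho h hg g).val 0 0 + (b.rho h hg g).val 1 1) * h3
  calc (b.rho h hg g).val.det = algebraMap 𝒪 T b.i2 * (2 * (b.rho h hg g).val.det) := by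
        rw [← mul_assoc, mul_comm _ (2 : T), b.h2T, one_mul]
    _ = _ := by rw [h4, ← mul_assoc, mul_comm _ (2 : T), b.h2T, one_mul]

/-! ### Functoriality -/

variable {T' : Type} [CommRing T'] [Algebra 𝒪 T'] {t' : GQ → T'} (f : T →ₐ[𝒪] T')

lemma aa_map (hf : ∀ g, f (t g) = t' g) (g : GQ) :
    f (IsPseudo.aa t complexConjugation (algebraMap 𝒪 T b.i2) g) =
      IsPseudo.aa t' complexConjugation (algebraMap 𝒪 T' b.i2) g := by
  rw [IsPseudo.aa, IsPseudo.aa, map_mul, map_add, hf, hf, AlgHom.commutes]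

lemma dd_map (hf : ∀ g, f (t g) = t' g) (g : GQ) :
    f (IsPseudo.dd t complexConjugation (algebraMap 𝒪 T b.i2) g) =
      IsPseudo.dd t' complexConjugation (algebraMap 𝒪 T' b.i2) g := by
  rw [IsPseudo.dd, IsPseudo.dd, map_mul, map_sub, hf, hf, AlgHom.commutes]

lemma bb_map (hf : ∀ g, f (t g) = t' g) (g k : GQ) :
    f (IsPseudo.bb t complexConjugation (algebraMap 𝒪 T b.i2) g k) =
      IsPseudo.bb t' complexConjugation (algebraMap 𝒪 T' b.i2) g k := by
  rw [IsPseudo.bb, IsPseudo.bb, map_sub, map_mul, aa_map b f hf, aa_map b f hf, aa_map b f hf]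

lemma Good.map (hf : ∀ g, f (t g) = t' g) (hg : b.Good t) : b.Good t' := by
  have h1 : IsUnit (f (IsPseudo.bb t complexConjugation (algebraMap 𝒪 T b.i2) b.g₀ b.k₀)) :=
    IsUnit.map f hg
  rw [b.bb_map f hf] at h1
  exact h1

theorem rho_map (hf : ∀ g, f (t g) = t' g) (h : CycPs χ p B t) (hg : b.Good t) {B' : Set ℕ}
    (h' : CycPs χ p B' t') (hg' : b.Good t') (g : GQ) :
    (b.rho h hg g).val.map f = (b.rho h' hg' g).val := by
  have hinv : f (hg.unit⁻¹ : Tˣ) = (hg'.unit⁻¹ : T'ˣ) := by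
    have h1 : f (IsPseudo.bb t complexConjugation (algebraMap 𝒪 T b.i2) b.g₀ b.k₀) *
        f (hg.unit⁻¹ : Tˣ) = 1 := by rw [← map_mul, hg.mul_val_inv, map_one]
    rw [b.bb_map f hf] at h1
    have h2 := hg'.mul_val_inv
    calc f (hg.unit⁻¹ : Tˣ) = ((hg'.unit⁻¹ : T'ˣ) : T') *
          (IsPseudo.bb t' complexConjugation (algebraMap 𝒪 T' b.i2) b.g₀ b.k₀ *
            f (hg.unit⁻¹ : Tˣ)) := by
          rw [← mul_assoc, hg'.val_inv_mul, one_mul]
      _ = _ := by rw [h1, mul_one]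
  have hPm : (b.PT T).map f = b.PT T' := by
    rw [PT, PT, Matrix.map_map]; congr 1; funext x; exact f.commutes x
  have hPm' : (b.PT' T).map f = b.PT' T' := by
    rw [PT', PT', Matrix.map_map]; congr 1; funext x; exact f.commutes x
  rw [rho_val, rho_val, Matrix.map_mul, Matrix.map_mul, hPm, hPm', IsPseudo.rep_apply,
    IsPseudo.rep_apply]
  congr 2
  ext i j
  fin_cases i <;> fin_cases j
  · exact b.aa_map f hf g
  · change f (_ * _) = _ * _
    rw [map_mul, b.bb_map f hf, hinv]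
  · exact b.bb_map f hf _ _
  · exact b.dd_map f hf g

/-! ### Continuity -/

section Cont

variable (I : Ideal T)

/-- The kernel of the pseudo-representation modulo an ideal. -/
def kerI (h : CycPs χ p B t) (I : Ideal T) : Subgroup GQ where
  carrier := {σ | ∀ g, t (σ * g) - t g ∈ I}
  one_mem' g := by rw [one_mul, sub_self]; exact I.zero_mem
  mul_mem' {σ τ} hσ hτ g := by
    have h1 := I.add_mem (hσ (τ * g)) (hτ g)
    rwa [← mul_assoc, sub_add_sub_cancel] at h1
  inv_mem' {σ} hσ g := by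
    have h1 := hσ (σ⁻¹ * g)
    rw [mul_inv_cancel_left] at h1
    have h2 := I.neg_mem h1
    rwa [neg_sub] at h2

lemma mem_kerI (h : CycPs χ p B t) {σ : GQ} : σ ∈ kerI h I ↔ ∀ g, t (σ * g) - t g ∈ I := Iff.rfl

lemma kerI_normal (h : CycPs χ p B t) : (kerI h I).Normal := by
  refine ⟨fun σ hσ g k => ?_⟩
  have h1 := hσ (g⁻¹ * k * g)
  have h2 : t (g * σ * g⁻¹ * k) = t (σ * (g⁻¹ * k * g)) := by
    rw [h.ps.comm σ]
    have e1 : g * σ * g⁻¹ * k = g * (σ * (g⁻¹ * k)) := by group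
    rw [e1, h.ps.comm g, mul_assoc σ, h.ps.comm σ]
  have h3 : t k = t (g⁻¹ * k * g) := by
    rw [mul_assoc, h.ps.comm, mul_assoc, mul_inv_cancel, mul_one]
  rw [h2, h3]
  exact h1

lemma kerI_mem_famS (h : CycPs χ p B t) (hp : ∃ n : ℕ, (p : T) ^ n ∈ I) (S : Finset Nat.Primes)
    (hB : ∀ q : Nat.Primes, (q : ℕ) ∈ B → q ∈ S) : kerI h I ∈ famS S := by
  rw [mem_famS]
  refine ⟨kerI_normal I h, ?_, fun q hq A hA σ hσ g => ?_⟩
  · obtain ⟨n, hn⟩ := hp
    obtain ⟨L, hL, hL2⟩ := h.cont n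
    haveI := hL
    refine Subgroup.isOpen_mono (H₁ := L.fixingSubgroup) ?_ L.fixingSubgroup_isOpen
    intro σ hσ g
    rw [IntermediateField.mem_fixingSubgroup_iff] at hσ
    have h1 := hL2 σ (fun x hx => hσ x hx) g
    exact (Ideal.span_singleton_le_iff_mem I).mpr hn h1
  · rw [h.unr q q.2 (fun hq' => hq (hB q hq')) A hA σ hσ g, sub_self]
    exact I.zero_mem

lemma entries_kerI (h : CycPs χ p B t) (hg : b.Good t) {σ : GQ} (hσ : σ ∈ kerI h I)
    (i j : Fin 2) : ((b.rho h hg σ).val - 1) i j ∈ I := by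
  have hc := cc_sq
  have e1 : t σ - 2 ∈ I := by
    have := hσ 1
    rwa [mul_one, h.ps.one] at this
  have e2 : ∀ k, t (k * σ) - t k ∈ I := by
    intro k
    have := hσ k
    rwa [h.ps.comm] at this
  set c := (complexConjugation : GQ)
  set i2 := algebraMap 𝒪 T b.i2
  have haa : ∀ k, IsPseudo.aa t c i2 (σ * k) - IsPseudo.aa t c i2 k ∈ I := by
    intro k
    have e3 : IsPseudo.aa t c i2 (σ * k) - IsPseudo.aa t c i2 k =
        i2 * ((t (σ * k) - t k) + (t (c * (σ * k)) - t (c * k))) := by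
      rw [IsPseudo.aa, IsPseudo.aa]; ring
    rw [e3]
    refine I.mul_mem_left _ (I.add_mem (hσ k) ?_)
    have e4 := hσ (k * c)
    have e5 : t (c * (σ * k)) = t (σ * (k * c)) := by rw [h.ps.comm c, mul_assoc]
    have e6 : t (c * k) = t (k * c) := h.ps.comm _ _
    rw [e5, e6]
    exact e4
  have hdd : IsPseudo.dd t c i2 σ - 1 ∈ I := by
    have e3 : IsPseudo.dd t c i2 σ - 1 = i2 * ((t σ - 2) - (t (c * σ) - t c)) - i2 * t c +
        (2 * i2 - 1) := by
      rw [IsPseudo.dd]; ring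
    have e4 : t c = 0 := h.ps.t_c hc b.hccT b.h2T
    rw [e3, b.h2T, sub_self, add_zero, e4, mul_zero, sub_zero, sub_zero]
    have e5 := e2 c
    rw [e4, sub_zero] at e5
    exact I.mul_mem_left _ (I.sub_mem e1 e5)
  have haa1 : IsPseudo.aa t c i2 σ - 1 ∈ I := by
    have := haa 1
    rwa [mul_one, h.ps.aa_one hc b.hccT b.h2T] at this
  have hM : ∀ i j, (h.ps.rep hc b.hccT b.h2T b.g₀ b.k₀ hg.mul_val_inv σ - 1) i j ∈ I := by
    intro i j
    rw [IsPseudo.rep_apply]
    fin_cases i <;> fin_cases j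
    · change _ - (1 : Matrix (Fin 2) (Fin 2) T) 0 0 ∈ I
      rw [Matrix.one_apply_eq]
      exact haa1
    · change _ - (1 : Matrix (Fin 2) (Fin 2) T) 0 1 ∈ I
      rw [Matrix.one_apply_ne (by decide), sub_zero]
      refine I.mul_mem_right _ ?_
      rw [IsPseudo.bb]
      have e3 : IsPseudo.aa t c i2 (σ * b.k₀) - IsPseudo.aa t c i2 σ * IsPseudo.aa t c i2 b.k₀ =
          (IsPseudo.aa t c i2 (σ * b.k₀) - IsPseudo.aa t c i2 b.k₀) -
          (IsPseudo.aa t c i2 σ - 1) * IsPseudo.aa t c i2 b.k₀ := by ring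
      rw [e3]
      exact I.sub_mem (haa _) (I.mul_mem_right _ haa1)
    · change _ - (1 : Matrix (Fin 2) (Fin 2) T) 1 0 ∈ I
      rw [Matrix.one_apply_ne (by decide), sub_zero]
      change IsPseudo.bb t c i2 b.g₀ σ ∈ I
      rw [IsPseudo.bb]
      have e4 : IsPseudo.aa t c i2 (b.g₀ * σ) - IsPseudo.aa t c i2 b.g₀ ∈ I := by
        have e5 : IsPseudo.aa t c i2 (b.g₀ * σ) - IsPseudo.aa t c i2 b.g₀ =
          i2 * ((t (b.g₀ * σ) - t b.g₀) + (t (c * (b.g₀ * σ)) - t (c * b.g₀))) := by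
          rw [IsPseudo.aa, IsPseudo.aa]; ring
        rw [e5]
        refine I.mul_mem_left _ (I.add_mem (e2 _) ?_)
        rw [← mul_assoc]
        exact e2 _
      have e3 : IsPseudo.aa t c i2 (b.g₀ * σ) - IsPseudo.aa t c i2 b.g₀ * IsPseudo.aa t c i2 σ =
          (IsPseudo.aa t c i2 (b.g₀ * σ) - IsPseudo.aa t c i2 b.g₀) -
          IsPseudo.aa t c i2 b.g₀ * (IsPseudo.aa t c i2 σ - 1) := by ring
      rw [e3]
      exact I.sub_mem e4 (I.mul_mem_left _ haa1)
    · change _ - (1 : Matrix (Fin 2) (Fin 2) T) 1 1 ∈ I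
      rw [Matrix.one_apply_eq]
      exact hdd
  have e7 : (b.rho h hg σ).val - 1 = b.PT T *
      (h.ps.rep hc b.hccT b.h2T b.g₀ b.k₀ hg.mul_val_inv σ - 1) * b.PT' T := by
    rw [rho_val, mul_sub, sub_mul, mul_one, b.PT_mul]
  rw [e7, Matrix.mul_apply]
  refine I.sum_mem fun k _ => I.mul_mem_right _ ?_
  rw [Matrix.mul_apply]
  exact I.sum_mem fun l _ => I.mul_mem_left _ (hM _ _)

end Cont

end PsB

end Fermat.Agent.RT
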