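import Fermat.Agent.RT.ResIrr

set_option autoImplicit false
set_option maxHeartbeats 400000
set_option linter.style.haveILetI false
set_option linter.unusedSectionVars false
set_option linter.unusedVariables false

/-!
# Representations with the traces of a pseudo-representation
-/

open IsLocalRing Matrix
open Fermat.Agent.ESCore Fermat.Agent.UnivDef

noncomputable section

namespace Fermat.Agent.RT

variable {𝒪 : Type} [CommRing 𝒪] [IsLocalRing 𝒪] [IsNoetherianRing 𝒪]
  {χ : GQ →* 𝒪ˣ} {p : ℕ} {B : Set ℕ}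
  {R : Type} [CommRing R] [IsLocalRing R] [IsNoetherianRing R] [IsAdicComplete (maximalIdeal R) R]
  [Algebra 𝒪 R] {t : GQ → R}

/-- Representations of the Galois group with the Frobenius traces of `t`. -/
theorem CycPs.trace_det (hp : p.Prime) (hpR : (p : R) ∈ maximalIdeal R)
    (hp𝒪 : (p : 𝒪) ∈ maximalIdeal 𝒪) (hχ : IsCyc p χ) (ht : CycPs χ p B t)
    (h2 : ∀ x : R, 2 * x = 0 → x = 0) (ρ : GaloisRepAdic R) (S : Finset ℕ)
    (hρ : ∀ l : ℕ, l.Prime → l ∉ S → ∀ A : ValuationSubring Qb, A.LiesOverPrime l →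
      ∀ σ : GQ, A.IsFrobeniusAt σ l → LinearMap.charpoly (ρ.ρ σ) =
        Polynomial.X ^ 2 - Polynomial.C (t σ) * Polynomial.X + Polynomial.C (l : R))
    (b : Module.Basis (Fin 2) R ρ.V) (σ : GQ) :
    (matOf ρ b σ).trace = t σ ∧ (matOf ρ b σ).det = algebraMap 𝒪 R (χ σ) := by
  have h := trace_det_of_frob (isContMat_matOf ρ b) ht.ps (fun n => by
      obtain ⟨L, hL, h4⟩ := ht.cont n
      refine ⟨L, hL, fun σ hσ g => ?_⟩
      have h5 := h4 σ hσ g
      rw [← Ideal.span_singleton_pow] at h5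
      exact Ideal.pow_right_mono (by rwa [Ideal.span_singleton_le_iff_mem]) n h5)
    (insert p S) (fun l hl hlS A hA σ hσ => by
      rw [Finset.mem_insert, not_or] at hlS
      have h3 := hρ l hl hlS.2 A hA σ hσ
      rw [← LinearMap.charpoly_toMatrix (ρ.ρ σ) b] at h3
      change (matOf ρ b σ).charpoly = _ at h3
      rw [Matrix.charpoly_fin_two] at h3
      constructor
      · have h4 := congrArg (fun P : Polynomial R => P.coeff 1) h3
        simp only [Polynomial.coeff_add, Polynomial.coeff_sub, Polynomial.coeff_X_pow,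
          Polynomial.coeff_C_mul, Polynomial.coeff_X_one, Polynomial.coeff_C_succ, mul_one,
          add_zero] at h4
        simpa using h4
      · have h4 := congrArg (fun P : Polynomial R => P.coeff 0) h3
        rw [cycT_coe, hχ.frob hp hp𝒪 hl hlS.1 hA hσ, map_natCast]
        simpa using h4) h2 σ
  exact h

variable (b : PsB 𝒪 χ)

lemma GaloisRepAdic.exists_basis {R : Type} [CommRing R] [IsLocalRing R] (ρ : GaloisRepAdic R) :
    Nonempty (Module.Basis (Fin 2) R ρ.V) :=
  ⟨(Module.finBasis R ρ.V).reindex (finCongr ρ.finrank_eq)⟩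

/-- **Residual irreducibility.** -/
theorem PsB.Good.absIrr (ht : CycPs χ p B t) (hg : b.Good t) (ρ : GaloisRepAdic R)
    (β : Module.Basis (Fin 2) R ρ.V) (htr : ∀ σ, (matOf ρ β σ).trace = t σ) :
    ρ.residual.IsAbsolutelyIrreducible := by
  letI : Algebra 𝒪 (ResidueField R) := ((residue R).comp (algebraMap 𝒪 R)).toAlgebra
  let f : R →ₐ[𝒪] ResidueField R := { residue R with commutes' := fun _ => rfl }
  have hf : ∀ x, f x = residue R x := fun _ => rfl
  have ht' := ht.map f
  have hg' : b.Good (fun σ => f (t σ)) := hg.map b f (fun _ => rfl)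
  refine isAbsolutelyIrreducible_of_span ρ.residual (basisResidual ρ β) ?_
  let r : GQ →* Matrix (Fin 2) (Fin 2) (ResidueField R) :=
    ((residue R).mapMatrix : Matrix (Fin 2) (Fin 2) R →+* _).toMonoidHom.comp (matOf ρ β)
  have hr : ∀ σ, r σ = (matOf ρ β σ).map (residue R) := fun _ => rfl
  have h3 := span_of_trace ht'.ps cc_sq b.hccT b.h2T hg'.mul_val_inv r (fun σ => by
    rw [hr, Matrix.trace_fin_two, hf, ← htr, Matrix.trace_fin_two, map_add]; rfl)
  rw [← h3]
  congr 2
  funext σ
  exact toMatrix_residual ρ β σ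

/-- **Oddness.** -/
theorem isOdd_of_det (hp : p.Prime) (hp𝒪 : (p : 𝒪) ∈ maximalIdeal 𝒪) (hχ : IsCyc p χ)
    (ρ : GaloisRepAdic R) (β : Module.Basis (Fin 2) R ρ.V)
    (hdet : ∀ σ, (matOf ρ β σ).det = algebraMap 𝒪 R (χ σ)) : ρ.residual.IsOdd := by
  intro c hc hc1
  rw [← LinearMap.det_toMatrix (basisResidual ρ β), toMatrix_residual]
  change ((matOf ρ β c).map (residue R)).det = -1
  have h1 : ((matOf ρ β c).map (residue R)).det = residue R ((matOf ρ β c).det) := by
    rw [RingHom.map_det]; rfl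
  rw [h1, hdet, hχ.inv hp hp𝒪 hc hc1, map_neg, map_one, map_neg, map_one]

end Fermat.Agent.RT
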