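import Fermat.Agent.RT.DualIhara
import Fermat.Agent.ESCore.HeckeCharG

set_option autoImplicit false

/-!
# Comparison of the two descriptions of the Hecke operators
-/

open Matrix CongruenceSubgroup ModularForm
open scoped MatrixGroups

namespace Fermat.Agent.RT.Ihara

open Fermat.Agent.ESCore
open P2MW.S_ModularForm_heckeT_slash_eq_self_of_mem_Gamma0.ModularForm.HeckeSlashInvariance

variable {G G₁ G₂ : Subgroup SL(2, ℤ)} {N q : ℕ}
variable {O A : Type*} [CommRing O] [AddCommGroup A] [Module O A]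

/-- a homomorphism as a character -/
def toChar (c : H1 O A G) : G →* Multiplicative A where
  toFun g := Multiplicative.ofAdd (c.1 g)
  map_one' := by
    have h := c.2 1 1
    rw [mul_one] at h
    have h2 : c.1 1 = 0 := by simpa using h
    rw [h2]; rfl
  map_mul' g h := by rw [c.2 g h]; rfl

theorem toChar_apply (c : H1 O A G) (g : G) : toChar c g = Multiplicative.ofAdd (c.1 g) := rfl

theorem toChar_injective : Function.Injective (toChar : H1 O A G → (G →* Multiplicative A)) := by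
  intro c c' h
  apply Subtype.ext
  funext g
  exact Multiplicative.ofAdd.injective (DFunLike.congr_fun h g)

theorem toChar_add (c c' : H1 O A G) : toChar (c + c') = toChar c * toChar c' := rfl

/-- the inverse of `toChar` -/
def ofChar (χ : G →* Multiplicative A) : H1 O A G :=
  ⟨fun g => (χ g).toAdd, fun g h => congrArg Multiplicative.toAdd (map_mul χ g h)⟩

@[simp] theorem toChar_ofChar (χ : G →* Multiplicative A) :
    toChar (ofChar χ : H1 O A G) = χ := rfl

@[simp] theorem ofChar_toChar (c : H1 O A G) : ofChar (toChar c) = c := rfl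

variable {ι : Type*}

/-- integral matrices of a coset system -/
def MatSys (S : CosetSys (gamG G) ι) (P : ι → Mat) : Prop :=
  ∀ x, ((S.δ x : GL (Fin 2) ℝ) : Matrix (Fin 2) (Fin 2) ℝ) = (P x).map (Int.cast : ℤ → ℝ)

theorem gamG_coe (g : G) : ((gamG G g : GL (Fin 2) ℝ) : Matrix (Fin 2) (Fin 2) ℝ) =
    ((g : SL(2, ℤ)) : Mat).map (Int.cast : ℤ → ℝ) := by
  rw [gamG_apply]
  ext i j
  simp [Matrix.SpecialLinearGroup.mapGL_coe_matrix]

theorem map_cast_inj {P Q : Mat} (h : P.map (Int.cast : ℤ → ℝ) = Q.map (Int.cast : ℤ → ℝ)) :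
    P = Q := Matrix.map_injective Int.cast_injective h

theorem map_cast_mul (P Q : Mat) : (P * Q).map (Int.cast : ℤ → ℝ) =
    P.map (Int.cast : ℤ → ℝ) * Q.map (Int.cast : ℤ → ℝ) :=
  Matrix.map_mul (f := Int.castRingHom ℝ)

theorem MatSys.rel {S : CosetSys (gamG G) ι} {P : ι → Mat} (H : MatSys S P) {x y : ι}
    {g : SL(2, ℤ)} {g' : G} (hg : g ∈ G) :
    S.δ x * gamG G ⟨g, hg⟩ = gamG G g' * S.δ y ↔
      P x * (g : Mat) = ((g' : SL(2, ℤ)) : Mat) * P y := by
  constructor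
  · intro h
    apply map_cast_inj
    rw [map_cast_mul, map_cast_mul, ← H x, ← H y]
    have := congrArg (Units.val) h
    rw [Units.val_mul, Units.val_mul, gamG_coe, gamG_coe] at this
    exact this
  · intro h
    apply Units.ext
    rw [Units.val_mul, Units.val_mul, gamG_coe, gamG_coe, H, H, ← map_cast_mul, ← map_cast_mul]
    exact congrArg (fun M : Mat => M.map (Int.cast : ℤ → ℝ)) h

theorem MatSys.corr {S : CosetSys (gamG G) ι} {P : ι → Mat} (H : MatSys S P) : Corr G G P where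
  det x h0 := by
    have h1 : ((S.δ x : GL (Fin 2) ℝ) : Matrix (Fin 2) (Fin 2) ℝ).det ≠ 0 :=
      (Matrix.isUnit_iff_isUnit_det _).mp (S.δ x).isUnit |>.ne_zero
    rw [H x] at h1
    apply h1
    have : (Matrix.map (P x) (Int.cast : ℤ → ℝ)).det = ((P x).det : ℝ) :=
      ((Int.castRingHom ℝ).map_det (P x)).symm
    rw [this, h0, Int.cast_zero]
  act x g hg := by
    obtain ⟨y, γ', h⟩ := S.act x ⟨g, hg⟩
    exact ⟨y, γ', γ'.2, (H.rel hg).mp h⟩
  inj x y g hg h := by
    refine S.inj x y ⟨g, hg⟩ ?_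
    have h2 := (H.rel (x := x) (y := y) (g := 1) (g' := ⟨g, hg⟩) (one_mem G)).mpr (by
      rw [h]; simp)
    have h3 : gamG G ⟨1, one_mem G⟩ = 1 := map_one (gamG G)
    rwa [h3, mul_one] at h2

theorem MatSys.trans [Fintype ι] {S : CosetSys (gamG G) ι} {P : ι → Mat} (H : MatSys S P)
    (c : H1 O A G) : S.trans (gamG_injective G) (toChar c) = toChar (opH H.corr c) := by
  ext γ
  rw [toChar_apply, opH_apply, H.corr.opc_eq (addOn_ex c) γ.2 (γ := fun x => S.coc γ x)
    (σ := fun x => S.tgt γ x) (fun x => (S.coc γ x).2) (fun x => (H.rel γ.2).mp (S.spec γ x)),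
    CosetSys.trans_apply']
  have h1 : (fun x => toChar c (S.coc γ x)) =
      fun x => Multiplicative.ofAdd (ex c.1 ((S.coc γ x : G) : SL(2, ℤ))) := by
    funext x
    rw [toChar_apply, ex_apply _ (S.coc γ x).2]
  rw [h1, _root_.ofAdd_sum]

/-! ### The operator `T_l` -/

theorem matSys_T {l : ℕ} (hl : l.Prime) (hN : ¬ l ∣ N) (h1 : Gamma1 N ≤ G) (h0 : G ≤ Gamma0 N) :
    MatSys (heckeSysG hl hN h1 h0) fun x => ((sigmaX N l x : SL(2, ℤ)) : Mat) * Mx l x := by
  intro x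
  have h2 : ((gam N (sigmaX N l x) : GL (Fin 2) ℝ) : Matrix (Fin 2) (Fin 2) ℝ) =
      ((sigmaX N l x : SL(2, ℤ)) : Mat).map (Int.cast : ℤ → ℝ) := by
    rw [gam_apply]
    ext i j
    simp [Matrix.SpecialLinearGroup.mapGL_coe_matrix]
  change ((gam N (sigmaX N l x) * (heckeSys hl hN).δ x : GL (Fin 2) ℝ) :
    Matrix (Fin 2) (Fin 2) ℝ) = _
  rw [Units.val_mul, h2, map_cast_mul]
  congr 1
  rcases x with _ | j
  · change ((heckeDiagMatrix l : GL (Fin 2) ℝ) : Matrix (Fin 2) (Fin 2) ℝ) = _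
    rw [val_heckeDiagMatrix hl.ne_zero]
    ext i j
    fin_cases i <;> fin_cases j <;> simp [Mx]
  · change ((heckeMatrix l j : GL (Fin 2) ℝ) : Matrix (Fin 2) (Fin 2) ℝ) = _
    rw [val_heckeMatrix hl.ne_zero]
    ext i j
    fin_cases i <;> fin_cases j <;> simp [Mx]

theorem sigmaX_gmat {l : ℕ} (hl : l.Prime) (hN : ¬ l ∣ N) (x : Option (Fin l)) :
    GMat N (((sigmaX N l x : SL(2, ℤ)) : Mat) * Mx l x) := by
  rcases x with _ | j
  · constructor
    · have e : (((sigmaX N l none : SL(2, ℤ)) : Mat) * Mx l none) 1 0 =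
          (sigmaD N l : SL(2, ℤ)) 1 0 * l := by
        simp [sigmaX, Mx, Matrix.mul_apply, Fin.sum_univ_two]
      rw [e]
      exact (dvd_of_mem_Gamma0 _).mul_right _
    · have e : (((sigmaX N l none : SL(2, ℤ)) : Mat) * Mx l none) 0 0 =
          (sigmaD N l : SL(2, ℤ)) 0 0 * l := by
        simp [sigmaX, Mx, Matrix.mul_apply, Fin.sum_univ_two]
      rw [e]
      exact sigmaD_00 (isCoprime_of_prime hl hN)
  · have e : ((sigmaX N l (some j) : SL(2, ℤ)) : Mat) * Mx l (some j) = Mx l (some j) := by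
      simp [sigmaX]
    rw [e]
    exact Mx_gmat j

theorem isCoprime_N {l : ℕ} (hl : l.Prime) (hN : ¬ l ∣ N) : IsCoprime (N : ℤ) (l : ℤ) :=
  (isCoprime_of_prime hl hN).symm

/-- **The Hecke operator `T_l`** in the two descriptions. -/
theorem heckeCharG_toChar {l : ℕ} (hl : l.Prime) (hN : ¬ l ∣ N) (h1 : Gamma1 N ≤ G)
    (h0 : G ≤ Gamma0 N) (c : H1 O A G) : heckeCharG hl hN h1 h0 (toChar c) =
      toChar (opH (corr_TD h1 h0 hl (isCoprime_N hl hN)) c) := by
  change (heckeSysG hl hN h1 h0).trans (gamG_injective G) (toChar c) = _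
  rw [(matSys_T hl hN h1 h0).trans]
  congr 1
  apply Subtype.ext
  funext g
  rw [opH_apply, opH_apply]
  have H := (matSys_T hl hN h1 h0).corr
  obtain ⟨f, hf⟩ := exists_equiv_TD h1 h0 hl (isCoprime_N hl hN) (fun x => sigmaX_gmat hl hN x)
    (fun x => by rw [Matrix.det_mul, (sigmaX N l x : SL(2, ℤ)).det_coe, one_mul, Mx_det])
    (fun x y g e => by
      refine herm_unique hl (h := (sigmaX N l x : SL(2, ℤ))⁻¹ * g * (sigmaX N l y : SL(2, ℤ))) ?_
      have h1 : ((sigmaX N l x : SL(2, ℤ))⁻¹ : SL(2, ℤ)) * (sigmaX N l x : SL(2, ℤ)) = 1 :=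
        inv_mul_cancel _
      have h3 : Mx l x = (((sigmaX N l x : SL(2, ℤ))⁻¹ : SL(2, ℤ)) : Mat) *
          (((sigmaX N l x : SL(2, ℤ)) : Mat) * Mx l x) := by
        rw [← mul_assoc, ← sl_coe_mul, h1]; exact (one_mul _).symm
      rw [h3, e, sl_coe_mul, sl_coe_mul]
      simp only [mul_assoc])
  refine opc_eq_of_equiv H (corr_TD h1 h0 hl (isCoprime_N hl hN)) (addOn_ex c) f (fun x => ?_) g.2
  obtain ⟨γ, hγ, e⟩ := hf x
  exact ⟨1, 1, one_pos, one_pos, γ, hγ, by rw [e]⟩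

theorem heckeCharG_eq {l : ℕ} (hl : l.Prime) (hN : ¬ l ∣ N) (h1 : Gamma1 N ≤ G)
    (h0 : G ≤ Gamma0 N) (c : H1 O A G) : opH (corr_TD h1 h0 hl (isCoprime_N hl hN)) c =
      ofChar (heckeCharG hl hN h1 h0 (toChar c)) := by
  rw [heckeCharG_toChar]; rfl

/-! ### The operator `U_q` -/

theorem matSys_U (hq : q ≠ 0) (hN : q ∣ N) (h1 : Gamma1 N ≤ G) (h0 : G ≤ Gamma0 N) :
    MatSys (heckeSysUG hq hN h1 h0) fun j : Fin q => Mx q (some j) := by
  intro j
  change ((heckeMatrix q j : GL (Fin 2) ℝ) : Matrix (Fin 2) (Fin 2) ℝ) = _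
  rw [val_heckeMatrix hq]
  ext i j
  fin_cases i <;> fin_cases j <;> simp [Mx]

theorem corr_U (hq : q ≠ 0) (hN : q ∣ N) (h1 : Gamma1 N ≤ G) (h0 : G ≤ Gamma0 N) :
    Corr G G fun j : Fin q => Mx q (some j) := (matSys_U hq hN h1 h0).corr

theorem heckeCharUG_toChar (hq : q ≠ 0) (hN : q ∣ N) (h1 : Gamma1 N ≤ G)
    (h0 : G ≤ Gamma0 N) (c : H1 O A G) : heckeCharUG hq hN h1 h0 (toChar c) =
      toChar (opH (corr_U hq hN h1 h0) c) := by
  change (heckeSysUG hq hN h1 h0).trans (gamG_injective G) (toChar c) = _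
  rw [(matSys_U hq hN h1 h0).trans]

/-! ### Diamond operators -/

theorem diaChar_toChar (h1 : Gamma1 N ≤ G) (h0 : G ≤ Gamma0 N) (σ : Gamma0 N) (c : H1 O A G) :
    diaChar h1 h0 σ (toChar c) = toChar (diaH h1 h0 σ c) := by
  ext g
  rw [diaChar_apply]
  rfl

end Fermat.Agent.RT.Ihara
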