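import Fermat.Agent.RT.AL5

set_option autoImplicit false

/-!
# The Atkin-Lehner lemma for twists

If `g` is an eigenform of weight two with nebentypus `ψ²`, nontrivial at `q`, then the newform
attached to `g ⊗ ψ⁻¹` has level exactly divisible by `q²`.
-/

open UpperHalfPlane hiding I
open ModularForm Matrix Matrix.SpecialLinearGroup CongruenceSubgroup Filter ModularFormClass
open Fermat.Agent.ESCore Fermat.Agent.Eis16 Fermat.Agent.DS Fermat.Agent.ESCore.UnivG
open Fermat.Agent.Hecke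
open scoped MatrixGroups Manifold Topology ZMod

noncomputable section

namespace Fermat.Agent.RT.AL

section Split

variable {q D : ℕ} (hqD : q.Coprime D) (ψ : DirichletCharacter ℂ (q * D))

/-- the component at `q` -/
def fstChar : MulChar (ZMod q) ℂ where
  toFun a := ψ ((ZMod.chineseRemainder hqD).symm (a, 1))
  map_one' := by
    rw [← Prod.one_eq_mk, map_one, map_one]
  map_mul' a b := by
    rw [← map_mul, ← map_mul, Prod.mk_mul_mk, one_mul]
  map_nonunit' a ha := by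
    refine MulChar.map_nonunit ψ fun h => ha ?_
    have h2 := h.map (ZMod.chineseRemainder hqD)
    rw [RingEquiv.apply_symm_apply] at h2
    exact h2.map (RingHom.fst (ZMod q) (ZMod D))

/-- the component away from `q` -/
def sndChar : MulChar (ZMod D) ℂ where
  toFun b := ψ ((ZMod.chineseRemainder hqD).symm (1, b))
  map_one' := by
    rw [← Prod.one_eq_mk, map_one, map_one]
  map_mul' a b := by
    rw [← map_mul, ← map_mul, Prod.mk_mul_mk, one_mul]
  map_nonunit' a ha := by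
    refine MulChar.map_nonunit ψ fun h => ha ?_
    have h2 := h.map (ZMod.chineseRemainder hqD)
    rw [RingEquiv.apply_symm_apply] at h2
    exact h2.map (RingHom.snd (ZMod q) (ZMod D))

theorem split_char (n : ℤ) :
    ψ (n : ZMod (q * D)) = fstChar hqD ψ (n : ZMod q) * sndChar hqD ψ (n : ZMod D) := by
  change _ = ψ ((ZMod.chineseRemainder hqD).symm (n, 1)) *
    ψ ((ZMod.chineseRemainder hqD).symm (1, n))
  rw [← map_mul, ← map_mul, Prod.mk_mul_mk, one_mul, mul_one]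
  congr 1
  rw [RingEquiv.eq_symm_apply, map_intCast]
  rfl

end Split

theorem Loc.mono {q K K' : ℕ} {χ : MulChar (ZMod q) ℂ} {F : ℍ → ℂ} (hF : Loc q K χ F)
    (h : K ∣ K') : Loc q K' χ F :=
  fun γ hγ hγq => hF γ (Gamma1_le h hγ) hγq

theorem Loc.smul {q K : ℕ} {χ : MulChar (ZMod q) ℂ} {F : ℍ → ℂ} (hF : Loc q K χ F) (c : ℂ) :
    Loc q K χ (c • F) := by
  intro γ hγ hγq
  rw [ModularForm.SL_smul_slash, hF γ hγ hγq, smul_comm]

theorem isUnit_of_mem_Gamma0 {q : ℕ} {γ : SL(2, ℤ)} (h : γ ∈ Gamma0 q) :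
    IsUnit ((γ 1 1 : ℤ) : ZMod q) := by
  have hdet := Matrix.SpecialLinearGroup.det_coe γ
  rw [Matrix.det_fin_two] at hdet
  have h1 := congrArg (Int.cast : ℤ → ZMod q) hdet
  rw [Gamma0_mem] at h
  push_cast at h1
  rw [h] at h1
  refine IsUnit.of_mul_eq_one ((γ 0 0 : ℤ) : ZMod q) ?_
  linear_combination h1

/-- a form on `Γ₀(M)`, `M ∣ q K`, has trivial character at `q` -/
theorem loc_of_cusp {q K M : ℕ} (h : CuspForm (Gamma0 M) 2) (hM : M ∣ q * K)
    (hqK : q.Coprime K) : Loc q K 1 (h : ℍ → ℂ) := by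
  intro γ hγ hγq
  have h1 : γ ∈ Gamma0 M := by
    refine mem_Gamma0_of (dvd_trans (Int.natCast_dvd_natCast.mpr hM) ?_)
    push_cast
    exact (Nat.isCoprime_iff_coprime.mpr hqK).mul_dvd (dvd_of_mem_Gamma0 hγq)
      (dvd_of_mem_Gamma1' hγ)
  rw [MulChar.one_apply (isUnit_of_mem_Gamma0 hγq), one_smul]
  exact SlashInvariantForm.slash_action_eqn h.toSlashInvariantForm _ ⟨γ, h1, rfl⟩

variable {N q D : ℕ} {F : ℍ → ℂ} {P : PowerSeries ℂ} {a : ℕ → ℂ}

theorem loc_of_neb (hqN : q.Coprime N) (hqD : q.Coprime D) (ψ : DirichletCharacter ℂ (q * D))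
    (h : Neb (N * (q * D)) (fun d => ψ (d : ZMod (q * D)) ^ 2) F) :
    Loc q (N * D) (fstChar hqD ψ ^ 2) F := by
  intro γ hγ hγq
  have h1 : γ ∈ Gamma0 (N * (q * D)) := by
    refine mem_Gamma0_of ?_
    have e : ((N * (q * D) : ℕ) : ℤ) = q * ((N * D : ℕ) : ℤ) := by
      push_cast
      ring
    rw [e]
    exact (Nat.isCoprime_iff_coprime.mpr (Nat.Coprime.mul_right hqN hqD)).mul_dvd
      (dvd_of_mem_Gamma0 hγq) (dvd_of_mem_Gamma1' hγ)
  rw [h γ h1]
  congr 1
  change ψ ((γ 1 1 : ℤ) : ZMod (q * D)) ^ 2 = _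
  have h2 : ((γ 1 1 : ℤ) : ZMod D) = 1 := by
    have h3 := dvd_of_mem_Gamma1 hγ
    have h4 : (D : ℤ) ∣ γ 1 1 - 1 := dvd_trans (by push_cast; exact Dvd.intro_left _ rfl) h3
    have h5 := (ZMod.intCast_zmod_eq_zero_iff_dvd _ _).mpr h4
    push_cast at h5
    linear_combination h5
  rw [split_char hqD ψ, h2, map_one, mul_one, MulChar.pow_apply' _ two_ne_zero]

/-- **The eigensystem of a twist does not occur at a level exactly divisible by `q` or prime to
`q`.** -/
theorem no_low_level [Fact q.Prime] [NeZero N] [NeZero D] (hqN : q.Coprime N) (hqD : q.Coprime D)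
    (ψ : DirichletCharacter ℂ (q * D)) (hψ : fstChar hqD ψ ^ 2 ≠ 1)
    (h : EF (N * (q * D)) (fun d => ψ (d : ZMod (q * D)) ^ 2) a F P) (h1 : P.coeff 1 ≠ 0)
    {M K : ℕ} (hM : M ∣ q * K) (hqK : q.Coprime K) (hMp : ∀ l : ℕ, l.Prime → l ∣ M → l ∣ N * (q * D))
    {g : CuspForm (Gamma0 M) 2} (hg : g.IsNormalizedEigenform)
    (hga : ∀ l : ℕ, l.Prime → ¬ l ∣ N * (q * D) →
      qCoeff g l = ψ⁻¹ (l : ZMod (q * D)) * a l) : False := by
  have hq : q.Prime := Fact.out
  have : NeZero (N * D) := ⟨mul_ne_zero (NeZero.ne N) (NeZero.ne D)⟩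
  have hqND : q.Coprime (N * D) := Nat.Coprime.mul_right hqN hqD
  have hcop : IsCoprime ((N * D : ℕ) : ℤ) q := (Nat.isCoprime_iff_coprime.mpr hqND).symm
  set χ' := sndChar hqD ψ with hχ'
  set Φg : DirichletCharacter ℂ (N * D) :=
    DirichletCharacter.changeLevel (Dvd.intro_left N rfl) (χ'⁻¹) with hΦg
  -- the two depleted forms
  have hG : Loc q (N * D * K * (N * D) ^ 2) (fstChar hqD ψ ^ 2) (tw (N * D) (fun n => Φg n) F) :=
    ((loc_of_neb hqN hqD ψ h.neb).mono (Dvd.intro K rfl)).tw hcop _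
  have hH : Loc q (N * D * K * (N * D) ^ 2) 1
      (P.coeff 1 • tw (N * D) (fun n => (1 : DirichletCharacter ℂ (N * D)) n) (g : ℍ → ℂ)) :=
    (((loc_of_cusp g hM hqK).mono (Dvd.intro_left (N * D) rfl)).tw hcop _).smul _
  have hQg : HasQ 1 (g : ℍ → ℂ) (qExpansion 1 g) := HasQ.of_modularForm g one_pos (one_mem_periods M)
  have hK : ¬ q ∣ N * D * K * (N * D) ^ 2 := by
    rw [← Nat.Prime.coprime_iff_not_dvd hq]
    exact Nat.Coprime.mul_right (Nat.Coprime.mul_right hqND hqK) (hqND.pow_right 2)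
  have hψ1 : fstChar hqD ψ ≠ 1 := by
    intro h2
    rw [h2, one_pow] at hψ
    exact hψ rfl
  have hPG := hasQ_tw h.hasQ (fun n => Φg n)
  have hPH := (hasQ_tw hQg (fun n => (1 : DirichletCharacter ℂ (N * D)) n)).smul (P.coeff 1)
  have hzero := eq_zero_of_twist hK hG hψ hH hψ1 hPG hPH fun n hn => ?_
  · have h2 : (PowerSeries.mk fun n => Φg (n : ZMod (N * D)) * P.coeff n) = 0 := by
      rw [hzero] at hPG
      exact hPG.unique one_pos (HasQ.zero 1)
    have h3 := congrArg (PowerSeries.coeff 1) h2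
    rw [PowerSeries.coeff_mk, Nat.cast_one, map_one, one_mul, map_zero] at h3
    exact h1 h3
  · rw [PowerSeries.coeff_mk, PowerSeries.coeff_smul, PowerSeries.coeff_mk, smul_eq_mul]
    by_cases hnm : n.Coprime (N * D)
    · have hn0 : 0 < n := Nat.pos_of_ne_zero (by rintro rfl; exact hn (dvd_zero _))
      have hnq : n.Coprime q := ((Nat.Prime.coprime_iff_not_dvd hq).mpr hn).symm
      have hnM : n.Coprime (N * (q * D)) := by
        rw [show N * (q * D) = q * (N * D) by ring]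
        exact Nat.Coprime.mul_right hnq hnm
      have hu : IsUnit (n : ZMod (N * D)) := (ZMod.isUnit_iff_coprime n (N * D)).mpr hnm
      have huD : IsUnit (n : ZMod D) :=
        (ZMod.isUnit_iff_coprime n D).mpr (Nat.Coprime.coprime_dvd_right (Dvd.intro_left N rfl) hnm)
      have hP := h.coeff_unique (ψ := fun n => ψ (n : ZMod (q * D))) (b := fun n => qCoeff g n)
        (fun a b => by push_cast; rw [map_mul]) (by rw [Int.cast_one, map_one])
        (fun l hl hlM => rfl) hg.qCoeff_one (fun l hl hlM n => ?_) (fun l hl hlM => ?_) n hn0 hnM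
      · rw [hP]
        have e1 : Φg (n : ZMod (N * D)) = χ'⁻¹ (n : ZMod D) := by
          obtain ⟨U, hU⟩ := hu
          rw [hΦg, ← hU, DirichletCharacter.changeLevel_eq_cast_of_dvd, hU]
          congr 1
          exact ZMod.cast_natCast (Dvd.intro_left N rfl) n
        have e2 : χ'⁻¹ (n : ZMod D) * χ' (n : ZMod D) = 1 := by
          rw [← MulChar.mul_apply, inv_mul_cancel, MulChar.one_apply huD]
        have e3 := split_char hqD ψ (n : ℤ)
        push_cast at e3
        rw [e1, MulChar.one_apply hu]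
        change χ'⁻¹ (n : ZMod D) * (P.coeff 1 * ψ (((n : ℕ) : ℤ) : ZMod (q * D)) * qCoeff g n) =
          fstChar hqD ψ (n : ZMod q) * (P.coeff 1 * (1 * qCoeff g n))
        push_cast
        rw [e3]
        linear_combination (P.coeff 1 * fstChar hqD ψ (n : ZMod q) * qCoeff g n) * e2
      · rcases Nat.eq_zero_or_pos n with rfl | hn'
        · have h0 : qCoeff g 0 = 0 := qCoeff_zero_eq g
          simp [h0]
        · exact rel_of_normalized hg hl (fun h2 => hlM (hMp l hl h2)) n hn'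
      · have hu2 : IsUnit (l : ZMod (q * D)) := by
          rw [ZMod.isUnit_iff_coprime]
          exact (Nat.Prime.coprime_iff_not_dvd hl).mpr fun h3 => hlM (dvd_mul_of_dvd_right h3 N)
        have e2 : ψ (l : ZMod (q * D)) * ψ⁻¹ (l : ZMod (q * D)) = 1 := by
          rw [← MulChar.mul_apply, mul_inv_cancel, MulChar.one_apply hu2]
        have e3 := hga l hl hlM
        push_cast
        rw [e3]
        linear_combination (-a l) * e2
    · have hu : ¬ IsUnit (n : ZMod (N * D)) := fun h2 =>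
        hnm ((ZMod.isUnit_iff_coprime n (N * D)).mp h2)
      rw [MulChar.map_nonunit _ hu, MulChar.map_nonunit _ hu]
      ring

/-- `ψ²` is nontrivial at `q`. -/
def NontrivAt (D : ℕ) (ψ : DirichletCharacter ℂ D) (q : ℕ) : Prop :=
  ∃ x : ℤ, ((D / q : ℕ) : ℤ) ∣ x - 1 ∧ ψ (x : ZMod D) ^ 2 ≠ 1 ∧ ¬ (q : ℤ) ∣ x

theorem fstChar_ne_one {q D : ℕ} (hq : q.Prime) (hqD : q.Coprime D)
    (ψ : DirichletCharacter ℂ (q * D))
    (h : NontrivAt (q * D) ψ q) : fstChar hqD ψ ^ 2 ≠ 1 := by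
  obtain ⟨x, hx1, hx2, hx3⟩ := h
  rw [Nat.mul_div_cancel_left _ hq.pos] at hx1
  intro h1
  apply hx2
  have h2 : ((x : ℤ) : ZMod D) = 1 := by
    have h5 := (ZMod.intCast_zmod_eq_zero_iff_dvd _ _).mpr hx1
    push_cast at h5
    linear_combination h5
  have : Fact q.Prime := ⟨hq⟩
  have hu : IsUnit (x : ZMod q) := by
    rw [isUnit_iff_ne_zero, Ne, ZMod.intCast_zmod_eq_zero_iff_dvd]
    exact hx3
  rw [split_char hqD ψ, h2, map_one, mul_one, ← MulChar.pow_apply' _ two_ne_zero, h1,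
    MulChar.one_apply hu]

/-- **THE ATKIN-LEHNER LEMMA FOR TWISTS.** Let `g` be an eigenform of weight two and level `N D`
(`D` squarefree and prime to `N`) with nebentypus `ψ²`, `ψ` a character modulo `D`. Then there is
a newform `h` (with trivial nebentypus) of level `M` dividing `N D²` whose eigenvalues are those of
`g ⊗ ψ⁻¹`, and `q²` divides exactly `M` for all primes `q ∣ D` at which `ψ²` is nontrivial. -/
theorem exists_newform_level {N D : ℕ} [NeZero N] [NeZero D] (hND : N.Coprime D)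
    (hD : Squarefree D) (ψ : DirichletCharacter ℂ D) {F : ℍ → ℂ} {P : PowerSeries ℂ} {a : ℕ → ℂ}
    (h : EF (N * D) (fun d => ψ (d : ZMod D) ^ 2) a F P) (hF : F ≠ 0) :
    ∃ (M : ℕ) (g : CuspForm (Gamma0 M) 2), M ∣ N * D ^ 2 ∧ g.IsNewform ∧
      (∀ l : ℕ, l.Prime → ¬ l ∣ N * D → qCoeff g l = ψ⁻¹ (l : ZMod D) * a l) ∧
      ∀ q : ℕ, q.Prime → q ∣ D → NontrivAt D ψ q → M.factorization q = 2 := by
  have hc : Per (N * D) (fun d => ψ (d : ZMod D) ^ 2) := by
    intro a b hab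
    have h2 : (D : ℤ) ∣ a - b := dvd_trans (by push_cast; exact Dvd.intro_left _ rfl) hab
    have h5 := (ZMod.intCast_zmod_eq_zero_iff_dvd _ _).mpr h2
    push_cast at h5
    have h6 : (a : ZMod D) = b := by linear_combination h5
    change ψ (a : ZMod D) ^ 2 = ψ (b : ZMod D) ^ 2
    rw [h6]
  obtain ⟨F₁, P₁, h₁, h₁'⟩ := h.exists_first hc (by simp) hF
  obtain ⟨M, g, hM, hg, hga⟩ := exists_newform_twist ψ h₁ h₁'
  have hM0 : M ≠ 0 := by
    rintro rfl
    rw [zero_dvd_iff] at hM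
    exact (mul_ne_zero (NeZero.ne N) (pow_ne_zero 2 (NeZero.ne D))) hM
  refine ⟨M, g, hM, hg, hga, fun q hq hqD hnt => ?_⟩
  have : Fact q.Prime := ⟨hq⟩
  obtain ⟨D', rfl⟩ := hqD
  have hqD' : q.Coprime D' := Nat.coprime_of_squarefree_mul hD
  have hqN : q.Coprime N := (Nat.Coprime.coprime_dvd_right (dvd_mul_right _ _) hND).symm
  have hD' : D' ≠ 0 := by
    rintro rfl
    exact NeZero.ne (q * 0) (mul_zero q)
  have : NeZero D' := ⟨hD'⟩
  have hle : M.factorization q ≤ 2 := by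
    have h2 := (Nat.factorization_le_iff_dvd hM0
      (mul_ne_zero (NeZero.ne N) (pow_ne_zero 2 (NeZero.ne (q * D'))))).mpr hM q
    rw [Nat.factorization_mul (NeZero.ne N) (pow_ne_zero 2 (NeZero.ne (q * D'))),
      Nat.factorization_pow, Nat.factorization_mul hq.ne_zero hD'] at h2
    have e1 : N.factorization q = 0 := Nat.factorization_eq_zero_of_not_dvd
      ((Nat.Prime.coprime_iff_not_dvd hq).mp hqN)
    have e2 : D'.factorization q = 0 := Nat.factorization_eq_zero_of_not_dvd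
      ((Nat.Prime.coprime_iff_not_dvd hq).mp hqD')
    simp only [Finsupp.add_apply, Finsupp.smul_apply, e1, e2, smul_eq_mul,
      hq.factorization_self] at h2
    omega
  by_contra hne
  have hle1 : M.factorization q ≤ 1 := by omega
  have hMK : M ∣ q * (M / q ^ M.factorization q) := by
    have h2 := Nat.ordProj_mul_ordCompl_eq_self M q
    conv_lhs => rw [← h2]
    exact mul_dvd_mul_right (by
      calc q ^ M.factorization q ∣ q ^ 1 := pow_dvd_pow q hle1
        _ = q := pow_one q) _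
  refine no_low_level hqN hqD' ψ (fstChar_ne_one hq hqD' ψ hnt) h₁ h₁' hMK
    (Nat.coprime_ordCompl hq hM0) (fun l hl hlM => ?_) hg.1 hga
  have h2 := hlM.trans hM
  rcases (Nat.Prime.dvd_mul hl).mp h2 with h3 | h3
  · exact dvd_mul_of_dvd_left h3 _
  · exact dvd_mul_of_dvd_right (hl.dvd_of_dvd_pow h3) N

/-- The same theorem for elements of `S₂(G)`, `Γ₁(ND) ≤ G ≤ Γ₀(ND)`, and the operators of
helper3. -/
theorem exists_newform_level_G {N D : ℕ} [NeZero N] [NeZero D] (hND : N.Coprime D)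
    (hD : Squarefree D) (ψ : DirichletCharacter ℂ D) {G : Subgroup SL(2, ℤ)}
    (h1 : Gamma1 (N * D) ≤ G) (h0 : G ≤ Gamma0 (N * D)) {a : ℕ → ℂ} (g : S2 G) (hg : g ≠ 0)
    (hneb : ∀ γ ∈ Gamma0 (N * D), g.1 ∣[(2 : ℤ)] γ = ψ ((γ 1 1 : ℤ) : ZMod D) ^ 2 • g.1)
    (hT : ∀ (l : ℕ) (hl : l.Prime) (hN : ¬ l ∣ N * D), heckeS2 h1 h0 hl hN g = a l • g) :
    ∃ (M : ℕ) (f : CuspForm (Gamma0 M) 2), M ∣ N * D ^ 2 ∧ f.IsNewform ∧
      (∀ l : ℕ, l.Prime → ¬ l ∣ N * D → qCoeff f l = ψ⁻¹ (l : ZMod D) * a l) ∧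
      ∀ q : ℕ, q.Prime → q ∣ D → NontrivAt D ψ q → M.factorization q = 2 := by
  have : NeZero (N * D) := ⟨mul_ne_zero (NeZero.ne N) (NeZero.ne D)⟩
  exact exists_newform_level hND hD ψ (EF.of_hecke h1 h0 g hneb hT) fun h => hg (Subtype.ext h)

end Fermat.Agent.RT.AL
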