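import Fermat.Agent.RT.TWPrimes

set_option autoImplicit false

/-!
# Taylor–Wiles primes: killing the dual Selmer group
-/

open scoped Pointwise
open Matrix

namespace Fermat.Agent.RT

open Fermat.Agent.GaloisBasics Fermat.Agent.GCFT Fermat.Agent.Coh Fermat.Agent.ESCore

/-- The field of algebraic numbers. -/
local notation "Qb" => AlgebraicClosure ℚ
/-- The absolute Galois group. -/
local notation "GQ" => (AlgebraicClosure ℚ ≃ₐ[ℚ] AlgebraicClosure ℚ)

/-- two Frobenius elements differ by inertia -/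
theorem frob_diff {A : ValuationSubring Qb} {q : ℕ} {φ φ' : GQ} (h : A.IsFrobeniusAt φ q)
    (h' : A.IsFrobeniusAt φ' q) : φ⁻¹ * φ' ∈ A.inertiaSubgroupIn ℚ := by
  obtain ⟨hd, h⟩ := h
  obtain ⟨hd', h'⟩ := h'
  refine Subgroup.mem_map.mpr ⟨(⟨φ, hd⟩ : A.decompositionSubgroup ℚ)⁻¹ * ⟨φ', hd'⟩, ?_, rfl⟩
  rw [ValuationSubring.inertiaSubgroup, MonoidHom.mem_ker]
  ext y
  change ((⟨φ, hd⟩ : A.decompositionSubgroup ℚ)⁻¹ * ⟨φ', hd'⟩) • y = y
  rw [mul_smul, h', inv_smul_eq_iff, h]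

theorem inertia_le_decomposition (A : ValuationSubring Qb) :
    A.inertiaSubgroupIn ℚ ≤ A.decompositionSubgroup ℚ := by
  intro σ hσ
  obtain ⟨τ, -, rfl⟩ := hσ
  exact τ.2

/-- All Frobenius elements at an unramified prime are conjugate in any quotient. -/
theorem frob_conj {G : Type*} [Group G] (f : GQ →* G) {q : ℕ} (hq : q.Prime)
    (hunr : ∀ A : ValuationSubring Qb, A.LiesOverPrime q → A.inertiaSubgroupIn ℚ ≤ f.ker)
    {A A' : ValuationSubring Qb} (hA : A.LiesOverPrime q) (hA' : A'.LiesOverPrime q) {φ φ' : GQ}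
    (h : A.IsFrobeniusAt φ q) (h' : A'.IsFrobeniusAt φ' q) :
    ∃ g : GQ, f φ' = f g * f φ * (f g)⁻¹ := by
  obtain ⟨g, rfl⟩ := exists_smul_eq hq hA hA'
  have h1 := FrobDensity.isFrobeniusAt_conj h' g
  rw [inv_smul_smul] at h1
  have h2 : f (φ⁻¹ * (g⁻¹ * φ' * g)) = 1 := hunr A hA (frob_diff h h1)
  refine ⟨g, ?_⟩
  simp only [map_mul, map_inv] at h2
  have h3 : (f g)⁻¹ * f φ' * f g = f φ := by
    calc (f g)⁻¹ * f φ' * f g = f φ * ((f φ)⁻¹ * ((f g)⁻¹ * f φ' * f g)) := by group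
      _ = f φ := by rw [h2, mul_one]
  rw [← h3]
  group

section Unram

variable {k V : Type*} [CommRing k] [AddCommGroup V] [Module k V] {τ : Representation k GQ V}

/-- A class which is locally trivial at the extra primes has smaller level. -/
theorem mem_Z1_of_locTriv {S T : Finset Nat.Primes} {U₀ : Subgroup GQ}
    (hU₀ : U₀ ∈ famS T) (hτ : ∀ v : V, ∀ u ∈ U₀, τ u v = v) {z : GQ → V}
    (hz : z ∈ Z1 (famS S) τ) (hloc : ∀ q ∈ S, q ∉ T → LocTriv q τ z) : z ∈ Z1 (famS T) τ := by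
  obtain ⟨⟨U, hU, hzU⟩, hc⟩ := mem_Z1.mp hz
  have hz1 : z 1 = 0 := cocycle_one hc
  refine mem_Z1.mpr ⟨?_, hc⟩
  have hinvz : ∀ u, u ∈ U₀ → z u = 0 → z u⁻¹ = 0 := by
    intro u hu h
    have h1 := hc u⁻¹ u
    rw [inv_mul_cancel, hz1, h, map_zero, zero_add] at h1
    exact h1.symm
  let N : Subgroup GQ :=
    { carrier := {u | u ∈ U₀ ∧ z u = 0}
      mul_mem' := by
        rintro u v ⟨hu, hu'⟩ ⟨hv, hv'⟩
        exact ⟨U₀.mul_mem hu hv, by rw [hc, hu', hv', map_zero, add_zero]⟩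
      one_mem' := ⟨U₀.one_mem, hz1⟩
      inv_mem' := by
        rintro u ⟨hu, hu'⟩
        exact ⟨U₀.inv_mem hu, hinvz u hu hu'⟩ }
  refine ⟨N, mem_famS.mpr ⟨⟨?_⟩, ?_, ?_⟩, ?_⟩
  · rintro u ⟨hu, hu'⟩ g
    refine ⟨hU₀.1.conj_mem u hu g, ?_⟩
    rw [cocycle_conj hc g fun v => hτ v u hu, hu', map_zero]
  · refine Subgroup.isOpen_mono (H₁ := U ⊓ U₀) ?_ (hU.2.1.inter hU₀.2.1)
    rintro u ⟨hu, hu'⟩
    refine ⟨hu', ?_⟩
    have := hzU 1 u hu
    rwa [one_mul, hz1] at this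
  · intro q hq A hA σ hσ
    have hσ₀ : σ ∈ U₀ := hU₀.2.2 q hq A hA hσ
    refine ⟨hσ₀, ?_⟩
    by_cases hqS : q ∈ S
    · obtain ⟨Y, hY⟩ := (hloc q hqS hq).decomposition hc (U := U ⊓ U₀)
        (hU.2.1.inter hU₀.2.1) (fun g u hu => hzU g u hu.1) (fun v u hu => hτ v u hu.2) hA
      rw [hY σ (inertia_le_decomposition A hσ), hτ _ σ hσ₀, sub_self]
    · have := hzU 1 σ (hU.2.2 q hqS A hA hσ)
      rwa [one_mul, hz1] at this
  · rintro g u ⟨hu, hu'⟩
    rw [hc, hu', map_zero, zero_add]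

end Unram

section Kill

variable {k : Type*} [Field k] {ρ : GQ →* GL (Fin 2) k} {χ : GQ →* kˣ}
  {p : ℕ} [Fact p.Prime] {n : ℕ}

/-- Taylor–Wiles primes of level `n`. -/
structure IsTW (ρ : GQ →* GL (Fin 2) k) (p n : ℕ) (q : Nat.Primes) : Prop where
  dvd : p ^ n ∣ (q : ℕ) - 1
  unr : ∀ A : ValuationSubring Qb, A.LiesOverPrime (q : ℕ) → A.inertiaSubgroupIn ℚ ≤ ρ.ker
  frob : ∀ A : ValuationSubring Qb, A.LiesOverPrime (q : ℕ) → ∀ φ : GQ,
    A.IsFrobeniusAt φ (q : ℕ) → (ρ φ : Matrix (Fin 2) (Fin 2) k).det = 1 ∧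
      (ρ φ : Matrix (Fin 2) (Fin 2) k).trace ^ 2 ≠ 4

theorem isTW_of {q : Nat.Primes} (hd : p ^ n ∣ (q : ℕ) - 1)
    (hunr : ∀ A : ValuationSubring Qb, A.LiesOverPrime (q : ℕ) → A.inertiaSubgroupIn ℚ ≤ ρ.ker)
    {A : ValuationSubring Qb} (hA : A.LiesOverPrime (q : ℕ)) {φ : GQ}
    (hφ : A.IsFrobeniusAt φ (q : ℕ)) (h1 : (ρ φ : Matrix (Fin 2) (Fin 2) k).det = 1)
    (h4 : (ρ φ : Matrix (Fin 2) (Fin 2) k).trace ^ 2 ≠ 4) : IsTW ρ p n q := by
  refine ⟨hd, hunr, fun A' hA' φ' hφ' => ?_⟩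
  obtain ⟨g, hg⟩ := frob_conj ρ q.2 hunr hA hA' hφ hφ'
  have h5 : (ρ φ' : Matrix (Fin 2) (Fin 2) k) = (ρ g : Matrix (Fin 2) (Fin 2) k) *
      (ρ φ : Matrix (Fin 2) (Fin 2) k) * (((ρ g)⁻¹ : GL (Fin 2) k) : Matrix (Fin 2) (Fin 2) k) := by
    rw [hg]; rfl
  have h6 : (((ρ g)⁻¹ : GL (Fin 2) k) : Matrix (Fin 2) (Fin 2) k) *
      (ρ g : Matrix (Fin 2) (Fin 2) k) = 1 := by
    rw [← Units.val_mul, inv_mul_cancel, Units.val_one]
  have h7 : (ρ φ' : Matrix (Fin 2) (Fin 2) k).det = (ρ φ : Matrix (Fin 2) (Fin 2) k).det := by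
    rw [h5, det_mul_comm, ← mul_assoc, h6, one_mul]
  have h8 : (ρ φ' : Matrix (Fin 2) (Fin 2) k).trace = (ρ φ : Matrix (Fin 2) (Fin 2) k).trace := by
    rw [h5, trace_mul_comm, ← mul_assoc, h6, one_mul]
  rw [h7, h8]
  exact ⟨h1, h4⟩

/-- the restriction map in degree one -/
noncomputable def locMap (T : Finset Nat.Primes) {V : Type*} [AddCommGroup V] [Module k V]
    (τ : Representation k GQ V) (q : Nat.Primes) :=
  (Mor.pull (rl q) (famS T) τ).mapH1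

theorem locMap_mk {T : Finset Nat.Primes} {V : Type*} [AddCommGroup V] [Module k V]
    {τ : Representation k GQ V} {q : Nat.Primes} {z : Z1 (famS T) τ} :
    locMap T τ q (H1.mk (famS T) τ z) = 0 ↔ LocTriv q τ z.1 := by
  rw [locMap, Mor.mapH1_mk, H1.mk_eq_zero]
  exact Iff.rfl

variable (h2 : (2 : k) ≠ 0) (hn : 0 < n)
  (hdet : ∀ g, cyc p g = 1 → (ρ g : Matrix (Fin 2) (Fin 2) k).det = 1)
  (hχ : ∀ g, cyc p g = 1 → χ g = 1) (hχ' : ∀ t, ρ t = 1 → χ t = 1)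
  (hspan : Submodule.span k (imgSet ρ (cyc (p ^ n)).ker) = ⊤)
  {T : Finset Nat.Primes} (hT : ρ.ker ∈ famS T)
  (hvan : ∀ c ∈ Z1 (famS T) (adRep ρ χ), (∀ t, ρ t = 1 → c t = 0) → c ∈ B1 (adRep ρ χ))

include h2 hn hdet hχ hχ' hspan hT hvan in
theorem exists_kill (V' : Submodule k (H1 (famS T) (adRep ρ χ))) [FiniteDimensional k V']
    (bad : Finset Nat.Primes) (d : ℕ) (hd : Module.finrank k V' ≤ d) :
    ∃ Q : Finset Nat.Primes, Q.card ≤ d ∧ Disjoint Q (T ∪ bad) ∧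
      (∀ q ∈ Q, IsTW ρ p n q) ∧ ∀ x ∈ V', (∀ q ∈ Q, locMap T (adRep ρ χ) q x = 0) → x = 0 := by
  classical
  induction d generalizing V' bad with
  | zero =>
    refine ⟨∅, le_rfl, Finset.disjoint_empty_left _, by simp, fun x hx _ => ?_⟩
    have h0 : V' = ⊥ := Submodule.finrank_eq_zero.mp (Nat.le_zero.mp hd)
    rw [h0, Submodule.mem_bot] at hx
    exact hx
  | succ d ih =>
    by_cases h0 : V' = ⊥
    · refine ⟨∅, Nat.zero_le _, Finset.disjoint_empty_left _, by simp, fun x hx _ => ?_⟩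
      rw [h0, Submodule.mem_bot] at hx
      exact hx
    obtain ⟨x, hx, hx0⟩ := Submodule.exists_mem_ne_zero_of_ne_bot h0
    obtain ⟨z, rfl⟩ := H1.mk_surjective x
    have hzB : z.1 ∉ B1 (adRep ρ χ) := by
      intro h
      apply hx0
      rw [H1.mk_eq_zero]
      exact mem_B1.mp h
    obtain ⟨⟨U, hU, hzU⟩, hc⟩ := mem_Z1.mp z.2
    obtain ⟨q, hq, hqb, hdq, A, hA, φ, hφ, h1, h3, h4, h5⟩ := exists_prime (p := p) (n := n) h2
      hT.2.1 hn hdet hχ hχ' hspan hc hU.2.1 hzU (hvan z.1 z.2) hzB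
      ((T ∪ bad).image (fun q : Nat.Primes => (q : ℕ)))
    set q' : Nat.Primes := ⟨q, hq⟩ with hq'
    have hq'b : q' ∉ T ∪ bad := fun h => hqb (Finset.mem_image.mpr ⟨q', h, rfl⟩)
    have hq'T : q' ∉ T := fun h => hq'b (Finset.mem_union_left _ h)
    have hTW : IsTW ρ p n q' := isTW_of (q := q') hdq (hT.2.2 q' hq'T) hA hφ h3 h4
    have hnl : locMap T (adRep ρ χ) q' (H1.mk (famS T) (adRep ρ χ) z) ≠ 0 := by
      intro h
      rw [locMap_mk] at h
      obtain ⟨Y, hY⟩ := h.decomposition (A := A) hc (U := U ⊓ ρ.ker) (hU.2.1.inter hT.2.1)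
        (fun g u hu => hzU g u hu.1)
        (fun v u hu => adRep_of_one ρ χ hu.2 (hχ' u hu.2) v) hA
      exact h5 ⟨Y, hY φ hφ.mem_decompositionSubgroup⟩
    set V'' : Submodule k (H1 (famS T) (adRep ρ χ)) :=
      V' ⊓ LinearMap.ker (locMap T (adRep ρ χ) q') with hV''
    have hlt : V'' < V' := by
      refine lt_of_le_of_ne inf_le_left fun h => hnl ?_
      rw [← h] at hx
      exact hx.2
    have hfr : Module.finrank k V'' ≤ d := by
      have := Submodule.finrank_lt_finrank_of_lt hlt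
      omega
    haveI : FiniteDimensional k V'' := Submodule.finiteDimensional_of_le inf_le_left
    obtain ⟨Q, hQd, hQb, hQT, hQ⟩ := ih V'' (bad ∪ {q'}) hfr
    refine ⟨insert q' Q, ?_, ?_, ?_, ?_⟩
    · exact (Finset.card_insert_le _ _).trans (by omega)
    · rw [Finset.disjoint_insert_left]
      refine ⟨hq'b, hQb.mono_right ?_⟩
      intro a ha
      rcases Finset.mem_union.mp ha with h | h
      · exact Finset.mem_union_left _ h
      · exact Finset.mem_union_right _ (Finset.mem_union_left _ h)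
    · intro q hq
      rcases Finset.mem_insert.mp hq with rfl | hq
      · exact hTW
      · exact hQT q hq
    · intro y hy hloc
      refine hQ y ⟨hy, hloc q' (Finset.mem_insert_self _ _)⟩ fun q hq =>
        hloc q (Finset.mem_insert_of_mem hq)

include h2 hn hdet hspan hT in
/-- many Taylor–Wiles primes -/
theorem exists_many (bad : Finset Nat.Primes) (d : ℕ) :
    ∃ Q : Finset Nat.Primes, Q.card = d ∧ Disjoint Q (T ∪ bad) ∧ ∀ q ∈ Q, IsTW ρ p n q := by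
  classical
  induction d with
  | zero => exact ⟨∅, rfl, Finset.disjoint_empty_left _, by simp⟩
  | succ d ih =>
    obtain ⟨Q, hQd, hQb, hQT⟩ := ih
    obtain ⟨q, hq, hqb, hdq, A, hA, φ, hφ, h1, h3, h4⟩ := exists_prime' (p := p) (n := n) h2
      hT.2.1 hn hdet hspan ((T ∪ bad ∪ Q).image (fun q : Nat.Primes => (q : ℕ)))
    set q' : Nat.Primes := ⟨q, hq⟩ with hq'
    have hq'b : q' ∉ T ∪ bad ∪ Q := fun h => hqb (Finset.mem_image.mpr ⟨q', h, rfl⟩)
    rw [Finset.mem_union, not_or] at hq'b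
    have hq'T : q' ∉ T := fun h => hq'b.1 (Finset.mem_union_left _ h)
    have hTW : IsTW ρ p n q' := isTW_of (q := q') hdq (hT.2.2 q' hq'T) hA hφ h3 h4
    refine ⟨insert q' Q, ?_, ?_, ?_⟩
    · rw [Finset.card_insert_of_notMem hq'b.2, hQd]
    · rw [Finset.disjoint_insert_left]
      exact ⟨hq'b.1, hQb⟩
    · intro q hq
      rcases Finset.mem_insert.mp hq with rfl | hq
      · exact hTW
      · exact hQT q hq

include h2 hn hdet hχ hχ' hspan hT hvan in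
/-- **Taylor–Wiles primes** killing the dual Selmer group. -/
theorem exists_TW_set [FiniteDimensional k (H1 (famS T) (adRep ρ χ))] (r : ℕ)
    (hr : Module.finrank k (H1 (famS T) (adRep ρ χ)) ≤ r) (bad : Finset Nat.Primes) :
    ∃ Q : Finset Nat.Primes, Q.card = r ∧ Disjoint Q (T ∪ bad) ∧ (∀ q ∈ Q, IsTW ρ p n q) ∧
      ∀ z ∈ Z1 (famS (T ∪ Q)) (adRep ρ χ), (∀ q ∈ Q, LocTriv q (adRep ρ χ) z) →
        z ∈ B1 (adRep ρ χ) := by
  classical
  obtain ⟨Q, hQd, hQb, hQT, hQ⟩ := exists_kill h2 hn hdet hχ hχ' hspan hT hvan ⊤ bad r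
    (by rw [finrank_top]; exact hr)
  obtain ⟨Q', hQd', hQb', hQT'⟩ := exists_many h2 hn hdet hspan hT (bad ∪ Q) (r - Q.card)
  have hdisj : Disjoint Q Q' := by
    refine (hQb'.mono_right ?_).symm
    intro a ha
    exact Finset.mem_union_right _ (Finset.mem_union_right _ ha)
  refine ⟨Q ∪ Q', ?_, ?_, ?_, ?_⟩
  · rw [Finset.card_union_of_disjoint hdisj, hQd']
    omega
  · rw [Finset.disjoint_union_left]
    refine ⟨hQb, hQb'.mono_right ?_⟩
    intro a ha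
    rcases Finset.mem_union.mp ha with h | h
    · exact Finset.mem_union_left _ h
    · exact Finset.mem_union_right _ (Finset.mem_union_left _ h)
  · intro q hq
    rcases Finset.mem_union.mp hq with h | h
    · exact hQT q h
    · exact hQT' q h
  · intro z hz hloc
    have h1 : z ∈ Z1 (famS T) (adRep ρ χ) := by
      refine mem_Z1_of_locTriv hT (fun v u hu => adRep_of_one ρ χ hu (hχ' u hu) v) hz
        fun q hq hqT => hloc q ?_
      exact (Finset.mem_union.mp hq).resolve_left hqT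
    have h3 := hQ (H1.mk (famS T) (adRep ρ χ) ⟨z, h1⟩) trivial fun q hq => by
      rw [locMap_mk]
      exact hloc q (Finset.mem_union_left _ hq)
    rw [H1.mk_eq_zero] at h3
    exact mem_B1.mpr h3

end Kill

end Fermat.Agent.RT
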