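import Fermat.Agent.RT.CotGen
import Fermat.Agent.RT.TWKill

set_option autoImplicit false

/-!
# Generators of framed Hecke algebras over the local parameters
-/

open IsLocalRing MvPowerSeries Matrix

namespace Fermat.Agent.RT

open Fermat.Agent.GCFT Fermat.Agent.Coh

/-- The absolute Galois group. -/
local notation "GQ" => (AlgebraicClosure ℚ ≃ₐ[ℚ] AlgebraicClosure ℚ)

section MatDer

variable {O A k : Type*} [CommRing O] [CommRing A] [Field k] {φ : O →+* A} {π : A →+* k}
  {D : A → k}

theorem map_mul_der (hD : D ∈ DerSp φ π) (M N : Matrix (Fin 2) (Fin 2) A) :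
    (M * N).map D = M.map π * N.map D + M.map D * N.map π := by
  ext i j
  rw [Matrix.map_apply, Matrix.add_apply, Matrix.mul_apply, Matrix.mul_apply, Matrix.mul_apply,
    der_sum hD, ← Finset.sum_add_distrib]
  refine Finset.sum_congr rfl fun l _ => ?_
  rw [der_mul hD, Matrix.map_apply, Matrix.map_apply, Matrix.map_apply, Matrix.map_apply]
  ring

theorem map_one_der (hD : D ∈ DerSp φ π) : (1 : Matrix (Fin 2) (Fin 2) A).map D = 0 := by
  ext i j
  rw [Matrix.map_apply, Matrix.one_apply, Matrix.zero_apply]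
  split
  · exact der_one hD
  · exact der_zero hD

theorem map_trace_der (hD : D ∈ DerSp φ π) (M : Matrix (Fin 2) (Fin 2) A) :
    (M.map D).trace = D M.trace := by
  rw [trace_fin_two, trace_fin_two, der_add hD, Matrix.map_apply, Matrix.map_apply]

theorem trace_map_der_mul (hD : D ∈ DerSp φ π) {M : Matrix (Fin 2) (Fin 2) A}
    {N : Matrix (Fin 2) (Fin 2) k} (hN : M.map π * N = 1) {o : O} (hdet : M.det = φ o) :
    (M.map D * N).trace = 0 := by
  have hdetk : (M.map π).det * N.det = 1 := by rw [← det_mul, hN, det_one]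
  have h0 : (M.map π).det ≠ 0 := left_ne_zero_of_mul_eq_one hdetk
  have hNM : N = (M.map π).det⁻¹ • (M.map π).adjugate := by
    have h1 : (M.map π).adjugate * (M.map π * N) = (M.map π).det • N := by
      rw [← mul_assoc, adjugate_mul, smul_mul_assoc, one_mul]
    rw [hN, mul_one] at h1
    rw [h1, smul_smul, inv_mul_cancel₀ h0, one_smul]
  have h2 : D M.det = 0 := by rw [hdet, der_cst hD]
  have h3 : (M.map D * (M.map π).adjugate).trace = D M.det := by
    rw [adjugate_fin_two, trace_fin_two, det_fin_two, der_sub hD, der_mul hD, der_mul hD]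
    simp [Matrix.mul_apply, Fin.sum_univ_two]
    ring
  rw [hNM, mul_smul_comm, trace_smul, h3, h2, smul_zero]

end MatDer

section Coc

variable {O T k : Type*} [CommRing O] [CommRing T] [Field k] {φ : O →+* T} {π : T →+* k}
  {Γ : Type*} [Group Γ]

/-- the residual representation -/
noncomputable def resRep (π : T →+* k) (ρ : Γ →* GL (Fin 2) T) : Γ →* GL (Fin 2) k :=
  (Units.map π.mapMatrix.toMonoidHom).comp ρ

variable {ρ : Γ →* GL (Fin 2) T}

theorem resRep_coe (g : Γ) : (resRep π ρ g).val = (ρ g).val.map π := rfl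

/-- the adjoint representation of the residual representation -/
noncomputable abbrev ad0 (ρb : Γ →* GL (Fin 2) k) : Representation k Γ (sl2 k) := adRep ρb 1

theorem ad0_coe (ρb : Γ →* GL (Fin 2) k) (g : Γ) (X : sl2 k) :
    (ad0 ρb g X : Matrix (Fin 2) (Fin 2) k) = (ρb g).val * X.1 * (ρb g⁻¹).val := by
  rw [adRep_coe, MonoidHom.one_apply, Units.val_one, one_smul]

/-- the cocycle attached to a derivation -/
noncomputable def derMap (hdet : ∀ g, ∃ o, (ρ g).val.det = φ o) :
    DerSp φ π →ₗ[k] (Γ → sl2 k) where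
  toFun D := fun g => ⟨(ρ g).val.map D.1 * (resRep π ρ g⁻¹).val, by
    rw [mem_sl2]
    obtain ⟨o, ho⟩ := hdet g
    exact trace_map_der_mul D.2 (by rw [← resRep_coe]; exact mul_inv_coe _ g) ho⟩
  map_add' D E := by
    funext g
    apply Subtype.ext
    change (ρ g).val.map (D.1 + E.1) * _ = (ρ g).val.map D.1 * _ + (ρ g).val.map E.1 * _
    rw [← add_mul]
    rfl
  map_smul' c D := by
    funext g
    apply Subtype.ext
    change (ρ g).val.map (c • D.1) * _ = c • ((ρ g).val.map D.1 * _)
    rw [← smul_mul_assoc]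
    rfl

variable {hdet : ∀ g, ∃ o, (ρ g).val.det = φ o}

theorem derMap_coe (D : DerSp φ π) (g : Γ) : (derMap hdet D g).1 =
    (ρ g).val.map D.1 * (resRep π ρ g⁻¹).val := rfl

theorem map_der_eq (D : DerSp φ π) (g : Γ) :
    (ρ g).val.map D.1 = (derMap hdet D g).1 * (resRep π ρ g).val := by
  rw [derMap_coe, mul_assoc, inv_mul_coe, mul_one]

theorem derMap_cocycle (D : DerSp φ π) (g h : Γ) :
    derMap hdet D (g * h) = ad0 (resRep π ρ) g (derMap hdet D h) + derMap hdet D g := by
  apply Subtype.ext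
  rw [Submodule.coe_add, ad0_coe, derMap_coe, derMap_coe, derMap_coe, map_mul, Units.val_mul,
    map_mul_der D.2, add_mul, ← resRep_coe, ← resRep_coe, _root_.mul_inv_rev, map_mul, Units.val_mul]
  congr 1
  · rw [mul_assoc, mul_assoc, mul_assoc]
  · rw [mul_assoc, ← mul_assoc (resRep π ρ h).val, mul_inv_coe, one_mul]

/-- A derivation whose cocycle is a coboundary kills the traces. -/
theorem der_trace_eq_zero (D : DerSp φ π) (h : derMap hdet D ∈ B1 (ad0 (resRep π ρ))) (g : Γ) :
    D.1 (ρ g).val.trace = 0 := by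
  obtain ⟨Y, hY⟩ := mem_B1.mp h
  rw [← map_trace_der D.2, map_der_eq (hdet := hdet), hY g, Submodule.coe_sub, ad0_coe, sub_mul,
    mul_assoc, mul_assoc, inv_mul_coe, mul_one, trace_sub, trace_mul_comm, sub_self]

end Coc

section Framed

variable {O T k : Type*} [CommRing O] [CommRing T] [Field k] {φ : O →+* T} {π : T →+* k}
  {V : Type*} [Fintype V]

/-- the matrix of the universal frame at `v` -/
noncomputable def frM (T : Type*) [CommRing T] (v : V) :
    Matrix (Fin 2) (Fin 2) (MvPowerSeries (V × Fin 3) T) :=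
  !![1 + X (v, 0), X (v, 1); X (v, 2), 1]

omit [Fintype V] in
theorem isUnit_det_frM (v : V) : IsUnit (frM T v).det := by
  rw [MvPowerSeries.isUnit_iff_constantCoeff]
  rw [frM, det_fin_two_of]
  simp

/-- the universal frame at `v` -/
noncomputable def frm (T : Type*) [CommRing T] (v : V) :
    GL (Fin 2) (MvPowerSeries (V × Fin 3) T) :=
  Matrix.GeneralLinearGroup.mk'' (frM T v) (isUnit_det_frM v)

omit [Fintype V] in
theorem frm_coe (v : V) : (frm T v).val = frM T v := rfl

/-- the structure map of the framed ring -/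
noncomputable abbrev frφ (φ : O →+* T) (V : Type*) : O →+* MvPowerSeries (V × Fin 3) T :=
  (C : T →+* MvPowerSeries (V × Fin 3) T).comp φ

/-- the augmentation of the framed ring -/
noncomputable abbrev frπ (π : T →+* k) (V : Type*) : MvPowerSeries (V × Fin 3) T →+* k :=
  π.comp (constantCoeff : MvPowerSeries (V × Fin 3) T →+* T)

omit [Fintype V] in
theorem frM_map (v : V) : (frM T v).map (frπ π V) = 1 := by
  ext i j
  fin_cases i <;> fin_cases j <;> simp [frM]

/-- restriction of derivations to the unframed ring -/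
noncomputable def derRes (φ : O →+* T) (π : T →+* k) (V : Type*) :
    DerSp (frφ φ V) (frπ π V) →ₗ[k] DerSp φ π where
  toFun D := ⟨fun t => D.1 (C t), mem_DerSp.mpr ⟨fun a b => by rw [RingHom.map_add, der_add D.2],
    fun a b => by rw [RingHom.map_mul, der_mul D.2]; simp, fun o => der_cst D.2 o⟩⟩
  map_add' _ _ := rfl
  map_smul' _ _ := rfl

omit [Fintype V] in
theorem derRes_coe (D : DerSp (frφ φ V) (frπ π V)) (t : T) :
    (derRes φ π V D).1 t = D.1 (C t) := rfl

/-- the value of a derivation on the frame at `v` -/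
noncomputable def frD (D : MvPowerSeries (V × Fin 3) T → k) (v : V) : Matrix (Fin 2) (Fin 2) k :=
  !![D (X (v, 0)), D (X (v, 1)); D (X (v, 2)), 0]

omit [Fintype V] in
theorem frM_map_der {D : MvPowerSeries (V × Fin 3) T → k} (hD : D ∈ DerSp (frφ φ V) (frπ π V))
    (v : V) : (frM T v).map D = frD D v := by
  ext i j
  fin_cases i <;> fin_cases j
  · change D (1 + X (v, 0)) = D (X (v, 0))
    rw [der_add hD, der_one hD, zero_add]
  · rfl
  · rfl
  · exact der_one hD

/-- the traceless part of the value on the frame -/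
noncomputable def frD0 (h2 : (2 : k) ≠ 0) (v : V) :
    (MvPowerSeries (V × Fin 3) T → k) →ₗ[k] sl2 k where
  toFun D := ⟨frD D v - (D (X (v, 0)) / 2) • (1 : Matrix (Fin 2) (Fin 2) k), by
    rw [mem_sl2, trace_sub, trace_smul, trace_one, Fintype.card_fin, frD, trace_fin_two_of,
      smul_eq_mul]
    push_cast
    field_simp
    ring⟩
  map_add' D E := by
    apply Subtype.ext
    ext i j
    fin_cases i <;> fin_cases j <;> simp [frD] <;> ring
  map_smul' c D := by
    apply Subtype.ext
    ext i j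
    fin_cases i <;> fin_cases j <;> simp [frD] <;> ring

omit [Fintype V] in
theorem frD0_coe (h2 : (2 : k) ≠ 0) (v : V) (D : MvPowerSeries (V × Fin 3) T → k) :
    (frD0 h2 v D).1 = frD D v - (D (X (v, 0)) / 2) • (1 : Matrix (Fin 2) (Fin 2) k) := rfl

/-- A derivation vanishing on constants and on the frames vanishes. -/
theorem der_ext_framed [IsLocalRing T] (h2 : (2 : k) ≠ 0) {D : MvPowerSeries (V × Fin 3) T → k}
    (hD : D ∈ DerSp (frφ φ V) (frπ π V)) (hC : ∀ t, D (C t) = 0)
    (hF : ∀ v, frD0 h2 v D = 0) : D = 0 := by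
  have hX : ∀ i, D (X i) = 0 := by
    rintro ⟨v, j⟩
    have h1 := congrArg Subtype.val (hF v)
    rw [frD0_coe] at h1
    have h11 := congrFun (congrFun h1 1) 1
    have h00 := congrFun (congrFun h1 0) 0
    have h01 := congrFun (congrFun h1 0) 1
    have h10 := congrFun (congrFun h1 1) 0
    simp [frD] at h11 h00 h01 h10
    fin_cases j
    · rcases h11 with h | h
      · exact h
      · exact absurd h h2
    · exact h01
    · exact h10
  funext f
  obtain ⟨g, hg, -⟩ := UnivDef.exists_decomp f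
  rw [hg, der_add hD, hC, zero_add, der_sum hD]
  refine Finset.sum_eq_zero fun i _ => ?_
  rw [der_mul hD, hX i, mul_zero, add_zero]
  simp

end Framed

section Main

variable {O T k : Type*} [CommRing O] [CommRing T] [IsLocalRing T] [Field k] {φ : O →+* T}
  {π : T →+* k} {V : Type*} [Fintype V] {ρ : GQ →* GL (Fin 2) T}
  (hdet : ∀ g, ∃ o, (ρ g).val.det = φ o) (S : Finset Nat.Primes)

theorem derMap_mem_Z1 (hcont : ∃ U ∈ famS S, ∀ u ∈ U, ∀ i j,
    (ρ u).val i j - (1 : Matrix (Fin 2) (Fin 2) T) i j ∈ RingHom.ker π ^ 2) (D : DerSp φ π) :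
    derMap hdet D ∈ Z1 (famS S) (ad0 (resRep π ρ)) := by
  obtain ⟨U, hU, h⟩ := hcont
  refine mem_Z1.mpr ⟨⟨U, hU, fun g u hu => ?_⟩, derMap_cocycle D⟩
  have h1 : derMap hdet D u = 0 := by
    apply Subtype.ext
    rw [derMap_coe]
    have h2 : (ρ u).val.map D.1 = 0 := by
      ext i j
      have h3 := der_eq_zero_of_mem_sq D.2 (h u hu i j)
      rw [der_sub D.2] at h3
      have h4 := congrFun (congrFun (map_one_der D.2) i) j
      rw [Matrix.map_apply] at h4
      rw [h4, Matrix.zero_apply, sub_zero] at h3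
      exact h3
    rw [h2, zero_mul]
    rfl
  rw [derMap_cocycle, h1, map_zero, zero_add]

/-- the class of the cocycle of a derivation -/
noncomputable def classMap (hcont : ∃ U ∈ famS S, ∀ u ∈ U, ∀ i j,
    (ρ u).val i j - (1 : Matrix (Fin 2) (Fin 2) T) i j ∈ RingHom.ker π ^ 2) :
    DerSp φ π →ₗ[k] H1 (famS S) (ad0 (resRep π ρ)) :=
  (H1.mk (famS S) (ad0 (resRep π ρ))).comp
    ((derMap hdet).codRestrict (Z1 (famS S) (ad0 (resRep π ρ))) (derMap_mem_Z1 hdet S hcont))

theorem classMap_apply {hcont : ∃ U ∈ famS S, ∀ u ∈ U, ∀ i j,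
    (ρ u).val i j - (1 : Matrix (Fin 2) (Fin 2) T) i j ∈ RingHom.ker π ^ 2} (D : DerSp φ π) :
    classMap hdet S hcont D = H1.mk (famS S) (ad0 (resRep π ρ))
      ⟨derMap hdet D, derMap_mem_Z1 hdet S hcont D⟩ := rfl

theorem classMap_injective {hcont : ∃ U ∈ famS S, ∀ u ∈ U, ∀ i j,
    (ρ u).val i j - (1 : Matrix (Fin 2) (Fin 2) T) i j ∈ RingHom.ker π ^ 2}
    (hgen : ∀ D ∈ DerSp φ π, (∀ g, D (ρ g).val.trace = 0) → D = 0) {D : DerSp φ π}
    (h : classMap hdet S hcont D = 0) : D = 0 := by
  rw [classMap_apply, H1.mk_eq_zero] at h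
  exact Subtype.ext (hgen D.1 D.2 fun g => der_trace_eq_zero (hdet := hdet) D (mem_B1.mpr h) g)

/-- the classes which are locally trivial at the places `pl v` -/
noncomputable def selK {X : Type*} [AddCommGroup X] [Module k X] (τ : Representation k GQ X)
    (pl : V → Nat.Primes) : Submodule k (H1 (famS S) τ) := ⨅ v, LinearMap.ker (locMap S τ (pl v))

omit [Fintype V] in
theorem mem_selK {X : Type*} [AddCommGroup X] [Module k X] {τ : Representation k GQ X}
    {pl : V → Nat.Primes} {x : H1 (famS S) τ} :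
    x ∈ selK S τ pl ↔ ∀ v, locMap S τ (pl v) x = 0 := by
  rw [selK, Submodule.mem_iInf]
  exact Iff.rfl

omit [Fintype V] [IsLocalRing T] in
/-- local triviality -/
theorem loc_triv (h2 : (2 : k) ≠ 0) {D : MvPowerSeries (V × Fin 3) T → k}
    (hD : D ∈ DerSp (frφ φ V) (frπ π V)) (v : V) {g : GQ}
    (h : ((frm T v).val * (ρ g).val.map C * ((frm T v)⁻¹).val).map D = 0) :
    derMap hdet (derRes φ π V ⟨D, hD⟩) g = ad0 (resRep π ρ) g (frD0 h2 v D) - frD0 h2 v D := by
  have hM : (frm T v).val.map (frπ π V) = 1 := frM_map v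
  have hMM : (frm T v).val * ((frm T v)⁻¹).val = 1 := by
    rw [← Units.val_mul, mul_inv_cancel, Units.val_one]
  have hMi : ((frm T v)⁻¹).val.map (frπ π V) = 1 := by
    have h1 : ((frm T v).val * ((frm T v)⁻¹).val).map (frπ π V) =
        (1 : Matrix (Fin 2) (Fin 2) _).map (frπ π V) := by rw [hMM]
    rw [Matrix.map_mul, hM, one_mul] at h1
    rw [h1]
    exact Matrix.map_one _ (RingHom.map_zero _) (RingHom.map_one _)
  have hDi : ((frm T v)⁻¹).val.map D = - frD D v := by
    have h1 := map_mul_der hD (frm T v).val ((frm T v)⁻¹).val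
    rw [hMM, map_one_der hD, hM, hMi, one_mul, mul_one, frm_coe, frM_map_der hD] at h1
    exact eq_neg_of_add_eq_zero_left h1.symm
  have hN : ((ρ g).val.map (C : T →+* MvPowerSeries (V × Fin 3) T)).map (frπ π V) =
      (resRep π ρ g).val := by
    ext i j
    simp [resRep_coe]
  rw [map_mul_der hD, map_mul_der hD, Matrix.map_mul, hM, hN, hDi, hMi, one_mul, one_mul, mul_one,
    frm_coe, frM_map_der hD] at h
  have h3 : ((ρ g).val.map (C : T →+* MvPowerSeries (V × Fin 3) T)).map D =
      (derMap hdet (derRes φ π V ⟨D, hD⟩) g).1 * (resRep π ρ g).val := by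
    rw [← map_der_eq]
    rfl
  rw [h3] at h
  apply Subtype.ext
  rw [Submodule.coe_sub, ad0_coe, frD0_coe]
  set R := (resRep π ρ g).val with hR
  set R' := (resRep π ρ g⁻¹).val with hR'
  have hRR' : R * R' = 1 := mul_inv_coe _ g
  set c := (derMap hdet (derRes φ π V ⟨D, hD⟩) g).1 with hc
  set B := frD D v with hB
  have h4 : c = R * B * R' - B := by
    have h5 : c * R = R * B - B * R := by
      rw [mul_neg] at h
      have h6 : c * R - (R * B - B * R) = 0 := by
        rw [← h]; abel
      exact sub_eq_zero.mp h6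
    calc c = c * R * R' := by rw [mul_assoc, hRR', mul_one]
      _ = R * B * R' - B := by rw [h5, sub_mul, mul_assoc B, hRR', mul_one]
  rw [h4, mul_sub, sub_mul, mul_smul_comm, smul_mul_assoc, mul_one, hRR']
  abel

omit [Fintype V] in
theorem finrank_le_sum {V : Type*} [Fintype V] {k X Y : Type*} [Field k] [AddCommGroup X]
    [Module k X] [AddCommGroup Y] [Module k Y] [FiniteDimensional k Y] (f : V → X →ₗ[k] Y)
    (H : V → Submodule k Y) (hf : ∀ v x, f v x ∈ H v) (hinj : ∀ x, (∀ v, f v x = 0) → x = 0) :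
    FiniteDimensional k X ∧ Module.finrank k X ≤ ∑ v, Module.finrank k (H v) := by
  let Ψ : X →ₗ[k] (∀ v, H v) := LinearMap.pi fun v => (f v).codRestrict (H v) (hf v)
  have hΨ : Function.Injective Ψ := by
    rw [← LinearMap.ker_eq_bot, LinearMap.ker_eq_bot']
    intro x hx
    exact hinj x fun v => congrArg Subtype.val (congrFun hx v)
  refine ⟨FiniteDimensional.of_injective Ψ hΨ, ?_⟩
  refine (LinearMap.finrank_le_finrank_of_injective hΨ).trans ?_
  rw [Module.finrank_pi_fintype]

omit [Fintype V] in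
theorem finrank_le_add_sum {V : Type*} [Fintype V] {k X Y K : Type*} [Field k] [AddCommGroup X]
    [Module k X] [AddCommGroup Y] [Module k Y] [FiniteDimensional k Y] [AddCommGroup K]
    [Module k K] [FiniteDimensional k K] (Θ : X →ₗ[k] K) (f : V → X →ₗ[k] Y)
    (H : V → Submodule k Y) (hf : ∀ v x, Θ x = 0 → f v x ∈ H v)
    (hinj : ∀ x, Θ x = 0 → (∀ v, f v x = 0) → x = 0) :
    FiniteDimensional k X ∧
      Module.finrank k X ≤ Module.finrank k K + ∑ v, Module.finrank k (H v) := by
  obtain ⟨h1, h2⟩ := finrank_le_sum (fun v => (f v).comp (LinearMap.ker Θ).subtype) H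
    (fun v x => hf v x.1 x.2) (fun x hx => Subtype.ext (hinj x.1 x.2 hx))
  have hfin : FiniteDimensional k X := by
    refine FiniteDimensional.of_injective (Θ.prod (LinearMap.pi f)) ?_
    rw [← LinearMap.ker_eq_bot, LinearMap.ker_eq_bot']
    intro x hx
    exact hinj x (congrArg Prod.fst hx) fun v => congrFun (congrArg Prod.snd hx) v
  refine ⟨hfin, ?_⟩
  have h3 := LinearMap.finrank_range_add_finrank_ker Θ
  have h4 : Module.finrank k (LinearMap.range Θ) ≤ Module.finrank k K := Submodule.finrank_le _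
  omega

variable {S}

include hdet in
theorem finrank_derVan_le (h2 : (2 : k) ≠ 0)
    (hcont : ∃ U ∈ famS S, ∀ u ∈ U, ∀ i j,
      (ρ u).val i j - (1 : Matrix (Fin 2) (Fin 2) T) i j ∈ RingHom.ker π ^ 2)
    (hgen : ∀ D ∈ DerSp φ π, (∀ g, D (ρ g).val.trace = 0) → D = 0)
    {ι : Type*} (x : ι → MvPowerSeries (V × Fin 3) T) (pl : V → Nat.Primes)
    (hloc : ∀ D ∈ DerVan (frφ φ V) (frπ π V) x, ∀ v, ∀ δ : Gl (pl v),
      ((frm T v).val * (ρ (rl (pl v) δ)).val.map C * ((frm T v)⁻¹).val).map D = 0)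
    [FiniteDimensional k (selK S (ad0 (resRep π ρ)) pl)] :
    FiniteDimensional k (DerVan (frφ φ V) (frπ π V) x) ∧
    Module.finrank k (DerVan (frφ φ V) (frπ π V) x) ≤
      Module.finrank k (selK S (ad0 (resRep π ρ)) pl) +
        ∑ v, Module.finrank k (H0 ((ad0 (resRep π ρ)).comp (rl (pl v)))) := by
  have hW : ∀ (v : V) (D : DerVan (frφ φ V) (frπ π V) x) (δ : Gl (pl v)),
      derMap hdet (derRes φ π V ⟨D.1, D.2.1⟩) (rl (pl v) δ) =
        ad0 (resRep π ρ) (rl (pl v) δ) (frD0 h2 v D.1) - frD0 h2 v D.1 :=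
    fun v D δ => loc_triv hdet h2 D.2.1 v (hloc D.1 D.2 v δ)
  have hΘ : ∀ D : DerVan (frφ φ V) (frπ π V) x,
      ((classMap hdet S hcont).comp ((derRes φ π V).comp (Submodule.inclusion inf_le_left))) D ∈
        selK S (ad0 (resRep π ρ)) pl := by
    intro D
    rw [mem_selK]
    intro v
    change locMap S (ad0 (resRep π ρ)) (pl v) (H1.mk (famS S) (ad0 (resRep π ρ)) _) = 0
    rw [locMap_mk]
    exact ⟨frD0 h2 v D.1, fun δ => hW v D δ⟩
  have hker : ∀ D : DerVan (frφ φ V) (frπ π V) x,
      ((classMap hdet S hcont).comp ((derRes φ π V).comp (Submodule.inclusion inf_le_left))) D = 0 →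
      derRes φ π V ⟨D.1, D.2.1⟩ = 0 := by
    intro D hD
    exact classMap_injective hdet S (hcont := hcont) hgen hD
  refine finrank_le_add_sum (X := DerVan (frφ φ V) (frπ π V) x) (Y := sl2 k)
    (K := selK S (ad0 (resRep π ρ)) pl) (LinearMap.codRestrict _ _ hΘ)
    (fun v => (frD0 h2 v).comp (DerVan (frφ φ V) (frπ π V) x).subtype)
    (fun v => H0 ((ad0 (resRep π ρ)).comp (rl (pl v)))) ?_ ?_
  · intro v D hD
    have h0 := hker D (congrArg Subtype.val hD)
    rw [mem_H0]
    intro δ
    have h1 := hW v D δ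
    rw [h0, map_zero] at h1
    exact (sub_eq_zero.mp h1.symm)
  · intro D hD hv
    have h0 := hker D (congrArg Subtype.val hD)
    apply Subtype.ext
    refine der_ext_framed h2 D.2.1 (fun t => ?_) hv
    exact congrFun (congrArg Subtype.val h0) t

end Main

section Final

variable {O T k : Type*} [CommRing O] [CommRing T] [Field k] {φ : O →+* T} {π : T →+* k}

/-- the homomorphism to the dual numbers attached to a derivation -/
noncomputable def dualOf {A : Type*} [CommRing A] {φ : O →+* A} {π : A →+* k} (D : DerSp φ π) :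
    A →+* DualNumber k where
  toFun a := TrivSqZeroExt.inl (π a) + TrivSqZeroExt.inr (D.1 a)
  map_one' := by rw [map_one, der_one D.2, TrivSqZeroExt.inr_zero, add_zero]; rfl
  map_mul' a b := by
    apply TrivSqZeroExt.ext
    · simp
    · simp [der_mul D.2]
      ring
  map_zero' := by rw [map_zero, der_zero D.2]; simp
  map_add' a b := by
    apply TrivSqZeroExt.ext
    · simp
    · simp [der_add D.2]

theorem dualOf_fst {A : Type*} [CommRing A] {φ : O →+* A} {π : A →+* k} (D : DerSp φ π) (a : A) :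
    (dualOf D a).fst = π a := by simp [dualOf]

theorem dualOf_snd {A : Type*} [CommRing A] {φ : O →+* A} {π : A →+* k} (D : DerSp φ π) (a : A) :
    (dualOf D a).snd = D.1 a := by simp [dualOf]

/-- If the ring is generated by traces (modulo the square of the maximal ideal), derivations are
determined by their values on traces. -/
theorem der_eq_zero_of_trace {X : Set T}
    (hgen : ∀ t : T, ∃ s ∈ Subring.closure (Set.range φ ∪ X), t - s ∈ RingHom.ker π ^ 2)
    {D : T → k} (hD : D ∈ DerSp φ π) (h : ∀ t ∈ X, D t = 0) : D = 0 := by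
  funext t
  obtain ⟨s, hs, hts⟩ := hgen t
  have h1 : D s = 0 := by
    clear hts
    induction hs using Subring.closure_induction with
    | mem y hy =>
      rcases hy with ⟨o, rfl⟩ | hy
      · exact der_cst hD o
      · exact h y hy
    | zero => exact der_zero hD
    | one => exact der_one hD
    | add y z _ _ hy hz => rw [der_add hD, hy, hz, add_zero]
    | neg y _ hy => rw [der_neg hD, hy, neg_zero]
    | mul y z _ _ hy hz => rw [der_mul hD, hy, hz, mul_zero, mul_zero, add_zero]
  have h2 : t = (t - s) + s := by ring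
  rw [h2, der_add hD, h1, der_eq_zero_of_mem_sq hD hts, add_zero]
  rfl

variable {V : Type*} [Fintype V] {ρ : GQ →* GL (Fin 2) T} {S : Finset Nat.Primes}

/-- **Generators of the framed ring** over the ring of power series in the local parameters. -/
theorem exists_framed_generators [IsLocalRing O] [IsAdicComplete (maximalIdeal O) O]
    [IsLocalRing T] [IsNoetherianRing T] [IsAdicComplete (maximalIdeal T) T]
    (h2 : (2 : k) ≠ 0) (hπ : RingHom.ker π = maximalIdeal T)
    (hφ : ∀ o ∈ maximalIdeal O, φ o ∈ maximalIdeal T)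
    (hres : ∀ t : T, ∃ o : O, t - φ o ∈ maximalIdeal T)
    (hdet : ∀ g, ∃ o, (ρ g).val.det = φ o)
    (hcont : ∃ U ∈ famS S, ∀ u ∈ U, ∀ i j,
      (ρ u).val i j - (1 : Matrix (Fin 2) (Fin 2) T) i j ∈ maximalIdeal T ^ 2)
    (hgen : ∀ t : T, ∃ s ∈ Subring.closure (Set.range φ ∪ Set.range fun g => (ρ g).val.trace),
      t - s ∈ maximalIdeal T ^ 2)
    {ι : Type*} [Fintype ι] (x : ι → MvPowerSeries (V × Fin 3) T)
    (hx : ∀ i, x i ∈ maximalIdeal (MvPowerSeries (V × Fin 3) T)) (pl : V → Nat.Primes)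
    (hloc : ∀ ψ : MvPowerSeries (V × Fin 3) T →+* DualNumber k,
      (∀ a, (ψ a).fst = π (constantCoeff a)) → (∀ o, ψ (C (φ o)) = TrivSqZeroExt.inl (π (φ o))) →
      (∀ i, ψ (x i) = 0) → ∀ v, ∀ δ : Gl (pl v),
      ((frm T v).val * (ρ (rl (pl v) δ)).val.map C * ((frm T v)⁻¹).val).map ψ =
        (resRep π ρ (rl (pl v) δ)).val.map TrivSqZeroExt.inl)
    [FiniteDimensional k (selK S (ad0 (resRep π ρ)) pl)] (g : ℕ)
    (hg : Module.finrank k (selK S (ad0 (resRep π ρ)) pl) +
      ∑ v, Module.finrank k (H0 ((ad0 (resRep π ρ)).comp (rl (pl v)))) ≤ g) :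
    ∃ z : Fin g → MvPowerSeries (V × Fin 3) T,
      ∃ hz : ∀ j, z j ∈ maximalIdeal (MvPowerSeries (V × Fin 3) T),
      Function.Surjective (evalHom (maximalIdeal (MvPowerSeries (V × Fin 3) T)) (frφ φ V)
        (Sum.elim x z) (fun i => by rcases i with i | i; exacts [hx i, hz i])) := by
  classical
  have hπA : RingHom.ker (frπ π V) = maximalIdeal (MvPowerSeries (V × Fin 3) T) := by
    ext f
    rw [mem_maximalIdeal_iff, ← hπ]
    exact Iff.rfl
  obtain ⟨hfin, hle⟩ := finrank_derVan_le hdet h2 (by rw [hπ]; exact hcont)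
    (fun D hD h => der_eq_zero_of_trace (by rw [hπ]; exact hgen) hD
      (by rintro _ ⟨g, rfl⟩; exact h g)) x pl (by
      intro D hD v δ
      have h1 := hloc (dualOf ⟨D, hD.1⟩) (fun a => dualOf_fst _ a) (fun o => by
          apply TrivSqZeroExt.ext
          · rw [dualOf_fst, TrivSqZeroExt.fst_inl]
            simp
          · rw [dualOf_snd, TrivSqZeroExt.snd_inl]
            exact der_cst hD.1 o)
        (fun i => by
          apply TrivSqZeroExt.ext
          · rw [dualOf_fst, TrivSqZeroExt.fst_zero]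
            have h3 : x i ∈ RingHom.ker (frπ π V) := by rw [hπA]; exact hx i
            exact h3
          · rw [dualOf_snd, TrivSqZeroExt.snd_zero]
            exact hD.2 i) v δ
      ext i j
      have h4 := congrArg TrivSqZeroExt.snd (congrFun (congrFun h1 i) j)
      rw [Matrix.map_apply, dualOf_snd, Matrix.map_apply, TrivSqZeroExt.snd_inl] at h4
      exact h4)
  exact exists_evalHom_surjective hπA
    (fun o ho => by rw [mem_maximalIdeal_iff]; simpa using hφ o ho)
    (fun f => by
      obtain ⟨o, ho⟩ := hres (constantCoeff f)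
      exact ⟨o, by rw [mem_maximalIdeal_iff]; simpa using ho⟩) x hx g (hle.trans hg)

end Final

end Fermat.Agent.RT
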