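import Fermat.Agent.RT.LocGen3
import Fermat.Agent.RT.FramedGen

set_option autoImplicit false
set_option maxHeartbeats 400000
set_option linter.style.haveILetI false
set_option linter.unusedSectionVars false
set_option linter.unusedVariables false

/-!
# The parameters of the framed local lift at `q ≠ p`
-/

open IsLocalRing MvPowerSeries Matrix

namespace Fermat.Agent.RT

open Fermat.Agent.Coh Fermat.Agent.GalD Fermat.Agent.LocalCFT Fermat.Agent.GCFT
  Fermat.Agent.ESCore Module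

/-- The absolute Galois group. -/
local notation "GQ" => (AlgebraicClosure ℚ ≃ₐ[ℚ] AlgebraicClosure ℚ)

section Dual

variable {k : Type*} [Field k]

lemma dual_pow {A : Matrix (Fin 2) (Fin 2) (DualNumber k)}
    (hA : ∀ i j, (A i j).fst = (1 : Matrix (Fin 2) (Fin 2) k) i j) (n : ℕ) :
    A ^ n = 1 + (n : DualNumber k) • (A - 1) := by
  have hz : ∀ i j, ((A - 1) i j).fst = 0 := by
    intro i j
    rw [Matrix.sub_apply, TrivSqZeroExt.fst_sub, hA, Matrix.one_apply, Matrix.one_apply]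
    split_ifs
    · rw [TrivSqZeroExt.fst_one, sub_self]
    · rw [TrivSqZeroExt.fst_zero, sub_self]
  have hsq : (A - 1) * (A - 1) = 0 := by
    ext1 i j
    rw [Matrix.mul_apply, Matrix.zero_apply]
    refine Finset.sum_eq_zero fun l _ => ?_
    apply TrivSqZeroExt.ext
    · rw [TrivSqZeroExt.fst_mul, hz, zero_mul, TrivSqZeroExt.fst_zero]
    · rw [TrivSqZeroExt.snd_mul, hz, hz, zero_smul, MulOpposite.op_zero, zero_smul, add_zero,
        TrivSqZeroExt.snd_zero]
  induction n with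
  | zero => rw [pow_zero, Nat.cast_zero, zero_smul, add_zero]
  | succ n ih =>
    have h1 : A = 1 + (A - 1) := by abel
    rw [pow_succ, ih]
    conv_lhs => rw [h1]
    rw [add_sub_cancel_left, add_mul, one_mul, mul_add, mul_one, smul_mul_assoc, hsq, smul_zero,
      add_zero, Nat.cast_succ, add_smul, one_smul]
    abel

lemma dual_pow_p {p : ℕ} (hp : (p : k) = 0) {g : GL (Fin 2) (DualNumber k)}
    (hg : ∀ i j, (g.val i j).fst = (1 : Matrix (Fin 2) (Fin 2) k) i j) : g ^ p = 1 := by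
  apply Units.ext
  rw [Units.val_pow_eq_pow_val, dual_pow hg]
  have : (p : DualNumber k) = 0 := by
    have h1 : (p : DualNumber k) = TrivSqZeroExt.inl (p : k) := by
      rw [TrivSqZeroExt.inl_natCast]
    rw [h1, hp, TrivSqZeroExt.inl_zero]
  rw [this, zero_smul, add_zero]; rfl

end Dual

/-- A tame generator at `q` for the prime `p`. -/
def TameGen (p : ℕ) (q : Nat.Primes) (τ : Gl q) : Prop :=
  τ ∈ Il (q : ℕ) ∧ ∀ (G : Type) [Group G] (h : Gl q →* G)
      (W : Subgroup (Gl q)), (LF (q : ℕ)).IsOpen W → (∀ g ∈ W, h g = 1) →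
      (∀ g ∈ Il (q : ℕ), ∃ n, h g ^ p ^ n = 1) → ∀ g ∈ Il (q : ℕ), h g ∈ Subgroup.zpowers (h τ)

theorem exists_tameGen {p : ℕ} (hp : p.Prime) {q : Nat.Primes} (hpq : p ≠ q) :
    ∃ τ : Gl q, TameGen p q τ := by
  obtain ⟨τ, h1, h2⟩ := exists_tame_gen (q : ℕ) hp hpq
  exact ⟨τ, h1, h2⟩

/-- Two homomorphisms which agree at Frobenius and at the tame generator agree. -/
theorem eq_of_tame {p : ℕ} {q : Nat.Primes} {G : Type} [Group G] {h₁ h₂ : Gl q →* G}
    {W : Subgroup (Gl q)} (hW : (LF (q : ℕ)).IsOpen W) (hW₁ : ∀ g ∈ W, h₁ g = 1)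
    (hW₂ : ∀ g ∈ W, h₂ g = 1) (hp₁ : ∀ g ∈ Il (q : ℕ), ∃ n, h₁ g ^ p ^ n = 1)
    (hp₂ : ∀ g ∈ Il (q : ℕ), ∃ n, h₂ g ^ p ^ n = 1) {φ τ : Gl q} (hφ : IsFrobL φ)
    (hτ : TameGen p q τ) (h1 : h₁ φ = h₂ φ) (h2 : h₁ τ = h₂ τ) (g : Gl q) : h₁ g = h₂ g := by
  have h3 : ∀ s ∈ Il (q : ℕ), h₁ s = h₂ s := by
    intro s hs
    have h4 := hτ.2 (G × G) (h₁.prod h₂) W hW (fun g hg => Prod.ext (hW₁ g hg) (hW₂ g hg))
      (fun g hg => by
        obtain ⟨n₁, hn₁⟩ := hp₁ g hg
        obtain ⟨n₂, hn₂⟩ := hp₂ g hg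
        refine ⟨n₁ + n₂, Prod.ext ?_ ?_⟩
        · change h₁ g ^ p ^ (n₁ + n₂) = 1
          rw [pow_add, pow_mul, hn₁, one_pow]
        · change h₂ g ^ p ^ (n₁ + n₂) = 1
          rw [pow_add, mul_comm, pow_mul, hn₂, one_pow]) s hs
    obtain ⟨k, hk⟩ := Subgroup.mem_zpowers_iff.mp h4
    have e1 : h₁ τ ^ k = h₁ s := congrArg Prod.fst hk
    have e2 : h₂ τ ^ k = h₂ s := congrArg Prod.snd hk
    rw [← e1, ← e2, h2]
  obtain ⟨n, s, hs, w, hw, rfl⟩ := exists_frob_mul hW hφ g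
  rw [map_mul, map_mul, map_mul, map_mul, map_pow, map_pow, h1, h3 s hs, hW₁ w hw, hW₂ w hw]

section Main

variable {q : Nat.Primes} {p : ℕ} {O T k : Type} [CommRing O] [CommRing T] [IsLocalRing T]
  [Field k] {φ : O →+* T} {π : T →+* k} (hπ : RingHom.ker π = maximalIdeal T)
  (hchar : (p : k) = 0) {ρ : GQ →* GL (Fin 2) T}
  (hcont : ∃ U : Subgroup GQ, IsOpen (U : Set GQ) ∧ ∀ u ∈ U, ∀ i j,
    (ρ u).val i j - (1 : Matrix (Fin 2) (Fin 2) T) i j ∈ maximalIdeal T ^ 2)
  (hpp : ∀ s ∈ Il (q : ℕ), ∃ n, resRep π ρ (rl q s) ^ p ^ n = 1)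
  {φ₀ τ₀ : Gl q} (hφ₀ : IsFrobL φ₀) (hτ₀ : TameGen p q τ₀)
  {V : Type} [Fintype V]

/-- the framed local matrices -/
noncomputable def frMat (ρ : GQ →* GL (Fin 2) T) (v : V) (g : GQ) :
    Matrix (Fin 2) (Fin 2) (MvPowerSeries (V × Fin 3) T) :=
  (frm T v).val * (ρ g).val.map C * ((frm T v)⁻¹).val

lemma frMat_constantCoeff (v : V) (g : GQ) (i j : Fin 2) :
    constantCoeff (frMat ρ v g i j) = (ρ g).val i j := by
  have h1 : (frm T v).val.map (constantCoeff : MvPowerSeries (V × Fin 3) T →+* T) = 1 := by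
    ext i j
    rw [frm_coe]
    fin_cases i <;> fin_cases j <;> simp [frM]
  have h2 : ((frm T v)⁻¹).val.map (constantCoeff : MvPowerSeries (V × Fin 3) T →+* T) = 1 := by
    have h3 : ((frm T v).val * ((frm T v)⁻¹).val).map
        (constantCoeff : MvPowerSeries (V × Fin 3) T →+* T) = 1 := by
      rw [← Units.val_mul, mul_inv_cancel, Units.val_one]
      exact Matrix.map_one _ (map_zero _) (map_one _)
    rwa [Matrix.map_mul, h1, one_mul] at h3
  have h3 : (frMat ρ v g).map (constantCoeff : MvPowerSeries (V × Fin 3) T →+* T) =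
      (ρ g).val := by
    rw [frMat, Matrix.map_mul, Matrix.map_mul, h1, h2, one_mul, mul_one]
    ext i j
    rw [Matrix.map_apply, Matrix.map_apply, constantCoeff_C]
  exact congrFun (congrFun h3 i) j

include hπ hchar hcont hpp hφ₀ hτ₀ in
/-- **Interface (I2) at `q ≠ p`, framed form.** -/
theorem framed_st_hloc (v : V) (M : Bool → Matrix (Fin 2) (Fin 2) O)
    (ψ : MvPowerSeries (V × Fin 3) T →+* DualNumber k)
    (h1 : ∀ a, (ψ a).fst = π (constantCoeff a))
    (h2 : ∀ o, ψ (C (φ o)) = TrivSqZeroExt.inl (π (φ o)))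
    (h3 : ∀ s a b, ψ (frMat ρ v (rl q (if s then τ₀ else φ₀)) a b - C (φ (M s a b))) = 0)
    (δ : Gl q) :
    ((frm T v).val * (ρ (rl q δ)).val.map C * ((frm T v)⁻¹).val).map ψ =
        (resRep π ρ (rl q δ)).val.map TrivSqZeroExt.inl := by
  let h₁ : Gl q →* GL (Fin 2) (DualNumber k) := (GeneralLinearGroup.map (n := Fin 2) ψ).comp
    ((MulAut.conj (frm T v)).toMonoidHom.comp
    ((GeneralLinearGroup.map (n := Fin 2) (C : T →+* MvPowerSeries (V × Fin 3) T)).comp
      (ρ.comp (rl q))))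
  let h₂ : Gl q →* GL (Fin 2) (DualNumber k) :=
    (GeneralLinearGroup.map (n := Fin 2) (TrivSqZeroExt.inlHom k k)).comp
      ((resRep π ρ).comp (rl q))
  have e₁ : ∀ g, (h₁ g).val = (frMat ρ v (rl q g)).map ψ := fun g => rfl
  have e₂ : ∀ g, (h₂ g).val = (resRep π ρ (rl q g)).val.map TrivSqZeroExt.inl := fun g => rfl
  -- the first component
  have f₁ : ∀ g i j, ((h₁ g).val i j).fst = (resRep π ρ (rl q g)).val i j := by
    intro g i j
    rw [e₁, Matrix.map_apply, h1, frMat_constantCoeff]; rfl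
  have f₂ : ∀ g i j, ((h₂ g).val i j).fst = (resRep π ρ (rl q g)).val i j := by
    intro g i j
    rw [e₂, Matrix.map_apply, TrivSqZeroExt.fst_inl]
  -- agreement
  have hag : ∀ s : Bool, h₁ (if s then τ₀ else φ₀) = h₂ (if s then τ₀ else φ₀) := by
    intro s
    apply Units.ext
    ext1 i j
    have h4 := h3 s i j
    rw [map_sub, sub_eq_zero, h2] at h4
    have h5 : (h₁ (if s then τ₀ else φ₀)).val i j =
        TrivSqZeroExt.inl (π (φ (M s i j))) := h4
    have h6 := f₁ (if s then τ₀ else φ₀) i j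
    rw [h5, TrivSqZeroExt.fst_inl] at h6
    rw [h5, h6, e₂, Matrix.map_apply]
  -- smallness
  obtain ⟨U, hU, hUs⟩ := hcont
  have hWo : (LF (q : ℕ)).IsOpen (U.comap (rl q)) := PT.rl_cont hU
  have hm2 : ∀ t ∈ maximalIdeal T ^ 2, ψ (C t) = 0 := by
    intro t ht
    rw [pow_two] at ht
    refine Submodule.mul_induction_on ht (fun a ha b hb => ?_) (fun a b ha hb => ?_)
    · have ha' : π a = 0 := by rw [← RingHom.mem_ker, hπ]; exact ha
      have hb' : π b = 0 := by rw [← RingHom.mem_ker, hπ]; exact hb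
      rw [map_mul, map_mul]
      apply TrivSqZeroExt.ext
      · rw [TrivSqZeroExt.fst_mul, h1, constantCoeff_C, ha', zero_mul, TrivSqZeroExt.fst_zero]
      · rw [TrivSqZeroExt.snd_mul, h1, h1, constantCoeff_C, constantCoeff_C, ha', hb', zero_smul,
          MulOpposite.op_zero, zero_smul, add_zero, TrivSqZeroExt.snd_zero]
    · rw [map_add, map_add, ha, hb, add_zero]
  have hW₁ : ∀ g ∈ U.comap (rl q), h₁ g = 1 := by
    intro g hg
    apply Units.ext
    rw [e₁]
    have h5 : ((ρ (rl q g)).val.map (C : T →+* MvPowerSeries (V × Fin 3) T)).map ψ = 1 := by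
      ext1 i j
      have h6 := hm2 _ (hUs _ hg i j)
      rw [map_sub, map_sub, sub_eq_zero] at h6
      rw [Matrix.map_apply, Matrix.map_apply, h6, Matrix.one_apply, Matrix.one_apply]
      split_ifs
      · rw [map_one, map_one]
      · rw [map_zero, map_zero]
    rw [frMat, Matrix.map_mul, Matrix.map_mul, h5, mul_one, ← Matrix.map_mul, ← Units.val_mul,
      mul_inv_cancel, Units.val_one, Units.val_one]
    exact Matrix.map_one _ (map_zero _) (map_one _)
  have hres : ∀ g ∈ U.comap (rl q), resRep π ρ (rl q g) = 1 := by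
    intro g hg
    apply Units.ext
    ext1 i j
    rw [← f₁, hW₁ g hg, Units.val_one, Units.val_one, Matrix.one_apply, Matrix.one_apply]
    split_ifs
    · rw [TrivSqZeroExt.fst_one]
    · rw [TrivSqZeroExt.fst_zero]
  have hW₂ : ∀ g ∈ U.comap (rl q), h₂ g = 1 := by
    intro g hg
    change GeneralLinearGroup.map (n := Fin 2) (TrivSqZeroExt.inlHom k k)
      (resRep π ρ (rl q g)) = 1
    rw [hres g hg, map_one]
  have hp₂ : ∀ g ∈ Il (q : ℕ), ∃ n, h₂ g ^ p ^ n = 1 := by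
    intro g hg
    obtain ⟨n, hn⟩ := hpp g hg
    refine ⟨n, ?_⟩
    rw [← map_pow]
    change GeneralLinearGroup.map (n := Fin 2) (TrivSqZeroExt.inlHom k k)
      (resRep π ρ (rl q (g ^ p ^ n))) = 1
    rw [map_pow, map_pow, hn, map_one]
  have hp₁ : ∀ g ∈ Il (q : ℕ), ∃ n, h₁ g ^ p ^ n = 1 := by
    intro g hg
    obtain ⟨n, hn⟩ := hpp g hg
    refine ⟨n + 1, ?_⟩
    rw [pow_succ, pow_mul]
    apply dual_pow_p hchar
    intro i j
    rw [← map_pow, f₁, map_pow, map_pow, hn, Units.val_one]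
  have h4 := eq_of_tame hWo hW₁ hW₂ hp₁ hp₂ hφ₀ hτ₀ (hag false) (hag true) δ
  have h5 := congrArg Units.val h4
  rw [e₁, e₂] at h5
  exact h5

end Main

end Fermat.Agent.RT
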