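import Fermat.Agent.RT.TWSigma
import Fermat.Agent.RT.TWPlaces
import Fermat.Agent.ESCore.Cyclo

set_option autoImplicit false

/-!
# Taylor–Wiles primes: the arithmetic part
-/

open scoped Pointwise
open Matrix

namespace Fermat.Agent.RT

open Fermat.Agent.GaloisBasics Fermat.Agent.GCFT Fermat.Agent.Coh Fermat.Agent.ESCore

/-- The field of algebraic numbers. -/
local notation "Qb" => AlgebraicClosure ℚ
/-- The absolute Galois group. -/
local notation "GQ" => (AlgebraicClosure ℚ ≃ₐ[ℚ] AlgebraicClosure ℚ)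

/-- Open subgroups are detected on number fields. -/
theorem exists_level {W : Subgroup GQ} (hW : IsOpen (W : Set GQ)) :
    ∃ L : IntermediateField ℚ Qb, FiniteDimensional ℚ L ∧
      ∀ g g' : GQ, (∀ x ∈ L, g x = g' x) → ∃ w ∈ W, g = g' * w := by
  refine ⟨fld W, finiteDimensional_fld hW, fun g g' h => ⟨g'⁻¹ * g, ?_, by group⟩⟩
  apply mem_of_fixes hW
  intro x hx
  have h1 := h x (mem_fld.mpr hx)
  rw [AlgEquiv.mul_apply, h1, ← AlgEquiv.mul_apply, inv_mul_cancel, AlgEquiv.one_apply]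

theorem isOpen_ker_cyc (m : ℕ) [NeZero m] : IsOpen ((cyc m).ker : Set GQ) := by
  obtain ⟨ζ, hζ⟩ := exists_primitiveRoot m
  have hint : IsIntegral ℚ ζ := Algebra.IsIntegral.isIntegral ζ
  haveI : FiniteDimensional ℚ (IntermediateField.adjoin ℚ {ζ}) :=
    IntermediateField.adjoin.finiteDimensional hint
  have h1 : IsOpen ((IntermediateField.adjoin ℚ {ζ}).fixingSubgroup : Set GQ) :=
    IntermediateField.fixingSubgroup_isOpen _
  refine Subgroup.isOpen_mono ?_ h1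
  intro g hg
  rw [MonoidHom.mem_ker]
  apply cyc_eq_one_of hζ
  exact (IntermediateField.mem_fixingSubgroup_iff _ _).mp hg ζ
    (IntermediateField.mem_adjoin_simple_self ℚ ζ)

section Mat

variable {k : Type*} [Field k]

theorem pow_of_trace {M : Matrix (Fin 2) (Fin 2) k} (hdet : M.det = 1) {e : k} (he : e ^ 2 = 1)
    (htr : M.trace = 2 * e) (i : ℕ) : M ^ i = e ^ i • (1 + (i : k) • (e • M - 1)) := by
  have hsq : (e • M - 1) * (e • M - 1) = 0 := by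
    have h1 : M * M = (2 * e) • M - 1 := by
      rw [← htr]
      rw [det_fin_two] at hdet
      ext a b
      rw [Matrix.sub_apply, Matrix.smul_apply, smul_eq_mul, trace_fin_two]
      fin_cases a <;> fin_cases b
      · simp [mul_apply, Fin.sum_univ_two]; linear_combination -hdet
      · simp [mul_apply, Fin.sum_univ_two]; ring
      · simp [mul_apply, Fin.sum_univ_two]; ring
      · simp [mul_apply, Fin.sum_univ_two]; linear_combination -hdet
    have h2 : (e • M - 1) * (e • M - 1) = (e ^ 2) • (M * M) - (2 * e) • M + 1 := by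
      rw [sub_mul, mul_sub, mul_one, one_mul, smul_mul_assoc, mul_smul_comm, smul_smul, ← pow_two,
        two_mul, add_smul]
      abel
    rw [h2, he, one_smul, h1]
    abel
  have hM : M = e • (1 + (e • M - 1)) := by
    rw [add_sub_cancel, smul_smul, ← pow_two, he, one_smul]
  induction i with
  | zero => simp
  | succ i ih =>
    rw [pow_succ, ih]
    conv_lhs => rw [hM]
    rw [show e • (e • (1 + (e • M - 1))) - 1 = e • M - 1 by rw [← hM]]
    set N := e • M - 1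
    rw [smul_mul_smul_comm, ← pow_succ, add_mul, one_mul, mul_add, mul_one, smul_mul_assoc, hsq,
      smul_zero, add_zero, add_assoc, Nat.cast_succ, add_smul, one_smul, add_comm N]

theorem trace_pow_sq {M : Matrix (Fin 2) (Fin 2) k} (hdet : M.det = 1)
    (h2 : (2 : k) ≠ 0) (htr : M.trace ^ 2 = 4) (i : ℕ) : (M ^ i).trace ^ 2 = 4 := by
  obtain ⟨e, he⟩ : ∃ e : k, M.trace = 2 * e := ⟨M.trace / 2, by field_simp⟩
  have he2 : e ^ 2 = 1 := by
    rw [he, mul_pow] at htr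
    have h4 : (2 : k) ^ 2 ≠ 0 := pow_ne_zero _ h2
    apply mul_left_cancel₀ h4
    rw [htr]
    norm_num
  rw [pow_of_trace hdet he2 he, trace_smul, trace_add, trace_smul, trace_sub, trace_smul, he,
    trace_one, Fintype.card_fin, smul_eq_mul, smul_eq_mul, smul_eq_mul]
  have h5 : e * (2 * e) = 2 := by linear_combination 2 * he2
  rw [h5]
  push_cast
  rw [sub_self, mul_zero, add_zero, mul_pow, ← pow_mul, mul_comm i 2, pow_mul, he2, one_pow,
    one_mul]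
  norm_num

end Mat

section Sel

variable {k : Type*} [Field k] {ρ : GQ →* GL (Fin 2) k} {χ : GQ →* kˣ}
  {p : ℕ} [Fact p.Prime] {n : ℕ}

theorem cyc_dvd {m m' : ℕ} [NeZero m] [NeZero m'] (h : m ∣ m') {g : GQ} (hg : cyc m' g = 1) :
    cyc m g = 1 := by
  obtain ⟨ζ, hζ⟩ := exists_primitiveRoot m
  apply cyc_eq_one_of hζ
  obtain ⟨d, rfl⟩ := h
  have h1 : ζ ^ (m * d) = 1 := by rw [pow_mul, hζ.pow_eq_one, one_pow]
  have h2 := cyc_spec g h1
  rw [hg, Units.val_one] at h2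
  rw [h2]
  by_cases h3 : m * d = 1
  · have h4 : ζ = 1 := by
      have : m = 1 := Nat.eq_one_of_mul_eq_one_right h3
      rw [this] at hζ
      simpa using hζ.pow_eq_one
    rw [h4, one_pow]
  · have : Fact (1 < m * d) := ⟨by
      have := NeZero.pos (m * d)
      omega⟩
    rw [ZMod.val_one, pow_one]

instance neZero_pow : NeZero (p ^ n) := ⟨pow_ne_zero _ (Fact.out : p.Prime).ne_zero⟩

/-- basic selection of a prime -/
theorem exists_prime_of_elt (h2 : (2 : k) ≠ 0)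
    (hρ : IsOpen (ρ.ker : Set GQ)) (hn : 0 < n)
    (hdet : ∀ g, cyc p g = 1 → (ρ g : Matrix (Fin 2) (Fin 2) k).det = 1)
    {W : Subgroup GQ} (hW : IsOpen (W : Set GQ)) {s : GQ} (hs : cyc (p ^ n) s = 1)
    (hs4 : (ρ s : Matrix (Fin 2) (Fin 2) k).trace ^ 2 ≠ 4) (bad : Finset ℕ) :
    ∃ q : ℕ, q.Prime ∧ q ∉ bad ∧ p ^ n ∣ q - 1 ∧ ∃ A : ValuationSubring Qb, A.LiesOverPrime q ∧
      ∃ φ : GQ, A.IsFrobeniusAt φ q ∧ cyc (p ^ n) φ = 1 ∧
        (ρ φ : Matrix (Fin 2) (Fin 2) k).det = 1 ∧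
        (ρ φ : Matrix (Fin 2) (Fin 2) k).trace ^ 2 ≠ 4 ∧
        ∃ i : ℕ, ∃ w ∈ W, φ ^ i = s * w ∧ ρ w = 1 := by
  set W' : Subgroup GQ := W ⊓ ρ.ker ⊓ (cyc (p ^ n)).ker with hW'
  have hW'o : IsOpen (W' : Set GQ) := (hW.inter hρ).inter (isOpen_ker_cyc _)
  obtain ⟨L, hL, hLW⟩ := exists_level hW'o
  obtain ⟨q, hq, hqT, A, hA, φ, hφ, i, j, hi, hj⟩ :=
    FrobDensity.exists_frobenius_pow L s (bad ∪ {p})
  rw [Finset.mem_union, not_or, Finset.mem_singleton] at hqT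
  obtain ⟨w, hw, hφw⟩ := hLW _ _ hi
  obtain ⟨w', hw', hφw'⟩ := hLW _ _ fun x hx => (hj x hx).symm
  have hcφ : cyc (p ^ n) φ = 1 := by
    rw [hφw', map_mul, map_pow, hs, one_pow, one_mul]
    exact hw'.2
  have hpq : ¬ q ∣ p ^ n := fun h => hqT.2 ((Nat.prime_dvd_prime_iff_eq hq Fact.out).mp
    (hq.dvd_of_dvd_pow h))
  have hdiv : p ^ n ∣ q - 1 := by
    have h1 := cyc_frob hA hq hφ hpq
    rw [hcφ, Units.val_one] at h1
    have h3 : ((q - 1 : ℕ) : ZMod (p ^ n)) = 0 := by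
      rw [Nat.cast_sub hq.one_le, ← h1]
      simp
    exact (ZMod.natCast_eq_zero_iff _ _).mp h3
  have hdφ : (ρ φ : Matrix (Fin 2) (Fin 2) k).det = 1 := by
    apply hdet
    exact cyc_dvd (dvd_pow_self p hn.ne') hcφ
  refine ⟨q, hq, hqT.1, hdiv, A, hA, φ, hφ, hcφ, hdφ, fun h4 => ?_, i, w, hw.1.1, hφw, hw.1.2⟩
  apply hs4
  have h5 := trace_pow_sq hdφ h2 h4 i
  rw [← Units.val_pow_eq_pow_val, ← map_pow, hφw, map_mul, show ρ w = 1 from hw.1.2, mul_one] at h5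
  exact h5

/-- **Selection of a Taylor–Wiles prime detecting a cocycle.** -/
theorem exists_prime (h2 : (2 : k) ≠ 0)
    (hρ : IsOpen (ρ.ker : Set GQ)) (hn : 0 < n)
    (hdet : ∀ g, cyc p g = 1 → (ρ g : Matrix (Fin 2) (Fin 2) k).det = 1)
    (hχ : ∀ g, cyc p g = 1 → χ g = 1) (hχ' : ∀ t, ρ t = 1 → χ t = 1)
    (hspan : Submodule.span k (imgSet ρ (cyc (p ^ n)).ker) = ⊤)
    {c : GQ → sl2 k} (hc : ∀ g h, c (g * h) = adRep ρ χ g (c h) + c g)
    {U : Subgroup GQ} (hU : IsOpen (U : Set GQ)) (hcU : ∀ g, ∀ u ∈ U, c (g * u) = c g)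
    (hvan : (∀ t, ρ t = 1 → c t = 0) → c ∈ B1 (adRep ρ χ)) (hcB : c ∉ B1 (adRep ρ χ))
    (bad : Finset ℕ) :
    ∃ q : ℕ, q.Prime ∧ q ∉ bad ∧ p ^ n ∣ q - 1 ∧ ∃ A : ValuationSubring Qb, A.LiesOverPrime q ∧
      ∃ φ : GQ, A.IsFrobeniusAt φ q ∧ cyc (p ^ n) φ = 1 ∧
        (ρ φ : Matrix (Fin 2) (Fin 2) k).det = 1 ∧
        (ρ φ : Matrix (Fin 2) (Fin 2) k).trace ^ 2 ≠ 4 ∧
        ¬ ∃ Y : sl2 k, c φ = adRep ρ χ φ Y - Y := by
  have hdvd : p ∣ p ^ n := dvd_pow_self p hn.ne'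
  obtain ⟨s, hs, hs4, hsc⟩ := exists_sigma (ρ := ρ) (χ := χ) h2 (H := (cyc (p ^ n)).ker)
    (fun g t => by
      rw [MonoidHom.mem_ker, map_mul, map_mul, map_mul, map_inv, map_inv, mul_comm (cyc (p ^ n) g),
        mul_inv_cancel_right, mul_inv_cancel])
    (fun h hh => hdet h (cyc_dvd hdvd hh)) (fun h hh => hχ h (cyc_dvd hdvd hh)) hχ' hspan hc
    hvan hcB
  obtain ⟨q, hq, hqb, hd, A, hA, φ, hφ, h1, h3, h4, i, w, hw, hi, hρw⟩ :=
    exists_prime_of_elt h2 hρ hn hdet hU (MonoidHom.mem_ker.mp hs) hs4 bad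
  refine ⟨q, hq, hqb, hd, A, hA, φ, hφ, h1, h3, h4, ?_⟩
  rintro ⟨Y, hY⟩
  apply hsc
  have h5 := cocycle_pow hc hY i
  rw [hi, hcU _ _ hw] at h5
  have h6 : adRep ρ χ (s * w) Y = adRep ρ χ s Y := by
    rw [map_mul, Module.End.mul_apply, adRep_of_one ρ χ hρw (hχ' w hρw)]
  rw [h5, h6]
  have hχs : χ s = 1 := hχ s (cyc_dvd hdvd hs)
  have h7 := trace_mul_adRep ρ χ hχs Y
  change ((ρ s : Matrix (Fin 2) (Fin 2) k) * ((adRep ρ χ s Y).1 - Y.1)).trace = 0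
  rw [mul_sub, trace_sub, h7, sub_self]

/-- selection of a prime with distinct eigenvalues -/
theorem exists_prime' (h2 : (2 : k) ≠ 0)
    (hρ : IsOpen (ρ.ker : Set GQ)) (hn : 0 < n)
    (hdet : ∀ g, cyc p g = 1 → (ρ g : Matrix (Fin 2) (Fin 2) k).det = 1)
    (hspan : Submodule.span k (imgSet ρ (cyc (p ^ n)).ker) = ⊤)
    (bad : Finset ℕ) :
    ∃ q : ℕ, q.Prime ∧ q ∉ bad ∧ p ^ n ∣ q - 1 ∧ ∃ A : ValuationSubring Qb, A.LiesOverPrime q ∧
      ∃ φ : GQ, A.IsFrobeniusAt φ q ∧ cyc (p ^ n) φ = 1 ∧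
        (ρ φ : Matrix (Fin 2) (Fin 2) k).det = 1 ∧
        (ρ φ : Matrix (Fin 2) (Fin 2) k).trace ^ 2 ≠ 4 := by
  have hdvd : p ∣ p ^ n := dvd_pow_self p hn.ne'
  obtain ⟨s, hs, hs4, -⟩ := exists_tw (ρ := ρ) (H := (cyc (p ^ n)).ker) (W := sl2 k) h2
    (fun h hh => hdet h (cyc_dvd hdvd hh)) hspan (fun X hX => mem_sl2.mp hX)
    (fun h _ X hX => by
      rw [mem_sl2] at hX ⊢
      rw [trace_mul_comm, ← mul_assoc, inv_mul_coe, one_mul, hX])
    (by
      intro h0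
      have h1 : (!![0, 1; 0, 0] : Matrix (Fin 2) (Fin 2) k) ∈ sl2 k := by
        rw [mem_sl2, trace_fin_two]
        simp
      rw [h0, Submodule.mem_bot] at h1
      have := congrFun (congrFun h1 0) 1
      simp at this)
  obtain ⟨q, hq, hqb, hd, A, hA, φ, hφ, h1, h3, h4, -⟩ :=
    exists_prime_of_elt h2 hρ hn hdet (W := ⊤) isOpen_univ (MonoidHom.mem_ker.mp hs) hs4 bad
  exact ⟨q, hq, hqb, hd, A, hA, φ, hφ, h1, h3, h4⟩

end Sel

end Fermat.Agent.RT
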