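import Fermat.Agent.RT.LocGen2
import Fermat.Agent.RT.TWPlaces
import Fermat.Agent.RT.TWPrimes
import Fermat.Agent.PT.Dict

set_option autoImplicit false
set_option maxHeartbeats 400000
set_option linter.style.haveILetI false
set_option linter.unusedSectionVars false
set_option linter.unusedVariables false

/-!
# Local and global inertia groups
-/

open scoped Pointwise

namespace Fermat.Agent.RT

open Fermat.Agent.Coh Fermat.Agent.GalD Fermat.Agent.LocalCFT Fermat.Agent.GCFT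
  Fermat.Agent.ESCore Module

/-- The field of algebraic numbers. -/
local notation "Qb" => AlgebraicClosure ℚ
/-- The absolute Galois group. -/
local notation "GQ" => (AlgebraicClosure ℚ ≃ₐ[ℚ] AlgebraicClosure ℚ)

variable {q : Nat.Primes}

lemma norm_sub_lt_of_gbar {g : Gl q} {n : ℕ} (hg : ∀ y : KK (q : ℕ), gbar g y = y ^ n) {x : Om q}
    (hx : ‖x‖ ≤ 1) : ‖g x - x ^ n‖ < 1 := by
  have hxO : x ∈ OO (q : ℕ) := by rw [mem_OO]; exact hx
  have h1 := hg (rd ⟨x, hxO⟩)
  have h2 : (rd (⟨x, hxO⟩ : OO (q : ℕ))) ^ n = rd (⟨x, hxO⟩ ^ n) := (map_pow _ _ _).symm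
  rw [gbar_rd, h2, rd_eq_iff] at h1
  exact h1

lemma norm_il_le {x : Qb} : x ∈ padicPlace (q : ℕ) ↔ ‖il q x‖ ≤ 1 := by
  rw [mem_padicPlace_iff, ← NNReal.coe_le_coe, coe_nnnorm, NNReal.coe_one]

theorem rl_mem_inertia {g : Gl q} (hg : g ∈ Il (q : ℕ)) :
    rl q g ∈ (padicPlace (q : ℕ)).inertiaSubgroupIn ℚ := by
  rw [PT.mem_inertia_iff]
  refine ⟨localGaloisToGlobal_mem_decompositionSubgroup (q : ℕ) g, fun x hx => ?_⟩
  rw [mem_nonunits_padicPlace, map_sub, il_rl]
  have h := norm_sub_lt_of_gbar (g := g) (n := 1) (fun y => by rw [hg, pow_one])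
    (norm_il_le.mp hx)
  rwa [pow_one] at h

theorem rl_isFrobeniusAt {φ : Gl q} (hφ : IsFrobL φ) :
    (padicPlace (q : ℕ)).IsFrobeniusAt (rl q φ) q := by
  refine FrobDensity.isFrobeniusAt_of
    (localGaloisToGlobal_mem_decompositionSubgroup (q : ℕ) φ) fun x hx => ?_
  rw [mem_nonunits_padicPlace, map_sub, il_rl, map_pow]
  exact norm_sub_lt_of_gbar hφ (norm_il_le.mp hx)

/-- Global inertia elements come from local inertia elements. -/
theorem exists_rl_inertia {U : Subgroup GQ} (hU : IsOpen (U : Set GQ)) {σ : GQ}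
    (hσ : σ ∈ (padicPlace (q : ℕ)).inertiaSubgroupIn ℚ) :
    ∃ s ∈ Il (q : ℕ), ∃ u ∈ U, σ = rl q s * u := by
  set W : Subgroup (Gl q) := U.comap (rl q) with hW
  have hWo : (LF (q : ℕ)).IsOpen W := PT.rl_cont hU
  set f := fdeg W with hf
  have hf0 : f ≠ 0 := (exists_unif_fdeg hWo).1.ne'
  set m := (q : ℕ) ^ f - 1 with hm
  have hm0 : m ≠ 0 := (pow_sub_one_pos (l := (q : ℕ)) hf0).ne'
  haveI : NeZero m := ⟨hm0⟩
  -- smaller level
  obtain ⟨δ, u, hu, hδ⟩ := exists_rl_mul (q := q) (U := U ⊓ (cyc m).ker)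
    (hU.inter (isOpen_ker_cyc m)) (PT.mem_inertia_iff.mp hσ).1
  have h1 : ∀ y ∈ kap W, gbar δ y = y := by
    intro y hy
    rw [kap_eq hWo] at hy
    by_cases hy0 : y = 0
    · rw [hy0, map_zero]
    obtain ⟨z, hz, rfl⟩ := exists_teich hf0 y hy hy0
    -- `z` comes from a global root of unity
    obtain ⟨ζ, hζ⟩ := exists_primitiveRoot m
    have hζ' : IsPrimitiveRoot (il q ζ) m := hζ.map_of_injective (il q).injective
    obtain ⟨i, -, hi⟩ := hζ'.eq_pow_of_pow_eq_one hz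
    have hqm : ¬ (q : ℕ) ∣ m := by
      intro h
      have h4 := coprime_pow_sub_one (l := (q : ℕ)) hf0
      rw [← hm] at h4
      exact q.2.one_lt.ne' (Nat.eq_one_of_dvd_coprimes h4 h dvd_rfl)
    have h2 : σ ζ = ζ := inertia_root (nonunits_padicPlace q) q.2 hσ hqm hζ.pow_eq_one
    have h3 : u ζ = ζ := by
      have h5 := cyc_spec u hζ.pow_eq_one
      have h6 : cyc m u = 1 := hu.2
      rw [h6, Units.val_one] at h5
      rcases Nat.lt_or_ge 1 m with h7 | h7
      · haveI : Fact (1 < m) := ⟨h7⟩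
        rw [ZMod.val_one, pow_one] at h5
        exact h5
      · have h8 : m = 1 := le_antisymm h7 (Nat.one_le_iff_ne_zero.mpr hm0)
        have h9 : ζ = 1 := by
          have := hζ.pow_eq_one
          rwa [h8, pow_one] at this
        rw [h9, map_one]
    have h4 : rl q δ ζ = ζ := by
      have h5 : σ ζ = rl q δ (u ζ) := by rw [hδ]; rfl
      rw [h2, h3] at h5
      exact h5.symm
    have h5 : δ (il q ζ) = il q ζ := by rw [← il_rl, h4]
    rw [gbar_rd]
    congr 1
    apply Subtype.ext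
    rw [coe_gOO, ← hi, map_pow, h5]
  obtain ⟨s, hs, w, hw, h⟩ := exists_inertia_mul hWo h1
  refine ⟨s, hs, rl q w * u, U.mul_mem hw hu.1, ?_⟩
  rw [hδ, h, map_mul, mul_assoc]

end Fermat.Agent.RT
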