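import Fermat.Agent.RT.LGcGal

set_option autoImplicit false
set_option linter.unusedSectionVars false
set_option linter.unusedVariables false

/-!
# The operator `w_q` on characters is an involution and commutes with the Galois action
-/

open CongruenceSubgroup Matrix.SpecialLinearGroup
open Fermat.Agent.ModFun Fermat.Agent.Geo
open scoped MatrixGroups

noncomputable section

namespace Fermat.Agent.RT

open Fermat.Agent.ESCore Fermat.Agent.LG

local notation "Qb" => AlgebraicClosure ℚ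

section Sq

variable {q M N : ℕ} [NeZero q] [NeZero M] [NeZero N] (B : Bez q M) {Bg : Type*} [CommGroup Bg]

/-- the square of the Atkin–Lehner matrix -/
theorem Bez.exists_sq {K : ℕ} (hK : K ∣ M) (hN : N = q * K) : ∃ g : Gamma0 N, ∀ i j,
    (B.Wm * B.Wm : Matrix (Fin 2) (Fin 2) ℝ) i j =
      (q : ℝ) * (mapGL ℝ (g : SL(2, ℤ)) : GL (Fin 2) ℝ) i j := by
  obtain ⟨r, hr⟩ := hK
  have hB := B.det
  have hMr : (M : ℤ) = K * r := by exact_mod_cast hr
  let g : SL(2, ℤ) := ⟨!![q + B.y * M, B.y * (1 + B.w); M * q * (1 + B.w), M * B.y + q * B.w ^ 2], by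
    rw [Matrix.det_fin_two_of]
    linear_combination ((q : ℤ) * B.w - M * B.y + 1) * hB⟩
  have g00 : g 0 0 = q + B.y * M := rfl
  have g01 : g 0 1 = B.y * (1 + B.w) := rfl
  have g10 : g 1 0 = M * q * (1 + B.w) := rfl
  have g11 : g 1 1 = M * B.y + q * B.w ^ 2 := rfl
  refine ⟨⟨g, ?_⟩, fun i j => ?_⟩
  · rw [Gamma0_mem, ZMod.intCast_zmod_eq_zero_iff_dvd, g10, hN, hMr]
    exact ⟨r * (1 + B.w), by push_cast; ring⟩
  · obtain ⟨w00, w01, w10, w11⟩ := B.Wm_entries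
    rw [Matrix.mul_apply, Fin.sum_univ_two]
    fin_cases i <;> fin_cases j
    · simp only [Fin.zero_eta, Fin.isValue, w00, w01, w10, mapGL_entry, g00]
      push_cast
      ring
    · simp only [Fin.zero_eta, Fin.isValue, Fin.mk_one, w00, w01, w11, mapGL_entry, g01]
      push_cast
      ring
    · simp only [Fin.zero_eta, Fin.isValue, Fin.mk_one, w00, w10, w11, mapGL_entry, g10]
      push_cast
      ring
    · simp only [Fin.isValue, Fin.mk_one, w01, w10, w11, mapGL_entry, g11]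
      push_cast
      ring

/-- **The Atkin–Lehner operator is an involution.** -/
theorem Bez.wChar_wChar {K : ℕ} (hK : K ∣ M) (hN : N = q * K) (c : Gamma0 N →* Bg) :
    B.wChar hK hN (B.wChar hK hN c) = c := by
  ext γ
  obtain ⟨γ', h1, -⟩ := B.exists_wChar hK hN γ
  obtain ⟨γ'', h2, -⟩ := B.exists_wChar hK hN γ'
  rw [B.wChar_apply hK hN _ h1, B.wChar_apply hK hN _ h2]
  obtain ⟨g, hg⟩ := Bez.exists_sq B hK hN
  have h3 : B.Wm * B.Wm * mapGL ℝ (γ : SL(2, ℤ)) = mapGL ℝ (γ'' : SL(2, ℤ)) * (B.Wm * B.Wm) := by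
    rw [mul_assoc, h1, ← mul_assoc, h2, mul_assoc]
  have hq : (q : ℝ) ≠ 0 := by exact_mod_cast NeZero.ne q
  have hg' : (B.Wm * B.Wm : Matrix (Fin 2) (Fin 2) ℝ) =
      (q : ℝ) • (mapGL ℝ (g : SL(2, ℤ)) : Matrix (Fin 2) (Fin 2) ℝ) := by
    ext i j
    rw [hg]
    rfl
  have h4 : mapGL ℝ (g : SL(2, ℤ)) * mapGL ℝ (γ : SL(2, ℤ)) =
      mapGL ℝ (γ'' : SL(2, ℤ)) * mapGL ℝ (g : SL(2, ℤ)) := by
    apply Units.ext
    have h5 := congrArg Units.val h3
    rw [Units.val_mul, Units.val_mul, Units.val_mul, Units.val_mul, hg', Matrix.smul_mul,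
      Matrix.mul_smul] at h5
    rw [Units.val_mul, Units.val_mul]
    exact smul_right_injective _ hq h5
  have h6 : g * γ = γ'' * g := by
    apply gam_injective N
    rw [map_mul, map_mul]
    exact h4
  have h7 : γ'' = g * γ * g⁻¹ := by rw [h6, mul_inv_cancel_right]
  rw [h7, map_mul, map_mul, map_inv, mul_inv_eq_iff_eq_mul, mul_comm]

end Sq

section Comm

variable {N : ℕ} [NeZero N] {m : ℕ}

theorem wChar_galX' {q M : ℕ} [NeZero q] [NeZero M] (B : Bez q M) (hq : q.Prime)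
    (hN : N = q * M) (hm : 0 < m) (σ : GQ) {χ χ' : XG N m} (hpar : IsPar χ.1)
    (hpar' : IsPar (galX N hm σ χ).1) (h : B.wChar dvd_rfl hN χ.1 = χ'.1) :
    B.wChar dvd_rfl hN (galX N hm σ χ).1 = (galX N hm σ χ').1 := by
  obtain ⟨y, hy0, hy⟩ := exists_xSer hm χ
  obtain ⟨z, hz, hzm⟩ := B.exists_wSer hq hN hpar hm χ.2.1 hy
  rw [h] at hz
  have hσy := xSer_galX hm σ χ hy
  have hσz := xSer_galX hm σ χ' hz
  obtain ⟨z', hz', hzm'⟩ := B.exists_wSer hq hN hpar' hm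
    (galX N hm σ χ).2.1 hσy
  set s : Qb →+* Qb := (σ.toRingEquiv.toRingHom : Qb →+* Qb) with hs
  have h1 : (ModularCurve.coeffMap s z) ^ m = z' ^ m := by
    rw [← map_pow, hzm, hzm']
    refine B.wF_coeffMap hq hN ιC ιC s ?_
    exact map_pow _ _ _
  have hz0 : z ≠ 0 := by
    rintro rfl
    have h2 := wF_ne_zero B hq hN ιC (x := ⟨y ^ m, hy.pow_mem_F0 χ.2.1⟩)
      (fun h0 => pow_ne_zero m hy0 (congrArg Subtype.val h0))
    rw [zero_pow hm.ne'] at hzm
    exact h2 (Subtype.ext hzm.symm)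
  have hsz0 : ModularCurve.coeffMap s z ≠ 0 := by rwa [Ne, _root_.map_eq_zero]
  obtain ⟨ζ, hζ⟩ : ∃ ζ : Qb, IsPrimitiveRoot ζ m := by
    have : NeZero (m : Qb) := ⟨by exact_mod_cast hm.ne'⟩
    exact HasEnoughRootsOfUnity.exists_primitiveRoot Qb m
  haveI : NeZero m := ⟨hm.ne'⟩
  have hζ' : IsPrimitiveRoot (HahnSeries.C ζ : LaurentSeries Qb) m :=
    hζ.map_of_injective (f := (HahnSeries.C : Qb →+* LaurentSeries Qb)) HahnSeries.C_injective
  obtain ⟨i, -, hi⟩ := hζ'.eq_pow_of_pow_eq_one (ξ := z' / ModularCurve.coeffMap s z) (by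
    rw [div_pow, ← h1, div_self (pow_ne_zero _ hsz0)])
  have h3 : z' = HahnSeries.C (ζ ^ i) * ModularCurve.coeffMap s z := by
    rw [map_pow, hi, div_mul_cancel₀ _ hsz0]
  have hz'0 : z' ≠ 0 := by
    intro h0
    rw [h0, zero_pow hm.ne'] at h1
    exact pow_ne_zero _ hsz0 h1
  refine XSer.char_unique (ι := ιC) hz'0 hz' ?_
  rw [h3]
  exact xSer_C _ hσz

end Comm

end Fermat.Agent.RT
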