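import Fermat.Agent.RT.LGbRep

set_option autoImplicit false
set_option linter.unusedSectionVars false
set_option linter.unusedVariables false
set_option linter.style.haveILetI false

/-!
# Mazur's principle: the level can be lowered at the primes `q ≢ 1 mod p`
-/

open Matrix CongruenceSubgroup IsLocalRing
open scoped MatrixGroups

noncomputable section

namespace Fermat.Agent.RT

open Fermat.Agent.RT.Ihara Fermat.Agent.ESCore Fermat.Agent.ESCore.ModP Fermat.Agent.ESCore.Univ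
  Fermat.Agent.LG Fermat.Agent.EC Fermat.Agent.RT.LR Fermat.Agent.GaloisBasics
open ModularFormClass
open WeierstrassCurve WeierstrassCurve.Affine WeierstrassCurve.Affine.Point

section Class

variable {N p : ℕ} [NeZero N] [hp : Fact p.Prime] {W : WeierstrassCurve ℤ}

/-- The eigencharacter attached to an eigenform congruent to a curve. -/
theorem exists_char_of_modular (hΔ : W.Δ ≠ 0) (hp2 : p ≠ 2) (hirr : W.ModRepIsIrreducible p)
    (h : W.IsResiduallyModularOfLevel p N) (S : Finset ℕ) (hpS : p ∈ S)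
    (hΔS : ∀ l : ℕ, l.Prime → (l : ℤ) ∣ W.Δ → l ∈ S) :
    ∃ χ : XG N p, χ ≠ 1 ∧ ∀ (l : ℕ) (hl : l.Prime) (hlN : ¬ l ∣ N), l ∉ S →
      heckeX hl hlN p χ = χ ^ (W.apOfModel l) := by
  obtain ⟨f, 𝔪, hf, h𝔪, hp𝔪, hcong⟩ := h
  letI fld := quotField 𝔪 h𝔪
  haveI hchar : CharP (integralClosure ℤ ℂ ⧸ 𝔪) p := charP_quot h𝔪 hp𝔪
  letI : Algebra (ZMod p) (integralClosure ℤ ℂ ⧸ 𝔪) := ZMod.algebra _ p
  obtain ⟨c, hc0, hc3, hc⟩ := exists_eigenclass_mod hf (Ideal.Quotient.mk 𝔪)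
  obtain ⟨g₀, hg₀⟩ : ∃ g, c.1 g ≠ 0 := by
    by_contra hcon
    push Not at hcon
    exact hc0 (Subtype.ext (funext hcon))
  obtain ⟨lam, hlam⟩ : ∃ lam : Module.Dual (ZMod p) (integralClosure ℤ ℂ ⧸ 𝔪),
      lam (c.1 g₀) ≠ 0 := by
    by_contra hcon
    push Not at hcon
    exact hg₀ ((Module.forall_dual_apply_eq_zero_iff (ZMod p) (c.1 g₀)).mp hcon)
  set c' : H1 (ZMod p) (ZMod p) (Gamma0 N) := extH lam.toAddMonoidHom c with hc'
  have hc'l : ∀ l : ℕ, l.Prime → ¬ l ∣ N → l ∉ S →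
      hec (Gamma1_le N) le_rfl l c' = ((W.apOfModel l : ℤ) : ZMod p) • c' := by
    intro l hl hlN hlS
    have hlp : l ≠ p := fun h => hlS (h ▸ hpS)
    have hgood : W.IsGoodPrimeFor l := fun h => hlS (hΔS l hl h)
    obtain ⟨b, hb, hbm⟩ := hcong l hl hgood hlN hlp
    have h1 : Ideal.Quotient.mk 𝔪 b = ((W.apOfModel l : ℤ) : integralClosure ℤ ℂ ⧸ 𝔪) := by
      rw [← map_intCast (Ideal.Quotient.mk 𝔪)]
      exact (Ideal.Quotient.eq).mpr hbm
    rw [hc', hec_extH, hc l hl b hb, h1]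
    apply Subtype.ext
    funext g
    change lam (((W.apOfModel l : ℤ) : integralClosure ℤ ℂ ⧸ 𝔪) * c.1 g) =
      ((W.apOfModel l : ℤ) : ZMod p) * lam (c.1 g)
    rw [← zsmul_eq_mul, map_zsmul, zsmul_eq_mul]
  obtain ⟨l₁, hl₁, hl₁S, hl₁g, hl₁p, hl₁m, hne₁⟩ := exists_l1 hp2 hΔ hirr N S
  have hl₁N := not_dvd_of_dvd_sub_one hl₁ hl₁m
  have hpar : ∀ γ : Gamma0 N, LG.trS (γ : SL(2, ℤ)) ^ 2 = 4 → c'.1 γ = 0 :=
    class_par hp2 hl₁ hl₁m (hc'l l₁ hl₁ hl₁N hl₁S) hne₁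
  refine ⟨⟨zChar c', zChar_mem hpar⟩, fun h1 => hlam ?_, fun l hl hlN hlS => ?_⟩
  · have h2 : zChar c' g₀ = 1 := DFunLike.congr_fun (congrArg Subtype.val h1) g₀
    exact zChar_eq_one_iff.mp h2
  · apply Subtype.ext
    change heckeChar hl hlN (zChar c') = zChar c' ^ (W.apOfModel l)
    rw [heckeChar_zChar hl hlN, hc'l l hl hlN hlS, zChar_pow]

end Class

section Main

variable {W : WeierstrassCurve ℤ} {p : ℕ} [hp : Fact p.Prime]

theorem pow_inj {N q : ℕ} (hqp : q.Coprime p) {x y : XG N p} (h : x ^ q = y ^ q) : x = y := by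
  have hx : ∀ z : XG N p, z ^ p = 1 := fun z => Subtype.ext z.2.1
  have h1 : (x * y⁻¹) ^ q = 1 := by rw [mul_pow, inv_pow, h, mul_inv_cancel]
  have h2 : (x * y⁻¹) ^ p = 1 := hx _
  have h4 : orderOf (x * y⁻¹) ∣ 1 := by
    rw [← hqp]
    exact Nat.dvd_gcd (orderOf_dvd_of_pow_eq_one h1) (orderOf_dvd_of_pow_eq_one h2)
  exact mul_inv_eq_one.mp (orderOf_eq_one_iff.mp (Nat.dvd_one.mp h4))

theorem comm_of_inv {E : Type*} [Ring E] {P P' Q : E} (h1 : Q * P' = P' * Q) (h2 : P * P' = 1)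
    (h3 : P' * P = 1) : P * Q = Q * P := by
  calc P * Q = P * (Q * P') * P := by rw [mul_assoc, mul_assoc, h3, mul_one]
    _ = P * (P' * Q) * P := by rw [h1]
    _ = Q * P := by rw [← mul_assoc, h2, one_mul]

set_option maxHeartbeats 1000000 in
/-- the contradiction, for the module of eigencharacters -/
theorem lgb_core (hΔ : W.Δ ≠ 0) (hp5 : 5 ≤ p) (hirr : W.ModRepIsIrreducible p)
    {q M N : ℕ} [NeZero q] [NeZero M] [NeZero N] (hq : q.Prime) (hqp : q ≠ p) (hN : N = q * M)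
    (hq1 : ¬ q ≡ 1 [MOD p]) (B : Bez q M) (S : Finset ℕ) {A : ValuationSubring Qb}
    (hA : A.LiesOverPrime q) {φ : GQ} (hφ : A.IsFrobeniusAt φ q)
    (hpar : ∀ x : XG N p, Additive.ofMul x ∈ eigV N p S W.apOfModel → IsPar x.1)
    (hw : ∀ x : XG N p, Additive.ofMul x ∈ eigV N p S W.apOfModel →
      B.wChar dvd_rfl hN (galX N hp.out.pos φ x).1 * x.1 ^ q = 1)
    {x₀ : XG N p} (hx₀ : Additive.ofMul x₀ ∈ eigV N p S W.apOfModel) : x₀ = 1 := by
  by_contra hx1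
  letI := algV N p S W.apOfModel
  have hp2 : p ≠ 2 := by omega
  have hcop : q.Coprime p := (Nat.coprime_primes hq hp.out).mpr hqp
  have hm := hp.out.pos
  have hR := scalRep_eigV (N := N) (p := p) hΔ S
  have hspan := span_rhoW hΔ hp2 hirr
  have hmem : ∀ (σ : GQ) (x : XG N p), Additive.ofMul x ∈ eigV N p S W.apOfModel →
      Additive.ofMul (galX N hm σ x) ∈ eigV N p S W.apOfModel := fun σ x hx => gal_mem_eigV σ hx
  have hinv : ∀ (σ : GQ) (x : XG N p), galX N hm σ⁻¹ (galX N hm σ x) = x := by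
    intro σ x
    rw [← galX_mul_apply, inv_mul_cancel, galX_one_apply]
  -- the operator `w` on the eigencharacters
  have hw' : ∀ x : XG N p, Additive.ofMul x ∈ eigV N p S W.apOfModel →
      B.wChar dvd_rfl hN x.1 = (((galX N hm φ⁻¹ x) ^ q)⁻¹ : XG N p).1 := by
    intro x hx
    have h1 := hw (galX N hm φ⁻¹ x) (hmem _ x hx)
    rw [galX_inv_apply] at h1
    exact eq_inv_of_mul_eq_one_left h1
  have hc1 : ∀ (g : GQ) (x : XG N p), Additive.ofMul x ∈ eigV N p S W.apOfModel →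
      galX N hm g (galX N hm φ⁻¹ x) = galX N hm φ⁻¹ (galX N hm g x) := by
    intro g x hx
    have h1 := wChar_galX' B hq hN hm g (hpar x hx) (hpar _ (hmem g x hx)) (hw' x hx)
    rw [hw' _ (hmem g x hx)] at h1
    have h2 := Subtype.ext h1
    rw [map_inv (galX N hm g), _root_.inv_inj, map_pow (galX N hm g)] at h2
    exact (pow_inj hcop h2).symm
  have hc2 : ∀ x : XG N p, Additive.ofMul x ∈ eigV N p S W.apOfModel →
      galX N hm φ (galX N hm φ x) = x ^ (q * q) := by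
    intro x hx
    set y := galX N hm φ (galX N hm φ x) with hy
    have hymem := hmem φ _ (hmem φ x hx)
    have h1 := hw' y hymem
    have e1 : galX N hm φ⁻¹ y = galX N hm φ x := hinv _ _
    rw [e1] at h1
    have hz : Additive.ofMul (((galX N hm φ x) ^ q)⁻¹ : XG N p) ∈ eigV N p S W.apOfModel := by
      rw [ofMul_inv, ofMul_pow]
      exact neg_mem (nsmul_mem (hmem φ x hx) q)
    have h2 := hw' _ hz
    rw [← h1, Bez.wChar_wChar, map_inv (galX N hm φ⁻¹), map_pow (galX N hm φ⁻¹), hinv] at h2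
    have h3 : y = ((((x ^ q)⁻¹) ^ q)⁻¹ : XG N p) := Subtype.ext h2
    rw [h3, inv_pow, inv_inv, ← pow_mul]
  -- the operators
  have hcomm : ∀ g, galV N p S W.apOfModel φ * galV N p S W.apOfModel g =
      galV N p S W.apOfModel g * galV N p S W.apOfModel φ := by
    intro g
    have h1 : galV N p S W.apOfModel g * galV N p S W.apOfModel φ⁻¹ =
        galV N p S W.apOfModel φ⁻¹ * galV N p S W.apOfModel g :=
      end_comm fun x => Subtype.ext (congrArg Additive.ofMul (hc1 g x.1.toMul x.2))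
    exact comm_of_inv h1 (by rw [← map_mul (galV N p S W.apOfModel), mul_inv_cancel, map_one])
      (by rw [← map_mul (galV N p S W.apOfModel), inv_mul_cancel, map_one])
  have hsq : galV N p S W.apOfModel φ * galV N p S W.apOfModel φ =
      ((q * q : ℕ) : AddMonoid.End (eigV N p S W.apOfModel)) :=
    end_sq fun x => Subtype.ext (congrArg Additive.ofMul (hc2 x.1.toMul x.2))
  have hdet : detW p hΔ φ = ((q : ℕ) : ZMod p) := modRep_det_frob hΔ hq hqp hA hφ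
  have hnt : Nontrivial (AddMonoid.End (eigV N p S W.apOfModel)) :=
    end_nontrivial (x := ⟨Additive.ofMul x₀, hx₀⟩) fun h => hx1 (congrArg Subtype.val h)
  refine hR.false_of_central hspan (φ := φ) ?_ hcomm ?_
  · rw [hdet, ← Nat.cast_one, Ne, ZMod.natCast_eq_natCast_iff]
    exact hq1
  · rw [hsq, hdet, ← Nat.cast_mul]
    exact (map_natCast _ _).symm

/-- **Mazur's principle.** -/
theorem lgb_of_mz (hMZ : LG.MZbProp) (hΔ : W.Δ ≠ 0) (hp5 : 5 ≤ p)
    (hirr : W.ModRepIsIrreducible p) {N q : ℕ} (hN : 0 < N) (hq : q.Prime) (hqp : q ≠ p)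
    (hqN : q ∣ N) (hq2 : ¬ q ^ 2 ∣ N) (hq1 : ¬ q ≡ 1 [MOD p])
    (hunr : ∀ A : ValuationSubring (AlgebraicClosure ℚ), A.LiesOverPrime q →
      ∀ σ ∈ A.inertiaSubgroupIn ℚ, modRep (torsBasis p W hΔ) σ = 1)
    (h : W.IsResiduallyModularOfLevel p N) : W.IsResiduallyModularOfLevel p (N / q) := by
  by_contra hcon
  have hp2 : p ≠ 2 := by omega
  haveI : NeZero N := ⟨hN.ne'⟩
  haveI : NeZero q := ⟨hq.ne_zero⟩
  obtain ⟨M, hNM⟩ := hqN
  rw [hNM, Nat.mul_div_cancel_left M hq.pos] at hcon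
  have hM0 : M ≠ 0 := by
    rintro rfl
    rw [mul_zero] at hNM
    exact hN.ne' hNM
  haveI : NeZero M := ⟨hM0⟩
  have hqM : ¬ q ∣ M := by
    rintro ⟨r, rfl⟩
    exact hq2 ⟨r, by rw [hNM]; ring⟩
  obtain ⟨B⟩ := nonempty_bez (q := q) (M := M) ((Nat.Prime.coprime_iff_not_dvd hq).mpr hqM)
  set S : Finset ℕ := insert q (insert p W.Δ.natAbs.primeFactors) with hS
  have hqS : q ∈ S := Finset.mem_insert_self _ _
  have hpS : p ∈ S := Finset.mem_insert_of_mem (Finset.mem_insert_self _ _)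
  have hΔS : ∀ l : ℕ, l.Prime → (l : ℤ) ∣ W.Δ → l ∈ S := fun l hl h =>
    Finset.mem_insert_of_mem (Finset.mem_insert_of_mem (Nat.mem_primeFactors.mpr
      ⟨hl, Int.natCast_dvd.mp h, Int.natAbs_ne_zero.mpr hΔ⟩))
  obtain ⟨l₁, hl₁, hl₁S, hl₁g, hl₁p, hl₁m, hne₁⟩ := exists_l1 hp2 hΔ hirr N S
  have hl₁N := not_dvd_of_dvd_sub_one hl₁ hl₁m
  obtain ⟨A, hA⟩ := exists_liesOverPrime hq
  obtain ⟨φ, hφ⟩ := exists_isFrobeniusAt hq A hA
  have hpar : ∀ x : XG N p, Additive.ofMul x ∈ eigV N p S W.apOfModel → IsPar x.1 :=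
    fun x hx => isPar_of_eigen hp2 hl₁ hl₁N hl₁m (hx l₁ hl₁ hl₁N hl₁S) hne₁
  have hno : ∀ χ' : XG M p, IsPar χ'.1 →
      (∀ (l : ℕ) (hl : l.Prime) (hlM : ¬ l ∣ M), l ∉ S →
        heckeX hl hlM p χ' = χ' ^ (W.apOfModel l)) → χ' = 1 := by
    intro χ' _ h1
    by_contra hne
    exact hcon (residuallyModular_of_char hΔ hp5 hirr S χ' hne h1)
  have heis : ∃ l : ℕ, l.Prime ∧ ¬ l ∣ N ∧ l ≠ p ∧ l ∉ S ∧
      ¬ (p : ℤ) ∣ W.apOfModel l - (1 + l) := by
    refine ⟨l₁, hl₁, hl₁N, hl₁p, hl₁S, fun hd => hne₁ ?_⟩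
    have h1 := (ZMod.intCast_zmod_eq_zero_iff_dvd _ p).mpr hd
    push_cast at h1
    linear_combination h1
  have hw : ∀ x : XG N p, Additive.ofMul x ∈ eigV N p S W.apOfModel →
      B.wChar dvd_rfl hNM (galX N hp.out.pos φ x).1 * x.1 ^ q = 1 := by
    intro x hx
    refine hMZ hq hqM hp.out hp5 hqp hNM hA B S W.apOfModel hqS hno heis x (hpar x hx)
      (fun l hl hlN hlS => hx l hl hlN hlS) (fun σ hσ => ?_) φ hφ
    letI := algV N p S W.apOfModel
    have h1 := (scalRep_eigV (N := N) (p := p) hΔ S).eq_one (span_rhoW hΔ hp2 hirr) (σ := σ)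
      (by rw [rhoW_apply, hunr A hA σ hσ, Units.val_one])
    have h2 := congrArg Subtype.val (DFunLike.congr_fun h1 ⟨Additive.ofMul x, hx⟩)
    exact Additive.ofMul.injective h2
  obtain ⟨χ, hχ1, hχ⟩ := exists_char_of_modular hΔ hp2 hirr h S hpS hΔS
  exact hχ1 (lgb_core hΔ hp5 hirr hq hqp hNM hq1 B S hA hφ hpar hw
    (fun l hl hlN hlS => hχ l hl hlN hlS))

end Main

end Fermat.Agent.RT
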