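import Fermat.Agent.RT.PsRep
import Fermat.Agent.ESCore.EigenChar
import Fermat.Prelude.Def_CuspForm_Newforms

set_option autoImplicit false
set_option linter.style.haveILetI false

/-!
# Local-global compatibility at the primes exactly dividing the level: the statement
-/

open IsLocalRing CongruenceSubgroup
open Fermat.Agent.ESCore

noncomputable section

namespace Fermat.Agent.RT

/-- The representation attached to a newform is ramified at the primes (different from `p`) exactly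
dividing the level. -/
def LGcP : Prop :=
  ∀ {M : ℕ} [NeZero M] {f : CuspForm (Gamma0 M) 2} (hf : f.IsNewform)
    (p : ℕ) (_ : p.Prime) (_ : p ≠ 2) (q : ℕ) (_ : q.Prime) (_ : q ≠ p)
    (_ : M.factorization q = 1) (_ : Squarefree M)
    (S : Finset ℕ) (_ : p ∈ S) (_ : ∀ l : ℕ, l.Prime → l ∣ M → l ∈ S)
    (𝒪 : Type) [CommRing 𝒪] [IsDomain 𝒪] [IsDiscreteValuationRing 𝒪]
    [IsAdicComplete (maximalIdeal 𝒪) 𝒪] [Finite (ResidueField 𝒪)] [CharZero 𝒪]
    (_ : (p : 𝒪) ∈ maximalIdeal 𝒪)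
    (O' : Type) [CommRing O'] [IsDomain O'] [IsDiscreteValuationRing O']
    [IsAdicComplete (maximalIdeal O') O'] [Finite (ResidueField O')] [CharZero O']
    [Algebra 𝒪 O'] [Module.Finite 𝒪 O'] [IsLocalHom (algebraMap 𝒪 O')]
    (_ : Function.Injective (algebraMap 𝒪 O'))
    (χ : GQ →* 𝒪ˣ) (_ : IsCyc p χ)
    (iota : (eigenHomC hf.1 (↑S : Set ℕ)).range →+* O')
    (B : Set ℕ) (t : GQ → O') (_ : CycPs χ p B t)
    (_ : ∀ (l : ℕ) (hl : l.Prime) (hlM : ¬ l ∣ M) (hlS : l ∉ (↑S : Set ℕ)),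
      ∀ A : ValuationSubring Qb, A.LiesOverPrime l → ∀ σ : GQ, A.IsFrobeniusAt σ l →
        t σ = iota ((eigenHomC hf.1 (↑S : Set ℕ)).rangeRestrict
          (CuspForm.heckeAlgebra.T hl hlM hlS)))
    (b : PsB 𝒪 χ) (_ : b.Good t)
    (_ : ∀ l : ℕ, l.Prime → l ≠ p → ∀ A : ValuationSubring Qb, A.LiesOverPrime l →
      ∀ σ ∈ A.inertiaSubgroupIn ℚ, t σ = 2),
    ¬ ∀ A : ValuationSubring Qb, A.LiesOverPrime q → ∀ σ ∈ A.inertiaSubgroupIn ℚ,
      ∀ g, t (σ * g) = t g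

end Fermat.Agent.RT
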