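import Fermat.Agent.LG.MazProps
import Fermat.Agent.LG.Coef
import Fermat.Agent.LG.USer
import Fermat.Agent.LG.KX7

set_option autoImplicit false
set_option linter.unusedSectionVars false
set_option linter.unusedVariables false

/-!
# The Galois action commutes with the operators `U_q` and `w_q`
-/

open CongruenceSubgroup Matrix.SpecialLinearGroup
open Fermat.Agent.ModFun Fermat.Agent.Geo
open scoped MatrixGroups

noncomputable section

namespace Fermat.Agent.RT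

open Fermat.Agent.ESCore Fermat.Agent.LG

local notation "Qb" => AlgebraicClosure ℚ

section Comm

variable {N : ℕ} [NeZero N] {m : ℕ}

theorem heckeXU_galX {q : ℕ} (hq : q.Prime) (hqN : q ∣ N) (hm : 0 < m) (σ : GQ) (χ : XG N m) :
    heckeXU hq.ne_zero hqN m (galX N hm σ χ) = galX N hm σ (heckeXU hq.ne_zero hqN m χ) := by
  haveI : NeZero q := ⟨hq.ne_zero⟩
  obtain ⟨ζ₀, hζ₀⟩ : ∃ ζ₀ : Qb, IsPrimitiveRoot ζ₀ q := by
    have : NeZero (q : Qb) := ⟨by exact_mod_cast hq.ne_zero⟩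
    exact HasEnoughRootsOfUnity.exists_primitiveRoot Qb q
  let ζ : Qbˣ := hζ₀.isUnit hq.ne_zero |>.unit
  have hζ : IsPrimitiveRoot ζ q := by
    rw [← IsPrimitiveRoot.coe_units_iff]
    exact hζ₀
  obtain ⟨y, hy0, hy⟩ := exists_xSer hm χ
  have hUy0 : uN q ζ y ≠ 0 := by
    intro h0
    have h4 : uN q ζ (y * y⁻¹) = 0 := by rw [uN_mul hζ, h0, zero_mul]
    rw [mul_inv_cancel₀ hy0, uN_one hζ] at h4
    exact one_ne_zero h4
  have h1 := (xSer_galX hm σ χ hy).uN hq.ne_zero hqN hζ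
  have h2 := xSer_galX hm σ (heckeXU hq.ne_zero hqN m χ) (y := uN q ζ y)
    (hy.uN hq.ne_zero hqN hζ)
  have h3 : ModularCurve.coeffMap (σ.toRingEquiv.toRingHom : Qb →+* Qb) (uN q ζ y) =
      uN q ζ (ModularCurve.coeffMap (σ.toRingEquiv.toRingHom : Qb →+* Qb) y) :=
    coeffMap_uN_equiv hζ σ.toRingEquiv y
  rw [← h3] at h1
  apply Subtype.ext
  refine XSer.char_unique (ι := ιC) ?_ h1 h2
  rwa [Ne, _root_.map_eq_zero]

theorem xSer_C {ι : Qb →+* ℂ} (c : Qb) {χ : Gamma0 N →* ℂˣ} {y : LaurentSeries Qb}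
    (hy : XSer ι N χ y) : XSer ι N χ (HahnSeries.C c * y) := by
  obtain ⟨f, hf, hf', hfy⟩ := hy
  refine ⟨fun τ => ι c * f τ, ?_, fun γ τ => ?_, hfy.smul c⟩
  · have hc : (fun _ : UpperHalfPlane => ι c) ∈ Gal.MB := by
      refine ⟨mdifferentiable_const, 0, fun γ => ?_⟩
      have h : ((ModularForm.discriminant : UpperHalfPlane → ℂ) ^ 0 *
          fun τ : UpperHalfPlane => (fun _ : UpperHalfPlane => ι c) (γ • τ)) = fun _ => ι c := by
        ext τ
        simp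
      rw [h]
      exact Filter.const_boundedAtFilter UpperHalfPlane.atImInfty (ι c)
    exact mul_mem hc hf
  · simp only [hf' γ τ]
    ring

theorem wChar_galX {q M : ℕ} [NeZero q] [NeZero M] (B : Bez q M) (hNE : NoEll N) (hq : q.Prime)
    (hN : N = q * M) (hm : 0 < m) (σ : GQ) {χ χ' : XG N m} (hpar : IsPar χ.1)
    (h : B.wChar dvd_rfl hN χ.1 = χ'.1) :
    B.wChar dvd_rfl hN (galX N hm σ χ).1 = (galX N hm σ χ').1 := by
  obtain ⟨y, hy0, hy⟩ := exists_xSer hm χ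
  obtain ⟨z, hz, hzm⟩ := B.exists_wSer hq hN hpar hm χ.2.1 hy
  rw [h] at hz
  have hσy := xSer_galX hm σ χ hy
  have hσz := xSer_galX hm σ χ' hz
  obtain ⟨z', hz', hzm'⟩ := B.exists_wSer hq hN (isPar_galX hNE hm σ χ hpar) hm
    (galX N hm σ χ).2.1 hσy
  set s : Qb →+* Qb := (σ.toRingEquiv.toRingHom : Qb →+* Qb) with hs
  have h1 : (ModularCurve.coeffMap s z) ^ m = z' ^ m := by
    rw [← map_pow, hzm, hzm']
    refine B.wF_coeffMap hq hN ιC ιC s ?_
    exact map_pow _ _ _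
  have hz0 : z ≠ 0 := by
    rintro rfl
    have h2 := wF_ne_zero B hq hN ιC (x := ⟨y ^ m, hy.pow_mem_F0 χ.2.1⟩)
      (fun h0 => pow_ne_zero m hy0 (congrArg Subtype.val h0))
    rw [zero_pow hm.ne'] at hzm
    exact h2 (Subtype.ext hzm.symm)
  have hsz0 : ModularCurve.coeffMap s z ≠ 0 := by rwa [Ne, _root_.map_eq_zero]
  obtain ⟨ζ, hζ⟩ : ∃ ζ : Qb, IsPrimitiveRoot ζ m := by
    have : NeZero (m : Qb) := ⟨by exact_mod_cast hm.ne'⟩
    exact HasEnoughRootsOfUnity.exists_primitiveRoot Qb m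
  haveI : NeZero m := ⟨hm.ne'⟩
  have hζ' : IsPrimitiveRoot (HahnSeries.C ζ : LaurentSeries Qb) m :=
    hζ.map_of_injective (f := (HahnSeries.C : Qb →+* LaurentSeries Qb)) HahnSeries.C_injective
  obtain ⟨i, -, hi⟩ := hζ'.eq_pow_of_pow_eq_one (ξ := z' / ModularCurve.coeffMap s z) (by
    rw [div_pow, ← h1, div_self (pow_ne_zero _ hsz0)])
  have h3 : z' = HahnSeries.C (ζ ^ i) * ModularCurve.coeffMap s z := by
    rw [map_pow, hi, div_mul_cancel₀ _ hsz0]
  have hz'0 : z' ≠ 0 := by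
    intro h0
    rw [h0, zero_pow hm.ne'] at h1
    exact pow_ne_zero _ hsz0 h1
  refine XSer.char_unique (ι := ιC) hz'0 hz' ?_
  rw [h3]
  exact xSer_C _ hσz

end Comm

end Fermat.Agent.RT
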