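import Fermat.Agent.RT.LGcMain
import Fermat.Agent.RT.LGcGal
import Fermat.Agent.RT.LGcDef
import Fermat.Agent.RT.ResRep
import Fermat.Agent.LG.R36c
import Fermat.Agent.ESCore.S35Final
import Fermat.Agent.KL.Final

set_option autoImplicit false
set_option linter.unusedVariables false
set_option linter.style.haveILetI false

/-!
# Ramification at the primes exactly dividing the level
-/

open IsLocalRing CongruenceSubgroup Matrix.SpecialLinearGroup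
open scoped MatrixGroups

noncomputable section

namespace Fermat.Agent.RT

open ESCore ESCore.ModP ESCore.Tower ESCore.Univ UnivDef LG Fermat.Agent.NF

section Pseudo

variable {𝒪 : Type} [CommRing 𝒪] [IsLocalRing 𝒪] [IsNoetherianRing 𝒪]
  [IsAdicComplete (maximalIdeal 𝒪) 𝒪] {χ : GQ →* 𝒪ˣ} {p : ℕ} {K : ℕ} [NeZero K] {S : Finset ℕ}

/-- **The pseudo-representation attached to a point of the Hecke algebra of `Γ₀(K)`**, with its
relation to the characters. -/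
theorem exists_cycPs_tower (hp : p.Prime) (hp𝒪 : (p : 𝒪) ∈ maximalIdeal 𝒪) (hχ : IsCyc p χ)
    (hpS : p ∈ S) (hKS : ∀ q : ℕ, q.Prime → q ∣ K → q ∈ S)
    {O : Type} [CommRing O] [IsLocalRing O] [IsNoetherianRing O] [IsAdicComplete (maximalIdeal O) O]
    [Algebra 𝒪 O] (hpO : (p : O) ∈ maximalIdeal O)
    (π : CuspForm.heckeAlgebra K 2 (↑S : Set ℕ) →+* O) :
    ∃ (c : ℕ) (t : GQ → O), CycPs χ p {q | q ∣ K ∨ q = p} t ∧
      (∀ σ, ∀ f ∈ algP (TxS K S p) (TtS K S), ∀ n m, n + c ≤ m →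
        f.1 m = ESCore.trS (rhoT K hp.pos m) (chiT K hp.pos m) σ →
        t σ - π f.2 ∈ Ideal.span {(p : O) ^ n}) ∧
      (∀ (l : ℕ) (hl : l.Prime) (hlN : ¬ l ∣ K) (hlS : l ∉ (↑S : Set ℕ)),
        ∀ B : ValuationSubring Qb, B.LiesOverPrime l → ∀ σ : GQ, B.IsFrobeniusAt σ l →
          t σ = π (CuspForm.heckeAlgebra.T hl hlN hlS)) := by
  have hKL : ∀ l : ℕ, l.Prime → ¬ l ∣ K → l ≠ p → ∀ B : ValuationSubring Qb,
      B.LiesOverPrime l → ∀ n, KLProp K (p ^ n) B := fun l hl hlN hlp B hB n =>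
    KL.klProp (pow_pos hp.pos n) hl hlN
      (fun h => hlp ((Nat.prime_dvd_prime_iff_eq hl hp).mp (hl.dvd_of_dvd_pow h))) hB
  obtain ⟨c, t, ε, hps, h1, h1', h2, h3, h4, h5⟩ := exists_pseudo_full hp hpS hKS hKL hpO π
  have hε : ∀ σ, (cycT O χ σ : O) = ε σ := by
    intro σ
    rw [← sub_eq_zero]
    refine eq_zero_of_pow hpO fun n => ?_
    haveI : NeZero (p ^ (n + c)) := ⟨(pow_pos hp.pos _).ne'⟩
    obtain ⟨k, hk⟩ := act_eq hp (n + c) σ
    have e1 := hχ (n + c) σ k hk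
    obtain ⟨ζ, hζ⟩ := exists_primitiveRoot (p ^ (n + c))
    have e2 := h1' σ (algebraMap ℤ _ (k : ℤ)) (Subalgebra.algebraMap_mem _ _) n (n + c) le_rfl (by
      change algebraMap ℤ (Module.End ℤ (Additive (XG K (p ^ (n + c))))) (k : ℤ) =
        cycE K (p ^ (n + c)) σ
      rw [cycE_of_eq (k := k) (by
        rw [cyc_eq_of hζ (hk ζ hζ.pow_eq_one), Int.cast_natCast]), eq_intCast])
    have e3 : π (algebraMap ℤ ((∀ n, Module.End ℤ (Additive (XG K (p ^ n)))) ×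
        CuspForm.heckeAlgebra K 2 (↑S : Set ℕ)) (k : ℤ)).2 = (k : O) := by
      change π (algebraMap ℤ (CuspForm.heckeAlgebra K 2 (↑S : Set ℕ)) (k : ℤ)) = _
      rw [eq_intCast, map_intCast, Int.cast_natCast]
    rw [e3] at e2
    rw [Ideal.mem_span_singleton] at e1 e2 ⊢
    obtain ⟨a, ha⟩ := e1
    obtain ⟨b, hb⟩ := e2
    refine ⟨(p : O) ^ c * algebraMap 𝒪 O a - b, ?_⟩
    have e4 : (cycT O χ σ : O) - k = (p : O) ^ (n + c) * algebraMap 𝒪 O a := by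
      rw [cycT_coe, ← map_natCast (algebraMap 𝒪 O) k, ← map_sub, ha, map_mul, map_pow, map_natCast]
    rw [pow_add] at e4
    linear_combination e4 - hb
  have hps' : IsPseudo t (cycT O χ) := by
    have : cycT O χ = ε := by
      ext σ
      exact hε σ
    rw [this]
    exact hps
  refine ⟨c, t, ⟨hps', fun n => ?_, fun q hq hqB A hA σ hσ g => ?_⟩, h1,
    fun l hl hlN hlS B hB σ hσ => (h2 l hl hlN hlS B hB σ hσ).1⟩
  · obtain ⟨L, hL, hL2⟩ := h3 n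
    exact ⟨L, hL, fun σ hσ => (hL2 σ hσ).1⟩
  · rw [Set.mem_ofPred_eq, not_or] at hqB
    exact (h4 q hq hqB.1 hqB.2 A hA σ hσ).1 g

end Pseudo

section Good

variable {𝒪 : Type} [CommRing 𝒪] {χ : GQ →* 𝒪ˣ} {p : ℕ}

/-- commutators have non-zero trace -/
theorem PsB.exists_comm (b : PsB 𝒪 χ) {O : Type} [CommRing O] [IsLocalRing O] [Algebra 𝒪 O]
    {B : Set ℕ} {t : GQ → O} (ht : CycPs χ p B t) (hg : b.Good t) :
    ∃ a a₁ k a' b' : GQ, t (a * a₁ * k * (a' * b')) - t (a * a₁ * k * (b' * a')) -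
      t (a₁ * a * k * (a' * b')) + t (a₁ * a * k * (b' * a')) ≠ 0 := by
  letI : Algebra 𝒪 (ResidueField O) := ((residue O).comp (algebraMap 𝒪 O)).toAlgebra
  let f : O →ₐ[𝒪] ResidueField O := { residue O with commutes' := fun _ => rfl }
  have ht' := ht.map f
  have hg' : b.Good (fun σ => f (t σ)) := hg.map b f (fun _ => rfl)
  let r : GQ →* Matrix (Fin 2) (Fin 2) (ResidueField O) := b.rhoM ht' hg'
  have htr : ∀ σ, (r σ).trace = f (t σ) := fun σ => b.trace_rho ht' hg' σ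
  have h3 := span_of_trace ht'.ps cc_sq b.hccT b.h2T hg'.mul_val_inv r htr
  obtain ⟨a, a₁, k, a', b', h⟩ := exists_comm_trace r h3
  refine ⟨a, a₁, k, a', b', fun h0 => h ?_⟩
  rw [htr, htr, htr, htr, ← map_sub, ← map_sub, ← map_add, h0, map_zero]

end Good

section OneAdd

variable {𝒪 : Type} [CommRing 𝒪] [IsLocalRing 𝒪] [IsNoetherianRing 𝒪] {χ : GQ →* 𝒪ˣ} {p : ℕ}
  {T : Type} [CommRing T] [Algebra 𝒪 T]

/-- the reducible pseudo-representation `1 + χ` -/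
theorem cycPs_one_add (hp : p.Prime) (hp𝒪 : (p : 𝒪) ∈ maximalIdeal 𝒪) (hχ : IsCyc p χ) :
    CycPs χ p {p} (fun σ => 1 + (cycT T χ σ : T)) := by
  refine ⟨⟨?_, fun g h => ?_⟩, fun n => ?_, fun q hq hqB A hA σ hσ g => ?_⟩
  · rw [map_one, Units.val_one]
    norm_num
  · have e1 : (cycT T χ g : T) * (cycT T χ (g⁻¹ * h) : T) = (cycT T χ h : T) := by
      rw [← Units.val_mul, ← map_mul, mul_inv_cancel_left]
    have e2 : (cycT T χ (g * h) : T) = (cycT T χ g : T) * (cycT T χ h : T) := by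
      rw [map_mul, Units.val_mul]
    linear_combination -e1 - e2
  · haveI : NeZero (p ^ n) := ⟨(pow_pos hp.pos n).ne'⟩
    obtain ⟨ζ, hζ⟩ := exists_primitiveRoot (p ^ n)
    refine ⟨IntermediateField.adjoin ℚ {ζ}, ?_, fun σ hσ g => ?_⟩
    · exact IntermediateField.adjoin.finiteDimensional (Algebra.IsIntegral.isIntegral ζ)
    · have h1 : σ ζ = ζ := hσ ζ (IntermediateField.mem_adjoin_simple_self ℚ ζ)
      have h2 := hχ n σ 1 (fun ξ hξ => by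
        obtain ⟨i, -, rfl⟩ := hζ.eq_pow_of_pow_eq_one hξ
        rw [map_pow, h1, pow_one])
      rw [Nat.cast_one, Ideal.mem_span_singleton] at h2
      obtain ⟨c, hc⟩ := h2
      rw [Ideal.mem_span_singleton]
      refine ⟨algebraMap 𝒪 T c * (cycT T χ g : T), ?_⟩
      have h3 : (cycT T χ σ : T) - 1 = (p : T) ^ n * algebraMap 𝒪 T c := by
        rw [cycT_coe, ← map_one (algebraMap 𝒪 T), ← map_sub, hc, map_mul, map_pow, map_natCast]
      rw [map_mul, Units.val_mul]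
      linear_combination (cycT T χ g : T) * h3
  · have h1 : χ σ = 1 := hχ.inertia hp hp𝒪 hq (fun h => hqB h) hA hσ
    have h2 : cycT T χ σ = 1 := by
      apply Units.ext
      rw [cycT_coe, h1, Units.val_one, map_one, Units.val_one]
    rw [map_mul, h2, one_mul]

/-- a pseudo-representation whose residual representation is absolutely irreducible is not
`1 + χ` -/
theorem exists_not_eis [IsLocalRing T] [IsNoetherianRing T] (hp : p.Prime)
    (hp𝒪 : (p : 𝒪) ∈ maximalIdeal 𝒪) (hpT : (p : T) ∈ maximalIdeal T) (hχ : IsCyc p χ)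
    {B : Set ℕ} {t : GQ → T} (ht : CycPs χ p B t) {a a₁ k a' b' : GQ}
    (hD : t (a * a₁ * k * (a' * b')) - t (a * a₁ * k * (b' * a')) -
      t (a₁ * a * k * (a' * b')) + t (a₁ * a * k * (b' * a')) ≠ 0) (S : Finset ℕ) :
    ∃ l : ℕ, l.Prime ∧ l ∉ S ∧ ∃ A : ValuationSubring Qb, A.LiesOverPrime l ∧
      ∃ σ : GQ, A.IsFrobeniusAt σ l ∧ t σ ≠ l + 1 := by
  by_contra hcon
  push Not at hcon
  have h1 : t = fun σ => 1 + (cycT T χ σ : T) := by
    refine ht.ext (fun y hy => eq_zero_of_pow hpT hy) (cycPs_one_add hp hp𝒪 hχ) (insert p S) ?_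
    intro l hl hlS A hA σ hσ
    rw [Finset.mem_insert, not_or] at hlS
    rw [hcon l hl hlS.2 A hA σ hσ, cycT_coe, hχ.frob hp hp𝒪 hl hlS.1 hA hσ, map_natCast]
    ring
  refine hD ?_
  rw [h1]
  simp only [map_mul, Units.val_mul]
  ring

end OneAdd

section Main

variable {N : ℕ} [NeZero N] {S : Finset ℕ} {p : ℕ}

set_option maxHeartbeats 2000000 in
/-- the square of Frobenius acts on the characters attached to newforms -/
theorem frob_sq_of_mz (hMZ : MZcPropT) {q : ℕ} (hq : q.Prime) (hp : p.Prime) (hqp : q ≠ p)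
    {K : ℕ} (hN : N = q * K) (hqK : ¬ q ∣ K) {ε : ℤ} (hε : ε = 1 ∨ ε = -1)
    {A : ValuationSubring Qb} (hA : A.LiesOverPrime q) {φ : GQ} (hφ : A.IsFrobeniusAt φ q) :
    ∃ E : ℕ, E ≠ 0 ∧ ∀ (m : ℕ) (z χ : XG N (p ^ m)) {l : ℕ} (hl : l.Prime) (hlN : ¬ l ∣ N),
      ¬ l ∣ auxLev q → χ = heckeX hl hlN (p ^ m) z * (z ^ (l + 1))⁻¹ → ParC z.1 → ParC χ.1 →
      heckeCharU hq.ne_zero (hN ▸ dvd_mul_right _ _) χ.1 = χ.1 ^ ε →
      (∀ (M : ℕ) [NeZero q] [NeZero M] (Bz : Bez q M) (hKM : K ∣ M),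
        Bz.wChar hKM hN χ.1 = χ.1 ^ (-ε)) →
      (∀ g, ∀ σ ∈ A.inertiaSubgroupIn ℚ, galX N (pow_pos hp.pos m) σ
        (galX N (pow_pos hp.pos m) g z) = galX N (pow_pos hp.pos m) g z) →
      ∀ g, galX N (pow_pos hp.pos m) (φ * φ) ((galX N (pow_pos hp.pos m) g χ) ^ E) =
        ((galX N (pow_pos hp.pos m) g χ) ^ E) ^ (q ^ 2) := by
  have hK0 : K ≠ 0 := by
    rintro rfl
    exact NeZero.ne N (by rw [hN, mul_zero])
  haveI hq0 : NeZero q := ⟨hq.ne_zero⟩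
  haveI hM : NeZero (auxLev q * K) := ⟨mul_ne_zero (auxLev_pos q).ne' hK0⟩
  haveI hN' : NeZero (q * (auxLev q * K)) := ⟨mul_ne_zero hq.ne_zero hM.out⟩
  have hqM : ¬ q ∣ auxLev q * K := by
    intro h
    rcases hq.dvd_mul.mp h with h | h
    · exact not_dvd_auxLev hq h
    · exact hqK h
  have hlev : GoodLev q (auxLev q * K) := goodLev_aux q K
  have hNN : N ∣ q * (auxLev q * K) := ⟨auxLev q, by rw [hN]; ring⟩
  have hqN' : q ∣ q * (auxLev q * K) := dvd_mul_right _ _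
  obtain ⟨B⟩ := nonempty_bez (q := q) (M := auxLev q * K)
    ((Nat.Prime.coprime_iff_not_dvd hq).mpr hqM)
  obtain ⟨d, hd0, hd⟩ := exists_pow_res (N' := q * (auxLev q * K)) hNN
  obtain ⟨e, he, hmz⟩ := hMZ hq hqM hlev rfl hqN'
  refine ⟨e * d, mul_ne_zero he.ne' hd0, fun m z χ l hl hlN hlaux hχz hparz hpar hU hW hfix g => ?_⟩
  have hqm : ¬ q ∣ p ^ m := fun h => hqp ((Nat.prime_dvd_prime_iff_eq hq hp).mp
    (hq.dvd_of_dvd_pow h))
  have hm := pow_pos hp.pos m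
  have hlN' : ¬ l ∣ q * (auxLev q * K) := by
    intro h
    rw [mul_left_comm, ← hN] at h
    rcases hl.dvd_mul.mp h with h | h
    · exact hlaux h
    · exact hlN h
  have hres : (resX hNN (p ^ m) χ).1 = resC hNN χ.1 := rfl
  have hpar' : IsPar (resX hNN (p ^ m) χ).1 := hpar.res hNN
  have hparz' : IsPar (resX hNN (p ^ m) z).1 := hparz.res hNN
  have hU' : heckeXU hq.ne_zero hqN' (p ^ m) (resX hNN (p ^ m) χ) = (resX hNN (p ^ m) χ) ^ ε := by
    apply Subtype.ext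
    rw [heckeXU_coe, hres, heckeCharU_resC hNN hq.ne_zero hqN' (hN ▸ dvd_mul_right _ _), hU]
    rfl
  have hW' : B.wChar dvd_rfl rfl (resX hNN (p ^ m) χ).1 = ((resX hNN (p ^ m) χ) ^ (-ε)).1 := by
    rw [hres, wChar_resC hNN B dvd_rfl (dvd_mul_left K (auxLev q)) rfl hN,
      hW (auxLev q * K) B (dvd_mul_left K (auxLev q))]
    rfl
  have hgal : ∀ (σ : GQ) (y : XG N (p ^ m)), galX (q * (auxLev q * K)) hm σ (resX hNN (p ^ m) y) =
      resX hNN (p ^ m) (galX N hm σ y) := fun σ y => galX_res hNN hm σ y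
  have hcomm := (galData_galX (N := q * (auxLev q * K)) hm (fun l hl hlN hlm B hB =>
    KL.klProp hm hl hlN hlm hB)).comm l hl hlN'
  have hresT : resX hNN (p ^ m) χ = heckeX hl hlN' (p ^ m) (resX hNN (p ^ m) z) *
      ((resX hNN (p ^ m) z) ^ (l + 1))⁻¹ := by
    have e1 : heckeX hl hlN' (p ^ m) (resX hNN (p ^ m) z) =
        resX hNN (p ^ m) (heckeX hl hlN (p ^ m) z) := by
      apply Subtype.ext
      change heckeChar hl hlN' (resC hNN z.1) = resC hNN (heckeChar hl hlN z.1)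
      exact heckeChar_resC hNN hl hlN' hlN z.1
    rw [hχz, map_mul, map_inv, map_pow, e1]
  obtain ⟨ψ, hψ⟩ : ∃ ψ, ψ = galX (q * (auxLev q * K)) hm g (resX hNN (p ^ m) z) := ⟨_, rfl⟩
  have hfixψ : ∀ σ ∈ A.inertiaSubgroupIn ℚ, galX (q * (auxLev q * K)) hm σ ψ = ψ := by
    intro σ hσ
    rw [hψ, hgal, galX_res hNN hm σ, hfix g σ hσ]
  have hχψ : galX (q * (auxLev q * K)) hm g (resX hNN (p ^ m) χ) =
      heckeX hl hlN' (p ^ m) ψ * (ψ ^ (l + 1))⁻¹ := by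
    rw [hresT, map_mul, map_inv, map_pow, ← hcomm, hψ]
  have h1 := hmz hm hqm hA B (galX (q * (auxLev q * K)) hm g (resX hNN (p ^ m) χ)) ε hε
    (isPar_galX (hlev.noEll rfl) hm g _ hpar')
    (by rw [heckeXU_galX hq hqN' hm g, hU', map_zpow])
    (by
      rw [wChar_galX B (hlev.noEll rfl) hq rfl hm g hpar' hW', map_zpow])
    (fun σ hσ => by
      rw [hχψ, map_mul, map_inv, map_pow, ← hcomm, hfixψ σ hσ])
    ⟨l, hl, hlN', ψ, by rw [hψ]; exact isPar_galX (hlev.noEll rfl) hm g _ hparz', hfixψ, hχψ⟩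
    φ hφ
  rw [hgal] at h1
  obtain ⟨Y, hY⟩ : ∃ Y, Y = galX N hm g χ := ⟨_, rfl⟩
  rw [← hY] at h1 ⊢
  obtain ⟨a, ha⟩ : ∃ a, a = galX N hm (φ * φ) (Y ^ e) := ⟨_, rfl⟩
  obtain ⟨b, hb⟩ : ∃ b, b = (Y ^ e) ^ (q ^ 2) := ⟨_, rfl⟩
  have h1' : resX hNN (p ^ m) a = resX hNN (p ^ m) b := by
    rw [ha, hb, ← galX_res hNN hm, map_pow (resX hNN (p ^ m)), map_pow (resX hNN (p ^ m)),
      map_pow (resX hNN (p ^ m))]
    exact h1
  have h2 : resX hNN (p ^ m) (a * b⁻¹) = 1 := by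
    rw [map_mul, map_inv, h1', mul_inv_cancel]
  have h3 : (a * b⁻¹) ^ d = 1 := Subtype.ext (hd _ (congrArg Subtype.val h2))
  rw [mul_pow, inv_pow, mul_inv_eq_one] at h3
  rw [pow_mul Y e d, map_pow, ← ha, h3, hb]
  exact pow_right_comm (Y ^ e) (q ^ 2) d

/-- **LG-c**: the representation attached to a newform is ramified at the primes exactly dividing
the level. -/
theorem lgc_of_mz (hMZ : MZcPropT) : LGcP := by
  intro M _ f hf p hp hp2 q hq hqp hqM hsq S hpS hMS 𝒪 _ _ _ _ _ _ hp𝒪 O' _ _ _ _ _ _ _ _ _ hinj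
    χ hχ iota B t ht hfr b hg hun hcon
  have hpO : (p : O') ∈ maximalIdeal O' := by
    rw [← map_natCast (algebraMap 𝒪 O')]
    exact map_nonunit (algebraMap 𝒪 O') _ hp𝒪
  have hKL : ∀ l : ℕ, l.Prime → ¬ l ∣ M → l ≠ p → ∀ B : ValuationSubring Qb,
      B.LiesOverPrime l → ∀ n, KLProp M (p ^ n) B := fun l hl hlN hlp B hB n =>
    KL.klProp (pow_pos hp.pos n) hl hlN
      (fun h => hlp ((Nat.prime_dvd_prime_iff_eq hl hp).mp (hl.dvd_of_dvd_pow h))) hB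
  obtain ⟨c, t₁, ht₁, h1, hfr₁⟩ := exists_cycPs_tower (O := O') hp hp𝒪 hχ hpS hMS hpO
    (iota.comp (eigenHomC hf.1 (↑S : Set ℕ)).rangeRestrict)
  have htt : t₁ = t := by
    refine ht₁.ext (fun y hy => eq_zero_of_pow hpO hy) ht S ?_
    intro l hl hlS A hA σ hσ
    have hlM : ¬ l ∣ M := fun hlM => hlS (hMS l hl hlM)
    rw [hfr₁ l hl hlM hlS A hA σ hσ, hfr l hl hlM hlS A hA σ hσ, RingHom.comp_apply]
  rw [htt] at h1
  -- the level
  obtain ⟨K, hK⟩ : q ∣ M := by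
    refine (hq.dvd_iff_one_le_factorization (NeZero.ne M)).mpr ?_
    rw [hqM]
  have hqK : ¬ q ∣ K := by
    rintro ⟨K', rfl⟩
    have h3 := (hq.pow_dvd_iff_le_factorization (k := 2) (NeZero.ne M)).mp
      ⟨K', by rw [hK]; ring⟩
    rw [hqM] at h3
    omega
  obtain ⟨v, hv, hvT, hvW⟩ := exists_intVec hf (eigenHomC hf.1 (↑S : Set ℕ)) (fun _ => rfl) iota
  obtain ⟨ε, hε, -, hU, hW⟩ := hvW q hq K hK hqK
  obtain ⟨A, hA⟩ := GaloisBasics.exists_liesOverPrime hq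
  obtain ⟨φ, hφ⟩ := GaloisBasics.exists_isFrobeniusAt hq A hA
  obtain ⟨E, hE, hEE⟩ := frob_sq_of_mz (N := M) hMZ hq hp hqp hK hqK hε hA hφ
  obtain ⟨a, a₁, k, a', b', hD⟩ := b.exists_comm ht hg
  -- the auxiliary prime
  obtain ⟨l, hl, hlS', A', hA', σ', hσ', hne⟩ := exists_not_eis hp hp𝒪 hpO hχ ht hD
    (S ∪ (auxLev q).primeFactors)
  rw [Finset.mem_union, not_or] at hlS'
  have hlM : ¬ l ∣ M := fun h => hlS'.1 (hMS l hl h)
  have hlaux : ¬ l ∣ auxLev q := fun h => hlS'.2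
    (Nat.mem_primeFactors.mpr ⟨hl, h, (auxLev_pos q).ne'⟩)
  have hlS : l ∉ (↑S : Set ℕ) := hlS'.1
  have hU' : ∀ (m : ℕ) (ψ : Multiplicative O' →* ℂˣ) (hψ : ψ ^ (p ^ m) = 1),
      heckeCharU hq.ne_zero (hK ▸ dvd_mul_right _ _)
        (⟨vChar v ψ, vChar_mem v hψ⟩ : XG M (p ^ m)).1 =
        (⟨vChar v ψ, vChar_mem v hψ⟩ : XG M (p ^ m)).1 ^ ε := fun m ψ hψ => by
    change heckeCharU hq.ne_zero _ (ψ.comp (oChar v)) = (ψ.comp (oChar v)) ^ ε
    rw [heckeCharU_comp, hU, comp_zpow_char]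
  have hW' : ∀ (m : ℕ) (ψ : Multiplicative O' →* ℂˣ) (hψ : ψ ^ (p ^ m) = 1)
      (M' : ℕ) [NeZero q] [NeZero M'] (Bz : Bez q M') (hKM : K ∣ M'),
      Bz.wChar hKM hK (⟨vChar v ψ, vChar_mem v hψ⟩ : XG M (p ^ m)).1 =
        (⟨vChar v ψ, vChar_mem v hψ⟩ : XG M (p ^ m)).1 ^ (-ε) := fun m ψ hψ M' _ _ Bz hKM => by
    change Bz.wChar _ hK (ψ.comp (oChar v)) = (ψ.comp (oChar v)) ^ (-ε)
    have e1 : Bz.wChar hKM hK (ψ.comp (oChar v)) =
        ψ.comp (Bz.wChar hKM hK (oChar v)) := by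
      rw [LG.Bez.wChar, LG.Bez.wChar, CosetSys.trans_comp]
    rw [e1, hW _ Bz, comp_zpow_char]
  refine false_of_scalar hp hpS hMS hKL hpO hv hvT h1 (fun g h => ht.ps.comm g h)
    (I := {σ | ∀ g, t (σ * g) = t g}) (fun σ hσ => hσ) ?_ hD (φ := φ * φ)
    (q := ((q ^ 2 : ℕ) : ℤ)) ?_ ?_ hE ⟨l, hl, hlM, hlS'.1⟩ ?_ ?_
  · intro σ hσ g x
    have e1 : t (g⁻¹ * σ * g * x) = t (σ * (g * x * g⁻¹)) := by
      rw [mul_assoc, mul_assoc, ht.ps.comm g⁻¹, mul_assoc]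
    have e2 : t (g * x * g⁻¹) = t x := by
      rw [mul_assoc, ht.ps.comm g, mul_assoc, inv_mul_cancel, mul_one]
    rw [e1, hσ, e2]
  · intro m z
    haveI : NeZero (p ^ m) := ⟨(pow_pos hp.pos m).ne'⟩
    have hqm : ¬ q ∣ p ^ m := fun h => hqp ((Nat.prime_dvd_prime_iff_eq hq hp).mp
      (hq.dvd_of_dvd_pow h))
    have e1 : ((cyc (p ^ m) (φ * φ) : (ZMod (p ^ m))ˣ) : ZMod (p ^ m)) =
        (((q ^ 2 : ℕ) : ℤ) : ZMod (p ^ m)) := by
      rw [map_mul, Units.val_mul, cyc_frob hA hq hφ hqm]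
      push_cast
      ring
    change cycE M (p ^ m) (φ * φ) • z = _
    rw [cycE_of_eq e1]
    exact Int.cast_smul_eq_zsmul _ _ _
  · have h2 := hq.two_le
    intro h3
    have h4 : q ^ 2 = 1 := by exact_mod_cast h3
    nlinarith
  · intro h0
    refine hne ?_
    rw [hfr l hl hlM hlS A' hA' σ' hσ']
    exact sub_eq_zero.mp h0
  · rintro m z ⟨ψ, hψ, rfl⟩ hfix g
    obtain ⟨ψ', hψ', hyx⟩ : ∃ (ψ' : Multiplicative O' →* ℂˣ) (hψ' : ψ' ^ (p ^ m) = 1),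
        TxS M S p (⟨l, hl, hlM, hlS'.1⟩ : Idx M S) m • xv v ψ hψ - (l + 1) • xv v ψ hψ =
          xv v ψ' hψ' := by
      have e1 := xv_hecke (π := iota.comp (eigenHomC hf.1 (↑S : Set ℕ)).rangeRestrict) hvT
        (⟨l, hl, hlM, hlS'.1⟩ : Idx M S) hψ
      rw [e1, xv_sub hψ _ l]
      exact ⟨_, _, rfl⟩
    have hy : (⟨vChar v ψ', vChar_mem v hψ'⟩ : XG M (p ^ m)) =
        heckeX hl hlM (p ^ m) ⟨vChar v ψ, vChar_mem v hψ⟩ *
          ((⟨vChar v ψ, vChar_mem v hψ⟩ : XG M (p ^ m)) ^ (l + 1))⁻¹ := by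
      have e1 := congrArg Additive.toMul hyx.symm
      rw [← div_eq_mul_inv]
      exact e1
    have h2 := hEE m ⟨vChar v ψ, vChar_mem v hψ⟩ ⟨vChar v ψ', vChar_mem v hψ'⟩ hl hlM hlaux hy
      (parC_lat _) (parC_lat _) (hU' m ψ' hψ') (hW' m ψ' hψ')
      (fun g σ hσ => congrArg Additive.toMul (hfix g σ (hcon A hA σ hσ))) g
    change rhoT M hp.pos m (φ * φ) • rhoT M hp.pos m g • E •
      (TxS M S p (⟨l, hl, hlM, hlS'.1⟩ : Idx M S) m • xv v ψ hψ - (l + 1) • xv v ψ hψ) =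
      ((q ^ 2 : ℕ) : ℤ) • rhoT M hp.pos m g • E •
      (TxS M S p (⟨l, hl, hlM, hlS'.1⟩ : Idx M S) m • xv v ψ hψ - (l + 1) • xv v ψ hψ)
    rw [hyx, natCast_zsmul]
    rw [← map_pow (galX M (pow_pos hp.pos m) g)] at h2
    exact congrArg Additive.ofMul h2

end Main

end Fermat.Agent.RT
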