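import Fermat.Agent.RT.S43Asm
import Fermat.Agent.RT.LGc
import Fermat.Agent.RT.LGb

/-!
# Level lowering for the Frey curve, from the two geometric properties
-/

set_option autoImplicit false

noncomputable section

open WeierstrassCurve WeierstrassCurve.Affine WeierstrassCurve.Affine.Point

namespace Fermat.Agent.RT

theorem lowerNe_of_mz (hb : LG.MZbProp) : LowerNe := by
  intro W hΔ _ p _ hp5 hirr N q hN hq hqp hqN hq1 hunr hres
  refine lgb_of_mz hb hΔ hp5 hirr (Nat.pos_of_ne_zero hN.ne_zero) hq hqp hqN ?_ hq1 hunr hres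
  intro h
  rw [sq] at h
  exact hq.ne_one (Nat.isUnit_iff.mp (hN q h))

/-- **Level lowering for the Frey curve**, from the two geometric properties. -/
theorem s43_of_mz (h36 : S36P) (hc : LG.MZcPropT) (hb : LG.MZbProp)
    (P : FreyPackage) {N q : ℕ} (hcond : P.IsConductorLevel N) (hq : q.Prime)
    (hqp : q ≠ P.p) (hqN : q ∣ N)
    (hirr : GaloisRepIsIrreducible (K := AlgebraicClosure ℚ) ℚ P.freyCurve P.p)
    (hmod : P.ModularRepOfLevel N) (hunr : P.GaloisRepUnramifiedAt q) :
    ∃ M : ℕ, M ∣ N ∧ ¬ q ∣ M ∧ P.ModularRepOfLevel M :=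
  s43_of h36 (lgc_of_mz hc) (lowerNe_of_mz hb) P hcond hq hqp hqN hirr hmod hunr

end Fermat.Agent.RT
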