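import Fermat.Agent.EC.Peu4
import Fermat.Agent.RT.IndexTwoEC

set_option autoImplicit false

/-!
# The `p`-torsion of a semistable model with `p ∣ Δ` and `p ∣ v_p(Δ)` is "peu ramifiée" at `p`
-/

noncomputable section

open scoped Pointwise
open WeierstrassCurve WeierstrassCurve.Affine WeierstrassCurve.Affine.Point

namespace Fermat.Agent.RT

open Fermat.Agent.EC Fermat.Agent.Coh Fermat.Agent.GCFT Fermat.Agent.ESCore

/-- The field of algebraic numbers. -/
local notation "Kb" => AlgebraicClosure ℚ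
/-- The absolute Galois group. -/
local notation "GQ" => (AlgebraicClosure ℚ ≃ₐ[ℚ] AlgebraicClosure ℚ)

variable {W : WeierstrassCurve ℤ} {p : ℕ}

/-- The rational curve of an integral model. -/
local notation "WQ" => WeierstrassCurve.map W (Int.castRingHom ℚ)

/-- **`W[p]` is peu ramifiée at `p`** when `p ∣ Δ` and `p ∣ v_p(Δ)`: for a point `x` outside the
toric line `kerSub A`, either some translate of `x` by the toric line is fixed by inertia, or
inertia is transitive on `x + kerSub A` and the field of `x` contains an element `y` with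
`v(y)^p = v(p)`, `v(σ y - y)^(p-1) = v(p)`. -/
theorem ss_peu (hΔ : W.Δ ≠ 0) (hW : W.IsSemistableModel) [hp : Fact p.Prime] (hp2 : p ≠ 2)
    (hd : (p : ℤ) ∣ W.Δ) (hk : p ∣ padicValInt p W.Δ) {A : ValuationSubring Kb}
    (hA : A.LiesOverPrime p) {x : TorsP (WQ) p} (hx : x ∉ kerSub A (ss_vint W A)) :
    (∃ x' : TorsP (WQ) p, x' - x ∈ kerSub A (ss_vint W A) ∧
      ∀ σ ∈ A.inertiaSubgroupIn ℚ, σ • x' = x') ∨
    ((∀ z : TorsP (WQ) p, z - x ∈ kerSub A (ss_vint W A) →
        ∃ σ ∈ A.inertiaSubgroupIn ℚ, σ • x = z) ∧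
      ∃ y : Kb, (∀ σ ∈ A.inertiaSubgroupIn ℚ, σ • x = x → σ y = y) ∧
        A.valuation y ^ p = A.valuation (p : Kb) ∧
        (∀ σ ∈ A.inertiaSubgroupIn ℚ, σ • x ≠ x →
          A.valuation (σ y - y) ^ (p - 1) = A.valuation (p : Kb))) := by
  have := isElliptic_map hΔ
  have hvp : A.valuation (p : Kb) < 1 := hA
  obtain ⟨k, hk⟩ := hk
  refine peu_of_mult (k := k) hp2 hA (ss_vint W A)
    (by rw [ss_c₄]; exact v_int_eq_one hp.out hvp (hW p hp.out hd))
    (by rw [ss_Δ]; exact v_int_lt hvp hd) hvp ?_ hx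
  rw [ss_Δ]
  have h1 := qval_rat (v := A.valuation) (K := Kb) hp.out hvp (c := (W.Δ : ℚ))
    (by exact_mod_cast hΔ)
  have e : (((W.Δ : ℤ) : ℚ) : Kb) = ((W.Δ : ℤ) : Kb) := by push_cast; rfl
  rw [e] at h1
  rw [h1, padicValRat.of_int, hk]
  push_cast
  rfl

end Fermat.Agent.RT
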