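import Fermat.Agent.RT.S43Fin
import Fermat.Agent.S05

/-!
# Level lowering at `p` for the Frey curve: reduction to the levels dividing `2p`
-/

set_option autoImplicit false

noncomputable section

open WeierstrassCurve WeierstrassCurve.Affine WeierstrassCurve.Affine.Point

namespace Fermat.Agent.RT

/-- Removing all odd primes different from `p`. -/
theorem exists_dvd_two_mul (h36 : S36P) (hc : LG.MZcPropT) (hb : LG.MZbProp)
    (P : FreyPackage) (hirr : GaloisRepIsIrreducible (K := AlgebraicClosure ℚ) ℚ P.freyCurve P.p) :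
    ∀ (N : ℕ), P.IsConductorLevel N → P.ModularRepOfLevel N →
      ∃ N' : ℕ, N' ∣ N ∧ N' ∣ 2 * P.p ∧ P.ModularRepOfLevel N' := by
  intro N
  induction N using Nat.strong_induction_on with
  | _ N ih =>
    intro hcond hmod
    by_cases h : ∃ q : ℕ, q.Prime ∧ q ∣ N ∧ q ≠ 2 ∧ q ≠ P.p
    · obtain ⟨q, hq, hqN, hq2, hqp⟩ := h
      obtain ⟨M, hM, hqM, hmodM⟩ := s43_of_mz h36 hc hb P hcond hq hqp hqN hirr hmod
        (Fermat.Agent.S05.result P hq hq2 hqp)
      have hM0 : 0 < M := Nat.pos_of_dvd_of_pos hM hcond.pos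
      have hlt : M < N := lt_of_le_of_ne (Nat.le_of_dvd hcond.pos hM) (by
        rintro rfl
        exact hqM hqN)
      obtain ⟨N', h1, h2, h3⟩ := ih M hlt (hcond.of_dvd hM hM0) hmodM
      exact ⟨N', h1.trans hM, h2, h3⟩
    · push Not at h
      refine ⟨N, dvd_rfl, ?_, hmod⟩
      have hsq := hcond.squarefree
      rw [← Nat.prod_primeFactors_of_squarefree hsq]
      have hsub : N.primeFactors ⊆ {2, P.p} := by
        intro q hq
        rw [Nat.mem_primeFactors] at hq
        rw [Finset.mem_insert, Finset.mem_singleton]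
        by_cases h2 : q = 2
        · exact Or.inl h2
        · exact Or.inr (h q hq.1 hq.2.1 h2)
      have h2p : (2 : ℕ) ≠ P.p := by
        have := P.hp5
        omega
      calc ∏ q ∈ N.primeFactors, q ∣ ∏ q ∈ ({2, P.p} : Finset ℕ), q :=
            Finset.prod_dvd_prod_of_subset _ _ _ hsub
        _ = 2 * P.p := Finset.prod_pair h2p

/-- **Level lowering at `p`**, from the impossibility of the levels `p` and `2p`. -/
theorem s44_of (h36 : S36P) (hc : LG.MZcPropT) (hb : LG.MZbProp)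
    (hcore : ∀ (P : FreyPackage), (P.p : ℤ) ∣ P.a * P.b * P.c →
      GaloisRepIsIrreducible (K := AlgebraicClosure ℚ) ℚ P.freyCurve P.p →
      ∀ N' : ℕ, N' ∣ 2 * P.p → P.p ∣ N' → P.ModularRepOfLevel N' → False)
    (P : FreyPackage) {N : ℕ} (hcond : P.IsConductorLevel N) (hpN : P.p ∣ N)
    (hirr : GaloisRepIsIrreducible (K := AlgebraicClosure ℚ) ℚ P.freyCurve P.p)
    (hmod : P.ModularRepOfLevel N) : ∃ M : ℕ, M ∣ N ∧ ¬ P.p ∣ M ∧ P.ModularRepOfLevel M := by
  obtain ⟨N', h1, h2, h3⟩ := exists_dvd_two_mul h36 hc hb P hirr N hcond hmod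
  by_cases hpN' : P.p ∣ N'
  · exact (hcore P (hcond.p_dvd_abc hpN) hirr N' h2 hpN' h3).elim
  · exact ⟨N', h1, hpN', h3⟩

end Fermat.Agent.RT
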