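import Fermat.Agent.RT.AL4

set_option autoImplicit false

/-!
# The newform attached to a twist
-/

open UpperHalfPlane hiding I
open ModularForm Matrix Matrix.SpecialLinearGroup CongruenceSubgroup Filter ModularFormClass
open Fermat.Agent.ESCore Fermat.Agent.Eis16 Fermat.Agent.DS Fermat.Agent.ESCore.UnivG
open Fermat.Agent.Hecke
open scoped MatrixGroups Manifold Topology ZMod

noncomputable section

namespace Fermat.Agent.RT.AL

open scoped IsMulCommutative in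
/-- A nonzero form which is an eigenvector of the `T_l` for `l ∉ S` gives a normalised eigenform
with the same eigenvalues. -/
theorem exists_normalized {M : ℕ} [NeZero M] {f : CuspForm (Gamma0 M) 2} (hf : f ≠ 0) (S : Set ℕ)
    {a : ℕ → ℂ} (hT : ∀ (l : ℕ) (hl : l.Prime) (hlM : ¬ l ∣ M), l ∉ S →
      CuspForm.heckeTLin 2 hl hlM f = a l • f) :
    ∃ h : CuspForm (Gamma0 M) 2, h.IsNormalizedEigenform ∧
      ∀ l : ℕ, l.Prime → ¬ l ∣ M → l ∉ S → qCoeff h l = a l := by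
  let I : Ideal (complexHecke M 2) :=
    { carrier := {t | (t : Module.End ℂ (CuspForm (Gamma0 M) 2)) f = 0}
      add_mem' := by
        intro s t hs ht
        change ((s : Module.End ℂ (CuspForm (Gamma0 M) 2)) + t) f = 0
        rw [LinearMap.add_apply, hs, ht, add_zero]
      zero_mem' := rfl
      smul_mem' := by
        intro s t ht
        change ((s : Module.End ℂ (CuspForm (Gamma0 M) 2)) * t) f = 0
        rw [Module.End.mul_apply, ht, map_zero] }
  have hI : I ≠ ⊤ := by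
    rw [Ne, Ideal.eq_top_iff_one]
    exact fun h => hf h
  obtain ⟨m, hm, hIm⟩ := Ideal.exists_le_maximal I hI
  obtain ⟨lam, hlam⟩ := exists_algHom_of_isPrime m
  obtain ⟨h, h1, h2⟩ := exists_eigenform lam
  refine ⟨h, ?_, fun l hl hlM hlS => ?_⟩
  · refine isNormalizedEigenform_of_eigen h h1 (fun l hl hlM => ?_) (fun l hl hlM => ?_)
    · exact ⟨_, h2 ⟨_, heckeTLin_mem hl hlM⟩⟩
    · exact ⟨_, h2 ⟨_, heckeULin_mem hl hlM⟩⟩
  · have h3 : (⟨_, heckeTLin_mem hl hlM⟩ : complexHecke M 2) -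
        algebraMap ℂ (complexHecke M 2) (a l) ∈ I := by
      change (CuspForm.heckeTLin 2 hl hlM - algebraMap ℂ _ (a l)) f = 0
      rw [LinearMap.sub_apply, hT l hl hlM hlS, Module.algebraMap_end_apply, sub_self]
    have h4 := hIm h3
    rw [← hlam, RingHom.mem_ker] at h4
    change lam _ = 0 at h4
    rw [map_sub, AlgHom.commutes, sub_eq_zero] at h4
    have h5 := h2 ⟨_, heckeTLin_mem hl hlM⟩
    rw [h4] at h5
    have h6 := qCoeff_heckeTLin (k := 2) hl hlM h 1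
    have hl1 : ¬ l ∣ 1 := fun h => hl.one_lt.ne' (Nat.dvd_one.mp h)
    change CuspForm.heckeTLin 2 hl hlM h = _ at h5
    rw [h5, qCoeff_smul, h1, if_neg hl1, add_zero, one_mul] at h6
    rw [← h6]
    simp

/-- Every normalised eigenform gives a newform of lower level. -/
theorem exists_newform (M : ℕ) (hM : 0 < M) : ∀ (f : CuspForm (Gamma0 M) 2),
    f.IsNormalizedEigenform → ∃ (M' : ℕ) (h : CuspForm (Gamma0 M') 2), M' ∣ M ∧ h.IsNewform ∧
      ∀ l : ℕ, l.Prime → ¬ l ∣ M → qCoeff h l = qCoeff f l := by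
  induction M using Nat.strong_induction_on with
  | _ M ih =>
    intro f hf
    by_cases hnew : f.IsNewform
    · exact ⟨M, f, dvd_rfl, hnew, fun _ _ _ => rfl⟩
    · have h1 : ¬ ∀ M' : ℕ, M' ∣ M → M' ≠ M → ¬ CuspForm.GoodEigensystemOccursAt f M' :=
        fun h => hnew ⟨hf, h⟩
      push Not at h1
      obtain ⟨M', hM', hne, g, hg, hgf⟩ := h1
      have hM'0 : 0 < M' := Nat.pos_of_dvd_of_pos hM' hM
      obtain ⟨M'', h, hd, hnew', hh⟩ := ih M' (lt_of_le_of_ne (Nat.le_of_dvd hM hM') hne) hM'0 g hg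
      exact ⟨M'', h, hd.trans hM', hnew', fun l hl hlM => by
        rw [hh l hl fun h => hlM (h.trans hM'), hgf l hl hlM]⟩

variable {N D : ℕ} {F : ℍ → ℂ} {P : PowerSeries ℂ} {a : ℕ → ℂ}

/-- The Hecke relations of a normalised eigenform. -/
theorem rel_of_normalized {M : ℕ} {h : CuspForm (Gamma0 M) 2} (hh : h.IsNormalizedEigenform)
    {l : ℕ} (hl : l.Prime) (hlM : ¬ l ∣ M) (n : ℕ) (hn : 0 < n) :
    qCoeff h (l * n) + l * (if l ∣ n then qCoeff h (n / l) else 0) = qCoeff h l * qCoeff h n := by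
  obtain ⟨r, m, hm, rfl⟩ := Nat.exists_eq_pow_mul_and_not_dvd hn.ne' l hl.ne_one
  have hcop : ∀ s : ℕ, (l ^ s).Coprime m := fun s =>
    Nat.Coprime.pow_left s ((Nat.Prime.coprime_iff_not_dvd hl).mpr hm)
  rcases r with _ | r
  · rw [pow_zero, one_mul, if_neg hm, mul_zero, add_zero]
    have := hh.qCoeff_mul_of_coprime (l ^ 1) m (hcop 1)
    rwa [pow_one] at this
  · have e1 : l * (l ^ (r + 1) * m) = l ^ (r + 2) * m := by ring
    have e2 : l ^ (r + 1) * m / l = l ^ r * m := by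
      rw [show l ^ (r + 1) * m = l * (l ^ r * m) by ring, Nat.mul_div_cancel_left _ hl.pos]
    rw [if_pos (Dvd.intro (l ^ r * m) (by ring)), e1, e2, hh.qCoeff_mul_of_coprime _ _ (hcop _),
      hh.qCoeff_mul_of_coprime _ _ (hcop _), hh.qCoeff_mul_of_coprime _ _ (hcop _),
      hh.qCoeff_prime_pow_of_not_dvd l r hl hlM]
    ring

/-- The twist of an eigenform with nebentypus `ψ²` by `ψ⁻¹` gives a newform. -/
theorem exists_newform_twist [NeZero N] [NeZero D] (ψ : DirichletCharacter ℂ D)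
    (h : EF (N * D) (fun d => ψ (d : ZMod D) ^ 2) a F P) (h1 : P.coeff 1 ≠ 0) :
    ∃ (M : ℕ) (g : CuspForm (Gamma0 M) 2), M ∣ N * D ^ 2 ∧ g.IsNewform ∧
      ∀ l : ℕ, l.Prime → ¬ l ∣ N * D → qCoeff g l = ψ⁻¹ (l : ZMod D) * a l := by
  have : NeZero (N * D) := ⟨mul_ne_zero (NeZero.ne N) (NeZero.ne D)⟩
  have : NeZero (N * D ^ 2) := ⟨mul_ne_zero (NeZero.ne N) (pow_ne_zero 2 (NeZero.ne D))⟩
  have hmem := tw_mem_S2_Gamma0 h.mem ψ h.neb
  set f : CuspForm (Gamma0 (N * D ^ 2)) 2 := toCusp hmem.1 hmem.2 with hf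
  have hfc : (f : ℍ → ℂ) = tw D (fun n => ψ⁻¹ n) F := rfl
  have hQ := hasQ_tw h.hasQ (fun n => ψ⁻¹ n)
  have hcoef : ∀ n, qCoeff f n = ψ⁻¹ (n : ZMod D) * P.coeff n := by
    intro n
    rw [qCoeff, hfc, hQ.qExpansion_eq one_pos, PowerSeries.coeff_mk]
  have hf0 : f ≠ 0 := by
    intro h0
    have h2 := hcoef 1
    rw [h0] at h2
    have h3 : qCoeff (0 : CuspForm (Gamma0 (N * D ^ 2)) 2) 1 = 0 :=
      (qCoeffLin (N * D ^ 2) 2 1).map_zero
    rw [h3, Nat.cast_one, map_one, one_mul] at h2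
    exact h1 h2.symm
  have hdvd : ∀ l : ℕ, l.Prime → ¬ l ∣ N * D → ¬ l ∣ N * D ^ 2 := by
    intro l hl hlM h2
    rcases (Nat.Prime.dvd_mul hl).mp h2 with h3 | h3
    · exact hlM (dvd_mul_of_dvd_left h3 D)
    · exact hlM (dvd_mul_of_dvd_right (hl.dvd_of_dvd_pow h3) N)
  have hT : ∀ (l : ℕ) (hl : l.Prime) (hlM : ¬ l ∣ N * D ^ 2), l ∉ ({l | l ∣ N * D} : Set ℕ) →
      CuspForm.heckeTLin 2 hl hlM f = (ψ⁻¹ (l : ZMod D) * a l) • f := by
    intro l hl hlM hlS
    have hlM' : ¬ l ∣ N * D := hlS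
    refine ext_of_forall_qCoeff _ _ fun n => ?_
    rw [qCoeff_heckeTLin, qCoeff_smul, mul_comm n l]
    simp only [hcoef]
    have h2 := h.rel l hl hlM' n
    have hu : IsUnit (l : ZMod D) := by
      rw [ZMod.isUnit_iff_coprime]
      exact (Nat.Prime.coprime_iff_not_dvd hl).mpr fun h3 => hlM' (dvd_mul_of_dvd_right h3 N)
    have h4 : ψ⁻¹ (l : ZMod D) * ψ (l : ZMod D) = 1 := by
      rw [← MulChar.mul_apply, inv_mul_cancel, MulChar.one_apply hu]
    push_cast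
    rw [map_mul]
    by_cases hd : l ∣ n
    · rw [if_pos hd]
      rw [if_pos hd] at h2
      obtain ⟨k, rfl⟩ := hd
      rw [Nat.mul_div_cancel_left _ hl.pos] at h2 ⊢
      push_cast at h2 ⊢
      rw [map_mul]
      rw [zpow_one]
      linear_combination (ψ⁻¹ (l : ZMod D) ^ 2 * ψ⁻¹ (k : ZMod D)) * h2 -
        l * ψ⁻¹ (k : ZMod D) * P.coeff k * (ψ⁻¹ (l : ZMod D) * ψ (l : ZMod D) + 1) * h4
    · rw [if_neg hd] at h2 ⊢
      rw [mul_zero, add_zero] at h2
      rw [h2]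
      ring
  obtain ⟨g₀, hg₀, hg₀'⟩ := exists_normalized hf0 {l | l ∣ N * D} hT
  obtain ⟨M, g, hM, hg, hgg⟩ := exists_newform (N * D ^ 2)
    (Nat.pos_of_ne_zero (NeZero.ne (N * D ^ 2))) g₀ hg₀
  exact ⟨M, g, hM, hg, fun l hl hlM => by
    rw [hgg l hl (hdvd l hl hlM), hg₀' l hl (hdvd l hl hlM) hlM]⟩

end Fermat.Agent.RT.AL
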