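import Fermat.Agent.RT.EvalHom
import Mathlib

set_option autoImplicit false

/-!
# Derivations to the residue field and generators of complete local rings
-/

open IsLocalRing MvPowerSeries

namespace Fermat.Agent.RT

section Der

variable {O A k : Type*} [CommRing O] [CommRing A] [Field k] (φ : O →+* A) (π : A →+* k)

/-- derivations of `A` over `O` with values in `k` -/
def DerSp : Submodule k (A → k) where
  carrier := {D | (∀ a b, D (a + b) = D a + D b) ∧ (∀ a b, D (a * b) = π a * D b + π b * D a) ∧
    ∀ o, D (φ o) = 0}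
  zero_mem' := ⟨by simp, by simp, by simp⟩
  add_mem' := by
    rintro D E ⟨h1, h2, h3⟩ ⟨h1', h2', h3'⟩
    refine ⟨fun a b => ?_, fun a b => ?_, fun o => ?_⟩
    · simp only [Pi.add_apply, h1, h1']; ring
    · simp only [Pi.add_apply, h2, h2']; ring
    · simp only [Pi.add_apply, h3, h3', add_zero]
  smul_mem' := by
    rintro c D ⟨h1, h2, h3⟩
    refine ⟨fun a b => ?_, fun a b => ?_, fun o => ?_⟩
    · simp only [Pi.smul_apply, smul_eq_mul, h1]; ring
    · simp only [Pi.smul_apply, smul_eq_mul, h2]; ring
    · simp only [Pi.smul_apply, smul_eq_mul, h3, mul_zero]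

variable {φ π}

theorem mem_DerSp {D : A → k} : D ∈ DerSp φ π ↔ (∀ a b, D (a + b) = D a + D b) ∧
    (∀ a b, D (a * b) = π a * D b + π b * D a) ∧ ∀ o, D (φ o) = 0 := Iff.rfl

variable {D : A → k} (hD : D ∈ DerSp φ π)

include hD

theorem der_add (a b : A) : D (a + b) = D a + D b := hD.1 a b
theorem der_mul (a b : A) : D (a * b) = π a * D b + π b * D a := hD.2.1 a b
theorem der_cst (o : O) : D (φ o) = 0 := hD.2.2 o

theorem der_zero : D 0 = 0 := by
  have := der_add hD 0 0
  rw [add_zero] at this
  simpa using this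

theorem der_neg (a : A) : D (-a) = - D a := by
  have := der_add hD a (-a)
  rw [add_neg_cancel, der_zero hD] at this
  linear_combination -this

theorem der_sub (a b : A) : D (a - b) = D a - D b := by
  rw [sub_eq_add_neg, der_add hD, der_neg hD, sub_eq_add_neg]

theorem der_one : D 1 = 0 := by
  have := der_cst hD 1
  rwa [map_one] at this

theorem der_sum {ι : Type*} (s : Finset ι) (f : ι → A) : D (∑ i ∈ s, f i) = ∑ i ∈ s, D (f i) := by
  classical
  induction s using Finset.induction_on with
  | empty => rw [Finset.sum_empty, Finset.sum_empty, der_zero hD]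
  | insert a s ha ih => rw [Finset.sum_insert ha, Finset.sum_insert ha, der_add hD, ih]

/-- derivations kill squares of the augmentation ideal -/
theorem der_eq_zero_of_mem_sq {a : A} (ha : a ∈ RingHom.ker π ^ 2) : D a = 0 := by
  rw [pow_two] at ha
  induction ha using Submodule.mul_induction_on' with
  | mem_mul_mem x hx y hy =>
    rw [der_mul hD, show π x = 0 from hx, show π y = 0 from hy, zero_mul, zero_mul, add_zero]
  | add x _ y _ hx hy => rw [der_add hD, hx, hy, add_zero]

/-- a derivation which is zero on a family of elements of the augmentation ideal is zero on the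
ideal generated by it -/
theorem der_eq_zero_of_mem_span {s : Set A} (hs : ∀ a ∈ s, π a = 0) (hs' : ∀ a ∈ s, D a = 0)
    {a : A} (ha : a ∈ Ideal.span s) : D a = 0 := by
  induction ha using Submodule.span_induction with
  | mem x hx => exact hs' x hx
  | zero => exact der_zero hD
  | add x y _ _ hx hy => rw [der_add hD, hx, hy, add_zero]
  | smul c x hx h =>
    have h1 : π x = 0 := by
      have h2 : Ideal.span s ≤ RingHom.ker π := Ideal.span_le.mpr hs
      exact h2 hx
    rw [smul_eq_mul, der_mul hD, h, h1, mul_zero, zero_mul, add_zero]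

end Der

section Exists

variable {O A k : Type*} [CommRing O] [IsLocalRing O] [CommRing A] [IsLocalRing A] [Field k]
  {φ : O →+* A} {π : A →+* k}

/-- **Existence of derivations.** -/
theorem exists_der (hπ : RingHom.ker π = maximalIdeal A) (hφ : ∀ o ∈ maximalIdeal O,
    φ o ∈ maximalIdeal A) (hres : ∀ a : A, ∃ o : O, a - φ o ∈ maximalIdeal A)
    {N : Ideal A} (hN : (maximalIdeal O).map φ ≤ N) {u : A} (hu : u ∈ maximalIdeal A)
    (huN : u ∉ N ⊔ maximalIdeal A ^ 2) :
    ∃ D ∈ DerSp φ π, (∀ n ∈ N, n ∈ maximalIdeal A → D n = 0) ∧ D u ≠ 0 := by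
  classical
  -- the residue field of `A` embeds in `k`
  let ι : ResidueField A →+* k := Ideal.Quotient.lift (maximalIdeal A) π (fun a ha => by
    rw [← hπ] at ha; exact ha)
  have hι : ∀ a, ι (residue A a) = π a := fun a => rfl
  -- the subspace of the cotangent space
  set S : Submodule (ResidueField A) (CotangentSpace A) :=
    Submodule.span (ResidueField A) {c | ∃ n : maximalIdeal A, (n : A) ∈ N ∧
      (maximalIdeal A).toCotangent n = c} with hS
  have huS : (maximalIdeal A).toCotangent ⟨u, hu⟩ ∉ S := by
    intro h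
    apply huN
    -- elements of `S` come from `N`
    have key : ∀ c ∈ S, ∃ n : maximalIdeal A, (n : A) ∈ N ∧ (maximalIdeal A).toCotangent n = c := by
      intro c hc
      induction hc using Submodule.span_induction with
      | mem x hx => exact hx
      | zero => exact ⟨0, N.zero_mem, map_zero _⟩
      | add x y _ _ hx hy =>
        obtain ⟨n, hn, rfl⟩ := hx
        obtain ⟨n', hn', rfl⟩ := hy
        exact ⟨n + n', N.add_mem hn hn', map_add _ _ _⟩
      | smul a x _ hx =>
        obtain ⟨n, hn, rfl⟩ := hx
        obtain ⟨b, rfl⟩ := residue_surjective a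
        exact ⟨b • n, N.mul_mem_left b hn, map_smul _ _ _⟩
    obtain ⟨n, hn, hn'⟩ := key _ h
    have h1 : (u : A) - n ∈ maximalIdeal A ^ 2 := by
      have h2 := (Ideal.toCotangent_eq (I := maximalIdeal A)).mp hn'.symm
      exact h2
    have h3 : u = n + (u - n) := by ring
    rw [h3]
    exact Submodule.add_mem_sup hn h1
  obtain ⟨f, hfu, hfS⟩ := Submodule.exists_le_ker_of_notMem huS
  -- the functional on `m_A`
  let F : maximalIdeal A → k := fun m => ι (f ((maximalIdeal A).toCotangent m))
  have hFadd : ∀ m m', F (m + m') = F m + F m' := by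
    intro m m'
    change ι (f _) = ι (f _) + ι (f _)
    rw [map_add, map_add, map_add]
  have hFsmul : ∀ (a : A) m, F (a • m) = π a * F m := by
    intro a m
    change ι (f _) = π a * ι (f _)
    have h1 : (maximalIdeal A).toCotangent (a • m) =
        (residue A a) • ((maximalIdeal A).toCotangent m : CotangentSpace A) := by
      rw [LinearMap.map_smul]
      rfl
    rw [h1, LinearMap.map_smul, smul_eq_mul, RingHom.map_mul, hι]
  have hFN : ∀ m : maximalIdeal A, (m : A) ∈ N → F m = 0 := by
    intro m hm
    change ι (f _) = 0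
    have h1 : f ((maximalIdeal A).toCotangent m) = 0 := hfS (Submodule.subset_span ⟨m, hm, rfl⟩)
    rw [h1, map_zero]
  choose o ho using hres
  let D : A → k := fun a => F ⟨a - φ (o a), ho a⟩
  -- independence of choices
  have hD : ∀ (a : A) (b : O) (h : a - φ b ∈ maximalIdeal A), D a = F ⟨a - φ b, h⟩ := by
    intro a b h
    have h1 : φ (o a - b) ∈ maximalIdeal A := by
      have h2 : φ (o a - b) = (a - φ b) - (a - φ (o a)) := by rw [map_sub]; ring
      rw [h2]
      exact Ideal.sub_mem _ h (ho a)
    have h3 : o a - b ∈ maximalIdeal O := by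
      by_contra h4
      have h5 : IsUnit (o a - b) := by
        rw [mem_maximalIdeal, mem_nonunits_iff, not_not] at h4
        exact h4
      exact (mem_maximalIdeal _).mp h1 (h5.map φ)
    have h6 : (⟨a - φ b, h⟩ : maximalIdeal A) = ⟨a - φ (o a), ho a⟩ + ⟨φ (o a - b), h1⟩ := by
      apply Subtype.ext
      change a - φ b = (a - φ (o a)) + φ (o a - b)
      rw [map_sub]; ring
    rw [h6, hFadd, hFN ⟨φ (o a - b), h1⟩ (hN (Ideal.mem_map_of_mem φ h3)), add_zero]
  refine ⟨D, mem_DerSp.mpr ⟨fun a b => ?_, fun a b => ?_, fun b => ?_⟩, fun n hn hnm => ?_, ?_⟩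
  · have h1 : a + b - φ (o a + o b) ∈ maximalIdeal A := by
      rw [map_add, add_sub_add_comm]
      exact Ideal.add_mem _ (ho a) (ho b)
    rw [hD (a + b) _ h1, hD a _ (ho a), hD b _ (ho b), ← hFadd]
    congr 1
    apply Subtype.ext
    change a + b - φ (o a + o b) = (a - φ (o a)) + (b - φ (o b))
    rw [map_add]; ring
  · have h0 : a * b - φ (o a * o b) = a * (b - φ (o b)) + φ (o b) * (a - φ (o a)) := by
      rw [map_mul]; ring
    have h1 : a * b - φ (o a * o b) ∈ maximalIdeal A := by
      rw [h0]
      exact Ideal.add_mem _ (Ideal.mul_mem_left _ _ (ho b)) (Ideal.mul_mem_left _ _ (ho a))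
    have h2 : (⟨a * b - φ (o a * o b), h1⟩ : maximalIdeal A) =
        a • ⟨b - φ (o b), ho b⟩ + φ (o b) • ⟨a - φ (o a), ho a⟩ := Subtype.ext h0
    have h3 : π (φ (o b)) = π b := by
      have h4 : b - φ (o b) ∈ RingHom.ker π := by rw [hπ]; exact ho b
      have h5 : π (b - φ (o b)) = 0 := h4
      rw [map_sub] at h5
      exact (sub_eq_zero.mp h5).symm
    rw [hD (a * b) _ h1, h2, hFadd, hFsmul, hFsmul, h3]
  · have h1 : φ b - φ b ∈ maximalIdeal A := by rw [sub_self]; exact Ideal.zero_mem _
    rw [hD (φ b) b h1]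
    apply hFN
    change φ b - φ b ∈ N
    rw [sub_self]
    exact N.zero_mem
  · have h1 : n - φ 0 ∈ maximalIdeal A := by rw [map_zero, sub_zero]; exact hnm
    rw [hD n 0 h1]
    apply hFN
    change n - φ 0 ∈ N
    rw [map_zero, sub_zero]
    exact hn
  · have h1 : u - φ 0 ∈ maximalIdeal A := by rw [map_zero, sub_zero]; exact hu
    rw [hD u 0 h1]
    have h2 : (⟨u - φ 0, h1⟩ : maximalIdeal A) = ⟨u, hu⟩ := by
      apply Subtype.ext
      change u - φ 0 = u
      rw [map_zero, sub_zero]
    rw [h2]
    change ι (f _) ≠ 0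
    rw [Ne, _root_.map_eq_zero]
    exact hfu

/-- Generators of the maximal ideal from derivations. -/
theorem maximalIdeal_eq_of_der [IsNoetherianRing A] (hπ : RingHom.ker π = maximalIdeal A)
    (hφ : ∀ o ∈ maximalIdeal O,
    φ o ∈ maximalIdeal A) (hres : ∀ a : A, ∃ o : O, a - φ o ∈ maximalIdeal A)
    {s : Set A} (hs : ∀ a ∈ s, a ∈ maximalIdeal A)
    (h : ∀ D ∈ DerSp φ π, (∀ a ∈ s, D a = 0) → D = 0) :
    maximalIdeal A = (maximalIdeal O).map φ ⊔ Ideal.span s := by
  set N := (maximalIdeal O).map φ ⊔ Ideal.span s with hN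
  have hle : N ≤ maximalIdeal A := by
    refine sup_le ?_ (Ideal.span_le.mpr hs)
    rw [Ideal.map_le_iff_le_comap]
    exact hφ
  refine le_antisymm ?_ hle
  refine Submodule.le_of_le_smul_of_le_jacobson_bot (I := maximalIdeal A)
    (IsNoetherian.noetherian _) (by rw [IsLocalRing.jacobson_eq_maximalIdeal ⊥ bot_ne_top]) ?_
  rw [smul_eq_mul, ← pow_two]
  intro u hu
  by_contra hcon
  obtain ⟨D, hD, hDN, hDu⟩ := exists_der (N := N) hπ hφ hres le_sup_left hu hcon
  apply hDu
  rw [h D hD fun a ha => hDN a ((le_sup_right : Ideal.span s ≤ N) (Ideal.subset_span ha))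
    (hs a ha)]
  rfl

end Exists

section Select

/-- Selection of `g` functionals separating the points of a space of dimension at most `g`. -/
theorem exists_separating {k X : Type*} [Field k] [AddCommGroup X] [Module k X]
    [FiniteDimensional k X] {J : Type*} (e : J → X →ₗ[k] k) (he : ∀ x, (∀ j, e j x = 0) → x = 0)
    (g : ℕ) (hg : Module.finrank k X ≤ g) [Nonempty J] :
    ∃ z : Fin g → J, ∀ x, (∀ i, e (z i) x = 0) → x = 0 := by
  classical
  induction g generalizing X with
  | zero =>
    haveI : Subsingleton X := Module.finrank_zero_iff.mp (Nat.le_zero.mp hg)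
    exact ⟨fun i => i.elim0, fun x _ => Subsingleton.elim _ _⟩
  | succ g ih =>
    by_cases hX : Subsingleton X
    · exact ⟨fun _ => Classical.arbitrary J, fun x _ => Subsingleton.elim _ _⟩
    · rw [not_subsingleton_iff_nontrivial] at hX
      obtain ⟨x, hx⟩ := exists_ne (0 : X)
      obtain ⟨j, hj⟩ : ∃ j, e j x ≠ 0 := by
        by_contra hcon
        push Not at hcon
        exact hx (he x hcon)
      have hlt : Module.finrank k (LinearMap.ker (e j)) ≤ g := by
        have h1 : LinearMap.ker (e j) ≠ ⊤ := by
          intro h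
          apply hj
          have : x ∈ LinearMap.ker (e j) := by rw [h]; trivial
          exact this
        have := Submodule.finrank_lt h1
        omega
      obtain ⟨z, hz⟩ := ih (X := LinearMap.ker (e j))
        (fun i => (e i).comp (LinearMap.ker (e j)).subtype)
        (fun y hy => Subtype.ext (he y.1 fun i => hy i)) hlt
      refine ⟨Fin.cons j z, fun y hy => ?_⟩
      have h0 : e j y = 0 := by
        have := hy 0
        rwa [Fin.cons_zero] at this
      have h1 := hz ⟨y, h0⟩ fun i => by
        have := hy i.succ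
        rwa [Fin.cons_succ] at this
      exact congrArg Subtype.val h1

end Select

section Surj

variable {O A k : Type*} [CommRing O] [IsLocalRing O] [CommRing A] [IsLocalRing A] [Field k]
  {φ : O →+* A} {π : A →+* k}

/-- derivations vanishing at a family of elements -/
def DerVan (φ : O →+* A) (π : A →+* k) {ι : Type*} (x : ι → A) : Submodule k (A → k) :=
  DerSp φ π ⊓ {
    carrier := {D | ∀ i, D (x i) = 0}
    zero_mem' := fun i => rfl
    add_mem' := fun {D E} h h' i => by rw [Pi.add_apply, h i, h' i, add_zero]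
    smul_mem' := fun c D h i => by rw [Pi.smul_apply, h i, smul_zero] }

theorem mem_DerVan {ι : Type*} {x : ι → A} {D : A → k} :
    D ∈ DerVan φ π x ↔ D ∈ DerSp φ π ∧ ∀ i, D (x i) = 0 := Iff.rfl

/-- A complete noetherian local ring is a quotient of a power series ring as soon as no derivation
vanishes at the given elements. -/
theorem evalHom_surjective_of_der [IsAdicComplete (maximalIdeal O) O] [IsNoetherianRing A]
    [IsAdicComplete (maximalIdeal A) A] (hπ : RingHom.ker π = maximalIdeal A)
    (hφ : ∀ o ∈ maximalIdeal O, φ o ∈ maximalIdeal A)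
    (hres : ∀ a : A, ∃ o : O, a - φ o ∈ maximalIdeal A)
    {ι : Type*} [Fintype ι] (x : ι → A) (hx : ∀ i, x i ∈ maximalIdeal A)
    (h : ∀ D ∈ DerVan φ π x, D = 0) :
    Function.Surjective (evalHom (maximalIdeal A) φ x hx) := by
  set f := evalHom (maximalIdeal A) φ x hx with hf
  have hmax : (maximalIdeal (MvPowerSeries ι O)).map f = maximalIdeal A := by
    apply le_antisymm
    · rw [Ideal.map_le_iff_le_comap]
      intro F hF
      exact map_maximalIdeal_le (ψ := f) (fun b hb => by rw [hf, evalHom_C]; exact hφ b hb)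
        (fun i => by rw [hf, evalHom_X]; exact hx i) hF
    · have h1 := maximalIdeal_eq_of_der (s := Set.range x) hπ hφ hres
        (by rintro _ ⟨i, rfl⟩; exact hx i)
        (fun D hD hD' => h D ⟨hD, fun i => hD' _ ⟨i, rfl⟩⟩)
      rw [h1]
      refine sup_le ?_ (Ideal.span_le.mpr ?_)
      · rw [Ideal.map_le_iff_le_comap]
        intro o ho
        rw [Ideal.mem_comap]
        have h2 : φ o = f (C o) := by rw [hf, evalHom_C]
        rw [h2]
        refine Ideal.mem_map_of_mem f ?_
        rw [mem_maximalIdeal_iff, constantCoeff_C]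
        exact ho
      · rintro _ ⟨i, rfl⟩
        have h2 : x i = f (X i) := by rw [hf, evalHom_X]
        rw [h2]
        refine Ideal.mem_map_of_mem f ?_
        rw [mem_maximalIdeal_iff, constantCoeff_X]
        exact Ideal.zero_mem _
  haveI : IsHausdorff ((maximalIdeal (MvPowerSeries ι O)).map f) A := by
    rw [hmax]; infer_instance
  refine surjective_of_mk_map_comp_surjective (I := maximalIdeal (MvPowerSeries ι O)) f ?_
  intro y
  obtain ⟨a, rfl⟩ := Ideal.Quotient.mk_surjective y
  obtain ⟨o, ho⟩ := hres a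
  refine ⟨C o, ?_⟩
  rw [RingHom.comp_apply, hf, evalHom_C, eq_comm, Ideal.Quotient.eq, ← hf, hmax]
  exact ho

/-- **Generators.**  If the space of derivations vanishing at the `x i` has dimension at most `g`,
then `g` further elements suffice. -/
theorem exists_evalHom_surjective [IsAdicComplete (maximalIdeal O) O] [IsNoetherianRing A]
    [IsAdicComplete (maximalIdeal A) A] (hπ : RingHom.ker π = maximalIdeal A)
    (hφ : ∀ o ∈ maximalIdeal O, φ o ∈ maximalIdeal A)
    (hres : ∀ a : A, ∃ o : O, a - φ o ∈ maximalIdeal A)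
    {ι : Type*} [Fintype ι] (x : ι → A) (hx : ∀ i, x i ∈ maximalIdeal A)
    [FiniteDimensional k (DerVan φ π x)] (g : ℕ) (hg : Module.finrank k (DerVan φ π x) ≤ g) :
    ∃ z : Fin g → A, ∃ hz : ∀ j, z j ∈ maximalIdeal A,
      Function.Surjective (evalHom (maximalIdeal A) φ (Sum.elim x z)
        (fun i => by rcases i with i | i; exacts [hx i, hz i])) := by
  haveI : Nonempty (maximalIdeal A) := ⟨0⟩
  obtain ⟨z, hz⟩ := exists_separating (X := DerVan φ π x) (J := maximalIdeal A)
    (fun a => { toFun := fun D => D.1 a.1, map_add' := fun _ _ => rfl, map_smul' := fun _ _ => rfl })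
    (fun D hD => by
      apply Subtype.ext
      funext a
      obtain ⟨o, ho⟩ := hres a
      have h1 : a = φ o + (a - φ o) := by ring
      rw [h1, der_add D.2.1, der_cst D.2.1, zero_add]
      exact hD ⟨_, ho⟩) g hg
  refine ⟨fun j => (z j).1, fun j => (z j).2, ?_⟩
  refine evalHom_surjective_of_der hπ hφ hres _ _ ?_
  rintro D ⟨hD, hD'⟩
  have h1 := hz ⟨D, hD, fun i => hD' (Sum.inl i)⟩ fun j => hD' (Sum.inr j)
  exact congrArg Subtype.val h1

end Surj

end Fermat.Agent.RT
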