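import Fermat.Agent.RT.TWSL2

set_option autoImplicit false

/-!
# Vanishing of `H¹(ρ(G), ad⁰(1))` for representations over `𝔽_p`
-/

open Matrix
open Fermat.Agent.Coh

namespace Fermat.Agent.RT

section

variable {p : ℕ} [hp : Fact p.Prime] {Γ : Type*} [Group Γ] {ρ₀ : Γ →* GL (Fin 2) (ZMod p)}
  {k : Type*} [Field k] [Algebra (ZMod p) k]

instance finiteIndex_ker_sub (N : Subgroup Γ) : (ρ₀.ker.subgroupOf N).FiniteIndex := by
  have : ρ₀.ker.FiniteIndex := Subgroup.finiteIndex_ker ρ₀
  infer_instance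

include hp in
theorem charP_of_algebra : CharP k p := charP_of_injective_algebraMap
  (algebraMap (ZMod p) k).injective p

variable (k) in
theorem relIndex_cast_ne_zero {N : Subgroup Γ}
    (h : ∀ n ∈ N, ρ₀ n ^ p = 1 → ρ₀ n = 1) : ((ρ₀.ker.relIndex N : ℕ) : k) ≠ 0 := by
  have := charP_of_algebra (p := p) (k := k)
  rw [Ne, CharP.cast_eq_zero_iff k p, Subgroup.relIndex_ker]
  intro hdvd
  obtain ⟨x, hx⟩ := exists_prime_orderOf_dvd_card' p hdvd
  obtain ⟨n, hn, hn'⟩ := x.2
  have h0 : x ^ p = 1 := orderOf_dvd_iff_pow_eq_one.mp (dvd_of_eq hx)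
  have h1 : ρ₀ n ^ p = 1 := by
    rw [hn', ← Subgroup.coe_pow, h0, Subgroup.coe_one]
  have h2 := h n hn h1
  have h3 : x = 1 := Subtype.ext (by rw [← hn', h2, Subgroup.coe_one])
  rw [h3, orderOf_one] at hx
  exact hp.out.one_lt.ne hx

theorem eq_one_of_coprime_pow {G : Type*} [Group G] {x : G} {m : ℕ} (hm : ¬ p ∣ m)
    (h : x ^ m = 1) (h' : x ^ p = 1) : x = 1 := by
  have h1 := orderOf_dvd_of_pow_eq_one h
  have h2 := orderOf_dvd_of_pow_eq_one h'
  rw [Nat.dvd_prime hp.out] at h2
  rcases h2 with h2 | h2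
  · exact orderOf_eq_one_iff.mp h2
  · rw [h2] at h1
    exact absurd h1 hm

variable {χ : Γ →* kˣ}

theorem bc_eq_one_iff {t : Γ} : bc k ρ₀ t = 1 ↔ ρ₀ t = 1 := by
  constructor
  · intro h
    have h1 := congrArg Units.val h
    rw [bc_coe, Units.val_one] at h1
    apply Units.ext
    rw [Units.val_one]
    ext i j
    have h2 := congrFun (congrFun h1 i) j
    rw [Matrix.map_apply] at h2
    apply (algebraMap (ZMod p) k).injective
    rw [h2, Matrix.one_apply, Matrix.one_apply]
    split <;> simp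
  · intro h
    apply Units.ext
    rw [bc_coe, h, Units.val_one, Units.val_one]
    simp

/-- the quaternion group in `GL₂(𝔽₃)` -/
def IsQ (M : Matrix (Fin 2) (Fin 2) (ZMod 3)) : Prop :=
  M.det = 1 ∧ (M.trace = 0 ∨ M = 1 ∨ M = -1)

theorem isQ_aux : ∀ a b c a' b' c' : ZMod 3, -(a * a) - b * c = 1 → -(a' * a') - b' * c' = 1 →
    ((a * a' + b * c') + (c * b' + a * a') = 0 ∨
      (a * a' + b * c' = 1 ∧ a * b' - b * a' = 0 ∧ c * a' - a * c' = 0 ∧ c * b' + a * a' = 1) ∨
      (a * a' + b * c' = -1 ∧ a * b' - b * a' = 0 ∧ c * a' - a * c' = 0 ∧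
        c * b' + a * a' = -1)) := by
  decide

theorem IsQ.mul {M M' : Matrix (Fin 2) (Fin 2) (ZMod 3)} (h : IsQ M) (h' : IsQ M') :
    IsQ (M * M') := by
  obtain ⟨hd, ht⟩ := h
  obtain ⟨hd', ht'⟩ := h'
  refine ⟨by rw [det_mul, hd, hd', one_mul], ?_⟩
  rcases ht with ht | rfl | rfl
  · rcases ht' with ht' | rfl | rfl
    · rw [trace_fin_two] at ht ht'
      rw [det_fin_two] at hd hd'
      have e1 : M 1 1 = - M 0 0 := by linear_combination ht
      have e2 : M' 1 1 = - M' 0 0 := by linear_combination ht'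
      rw [e1] at hd
      rw [e2] at hd'
      rcases isQ_aux (M 0 0) (M 0 1) (M 1 0) (M' 0 0) (M' 0 1) (M' 1 0)
        (by linear_combination hd) (by linear_combination hd') with h | ⟨h1, h2, h3, h4⟩ |
        ⟨h1, h2, h3, h4⟩
      · left
        rw [trace_fin_two, Matrix.mul_apply, Matrix.mul_apply, Fin.sum_univ_two, Fin.sum_univ_two,
          e1, e2]
        linear_combination h
      · right; left
        ext i j
        fin_cases i <;> fin_cases j
        · simp [Matrix.mul_apply, Fin.sum_univ_two]; linear_combination h1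
        · simp [Matrix.mul_apply, Fin.sum_univ_two, e1, e2]; linear_combination h2
        · simp [Matrix.mul_apply, Fin.sum_univ_two, e1, e2]; linear_combination h3
        · simp [Matrix.mul_apply, Fin.sum_univ_two, e1, e2]; linear_combination h4
      · right; right
        ext i j
        fin_cases i <;> fin_cases j
        · simp [Matrix.mul_apply, Fin.sum_univ_two]; linear_combination h1
        · simp [Matrix.mul_apply, Fin.sum_univ_two, e1, e2]; linear_combination h2
        · simp [Matrix.mul_apply, Fin.sum_univ_two, e1, e2]; linear_combination h3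
        · simp [Matrix.mul_apply, Fin.sum_univ_two, e1, e2]; linear_combination h4
    · left; rw [mul_one, ht]
    · left; rw [mul_neg, mul_one, trace_neg, ht, neg_zero]
  · rw [one_mul]
    exact ht'
  · rw [neg_mul, one_mul]
    rcases ht' with ht' | rfl | rfl
    · left; rw [trace_neg, ht', neg_zero]
    · right; right; rfl
    · right; left; rw [neg_neg]

theorem IsQ.pow_four {M : Matrix (Fin 2) (Fin 2) (ZMod 3)} (h : IsQ M) : M ^ 4 = 1 := by
  obtain ⟨hd, ht | rfl | rfl⟩ := h
  · have h2 : M * M = -1 := by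
      rw [trace_fin_two] at ht
      rw [det_fin_two] at hd
      have e1 : M 1 1 = - M 0 0 := by linear_combination ht
      rw [e1] at hd
      ext i j
      fin_cases i <;> fin_cases j
      · simp [Matrix.mul_apply, Fin.sum_univ_two]; linear_combination -hd
      · simp [Matrix.mul_apply, Fin.sum_univ_two, e1]; ring
      · simp [Matrix.mul_apply, Fin.sum_univ_two, e1]; ring
      · simp [Matrix.mul_apply, Fin.sum_univ_two, e1]; linear_combination -hd
    rw [show (4 : ℕ) = 2 * 2 from rfl, pow_mul, pow_two M, h2]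
    simp
  · simp
  · rw [Even.neg_one_pow (by decide)]

end

section

variable {Γ : Type*} [Group Γ] {ρ₀ : Γ →* GL (Fin 2) (ZMod 3)}

theorem isQ_one : IsQ (1 : Matrix (Fin 2) (Fin 2) (ZMod 3)) := ⟨det_one, Or.inr (Or.inl rfl)⟩

/-- the preimage of the quaternion group -/
def qSub (ρ₀ : Γ →* GL (Fin 2) (ZMod 3)) : Subgroup Γ where
  carrier := {g | IsQ (ρ₀ g).val}
  mul_mem' := by
    intro a b ha hb
    change IsQ (ρ₀ (a * b)).val
    rw [map_mul, Units.val_mul]
    exact ha.mul hb
  one_mem' := by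
    change IsQ (ρ₀ 1).val
    rw [map_one, Units.val_one]
    exact isQ_one
  inv_mem' := by
    intro a ha
    change IsQ (ρ₀ a⁻¹).val
    have h1 : (ρ₀ a)⁻¹ = (ρ₀ a) ^ 3 := by
      rw [inv_eq_iff_mul_eq_one, ← pow_succ']
      apply Units.ext
      rw [Units.val_pow_eq_pow_val, Units.val_one]
      exact IsQ.pow_four ha
    rw [map_inv, h1, Units.val_pow_eq_pow_val, pow_succ, pow_two]
    exact (ha.mul ha).mul ha

theorem mem_qSub {g : Γ} : g ∈ qSub ρ₀ ↔ IsQ (ρ₀ g).val := Iff.rfl

instance : (qSub ρ₀).Normal := ⟨by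
  intro n hn g
  rw [mem_qSub] at hn ⊢
  obtain ⟨hd, ht⟩ := hn
  have h5 : (ρ₀ (g * n * g⁻¹)).val = (ρ₀ g).val * (ρ₀ n).val * (ρ₀ g⁻¹).val := by
    rw [map_mul, map_mul, Units.val_mul, Units.val_mul]
  have h6 : (ρ₀ g⁻¹).val * (ρ₀ g).val = 1 := inv_mul_coe ρ₀ g
  have h7 : (ρ₀ g).val * (ρ₀ g⁻¹).val = 1 := mul_inv_coe ρ₀ g
  rw [h5]
  refine ⟨?_, ?_⟩
  · rw [det_mul_comm, ← mul_assoc, h6, one_mul, hd]
  · rcases ht with ht | ht | ht
    · left
      rw [trace_mul_comm, ← mul_assoc, h6, one_mul, ht]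
    · right; left
      rw [ht, mul_one, h7]
    · right; right
      rw [ht, mul_neg, mul_one, neg_mul, h7]⟩

theorem ker_le_qSub : ρ₀.ker ≤ qSub ρ₀ := by
  intro g hg
  rw [mem_qSub, MonoidHom.mem_ker.mp hg, Units.val_one]
  exact isQ_one

end

section Van

variable {p : ℕ} [hp : Fact p.Prime] {Γ : Type*} [Group Γ] {ρ₀ : Γ →* GL (Fin 2) (ZMod p)}
  {k : Type*} [Field k] [Algebra (ZMod p) k] {χ : Γ →* kˣ}

theorem det_aux1 : (0 * 0 - 1 * -1 : ZMod 3) = 1 := by decide

theorem det_aux2 : (1 * -1 - 1 * 1 : ZMod 3) = 1 := by decide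

/-- **Vanishing of `H¹(ρ(G), ad⁰(1))`.** -/
theorem hvan_of (hp2 : p ≠ 2) (hirr : ∀ v, ¬ ComEig ρ₀ ⊤ v)
    (hdet : ∀ a : ZMod p, a ≠ 0 → ∃ g, (ρ₀ g).val.det = a)
    (hχ : ∀ g, (χ g : k) = algebraMap (ZMod p) k (ρ₀ g).val.det)
    {c : Γ → sl2 k} (hc : ∀ g h, c (g * h) = adRep (bc k ρ₀) χ g (c h) + c g)
    (hker : ∀ t, bc k ρ₀ t = 1 → c t = 0) : c ∈ B1 (adRep (bc k ρ₀) χ) := by
  have hker' : ∀ t ∈ ρ₀.ker, c t = 0 := fun t ht => hker t (bc_eq_one_iff.mpr ht)
  have h2k : (2 : k) ≠ 0 := by
    have := charP_of_algebra (p := p) (k := k)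
    intro h
    have h1 : ((2 : ℕ) : k) = 0 := by exact_mod_cast h
    rw [CharP.cast_eq_zero_iff k p] at h1
    exact hp2 ((Nat.prime_dvd_prime_iff_eq hp.out Nat.prime_two).mp h1)
  by_cases hord : ∃ g, ρ₀ g ^ p = 1 ∧ ρ₀ g ≠ 1
  · obtain ⟨g₁, hg₁, hg₁'⟩ := hord
    have hSL : ∀ M : GL (Fin 2) (ZMod p), M.val.det = 1 → ∃ g, ρ₀ g = M := fun M hM =>
      sl2_le_of_order hirr hg₁ hg₁' hM
    by_cases hp3 : p = 3
    · -- `p = 3`
      subst hp3
      refine mem_B1_of_normal (N := qSub ρ₀) (M := ρ₀.ker) ker_le_qSub ?_ ?_ hc hker'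
      · apply relIndex_cast_ne_zero k
        intro n hn h3
        refine eq_one_of_coprime_pow (p := 3) (m := 4) (by decide) ?_ h3
        apply Units.ext
        rw [Units.val_pow_eq_pow_val, Units.val_one]
        exact IsQ.pow_four hn
      · intro X hX
        have hχ1 : ∀ n, (ρ₀ n).val.det = 1 → χ n = 1 := by
          intro n hn
          apply Units.ext
          rw [hχ, hn, map_one, Units.val_one]
        -- commutation with elements of the quaternion group
        have hcom : ∀ n, IsQ (ρ₀ n).val →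
            (ρ₀ n).val.map (algebraMap (ZMod 3) k) * X.1 =
              X.1 * (ρ₀ n).val.map (algebraMap (ZMod 3) k) := by
          intro n hn
          have h1 := congrArg Subtype.val (hX n hn)
          rw [adRep_coe, hχ1 n hn.1, Units.val_one, one_smul] at h1
          rw [← bc_coe]
          calc (bc k ρ₀ n).val * X.1 = (bc k ρ₀ n).val * X.1 *
                ((bc k ρ₀ n⁻¹).val * (bc k ρ₀ n).val) := by rw [inv_mul_coe, mul_one]
            _ = X.1 * (bc k ρ₀ n).val := by rw [← mul_assoc, h1]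
        obtain ⟨n₁, hn₁⟩ := hSL (Matrix.GeneralLinearGroup.mkOfDetNeZero !![0, 1; -1, 0]
          (by rw [det_fin_two_of, det_aux1]; exact one_ne_zero)) (by
            change (!![0, 1; -1, 0] : Matrix (Fin 2) (Fin 2) (ZMod 3)).det = 1
            rw [det_fin_two_of, det_aux1])
        obtain ⟨n₂, hn₂⟩ := hSL (Matrix.GeneralLinearGroup.mkOfDetNeZero !![1, 1; 1, -1]
          (by rw [det_fin_two_of, det_aux2]; exact one_ne_zero)) (by
            change (!![1, 1; 1, -1] : Matrix (Fin 2) (Fin 2) (ZMod 3)).det = 1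
            rw [det_fin_two_of, det_aux2])
        have hv₁ : (ρ₀ n₁).val = !![0, 1; -1, 0] := by rw [hn₁]; rfl
        have hv₂ : (ρ₀ n₂).val = !![1, 1; 1, -1] := by rw [hn₂]; rfl
        have q₁ : IsQ (ρ₀ n₁).val := by
          rw [hv₁]
          refine ⟨by rw [det_fin_two_of, det_aux1], Or.inl (by rw [trace_fin_two]; simp)⟩
        have q₂ : IsQ (ρ₀ n₂).val := by
          rw [hv₂]
          refine ⟨by rw [det_fin_two_of, det_aux2], Or.inl (by rw [trace_fin_two]; simp)⟩
        have c₁ := hcom n₁ q₁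
        have c₂ := hcom n₂ q₂
        rw [hv₁] at c₁
        rw [hv₂] at c₂
        have htr := mem_sl2.mp X.2
        rw [trace_fin_two] at htr
        have e00 := congrFun (congrFun c₁ 0) 0
        have e01 := congrFun (congrFun c₁ 0) 1
        have f00 := congrFun (congrFun c₂ 0) 0
        simp [Matrix.mul_apply, Fin.sum_univ_two] at e00 e01 f00
        -- `e00 : X 1 0 = - X 0 1`, `e01 : X 1 1 = X 0 0`, `f00 : X 1 0 = X 0 1`
        have hb : X.1 0 1 = 0 := by
          have : 2 * X.1 0 1 = 0 := by linear_combination -f00 + e00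
          exact (mul_eq_zero.mp this).resolve_left h2k
        have ha : X.1 0 0 = 0 := by
          have : 2 * X.1 0 0 = 0 := by linear_combination htr - e01
          exact (mul_eq_zero.mp this).resolve_left h2k
        apply Subtype.ext
        ext i j
        fin_cases i <;> fin_cases j
        · exact ha
        · exact hb
        · change X.1 1 0 = 0
          rw [e00, hb, neg_zero]
        · change X.1 1 1 = 0
          rw [e01, ha]
    · -- `p ≥ 5`
      refine mem_B1_of_normal (N := (Subgroup.center (GL (Fin 2) (ZMod p))).comap ρ₀)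
        (M := ρ₀.ker) ?_ ?_ ?_ hc hker'
      · intro g hg
        rw [Subgroup.mem_comap, MonoidHom.mem_ker.mp hg]
        exact Subgroup.one_mem _
      · apply relIndex_cast_ne_zero k
        intro n hn h3
        refine eq_one_of_coprime_pow (p := p) (m := p - 1) ?_ ?_ h3
        · intro h
          have := Nat.le_of_dvd (Nat.sub_pos_of_lt hp.out.one_lt) h
          have := hp.out.one_lt
          omega
        · rw [Subgroup.mem_comap, Matrix.GeneralLinearGroup.mem_center_iff_val_mem_range_scalar] at hn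
          obtain ⟨a, ha⟩ := hn
          apply Units.ext
          rw [Units.val_pow_eq_pow_val, Units.val_one, ← ha, ← map_pow, ZMod.pow_card_sub_one_eq_one,
            map_one]
          rintro rfl
          have h4 : (ρ₀ n).val.det = 0 := by rw [← ha, map_zero, det_zero]
          exact ((Matrix.isUnit_iff_isUnit_det _).mp (ρ₀ n).isUnit).ne_zero h4
      · intro X hX
        have h20 : (2 : ZMod p) ≠ 0 := by
          intro h
          have h1 : ((2 : ℕ) : ZMod p) = 0 := by exact_mod_cast h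
          rw [ZMod.natCast_eq_zero_iff] at h1
          exact hp2 ((Nat.prime_dvd_prime_iff_eq hp.out Nat.prime_two).mp h1)
        obtain ⟨g', hg'⟩ := hdet (2 * 2) (mul_ne_zero h20 h20)
        set S2 : GL (Fin 2) (ZMod p) := Matrix.GeneralLinearGroup.mkOfDetNeZero
          (Matrix.scalar (Fin 2) (2 : ZMod p)) (by
            rw [Matrix.scalar_apply, det_diagonal, Fin.prod_univ_two]
            exact mul_ne_zero h20 h20) with hS2
        have hS2v : S2.val = Matrix.scalar (Fin 2) (2 : ZMod p) := rfl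
        have hS2d : S2.val.det = 2 * 2 := by
          rw [hS2v, Matrix.scalar_apply, det_diagonal, Fin.prod_univ_two]
        obtain ⟨g'', hg''⟩ := hSL (S2 * (ρ₀ g')⁻¹) (by
          rw [Units.val_mul, det_mul, hS2d, ← hg', ← det_mul, ← Units.val_mul, mul_inv_cancel,
            Units.val_one, det_one])
        have hg2 : ρ₀ (g'' * g') = S2 := by rw [map_mul, hg'', inv_mul_cancel_right]
        have h1 := congrArg Subtype.val (hX (g'' * g') (by
          rw [Subgroup.mem_comap, hg2, Matrix.GeneralLinearGroup.mem_center_iff_val_mem_range_scalar]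
          exact ⟨2, rfl⟩))
        rw [adRep_coe, hχ, hg2, hS2d] at h1
        have h5 : (bc k ρ₀ (g'' * g')).val = Matrix.scalar (Fin 2) (2 : k) := by
          rw [bc_coe, hg2, hS2v]
          ext i j
          rw [Matrix.map_apply, Matrix.scalar_apply, Matrix.scalar_apply]
          by_cases hij : i = j
          · rw [hij, Matrix.diagonal_apply_eq, Matrix.diagonal_apply_eq, map_ofNat]
          · rw [Matrix.diagonal_apply_ne _ hij, Matrix.diagonal_apply_ne _ hij, map_zero]
        have h6 : (bc k ρ₀ (g'' * g')).val * X.1 * (bc k ρ₀ (g'' * g')⁻¹).val = X.1 := by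
          have h7 : (bc k ρ₀ (g'' * g')).val * X.1 = X.1 * (bc k ρ₀ (g'' * g')).val := by
            rw [h5]
            exact (Matrix.scalar_commute (2 : k) (fun _ => mul_comm _ _) X.1).eq
          rw [h7, mul_assoc, mul_inv_coe, mul_one]
        rw [h6] at h1
        have h3 : (3 : k) • X.1 = 0 := by
          have h8 : (3 : k) = algebraMap (ZMod p) k (2 * 2) - 1 := by
            rw [map_mul, map_ofNat]
            norm_num
          rw [h8, sub_smul, one_smul, h1, sub_self]
        have h3k : (3 : k) ≠ 0 := by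
          have := charP_of_algebra (p := p) (k := k)
          intro h
          have h1 : ((3 : ℕ) : k) = 0 := by exact_mod_cast h
          rw [CharP.cast_eq_zero_iff k p] at h1
          exact hp3 ((Nat.prime_dvd_prime_iff_eq hp.out Nat.prime_three).mp h1)
        exact Subtype.ext ((smul_eq_zero.mp h3).resolve_left h3k)
  · push Not at hord
    obtain ⟨Y, hY⟩ := exists_coboundary_on (k := k) (N := ⊤) (M := ρ₀.ker) (τ := adRep (bc k ρ₀) χ)
      le_top (relIndex_cast_ne_zero k fun n _ h => hord n h) hc hker'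
    exact mem_B1.mpr ⟨Y, fun g => hY g trivial⟩

end Van

end Fermat.Agent.RT
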