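import Fermat.Agent.RT.FramedGen
import Fermat.Agent.RT.TWVan

set_option autoImplicit false

/-!
# Taylor–Wiles primes: the numerical statement, from the Greenberg–Wiles inequality
-/

open Matrix IsLocalRing
open scoped Pointwise

namespace Fermat.Agent.RT

open Fermat.Agent.GCFT Fermat.Agent.Coh Fermat.Agent.ESCore

/-- The field of algebraic numbers. -/
local notation "Qb" => AlgebraicClosure ℚ
/-- The absolute Galois group. -/
local notation "GQ" => (AlgebraicClosure ℚ ≃ₐ[ℚ] AlgebraicClosure ℚ)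

variable {k : Type*} [Field k]

/-- trace zero matrices: the anticommutator is scalar -/
theorem anticomm_scalar {X N : Matrix (Fin 2) (Fin 2) k} (hX : X.trace = 0) (hN : N.trace = 0) :
    X * N + N * X = (X * N).trace • (1 : Matrix (Fin 2) (Fin 2) k) := by
  rw [trace_fin_two] at hX hN
  have e1 : X 1 1 = - X 0 0 := by linear_combination hX
  have e2 : N 1 1 = - N 0 0 := by linear_combination hN
  ext i j
  fin_cases i <;> fin_cases j <;>
    simp [Matrix.mul_apply, Fin.sum_univ_two, trace_fin_two, e1, e2] <;> ring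

/-- the commutant of a regular matrix in the trace zero matrices is a line -/
theorem comm_regular (h2 : (2 : k) ≠ 0) {M : Matrix (Fin 2) (Fin 2) k} (hdet : M.det = 1)
    (htr : M.trace ^ 2 ≠ 4) {X : Matrix (Fin 2) (Fin 2) k} (hX : X.trace = 0)
    (h : M * X = X * M) : ∃ c : k, X = c • (M - (M.trace / 2) • (1 : Matrix (Fin 2) (Fin 2) k)) := by
  set N := M - (M.trace / 2) • (1 : Matrix (Fin 2) (Fin 2) k) with hN
  have hNtr : N.trace = 0 := by
    rw [hN, trace_sub, trace_smul, trace_one, Fintype.card_fin, smul_eq_mul]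
    push_cast
    field_simp
    ring
  have hcomm : N * X = X * N := by
    rw [hN, sub_mul, mul_sub, h, smul_mul_assoc, mul_smul_comm, one_mul, mul_one]
  have hNN : N * N = (M.trace ^ 2 / 4 - 1) • (1 : Matrix (Fin 2) (Fin 2) k) := by
    have h4 : (4 : k) ≠ 0 := by
      have : (4 : k) = 2 * 2 := by norm_num
      rw [this]
      exact mul_ne_zero h2 h2
    have hMM : M * M = M.trace • M - 1 := by
      rw [det_fin_two] at hdet
      ext a b
      rw [Matrix.sub_apply, Matrix.smul_apply, smul_eq_mul, trace_fin_two]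
      fin_cases a <;> fin_cases b
      · simp [Matrix.mul_apply, Fin.sum_univ_two]; linear_combination -hdet
      · simp [Matrix.mul_apply, Fin.sum_univ_two]; ring
      · simp [Matrix.mul_apply, Fin.sum_univ_two]; ring
      · simp [Matrix.mul_apply, Fin.sum_univ_two]; linear_combination -hdet
    rw [hN, sub_mul, mul_sub, mul_sub, hMM, smul_mul_assoc, mul_smul_comm, one_mul, mul_one,
      smul_mul_assoc, one_mul, smul_smul]
    ext a b
    simp only [Matrix.sub_apply, Matrix.smul_apply, smul_eq_mul, Matrix.one_apply]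
    split <;> (field_simp; ring)
  have h1 := anticomm_scalar hX hNtr
  rw [hcomm, ← two_smul k (X * N)] at h1
  have h3 : (M.trace ^ 2 / 4 - 1) ≠ 0 := by
    intro h0
    apply htr
    have h4 : (4 : k) ≠ 0 := by
      have : (4 : k) = 2 * 2 := by norm_num
      rw [this]
      exact mul_ne_zero h2 h2
    field_simp at h0
    linear_combination h0
  have h5 : (2 * (M.trace ^ 2 / 4 - 1)) • X = (X * N).trace • N := by
    have h6 : ((2 : k) • (X * N)) * N = ((X * N).trace • (1 : Matrix (Fin 2) (Fin 2) k)) * N := by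
      rw [h1]
    rw [smul_mul_assoc, mul_assoc, hNN, mul_smul_comm, mul_one, smul_smul, smul_mul_assoc,
      one_mul] at h6
    exact h6
  refine ⟨(2 * (M.trace ^ 2 / 4 - 1))⁻¹ * (X * N).trace, ?_⟩
  rw [mul_smul, ← h5, smul_smul, inv_mul_cancel₀ (mul_ne_zero h2 h3), one_smul]

variable {ρ : GQ →* GL (Fin 2) k} {χ : GQ →* kˣ} {p n : ℕ}

/-- The local invariants at a Taylor–Wiles prime are at most one dimensional. -/
theorem finrank_H0_le_one (h2 : (2 : k) ≠ 0) (hρ : IsOpen (ρ.ker : Set GQ))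
    (hχ : ∀ g, (χ g : k) = (ρ g).val.det) {q : Nat.Primes} (hq : IsTW ρ p n q) :
    Module.finrank k (H0 ((adRep ρ χ).comp (rl q))) ≤ 1 := by
  obtain ⟨φ, hφ⟩ := GaloisBasics.exists_isFrobeniusAt q.2 _ (nonunits_padicPlace q)
  obtain ⟨hdet, htr⟩ := hq.frob _ (nonunits_padicPlace q) φ hφ
  obtain ⟨δ, u, hu, hδ⟩ := exists_rl_mul hρ hφ.mem_decompositionSubgroup
  have hρφ : ρ (rl q δ) = ρ φ := by
    rw [hδ, map_mul, MonoidHom.mem_ker.mp hu, mul_one]
  set M := (ρ φ).val with hM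
  set N : sl2 k := ⟨M - (M.trace / 2) • (1 : Matrix (Fin 2) (Fin 2) k), by
    rw [mem_sl2, trace_sub, trace_smul, trace_one, Fintype.card_fin, smul_eq_mul]
    push_cast
    field_simp
    ring⟩ with hN
  have hle : H0 ((adRep ρ χ).comp (rl q)) ≤ Submodule.span k {N} := by
    intro X hX
    rw [mem_H0] at hX
    have h1 := congrArg Subtype.val (hX δ)
    change (adRep ρ χ (rl q δ) X).1 = X.1 at h1
    rw [adRep_coe, hχ, hρφ, hdet, one_smul, map_inv, hρφ] at h1
    have hcom : M * X.1 = X.1 * M := by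
      have h3 : ((ρ φ)⁻¹ : GL (Fin 2) k).val * M = 1 := by
        rw [hM, ← Units.val_mul, inv_mul_cancel, Units.val_one]
      calc M * X.1 = M * X.1 * (((ρ φ)⁻¹ : GL (Fin 2) k).val * M) := by rw [h3, mul_one]
        _ = X.1 * M := by rw [← mul_assoc, h1]
    obtain ⟨c, hc⟩ := comm_regular h2 hdet htr (mem_sl2.mp X.2) hcom
    rw [Submodule.mem_span_singleton]
    exact ⟨c, Subtype.ext hc.symm⟩
  refine (Submodule.finrank_mono hle).trans ?_
  refine (finrank_span_le_card ({N} : Set (sl2 k))).trans ?_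
  simp

/-- The Greenberg–Wiles inequality for `ad⁰`, with free conditions at `Q` and zero conditions
at `T`. -/
def GWineq (ρ : GQ →* GL (Fin 2) k) (χ : GQ →* kˣ) (T Q : Finset Nat.Primes) : Prop :=
  FiniteDimensional k (selK (T ∪ Q) (ad0 ρ) (fun v : T => v.1)) ∧
  Module.finrank k (selK (T ∪ Q) (ad0 ρ) (fun v : T => v.1)) +
    ∑ v : T, Module.finrank k (H0 ((ad0 ρ).comp (rl v.1))) + 1 ≤
      ∑ q ∈ Q, Module.finrank k (H0 ((adRep ρ χ).comp (rl q)))

/-- **Taylor–Wiles primes**, numerical form. -/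
theorem exists_TW_numerical [Fact p.Prime] (h2 : (2 : k) ≠ 0)
    (hdet : ∀ g, cyc p g = 1 → (ρ g).val.det = 1) (hχ : ∀ g, (χ g : k) = (ρ g).val.det)
    {T : Finset Nat.Primes} (hT : ρ.ker ∈ famS T)
    (hvan : ∀ c ∈ Z1 (famS T) (adRep ρ χ), (∀ t, ρ t = 1 → c t = 0) → c ∈ B1 (adRep ρ χ))
    [FiniteDimensional k (H1 (famS T) (adRep ρ χ))]
    (hGW : ∀ Q : Finset Nat.Primes, Disjoint Q T →
      (∀ z ∈ Z1 (famS (T ∪ Q)) (adRep ρ χ), (∀ q ∈ Q, LocTriv q (adRep ρ χ) z) →
        z ∈ B1 (adRep ρ χ)) → GWineq ρ χ T Q)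
    {r : ℕ} (hr : Module.finrank k (H1 (famS T) (adRep ρ χ)) ≤ r) (hn : 0 < n)
    (hspan : Submodule.span k (imgSet ρ (cyc (p ^ n)).ker) = ⊤) (bad : Finset Nat.Primes) :
    ∃ Q : Finset Nat.Primes, Q.card = r ∧ Disjoint Q (T ∪ bad) ∧ (∀ q ∈ Q, IsTW ρ p n q) ∧
      FiniteDimensional k (selK (T ∪ Q) (ad0 ρ) (fun v : T => v.1)) ∧
      Module.finrank k (selK (T ∪ Q) (ad0 ρ) (fun v : T => v.1)) +
        ∑ v : T, Module.finrank k (H0 ((ad0 ρ).comp (rl v.1))) + 1 ≤ r := by
  have hχ1 : ∀ g, (ρ g).val.det = 1 → χ g = 1 := by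
    intro g hg
    apply Units.ext
    rw [hχ, hg, Units.val_one]
  obtain ⟨Q, hQr, hQd, hQT, hQ⟩ := exists_TW_set (χ := χ) h2 hn hdet
    (fun g hg => hχ1 g (hdet g hg)) (fun t ht => hχ1 t (by rw [ht, Units.val_one, det_one]))
    hspan hT hvan r hr bad
  obtain ⟨h3, h4⟩ := hGW Q (hQd.mono_right Finset.subset_union_left) hQ
  refine ⟨Q, hQr, hQd, hQT, h3, h4.trans ?_⟩
  calc ∑ q ∈ Q, Module.finrank k (H0 ((adRep ρ χ).comp (rl q))) ≤ ∑ q ∈ Q, 1 :=
        Finset.sum_le_sum fun q hq => finrank_H0_le_one h2 hT.2.1 hχ (hQT q hq)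
    _ = r := by rw [Finset.sum_const, smul_eq_mul, mul_one, hQr]

end Fermat.Agent.RT
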