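import Fermat.Agent.RT.IndexTwoEC

set_option autoImplicit false

/-!
# The Taylor–Wiles hypotheses for the `p`-torsion of a semistable curve
-/

noncomputable section

open Matrix
open scoped Pointwise
open WeierstrassCurve WeierstrassCurve.Affine WeierstrassCurve.Affine.Point

namespace Fermat.Agent.RT

open Fermat.Agent.EC Fermat.Agent.Coh Fermat.Agent.GCFT Fermat.Agent.ESCore

/-- The field of algebraic numbers. -/
local notation "Kb" => AlgebraicClosure ℚ
/-- The absolute Galois group. -/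
local notation "GQ" => (AlgebraicClosure ℚ ≃ₐ[ℚ] AlgebraicClosure ℚ)

theorem bc_bc {Γ : Type*} [Group Γ] {F k K : Type*} [Field F] [Field k] [Field K] [Algebra F k]
    [Algebra k K] [Algebra F K] [IsScalarTower F k K] (ρ : Γ →* GL (Fin 2) F) :
    bc K (bc k ρ) = bc K ρ := by
  refine MonoidHom.ext fun g => Units.ext ?_
  rw [bc_coe, bc_coe, bc_coe, Matrix.map_map]
  congr 1
  funext x
  exact (IsScalarTower.algebraMap_apply F k K x).symm

theorem cyc_surj_general (m : ℕ) [NeZero m] (b : (ZMod m)ˣ) : ∃ σ : GQ, cyc m σ = b := by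
  obtain ⟨l, hl, hlp, hlb⟩ := Nat.forall_exists_prime_gt_and_eq_mod b.isUnit m
  obtain ⟨A, hA⟩ := GaloisBasics.exists_liesOverPrime hlp
  obtain ⟨φ, hφ⟩ := GaloisBasics.exists_isFrobeniusAt hlp A hA
  refine ⟨φ, Units.ext ?_⟩
  rw [cyc_frob hA hlp hφ (fun h ↦ absurd (Nat.le_of_dvd (NeZero.pos m) h) (not_le.mpr hl)), hlb]

/-- `(ℤ/pⁿ)ˣ` is cyclic and generated by the image of some Galois element. -/
theorem exists_cyc_generator (p : ℕ) [hp : Fact p.Prime] (hp2 : p ≠ 2) (n : ℕ) :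
    ∃ g₁ : GQ, ∀ g : GQ, ∃ i : ℤ, g * g₁ ^ i ∈ (cyc (p ^ n)).ker := by
  have hcyc : IsCyclic (ZMod (p ^ n))ˣ := ZMod.isCyclic_units_of_prime_pow p hp.out hp2 n
  obtain ⟨u, hu⟩ := hcyc.exists_generator
  obtain ⟨g₁, hg₁⟩ := cyc_surj_general (p ^ n) u
  refine ⟨g₁, fun g => ?_⟩
  obtain ⟨i, hi⟩ := Subgroup.mem_zpowers_iff.mp (hu (cyc (p ^ n) g))
  refine ⟨-i, ?_⟩
  rw [MonoidHom.mem_ker, map_mul, map_zpow, hg₁, _root_.zpow_neg, hi, mul_inv_cancel]

variable {W : WeierstrassCurve ℤ} {p : ℕ}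

/-- The rational curve of an integral model. -/
local notation "WQ" => WeierstrassCurve.map W (Int.castRingHom ℚ)

variable {k : Type*} [Field k] [Algebra (ZMod p) k]

theorem span_imgSet_semistable (hΔ : W.Δ ≠ 0) (hW : W.IsSemistableModel)
    [hp : Fact p.Prime] (hp2 : p ≠ 2) (hirr : W.ModRepIsIrreducible p)
    (b : Module.Basis (Fin 2) (ZMod p) (TorsP (WQ) p)) (n : ℕ) :
    Submodule.span k (imgSet (bc k (modRep b)) (cyc (p ^ n)).ker) = ⊤ := by
  obtain ⟨g₁, hg₁⟩ := exists_cyc_generator p hp2 n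
  have : (cyc (p ^ n)).ker.Normal := MonoidHom.normal_ker _
  refine span_imgSet_eq_top (AlgebraicClosure k) ?_
  rw [bc_bc]
  refine not_comEig_of_normal hg₁ ?_ ?_
  · exact abs_irr_of_odd hp2 (modRep_irr b hirr) (fun g => by rw [modRep_det, ss_det hΔ])
  · intro G hG
    exact not_comEig_index_two_semistable hΔ hW hp2 hirr b hG

/-- Vanishing of `H¹` of the image, for `W[p]`. -/
theorem hvan_semistable (hΔ : W.Δ ≠ 0) [hp : Fact p.Prime] (hp2 : p ≠ 2)
    (hirr : W.ModRepIsIrreducible p)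
    (b : Module.Basis (Fin 2) (ZMod p) (TorsP (WQ) p)) {χ : GQ →* kˣ}
    (hχ : ∀ g, (χ g : k) = (bc k (modRep b) g).val.det)
    {c : GQ → sl2 k} (hc : ∀ g h, c (g * h) = adRep (bc k (modRep b)) χ g (c h) + c g)
    (hker : ∀ t, bc k (modRep b) t = 1 → c t = 0) : c ∈ B1 (adRep (bc k (modRep b)) χ) := by
  refine hvan_of hp2 (modRep_irr b hirr) ?_ ?_ hc hker
  · intro a ha
    obtain ⟨σ, hσ⟩ := cyc_surj' p (Units.mk0 a ha)
    exact ⟨σ, by rw [modRep_det, ss_det hΔ, hσ, Units.val_mk0]⟩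
  · intro g
    rw [hχ, bc_coe, ← RingHom.mapMatrix_apply, ← RingHom.map_det]

theorem det_bc_modRep (hΔ : W.Δ ≠ 0) [hp : Fact p.Prime]
    (b : Module.Basis (Fin 2) (ZMod p) (TorsP (WQ) p)) (g : GQ) :
    (bc k (modRep b) g).val.det = algebraMap (ZMod p) k ((cyc p g : (ZMod p)ˣ) : ZMod p) := by
  rw [bc_coe, ← RingHom.mapMatrix_apply, ← RingHom.map_det, modRep_det, ss_det hΔ]

end Fermat.Agent.RT
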