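import Fermat.Agent.RT.TWStepA

set_option autoImplicit false

/-!
# The Taylor–Wiles step for localisations
-/

open IsLocalRing

namespace Fermat.Agent.RT

section Coe

variable {𝒪 : Type*} [CommRing 𝒪] [IsLocalRing 𝒪] [IsNoetherianRing 𝒪]
  [IsAdicComplete (maximalIdeal 𝒪) 𝒪] {M : Type*} [AddCommGroup M] [Module 𝒪 M]
  [Module.Finite 𝒪 M] {H : ℕ → Module.End 𝒪 M}

/-- The localisation at a set of indices. -/
abbrev LocI (H : ℕ → Module.End 𝒪 M) (I : Set ℕ) (a : ℕ → 𝒪) : Submodule 𝒪 M :=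
  LocG (fun i : I => H i) fun i : I => a i

omit [IsNoetherianRing 𝒪] [IsAdicComplete (maximalIdeal 𝒪) 𝒪] [Module.Finite 𝒪 M] in
theorem LocI_insert {I : Set ℕ} {a : ℕ → 𝒪} {q : ℕ} {v : M} :
    v ∈ LocI H (insert q I) a ↔ v ∈ LocI H I a ∧ NilAt (H q - a q • 1) v := by
  constructor
  · intro h
    exact ⟨fun i => h ⟨i, Set.mem_insert_of_mem _ i.2⟩, h ⟨q, Set.mem_insert _ _⟩⟩
  · rintro ⟨h, h'⟩ ⟨i, hi⟩
    rcases Set.mem_insert_iff.mp hi with rfl | hi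
    · exact h'
    · exact h ⟨i, hi⟩

variable (hH : ∀ i j, H i * H j = H j * H i)

/-- the operators on the localisation -/
def resI (hH : ∀ i j, H i * H j = H j * H i) (I : Set ℕ) (a : ℕ → 𝒪) (n : ℕ) :
    Module.End 𝒪 (LocI H I a) := LocG.res (H n) fun i => hH n i

omit [IsNoetherianRing 𝒪] [IsAdicComplete (maximalIdeal 𝒪) 𝒪] [Module.Finite 𝒪 M] in
@[simp] theorem resI_coe (I : Set ℕ) (a : ℕ → 𝒪) (n : ℕ) (v : LocI H I a) :
    (resI hH I a n v : M) = H n v := rfl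

/-- topological nilpotence in the localisation -/
theorem nilAt_resI (I : Set ℕ) (a : ℕ → 𝒪) (n : ℕ) (c : 𝒪) (v : LocI H I a) :
    NilAt (resI hH I a n - c • 1) v ↔ NilAt (H n - c • 1) v.1 := by
  have h2 : ∀ (k : ℕ) (w : LocI H I a), (((resI hH I a n - c • 1) ^ k) w : M) =
      ((H n - c • 1) ^ k) w.1 := by
    intro k
    induction k with
    | zero => intro w; rfl
    | succ k ih => intro w; rw [pow_succ, pow_succ, Module.End.mul_apply, ih]; rfl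
  constructor
  · intro h j
    obtain ⟨k, hk⟩ := h j
    refine ⟨k, ?_⟩
    rw [← h2]
    exact map_mem_smul_top (Submodule.subtype (LocI H I a)) _ hk
  · intro h j
    obtain ⟨k, hk⟩ := h j
    refine ⟨k, ?_⟩
    rw [← h2] at hk
    generalize ((resI hH I a n - c • 1) ^ k) v = y at hk ⊢
    obtain ⟨y, hy⟩ := y
    exact LocG.mem_smul (T := fun i : I => H i) (fun i j => hH i j) hy hk

end Coe

section StepLoc

variable {𝒪 : Type*} [CommRing 𝒪] [IsLocalRing 𝒪] [IsNoetherianRing 𝒪]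
  [IsAdicComplete (maximalIdeal 𝒪) 𝒪] {M : Type*} [AddCommGroup M] [Module 𝒪 M]
  [Module.Finite 𝒪 M] {M' : Type*} [AddCommGroup M'] [Module 𝒪 M'] [Module.Finite 𝒪 M']
  {H : ℕ → Module.End 𝒪 M} {H' : ℕ → Module.End 𝒪 M'}
  {α β : M →ₗ[𝒪] M'} {t₁ t₂ : M' →ₗ[𝒪] M} {q : ℕ} {a : ℕ → 𝒪} {b : 𝒪} {I : Set ℕ}

/-- **The Taylor–Wiles step for localisations** -/
theorem step_loc (hH : ∀ i j, H i * H j = H j * H i) (hH' : ∀ i j, H' i * H' j = H' j * H' i)
    (hI : q ∉ I)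
    (hα : ∀ n, n ≠ q → ∀ x, α (H n x) = H' n (α x)) (hβ : ∀ n, n ≠ q → ∀ x, β (H n x) = H' n (β x))
    (ht1 : ∀ n, n ≠ q → ∀ x, t₁ (H' n x) = H n (t₁ x))
    (ht2 : ∀ n, n ≠ q → ∀ x, t₂ (H' n x) = H n (t₂ x))
    (h11 : ∀ x, t₁ (α x) = (q + 1 : ℕ) • x) (h12 : ∀ x, t₁ (β x) = H q x)
    (h21 : ∀ x, t₂ (α x) = H q x) (h22 : ∀ x, t₂ (β x) = (q + 1 : ℕ) • x)
    (hUα : ∀ x, α (H q x) = H' q (α x) + β x) (hUβ : ∀ x, H' q (β x) = q • α x)
    (hnew : ∀ y ∈ LocI H' I a, t₁ y = 0 → t₂ y = 0 → y = 0)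
    (hT : ∀ x ∈ LocI H I a, NilAt (H q - (a q + b) • 1) x)
    (hab : a q * b - q ∈ maximalIdeal 𝒪) (hu1 : IsUnit (a q - b)) (hu2 : IsUnit (b - q * a q))
    (hu3 : IsUnit (((q : 𝒪) + 1) * (q + 1) - (a q + b) * (a q + b))) :
    ∃ e : LocI H' (insert q I) a ≃ₗ[𝒪] LocI H I a, ∀ v, (e v : M) = t₁ v.1 := by
  have hne : ∀ i : I, (i : ℕ) ≠ q := fun i h => hI (h ▸ i.2)
  -- the restrictions
  set α' : LocI H I a →ₗ[𝒪] LocI H' I a := α.restrict fun x hx =>
    LocG.map (T := fun i : I => H i) (T' := fun i : I => H' i) (a := fun i : I => a i) α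
      (fun i m => hα i (hne i) m) hx
  set β' : LocI H I a →ₗ[𝒪] LocI H' I a := β.restrict fun x hx =>
    LocG.map (T := fun i : I => H i) (T' := fun i : I => H' i) (a := fun i : I => a i) β
      (fun i m => hβ i (hne i) m) hx
  set t₁' : LocI H' I a →ₗ[𝒪] LocI H I a := t₁.restrict fun x hx =>
    LocG.map (T := fun i : I => H' i) (T' := fun i : I => H i) (a := fun i : I => a i) t₁
      (fun i m => ht1 i (hne i) m) hx
  set t₂' : LocI H' I a →ₗ[𝒪] LocI H I a := t₂.restrict fun x hx =>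
    LocG.map (T := fun i : I => H' i) (T' := fun i : I => H i) (a := fun i : I => a i) t₂
      (fun i m => ht2 i (hne i) m) hx
  obtain ⟨hinj, hsurj⟩ := step_bij (α := α') (β := β') (t₁ := t₁') (t₂ := t₂')
    (T := resI hH I a q) (U := resI hH' I a q) (q := (q : 𝒪)) (a := a q) (b := b)
    (fun x => Subtype.ext (by
      change t₁ (α x) = ((q : 𝒪) + 1) • (x : M)
      rw [h11, ← Nat.cast_smul_eq_nsmul 𝒪]; push_cast; rfl))
    (fun x => Subtype.ext (h12 x)) (fun x => Subtype.ext (h21 x))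
    (fun x => Subtype.ext (by
      change t₂ (β x) = ((q : 𝒪) + 1) • (x : M)
      rw [h22, ← Nat.cast_smul_eq_nsmul 𝒪]; push_cast; rfl))
    (fun x => Subtype.ext (by
      change H' q (α x) = α (H q x) - β x
      rw [hUα, add_sub_cancel_right]))
    (fun x => Subtype.ext (by
      change H' q (β x) = (q : 𝒪) • α x
      rw [hUβ, Nat.cast_smul_eq_nsmul]))
    (fun y h1 h2 => Subtype.ext (hnew y y.2 (congrArg Subtype.val h1) (congrArg Subtype.val h2)))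
    (NilAt.topNil fun x => (nilAt_resI hH I a q _ x).mpr (hT x x.2)) hab hu1 hu2 hu3
  -- the equivalence
  set f : LocI H' (insert q I) a →ₗ[𝒪] LocI H I a := t₁.restrict fun x hx =>
    LocG.map (T := fun i : I => H' i) (T' := fun i : I => H i) (a := fun i : I => a i) t₁
      (fun i m => ht1 i (hne i) m) (LocI_insert.mp hx).1
  refine ⟨LinearEquiv.ofBijective f ⟨?_, ?_⟩, fun v => rfl⟩
  · rw [injective_iff_map_eq_zero]
    rintro ⟨v, hv⟩ h
    obtain ⟨hv1, hv2⟩ := LocI_insert.mp hv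
    have h2 := hinj ⟨v, hv1⟩ ((nilAt_resI hH' I a q _ ⟨v, hv1⟩).mpr hv2)
      (Subtype.ext (congrArg Subtype.val h))
    have h3 : v = 0 := congrArg (Subtype.val : LocI H' I a → M') h2
    exact Subtype.ext h3
  · intro x
    obtain ⟨y, hy, hyx⟩ := hsurj x
    refine ⟨⟨y, LocI_insert.mpr ⟨y.2, (nilAt_resI hH' I a q _ y).mp hy⟩⟩, ?_⟩
    exact Subtype.ext (congrArg Subtype.val hyx)

end StepLoc

end Fermat.Agent.RT
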