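import Fermat.Agent.RT.Free2
import Fermat.Agent.RT.TWStepB

set_option autoImplicit false

/-!
# Matrices of Hecke operators over the group ring
-/

open IsLocalRing

namespace Fermat.Agent.RT

variable {𝒪 : Type*} [CommRing 𝒪] [IsLocalRing 𝒪] {D : Type*} [CommGroup D] {M : Type*} [AddCommGroup M]
  [Module 𝒪 M] {V : Submodule 𝒪 M} {ρ : D →* Module.End 𝒪 V} {d : ℕ}
  {e : V ≃ₗ[𝒪] (Fin d → MonoidAlgebra 𝒪 D)}

/-- the matrices of a commuting family of operators -/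
theorem exists_matrices (he : ∀ x v, e (actD ρ x v) = x • e v) (T : ℕ → Module.End 𝒪 M)
    (hV : ∀ n, ∀ v ∈ V, T n v ∈ V) (hT : ∀ i j, T i * T j = T j * T i)
    (hρ : ∀ n δ (v w : V), (w : M) = T n v → (ρ δ w : M) = T n (ρ δ v)) :
    ∃ Φ : MvPolynomial ℕ 𝒪 →ₐ[𝒪] Matrix (Fin d) (Fin d) (MonoidAlgebra 𝒪 D),
      ∀ n (v w : V), (w : M) = T n v → e w = (Φ (MvPolynomial.X n)).mulVec (e v) := by
  set T' : ℕ → Module.End 𝒪 V := fun n => (T n).restrict (hV n) with hT'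
  have hT'c : ∀ i j, T' i * T' j = T' j * T' i := fun i j =>
    LinearMap.ext fun v => Subtype.ext (LinearMap.congr_fun (hT i j) v.1)
  have hρ' : ∀ n δ, T' n * ρ δ = ρ δ * T' n := fun n δ =>
    LinearMap.ext fun v => Subtype.ext (hρ n δ v (T' n v) rfl).symm
  have hR : ∀ (r : MvPolynomial ℕ 𝒪) δ, polyAct T' hT'c r * ρ δ = ρ δ * polyAct T' hT'c r := by
    intro r δ
    refine LinearMap.ext fun v => ?_
    exact (polyAct_comm (hT := hT'c) (hT' := hT'c) (ρ δ)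
      (fun n v => (LinearMap.congr_fun (hρ' n δ) v).symm) r v).symm
  obtain ⟨Φ, hΦ⟩ := exists_matAct he (polyAct T' hT'c) hR
  refine ⟨Φ, fun n v w hw => ?_⟩
  rw [← hΦ, polyAct_X]
  congr 1
  exact Subtype.ext hw

variable {T : ℕ → Module.End 𝒪 M} {Φ : MvPolynomial ℕ 𝒪 →ₐ[𝒪] Matrix (Fin d) (Fin d)
  (MonoidAlgebra 𝒪 D)} (hV : ∀ n, ∀ v ∈ V, T n v ∈ V)
  (hΦ : ∀ n (v w : V), (w : M) = T n v → e w = (Φ (MvPolynomial.X n)).mulVec (e v))

theorem mem_map_of_mem_smul {S : Type*} [CommRing S] [Algebra 𝒪 S]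
    {x : Fin d → S} (hx : x ∈ maximalIdeal 𝒪 • (⊤ : Submodule 𝒪 (Fin d → S))) (k : Fin d) :
    x k ∈ (maximalIdeal 𝒪).map (algebraMap 𝒪 S) := by
  induction hx using Submodule.smul_induction_on' with
  | smul a ha y _ =>
    rw [Pi.smul_apply, Algebra.smul_def]
    exact Ideal.mul_mem_right _ _ (Ideal.mem_map_of_mem _ ha)
  | add x _ y _ hx hy => exact Ideal.add_mem _ hx hy

include hV hΦ in
theorem pow_matrices (n : ℕ) (c : 𝒪) (k : ℕ) (v w : V)
    (hw : (w : M) = ((T n - c • 1) ^ k) v) :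
    e w = ((Φ (MvPolynomial.X n) - algebraMap 𝒪 _ c) ^ k).mulVec (e v) := by
  have hVc : ∀ w : V, (T n - c • 1) (w : M) ∈ V := fun w =>
    V.sub_mem (hV n w w.2) (V.smul_mem _ w.2)
  have h1 : ∀ v w : V, (w : M) = (T n - c • 1) v →
      e w = (Φ (MvPolynomial.X n) - algebraMap 𝒪 _ c).mulVec (e v) := by
    intro v w hw
    have h2 : w = ⟨T n v, hV n v v.2⟩ - c • v := Subtype.ext (by rw [hw]; rfl)
    rw [h2, map_sub, map_smul, hΦ n v ⟨T n v, hV n v v.2⟩ rfl, Matrix.sub_mulVec]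
    congr 1
    rw [Algebra.algebraMap_eq_smul_one, Matrix.smul_mulVec, Matrix.one_mulVec]
  induction k generalizing w with
  | zero =>
    have h2 : w = v := Subtype.ext hw
    rw [h2, pow_zero, Matrix.one_mulVec]
  | succ k ih =>
    have hk : ∀ k, ((T n - c • (1 : Module.End 𝒪 M)) ^ k : Module.End 𝒪 M) (v : M) ∈ V := by
      intro k
      induction k with
      | zero => exact v.2
      | succ k ih => rw [pow_succ', Module.End.mul_apply]; exact hVc ⟨_, ih⟩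
    rw [pow_succ', Module.End.mul_apply] at hw
    rw [h1 ⟨_, hk k⟩ w hw, ih ⟨_, hk k⟩ rfl, Matrix.mulVec_mulVec, pow_succ']

theorem mulVec_single_one {S : Type*} [CommRing S] (A : Matrix (Fin d) (Fin d) S) (j : Fin d) :
    A.mulVec (Pi.single j 1) = fun i => A i j := by
  rw [Matrix.mulVec_single_one]
  rfl

include hV hΦ in
/-- topological nilpotence of the matrices -/
theorem nil_matrices (n : ℕ) (c : 𝒪) (k : ℕ)
    (hk : ∀ v w : V, (w : M) = ((T n - c • (1 : Module.End 𝒪 M)) ^ k : Module.End 𝒪 M) v →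
      w ∈ maximalIdeal 𝒪 • (⊤ : Submodule 𝒪 V)) (i j : Fin d) :
    ((Φ (MvPolynomial.X n) - algebraMap 𝒪 _ c) ^ k) i j ∈
      (maximalIdeal 𝒪).map (algebraMap 𝒪 (MonoidAlgebra 𝒪 D)) := by
  set v : V := e.symm (Pi.single j 1) with hv
  have hVc : ∀ w : V, (T n - c • 1) (w : M) ∈ V := fun w =>
    V.sub_mem (hV n w w.2) (V.smul_mem _ w.2)
  have hk' : ∀ k, ((T n - c • (1 : Module.End 𝒪 M)) ^ k : Module.End 𝒪 M) (v : M) ∈ V := by
    intro k
    induction k with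
    | zero => exact v.2
    | succ k ih => rw [pow_succ', Module.End.mul_apply]; exact hVc ⟨_, ih⟩
  have h1 := pow_matrices hV hΦ n c k v ⟨_, hk' k⟩ rfl
  have hev : e v = Pi.single j 1 := e.apply_symm_apply _
  rw [hev, mulVec_single_one] at h1
  have h2 : e ⟨_, hk' k⟩ i = ((Φ (MvPolynomial.X n) - algebraMap 𝒪 _ c) ^ k) i j := congrFun h1 i
  rw [← h2]
  refine mem_map_of_mem_smul ?_ i
  exact map_mem_smul_top e.toLinearMap _ (hk v _ rfl)

variable {M' : Type*} [AddCommGroup M'] [Module 𝒪 M'] {W : Submodule 𝒪 M'} {tr : V →ₗ[𝒪] W}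
  {m' : Module.Basis (Fin d) 𝒪 W} {T' : ℕ → Module.End 𝒪 M'}

include hV hΦ in
/-- the augmentation of the matrices -/
theorem aug_matrices (htr : ∀ v, tr v = ∑ j, augD 𝒪 D (e v j) • m' j) (n : ℕ)
    (hn : ∀ v w : V, (w : M) = T n v → (tr w : M') = T' n (tr v)) (j : Fin d) (w : W)
    (hw : (w : M') = T' n (m' j)) :
    w = ∑ i, augD 𝒪 D (Φ (MvPolynomial.X n) i j) • m' i := by
  set v : V := e.symm (Pi.single j 1) with hv
  have h1 := hΦ n v ⟨_, hV n v v.2⟩ rfl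
  have hev : e v = Pi.single j 1 := e.apply_symm_apply _
  rw [hev, mulVec_single_one] at h1
  have h2 := htr ⟨_, hV n v v.2⟩
  rw [h1] at h2
  rw [← h2]
  apply Subtype.ext
  rw [hw, hn v ⟨_, hV n v v.2⟩ rfl]
  congr 1
  rw [htr, hev, Finset.sum_eq_single j]
  · rw [Pi.single_eq_same, map_one, one_smul]
  · intro i _ hij
    rw [Pi.single_eq_of_ne hij, map_zero, zero_smul]
  · intro h
    exact absurd (Finset.mem_univ j) h

end Fermat.Agent.RT
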