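import Fermat.Agent.RT.TWAll
import Fermat.Agent.RT.MatGen
import Fermat.Agent.ESCore.UnivG

set_option autoImplicit false

/-!
# The Hecke modules of Taylor–Wiles levels
-/

open Matrix CongruenceSubgroup IsLocalRing
open scoped MatrixGroups

namespace Fermat.Agent.RT.Ihara

open Fermat.Agent.RT Fermat.Agent.ESCore Fermat.Agent.ESCore.UnivG

section Par

variable {G : Subgroup SL(2, ℤ)} {N q : ℕ}
variable {𝒪 : Type*} [CommRing 𝒪] [IsDomain 𝒪] [IsDiscreteValuationRing 𝒪]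
variable [IsAdicComplete (maximalIdeal 𝒪) 𝒪]

/-- Systems of eigenvalues whose localisation is parabolic. -/
def NonEisP (N : ℕ) (I : Set ℕ) (a : ℕ → 𝒪) : Prop :=
  ∃ l ∈ I, l.Prime ∧ (N : ℤ) ∣ (l : ℤ) - 1 ∧ IsUnit (a l - (l + 1))

omit [IsDomain 𝒪] [IsDiscreteValuationRing 𝒪] [IsAdicComplete (maximalIdeal 𝒪) 𝒪] in
theorem not_dvd_of_dvd_sub_one {l : ℕ} (hl : l.Prime) (h : (N : ℤ) ∣ (l : ℤ) - 1) : ¬ l ∣ N := by
  intro h2
  have h3 : (l : ℤ) ∣ (l : ℤ) - 1 := (Int.natCast_dvd_natCast.mpr h2).trans h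
  have h4 : (l : ℤ) ∣ 1 := by
    have := Int.dvd_sub (dvd_refl (l : ℤ)) h3
    simpa using this
  have h5 := Int.natCast_dvd_natCast.mp (by exact_mod_cast h4 : (l : ℤ) ∣ ((1 : ℕ) : ℤ))
  exact hl.one_lt.ne' (Nat.dvd_one.mp h5)

omit [IsAdicComplete (maximalIdeal 𝒪) 𝒪] in
theorem NonEisP.nonEis {I : Set ℕ} {a : ℕ → 𝒪} (h : NonEisP N I a) : NonEis N I a := by
  obtain ⟨l, hl, hlp, hl1, hu⟩ := h
  exact ⟨l, hl, hlp, not_dvd_of_dvd_sub_one hlp hl1, hu⟩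

theorem NonEisP.zero [G.FiniteIndex] {I : Set ℕ} {a : ℕ → 𝒪} (h : NonEisP N I a)
    (h1 : Gamma1 N ≤ G) (h0 : G ≤ Gamma0 N) {c : H1 𝒪 𝒪 G} (hc : c ∈ HM 𝒪 h1 h0 I a)
    (g : G) (hg : (g : SL(2, ℤ)) 0 0 + (g : SL(2, ℤ)) 1 1 = 2) : c.1 g = 0 := by
  obtain ⟨l, hl, hlp, hl1, hu⟩ := h
  obtain ⟨y, -, rfl⟩ := NonEis.exists h1 h0 hl hu hc
  obtain ⟨g, hgG⟩ := g
  obtain ⟨h, t, rfl⟩ := exists_parabolic g hg
  have hlN := not_dvd_of_dvd_sub_one hlp hl1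
  have h2 : (hec h1 h0 l y).1 ⟨h * up t * h⁻¹, hgG⟩ =
      (l + 1) • y.1 ⟨h * up t * h⁻¹, hgG⟩ := by
    rw [hec_T h1 h0 hlp hlN, opH_apply, opc_parabolic h1 h0 hlp (isCoprime_N hlp hlN) hl1
      (addOn_ex y) h t hgG, ex_apply _ hgG]
  change (hec h1 h0 l y).1 ⟨h * up t * h⁻¹, hgG⟩ -
    (((l + 1 : ℕ) : 𝒪) • y.1 ⟨h * up t * h⁻¹, hgG⟩) = 0
  rw [h2, Nat.cast_smul_eq_nsmul, sub_self]

omit [IsDomain 𝒪] [IsDiscreteValuationRing 𝒪] [IsAdicComplete (maximalIdeal 𝒪) 𝒪] in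
theorem trace_conj (A B : SL(2, ℤ)) : (A * B * A⁻¹) 0 0 + (A * B * A⁻¹) 1 1 = B 0 0 + B 1 1 := by
  have h1 : (((A * B * A⁻¹ : SL(2, ℤ))) : Mat).trace = (B : Mat).trace := by
    rw [sl_coe_mul, sl_coe_mul, Matrix.trace_mul_cycle, ← sl_coe_mul, inv_mul_cancel]
    change ((1 : Mat) * (B : Mat)).trace = _
    rw [one_mul]
  rw [Matrix.trace_fin_two, Matrix.trace_fin_two] at h1
  exact h1

omit [IsDomain 𝒪] [IsDiscreteValuationRing 𝒪] [IsAdicComplete (maximalIdeal 𝒪) 𝒪] in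
theorem trace_sq {g : SL(2, ℤ)} (hg : g 1 0 = 0) : (g * g) 0 0 + (g * g) 1 1 = 2 := by
  have hdet := g.det_coe
  rw [Matrix.det_fin_two] at hdet
  have hg' : (g : Mat) 1 0 = 0 := hg
  rw [hg', mul_zero, sub_zero] at hdet
  have h4 := Int.mul_eq_one_iff_eq_one_or_neg_one.mp hdet
  have e0 : (g * g) 0 0 = (g : Mat) 0 0 * (g : Mat) 0 0 + (g : Mat) 0 1 * (g : Mat) 1 0 := by
    have : ((g * g : SL(2, ℤ)) : Mat) 0 0 = _ := congrFun (congrFun (sl_coe_mul g g) 0) 0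
    rw [Matrix.mul_apply, Fin.sum_univ_two] at this
    exact this
  have e1 : (g * g) 1 1 = (g : Mat) 1 0 * (g : Mat) 0 1 + (g : Mat) 1 1 * (g : Mat) 1 1 := by
    have : ((g * g : SL(2, ℤ)) : Mat) 1 1 = _ := congrFun (congrFun (sl_coe_mul g g) 1) 1
    rw [Matrix.mul_apply, Fin.sum_univ_two] at this
    exact this
  rw [e0, e1, hg']
  rcases h4 with ⟨e1, e2⟩ | ⟨e1, e2⟩ <;> rw [e1, e2] <;> ring

theorem NonEisP.par [G.FiniteIndex] {I : Set ℕ} {a : ℕ → 𝒪} (h : NonEisP N I a)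
    (h8 : IsUnit (8 : 𝒪)) (h1 : Gamma1 N ≤ G) (h0 : G ≤ Gamma0 N) {c : H1 𝒪 𝒪 G}
    (hc : c ∈ HM 𝒪 h1 h0 I a) : Par h1 h0 (toChar c) := by
  intro δ γ hγ
  rw [diaChar_apply]
  have h2 : c.1 (conjG h1 h0 δ γ * conjG h1 h0 δ γ) = 0 := by
    refine h.zero h1 h0 hc _ ?_
    rw [← map_mul]
    exact (trace_conj δ _).trans (trace_sq hγ)
  rw [c.2] at h2
  have h4 : (8 : 𝒪) * c.1 (conjG h1 h0 δ γ) = 0 := by
    have : (8 : 𝒪) * c.1 (conjG h1 h0 δ γ) =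
        4 * (c.1 (conjG h1 h0 δ γ) + c.1 (conjG h1 h0 δ γ)) := by ring
    rw [this, h2, mul_zero]
  have h5 := h8.mul_right_eq_zero.mp h4
  rw [toChar_apply, h5]
  rfl

end Par

section Level

variable {N₀ N : ℕ}
variable {𝒪 : Type*} [CommRing 𝒪] [IsDomain 𝒪] [IsDiscreteValuationRing 𝒪]
variable [IsAdicComplete (maximalIdeal 𝒪) 𝒪]
variable [NeZero N] {D : Type*} [CommGroup D] [Fintype D] {ψ : (ZMod N)ˣ →* D}
  (hψ : Function.Surjective ψ) {I₀ I : Set ℕ} {a : ℕ → 𝒪}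

theorem hec_mem_HM (n : ℕ) {v : H1 𝒪 𝒪 (GK ψ)} (hv : v ∈ HM 𝒪 (le_GK (ψ := ψ)) GK_le I a) :
    hec le_GK GK_le n v ∈ HM 𝒪 (le_GK (ψ := ψ)) GK_le I a :=
  LocG.map (M := H1 𝒪 𝒪 (GK ψ)) (M' := H1 𝒪 𝒪 (GK ψ))
    (T := hecI le_GK GK_le I) (T' := hecI le_GK GK_le I) (a := fun i : I => a i)
    (hec le_GK GK_le n)
    (fun i m => LinearMap.congr_fun (hec_comm le_GK GK_le n i) m) hv

theorem topNil_HM {i : ℕ} (hi : i ∈ I) : ∃ k, ∀ v w : HM 𝒪 (le_GK (ψ := ψ)) GK_le I a,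
    (w : H1 𝒪 𝒪 (GK ψ)) = ((hec le_GK GK_le i - a i • (1 : Module.End 𝒪 (H1 𝒪 𝒪 (GK ψ)))) ^ k :
      Module.End 𝒪 (H1 𝒪 𝒪 (GK ψ))) v →
    w ∈ maximalIdeal 𝒪 • (⊤ : Submodule 𝒪 (HM 𝒪 (le_GK (ψ := ψ)) GK_le I a)) := by
  have := finite_H1 (O := 𝒪) (A := 𝒪) (G := GK ψ)
  have key : ∀ {M : Type _} [AddCommGroup M] [Module 𝒪 M] [Module.Finite 𝒪 M]
      (H : ℕ → Module.End 𝒪 M) (hH : ∀ i j, H i * H j = H j * H i),
      ∃ k, ∀ v w : LocI H I a, (w : M) = ((H i - a i • (1 : Module.End 𝒪 M)) ^ k :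
        Module.End 𝒪 M) v → w ∈ maximalIdeal 𝒪 • (⊤ : Submodule 𝒪 (LocI H I a)) := by
    intro M _ _ _ H hH
    have h1 : TopNil (resI hH I a i - a i • 1) :=
      NilAt.topNil fun v => (nilAt_resI hH I a i _ v).mpr (v.2 ⟨i, hi⟩)
    obtain ⟨k, hk⟩ := h1
    refine ⟨k, fun v w hw => ?_⟩
    have h2 : ∀ (k : ℕ) (v : LocI H I a), (((resI hH I a i - a i • 1) ^ k) v : M) =
        ((H i - a i • 1) ^ k) v.1 := by
      intro k
      induction k with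
      | zero => intro v; rfl
      | succ k ih => intro v; rw [pow_succ, pow_succ, Module.End.mul_apply, ih]; rfl
    have h3 : w = ((resI hH I a i - a i • 1) ^ k) v := Subtype.ext (by rw [hw, h2])
    rw [h3]
    exact hk v
  exact key (M := H1 𝒪 𝒪 (GK ψ)) (hec le_GK GK_le) (fun i j => hec_comm le_GK GK_le i j)

omit [IsDomain 𝒪] [IsDiscreteValuationRing 𝒪] [IsAdicComplete (maximalIdeal 𝒪) 𝒪] in
theorem coe_sum_map {M M' : Type*} [AddCommGroup M] [Module 𝒪 M] [AddCommGroup M'] [Module 𝒪 M']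
    {W : Submodule 𝒪 M} {W' : Submodule 𝒪 M'} (e : W' ≃ₗ[𝒪] W) {d : ℕ}
    (m : Module.Basis (Fin d) 𝒪 W) (c : Fin d → 𝒪) :
    ((e (∑ i, c i • m.map e.symm i) : W) : M) = ∑ i, c i • (m i : M) := by
  rw [map_sum, AddSubmonoidClass.coe_finset_sum]
  refine Finset.sum_congr rfl fun i _ => ?_
  rw [map_smul, Module.Basis.map_apply, e.apply_symm_apply, Submodule.coe_smul]

variable [Finite (ResidueField 𝒪)] {p : ℕ} [Fact p.Prime] (hp : (p : 𝒪) ∈ maximalIdeal 𝒪)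

include hψ hp in
/-- **The Hecke module of a Taylor–Wiles level**, with the matrices of the Hecke operators. -/
theorem exists_level {E : Set ℕ} (hE : LevEquiv N₀ N I₀ I a E) (hD : IsPGroup p D)
    (hNE : NonEis N I a)
    (h3 : No3 𝒪 𝒪 (Gamma0 N)) (h3' : No3 𝒪 (ResidueField 𝒪) (Gamma0 N)) (h8 : IsUnit (8 : 𝒪))
    {d : ℕ} (m : Module.Basis (Fin d) 𝒪 (HM0 N₀ I₀ a)) :
    ∃ (e : HM 𝒪 (le_GK (ψ := ψ)) GK_le I a ≃ₗ[𝒪] (Fin d → MonoidAlgebra 𝒪 D))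
      (Φ : MvPolynomial ℕ 𝒪 →ₐ[𝒪] Matrix (Fin d) (Fin d) (MonoidAlgebra 𝒪 D)),
      (∀ x v, e (actD (actM hψ I a 𝒪) x v) = x • e v) ∧
      (∀ n (v w : HM 𝒪 (le_GK (ψ := ψ)) GK_le I a), w.1 = hec le_GK GK_le n v.1 →
        e w = (Φ (MvPolynomial.X n)).mulVec (e v)) ∧
      (∀ i ∈ I, ∃ k, ∀ j j', ((Φ (MvPolynomial.X i) - algebraMap 𝒪 _ (a i)) ^ k :
        Matrix (Fin d) (Fin d) (MonoidAlgebra 𝒪 D)) j j' ∈
        (maximalIdeal 𝒪).map (algebraMap 𝒪 (MonoidAlgebra 𝒪 D))) ∧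
      (∀ n ∉ E, ∀ j, hec (Gamma1_le N₀) le_rfl n (m j).1 =
        ∑ i, augD 𝒪 D (Φ (MvPolynomial.X n) i j) • (m i).1) := by
  obtain ⟨eE, heE⟩ := hE
  obtain ⟨e, he, htr⟩ := exists_free_level hψ hp hD hNE h3 h3' h8 (m.map eE.symm)
  have hV : ∀ n, ∀ v ∈ HM 𝒪 (le_GK (ψ := ψ)) GK_le I a,
      hec le_GK GK_le n v ∈ HM 𝒪 (le_GK (ψ := ψ)) GK_le I a := fun n v hv => hec_mem_HM n hv
  obtain ⟨Φ, hΦ⟩ := exists_matrices he (hec le_GK GK_le) hV (hec_comm le_GK GK_le)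
    (fun n δ v w hw => by
      rw [actM_coe, actM_coe, hw]
      exact (LinearMap.congr_fun (hec_diaH le_GK GK_le n (rep hψ δ)) v.1).symm)
  refine ⟨e, Φ, he, hΦ, fun i hi => ?_, fun n hn j => ?_⟩
  · obtain ⟨k, hk⟩ := topNil_HM (ψ := ψ) (I := I) (a := a) hi
    exact ⟨k, nil_matrices hV hΦ i (a i) k hk⟩
  · have hw0 : hec (Gamma1_le N) le_rfl n (m.map eE.symm j).1 ∈ HM0 N I a :=
      hec_mem_HM0 n (m.map eE.symm j)
    have h1 := aug_matrices hV hΦ (T' := hec (Gamma1_le N) le_rfl) htr n (fun v w hw => by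
      rw [trM_coe, trM_coe, hw]
      exact (hec_trD hψ n v.1).symm) j ⟨_, hw0⟩ rfl
    have h2 := heE n hn (m.map eE.symm j) ⟨_, hw0⟩ rfl
    rw [h1] at h2
    have h3 : eE (m.map eE.symm j) = m j := by
      rw [Module.Basis.map_apply, eE.apply_symm_apply]
    rw [h3] at h2
    rw [← h2]
    exact coe_sum_map (M := H1 𝒪 𝒪 (Gamma0 N₀)) (M' := H1 𝒪 𝒪 (Gamma0 N)) eE m _

end Level

section TGact

variable {N₀ N : ℕ}
variable {𝒪 : Type} [CommRing 𝒪] [IsDomain 𝒪] [IsDiscreteValuationRing 𝒪]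
variable [IsAdicComplete (maximalIdeal 𝒪) 𝒪]
variable [NeZero N] {D : Type} [CommGroup D] [Fintype D] {ψ : (ZMod N)ˣ →* D}
  (hψ : Function.Surjective ψ) {I₀ I : Set ℕ} {a : ℕ → 𝒪} {d : ℕ}
  (e : HM 𝒪 (le_GK (ψ := ψ)) GK_le I a ≃ₗ[𝒪] (Fin d → MonoidAlgebra 𝒪 D))
  (Φ : MvPolynomial ℕ 𝒪 →ₐ[𝒪] Matrix (Fin d) (Fin d) (MonoidAlgebra 𝒪 D))

/-- The embedding in the space of characters. -/
noncomputable def iotaH : (Fin d → MonoidAlgebra 𝒪 D) →+ Additive (GK ψ →* Multiplicative 𝒪) where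
  toFun v := Additive.ofMul (toChar (e.symm v).1)
  map_zero' := by rw [map_zero]; rfl
  map_add' x y := by rw [map_add]; rfl

variable {e Φ}

theorem iotaH_apply (v : HM 𝒪 (le_GK (ψ := ψ)) GK_le I a) :
    (iotaH e (e v)).toMul = toChar v.1 := by
  change toChar (e.symm (e v)).1 = _
  rw [e.symm_apply_apply]

theorem iotaH_injective : Function.Injective (iotaH e) := by
  intro v w h
  obtain ⟨v, rfl⟩ := e.surjective v
  obtain ⟨w, rfl⟩ := e.surjective w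
  have h2 := congrArg Additive.toMul h
  rw [iotaH_apply, iotaH_apply] at h2
  rw [Subtype.ext (toChar_injective h2)]

theorem iotaH_par (hNE : NonEisP N I a) (h8 : IsUnit (8 : 𝒪)) (x : Fin d → MonoidAlgebra 𝒪 D) :
    Par le_GK GK_le (iotaH e x).toMul := by
  obtain ⟨v, rfl⟩ := e.surjective x
  rw [iotaH_apply]
  exact hNE.par h8 le_GK GK_le v.2

variable (hΦ : ∀ n (v w : HM 𝒪 (le_GK (ψ := ψ)) GK_le I a), w.1 = hec le_GK GK_le n v.1 →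
        e w = (Φ (MvPolynomial.X n)).mulVec (e v))

include hΦ in
theorem iotaH_hec (n : ℕ) (v : HM 𝒪 (le_GK (ψ := ψ)) GK_le I a) :
    (iotaH e ((Φ (MvPolynomial.X n)).mulVec (e v))).toMul = toChar (hec le_GK GK_le n v.1) := by
  rw [← hΦ n v ⟨_, hec_mem_HM n v.2⟩ rfl, iotaH_apply]

include hΦ in
theorem iotaH_hecke {l : ℕ} (hl : l.Prime) (hlN : ¬ l ∣ N) (x : Fin d → MonoidAlgebra 𝒪 D) :
    (iotaH e ((Φ (MvPolynomial.X l)).mulVec x)).toMul =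
      heckeCharG hl hlN le_GK GK_le (iotaH e x).toMul := by
  obtain ⟨v, rfl⟩ := e.surjective x
  rw [iotaH_hec hΦ, iotaH_apply, heckeCharG_hec]

include hΦ in
theorem iotaH_heckeU {q : ℕ} (hq : q.Prime) (hqN : q ∣ N) (x : Fin d → MonoidAlgebra 𝒪 D) :
    (iotaH e ((Φ (MvPolynomial.X q)).mulVec x)).toMul =
      heckeCharUG hq.ne_zero hqN le_GK GK_le (iotaH e x).toMul := by
  obtain ⟨v, rfl⟩ := e.surjective x
  rw [iotaH_hec hΦ, iotaH_apply, heckeCharUG_hec hq]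

theorem iotaH_dia (he : ∀ x v, e (actD (actM hψ I a 𝒪) x v) = x • e v) (δ : Gamma0 N)
    (x : Fin d → MonoidAlgebra 𝒪 D) :
    (iotaH e (MonoidAlgebra.single (ψ (dE N δ)) (1 : 𝒪) • x)).toMul =
      diaChar le_GK GK_le δ (iotaH e x).toMul := by
  obtain ⟨v, rfl⟩ := e.surjective x
  rw [← he, iotaH_apply, iotaH_apply, diaChar_toChar, actD_single, one_smul, actM_coe, diaH_eq hψ]

/-- the operators -/
noncomputable def tauH (Φ : MvPolynomial ℕ 𝒪 →ₐ[𝒪] Matrix (Fin d) (Fin d) (MonoidAlgebra 𝒪 D))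
    (ψ : (ZMod N)ˣ →* D) (S : Finset ℕ) : Univ.Idx N S ⊕ Gamma0 N →
      Module.End (MonoidAlgebra 𝒪 D) (Fin d → MonoidAlgebra 𝒪 D)
  | Sum.inl i => Matrix.toLin' (Φ (MvPolynomial.X i.1))
  | Sum.inr δ => (MonoidAlgebra.single (ψ (dE N δ)) (1 : 𝒪)) • 1

include hΦ hψ in
/-- **The Hecke algebra acts on the Taylor–Wiles module.** -/
theorem exists_pi (he : ∀ x v, e (actD (actM hψ I a 𝒪) x v) = x • e v) (hNE : NonEisP N I a)
    (h8 : IsUnit (8 : 𝒪)) (S : Finset ℕ) :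
    ∃ π : TG (le_GK (ψ := ψ)) GK_le S →+* Matrix (Fin d) (Fin d) (MonoidAlgebra 𝒪 D),
      (∀ i, π (genT le_GK GK_le S (Sum.inl i)) = Φ (MvPolynomial.X i.1)) ∧
      (∀ δ, π (genT le_GK GK_le S (Sum.inr δ)) =
        Matrix.scalar (Fin d) (MonoidAlgebra.single (ψ (dE N δ)) (1 : 𝒪))) := by
  have H : HeckeModule le_GK GK_le S (iotaH e) (tauH Φ ψ S) :=
    { faithful := fun r hr => LinearMap.ext hr
      injective := iotaH_injective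
      par := iotaH_par hNE h8
      hecke := fun i x => by
        have h2 : tauH Φ ψ S (Sum.inl i) • x = (Φ (MvPolynomial.X i.1)).mulVec x := by
          change Matrix.toLin' (Φ (MvPolynomial.X i.1)) x = _
          rw [Matrix.toLin'_apply]
        rw [h2, iotaH_hecke hΦ i.2.1 i.2.2.1]
      dia := fun δ x => iotaH_dia hψ he δ x }
  obtain ⟨π, hπ⟩ := H.exists_hom
  refine ⟨((LinearMap.toMatrixAlgEquiv' (R := MonoidAlgebra 𝒪 D) (n := Fin d)) :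
    _ ≃ₐ[MonoidAlgebra 𝒪 D] _).toRingEquiv.toRingHom.comp π, fun i => ?_, fun δ => ?_⟩
  · rw [RingHom.comp_apply, hπ]
    exact LinearMap.toMatrix'_toLin' _
  · rw [RingHom.comp_apply, hπ]
    change LinearMap.toMatrixAlgEquiv' ((MonoidAlgebra.single (ψ (dE N δ)) (1 : 𝒪)) • 1) = _
    rw [map_smul, map_one, Matrix.scalar_apply, Matrix.smul_one_eq_diagonal]

end TGact

end Fermat.Agent.RT.Ihara
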