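import Fermat.Agent.DS.Neben3

set_option autoImplicit false

/-!
# Atkin-Lehner theory by unipotent averaging: matrix identities

`q` is a prime, `K` is prime to `q`, and `F` transforms under `Γ₁(K) ∩ Γ₀(q)` through a character
`χ` of the lower right entry modulo `q`.
-/

open UpperHalfPlane hiding I
open ModularForm Matrix Matrix.SpecialLinearGroup CongruenceSubgroup Filter
open Fermat.Agent.ESCore Fermat.Agent.Eis16 Fermat.Agent.DS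
open scoped MatrixGroups Manifold Topology

noncomputable section

namespace Fermat.Agent.RT.AL

/-- lower unipotent matrices -/
def lo (c : ℤ) : SL(2, ℤ) := ⟨!![1, 0; c, 1], by simp [Matrix.det_fin_two_of]⟩

/-- the matrix `diag (q, 1/q)` -/
def dg (q : ℕ) [NeZero q] : GL (Fin 2) ℝ :=
  upperTriangularGL (q : ℝ) 0 (q : ℝ)⁻¹ (by
    have : (q : ℝ) ≠ 0 := by exact_mod_cast NeZero.ne q
    field_simp
    exact one_ne_zero)

/-- `F` transforms under `Γ₁(K) ∩ Γ₀(q)` through the character `χ` of the lower right entry. -/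
def Loc (q K : ℕ) (χ : MulChar (ZMod q) ℂ) (F : ℍ → ℂ) : Prop :=
  ∀ γ : SL(2, ℤ), γ ∈ Gamma1 K → γ ∈ Gamma0 q → F ∣[(2 : ℤ)] γ = χ ((γ 1 1 : ℤ) : ZMod q) • F

theorem mem_Gamma1_of {K : ℕ} {γ : SL(2, ℤ)} (h1 : (K : ℤ) ∣ γ 1 1 - 1) (h2 : (K : ℤ) ∣ γ 1 0) :
    γ ∈ Gamma1 K := by
  have e1 : ((γ 1 1 : ℤ) : ZMod K) = 1 := by
    have := (ZMod.intCast_zmod_eq_zero_iff_dvd _ K).mpr h1
    push_cast at this
    linear_combination this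
  have e2 : ((γ 1 0 : ℤ) : ZMod K) = 0 := (ZMod.intCast_zmod_eq_zero_iff_dvd _ K).mpr h2
  have hdet := Matrix.SpecialLinearGroup.det_coe γ
  rw [Matrix.det_fin_two] at hdet
  have h3 := congrArg (Int.cast : ℤ → ZMod K) hdet
  push_cast at h3
  rw [Gamma1_mem]
  refine ⟨?_, e1, e2⟩
  rw [e1, e2] at h3
  simpa using h3

theorem mem_Gamma0_of {K : ℕ} {γ : SL(2, ℤ)} (h2 : (K : ℤ) ∣ γ 1 0) : γ ∈ Gamma0 K := by
  rw [Gamma0_mem]
  exact (ZMod.intCast_zmod_eq_zero_iff_dvd _ K).mpr h2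

theorem dvd_of_mem_Gamma0 {K : ℕ} {γ : SL(2, ℤ)} (h : γ ∈ Gamma0 K) : (K : ℤ) ∣ γ 1 0 := by
  rw [Gamma0_mem] at h
  exact (ZMod.intCast_zmod_eq_zero_iff_dvd _ K).mp h

theorem dvd_of_mem_Gamma1 {K : ℕ} {γ : SL(2, ℤ)} (h : γ ∈ Gamma1 K) : (K : ℤ) ∣ γ 1 1 - 1 := by
  rw [Gamma1_mem] at h
  rw [← ZMod.intCast_zmod_eq_zero_iff_dvd]
  push_cast
  rw [h.2.1, sub_self]

theorem dvd_of_mem_Gamma1' {K : ℕ} {γ : SL(2, ℤ)} (h : γ ∈ Gamma1 K) : (K : ℤ) ∣ γ 1 0 :=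
  dvd_of_mem_Gamma0 (Gamma1_in_Gamma0 K h)

variable {q K : ℕ}

section Identities

theorem exists_SL (a b c d : ℤ) (h : a * d - b * c = 1) :
    ∃ γ : SL(2, ℤ), γ 0 0 = a ∧ γ 0 1 = b ∧ γ 1 0 = c ∧ γ 1 1 = d :=
  ⟨⟨!![a, b; c, d], by rw [Matrix.det_fin_two_of]; exact h⟩, rfl, rfl, rfl, rfl⟩

theorem val_lo (c : ℤ) : (mapGL ℝ (lo c) : GL (Fin 2) ℝ).1 = !![1, 0; (c : ℝ), 1] := by
  rw [val_mapGL]
  have e1 : lo c 0 0 = 1 := rfl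
  have e2 : lo c 0 1 = 0 := rfl
  have e3 : lo c 1 0 = c := rfl
  have e4 : lo c 1 1 = 1 := rfl
  simp only [e1, e2, e3, e4, Int.cast_one, Int.cast_zero]

/-- `(1 v/q; 0 1) (1 0; Kqu 1) = γ (1 x/q; 0 1)` -/
theorem mat_a [NeZero q] {u v x y : ℤ} (hxy : (q : ℤ) * y = v - x * (1 + K * u * v)) :
    ∃ γ : SL(2, ℤ), γ 1 0 = K * q * u ∧ γ 1 1 = 1 - K * u * x ∧ γ 0 0 = 1 + K * u * v ∧
      tr ((v : ℝ) / q) * mapGL ℝ (lo (K * q * u)) = mapGL ℝ γ * tr ((x : ℝ) / q) := by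
  have hq : (q : ℝ) ≠ 0 := by exact_mod_cast NeZero.ne q
  obtain ⟨γ, h00, h01, h10, h11⟩ := exists_SL (1 + K * u * v) y (K * q * u) (1 - K * u * x)
    (by linear_combination (-(K : ℤ) * u) * hxy)
  refine ⟨γ, h10, h11, h00, ?_⟩
  have hxy' : (q : ℝ) * y = v - x * (1 + K * u * v) := by exact_mod_cast hxy
  apply Units.ext
  rw [Units.val_mul, Units.val_mul, val_tr, val_tr, val_lo, val_mapGL, h00, h01, h10, h11,
    Matrix.mul_fin_two, Matrix.mul_fin_two]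
  have e : (y : ℝ) = (v - x * (1 + K * u * v)) / q := by
    rw [eq_div_iff hq, ← hxy']
    ring
  ext i j
  fin_cases i <;> fin_cases j <;> simp
  · field_simp
  · rw [e]
    field_simp
    ring
  · field_simp
    ring

/-- `(1 v/q; 0 1) (1 0; Kqu 1) = δ diag (q, 1/q)` -/
theorem mat_b [NeZero q] {u v s : ℤ} (hs : 1 + K * u * v = q * s) :
    ∃ δ : SL(2, ℤ), δ 0 0 = s ∧ δ 0 1 = v ∧ δ 1 0 = K * u ∧ δ 1 1 = q ∧
      tr ((v : ℝ) / q) * mapGL ℝ (lo (K * q * u)) = mapGL ℝ δ * dg q := by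
  have hq : (q : ℝ) ≠ 0 := by exact_mod_cast NeZero.ne q
  have hs' : (1 : ℝ) + K * u * v = q * s := by exact_mod_cast hs
  obtain ⟨δ, h00, h01, h10, h11⟩ := exists_SL s v (K * u) q (by linear_combination -hs)
  refine ⟨δ, h00, h01, h10, h11, ?_⟩
  apply Units.ext
  rw [Units.val_mul, Units.val_mul, val_tr, val_lo, val_mapGL, h00, h01, h10, h11, dg,
    val_upperTriangularGL, Matrix.mul_fin_two, Matrix.mul_fin_two]
  ext i j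
  fin_cases i <;> fin_cases j <;> simp
  · field_simp
    linear_combination hs'
  · field_simp
  · field_simp

end Identities

variable {χ : MulChar (ZMod q) ℂ} {F : ℍ → ℂ}

theorem smul_slash_tr (c : ℂ) (F : ℍ → ℂ) (x : ℝ) :
    (c • F) ∣[(2 : ℤ)] tr x = c • F ∣[(2 : ℤ)] tr x := by
  ext τ
  rw [slash_tr, Pi.smul_apply, Pi.smul_apply, slash_tr]

theorem det_dg_pos [NeZero q] : 0 < ((dg q).det : ℝ) := by
  have hq : (q : ℝ) ≠ 0 := by exact_mod_cast NeZero.ne q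
  rw [Matrix.GeneralLinearGroup.val_det_apply, dg, val_upperTriangularGL, Matrix.det_fin_two_of]
  field_simp
  norm_num

theorem smul_slash_dg [NeZero q] (c : ℂ) (F : ℍ → ℂ) :
    (c • F) ∣[(2 : ℤ)] dg q = c • F ∣[(2 : ℤ)] dg q := by
  rw [ModularForm.smul_slash, UpperHalfPlane.σ, if_pos det_dg_pos]
  rfl

theorem Loc.slash_tr_int (hF : Loc q K χ F) (j : ℤ) : F ∣[(2 : ℤ)] tr j = F := by
  rw [← mapGL_T_zpow]
  have h := hF (ModularGroup.T ^ j) (T_zpow_mem K j)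
    (by rw [Gamma0_mem, ModularGroup.coe_T_zpow]; simp)
  rw [ModularGroup.coe_T_zpow] at h
  have e : ((!![1, j; 0, 1] : Matrix (Fin 2) (Fin 2) ℤ) 1 1 : ℤ) = 1 := rfl
  rw [e, Int.cast_one, map_one, one_smul] at h
  exact h

theorem Loc.slash_tr_congr [NeZero q] (hF : Loc q K χ F) {x y : ℤ} (h : (q : ℤ) ∣ x - y) :
    F ∣[(2 : ℤ)] tr ((x : ℝ) / q) = F ∣[(2 : ℤ)] tr ((y : ℝ) / q) := by
  have hq : (q : ℝ) ≠ 0 := by exact_mod_cast NeZero.ne q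
  obtain ⟨j, hj⟩ := h
  have e : (x : ℝ) / q = j + (y : ℝ) / q := by
    have : (x : ℝ) - y = q * j := by exact_mod_cast hj
    field_simp
    linear_combination this
  rw [e, tr_add, SlashAction.slash_mul, hF.slash_tr_int]

theorem Loc.a [NeZero q] (hF : Loc q K χ F) {u v x : ℤ}
    (hx : (x : ZMod q) * (1 + K * u * v) = v) :
    (F ∣[(2 : ℤ)] tr ((v : ℝ) / q)) ∣[(2 : ℤ)] lo (K * q * u) =
      χ (1 - K * u * x) • F ∣[(2 : ℤ)] tr ((x : ℝ) / q) := by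
  obtain ⟨y, hy⟩ : (q : ℤ) ∣ v - x * (1 + K * u * v) := by
    rw [← ZMod.intCast_zmod_eq_zero_iff_dvd]
    push_cast
    rw [hx, sub_self]
  obtain ⟨γ, h10, h11, h00, h⟩ := mat_a (K := K) (q := q) hy.symm
  have h2 := hF γ (mem_Gamma1_of (by rw [h11]; exact ⟨-(u * x), by ring⟩)
    (by rw [h10]; exact ⟨q * u, by ring⟩)) (mem_Gamma0_of (by rw [h10]; exact ⟨K * u, by ring⟩))
  have h3 : (F ∣[(2 : ℤ)] tr ((v : ℝ) / q)) ∣[(2 : ℤ)] lo (K * q * u) =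
      (F ∣[(2 : ℤ)] γ) ∣[(2 : ℤ)] tr ((x : ℝ) / q) := by
    change (F ∣[(2 : ℤ)] tr ((v : ℝ) / q)) ∣[(2 : ℤ)] (mapGL ℝ (lo (K * q * u)) : GL (Fin 2) ℝ) =
      (F ∣[(2 : ℤ)] (mapGL ℝ γ : GL (Fin 2) ℝ)) ∣[(2 : ℤ)] tr ((x : ℝ) / q)
    rw [← SlashAction.slash_mul, ← SlashAction.slash_mul, h]
  rw [h3, h2, smul_slash_tr, h11]
  congr 2
  push_cast
  ring

theorem Loc.b [NeZero q] (hF : Loc q K χ F) {u v s u₀ v₀ s₀ : ℤ}
    (hs : 1 + K * u * v = q * s) (hs₀ : 1 + K * u₀ * v₀ = q * s₀) :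
    (F ∣[(2 : ℤ)] tr ((v : ℝ) / q)) ∣[(2 : ℤ)] lo (K * q * u) =
      χ (-(K * u * v₀)) •
        (F ∣[(2 : ℤ)] tr ((v₀ : ℝ) / q)) ∣[(2 : ℤ)] lo (K * q * u₀) := by
  obtain ⟨δ, h00, h01, h10, h11, h⟩ := mat_b (K := K) (q := q) hs
  obtain ⟨δ₀, h00', h01', h10', h11', h'⟩ := mat_b (K := K) (q := q) hs₀
  have e10 : (δ * δ₀⁻¹) 1 0 = K * q * (u - u₀) := by
    have e1 : (δ * δ₀⁻¹) 1 0 = δ 1 0 * δ₀ 1 1 - δ 1 1 * δ₀ 1 0 := by
      rw [Matrix.SpecialLinearGroup.coe_mul, Matrix.SpecialLinearGroup.coe_inv, Matrix.adjugate_fin_two,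
        Matrix.mul_apply, Fin.sum_univ_two]
      simp
      ring
    rw [e1, h10, h11, h10', h11']
    ring
  have e11 : (δ * δ₀⁻¹) 1 1 = q * s₀ - K * u * v₀ := by
    have e1 : (δ * δ₀⁻¹) 1 1 = - (δ 1 0 * δ₀ 0 1) + δ 1 1 * δ₀ 0 0 := by
      rw [Matrix.SpecialLinearGroup.coe_mul, Matrix.SpecialLinearGroup.coe_inv, Matrix.adjugate_fin_two,
        Matrix.mul_apply, Fin.sum_univ_two]
      simp
    rw [e1, h10, h11, h01', h00']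
    ring
  have h2 := hF (δ * δ₀⁻¹) (mem_Gamma1_of
      (by rw [e11, ← hs₀]; exact ⟨u₀ * v₀ - u * v₀, by ring⟩)
      (by rw [e10]; exact ⟨q * (u - u₀), by ring⟩))
    (mem_Gamma0_of (by rw [e10]; exact ⟨K * (u - u₀), by ring⟩))
  have h3 : F ∣[(2 : ℤ)] δ = χ (-(K * u * v₀)) • F ∣[(2 : ℤ)] δ₀ := by
    have e : δ = δ * δ₀⁻¹ * δ₀ := by simp
    rw [e, SlashAction.slash_mul, h2, ModularForm.SL_smul_slash, e11]
    congr 2
    push_cast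
    simp
  have h4 : ∀ (v u : ℤ) (δ : SL(2, ℤ)), tr ((v : ℝ) / q) * mapGL ℝ (lo (K * q * u)) =
      mapGL ℝ δ * dg q → (F ∣[(2 : ℤ)] tr ((v : ℝ) / q)) ∣[(2 : ℤ)] lo (K * q * u) =
      (F ∣[(2 : ℤ)] δ) ∣[(2 : ℤ)] dg q := by
    intro v u δ h
    change (F ∣[(2 : ℤ)] tr ((v : ℝ) / q)) ∣[(2 : ℤ)] (mapGL ℝ (lo (K * q * u)) : GL (Fin 2) ℝ) =
      (F ∣[(2 : ℤ)] (mapGL ℝ δ : GL (Fin 2) ℝ)) ∣[(2 : ℤ)] dg q
    rw [← SlashAction.slash_mul, ← SlashAction.slash_mul, h]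
  rw [h4 v u δ h, h4 v₀ u₀ δ₀ h', h3, smul_slash_dg]

/-- The key identity: `F | (1 v/q; 0 1) (1 0; Kqu 1) = χ(v⁻¹) Ψ(v⁻¹ + K u)`. -/
theorem Loc.exists_psi [Fact q.Prime] (hK : ¬ q ∣ K) (hF : Loc q K χ F) :
    ∃ Ψ : ZMod q → (ℍ → ℂ), ∀ u v : ℤ, (v : ZMod q) ≠ 0 →
      (F ∣[(2 : ℤ)] tr ((v : ℝ) / q)) ∣[(2 : ℤ)] lo (K * q * u) =
        χ ((v : ZMod q)⁻¹) • Ψ ((v : ZMod q)⁻¹ + K * u) := by
  classical
  have hK' : (K : ZMod q) ≠ 0 := by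
    rw [Ne, ZMod.natCast_eq_zero_iff]
    exact hK
  obtain ⟨v₀, hv₀⟩ : ∃ v₀ : ℤ, (v₀ : ZMod q) = -(K : ZMod q)⁻¹ :=
    ⟨((-(K : ZMod q)⁻¹).val : ℤ), by push_cast; rw [ZMod.natCast_val, ZMod.cast_id', id]⟩
  obtain ⟨s₀, hs₀⟩ : (q : ℤ) ∣ 1 + K * 1 * v₀ := by
    rw [← ZMod.intCast_zmod_eq_zero_iff_dvd]
    push_cast
    rw [hv₀]
    field_simp
    ring
  refine ⟨fun y => if y = 0 then χ (-(K : ZMod q)⁻¹) •
      (F ∣[(2 : ℤ)] tr ((v₀ : ℝ) / q)) ∣[(2 : ℤ)] lo (K * q * 1)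
    else χ y⁻¹ • F ∣[(2 : ℤ)] tr ((((y⁻¹).val : ℤ) : ℝ) / q), fun u v hv => ?_⟩
  by_cases hy : (v : ZMod q)⁻¹ + K * u = 0
  · beta_reduce
    rw [if_pos hy]
    have hu : (u : ZMod q) = -(v : ZMod q)⁻¹ * (K : ZMod q)⁻¹ := by
      field_simp
      field_simp at hy
      linear_combination hy
    obtain ⟨s, hs⟩ : (q : ℤ) ∣ 1 + K * u * v := by
      rw [← ZMod.intCast_zmod_eq_zero_iff_dvd]
      push_cast
      rw [hu]
      field_simp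
      ring
    rw [hF.b hs hs₀, smul_smul, ← map_mul]
    congr 2
    rw [hv₀, hu]
    field_simp
  · beta_reduce
    rw [if_neg hy]
    set y : ZMod q := (v : ZMod q)⁻¹ + K * u with hydef
    have hx : (((y⁻¹).val : ℤ) : ZMod q) = y⁻¹ := by
      push_cast
      rw [ZMod.natCast_val, ZMod.cast_id', id]
    have e : (1 + (K : ZMod q) * u * v) = v * y := by
      rw [hydef]
      field_simp
    rw [hF.a (x := ((y⁻¹).val : ℤ)) (by rw [hx, e]; field_simp), smul_smul, ← map_mul]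
    congr 2
    rw [hx]
    have e2 : (K : ZMod q) * u = y - (v : ZMod q)⁻¹ := by
      rw [hydef]
      ring
    rw [e2]
    field_simp
    ring

end Fermat.Agent.RT.AL
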