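import Fermat.Agent.RT.AL1

set_option autoImplicit false

/-!
# Twisting operators and the basic vanishing lemma
-/

open UpperHalfPlane hiding I
open ModularForm Matrix Matrix.SpecialLinearGroup CongruenceSubgroup Filter
open Fermat.Agent.ESCore Fermat.Agent.Eis16 Fermat.Agent.DS
open scoped MatrixGroups Manifold Topology ZMod

noncomputable section

namespace Fermat.Agent.RT.AL

theorem qParam_tr (x : ℝ) (τ : ℍ) : Function.Periodic.qParam 1 (tr x • τ : ℍ) =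
    Complex.exp (2 * Real.pi * Complex.I * x) * Function.Periodic.qParam 1 τ := by
  rw [Function.Periodic.qParam, Function.Periodic.qParam, tr_smul, ← Complex.exp_add]
  congr 1
  push_cast
  ring

theorem hasQ_tr {F : ℍ → ℂ} {P : PowerSeries ℂ} (hF : HasQ 1 F P) (x : ℝ) :
    HasQ 1 (F ∣[(2 : ℤ)] tr x)
      (PowerSeries.rescale (Complex.exp (2 * Real.pi * Complex.I * x)) P) :=
  (hF.comp_rescale (u := fun τ => tr x • τ) _ (qParam_tr x)).congr fun τ => (slash_tr 2 F x τ).symm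

variable {m : ℕ} [NeZero m]

/-- The operator `∑ aₙ qⁿ ↦ ∑ Φ(n) aₙ qⁿ`. -/
def tw (m : ℕ) [NeZero m] (Φ : ZMod m → ℂ) (F : ℍ → ℂ) : ℍ → ℂ :=
  ∑ u : ZMod m, ((m : ℂ)⁻¹ * 𝓕 Φ u) • F ∣[(2 : ℤ)] tr (((u.val : ℤ) : ℝ) / m)

theorem exp_pow_val (n : ℕ) (u : ZMod m) :
    Complex.exp (2 * Real.pi * Complex.I * ((((u.val : ℤ) : ℝ) / m : ℝ) : ℂ)) ^ n =
      ZMod.stdAddChar (u * (n : ZMod m)) := by
  have e : u * (n : ZMod m) = (((u.val : ℤ) * n : ℤ) : ZMod m) := by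
    push_cast
    rw [ZMod.natCast_val, ZMod.cast_id', id]
  rw [e, ZMod.stdAddChar_coe, ← Complex.exp_nat_mul]
  congr 1
  push_cast
  ring

theorem hasQ_tw {F : ℍ → ℂ} {P : PowerSeries ℂ} (hF : HasQ 1 F P) (Φ : ZMod m → ℂ) :
    HasQ 1 (tw m Φ F) (PowerSeries.mk fun n => Φ n * P.coeff n) := by
  have h := HasQ.finset_sum (Finset.univ : Finset (ZMod m)) fun u _ =>
    (hasQ_tr hF (((u.val : ℤ) : ℝ) / m)).smul ((m : ℂ)⁻¹ * 𝓕 Φ u)
  refine Eq.mp ?_ h
  congr 1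
  ext n
  rw [map_sum, PowerSeries.coeff_mk]
  have h2 : ∀ u : ZMod m, (((m : ℂ)⁻¹ * 𝓕 Φ u) • PowerSeries.rescale
      (Complex.exp (2 * Real.pi * Complex.I * ((((u.val : ℤ) : ℝ) / m : ℝ) : ℂ))) P).coeff n =
      ((m : ℂ)⁻¹ * (ZMod.stdAddChar (u * (n : ZMod m)) * 𝓕 Φ u)) * P.coeff n := by
    intro u
    rw [PowerSeries.coeff_smul, PowerSeries.coeff_rescale, exp_pow_val]
    ring
  rw [Finset.sum_congr rfl fun u _ => h2 u, ← Finset.sum_mul, ← Finset.mul_sum]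
  congr 1
  have h3 := ZMod.invDFT_apply (𝓕 Φ) (n : ZMod m)
  rw [LinearEquiv.symm_apply_apply, smul_eq_mul] at h3
  rw [h3]
  rfl

variable {q K : ℕ}

/-- averaging over lower unipotent matrices -/
def avg (q K : ℕ) [NeZero q] (F : ℍ → ℂ) : ℍ → ℂ :=
  ∑ u : ZMod q, F ∣[(2 : ℤ)] lo (K * q * (u.val : ℤ))

theorem avg_add [NeZero q] (F G : ℍ → ℂ) : avg q K (F + G) = avg q K F + avg q K G := by
  rw [avg, avg, avg, ← Finset.sum_add_distrib]
  exact Finset.sum_congr rfl fun u _ => SlashAction.add_slash _ _ _ _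

theorem avg_smul [NeZero q] (c : ℂ) (F : ℍ → ℂ) : avg q K (c • F) = c • avg q K F := by
  rw [avg, avg, Finset.smul_sum]
  exact Finset.sum_congr rfl fun u _ => ModularForm.SL_smul_slash _ _ _ _

theorem avg_zero [NeZero q] : avg q K 0 = 0 := by
  rw [avg]
  exact Finset.sum_eq_zero fun u _ => SlashAction.zero_slash _ _

theorem avg_sum [NeZero q] {ι : Type*} (s : Finset ι) (F : ι → ℍ → ℂ) :
    avg q K (∑ i ∈ s, F i) = ∑ i ∈ s, avg q K (F i) := by
  classical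
  induction s using Finset.induction_on with
  | empty => simpa using avg_zero
  | insert i s hi ih => rw [Finset.sum_insert hi, Finset.sum_insert hi, avg_add, ih]

variable {χ : MulChar (ZMod q) ℂ} {F : ℍ → ℂ}

theorem Loc.avg_self [NeZero q] (hF : Loc q K χ F) : avg q K F = (q : ℂ) • F := by
  have h : ∀ u : ZMod q, F ∣[(2 : ℤ)] lo (K * q * (u.val : ℤ)) = F := by
    intro u
    have h10 : lo (K * q * (u.val : ℤ)) 1 0 = K * q * (u.val : ℤ) := rfl
    have h11 : lo (K * q * (u.val : ℤ)) 1 1 = 1 := rfl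
    rw [hF _ (mem_Gamma1_of (by rw [h11]; simp) (by rw [h10]; exact ⟨q * (u.val : ℤ), by ring⟩))
      (mem_Gamma0_of (by rw [h10]; exact ⟨K * (u.val : ℤ), by ring⟩)), h11]
    simp
  rw [avg, Finset.sum_congr rfl fun u _ => h u, Finset.sum_const, Finset.card_univ, ZMod.card]
  ext τ
  simp

theorem Loc.sum_zero [Fact q.Prime] (hK : ¬ q ∣ K) (hF : Loc q K χ F) {w : MulChar (ZMod q) ℂ}
    (hw : w * χ ≠ 1) :
    ∑ v : ZMod q, w v⁻¹ • avg q K (F ∣[(2 : ℤ)] tr (((v.val : ℤ) : ℝ) / q)) = 0 := by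
  obtain ⟨Ψ, hΨ⟩ := hF.exists_psi hK
  have hv : ∀ v : ZMod q, (((v.val : ℤ)) : ZMod q) = v := fun v => by
    push_cast
    rw [ZMod.natCast_val, ZMod.cast_id', id]
  have h1 : ∀ v : ZMod q, w v⁻¹ • avg q K (F ∣[(2 : ℤ)] tr (((v.val : ℤ) : ℝ) / q)) =
      (w * χ) v⁻¹ • ∑ y : ZMod q, Ψ y := by
    intro v
    rcases eq_or_ne v 0 with rfl | hv0
    · rw [_root_.inv_zero, MulChar.map_zero, MulChar.map_zero, zero_smul, zero_smul]
    · have h2 : avg q K (F ∣[(2 : ℤ)] tr (((v.val : ℤ) : ℝ) / q)) =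
          ∑ u : ZMod q, χ v⁻¹ • Ψ (v⁻¹ + K * u) := by
        rw [avg]
        refine Finset.sum_congr rfl fun u _ => ?_
        rw [hΨ (u.val : ℤ) (v.val : ℤ) (by rw [hv]; exact hv0), hv, hv]
      have hK' : (K : ZMod q) ≠ 0 := by
        rw [Ne, ZMod.natCast_eq_zero_iff]
        exact hK
      have h3 : ∑ u : ZMod q, Ψ (v⁻¹ + K * u) = ∑ y : ZMod q, Ψ y := by
        refine Fintype.sum_equiv ((Equiv.mulLeft₀ (K : ZMod q) hK').trans (Equiv.addLeft v⁻¹)) _ _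
          fun u => ?_
        simp
      rw [h2, ← Finset.smul_sum, h3, smul_smul, MulChar.mul_apply]
  rw [Finset.sum_congr rfl fun v _ => h1 v, ← Finset.sum_smul,
    Fintype.sum_equiv (Equiv.inv (ZMod q)) (fun v => (w * χ) v⁻¹) (fun v => (w * χ) v)
      (fun v => rfl), MulChar.sum_eq_zero_of_ne_one hw, zero_smul]

theorem dft_mulChar [Fact q.Prime] {ψ : MulChar (ZMod q) ℂ} (hψ : ψ ≠ 1) (u : ZMod q) :
    𝓕 (fun n => ψ n) u = ψ u⁻¹ * 𝓕 (fun n => ψ n) 1 := by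
  rw [ZMod.dft_apply, ZMod.dft_apply]
  rcases eq_or_ne u 0 with rfl | hu
  · rw [_root_.inv_zero, MulChar.map_zero, zero_mul]
    simp only [mul_zero, neg_zero, AddChar.map_zero_eq_one, one_smul]
    exact MulChar.sum_eq_zero_of_ne_one hψ
  · rw [Finset.mul_sum]
    refine Fintype.sum_equiv (Equiv.mulRight₀ u hu) _ _ fun j => ?_
    have e0 : (Equiv.mulRight₀ u hu) j = j * u := rfl
    simp only [e0, smul_eq_mul, mul_one, map_mul]
    have e : ψ u⁻¹ * ψ u = 1 := by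
      rw [← map_mul, inv_mul_cancel₀ hu, map_one]
    linear_combination (-(ZMod.stdAddChar (-(j * u))) * ψ j) * e

theorem dft_one [Fact q.Prime] (u : ZMod q) :
    (q : ℂ)⁻¹ * 𝓕 (fun n => (1 : MulChar (ZMod q) ℂ) n) u = (if u = 0 then 1 else 0) - (q : ℂ)⁻¹ := by
  have hq : (q : ℂ) ≠ 0 := by exact_mod_cast (Fact.out : q.Prime).ne_zero
  have h1 : 𝓕 (fun n => (1 : MulChar (ZMod q) ℂ) n) u =
      ∑ j : ZMod q, ZMod.stdAddChar (-(j * u)) - 1 := by
    rw [ZMod.dft_apply, ← Finset.add_sum_erase _ _ (Finset.mem_univ (0 : ZMod q)),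
      ← Finset.add_sum_erase _ (fun j => (ZMod.stdAddChar (-(j * u)) : ℂ))
        (Finset.mem_univ (0 : ZMod q)), MulChar.map_zero, smul_zero, zero_add]
    have h2 : ∀ j ∈ (Finset.univ : Finset (ZMod q)).erase 0,
        (ZMod.stdAddChar (-(j * u)) : ℂ) • (1 : MulChar (ZMod q) ℂ) j =
          ZMod.stdAddChar (-(j * u)) := by
      intro j hj
      rw [MulChar.one_apply (isUnit_iff_ne_zero.mpr (Finset.ne_of_mem_erase hj)), smul_eq_mul,
        mul_one]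
    rw [Finset.sum_congr rfl h2, zero_mul, neg_zero, AddChar.map_zero_eq_one]
    ring
  have h2 : ∑ j : ZMod q, (ZMod.stdAddChar (-(j * u)) : ℂ) = if u = 0 then (q : ℂ) else 0 := by
    have h3 := AddChar.sum_mulShift (-u) (ZMod.isPrimitive_stdAddChar q)
    simp only [ZMod.card, neg_eq_zero] at h3
    have h4 : ∀ j : ZMod q, (ZMod.stdAddChar (-(j * u)) : ℂ) = ZMod.stdAddChar (j * -u) := by
      intro j
      rw [mul_neg]
    rw [Finset.sum_congr rfl fun j _ => h4 j, h3]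
    split_ifs <;> simp
  rw [h1, h2]
  split_ifs with h
  · field_simp
  · field_simp
    ring

theorem Loc.avg_tw [Fact q.Prime] (hK : ¬ q ∣ K) (hF : Loc q K 1 F)
    {ψ : MulChar (ZMod q) ℂ} (hψ : ψ ≠ 1) : avg q K (tw q (fun n => ψ n) F) = 0 := by
  have h := hF.sum_zero hK (w := ψ) (by rwa [mul_one])
  rw [tw, avg_sum]
  have h2 : ∀ v : ZMod q, avg q K (((q : ℂ)⁻¹ * 𝓕 (fun n => ψ n) v) •
      F ∣[(2 : ℤ)] tr (((v.val : ℤ) : ℝ) / q)) = ((q : ℂ)⁻¹ * 𝓕 (fun n => ψ n) 1) •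
      (ψ v⁻¹ • avg q K (F ∣[(2 : ℤ)] tr (((v.val : ℤ) : ℝ) / q))) := by
    intro v
    rw [avg_smul, dft_mulChar hψ v, smul_smul]
    congr 1
    ring
  rw [Finset.sum_congr rfl fun v _ => h2 v, ← Finset.smul_sum, h, smul_zero]

theorem Loc.avg_tw_one [Fact q.Prime] (hK : ¬ q ∣ K) (hF : Loc q K χ F) (hχ : χ ≠ 1) :
    avg q K (tw q (fun n => (1 : MulChar (ZMod q) ℂ) n) F) = ((q : ℂ) - 1) • F := by
  have hq : (q : ℂ) ≠ 0 := by exact_mod_cast (Fact.out : q.Prime).ne_zero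
  have h := hF.sum_zero hK (w := 1) (by rwa [one_mul])
  have h0 : F ∣[(2 : ℤ)] tr ((((0 : ZMod q).val : ℤ) : ℝ) / q) = F := by
    have := hF.slash_tr_int 0
    simpa using this
  rw [tw, avg_sum]
  have h2 : ∀ v : ZMod q, avg q K (((q : ℂ)⁻¹ * 𝓕 (fun n => (1 : MulChar (ZMod q) ℂ) n) v) •
      F ∣[(2 : ℤ)] tr (((v.val : ℤ) : ℝ) / q)) =
      (if v = 0 then ((q : ℂ) - 1) • F else 0) -
      (q : ℂ)⁻¹ • ((1 : MulChar (ZMod q) ℂ) v⁻¹ • avg q K (F ∣[(2 : ℤ)]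
        tr (((v.val : ℤ) : ℝ) / q))) := by
    intro v
    rw [avg_smul, dft_one]
    rcases eq_or_ne v 0 with rfl | hv
    · rw [if_pos rfl, if_pos rfl, h0, hF.avg_self, _root_.inv_zero, MulChar.map_zero, zero_smul, smul_zero,
        sub_zero, smul_smul]
      congr 1
      field_simp
    · rw [if_neg hv, if_neg hv, MulChar.one_apply (isUnit_iff_ne_zero.mpr (inv_ne_zero hv)),
        one_smul, zero_sub, zero_sub, _root_.neg_smul]
  rw [Finset.sum_congr rfl fun v _ => h2 v, Finset.sum_sub_distrib, ← Finset.smul_sum, h,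
    smul_zero, sub_zero, Finset.sum_ite_eq' Finset.univ (0 : ZMod q)]
  simp

/-- **The basic vanishing lemma.** `G` has a nontrivial character `χ` at `q`, `H` has trivial
character, and `G = H ⊗ ψ` away from `q`. Then `G = 0`. -/
theorem eq_zero_of_twist [Fact q.Prime] (hK : ¬ q ∣ K) {G H : ℍ → ℂ} {P Q : PowerSeries ℂ}
    (hG : Loc q K χ G) (hχ : χ ≠ 1) (hH : Loc q K 1 H) {ψ : MulChar (ZMod q) ℂ} (hψ : ψ ≠ 1)
    (hP : HasQ 1 G P) (hQ : HasQ 1 H Q) (h : ∀ n : ℕ, ¬ q ∣ n → P.coeff n = ψ n * Q.coeff n) :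
    G = 0 := by
  have e : tw q (fun n => (1 : MulChar (ZMod q) ℂ) n) G = tw q (fun n => ψ n) H := by
    refine HasQ.ext (hasQ_tw hP _) ?_
    have h2 := hasQ_tw hQ (fun n => ψ n)
    have e2 : (PowerSeries.mk fun n => ψ (n : ZMod q) * Q.coeff n) =
        (PowerSeries.mk fun n => (1 : MulChar (ZMod q) ℂ) (n : ZMod q) * P.coeff n) := by
      ext n
      rw [PowerSeries.coeff_mk, PowerSeries.coeff_mk]
      by_cases hn : q ∣ n
      · have hn' : (n : ZMod q) = 0 := (ZMod.natCast_eq_zero_iff _ _).mpr hn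
        rw [hn', MulChar.map_zero, MulChar.map_zero, zero_mul, zero_mul]
      · have hn' : (n : ZMod q) ≠ 0 := fun h' => hn ((ZMod.natCast_eq_zero_iff _ _).mp h')
        rw [MulChar.one_apply (isUnit_iff_ne_zero.mpr hn'), one_mul, h n hn]
    rwa [e2] at h2
  have h3 := hG.avg_tw_one hK hχ
  rw [e, hH.avg_tw hK hψ] at h3
  have h4 : (q : ℂ) - 1 ≠ 0 := by
    rw [sub_ne_zero]
    exact_mod_cast (Fact.out : q.Prime).one_lt.ne'
  exact (smul_eq_zero.mp h3.symm).resolve_left h4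

end Fermat.Agent.RT.AL
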