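import Fermat.Agent.RT.AL2
import Fermat.Agent.DS.ModL2

set_option autoImplicit false

/-!
# Twists and Hecke operators `U_r` on cusp forms with nebentypus
-/

open UpperHalfPlane hiding I
open ModularForm Matrix Matrix.SpecialLinearGroup CongruenceSubgroup Filter
open Fermat.Agent.ESCore Fermat.Agent.Eis16 Fermat.Agent.DS Fermat.Agent.ESCore.UnivG
open scoped MatrixGroups Manifold Topology ZMod

noncomputable section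

namespace Fermat.Agent.RT.AL

/-- A real matrix with rational entries. -/
def RatM (δ : GL (Fin 2) ℝ) : Prop :=
  ∃ t : ℤ, t ≠ 0 ∧ ∃ a b c d : ℤ, (t : ℝ) * δ.1 0 0 = a ∧ (t : ℝ) * δ.1 0 1 = b ∧
    (t : ℝ) * δ.1 1 0 = c ∧ (t : ℝ) * δ.1 1 1 = d

theorem RatM.mul_SL {δ : GL (Fin 2) ℝ} (h : RatM δ) (A : SL(2, ℤ)) : RatM (δ * mapGL ℝ A) := by
  obtain ⟨t, ht, a, b, c, d, h1, h2, h3, h4⟩ := h
  have e : (δ * mapGL ℝ A).1 = δ.1 * (mapGL ℝ A : GL (Fin 2) ℝ).1 := Units.val_mul _ _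
  refine ⟨t, ht, a * A 0 0 + b * A 1 0, a * A 0 1 + b * A 1 1, c * A 0 0 + d * A 1 0,
    c * A 0 1 + d * A 1 1, ?_, ?_, ?_, ?_⟩ <;>
  · rw [e, val_mapGL, Matrix.mul_apply, Fin.sum_univ_two]
    push_cast
    simp [← h1, ← h2, ← h3, ← h4]
    ring

/-- A rational matrix is the product of a matrix in `SL₂(ℤ)` and an upper triangular one. -/
theorem RatM.exists_factor {δ : GL (Fin 2) ℝ} (h : RatM δ) :
    ∃ (A : SL(2, ℤ)) (B : GL (Fin 2) ℝ), δ = mapGL ℝ A * B ∧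
      (B : Matrix (Fin 2) (Fin 2) ℝ) 1 0 = 0 := by
  obtain ⟨t, ht, a, b, c, d, h1, h2, h3, h4⟩ := h
  have ht' : (t : ℝ) ≠ 0 := by exact_mod_cast ht
  have hne : a ≠ 0 ∨ c ≠ 0 := by
    by_contra hcon
    push Not at hcon
    obtain ⟨rfl, rfl⟩ := hcon
    have h5 : δ.1 0 0 = 0 := by
      have := h1
      simpa [ht'] using this
    have h6 : δ.1 1 0 = 0 := by
      have := h3
      simpa [ht'] using this
    have h7 : δ.1.det ≠ 0 := by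
      have := δ.det.ne_zero
      rwa [Matrix.GeneralLinearGroup.val_det_apply] at this
    rw [Matrix.det_fin_two, h5, h6] at h7
    simp at h7
  have hg : (Int.gcd a c : ℤ) ≠ 0 := by
    rw [Ne, Int.natCast_eq_zero, Int.gcd_eq_zero_iff]
    tauto
  obtain ⟨a', ha'⟩ := Int.gcd_dvd_left a c
  obtain ⟨c', hc'⟩ := Int.gcd_dvd_right a c
  have hcop : IsCoprime a' c' := by
    have h8 := Int.gcd_eq_gcd_ab a c
    refine ⟨Int.gcdA a c, Int.gcdB a c, mul_left_cancel₀ hg ?_⟩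
    linear_combination (-(Int.gcdA a c)) * ha' - Int.gcdB a c * hc' - h8
  obtain ⟨x, y, hxy⟩ := hcop
  obtain ⟨A, h00, h01, h10, h11⟩ := exists_SL a' (-y) c' x (by linear_combination hxy)
  refine ⟨A, (mapGL ℝ A)⁻¹ * δ, by rw [mul_inv_cancel_left], ?_⟩
  have e1 : ((mapGL ℝ A)⁻¹ : GL (Fin 2) ℝ) = mapGL ℝ A⁻¹ := (map_inv _ A).symm
  have e2 : ((mapGL ℝ A)⁻¹ * δ : GL (Fin 2) ℝ).1 = (mapGL ℝ A⁻¹ : GL (Fin 2) ℝ).1 * δ.1 := by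
    rw [← e1]
    exact Units.val_mul _ _
  have i10 : (A⁻¹ : SL(2, ℤ)) 1 0 = -c' := by
    rw [Matrix.SpecialLinearGroup.coe_inv, Matrix.adjugate_fin_two]
    simp [h10]
  have i11 : (A⁻¹ : SL(2, ℤ)) 1 1 = a' := by
    rw [Matrix.SpecialLinearGroup.coe_inv, Matrix.adjugate_fin_two]
    simp [h00]
  change ((mapGL ℝ A)⁻¹ * δ : GL (Fin 2) ℝ).1 1 0 = 0
  rw [e2, val_mapGL, Matrix.mul_apply, Fin.sum_univ_two, i10, i11]
  have h9 : (c' : ℝ) * a = a' * c := by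
    have : (c' : ℤ) * a = a' * c := by
      linear_combination c' * ha' - a' * hc'
    exact_mod_cast this
  have h10' : (t : ℝ) * (-(c' : ℝ) * δ.1 0 0 + a' * δ.1 1 0) = 0 := by
    linear_combination (-(c' : ℝ)) * h1 + (a' : ℝ) * h3 - h9
  have := (mul_eq_zero.mp h10').resolve_left ht'
  simpa using this

theorem ratM_tr (u : ℤ) (m : ℕ) [NeZero m] : RatM (tr ((u : ℝ) / m)) := by
  have hm : (m : ℝ) ≠ 0 := by exact_mod_cast NeZero.ne m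
  refine ⟨m, by exact_mod_cast NeZero.ne m, m, u, 0, m, ?_, ?_, ?_, ?_⟩ <;> rw [val_tr] <;> simp
  field_simp

theorem ratM_heckeMatrix {r : ℕ} (hr : r ≠ 0) (j : ℕ) : RatM (heckeMatrix r j) := by
  refine ⟨1, one_ne_zero, 1, j, 0, r, ?_, ?_, ?_, ?_⟩ <;>
    rw [heckeMatrix, dif_neg hr, val_upperTriangularGL] <;> simp

variable {G G' : Subgroup SL(2, ℤ)}

/-- Linear combinations of rational translates of cusp forms are cusp forms. -/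
theorem mem_S2_of {f : ℍ → ℂ} (hf : f ∈ S2 G) {ι : Type*} (s : Finset ι) (c : ι → ℂ)
    (δ : ι → GL (Fin 2) ℝ) (hδ : ∀ i ∈ s, RatM (δ i))
    (hinv : ∀ γ ∈ G', (∑ i ∈ s, c i • f ∣[(2 : ℤ)] δ i) ∣[(2 : ℤ)] γ =
      ∑ i ∈ s, c i • f ∣[(2 : ℤ)] δ i) : (∑ i ∈ s, c i • f ∣[(2 : ℤ)] δ i) ∈ S2 G' := by
  have hsl : ∀ A : SL(2, ℤ), (∑ i ∈ s, c i • f ∣[(2 : ℤ)] δ i) ∣[(2 : ℤ)] A =
      ∑ i ∈ s, c i • f ∣[(2 : ℤ)] (δ i * mapGL ℝ A) := by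
    intro A
    change (∑ i ∈ s, c i • f ∣[(2 : ℤ)] δ i) ∣[(2 : ℤ)] (mapGL ℝ A : GL (Fin 2) ℝ) = _
    rw [SlashAction.sum_slash]
    refine Finset.sum_congr rfl fun x _ => ?_
    rw [SlashAction.slash_mul]
    exact ModularForm.SL_smul_slash 2 A (f ∣[(2 : ℤ)] δ x) (c x)
  have hzero : ∀ A : SL(2, ℤ),
      IsZeroAtImInfty ((∑ i ∈ s, c i • f ∣[(2 : ℤ)] δ i) ∣[(2 : ℤ)] A) := by
    intro A
    rw [hsl]
    refine Finset.sum_induction _ IsZeroAtImInfty (fun _ _ h h' => h.add h')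
      (zero_zeroAtFilter _) fun x hx => ?_
    obtain ⟨A', B, h5, h6⟩ := ((hδ x hx).mul_SL A).exists_factor
    rw [h5, SlashAction.slash_mul]
    exact (IsZeroAtImInfty.slash 2 h6 (hf.2 A')).smul (c x)
  refine ⟨⟨?_, fun γ => ?_, fun A => (hzero A).isBoundedAtImInfty⟩, hzero⟩
  · exact mdiff_sum _ fun x _ => (hf.1.1.slash 2 (δ x)).const_smul (c x)
  · rw [MonoidHom.one_apply, Units.val_one, one_smul]
    exact hinv γ γ.2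

/-- `(1 u/m; 0 1) γ = δ (1 u'/m; 0 1)` -/
theorem mat_t {m : ℕ} [NeZero m] {u u' c' y : ℤ} {γ : SL(2, ℤ)} (hc : γ 1 0 = m * c')
    (hy : m * y = γ 0 1 * m + γ 1 1 * u - u' * (γ 0 0 + c' * u)) :
    ∃ δ : SL(2, ℤ), δ 1 0 = γ 1 0 ∧ δ 1 1 = γ 1 1 - c' * u' ∧
      tr ((u : ℝ) / m) * mapGL ℝ γ = mapGL ℝ δ * tr ((u' : ℝ) / m) := by
  have hm : (m : ℝ) ≠ 0 := by exact_mod_cast NeZero.ne m
  have hdet := Matrix.SpecialLinearGroup.det_coe γ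
  rw [Matrix.det_fin_two] at hdet
  obtain ⟨δ, h00, h01, h10, h11⟩ := exists_SL (γ 0 0 + c' * u) y (γ 1 0) (γ 1 1 - c' * u')
    (by linear_combination hdet + (-y + γ 0 1) * hc - c' * hy)
  refine ⟨δ, h10, h11, ?_⟩
  have hy' : (m : ℝ) * y = γ 0 1 * m + γ 1 1 * u - u' * (γ 0 0 + c' * u) := by exact_mod_cast hy
  have hc' : ((γ 1 0 : ℤ) : ℝ) = m * c' := by exact_mod_cast hc
  apply Units.ext
  rw [Units.val_mul, Units.val_mul, val_tr, val_tr, val_mapGL, val_mapGL, h00, h01, h10, h11,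
    Matrix.mul_fin_two, Matrix.mul_fin_two]
  have e : (y : ℝ) = (γ 0 1 * m + γ 1 1 * u - u' * (γ 0 0 + c' * u)) / m := by
    rw [eq_div_iff hm, ← hy']
    ring
  ext i j
  fin_cases i <;> fin_cases j <;> simp
  · rw [hc']
    field_simp
  · rw [e]
    field_simp
    ring
  · rw [hc']
    field_simp
    ring

theorem slash_tr_slash {m : ℕ} {F : ℍ → ℂ} {u u' : ℤ} {γ δ : SL(2, ℤ)}
    (h : tr ((u : ℝ) / m) * mapGL ℝ γ = mapGL ℝ δ * tr ((u' : ℝ) / m)) :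
    (F ∣[(2 : ℤ)] tr ((u : ℝ) / m)) ∣[(2 : ℤ)] γ =
      (F ∣[(2 : ℤ)] δ) ∣[(2 : ℤ)] tr ((u' : ℝ) / m) := by
  change (F ∣[(2 : ℤ)] tr ((u : ℝ) / m)) ∣[(2 : ℤ)] (mapGL ℝ γ : GL (Fin 2) ℝ) =
    (F ∣[(2 : ℤ)] (mapGL ℝ δ : GL (Fin 2) ℝ)) ∣[(2 : ℤ)] tr ((u' : ℝ) / m)
  rw [← SlashAction.slash_mul, ← SlashAction.slash_mul, h]

/-- conjugation by a translation -/
theorem conj_tr_mem {m K : ℕ} [NeZero m] (u : ℤ) {γ : SL(2, ℤ)} (hγ : γ ∈ Gamma1 (K * m ^ 2)) :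
    ∃ δ : SL(2, ℤ), δ ∈ Gamma1 K ∧ δ 1 0 = γ 1 0 ∧ (∃ c₀ : ℤ, γ 1 0 = m ^ 2 * c₀ ∧
      δ 1 1 = γ 1 1 - m * (c₀ * u)) ∧
      tr ((u : ℝ) / m) * mapGL ℝ γ = mapGL ℝ δ * tr ((u : ℝ) / m) := by
  obtain ⟨c₁, hc₁⟩ := dvd_of_mem_Gamma1' hγ
  obtain ⟨d₁, hd₁⟩ := dvd_of_mem_Gamma1 hγ
  have hdet := Matrix.SpecialLinearGroup.det_coe γ
  rw [Matrix.det_fin_two] at hdet
  push_cast at hc₁ hd₁
  -- `a - 1` is divisible by `K m ^ 2`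
  have ha : γ 0 0 - 1 = K * m ^ 2 * (γ 0 1 * c₁ - γ 0 0 * d₁) := by
    linear_combination hdet + (γ 0 1) * hc₁ - (γ 0 0) * hd₁
  obtain ⟨δ, h10, h11, h⟩ := mat_t (m := m) (u := u) (u' := u) (c' := K * m * c₁)
    (y := γ 0 1 + u * K * m * (d₁ - (γ 0 1 * c₁ - γ 0 0 * d₁)) - K * c₁ * u ^ 2) (γ := γ)
    (by rw [hc₁]; ring) (by linear_combination (-u) * hd₁ + u * ha)
  refine ⟨δ, mem_Gamma1_of ?_ ?_, h10, ⟨K * c₁, by rw [hc₁]; ring, by rw [h11]; ring⟩, h⟩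
  · rw [h11]
    exact ⟨m ^ 2 * d₁ - m * c₁ * u, by linear_combination hd₁⟩
  · rw [h10, hc₁]
    exact ⟨m ^ 2 * c₁, by ring⟩

theorem tw_slash_of {m : ℕ} [NeZero m] {F : ℍ → ℂ} (Φ : ZMod m → ℂ) {γ : SL(2, ℤ)} {c : ℂ}
    (h : ∀ u : ZMod m, (F ∣[(2 : ℤ)] tr (((u.val : ℤ) : ℝ) / m)) ∣[(2 : ℤ)] γ =
      c • F ∣[(2 : ℤ)] tr (((u.val : ℤ) : ℝ) / m)) : tw m Φ F ∣[(2 : ℤ)] γ = c • tw m Φ F := by
  rw [tw]
  change (∑ u : ZMod m, ((m : ℂ)⁻¹ * 𝓕 Φ u) • F ∣[(2 : ℤ)] tr (((u.val : ℤ) : ℝ) / m))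
    ∣[(2 : ℤ)] (mapGL ℝ γ : GL (Fin 2) ℝ) = _
  rw [SlashAction.sum_slash, Finset.smul_sum]
  refine Finset.sum_congr rfl fun u _ => ?_
  have h2 := ModularForm.SL_smul_slash 2 γ (F ∣[(2 : ℤ)] tr (((u.val : ℤ) : ℝ) / m))
    ((m : ℂ)⁻¹ * 𝓕 Φ u)
  rw [h u, smul_comm] at h2
  exact h2

variable {q K m : ℕ} {χ : MulChar (ZMod q) ℂ} {F : ℍ → ℂ}

theorem Loc.tw [NeZero m] (hF : Loc q K χ F) (hmq : IsCoprime (m : ℤ) q) (Φ : ZMod m → ℂ) :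
    Loc q (K * m ^ 2) χ (tw m Φ F) := by
  intro γ hγ hγq
  refine tw_slash_of Φ fun u => ?_
  obtain ⟨δ, hδ, h10, ⟨c₀, hc₀, h11⟩, h⟩ := conj_tr_mem (u.val : ℤ) hγ
  have hq0 : (q : ℤ) ∣ c₀ := by
    have h1 := dvd_of_mem_Gamma0 hγq
    rw [hc₀] at h1
    exact (IsCoprime.pow_left (m := 2) hmq).symm.dvd_of_dvd_mul_left h1
  have hδq : δ ∈ Gamma0 q := mem_Gamma0_of (by rw [h10]; exact dvd_of_mem_Gamma0 hγq)
  rw [slash_tr_slash h, hF δ hδ hδq, smul_slash_tr]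
  congr 2
  rw [h11]
  have h2 : ((c₀ : ℤ) : ZMod q) = 0 := (ZMod.intCast_zmod_eq_zero_iff_dvd _ _).mpr hq0
  push_cast
  rw [h2]
  ring

theorem tw_mem_S2_Gamma1 [NeZero m] (hF : F ∈ S2 (Gamma1 K)) (Φ : ZMod m → ℂ) :
    tw m Φ F ∈ S2 (Gamma1 (K * m ^ 2)) := by
  rw [AL.tw]
  refine mem_S2_of hF Finset.univ _ _ (fun u _ => ratM_tr _ _) fun γ hγ => ?_
  have h := tw_slash_of (m := m) (F := F) Φ (γ := γ) (c := 1) fun u => ?_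
  · rwa [one_smul] at h
  · obtain ⟨δ, hδ, h10, -, h⟩ := conj_tr_mem (u.val : ℤ) hγ
    rw [slash_tr_slash h, S2_inv hF ⟨δ, hδ⟩, one_smul]

/-- `F` has nebentypus `c` on `Γ₀(M)` -/
def Neb (M : ℕ) (c : ℤ → ℂ) (F : ℍ → ℂ) : Prop :=
  ∀ γ : SL(2, ℤ), γ ∈ Gamma0 M → F ∣[(2 : ℤ)] γ = c (γ 1 1) • F

theorem slash_tr_int_of (hF : F ∈ S2 (Gamma1 K)) (j : ℤ) : F ∣[(2 : ℤ)] tr j = F := by
  rw [← mapGL_T_zpow]
  exact S2_inv hF ⟨_, T_zpow_mem K j⟩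

theorem slash_tr_congr_of [NeZero m] (hF : F ∈ S2 (Gamma1 K)) {x y : ℤ} (h : (m : ℤ) ∣ x - y) :
    F ∣[(2 : ℤ)] tr ((x : ℝ) / m) = F ∣[(2 : ℤ)] tr ((y : ℝ) / m) := by
  have hq : (m : ℝ) ≠ 0 := by exact_mod_cast NeZero.ne m
  obtain ⟨j, hj⟩ := h
  have e : (x : ℝ) / m = j + (y : ℝ) / m := by
    have : (x : ℝ) - y = m * j := by exact_mod_cast hj
    field_simp
    linear_combination this
  rw [e, tr_add, SlashAction.slash_mul, slash_tr_int_of hF]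

/-- **Twisting away the nebentypus.** -/
theorem tw_mem_S2_Gamma0 {N D : ℕ} [NeZero D] (hF : F ∈ S2 (Gamma1 (N * D)))
    (ψ : DirichletCharacter ℂ D) (hneb : Neb (N * D) (fun d => ψ (d : ZMod D) ^ 2) F) :
    tw D (fun n => ψ⁻¹ n) F ∈ S2 (Gamma0 (N * D ^ 2)) := by
  rw [AL.tw]
  refine mem_S2_of hF Finset.univ _ _ (fun u _ => ratM_tr _ _) fun γ hγ => ?_
  obtain ⟨c₁, hc₁⟩ := dvd_of_mem_Gamma0 hγ
  push_cast at hc₁
  have hdet := Matrix.SpecialLinearGroup.det_coe γ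
  rw [Matrix.det_fin_two] at hdet
  set a := γ 0 0 with ha
  set b := γ 0 1 with hb
  set d := γ 1 1 with hd
  have had : (a : ZMod D) * d = 1 := by
    have h1 := congrArg (Int.cast : ℤ → ZMod D) hdet
    rw [hc₁] at h1
    push_cast at h1
    rw [ZMod.natCast_self] at h1
    linear_combination h1
  have hdu : IsUnit (d : ZMod D) := IsUnit.of_mul_eq_one (a : ZMod D) (by rw [mul_comm]; exact had)
  -- the action of `γ` on the translates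
  have key : ∀ u u' : ℤ, (u' : ZMod D) = d ^ 2 * u →
      (F ∣[(2 : ℤ)] tr ((u : ℝ) / D)) ∣[(2 : ℤ)] γ =
        ψ (d : ZMod D) ^ 2 • F ∣[(2 : ℤ)] tr ((u' : ℝ) / D) := by
    intro u u' huu
    obtain ⟨y, hy⟩ : (D : ℤ) ∣ b * D + d * u - u' * (a + N * D * c₁ * u) := by
      rw [← ZMod.intCast_zmod_eq_zero_iff_dvd]
      push_cast
      rw [ZMod.natCast_self, huu]
      linear_combination (-(d : ZMod D) * u) * had
    obtain ⟨δ, h10, h11, h⟩ := mat_t (m := D) (u := u) (u' := u') (c' := N * D * c₁) (y := y)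
      (γ := γ) (by rw [hc₁]; ring) (by rw [← hy])
    have hδ : δ ∈ Gamma0 (N * D) := mem_Gamma0_of
      (by rw [h10, hc₁]; push_cast; exact ⟨D * c₁, by ring⟩)
    have e5 : ((δ 1 1 : ℤ) : ZMod D) = (d : ZMod D) := by
      rw [h11, hd]
      push_cast
      rw [ZMod.natCast_self]
      ring
    rw [slash_tr_slash h, hneb δ hδ, smul_slash_tr]
    change ψ ((δ 1 1 : ℤ) : ZMod D) ^ 2 • _ = _
    rw [e5]
  have hval : ∀ v : ZMod D, ((v.val : ℤ) : ZMod D) = v := fun v => by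
    push_cast
    rw [ZMod.natCast_val, ZMod.cast_id', id]
  obtain ⟨U, hU⟩ := hdu
  change (∑ u : ZMod D, ((D : ℂ)⁻¹ * 𝓕 (fun n => ψ⁻¹ n) u) • F ∣[(2 : ℤ)]
    tr (((u.val : ℤ) : ℝ) / D)) ∣[(2 : ℤ)] (mapGL ℝ γ : GL (Fin 2) ℝ) = _
  rw [SlashAction.sum_slash]
  have h1 : ∀ u : ZMod D, (((D : ℂ)⁻¹ * 𝓕 (fun n => ψ⁻¹ n) u) • F ∣[(2 : ℤ)]
      tr (((u.val : ℤ) : ℝ) / D)) ∣[(2 : ℤ)] (mapGL ℝ γ : GL (Fin 2) ℝ) =
      ((D : ℂ)⁻¹ * 𝓕 (fun n => ψ⁻¹ n) ((U ^ 2 : (ZMod D)ˣ) * u)) • F ∣[(2 : ℤ)]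
        tr (((((U ^ 2 : (ZMod D)ˣ) * u).val : ℤ) : ℝ) / D) := by
    intro u
    have h2 := ModularForm.SL_smul_slash 2 γ (F ∣[(2 : ℤ)] tr (((u.val : ℤ) : ℝ) / D))
      ((D : ℂ)⁻¹ * 𝓕 (fun n => ψ⁻¹ n) u)
    rw [key _ (((U ^ 2 : (ZMod D)ˣ) * u).val : ℤ) (by
      rw [hval, hval, ← hU]
      push_cast
      ring)] at h2
    refine h2.trans ?_
    rw [smul_smul]
    congr 1
    -- the Fourier transform
    have h3 : 𝓕 (fun n => ψ⁻¹ n) u = ψ⁻¹ (U ^ 2 : (ZMod D)ˣ) *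
        𝓕 (fun n => ψ⁻¹ n) ((U ^ 2 : (ZMod D)ˣ) * u) := by
      rw [ZMod.dft_apply, ZMod.dft_apply, Finset.mul_sum]
      refine Fintype.sum_equiv (Units.mulRight (U ^ 2)⁻¹) _ _ fun j => ?_
      have e0 : (Units.mulRight (U ^ 2)⁻¹) j = j * (((U ^ 2)⁻¹ : (ZMod D)ˣ) : ZMod D) := rfl
      rw [e0, smul_eq_mul, smul_eq_mul]
      have e1 : ((U ^ 2 : (ZMod D)ˣ) : ZMod D) * (((U ^ 2)⁻¹ : (ZMod D)ˣ) : ZMod D) = 1 :=
        Units.mul_inv _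
      have e2 : j * (((U ^ 2)⁻¹ : (ZMod D)ˣ) : ZMod D) * (((U ^ 2 : (ZMod D)ˣ) : ZMod D) * u) =
          j * u := by
        linear_combination j * u * e1
      have e3 : ψ⁻¹ ((U ^ 2 : (ZMod D)ˣ) : ZMod D) *
          ψ⁻¹ (((U ^ 2)⁻¹ : (ZMod D)ˣ) : ZMod D) = 1 := by
        rw [← map_mul, e1, map_one]
      rw [e2, map_mul]
      linear_combination (-(ZMod.stdAddChar (-(j * u))) * ψ⁻¹ j) * e3
    rw [h3, ← hU]
    have h4 : ψ (U : ZMod D) ^ 2 * ψ⁻¹ ((U ^ 2 : (ZMod D)ˣ) : ZMod D) = 1 := by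
      push_cast
      rw [map_pow, ← mul_pow, ← MulChar.mul_apply, mul_inv_cancel, MulChar.one_apply U.isUnit,
        one_pow]
    linear_combination ((D : ℂ)⁻¹ * 𝓕 (fun n => ψ⁻¹ n) ((U ^ 2 : (ZMod D)ˣ) * u)) * h4
  rw [Finset.sum_congr rfl fun u _ => h1 u]
  exact Fintype.sum_equiv (Units.mulLeft (U ^ 2)) _ _ fun u => rfl

end Fermat.Agent.RT.AL
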