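import Fermat.Agent.RT.AL3
import Fermat.Agent.Hecke.Eigenform
import Fermat.Prelude.Def_CuspForm_Newforms

set_option autoImplicit false

/-!
# Eigenforms with nebentypus: `U_r`, nonvanishing of the first coefficient, newforms
-/

open UpperHalfPlane hiding I
open ModularForm Matrix Matrix.SpecialLinearGroup CongruenceSubgroup Filter ModularFormClass
open Fermat.Agent.ESCore Fermat.Agent.Eis16 Fermat.Agent.DS Fermat.Agent.ESCore.UnivG
open scoped MatrixGroups Manifold Topology ZMod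

noncomputable section

namespace Fermat.Agent.RT.AL

variable {M r : ℕ} {F : ℍ → ℂ}

/-- `(1 j; 0 r) γ = δ (1 j'; 0 r)` -/
theorem mat_u (hr : r ≠ 0) {j j' : ℕ} {y : ℤ} {γ : SL(2, ℤ)}
    (hy : r * y = γ 0 1 + j * γ 1 1 - j' * (γ 0 0 + j * γ 1 0)) :
    ∃ δ : SL(2, ℤ), δ 1 0 = r * γ 1 0 ∧ δ 1 1 = γ 1 1 - γ 1 0 * j' ∧
      heckeMatrix r j * mapGL ℝ γ = mapGL ℝ δ * heckeMatrix r j' := by
  have hm : (r : ℝ) ≠ 0 := by exact_mod_cast hr
  have hdet := Matrix.SpecialLinearGroup.det_coe γ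
  rw [Matrix.det_fin_two] at hdet
  obtain ⟨δ, h00, h01, h10, h11⟩ := exists_SL (γ 0 0 + j * γ 1 0) y (r * γ 1 0)
    (γ 1 1 - γ 1 0 * j') (by linear_combination hdet - (γ 1 0) * hy)
  refine ⟨δ, h10, h11, ?_⟩
  have hy' : (r : ℝ) * y = γ 0 1 + j * γ 1 1 - j' * (γ 0 0 + j * γ 1 0) := by exact_mod_cast hy
  apply Units.ext
  rw [Units.val_mul, Units.val_mul, heckeMatrix, heckeMatrix, dif_neg hr, dif_neg hr,
    val_upperTriangularGL, val_upperTriangularGL, val_mapGL, val_mapGL, h00, h01, h10, h11,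
    Matrix.mul_fin_two, Matrix.mul_fin_two]
  ext i j
  fin_cases i <;> fin_cases j <;> simp
  · linear_combination -hy'
  · ring

theorem heckeU_eq_sum_ZMod [NeZero r] (F : ℍ → ℂ) :
    heckeU 2 r F = ∑ j : ZMod r, F ∣[(2 : ℤ)] heckeMatrix r j.val := by
  rw [heckeU_def]
  refine Finset.sum_nbij' (fun j => (j : ZMod r)) (fun j => j.val) (fun j _ => Finset.mem_univ _)
    (fun j _ => Finset.mem_range.mpr (ZMod.val_lt j)) (fun j hj => ?_) (fun j _ => ?_)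
    (fun j hj => ?_)
  · exact ZMod.val_cast_of_lt (Finset.mem_range.mp hj)
  · exact ZMod.natCast_zmod_val j
  · rw [ZMod.val_cast_of_lt (Finset.mem_range.mp hj)]

theorem det_heckeMatrix_pos' (r j : ℕ) : 0 < ((heckeMatrix r j).det : ℝ) :=
  det_heckeMatrix_pos r j

theorem smul_slash_heckeMatrix (c : ℂ) (F : ℍ → ℂ) (j : ℕ) :
    (c • F) ∣[(2 : ℤ)] heckeMatrix r j = c • F ∣[(2 : ℤ)] heckeMatrix r j := by
  rw [ModularForm.smul_slash, UpperHalfPlane.σ, if_pos (det_heckeMatrix_pos r j)]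
  rfl

/-- functions of an integer which only depend on it modulo `M` -/
def Per (M : ℕ) (c : ℤ → ℂ) : Prop := ∀ a b : ℤ, (M : ℤ) ∣ a - b → c a = c b

theorem heckeU_slash [NeZero r] (hrM : r ∣ M) {c : ℤ → ℂ} (hc : Per M c) (h : Neb M c F) :
    Neb M c (heckeU 2 r F) := by
  intro γ hγ
  have hdet := Matrix.SpecialLinearGroup.det_coe γ
  rw [Matrix.det_fin_two] at hdet
  have hM := dvd_of_mem_Gamma0 hγ
  have hr1 : ((γ 1 0 : ℤ) : ZMod r) = 0 := by
    rw [ZMod.intCast_zmod_eq_zero_iff_dvd]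
    exact dvd_trans (by exact_mod_cast hrM) hM
  have had : ((γ 0 0 : ℤ) : ZMod r) * (γ 1 1 : ℤ) = 1 := by
    have h1 := congrArg (Int.cast : ℤ → ZMod r) hdet
    push_cast at h1
    rw [hr1] at h1
    linear_combination h1
  have hdu : IsUnit ((γ 1 1 : ℤ) : ZMod r) :=
    IsUnit.of_mul_eq_one ((γ 0 0 : ℤ) : ZMod r) (by rw [mul_comm]; exact had)
  obtain ⟨U, hU⟩ := hdu
  rw [heckeU_eq_sum_ZMod]
  change (∑ j : ZMod r, F ∣[(2 : ℤ)] heckeMatrix r j.val) ∣[(2 : ℤ)]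
    (mapGL ℝ γ : GL (Fin 2) ℝ) = _
  rw [SlashAction.sum_slash, Finset.smul_sum]
  refine Fintype.sum_equiv ((Units.mulLeft (U ^ 2)).trans
    (Equiv.addLeft (((γ 1 1 : ℤ) : ZMod r) * ((γ 0 1 : ℤ) : ZMod r)))) _ _ fun j => ?_
  set j' : ZMod r := (Units.mulLeft (U ^ 2)).trans
    (Equiv.addLeft (((γ 1 1 : ℤ) : ZMod r) * ((γ 0 1 : ℤ) : ZMod r))) j with hj'
  have hj'' : j' = (γ 1 1 : ℤ) * (γ 0 1 : ℤ) + ((γ 1 1 : ℤ) : ZMod r) ^ 2 * j := by
    have e0 : j' = ((γ 1 1 : ℤ) : ZMod r) * ((γ 0 1 : ℤ) : ZMod r) +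
      ((U ^ 2 : (ZMod r)ˣ) : ZMod r) * j := rfl
    rw [e0, ← hU]
    push_cast
    rfl
  have hval : ∀ v : ZMod r, ((v.val : ℕ) : ZMod r) = v := fun v => ZMod.natCast_zmod_val v
  obtain ⟨y, hy⟩ : (r : ℤ) ∣ γ 0 1 + j.val * γ 1 1 - j'.val * (γ 0 0 + j.val * γ 1 0) := by
    rw [← ZMod.intCast_zmod_eq_zero_iff_dvd]
    push_cast
    rw [hval, hval, hr1, hj'']
    linear_combination (-((γ 0 1 : ℤ) : ZMod r) - (γ 1 1 : ℤ) * j) * had
  obtain ⟨δ, h10, h11, h2⟩ := mat_u (NeZero.ne r) (j := j.val) (j' := j'.val) (γ := γ) hy.symm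
  have hδ : δ ∈ Gamma0 M := mem_Gamma0_of (by rw [h10]; exact dvd_mul_of_dvd_right hM _)
  rw [← SlashAction.slash_mul, h2, SlashAction.slash_mul]
  have h3 : F ∣[(2 : ℤ)] (mapGL ℝ δ : GL (Fin 2) ℝ) = c (δ 1 1) • F := h δ hδ
  rw [h3, smul_slash_heckeMatrix]
  have e : c (δ 1 1) = c (γ 1 1) := by
    refine hc _ _ ?_
    rw [h11]
    obtain ⟨t, ht⟩ := hM
    exact ⟨-(t * j'.val), by rw [ht]; ring⟩
  rw [e]

theorem heckeU_mem_S2 [NeZero r] (hrM : r ∣ M) {c : ℤ → ℂ} (hc : Per M c) (hc1 : c 1 = 1)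
    (hF : F ∈ S2 (Gamma1 M)) (h : Neb M c F) : heckeU 2 r F ∈ S2 (Gamma1 M) := by
  have h2 := heckeU_slash hrM hc h
  have e : heckeU 2 r F = ∑ j : ZMod r, (1 : ℂ) • F ∣[(2 : ℤ)] heckeMatrix r j.val := by
    rw [heckeU_eq_sum_ZMod]
    exact Finset.sum_congr rfl fun j _ => (one_smul _ _).symm
  rw [e]
  refine mem_S2_of hF Finset.univ _ _ (fun u _ => ratM_heckeMatrix (NeZero.ne r) _) fun γ hγ => ?_
  rw [← e, h2 γ (Gamma1_in_Gamma0 M hγ), hc _ 1 (dvd_of_mem_Gamma1 hγ), hc1, one_smul]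

/-- Eigenforms with nebentypus `c` and eigenvalues `a`, in terms of `q`-expansions. -/
structure EF (M : ℕ) (c : ℤ → ℂ) (a : ℕ → ℂ) (F : ℍ → ℂ) (P : PowerSeries ℂ) : Prop where
  mem : F ∈ S2 (Gamma1 M)
  neb : Neb M c F
  hasQ : HasQ 1 F P
  rel : ∀ l : ℕ, l.Prime → ¬ l ∣ M → ∀ n : ℕ,
    P.coeff (l * n) + l * c l * (if l ∣ n then P.coeff (n / l) else 0) = a l * P.coeff n

variable {c : ℤ → ℂ} {a : ℕ → ℂ} {P : PowerSeries ℂ}

theorem hasQ_of_mem [NeZero M] (hF : F ∈ S2 (Gamma1 M)) : HasQ 1 F (qExpansion 1 F) :=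
  Gal.hasQ_one (N := M) le_rfl hF.1

theorem S2_mono {G G' : Subgroup SL(2, ℤ)} (h : G' ≤ G) {F : ℍ → ℂ} (hF : F ∈ S2 G) :
    F ∈ S2 G' := by
  refine ⟨⟨hF.1.1, fun γ => ?_, hF.1.2.2⟩, hF.2⟩
  rw [MonoidHom.one_apply, Units.val_one, one_smul]
  exact S2_inv hF ⟨γ, h γ.2⟩

theorem EF.of_hecke [NeZero M] {G : Subgroup SL(2, ℤ)} (h1 : Gamma1 M ≤ G) (h0 : G ≤ Gamma0 M) (F : S2 G)
    (hneb : Neb M c F.1)
    (hT : ∀ (l : ℕ) (hl : l.Prime) (hN : ¬ l ∣ M), heckeS2 h1 h0 hl hN F = a l • F) :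
    EF M c a F.1 (qExpansion 1 F.1) := by
  have hF : F.1 ∈ S2 (Gamma1 M) := S2_mono h1 F.2
  have hQ := hasQ_of_mem hF
  refine ⟨hF, hneb, hQ, fun l hl hlM n => ?_⟩
  have hcop : IsCoprime (l : ℤ) M := Nat.isCoprime_iff_coprime.mpr
    ((Nat.Prime.coprime_iff_not_dvd hl).mpr hlM)
  have e : F.1 ∣[(2 : ℤ)] (sigmaD M l : SL(2, ℤ)) = c l • F.1 := by
    rw [hneb _ (sigmaD M l).2, sigmaD_11 hcop]
  obtain ⟨Q, hQ1, hQ2⟩ := hasQ_heckeS2 h1 h0 hl hlM F hQ (P' := c l • qExpansion 1 F.1)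
    (by rw [e]; exact hQ.smul _)
  rw [hT l hl hlM] at hQ1
  have h3 : Q = a l • qExpansion 1 F.1 := hQ1.unique one_pos (hQ.smul (a l))
  have h4 := hQ2 n
  rw [h3, PowerSeries.coeff_smul, smul_eq_mul] at h4
  rw [h4]
  congr 1
  split_ifs with h
  · rw [PowerSeries.coeff_smul, smul_eq_mul]
    ring
  · rw [mul_zero, mul_zero]

theorem EF.heckeU (h : EF M c a F P) (hr : r.Prime) (hrM : r ∣ M) (hc : Per M c) (hc1 : c 1 = 1) :
    ∃ Q : PowerSeries ℂ, EF M c a (heckeU 2 r F) Q ∧ ∀ n, Q.coeff n = P.coeff (r * n) := by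
  have : NeZero r := ⟨hr.ne_zero⟩
  obtain ⟨Q, hQ, hQ2⟩ := hasQ_heckeU 2 hr.ne_zero h.hasQ
  refine ⟨Q, ⟨heckeU_mem_S2 hrM hc hc1 h.mem h.neb, heckeU_slash hrM hc h.neb, hQ,
    fun l hl hlM n => ?_⟩, hQ2⟩
  have h2 := h.rel l hl hlM (r * n)
  have hlr : l.Coprime r := (Nat.coprime_primes hl hr).mpr fun e => hlM (e ▸ hrM)
  have hiff : l ∣ r * n ↔ l ∣ n := hlr.dvd_mul_left
  rw [hQ2, hQ2, hQ2, ← h2, show r * (l * n) = l * (r * n) by ring]
  congr 2
  by_cases hd : l ∣ n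
  · rw [if_pos hd, if_pos (hiff.mpr hd)]
    congr 1
    obtain ⟨k, rfl⟩ := hd
    rw [Nat.mul_div_cancel_left _ hl.pos, show r * (l * k) = l * (r * k) by ring,
      Nat.mul_div_cancel_left _ hl.pos]
  · rw [if_neg hd, if_neg fun hh => hd (hiff.mp hh)]

/-- In a Hecke eigenspace there is a form with nonzero first coefficient. -/
theorem exists_first (hc : Per M c) (hc1 : c 1 = 1) (n : ℕ) :
    ∀ (F : ℍ → ℂ) (P : PowerSeries ℂ), EF M c a F P → P.coeff n ≠ 0 →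
      ∃ (F' : ℍ → ℂ) (P' : PowerSeries ℂ), EF M c a F' P' ∧ P'.coeff 1 ≠ 0 := by
  induction n using Nat.strong_induction_on with
  | _ n ih =>
    intro F P h hn
    rcases Nat.eq_zero_or_pos n with rfl | hn0
    · exfalso
      apply hn
      have h1 := h.hasQ.tendsto one_pos
      have h2 : Tendsto F atImInfty (𝓝 0) := by
        have := h.mem.2 1
        rwa [SlashAction.slash_one] at this
      exact tendsto_nhds_unique h1 h2
    rcases Nat.eq_or_lt_of_le hn0 with hn1 | hn1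
    · rw [← hn1] at hn
      exact ⟨F, P, h, hn⟩
    · obtain ⟨l, hl, m, rfl⟩ := Nat.exists_prime_and_dvd (n := n) (by omega)
      have hm : 0 < m := Nat.pos_of_ne_zero (by rintro rfl; simp at hn0)
      have hlt : m < l * m := by nlinarith [hl.two_le]
      by_cases hlM : l ∣ M
      · obtain ⟨Q, hQ, hQ2⟩ := h.heckeU hl hlM hc hc1
        exact ih m hlt _ Q hQ (by rw [hQ2]; exact hn)
      · by_cases hm0 : P.coeff m = 0
        · have h2 := h.rel l hl hlM m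
          rw [hm0, mul_zero] at h2
          by_cases hd : l ∣ m
          · rw [if_pos hd] at h2
            refine ih (m / l) (lt_of_le_of_lt (Nat.div_le_self _ _) hlt) F P h fun h3 => hn ?_
            rw [h3, mul_zero, add_zero] at h2
            exact h2
          · rw [if_neg hd, mul_zero, add_zero] at h2
            exact absurd h2 hn
        · exact ih m hlt F P h hm0

theorem EF.exists_first (h : EF M c a F P) (hc : Per M c) (hc1 : c 1 = 1) (hF : F ≠ 0) :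
    ∃ (F' : ℍ → ℂ) (P' : PowerSeries ℂ), EF M c a F' P' ∧ P'.coeff 1 ≠ 0 := by
  obtain ⟨n, hn⟩ : ∃ n, P.coeff n ≠ 0 := by
    by_contra hcon
    push Not at hcon
    have : P = 0 := by
      ext n
      simpa using hcon n
    exact hF (h.hasQ.ext (this ▸ HasQ.zero 1))
  exact AL.exists_first hc hc1 n F P h hn

/-- The coefficients prime to the level are determined by the eigenvalues. -/
theorem EF.coeff_unique (h : EF M c a F P) {ψ : ℤ → ℂ} (hψ : ∀ a b, ψ (a * b) = ψ a * ψ b)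
    (hψ1 : ψ 1 = 1)
    (hψM : ∀ l : ℕ, l.Prime → ¬ l ∣ M → ψ l ^ 2 = c l) {b : ℕ → ℂ} (hb1 : b 1 = 1)
    (hb : ∀ l : ℕ, l.Prime → ¬ l ∣ M → ∀ n : ℕ,
      b (l * n) + l * (if l ∣ n then b (n / l) else 0) = b l * b n)
    (hab : ∀ l : ℕ, l.Prime → ¬ l ∣ M → a l = ψ l * b l) (n : ℕ) :
    0 < n → n.Coprime M → P.coeff n = P.coeff 1 * ψ n * b n := by
  induction n using Nat.strong_induction_on with
  | _ n ih =>
    intro hn0 hn
    rcases Nat.eq_or_lt_of_le hn0 with hn1 | hn1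
    · rw [← hn1]
      simp [hψ1, hb1]
    · obtain ⟨l, hl, m, rfl⟩ := Nat.exists_prime_and_dvd (n := n) (by omega)
      have hm : 0 < m := Nat.pos_of_ne_zero (by rintro rfl; simp at hn0)
      have hlt : m < l * m := by nlinarith [hl.two_le]
      have hlM : ¬ l ∣ M := (Nat.Prime.coprime_iff_not_dvd hl).mp
        (Nat.Coprime.coprime_dvd_left (dvd_mul_right _ _) hn)
      have hmM : m.Coprime M := Nat.Coprime.coprime_dvd_left (dvd_mul_left _ _) hn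
      have h2 := h.rel l hl hlM m
      have h3 := hb l hl hlM m
      have h4 := ih m hlt hm hmM
      have h5 := hψM l hl hlM
      have h6 := hab l hl hlM
      have h7 : ψ ((l * m : ℕ) : ℤ) = ψ l * ψ m := by
        push_cast
        exact hψ _ _
      by_cases hd : l ∣ m
      · obtain ⟨k, rfl⟩ := hd
        have hk : 0 < k := Nat.pos_of_ne_zero (by rintro rfl; simp at hm)
        rw [if_pos (dvd_mul_right _ _), Nat.mul_div_cancel_left _ hl.pos] at h2 h3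
        have h8 := ih k (lt_of_le_of_lt (Nat.le_mul_of_pos_left k hl.pos) hlt) hk
          (Nat.Coprime.coprime_dvd_left (dvd_mul_left _ _) hmM)
        have h9 : ψ ((l * k : ℕ) : ℤ) = ψ l * ψ k := by
          push_cast
          exact hψ _ _
        rw [h7, h9]
        rw [h4, h8, h6, h9, ← h5] at h2
        linear_combination h2 - P.coeff 1 * ψ l ^ 2 * ψ k * h3
      · rw [if_neg hd, mul_zero, add_zero] at h2 h3
        rw [h7, h2, h3, h4, h6]
        ring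

end Fermat.Agent.RT.AL
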