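import Mathlib

set_option autoImplicit false

/-!
# Localisation of finite modules over complete local rings by idempotents
-/

open IsLocalRing

namespace Fermat.Agent.RT

section Complete

variable {R : Type*} [CommRing R] (I : Ideal R)

open AdicCompletion TensorProduct in
theorem isPrecomplete_finite [IsPrecomplete I R] (M : Type*) [AddCommGroup M] [Module R M]
    [Module.Finite R M] : IsPrecomplete I M := by
  rw [← AdicCompletion.of_surjective_iff]
  intro x
  obtain ⟨t, rfl⟩ := AdicCompletion.ofTensorProduct_surjective_of_finite I M x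
  induction t using TensorProduct.induction_on with
  | zero => exact ⟨0, by simp⟩
  | tmul a m =>
    obtain ⟨r, rfl⟩ := AdicCompletion.of_surjective I R a
    refine ⟨r • m, ?_⟩
    rw [AdicCompletion.ofTensorProduct_tmul, map_smul]
    ext n
    simp only [AdicCompletion.of_apply, AdicCompletion.smul_eval, map_smul,
      AdicCompletion.val_smul_apply]
    rfl
  | add a b ha hb =>
    obtain ⟨u, hu⟩ := ha
    obtain ⟨v, hv⟩ := hb
    exact ⟨u + v, by rw [map_add, map_add, hu, hv]⟩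

theorem isAdicComplete_finite [IsLocalRing R] [IsNoetherianRing R]
    [IsAdicComplete (maximalIdeal R) R] (M : Type*) [AddCommGroup M] [Module R M]
    [Module.Finite R M] : IsAdicComplete (maximalIdeal R) M :=
  { isPrecomplete_finite (maximalIdeal R) M, (inferInstance : IsHausdorff (maximalIdeal R) M) with }

theorem isAdicComplete_algebra [IsLocalRing R] [IsNoetherianRing R]
    [IsAdicComplete (maximalIdeal R) R] (S : Type*) [CommRing S] [Algebra R S]
    [Module.Finite R S] : IsAdicComplete ((maximalIdeal R).map (algebraMap R S)) S := by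
  have h := isAdicComplete_finite (R := R) S
  exact
    { (IsHausdorff.map_algebraMap_iff (S := S) (M := S) (I := maximalIdeal R)).mpr
        h.toIsHausdorff,
      (IsPrecomplete.map_algebraMap_iff (S := S) (M := S) (I := maximalIdeal R)).mpr
        h.toIsPrecomplete with }

/-- Adic completeness depends only on the topology. -/
theorem isAdicComplete_of_pow_le {I J : Ideal R} [IsAdicComplete I R] (h : I ≤ J) {n : ℕ}
    (hn : J ^ n ≤ I) : IsAdicComplete J R := by
  have hpow : ∀ i, J ^ (n * i) ≤ I ^ i := fun i => by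
    rw [pow_mul]; exact Ideal.pow_right_mono hn i
  refine { haus' := fun x hx => ?_, prec' := fun f hf => ?_ }
  · refine IsHausdorff.haus (I := I) inferInstance x fun i => ?_
    have h1 := hx (n * i)
    rw [SModEq.zero, smul_eq_mul, Ideal.mul_top] at h1 ⊢
    exact hpow i h1
  · have hn0 : 0 < n ∨ n = 0 := by omega
    rcases hn0 with hn0 | hn0
    swap
    · subst hn0
      rw [pow_zero, Ideal.one_eq_top] at hn
      have hI : I = ⊤ := top_le_iff.mp hn
      have hJ : J = ⊤ := top_le_iff.mp (hI ▸ h)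
      refine ⟨0, fun i => ?_⟩
      rw [SModEq.zero, hJ, Ideal.top_pow]
      simp
    obtain ⟨L, hL⟩ := IsPrecomplete.prec (I := I) inferInstance (f := fun i => f (n * i)) (by
      intro a b hab
      have h1 := hf (Nat.mul_le_mul_left n hab)
      rw [SModEq.sub_mem, smul_eq_mul, Ideal.mul_top] at h1 ⊢
      exact hpow a h1)
    refine ⟨L, fun i => ?_⟩
    have h1 := hf (Nat.le_mul_of_pos_left i hn0)
    have h2 := hL i
    rw [SModEq.sub_mem, smul_eq_mul, Ideal.mul_top] at h1 h2 ⊢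
    have h3 := Ideal.add_mem _ h1 (Ideal.pow_right_mono h i h2)
    rwa [sub_add_sub_cancel] at h3

theorem finite_end {𝒪 : Type*} [CommRing 𝒪] [IsNoetherianRing 𝒪] (M M' : Type*)
    [AddCommGroup M] [Module 𝒪 M] [Module.Finite 𝒪 M] [AddCommGroup M'] [Module 𝒪 M']
    [Module.Finite 𝒪 M'] : Module.Finite 𝒪 (M →ₗ[𝒪] M') := by
  obtain ⟨n, f, hf⟩ := Module.Finite.exists_fin' 𝒪 M
  have : Module.Finite 𝒪 ((Fin n → 𝒪) →ₗ[𝒪] M') := by
    exact Module.Finite.equiv ((Pi.basisFun 𝒪 (Fin n)).constr (M' := M') 𝒪)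
  refine Module.Finite.of_injective (LinearMap.lcomp 𝒪 M' f) fun g g' h => ?_
  ext m
  obtain ⟨x, rfl⟩ := hf m
  exact LinearMap.congr_fun h x

/-- A finite local algebra over a complete local ring is complete. -/
theorem isAdicComplete_finite_local {𝒪 : Type*} [CommRing 𝒪] [IsLocalRing 𝒪] [IsNoetherianRing 𝒪]
    [IsAdicComplete (maximalIdeal 𝒪) 𝒪] (S : Type*) [CommRing S] [Algebra 𝒪 S]
    [Module.Finite 𝒪 S] [IsLocalRing S] : IsAdicComplete (maximalIdeal S) S := by
  have h1 := isAdicComplete_algebra (R := 𝒪) S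
  have hint : Algebra.IsIntegral 𝒪 S := Algebra.IsIntegral.of_finite 𝒪 S
  have h2 : (maximalIdeal 𝒪).map (algebraMap 𝒪 S) ≤ maximalIdeal S := by
    rw [Ideal.map_le_iff_le_comap]
    have := Ideal.isMaximal_comap_of_isIntegral_of_isMaximal (R := 𝒪) (maximalIdeal S)
    rw [IsLocalRing.eq_maximalIdeal this]
  have h3 : IsNoetherianRing S := IsNoetherianRing.of_finite 𝒪 S
  set I := (maximalIdeal 𝒪).map (algebraMap 𝒪 S) with hI
  have h4 : maximalIdeal S ≤ I.radical := by
    rw [Ideal.radical_eq_sInf]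
    refine le_sInf fun P hP => ?_
    obtain ⟨hP1, hP2⟩ := hP
    have h5 : P.comap (algebraMap 𝒪 S) = maximalIdeal 𝒪 := by
      have : maximalIdeal 𝒪 ≤ P.comap (algebraMap 𝒪 S) := by
        rw [← Ideal.map_le_iff_le_comap]; exact hP1
      exact ((IsLocalRing.maximalIdeal.isMaximal 𝒪).eq_of_le
        (Ideal.IsPrime.ne_top (Ideal.comap_isPrime _ _)) this).symm
    have h6 : P.IsMaximal := Ideal.isMaximal_of_isIntegral_of_isMaximal_comap (R := 𝒪) P (by
      rw [h5]; infer_instance)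
    rw [IsLocalRing.eq_maximalIdeal h6]
  obtain ⟨n, hn⟩ := Ideal.exists_pow_le_of_le_radical_of_fg h4 (IsNoetherian.noetherian _)
  exact isAdicComplete_of_pow_le h2 hn

end Complete

section Idem

variable {𝒪 : Type*} [CommRing 𝒪] [IsLocalRing 𝒪] [IsNoetherianRing 𝒪]
  [IsAdicComplete (maximalIdeal 𝒪) 𝒪]

/-- Idempotents of finite algebras at maximal ideals. -/
theorem exists_idem_finite {S : Type*} [CommRing S] [Algebra 𝒪 S] [Module.Finite 𝒪 S]
    (𝔫 : Ideal S) [h𝔫 : 𝔫.IsMaximal] :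
    ∃ e : S, e * e = e ∧ 1 - e ∈ 𝔫 ∧
      ∃ n : ℕ, ∀ t ∈ 𝔫 ^ n, t * e ∈ (maximalIdeal 𝒪).map (algebraMap 𝒪 S) := by
  have h1 := isAdicComplete_algebra (R := 𝒪) S
  have hint : Algebra.IsIntegral 𝒪 S := Algebra.IsIntegral.of_finite 𝒪 S
  have hnoeth : IsNoetherianRing S := IsNoetherianRing.of_finite 𝒪 S
  set I := (maximalIdeal 𝒪).map (algebraMap 𝒪 S) with hI
  have h2 : I ≤ 𝔫 := by
    rw [hI, Ideal.map_le_iff_le_comap]
    have := Ideal.isMaximal_comap_of_isIntegral_of_isMaximal (R := 𝒪) 𝔫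
    rw [IsLocalRing.eq_maximalIdeal this]
  -- the quotient is artinian
  have hart : IsArtinianRing (S ⧸ I) := by
    letI : Algebra (𝒪 ⧸ maximalIdeal 𝒪) (S ⧸ I) := Ideal.Quotient.algebraQuotientOfLEComap
      (Ideal.map_le_iff_le_comap.mp le_rfl)
    letI := Ideal.Quotient.field (maximalIdeal 𝒪)
    have : IsScalarTower 𝒪 (𝒪 ⧸ maximalIdeal 𝒪) (S ⧸ I) := IsScalarTower.of_algebraMap_eq
      fun x => rfl
    have : Module.Finite 𝒪 (S ⧸ I) := Module.Finite.of_surjective
      (Ideal.Quotient.mkₐ 𝒪 I).toLinearMap Ideal.Quotient.mk_surjective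
    have : Module.Finite (𝒪 ⧸ maximalIdeal 𝒪) (S ⧸ I) :=
      Module.Finite.of_restrictScalars_finite 𝒪 _ _
    exact IsArtinianRing.of_finite (𝒪 ⧸ maximalIdeal 𝒪) (S ⧸ I)
  set 𝔫' := 𝔫.map (Ideal.Quotient.mk I) with h𝔫'
  obtain ⟨n, hn⟩ := IsArtinian.monotone_stabilizes (R := S ⧸ I) (M := S ⧸ I)
    ⟨fun n => OrderDual.toDual (𝔫' ^ (n + 1)), fun a b hab =>
      Ideal.pow_le_pow_right (Nat.add_le_add_right hab 1)⟩
  have hidem : IsIdempotentElem (𝔫' ^ (n + 1)) := by
    rw [IsIdempotentElem, ← pow_add]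
    exact (hn (n + 1 + n) (by omega)).symm
  obtain ⟨e, he, he2⟩ := (Ideal.isIdempotentElem_iff_of_fg _
    (IsNoetherian.noetherian (𝔫' ^ (n + 1)))).mp hidem
  obtain ⟨f, hf⟩ := Ideal.Quotient.mk_surjective (I := I) (1 - e)
  have hff : f * f - f ∈ I := by
    rw [← Ideal.Quotient.eq_zero_iff_mem, map_sub, map_mul, hf]
    have : e * e = e := he
    linear_combination this
  obtain ⟨e', he', he2'⟩ := HenselianRing.is_henselian (I := I)
    (Polynomial.X ^ 2 - Polynomial.X : Polynomial S)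
    (by monicity!) f (by
      simp only [Polynomial.eval_sub, Polynomial.eval_pow, Polynomial.eval_X]
      rw [pow_two]; exact hff) (by
      simp only [Polynomial.derivative_sub, Polynomial.derivative_X_pow, Polynomial.derivative_X,
        Polynomial.eval_sub, Polynomial.eval_mul, Polynomial.eval_C, Polynomial.eval_pow,
        Polynomial.eval_X, Polynomial.eval_one]
      refine IsUnit.of_mul_eq_one (Ideal.Quotient.mk I (2 * f - 1)) ?_
      rw [← map_mul, ← map_one (Ideal.Quotient.mk I), Ideal.Quotient.eq]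
      have : ((2 : ℕ) * f ^ (2 - 1) - 1) * (2 * f - 1) - 1 = 4 * (f * f - f) := by
        push_cast; ring
      rw [this]
      exact Ideal.mul_mem_left _ _ hff)
  have h5 : e' * e' = e' := by
    have := he'
    rw [Polynomial.IsRoot.def] at this
    simp only [Polynomial.eval_sub, Polynomial.eval_pow, Polynomial.eval_X] at this
    linear_combination this
  have hmem : ∀ x : S, Ideal.Quotient.mk I x ∈ 𝔫' ^ (n + 1) → x ∈ 𝔫 := by
    intro x hx
    have h6 : Ideal.Quotient.mk I x ∈ 𝔫' := Ideal.pow_le_self (by omega) hx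
    rw [h𝔫', Ideal.mem_map_iff_of_surjective _ Ideal.Quotient.mk_surjective] at h6
    obtain ⟨y, hy, hxy⟩ := h6
    rw [Ideal.Quotient.eq] at hxy
    have : x = y - (y - x) := by ring
    rw [this]
    exact 𝔫.sub_mem hy (h2 hxy)
  refine ⟨e', h5, hmem _ ?_, n + 1, fun t ht => ?_⟩
  · have h6 : Ideal.Quotient.mk I (1 - e') = e := by
      have h7 : Ideal.Quotient.mk I e' = 1 - e := by
        rw [← hf, Ideal.Quotient.eq]; exact he2'
      rw [map_sub, map_one, h7]; ring
    rw [h6, he2]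
    exact Ideal.mem_span_singleton_self e
  · rw [← Ideal.Quotient.eq_zero_iff_mem, map_mul]
    have h7 : Ideal.Quotient.mk I e' = 1 - e := by
      rw [← hf, Ideal.Quotient.eq]; exact he2'
    have h8 : Ideal.Quotient.mk I t ∈ 𝔫' ^ (n + 1) := by
      rw [h𝔫', ← Ideal.map_pow]
      exact Ideal.mem_map_of_mem _ ht
    rw [he2] at h8
    obtain ⟨a, ha⟩ := Ideal.mem_span_singleton'.mp h8
    rw [h7, ← ha]
    have : e * e = e := he
    linear_combination -a * this

variable {R : Type*} [CommRing R] [Algebra 𝒪 R] {M : Type*} [AddCommGroup M] [Module 𝒪 M]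

/-- **Localisation by an idempotent.** -/
theorem exists_idem [Module.Finite 𝒪 M] (ρ : R →ₐ[𝒪] Module.End 𝒪 M) (𝔫 : Ideal R)
    [h𝔫 : 𝔫.IsMaximal] (h𝔪 : ∀ a ∈ maximalIdeal 𝒪, algebraMap 𝒪 R a ∈ 𝔫) :
    ∃ r : R, 1 - r ∈ 𝔫 ∧ ρ r * ρ r = ρ r ∧ ∀ t ∈ 𝔫, ∃ n, ∀ m,
      (ρ t ^ n) (ρ r m) ∈ maximalIdeal 𝒪 • (⊤ : Submodule 𝒪 M) := by
  by_cases hker : RingHom.ker ρ ≤ 𝔫
  swap
  · obtain ⟨r, hr, hr2⟩ := SetLike.not_le_iff_exists.mp hker
    obtain ⟨s, hs⟩ := h𝔫.exists_inv hr2
    refine ⟨s * r, ?_, ?_, fun t _ => ⟨0, fun m => ?_⟩⟩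
    · obtain ⟨y, hy, hs⟩ := hs
      rw [← hs]; simpa using hy
    · rw [map_mul, RingHom.mem_ker.mp hr, mul_zero, mul_zero]
    · rw [map_mul, RingHom.mem_ker.mp hr, mul_zero]
      simp
  set S := R ⧸ RingHom.ker ρ with hS
  have : Module.Finite 𝒪 (Module.End 𝒪 M) := finite_end M M
  have hfin : Module.Finite 𝒪 S := Module.Finite.of_injective
    (Ideal.kerLiftAlg ρ).toLinearMap (Ideal.kerLiftAlg_injective ρ)
  have hmax : (𝔫.map (Ideal.Quotient.mk (RingHom.ker ρ))).IsMaximal := by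
    refine Ideal.IsMaximal.map_of_surjective_of_ker_le Ideal.Quotient.mk_surjective ?_
    rw [Ideal.mk_ker]; exact hker
  obtain ⟨e, he, he2, n, hn⟩ := exists_idem_finite (𝒪 := 𝒪)
    (𝔫.map (Ideal.Quotient.mk (RingHom.ker ρ)))
  obtain ⟨r, rfl⟩ := Ideal.Quotient.mk_surjective e
  refine ⟨r, ?_, ?_, fun t ht => ⟨n, fun m => ?_⟩⟩
  · rw [← map_one (Ideal.Quotient.mk _), ← map_sub,
      Ideal.mem_map_iff_of_surjective _ Ideal.Quotient.mk_surjective] at he2
    obtain ⟨y, hy, hxy⟩ := he2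
    rw [Ideal.Quotient.eq] at hxy
    have : 1 - r = y - (y - (1 - r)) := by ring
    rw [this]
    exact 𝔫.sub_mem hy (hker hxy)
  · have h2 := congrArg (Ideal.kerLiftAlg ρ) he
    rw [map_mul, Ideal.kerLiftAlg_mk] at h2
    exact h2
  · have h3 := hn (Ideal.Quotient.mk _ t ^ n) (Ideal.pow_mem_pow (Ideal.mem_map_of_mem _ ht) n)
    have h4 : ∀ x : S, x ∈ (maximalIdeal 𝒪).map (algebraMap 𝒪 S) → ∀ m : M,
        Ideal.kerLiftAlg ρ x m ∈ maximalIdeal 𝒪 • (⊤ : Submodule 𝒪 M) := by
      intro x hx m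
      induction hx using Submodule.span_induction generalizing m with
      | mem x hx =>
        obtain ⟨a, ha, rfl⟩ := hx
        rw [AlgHom.commutes, Module.algebraMap_end_apply]
        exact Submodule.smul_mem_smul ha Submodule.mem_top
      | zero => rw [map_zero]; simp
      | add x y _ _ hx hy =>
        rw [map_add, LinearMap.add_apply]
        exact Submodule.add_mem _ (hx m) (hy m)
      | smul a x _ hx =>
        rw [smul_eq_mul, mul_comm, map_mul, Module.End.mul_apply]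
        exact hx _
    have h5 := h4 _ h3 m
    rw [map_mul, map_pow, Ideal.kerLiftAlg_mk, Ideal.kerLiftAlg_mk] at h5
    exact h5

end Idem

end Fermat.Agent.RT
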