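import Mathlib
import Fermat.Agent.RT.Idem

set_option autoImplicit false
set_option maxHeartbeats 400000
set_option linter.style.haveILetI false
set_option linter.unusedSectionVars false
set_option linter.unusedVariables false

/-!
# Local finite algebras generated by elements with given residues
-/

open IsLocalRing

namespace Fermat.Agent.RT

section AsmT

variable {𝒪 : Type} [CommRing 𝒪] [IsLocalRing 𝒪] [IsNoetherianRing 𝒪]
  {R : Type} [Ring R] [Algebra 𝒪 R]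

variable (𝒪) in
/-- Topological nilpotence. -/
def TNil (u : R) : Prop := ∃ n, u ^ n ∈ (maximalIdeal 𝒪) • (⊤ : Submodule 𝒪 R)

lemma TNil.exists_pow_mem [Module.Finite 𝒪 R] {T : Type} [CommRing T] [Algebra 𝒪 T]
    (ι : T →ₐ[𝒪] R) (hι : Function.Injective ι) {u : T} (h : TNil 𝒪 (ι u)) :
    ∃ n, u ^ n ∈ (maximalIdeal 𝒪).map (algebraMap 𝒪 T) := by
  obtain ⟨n, hn⟩ := h
  have hr : LinearMap.range (LinearMap.mulLeft 𝒪 (ι u ^ n)) ≤
      (maximalIdeal 𝒪) • (⊤ : Submodule 𝒪 R) := by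
    rintro _ ⟨r, rfl⟩
    rw [LinearMap.mulLeft_apply]
    have h1 : ∀ y ∈ (maximalIdeal 𝒪) • (⊤ : Submodule 𝒪 R),
        y * r ∈ (maximalIdeal 𝒪) • (⊤ : Submodule 𝒪 R) := by
      intro y hy
      refine Submodule.smul_induction_on hy (fun a ha z _ => ?_) (fun z z' hz hz' => ?_)
      · rw [smul_mul_assoc]
        exact Submodule.smul_mem_smul ha Submodule.mem_top
      · rw [add_mul]
        exact Submodule.add_mem _ hz hz'
    exact h1 _ hn
  obtain ⟨P, hP, -, hc, h0⟩ :=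
    LinearMap.exists_monic_and_natDegree_eq_and_coeff_mem_pow_and_aeval_eq_zero 𝒪
      (LinearMap.mulLeft 𝒪 (ι u ^ n)) (maximalIdeal 𝒪) hr
  have h1 : Polynomial.aeval (ι u ^ n) P = 0 := by
    have h2 := LinearMap.congr_fun h0 1
    rw [LinearMap.zero_apply] at h2
    rw [← h2]
    have h3 : ∀ Q : Polynomial 𝒪, Polynomial.aeval (LinearMap.mulLeft 𝒪 (ι u ^ n)) Q =
        LinearMap.mulLeft 𝒪 (Polynomial.aeval (ι u ^ n) Q) := by
      intro Q
      exact (Polynomial.aeval_algHom_apply (Algebra.lmul 𝒪 R) (ι u ^ n) Q)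
    rw [h3, LinearMap.mulLeft_apply, mul_one]
  have h2 : Polynomial.aeval (u ^ n) P = 0 := by
    apply hι
    rw [map_zero, ← Polynomial.aeval_algHom_apply, map_pow, h1]
  refine ⟨n * P.natDegree, ?_⟩
  rw [pow_mul]
  rw [Polynomial.aeval_eq_sum_range, Finset.sum_range_succ, hP.coeff_natDegree, one_smul,
    add_comm, add_eq_zero_iff_eq_neg] at h2
  rw [h2]
  refine (Ideal.neg_mem_iff _).mpr (Ideal.sum_mem _ fun i hi => ?_)
  rw [Finset.mem_range] at hi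
  rw [Algebra.smul_def]
  refine Ideal.mul_mem_right _ _ (Ideal.mem_map_of_mem _ ?_)
  have h3 := hc i
  exact Ideal.pow_le_self (Nat.sub_ne_zero_of_lt hi) h3

variable {T : Type} [CommRing T] [Algebra 𝒪 T] {I : Type} (x : I → T) (a : I → 𝒪)

/-- The elements which are constant modulo an ideal. -/
lemma exists_const (hgen : Algebra.adjoin 𝒪 (Set.range x) = ⊤) {J : Ideal T}
    (hJ : ∀ i, x i - algebraMap 𝒪 T (a i) ∈ J) (t : T) : ∃ b, t - algebraMap 𝒪 T b ∈ J := by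
  have ht : t ∈ Algebra.adjoin 𝒪 (Set.range x) := by rw [hgen]; exact Algebra.mem_top
  induction ht using Algebra.adjoin_induction with
  | mem y hy =>
    obtain ⟨i, rfl⟩ := hy
    exact ⟨a i, hJ i⟩
  | algebraMap r => exact ⟨r, by rw [sub_self]; exact J.zero_mem⟩
  | add y z _ _ hy hz =>
    obtain ⟨b, hb⟩ := hy
    obtain ⟨c, hc⟩ := hz
    refine ⟨b + c, ?_⟩
    rw [map_add]
    have : y + z - (algebraMap 𝒪 T b + algebraMap 𝒪 T c) =
      (y - algebraMap 𝒪 T b) + (z - algebraMap 𝒪 T c) := by ring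
    rw [this]
    exact J.add_mem hb hc
  | mul y z _ _ hy hz =>
    obtain ⟨b, hb⟩ := hy
    obtain ⟨c, hc⟩ := hz
    refine ⟨b * c, ?_⟩
    rw [map_mul]
    have : y * z - algebraMap 𝒪 T b * algebraMap 𝒪 T c =
      (y - algebraMap 𝒪 T b) * z + algebraMap 𝒪 T b * (z - algebraMap 𝒪 T c) := by ring
    rw [this]
    exact J.add_mem (J.mul_mem_right _ hb) (J.mul_mem_left _ hc)

/-- **Local algebras**. -/
theorem isLocalRing_of_gen [Module.Finite 𝒪 R] (ι : T →ₐ[𝒪] R) (hι : Function.Injective ι)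
    [Nontrivial T] (hgen : Algebra.adjoin 𝒪 (Set.range x) = ⊤)
    (hnil : ∀ i, TNil 𝒪 (ι (x i) - algebraMap 𝒪 R (a i))) :
    Module.Finite 𝒪 T ∧ ∃ _ : IsLocalRing T, (∀ i, x i - algebraMap 𝒪 T (a i) ∈ maximalIdeal T) ∧
      (∀ t : T, ∃ b, t - algebraMap 𝒪 T b ∈ maximalIdeal T) ∧
      ∀ b, algebraMap 𝒪 T b ∈ maximalIdeal T ↔ b ∈ maximalIdeal 𝒪 := by
  haveI hfin : Module.Finite 𝒪 T := Module.Finite.of_injective ι.toLinearMap hι
  haveI hint : Algebra.IsIntegral 𝒪 T := Algebra.IsIntegral.of_finite 𝒪 T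
  have hcom : ∀ 𝔐 : Ideal T, 𝔐.IsMaximal → 𝔐.comap (algebraMap 𝒪 T) = maximalIdeal 𝒪 := by
    intro 𝔐 h𝔐
    haveI := Ideal.isMaximal_comap_of_isIntegral_of_isMaximal (R := 𝒪) 𝔐
    exact IsLocalRing.eq_maximalIdeal this
  have hx : ∀ 𝔐 : Ideal T, 𝔐.IsMaximal → ∀ i, x i - algebraMap 𝒪 T (a i) ∈ 𝔐 := by
    intro 𝔐 h𝔐 i
    have h1 : TNil 𝒪 (ι (x i - algebraMap 𝒪 T (a i))) := by
      rw [map_sub, AlgHom.commutes]; exact hnil i
    obtain ⟨n, hn⟩ := h1.exists_pow_mem ι hι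
    have h2 : (maximalIdeal 𝒪).map (algebraMap 𝒪 T) ≤ 𝔐 := by
      rw [Ideal.map_le_iff_le_comap, hcom 𝔐 h𝔐]
    exact h𝔐.isPrime.mem_of_pow_mem n (h2 hn)
  have hle : ∀ 𝔐 : Ideal T, 𝔐.IsMaximal → ∀ 𝔐' : Ideal T, 𝔐'.IsMaximal → 𝔐 ≤ 𝔐' := by
    intro 𝔐 h𝔐 𝔐' h𝔐' t ht
    obtain ⟨b, hb⟩ := exists_const x a hgen (J := 𝔐 ⊓ 𝔐') (fun i => ⟨hx 𝔐 h𝔐 i, hx 𝔐' h𝔐' i⟩) t
    have h1 : algebraMap 𝒪 T b ∈ 𝔐 := by
      have : algebraMap 𝒪 T b = t - (t - algebraMap 𝒪 T b) := by ring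
      rw [this]
      exact 𝔐.sub_mem ht hb.1
    have h2 : b ∈ maximalIdeal 𝒪 := by
      rw [← hcom 𝔐 h𝔐]; exact h1
    have h3 : algebraMap 𝒪 T b ∈ 𝔐' := by
      rw [← hcom 𝔐' h𝔐'] at h2; exact h2
    have : t = (t - algebraMap 𝒪 T b) + algebraMap 𝒪 T b := by ring
    rw [this]
    exact 𝔐'.add_mem hb.2 h3
  obtain ⟨𝔐, h𝔐⟩ := Ideal.exists_maximal T
  haveI hloc : IsLocalRing T := IsLocalRing.of_unique_max_ideal ⟨𝔐, h𝔐, fun 𝔐' h𝔐' =>
    le_antisymm (hle 𝔐' h𝔐' 𝔐 h𝔐) (hle 𝔐 h𝔐 𝔐' h𝔐')⟩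
  refine ⟨hfin, hloc, hx _ (IsLocalRing.maximalIdeal.isMaximal T), fun t =>
    exists_const x a hgen (hx _ (IsLocalRing.maximalIdeal.isMaximal T)) t, fun b => ?_⟩
  rw [← hcom _ (IsLocalRing.maximalIdeal.isMaximal T)]
  rfl

end AsmT

section Res

variable {𝒪 : Type} [CommRing 𝒪] [IsLocalRing 𝒪] {T : Type} [CommRing T] [IsLocalRing T]
  [Algebra 𝒪 T]

/-- The residual map. -/
theorem exists_residue (hres : ∀ t : T, ∃ b, t - algebraMap 𝒪 T b ∈ maximalIdeal T)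
    (hm : ∀ b, algebraMap 𝒪 T b ∈ maximalIdeal T ↔ b ∈ maximalIdeal 𝒪) :
    ∃ π : T →+* ResidueField 𝒪, RingHom.ker π = maximalIdeal T ∧
      ∀ b, π (algebraMap 𝒪 T b) = residue 𝒪 b := by
  let e : ResidueField 𝒪 →+* ResidueField T :=
    Ideal.Quotient.lift (maximalIdeal 𝒪) ((residue T).comp (algebraMap 𝒪 T)) (fun b hb => by
      rw [RingHom.comp_apply, residue_eq_zero_iff, hm]; exact hb)
  have he : ∀ b, e (residue 𝒪 b) = residue T (algebraMap 𝒪 T b) := fun b => rfl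
  have hb : Function.Bijective e := by
    refine ⟨e.injective, fun y => ?_⟩
    obtain ⟨t, rfl⟩ := residue_surjective y
    obtain ⟨b, hb⟩ := hres t
    refine ⟨residue 𝒪 b, ?_⟩
    rw [he, ← sub_eq_zero, ← map_sub, residue_eq_zero_iff, ← neg_sub]
    exact (Ideal.neg_mem_iff _).mpr hb
  let E := RingEquiv.ofBijective e hb
  refine ⟨(E.symm : ResidueField T →+* ResidueField 𝒪).comp (residue T), ?_, fun b => ?_⟩
  · ext t
    rw [RingHom.mem_ker, RingHom.comp_apply, ← residue_eq_zero_iff]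
    exact EmbeddingLike.map_eq_zero_iff (f := E.symm)
  · rw [RingHom.comp_apply]
    change E.symm (residue T (algebraMap 𝒪 T b)) = _
    rw [RingEquiv.symm_apply_eq]
    rfl

end Res

end Fermat.Agent.RT
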