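import Fermat.Agent.RT.Diam

set_option autoImplicit false

/-!
# Complete families of matrices and degeneracy maps
-/

open Matrix CongruenceSubgroup
open scoped MatrixGroups

namespace Fermat.Agent.RT.Ihara

variable {G G₁ G₂ G₃ : Subgroup SL(2, ℤ)} {N K q n : ℕ}
variable {O A A' : Type*} [CommRing O] [AddCommGroup A] [Module O A] [AddCommGroup A'] [Module O A']

/-- complete families of representatives of the matrices congruent to `(1 *; 0 *)` modulo `K` of
determinant `n` -/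
structure CFam (K n : ℕ) {ι : Type*} (P : ι → Mat) : Prop where
  gmat : ∀ x, GMat K (P x)
  det : ∀ x, (P x).det = n
  inj : ∀ x y, ∀ g : SL(2, ℤ), P x = (g : Mat) * P y → x = y
  surj : ∀ M : Mat, GMat K M → M.det = n → ∃ x, ∃ g : SL(2, ℤ), M = (g : Mat) * P x

variable {ι κ : Type*}

theorem CFam.mem {P : ι → Mat} {P' : κ → Mat} (F : CFam K n P) (F' : CFam K n P')
    (h1 : Gamma1 K ≤ G) (h0 : G ≤ Gamma0 K) {x : ι} {y : κ} {g : SL(2, ℤ)}
    (e : P x = (g : Mat) * P' y) : g ∈ G :=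
  GMat.mem h1 h0 (F.gmat x) (F'.gmat y) (one_mem G) (by rw [← e]; exact mul_one _)

theorem gmat_mem_Gamma1 {D D' : Mat} (hD : GMat K D) (hD' : GMat K D') {g : SL(2, ℤ)}
    (e : D = (g : Mat) * D') : g ∈ Gamma1 K :=
  GMat.mem le_rfl (Gamma1_le K) hD hD' (one_mem _) (by rw [← e]; exact mul_one _)

/-- the action of `Γ₀(K)` on a complete family -/
theorem CFam.exists_act {P : ι → Mat} (F : CFam K n P) (x : ι) {g : SL(2, ℤ)}
    (hg : g ∈ Gamma0 K) : ∃ y, ∃ g' ∈ Gamma1 K, P x * (g : Mat) = ((g * g' : SL(2, ℤ)) : Mat) * P y := by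
  have h1 : ((g⁻¹ : SL(2, ℤ)) : Mat) * (g : Mat) = 1 := by
    rw [← sl_coe_mul, inv_mul_cancel]; rfl
  have h2 : (g : Mat) * ((g⁻¹ : SL(2, ℤ)) : Mat) = 1 := by
    rw [← sl_coe_mul, mul_inv_cancel]; rfl
  have hM : GMat K (((g⁻¹ : SL(2, ℤ)) : Mat) * (P x * (g : Mat))) := by
    obtain ⟨k, hk⟩ := mem_G0.mp hg
    obtain ⟨a, ha⟩ := (F.gmat x).d10
    obtain ⟨b, hb⟩ := (F.gmat x).d00
    have hd := det2 g
    rw [Matrix.SpecialLinearGroup.coe_inv, Matrix.adjugate_fin_two]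
    constructor
    · simp only [Matrix.mul_apply, Fin.sum_univ_two, Matrix.of_apply, Matrix.cons_val',
        Matrix.cons_val_zero, Matrix.cons_val_one, Matrix.cons_val_fin_one, Matrix.empty_val']
      rw [ha, hk]
      exact ⟨-k * (P x 0 0 * g 0 0 + P x 0 1 * (K * k)) + g 0 0 * (a * g 0 0 + P x 1 1 * k), by ring⟩
    · simp only [Matrix.mul_apply, Fin.sum_univ_two, Matrix.of_apply, Matrix.cons_val',
        Matrix.cons_val_zero, Matrix.cons_val_one, Matrix.cons_val_fin_one, Matrix.empty_val']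
      rw [ha, hk]
      rw [hk] at hd
      refine ⟨g 1 1 * b * g 0 0 + g 1 1 * P x 0 1 * k - g 0 1 * a * g 0 0 -
        g 0 1 * P x 1 1 * k + g 0 1 * k, ?_⟩
      linear_combination hd + (g 1 1 * g 0 0) * hb
  obtain ⟨y, g', e⟩ := F.surj _ hM (by
    rw [Matrix.det_mul, Matrix.det_mul, F.det, (g⁻¹).det_coe, g.det_coe]; ring)
  refine ⟨y, g', gmat_mem_Gamma1 hM (F.gmat y) e, ?_⟩
  rw [sl_coe_mul, mul_assoc, ← e, ← mul_assoc, h2, one_mul]

theorem CFam.corr {P : ι → Mat} (F : CFam K n P) (hn : n ≠ 0) (h1 : Gamma1 K ≤ G)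
    (h0 : G ≤ Gamma0 K) : Corr G G P where
  det x := by rw [F.det]; exact_mod_cast hn
  act x g hg := by
    obtain ⟨y, g', hg', e⟩ := F.exists_act x (h0 hg)
    exact ⟨y, _, mul_mem hg (h1 hg'), e⟩
  inj x y g _ e := F.inj x y g e

variable [Fintype ι] [Fintype κ]

/-- the operator depends only on the level and the determinant -/
theorem CFam.opH_eq {P : ι → Mat} {P' : κ → Mat} (F : CFam K n P) (F' : CFam K n P')
    (h1 : Gamma1 K ≤ G) (h0 : G ≤ Gamma0 K) (H : Corr G G P) (H' : Corr G G P') :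
    (opH H : H1 O A G →ₗ[O] H1 O A G) = opH H' := by
  choose f γ e using fun x => F'.surj _ (F.gmat x) (F.det x)
  choose f' γ' e' using fun x => F.surj _ (F'.gmat x) (F'.det x)
  have hcancel : ∀ {g : SL(2, ℤ)} {M M' : Mat}, M = (g : Mat) * M' →
      M' = ((g⁻¹ : SL(2, ℤ)) : Mat) * M := by
    intro g M M' h
    rw [h, ← mul_assoc, ← sl_coe_mul, inv_mul_cancel]; exact (one_mul _).symm
  have h3 : ∀ x, f' (f x) = x := fun x => by
    refine (F.inj x (f' (f x)) (γ x * γ' (f x)) ?_).symm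
    rw [sl_coe_mul, mul_assoc, ← e', ← e]
  have h4 : ∀ x, f (f' x) = x := fun x => by
    refine (F'.inj x (f (f' x)) (γ' x * γ (f' x)) ?_).symm
    rw [sl_coe_mul, mul_assoc, ← e, ← e']
  refine LinearMap.ext fun c => Subtype.ext (funext fun g => ?_)
  rw [opH_apply, opH_apply]
  exact opc_eq_of_equiv H H' (addOn_ex c) ⟨f, f', h3, h4⟩ (fun x =>
    ⟨1, 1, one_pos, one_pos, γ x, F.mem F' h1 h0 (e x), by
      rw [one_smul, one_smul]; exact (e x).symm⟩) g.2

theorem cfam_TD {l : ℕ} (hl : l.Prime) (hN : IsCoprime (K : ℤ) (l : ℤ)) (hNK : N ∣ K) :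
    CFam N l (TD K l) where
  gmat x := ⟨(Int.natCast_dvd_natCast.mpr hNK).trans (TD_gmat hN x).d10,
    (Int.natCast_dvd_natCast.mpr hNK).trans (TD_gmat hN x).d00⟩
  det x := TD_det K l x
  inj x y g e := TD_unique hl e
  surj M _ hM := exists_TD hl M hM

theorem cfam_U {l : ℕ} (hl : l.Prime) (hN : l ∣ N) : CFam N l fun j : Fin l => Mx l (some j) where
  gmat j := Mx_gmat j
  det j := Mx_det l _
  inj i j g e := by
    have := herm_unique hl e
    exact Option.some_injective _ this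
  surj M hG hM := by
    obtain ⟨x, h, e⟩ := exists_herm hl M hM
    rcases x with _ | j
    · exfalso
      have h1 := (Int.natCast_dvd_natCast.mpr hN).trans hG.d00
      have h2 : (l : ℤ) ∣ M 0 0 := by
        rw [e]
        simp [Mx, Matrix.mul_apply, Fin.sum_univ_two]
      have h3 : (l : ℤ) ∣ 1 := by
        have := dvd_sub h2 h1
        rwa [sub_sub_cancel] at this
      have := Int.le_of_dvd one_pos h3
      have := hl.one_lt
      omega
    · exact ⟨j, h, e⟩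

theorem hec_eq {l : ℕ} (hl : l.Prime) {P : ι → Mat} (F : CFam N l P) (h1 : Gamma1 N ≤ G)
    (h0 : G ≤ Gamma0 N) : (hec h1 h0 l : Module.End O (H1 O A G)) =
      opH (F.corr hl.ne_zero h1 h0) := by
  by_cases hN : l ∣ N
  · rw [hec_U h1 h0 hl hN]
    exact (cfam_U hl hN).opH_eq F h1 h0 _ _
  · rw [hec_T h1 h0 hl hN]
    exact (cfam_TD hl (isCoprime_N hl hN) dvd_rfl).opH_eq F h1 h0 _ _

/-- a family for the two levels -/
theorem exists_cfam {l : ℕ} (hl : l.Prime) (hlq : IsCoprime (l : ℤ) (q : ℤ)) :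
    ∃ (ι : Type) (_ : Fintype ι) (P : ι → Mat), CFam N l P ∧ CFam (N * q) l P := by
  by_cases hN : l ∣ N
  · exact ⟨Fin l, inferInstance, _, cfam_U hl hN, cfam_U hl (hN.mul_right q)⟩
  · have h1 : IsCoprime ((N * q : ℕ) : ℤ) (l : ℤ) := by
      push_cast
      exact IsCoprime.mul_left (isCoprime_N hl hN) hlq.symm
    exact ⟨Option (Fin l), inferInstance, _, cfam_TD hl h1 (dvd_mul_right N q),
      cfam_TD hl h1 dvd_rfl⟩

/-! ### Compositions -/

theorem opH_comm' {ι κ ι' κ' : Type*} [Fintype ι] [Fintype κ] [Fintype ι'] [Fintype κ']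
    {D : ι → Mat} {D' : ι' → Mat} {E : κ → Mat} {E' : κ' → Mat} {G₂' : Subgroup SL(2, ℤ)}
    (H : Corr G₁ G₂ D) (H' : Corr G₂ G₃ D') (K : Corr G₁ G₂' E) (K' : Corr G₂' G₃ E')
    (hcard : Fintype.card (ι × ι') = Fintype.card (κ × κ'))
    (hex : ∀ x i, ∃ j y, ∃ g ∈ G₁, D x * D' i = (g : Mat) * (E j * E' y))
    (hinj : ∀ x i x' i', ∀ g ∈ G₁, D x * D' i = (g : Mat) * (D x' * D' i') → x = x' ∧ i = i')
    (c : H1 O A G₁) : opH H' (opH H c) = opH K' (opH K c) := by
  choose j y γ hγ e using hex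
  let f : ι × ι' → κ × κ' := fun p => (j p.1 p.2, y p.1 p.2)
  have hf : Function.Injective f := by
    rintro ⟨x, i⟩ ⟨x', i'⟩ h
    have h1 : j x i = j x' i' := congrArg Prod.fst h
    have h2 : y x i = y x' i' := congrArg Prod.snd h
    obtain ⟨rfl, rfl⟩ := hinj x i x' i' (γ x i * (γ x' i')⁻¹) (mul_mem (hγ _ _) (inv_mem (hγ _ _)))
      (by
        rw [e x' i', ← h1, ← h2, e x i, sl_coe_mul, mul_assoc, ← mul_assoc _ (γ x' i' : Mat),
          ← sl_coe_mul (γ x' i')⁻¹, inv_mul_cancel]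
        congr 1
        exact (one_mul _).symm)
    rfl
  refine opH_comm H H' K K' (Equiv.ofBijective f
    ((Fintype.bijective_iff_injective_and_card f).mpr ⟨hf, hcard⟩)) ?_ c
  rintro ⟨x, i⟩
  exact ⟨1, 1, one_pos, one_pos, γ x i, hγ x i, by
    rw [one_smul, one_smul]; exact (e x i).symm⟩

theorem corr_one (h : G₂ ≤ G₁) : Corr G₁ G₂ (fun _ : Unit => (1 : Mat)) where
  det _ := by simp
  act _ g hg := ⟨(), g, h hg, by rw [one_mul, mul_one]⟩
  inj _ _ _ _ _ := rfl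

theorem opH_one (h : G₂ ≤ G₁) (c : H1 O A G₁) : opH (corr_one h) c = resH h c := by
  apply Subtype.ext
  funext g
  rw [opH_apply, (corr_one h).opc_eq (addOn_ex c) g.2 (γ := fun _ => g) (σ := id)
    (fun _ => h g.2) (fun _ => by rw [one_mul, mul_one]), Fintype.sum_unique, ex_apply _ (h g.2)]
  rfl

/-- the image of a product family -/
theorem opH_comp {ι κ ι' : Type*} [Fintype ι] [Fintype κ] [Fintype ι']
    {D : ι → Mat} {D' : ι' → Mat} {E : κ → Mat}
    (H : Corr G₁ G₂ D) (H' : Corr G₂ G₃ D') (K : Corr G₁ G₃ E)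
    (hcard : Fintype.card (ι × ι') = Fintype.card κ)
    (hex : ∀ x i, ∃ j, ∃ g ∈ G₁, D x * D' i = (g : Mat) * E j)
    (hinj : ∀ x i x' i', ∀ g ∈ G₁, D x * D' i = (g : Mat) * (D x' * D' i') → x = x' ∧ i = i')
    (c : H1 O A G₁) : opH H' (opH H c) = opH K c := by
  have h1 := opH_comm' H H' K (corr_one le_rfl) (by simp [hcard]) (fun x i => by
    obtain ⟨j, g, hg, e⟩ := hex x i
    exact ⟨j, (), g, hg, by rw [mul_one]; exact e⟩) hinj c
  rw [h1, opH_one le_rfl]
  rfl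

/-- additivity with multiplicities -/
theorem sum_conj_eq {ι : Type*} [Fintype ι] (c : H1 O A G) (r : ι → G) (g : G)
    (σ : Equiv.Perm ι) : ∑ x, c.1 (r x * g * (r (σ x))⁻¹) = (Fintype.card ι : ℕ) • c.1 g := by
  have h0 : ∀ a b : G, c.1 (a * b⁻¹) = c.1 a - c.1 b := by
    intro a b
    have := c.2 (a * b⁻¹) b
    rw [inv_mul_cancel_right] at this
    rw [this]; abel
  have h1 : ∀ a b : G, c.1 (a * b) = c.1 a + c.1 b := c.2
  simp only [h0, h1]
  rw [Finset.sum_sub_distrib, Finset.sum_add_distrib, Finset.sum_const, Finset.card_univ,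
    Equiv.sum_comp σ (fun x => c.1 (r x))]
  abel

end Fermat.Agent.RT.Ihara
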