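import Fermat.Agent.RT.EvalHom

set_option autoImplicit false
set_option maxHeartbeats 400000
set_option linter.style.haveILetI false
set_option linter.unusedSectionVars false
set_option linter.unusedVariables false

/-!
# The chart lemma

A power series which vanishes on the formal chart (with formal parameters `c`) vanishes at all
points of the chart, also for parameters `c` which are not topologically nilpotent.
-/

open IsLocalRing MvPowerSeries Finsupp

namespace Fermat.Agent.RT

section CoeffIdeal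

variable {T : Type*} [CommRing T] {τ : Type*}

/-- The ideal of power series with all coefficients in `I`. -/
def coeffIdeal (I : Ideal T) : Ideal (MvPowerSeries τ T) where
  carrier := {G | ∀ e, coeff e G ∈ I}
  add_mem' := fun ha hb e => by rw [map_add]; exact Ideal.add_mem _ (ha e) (hb e)
  zero_mem' := fun e => by rw [map_zero]; exact Ideal.zero_mem _
  smul_mem' := fun c f hf e => by
    classical
    rw [smul_eq_mul, coeff_mul]
    exact Ideal.sum_mem _ fun p _ => Ideal.mul_mem_left _ _ (hf p.2)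

lemma mem_coeffIdeal {I : Ideal T} {G : MvPowerSeries τ T} :
    G ∈ coeffIdeal I ↔ ∀ e, coeff e G ∈ I := Iff.rfl

lemma coeffIdeal_mul_le (I J : Ideal T) :
    coeffIdeal (τ := τ) I * coeffIdeal J ≤ coeffIdeal (I * J) := by
  classical
  rw [Ideal.mul_le]
  intro f hf g hg e
  rw [coeff_mul]
  exact Ideal.sum_mem _ fun p _ => Ideal.mul_mem_mul (hf p.1) (hg p.2)

lemma coeffIdeal_pow_le (I : Ideal T) (k : ℕ) :
    coeffIdeal (τ := τ) I ^ k ≤ coeffIdeal (I ^ k) := by
  induction k with
  | zero =>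
    intro G _ e
    rw [pow_zero, Ideal.one_eq_top]
    exact Submodule.mem_top
  | succ k ih =>
    rw [pow_succ, pow_succ]
    exact (Ideal.mul_mono_left ih).trans (coeffIdeal_mul_le _ _)

end CoeffIdeal

section Chart

variable {𝒪 : Type*} [CommRing 𝒪] [IsLocalRing 𝒪] {ι : Type*} [Fintype ι]
  {T : Type*} [CommRing T] [IsLocalRing T] {τ : Type*}
  {A : Type*} [CommRing A] [IsLocalRing A] [IsHausdorff (maximalIdeal A) A]

/-- **Chart lemma.** -/
theorem chart_lemma (g : 𝒪 →+* T) (hg : ∀ b ∈ maximalIdeal 𝒪, g b ∈ maximalIdeal T)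
    (f : ι → MvPolynomial τ T) (hf : ∀ i m, MvPolynomial.coeff m (f i) ∈ maximalIdeal T)
    (κ : MvPowerSeries ι 𝒪 →+* MvPowerSeries τ T) (hκC : ∀ b, κ (C b) = C (g b))
    (hκX : ∀ i, κ (X i) = (f i : MvPowerSeries τ T))
    (e : T →+* A) (he : ∀ t ∈ maximalIdeal T, e t ∈ maximalIdeal A) (c₀ : τ → A)
    (π : MvPowerSeries ι 𝒪 →+* A) (hπC : ∀ b, π (C b) = e (g b))
    (hπX : ∀ i, π (X i) = MvPolynomial.eval₂Hom e c₀ (f i))
    {F : MvPowerSeries ι 𝒪} (hF : κ F = 0) : π F = 0 := by
  have hev : ∀ {k : ℕ} {G : MvPolynomial τ T}, (∀ m, MvPolynomial.coeff m G ∈ maximalIdeal T ^ k) →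
      MvPolynomial.eval₂Hom e c₀ G ∈ maximalIdeal A ^ k := by
    intro k G hG
    rw [MvPolynomial.coe_eval₂Hom, MvPolynomial.eval₂_eq]
    refine Ideal.sum_mem _ fun m _ => Ideal.mul_mem_right _ _ ?_
    have h1 : (maximalIdeal T).map e ≤ maximalIdeal A := by
      rw [Ideal.map_le_iff_le_comap]
      exact fun t ht => he t ht
    refine Ideal.pow_right_mono h1 k ?_
    rw [← Ideal.map_pow]
    exact Ideal.mem_map_of_mem _ (hG m)
  have hπX' : ∀ i, π (X i) ∈ maximalIdeal A := by
    intro i
    rw [hπX]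
    have := hev (k := 1) (G := f i) (by intro m; rw [pow_one]; exact hf i m)
    rwa [pow_one] at this
  apply IsHausdorff.haus (I := maximalIdeal A) inferInstance
  intro k
  rw [SModEq.zero, smul_eq_mul, Ideal.mul_top]
  set Fk : MvPolynomial ι 𝒪 := MvPowerSeries.truncTotal k F with hFk
  have h1 : F - (Fk : MvPowerSeries ι 𝒪) ∈ maximalIdeal (MvPowerSeries ι 𝒪) ^ k :=
    sub_truncTotal_mem_pow k F
  -- the polynomial `G = Fk(f)`
  set G : MvPolynomial τ T := MvPolynomial.eval₂Hom (MvPolynomial.C.comp g) f Fk with hG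
  have h2 : κ (Fk : MvPowerSeries ι 𝒪) = (G : MvPowerSeries τ T) := by
    rw [hG]
    generalize Fk = p
    induction p using MvPolynomial.induction_on with
    | C b =>
      rw [MvPolynomial.coe_C, hκC, MvPolynomial.coe_eval₂Hom, MvPolynomial.eval₂_C,
        RingHom.comp_apply, MvPolynomial.coe_C]
    | add p q hp hq => rw [MvPolynomial.coe_add, map_add, hp, hq, map_add, MvPolynomial.coe_add]
    | mul_X p i hp =>
      rw [MvPolynomial.coe_mul, MvPolynomial.coe_X, map_mul, hp, hκX, map_mul,
        MvPolynomial.coe_mul, MvPolynomial.coe_eval₂Hom, MvPolynomial.eval₂_X]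
  have h3 : π (Fk : MvPowerSeries ι 𝒪) = MvPolynomial.eval₂Hom e c₀ G := by
    rw [hG]
    generalize Fk = p
    induction p using MvPolynomial.induction_on with
    | C b =>
      rw [MvPolynomial.coe_C, hπC, MvPolynomial.eval₂Hom_C, RingHom.comp_apply,
        MvPolynomial.eval₂Hom_C]
    | add p q hp hq => rw [MvPolynomial.coe_add, map_add, hp, hq, map_add, map_add]
    | mul_X p i hp =>
      rw [MvPolynomial.coe_mul, MvPolynomial.coe_X, map_mul, hp, hπX, map_mul, map_mul,
        MvPolynomial.eval₂Hom_X']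
  have h4 : ∀ m, MvPolynomial.coeff m G ∈ maximalIdeal T ^ k := by
    have h5 : κ (F - (Fk : MvPowerSeries ι 𝒪)) ∈ coeffIdeal (τ := τ) (maximalIdeal T) ^ k := by
      refine map_pow_mem (I := coeffIdeal (τ := τ) (maximalIdeal T)) ?_ ?_ h1
      · intro b hb m
        classical
        rw [hκC, coeff_C]
        split_ifs
        · exact hg b hb
        · exact Ideal.zero_mem _
      · intro i m
        rw [hκX, MvPolynomial.coeff_coe]
        exact hf i m
    have h6 := coeffIdeal_pow_le _ _ h5
    rw [map_sub, hF, zero_sub, h2] at h6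
    intro m
    have := h6 m
    rw [map_neg, MvPolynomial.coeff_coe] at this
    exact (Ideal.neg_mem_iff _).mp this
  have h7 : π (F - (Fk : MvPowerSeries ι 𝒪)) ∈ maximalIdeal A ^ k :=
    map_pow_mem (fun b hb => by rw [hπC]; exact he _ (hg b hb)) hπX' h1
  rw [map_sub, h3] at h7
  have h8 : π F = (π F - MvPolynomial.eval₂Hom e c₀ G) + MvPolynomial.eval₂Hom e c₀ G := by ring
  rw [h8]
  exact Ideal.add_mem _ h7 (hev h4)

end Chart

end Fermat.Agent.RT
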