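import Fermat.Agent.RT.EvalHom

set_option autoImplicit false
set_option maxHeartbeats 400000
set_option linter.style.haveILetI false
set_option linter.unusedSectionVars false
set_option linter.unusedVariables false

/-!
# The ring `B[[x, y, z]]/(xy - δ z)` is a domain
-/

open IsLocalRing MvPowerSeries Finsupp

namespace Fermat.Agent.RT

/-- Exponent vector with three entries. -/
noncomputable def mk3 (i j k : ℕ) : Fin 3 →₀ ℕ := Finsupp.equivFunOnFinite.symm ![i, j, k]

/-- Exponent vector with two entries. -/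
noncomputable def mk2 (i j : ℕ) : Fin 2 →₀ ℕ := Finsupp.equivFunOnFinite.symm ![i, j]

@[simp] lemma mk3_zero (i j k : ℕ) : mk3 i j k 0 = i := rfl
@[simp] lemma mk3_one (i j k : ℕ) : mk3 i j k 1 = j := rfl
@[simp] lemma mk3_two (i j k : ℕ) : mk3 i j k 2 = k := rfl
@[simp] lemma mk2_zero (i j : ℕ) : mk2 i j 0 = i := rfl
@[simp] lemma mk2_one (i j : ℕ) : mk2 i j 1 = j := rfl

lemma coeff_X_mul_gen {R σ : Type*} [CommRing R] (i : σ) (g : MvPowerSeries σ R) (e : σ →₀ ℕ) :
    coeff e (X i * g) = if e i = 0 then 0 else coeff (e - single i 1) g := by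
  classical
  rw [X, coeff_monomial_mul]
  by_cases h : e i = 0
  · rw [if_pos h, if_neg]
    rw [Finsupp.single_le_iff, h]
    omega
  · rw [if_neg h, if_pos, one_mul]
    rw [Finsupp.single_le_iff]
    omega

lemma mk3_eta (s : Fin 3 →₀ ℕ) : mk3 (s 0) (s 1) (s 2) = s := by
  ext a; fin_cases a <;> rfl

lemma mk2_eta (s : Fin 2 →₀ ℕ) : mk2 (s 0) (s 1) = s := by
  ext a; fin_cases a <;> rfl

lemma mk3_inj {i j k i' j' k' : ℕ} : mk3 i j k = mk3 i' j' k' ↔ i = i' ∧ j = j' ∧ k = k' := by
  constructor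
  · intro h
    exact ⟨DFunLike.congr_fun h 0, DFunLike.congr_fun h 1, DFunLike.congr_fun h 2⟩
  · rintro ⟨rfl, rfl, rfl⟩; rfl

lemma mk2_inj {i j i' j' : ℕ} : mk2 i j = mk2 i' j' ↔ i = i' ∧ j = j' := by
  constructor
  · intro h
    exact ⟨DFunLike.congr_fun h 0, DFunLike.congr_fun h 1⟩
  · rintro ⟨rfl, rfl⟩; rfl

lemma degree_mk3 (i j k : ℕ) : degree (mk3 i j k) = i + j + k := by
  rw [Finsupp.degree_eq_sum, Fin.sum_univ_three]; rfl

lemma degree_mk2 (i j : ℕ) : degree (mk2 i j) = i + j := by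
  rw [Finsupp.degree_eq_sum, Fin.sum_univ_two]; rfl

section

variable {B : Type*} [CommRing B] [IsDomain B] (δ : B)

local notation "K" => FractionRing B

/-- The auxiliary ring `K[[x, y]]`. -/
abbrev KXY (B : Type*) [CommRing B] [IsDomain B] := MvPowerSeries (Fin 2) (FractionRing B)

instance : IsAdicComplete (maximalIdeal (FractionRing B)) (FractionRing B) := by
  rw [IsLocalRing.maximalIdeal_eq_bot]
  infer_instance

/-- The values of the variables. -/
noncomputable def chiVal : Fin 3 → KXY B :=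
  ![X 0, X 1, C ((algebraMap B K δ)⁻¹) * (X 0 * X 1)]

lemma chiVal_mem (i : Fin 3) : chiVal δ i ∈ maximalIdeal (KXY B) := by
  rw [mem_maximalIdeal_iff]
  fin_cases i <;> simp [chiVal]

/-- The homomorphism `B[[x,y,z]] → K[[x,y]]`, `z ↦ xy/δ`. -/
noncomputable def chiHom : MvPowerSeries (Fin 3) B →+* KXY B :=
  evalHom (maximalIdeal (KXY B)) ((C : K →+* KXY B).comp (algebraMap B K)) (chiVal δ)
    (chiVal_mem δ)

lemma coeff_eq_zero_of_mem_pow {N : ℕ} {G : KXY B} (hG : G ∈ maximalIdeal (KXY B) ^ N)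
    {s : Fin 2 →₀ ℕ} (hs : degree s < N) : coeff s G = 0 := by
  rw [← Fermat.Agent.UnivDef.filt_eq_pow, Fermat.Agent.UnivDef.mem_filt] at hG
  have h1 := hG s
  rw [IsLocalRing.maximalIdeal_eq_bot] at h1
  have h2 : (⊥ : Ideal K) ^ (N - degree s) = ⊥ := by
    obtain ⟨m, hm⟩ : ∃ m, N - degree s = m + 1 := ⟨N - degree s - 1, by omega⟩
    rw [hm, pow_succ, Ideal.mul_bot]
  rw [h2] at h1
  exact h1

lemma coeff_eval₂_chi (p : MvPolynomial (Fin 3) B) (m n : ℕ) :
    coeff (mk2 m n) (MvPolynomial.eval₂Hom ((C : K →+* KXY B).comp (algebraMap B K))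
      (chiVal δ) p) =
    ∑ k ∈ Finset.range (min m n + 1), ((algebraMap B K δ)⁻¹) ^ k *
      algebraMap B K (MvPolynomial.coeff (mk3 (m - k) (n - k) k) p) := by
  classical
  induction p using MvPolynomial.monomial_add_induction_on with
  | C a =>
    rw [MvPolynomial.eval₂Hom_C, RingHom.comp_apply, coeff_C]
    by_cases h : mk2 m n = 0
    · have h0 : m = 0 ∧ n = 0 := by
        have : mk2 m n = mk2 0 0 := by rw [h]; ext i; fin_cases i <;> rfl
        exact mk2_inj.mp this
      obtain ⟨rfl, rfl⟩ := h0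
      rw [if_pos h]
      have h3 : mk3 0 0 0 = 0 := by ext i; fin_cases i <;> rfl
      simp [h3]
    · rw [if_neg h]
      symm
      refine Finset.sum_eq_zero fun k hk => ?_
      rw [MvPolynomial.coeff_C, if_neg, map_zero, mul_zero]
      intro h4
      have h5 : mk3 0 0 0 = mk3 (m - k) (n - k) k := by
        rw [← h4]; ext i; fin_cases i <;> rfl
      obtain ⟨h6, h7, h8⟩ := mk3_inj.mp h5
      apply h
      have h9 : m = 0 := by omega
      have h10 : n = 0 := by omega
      rw [h9, h10]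
      ext i; fin_cases i <;> rfl
  | monomial_add a b f _ _ hf =>
    rw [map_add, map_add, hf]
    have h1 : coeff (mk2 m n) (MvPolynomial.eval₂Hom ((C : K →+* KXY B).comp (algebraMap B K))
        (chiVal δ) (MvPolynomial.monomial a b)) =
        if m = a 0 + a 2 ∧ n = a 1 + a 2 then ((algebraMap B K δ)⁻¹) ^ (a 2) *
          algebraMap B K b else 0 := by
      rw [MvPolynomial.coe_eval₂Hom, MvPolynomial.eval₂_monomial, RingHom.comp_apply,
        Finsupp.prod_fintype _ _ (fun i => pow_zero _), Fin.prod_univ_three]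
      have h2 : chiVal δ 0 ^ a 0 * chiVal δ 1 ^ a 1 * chiVal δ 2 ^ a 2 =
          C (((algebraMap B K δ)⁻¹) ^ (a 2)) * monomial (mk2 (a 0 + a 2) (a 1 + a 2)) 1 := by
        have h3 : (X 0 : KXY B) ^ (a 0 + a 2) * X 1 ^ (a 1 + a 2) =
            monomial (mk2 (a 0 + a 2) (a 1 + a 2)) 1 := by
          rw [X_pow_eq, X_pow_eq, monomial_mul_monomial, mul_one]
          have h9 : (single 0 (a 0 + a 2) + single 1 (a 1 + a 2) : Fin 2 →₀ ℕ) =
              mk2 (a 0 + a 2) (a 1 + a 2) := by
            ext i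
            fin_cases i <;> simp [mk2]
          rw [h9]
        rw [← h3]
        simp only [chiVal, Matrix.cons_val_zero, Matrix.cons_val_one, Matrix.cons_val,
          mul_pow, map_pow, pow_add]
        ring
      rw [h2, coeff_C_mul, coeff_C_mul, coeff_monomial]
      by_cases h4 : mk2 m n = mk2 (a 0 + a 2) (a 1 + a 2)
      · rw [if_pos h4, if_pos (mk2_inj.mp h4), mul_one, mul_comm]
      · rw [if_neg h4, if_neg (fun h => h4 (mk2_inj.mpr h)), mul_zero, mul_zero]
    rw [h1]
    have h5 : ∀ k, algebraMap B K (MvPolynomial.coeff (mk3 (m - k) (n - k) k)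
        (MvPolynomial.monomial a b + f)) = (if a = mk3 (m - k) (n - k) k then algebraMap B K b
          else 0) + algebraMap B K (MvPolynomial.coeff (mk3 (m - k) (n - k) k) f) := by
      intro k
      rw [MvPolynomial.coeff_add, map_add, MvPolynomial.coeff_monomial]
      split_ifs <;> simp
    simp_rw [h5, mul_add, Finset.sum_add_distrib]
    congr 1
    by_cases h6 : m = a 0 + a 2 ∧ n = a 1 + a 2
    · rw [if_pos h6, Finset.sum_eq_single (a 2)]
      · rw [if_pos]
        obtain ⟨h7, h8⟩ := h6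
        rw [h7, h8, Nat.add_sub_cancel, Nat.add_sub_cancel, mk3_eta]
      · intro k _ hk
        rw [if_neg, mul_zero]
        intro h7
        apply hk
        rw [h7]; rfl
      · intro h7
        exfalso
        apply h7
        rw [Finset.mem_range]
        omega
    · rw [if_neg h6]
      symm
      refine Finset.sum_eq_zero fun k hk => ?_
      rw [if_neg, mul_zero]
      intro h7
      apply h6
      rw [Finset.mem_range] at hk
      rw [h7, mk3_zero, mk3_one, mk3_two]
      omega

lemma coeff_chiHom (F : MvPowerSeries (Fin 3) B) (m n : ℕ) :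
    coeff (mk2 m n) (chiHom δ F) =
    ∑ k ∈ Finset.range (min m n + 1), ((algebraMap B K δ)⁻¹) ^ k *
      algebraMap B K (coeff (mk3 (m - k) (n - k) k) F) := by
  have h1 := evalHom_sub_mem (maximalIdeal (KXY B)) ((C : K →+* KXY B).comp (algebraMap B K))
    (chiVal δ) (chiVal_mem δ) (m + n + 1) F
  have h2 := coeff_eq_zero_of_mem_pow h1 (s := mk2 m n) (by rw [degree_mk2]; omega)
  rw [map_sub, sub_eq_zero] at h2
  rw [chiHom, h2, coeff_eval₂_chi]
  refine Finset.sum_congr rfl fun k hk => ?_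
  rw [coeff_truncTotal]
  rw [Finset.mem_range] at hk
  rw [degree_mk3]
  omega

/-- The relation. -/
noncomputable def chiRel : MvPowerSeries (Fin 3) B := X 0 * X 1 - C δ * X 2

/-- The quotient series. -/
noncomputable def chiQuot (F : MvPowerSeries (Fin 3) B) : MvPowerSeries (Fin 3) B :=
  fun s => ∑ l ∈ Finset.range (s 2 + 1), δ ^ l * coeff (mk3 (s 0 + 1 + l) (s 1 + 1 + l) (s 2 - l)) F

lemma coeff_chiQuot (F : MvPowerSeries (Fin 3) B) (i j k : ℕ) : coeff (mk3 i j k) (chiQuot δ F) =
    ∑ l ∈ Finset.range (k + 1), δ ^ l * coeff (mk3 (i + 1 + l) (j + 1 + l) (k - l)) F := rfl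

lemma eq_chiRel_mul (hδ : δ ≠ 0) {F : MvPowerSeries (Fin 3) B} (hF : chiHom δ F = 0) :
    F = chiRel δ * chiQuot δ F := by
  classical
  have hδK : algebraMap B K δ ≠ 0 := by
    intro h
    exact hδ ((IsFractionRing.injective B K) (by rw [h, map_zero]))
  -- the vanishing of the sums on the boundary
  have key : ∀ i j k : ℕ, (i = 0 ∨ j = 0) →
      ∑ l ∈ Finset.range (k + 1), δ ^ l * coeff (mk3 (i + l) (j + l) (k - l)) F = 0 := by
    intro i j k hij
    have h1 := coeff_chiHom δ F (i + k) (j + k)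
    rw [hF, map_zero] at h1
    have hmin : min (i + k) (j + k) + 1 = k + 1 := by omega
    rw [hmin] at h1
    apply IsFractionRing.injective B K
    rw [map_zero, map_sum]
    have h2 : (algebraMap B K δ) ^ k * ∑ k' ∈ Finset.range (k + 1), ((algebraMap B K δ)⁻¹) ^ k' *
      algebraMap B K (coeff (mk3 (i + k - k') (j + k - k') k') F) = 0 := by
      rw [← h1, mul_zero]
    rw [Finset.mul_sum] at h2
    rw [← h2, ← Finset.sum_range_reflect]
    refine Finset.sum_congr rfl fun l hl => ?_
    rw [Finset.mem_range] at hl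
    have h3 : k + 1 - 1 - l = k - l := by omega
    rw [h3, map_mul, map_pow, ← mul_assoc]
    have h4 : (algebraMap B K δ) ^ k * ((algebraMap B K δ)⁻¹) ^ l = (algebraMap B K δ) ^ (k - l) := by
      rw [inv_pow, ← div_eq_mul_inv, div_eq_iff (pow_ne_zero _ hδK), ← pow_add]
      congr 1
      omega
    rw [h4]
    have h5 : i + (k - l) = i + k - l := by omega
    have h6 : j + (k - l) = j + k - l := by omega
    have h7 : k - (k - l) = l := by omega
    rw [h5, h6, h7]
  ext s
  rw [← mk3_eta s]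
  generalize s 0 = i, s 1 = j, s 2 = k
  rw [chiRel, sub_mul, map_sub, mul_assoc, mul_assoc, coeff_C_mul,
    coeff_X_mul_gen 0, coeff_X_mul_gen 2]
  have hsub0 : ∀ i j k, mk3 (i + 1) j k - single 0 1 = mk3 i j k := by
    intro i j k
    ext a
    rw [Finsupp.tsub_apply]
    fin_cases a <;> simp
  have hsub1 : ∀ i j k, mk3 i (j + 1) k - single 1 1 = mk3 i j k := by
    intro i j k
    ext a
    rw [Finsupp.tsub_apply]
    fin_cases a <;> simp
  have hsub2 : ∀ i j k, mk3 i j (k + 1) - single 2 1 = mk3 i j k := by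
    intro i j k
    ext a
    rw [Finsupp.tsub_apply]
    fin_cases a <;> simp
  -- second term
  have hsecond : δ * (if mk3 i j k 2 = 0 then 0 else
      coeff (mk3 i j k - single 2 1) (chiQuot δ F)) =
      ∑ l ∈ Finset.range k, δ ^ (l + 1) * coeff (mk3 (i + (l + 1)) (j + (l + 1)) (k - (l + 1))) F := by
    rw [mk3_two]
    cases k with
    | zero => simp
    | succ k =>
      rw [if_neg (Nat.succ_ne_zero k), hsub2, coeff_chiQuot, Finset.mul_sum]
      refine Finset.sum_congr rfl fun l _ => ?_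
      rw [pow_succ', mul_assoc]
      have h5 : i + 1 + l = i + (l + 1) := by omega
      have h6 : j + 1 + l = j + (l + 1) := by omega
      have h7 : k + 1 - (l + 1) = k - l := by omega
      rw [h5, h6, h7]
  rw [hsecond]
  have hsum := fun i j => Finset.sum_range_succ' (fun l => δ ^ l * coeff (mk3 (i + l) (j + l) (k - l)) F) k
  simp only [pow_zero, one_mul, add_zero, Nat.sub_zero] at hsum
  rw [mk3_zero]
  cases i with
  | zero =>
    rw [if_pos rfl, zero_sub]
    have h1 := key 0 j k (Or.inl rfl)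
    rw [hsum 0 j] at h1
    linear_combination h1
  | succ i =>
    rw [if_neg (Nat.succ_ne_zero i), hsub0, coeff_X_mul_gen 1, mk3_one]
    cases j with
    | zero =>
      rw [if_pos rfl, zero_sub]
      have h1 := key (i + 1) 0 k (Or.inr rfl)
      rw [hsum (i + 1) 0] at h1
      linear_combination h1
    | succ j =>
      rw [if_neg (Nat.succ_ne_zero j), hsub1, coeff_chiQuot]
      have h1 := hsum (i + 1) (j + 1)
      rw [h1]
      ring

lemma chiHom_chiRel (hδ : δ ≠ 0) : chiHom δ (chiRel δ) = 0 := by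
  have hδK : algebraMap B K δ ≠ 0 := by
    intro h
    exact hδ ((IsFractionRing.injective B K) (by rw [h, map_zero]))
  rw [chiRel, map_sub, map_mul, map_mul, chiHom, evalHom_X, evalHom_X, evalHom_X, evalHom_C,
    RingHom.comp_apply]
  simp only [chiVal, Matrix.cons_val_zero, Matrix.cons_val_one, Matrix.cons_val]
  rw [← mul_assoc (C (algebraMap B K δ)), ← map_mul, mul_inv_cancel₀ hδK, map_one, one_mul, sub_self]

/-- **The ideal `(xy - δ z)` is prime.** -/
theorem ker_chiHom (hδ : δ ≠ 0) : RingHom.ker (chiHom δ) = Ideal.span {chiRel δ} := by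
  apply le_antisymm
  · intro F hF
    rw [Ideal.mem_span_singleton]
    exact ⟨_, eq_chiRel_mul δ hδ hF⟩
  · rw [Ideal.span_singleton_le_iff_mem]
    exact chiHom_chiRel δ hδ

theorem isPrime_span_chiRel (hδ : δ ≠ 0) : (Ideal.span {chiRel δ}).IsPrime := by
  rw [← ker_chiHom δ hδ]
  haveI : NoZeroDivisors (KXY B) := MvPowerSeries.instNoZeroDivisors
  haveI : IsDomain (KXY B) := NoZeroDivisors.to_isDomain _
  exact RingHom.ker_isPrime _

end

end Fermat.Agent.RT
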