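import Mathlib

set_option autoImplicit false
set_option maxHeartbeats 400000
set_option linter.style.haveILetI false
set_option linter.unusedSectionVars false
set_option linter.unusedVariables false

/-!
# Complete local rings containing elements of a dominating valuation ring
-/

open IsLocalRing

namespace Fermat.Agent.RT

universe u

/-- The inclusion of a subalgebra contained in a valuation subring. -/
def inclValuation {A K : Type*} [CommRing A] [Field K] [Algebra A K] (V : ValuationSubring K)
    (R : Subalgebra A K) (hR : ∀ x ∈ R, x ∈ V) : R →+* V where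
  toFun x := ⟨x.1, hR x.1 x.2⟩
  map_one' := rfl
  map_mul' _ _ := rfl
  map_zero' := rfl
  map_add' _ _ := rfl

theorem exists_complete_extension {A : Type u} [CommRing A] [IsDomain A] [IsNoetherianRing A]
    {K : Type u} [Field K] [Algebra A K] (V : ValuationSubring K)
    (hV : ∀ a : A, algebraMap A K a ∈ V) (s : Set K) (hs : s.Finite) (hsV : ∀ x ∈ s, x ∈ V) :
    ∃ (A' : Type u) (_ : CommRing A') (_ : IsLocalRing A')
      (_ : IsAdicComplete (maximalIdeal A') A') (h : Algebra.adjoin A s →+* A'),
      Function.Injective h ∧ ∀ x : Algebra.adjoin A s, (x : K) ∈ V.nonunits →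
        h x ∈ maximalIdeal A' := by
  have hRV : ∀ x ∈ Algebra.adjoin A s, x ∈ V := by
    intro x hx
    induction hx using Algebra.adjoin_induction with
    | mem x hx => exact hsV x hx
    | algebraMap a => exact hV a
    | add x y _ _ hx hy => exact V.add_mem _ _ hx hy
    | mul x y _ _ hx hy => exact V.mul_mem _ _ hx hy
  set i := inclValuation V (Algebra.adjoin A s) hRV with hi
  haveI hft : Algebra.FiniteType A (Algebra.adjoin A s) := by
    rw [← Subalgebra.fg_iff_finiteType]
    exact ⟨hs.toFinset, by rw [hs.coe_toFinset]⟩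
  haveI hN1 : IsNoetherianRing (Algebra.adjoin A s) := Algebra.FiniteType.isNoetherianRing A _
  set 𝔭 : Ideal (Algebra.adjoin A s) := (maximalIdeal V).comap i with h𝔭
  haveI : 𝔭.IsPrime := Ideal.IsPrime.comap i
  let R2 := Localization.AtPrime 𝔭
  haveI : IsNoetherianRing R2 := IsLocalization.isNoetherianRing 𝔭.primeCompl _ hN1
  have hinj1 : Function.Injective (algebraMap (Algebra.adjoin A s) R2) :=
    IsLocalization.injective R2 (Ideal.primeCompl_le_nonZeroDivisors 𝔭)
  haveI : IsHausdorff (maximalIdeal R2) R2 :=
    IsHausdorff.of_isLocalRing _ _ (Ideal.IsPrime.ne_top inferInstance)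
  have hinj2 : Function.Injective (algebraMap R2 (AdicCompletion (maximalIdeal R2) R2)) := by
    intro x y hxy
    exact AdicCompletion.of_injective (maximalIdeal R2) R2 hxy
  refine ⟨AdicCompletion (maximalIdeal R2) R2, inferInstance, inferInstance, inferInstance,
    (algebraMap R2 (AdicCompletion (maximalIdeal R2) R2)).comp
      (algebraMap (Algebra.adjoin A s) R2), hinj2.comp hinj1, fun x hx => ?_⟩
  have h1 : x ∈ 𝔭 := by
    rw [h𝔭, Ideal.mem_comap]
    rw [ValuationSubring.mem_nonunits_iff_exists_mem_maximalIdeal] at hx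
    obtain ⟨hx1, hx2⟩ := hx
    exact hx2
  have h2 : algebraMap (Algebra.adjoin A s) R2 x ∈ maximalIdeal R2 := by
    rw [← IsLocalization.AtPrime.map_eq_maximalIdeal 𝔭]
    exact Ideal.mem_map_of_mem _ h1
  rw [RingHom.comp_apply]
  intro hu
  exact h2 ((isUnit_map_iff (algebraMap R2 (AdicCompletion (maximalIdeal R2) R2)) _).mp hu)

end Fermat.Agent.RT
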