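import Fermat.Agent.RT.ChartLemma
import Fermat.Agent.RT.ChiRing
import Fermat.Agent.RT.Dominate
import Fermat.Prelude.Thm_IsLocalRing_isAdicComplete_of_module_finite

set_option autoImplicit false
set_option maxHeartbeats 400000
set_option linter.style.haveILetI false
set_option linter.unusedSectionVars false
set_option linter.unusedVariables false

/-!
# The chart of the lifting ring of type `χ`
-/

open IsLocalRing MvPowerSeries

namespace Fermat.Agent.RT

/-- The index set of the local variables: `false` = Frobenius, `true` = inertia. -/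
abbrev LIx := Bool × Fin 2 × Fin 2

section Matrices

variable {R R' : Type*} [CommRing R] [CommRing R']

/-- The matrix `g (α β; 0 α') g⁻¹` for `g = (1 0; c 1)`. -/
def lowConj (c α β α' : R) : Matrix (Fin 2) (Fin 2) R :=
  !![α - c * β, β; c * (α - α') - c ^ 2 * β, α' + c * β]

lemma lowConj_map (f : R →+* R') (c α β α' : R) :
    (lowConj c α β α').map f = lowConj (f c) (f α) (f β) (f α') := by
  ext i j
  fin_cases i <;> fin_cases j <;> simp [lowConj]

lemma lowConj_map_apply (f : R →+* R') (c α β α' : R) (i j : Fin 2) :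
    f ((lowConj c α β α' - 1) i j) = (lowConj (f c) (f α) (f β) (f α') - 1) i j := by
  rw [← lowConj_map]
  rw [Matrix.sub_apply, Matrix.sub_apply, map_sub, Matrix.map_apply]
  congr 1
  by_cases h : i = j
  · subst h; simp
  · simp [Matrix.one_apply_ne h]

lemma lowConj_sub_one_mem {I : Ideal R} {c α β α' : R} (hα : α - 1 ∈ I) (hβ : β ∈ I)
    (hα' : α' - 1 ∈ I) (i j : Fin 2) : (lowConj c α β α' - 1) i j ∈ I := by
  fin_cases i <;> fin_cases j
  · have h : (lowConj c α β α' - 1) 0 0 = (α - 1) - c * β := by simp [lowConj]; ring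
    change (lowConj c α β α' - 1) 0 0 ∈ I
    rw [h]
    exact Ideal.sub_mem _ hα (Ideal.mul_mem_left _ _ hβ)
  · have h : (lowConj c α β α' - 1) 0 1 = β := by simp [lowConj]
    change (lowConj c α β α' - 1) 0 1 ∈ I
    rw [h]
    exact hβ
  · have h : (lowConj c α β α' - 1) 1 0 = c * ((α - 1) - (α' - 1)) - c ^ 2 * β := by
      simp [lowConj]
    change (lowConj c α β α' - 1) 1 0 ∈ I
    rw [h]
    exact Ideal.sub_mem _ (Ideal.mul_mem_left _ _ (Ideal.sub_mem _ hα hα'))
      (Ideal.mul_mem_left _ _ hβ)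
  · have h : (lowConj c α β α' - 1) 1 1 = (α' - 1) + c * β := by simp [lowConj]; ring
    change (lowConj c α β α' - 1) 1 1 ∈ I
    rw [h]
    exact Ideal.add_mem _ hα' (Ideal.mul_mem_left _ _ hβ)

end Matrices

section Sqrt

variable {R : Type*} [CommRing R] [IsLocalRing R]

lemma sqrt_unique (h2 : IsUnit (2 : R)) {w₁ w₂ : R} (h : w₁ ^ 2 = w₂ ^ 2)
    (h₁ : w₁ - 2 ∈ maximalIdeal R) (h₂ : w₂ - 2 ∈ maximalIdeal R) : w₁ = w₂ := by
  have h3 : (w₁ - w₂) * (w₁ + w₂) = 0 := by linear_combination h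
  have h4 : IsUnit (w₁ + w₂) := by
    by_contra hne
    have h5 : w₁ + w₂ ∈ maximalIdeal R := hne
    have h6 : (2 * 2 : R) ∈ maximalIdeal R := by
      have : (2 * 2 : R) = (w₁ + w₂) - (w₁ - 2) - (w₂ - 2) := by ring
      rw [this]
      exact Ideal.sub_mem _ (Ideal.sub_mem _ h5 h₁) h₂
    exact h6 (h2.mul h2)
  exact sub_eq_zero.mp ((IsUnit.mul_left_eq_zero h4).mp h3)

lemma sqrt_exists [IsAdicComplete (maximalIdeal R) R] (h2 : IsUnit (2 : R)) {a : R}
    (ha : a - 4 ∈ maximalIdeal R) : ∃ w : R, w ^ 2 = a ∧ w - 2 ∈ maximalIdeal R := by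
  have h := HenselianRing.is_henselian (R := R) (I := maximalIdeal R)
    (Polynomial.X ^ 2 - Polynomial.C a) (Polynomial.monic_X_pow_sub_C a two_ne_zero) 2
    (by
      simp only [Polynomial.eval_sub, Polynomial.eval_pow, Polynomial.eval_X, Polynomial.eval_C]
      have : (2 : R) ^ 2 - a = -(a - 4) := by ring
      rw [this]
      exact (Ideal.neg_mem_iff _).mpr ha)
    (by
      simp only [Polynomial.derivative_sub, Polynomial.derivative_X_pow, Polynomial.derivative_C,
        sub_zero]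
      simp only [Nat.cast_ofNat, Nat.add_one_sub_one, pow_one, Polynomial.eval_mul,
        Polynomial.eval_C, Polynomial.eval_X]
      exact (h2.mul h2).map _)
  obtain ⟨w, hw, hw2⟩ := h
  refine ⟨w, ?_, hw2⟩
  rw [Polynomial.IsRoot.def] at hw
  simp only [Polynomial.eval_sub, Polynomial.eval_pow, Polynomial.eval_X, Polynomial.eval_C] at hw
  exact sub_eq_zero.mp hw

end Sqrt

section TT

variable {B : Type*} [CommRing B] [IsLocalRing B] [IsNoetherianRing B]
  [IsAdicComplete (maximalIdeal B) B] (δ : B)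

/-- The base ring of the chart: `B[[x,y,z]]/(xy - δz)`. -/
abbrev TT : Type _ := MvPowerSeries (Fin 3) B ⧸ Ideal.span {chiRel δ}

omit [IsNoetherianRing B] [IsAdicComplete (maximalIdeal B) B] in
lemma chiRel_mem : chiRel δ ∈ maximalIdeal (MvPowerSeries (Fin 3) B) := by
  rw [mem_maximalIdeal_iff, chiRel]
  simp

omit [IsNoetherianRing B] [IsAdicComplete (maximalIdeal B) B] in
lemma span_chiRel_ne_top : Ideal.span {chiRel δ} ≠ ⊤ := by
  intro h
  have : Ideal.span {chiRel δ} ≤ maximalIdeal (MvPowerSeries (Fin 3) B) := by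
    rw [Ideal.span_singleton_le_iff_mem]; exact chiRel_mem δ
  rw [h, top_le_iff] at this
  exact (Ideal.IsPrime.ne_top inferInstance) this

instance : Nontrivial (TT δ) := Ideal.Quotient.nontrivial_iff.mpr (span_chiRel_ne_top δ)

instance : IsLocalRing (TT δ) :=
  IsLocalRing.of_surjective' (Ideal.Quotient.mk _) Ideal.Quotient.mk_surjective

instance : IsLocalHom (algebraMap (MvPowerSeries (Fin 3) B) (TT δ)) :=
  IsLocalHom.of_surjective _ Ideal.Quotient.mk_surjective

instance : IsAdicComplete (maximalIdeal (TT δ)) (TT δ) :=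
  IsLocalRing.isAdicComplete_of_module_finite (𝒪 := MvPowerSeries (Fin 3) B)

omit [IsNoetherianRing B] [IsAdicComplete (maximalIdeal B) B] in
lemma mk_mem_maximalIdeal {F : MvPowerSeries (Fin 3) B}
    (hF : F ∈ maximalIdeal (MvPowerSeries (Fin 3) B)) :
    (Ideal.Quotient.mk (Ideal.span {chiRel δ}) F : TT δ) ∈ maximalIdeal (TT δ) := by
  intro hu
  exact hF ((isUnit_map_iff (algebraMap (MvPowerSeries (Fin 3) B) (TT δ)) F).mp hu)

end TT

section Chart

variable {𝒪 : Type*} [CommRing 𝒪] [IsLocalRing 𝒪] {ι' : Type*} [Fintype ι']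

/-- Values of the variables of `P` for a point with coordinates `c, α, β, α'`. -/
noncomputable def ptVal {R : Type*} [CommRing R] (xi : ι' → R) (c : R) (α β α' : Bool → R) :
    ι' ⊕ LIx → R
  | Sum.inl i => xi i
  | Sum.inr (s, i, j) => (lowConj c (α s) (β s) (α' s) - 1) i j

omit [Fintype ι'] in
lemma ptVal_mem {R : Type*} [CommRing R] {I : Ideal R} {xi : ι' → R} (hxi : ∀ i, xi i ∈ I)
    (c : R) {α β α' : Bool → R} (hα : ∀ s, α s - 1 ∈ I) (hβ : ∀ s, β s ∈ I)
    (hα' : ∀ s, α' s - 1 ∈ I) (i : ι' ⊕ LIx) : ptVal xi c α β α' i ∈ I := by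
  rcases i with i | ⟨s, i, j⟩
  · exact hxi i
  · exact lowConj_sub_one_mem (hα s) (hβ s) (hα' s) i j

omit [Fintype ι'] in
lemma ptVal_map {R R' : Type*} [CommRing R] [CommRing R'] (f : R →+* R') (xi : ι' → R)
    (c : R) (α β α' : Bool → R) (i : ι' ⊕ LIx) :
    f (ptVal xi c α β α' i) = ptVal (fun i => f (xi i)) (f c) (fun s => f (α s))
      (fun s => f (β s)) (fun s => f (α' s)) i := by
  rcases i with i | ⟨s, i, j⟩
  · rfl
  · exact lowConj_map_apply f _ _ _ _ i j

variable {T : Type*} [CommRing T] [IsLocalRing T] [IsAdicComplete (maximalIdeal T) T]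

/-- The polynomial form of the chart. -/
noncomputable def chartPoly (xi : ι' → T) (α β α' : Bool → T) : ι' ⊕ LIx → MvPolynomial Unit T :=
  ptVal (fun i => MvPolynomial.C (xi i)) (MvPolynomial.X ()) (fun s => MvPolynomial.C (α s))
    (fun s => MvPolynomial.C (β s)) (fun s => MvPolynomial.C (α' s))

variable (g : 𝒪 →+* T) (hg : ∀ b ∈ maximalIdeal 𝒪, g b ∈ maximalIdeal T)
  {xi : ι' → T} (hxi : ∀ i, xi i ∈ maximalIdeal T) {α β α' : Bool → T}
  (hα : ∀ s, α s - 1 ∈ maximalIdeal T) (hβ : ∀ s, β s ∈ maximalIdeal T)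
  (hα' : ∀ s, α' s - 1 ∈ maximalIdeal T)

include hxi hα hβ hα' in
omit [IsAdicComplete (maximalIdeal T) T] [Fintype ι'] in
lemma coeff_chartPoly_mem (i : ι' ⊕ LIx) (m : Unit →₀ ℕ) :
    MvPolynomial.coeff m (chartPoly xi α β α' i) ∈ maximalIdeal T := by
  have hC : ∀ t ∈ maximalIdeal T, (MvPolynomial.C t : MvPolynomial Unit T) ∈
      (maximalIdeal T).map (MvPolynomial.C : T →+* MvPolynomial Unit T) := fun t ht =>
    Ideal.mem_map_of_mem _ ht
  have h := ptVal_mem (I := (maximalIdeal T).map (MvPolynomial.C : T →+* MvPolynomial Unit T))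
    (xi := fun i => MvPolynomial.C (xi i)) (fun i => hC _ (hxi i)) (MvPolynomial.X ())
    (α := fun s => MvPolynomial.C (α s)) (β := fun s => MvPolynomial.C (β s))
    (α' := fun s => MvPolynomial.C (α' s))
    (fun s => by rw [← map_one MvPolynomial.C, ← map_sub]; exact hC _ (hα s))
    (fun s => hC _ (hβ s))
    (fun s => by rw [← map_one MvPolynomial.C, ← map_sub]; exact hC _ (hα' s)) i
  exact MvPolynomial.mem_map_C_iff.mp h m

include hxi hα hβ hα' in
omit [IsAdicComplete (maximalIdeal T) T] [Fintype ι'] in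
lemma coe_chartPoly_mem (i : ι' ⊕ LIx) :
    ((chartPoly xi α β α' i : MvPolynomial Unit T) : MvPowerSeries Unit T) ∈
      maximalIdeal (MvPowerSeries Unit T) := by
  rw [mem_maximalIdeal_iff, ← coeff_zero_eq_constantCoeff_apply, MvPolynomial.coeff_coe]
  exact coeff_chartPoly_mem hxi hα hβ hα' i 0

/-- The chart map. -/
noncomputable def chartMap : MvPowerSeries (ι' ⊕ LIx) 𝒪 →+* MvPowerSeries Unit T :=
  evalHom (maximalIdeal (MvPowerSeries Unit T)) ((C : T →+* MvPowerSeries Unit T).comp g)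
    (fun i => ((chartPoly xi α β α' i : MvPolynomial Unit T) : MvPowerSeries Unit T))
    (coe_chartPoly_mem hxi hα hβ hα')

/-- Points of the chart factor through the kernel of the chart map. -/
theorem chartMap_ker_le {A : Type*} [CommRing A] [IsLocalRing A] [IsHausdorff (maximalIdeal A) A]
    (hg : ∀ b ∈ maximalIdeal 𝒪, g b ∈ maximalIdeal T)
    (e : T →+* A) (he : ∀ t ∈ maximalIdeal T, e t ∈ maximalIdeal A) (c₀ : A)
    (π : MvPowerSeries (ι' ⊕ LIx) 𝒪 →+* A) (hπC : ∀ b, π (C b) = e (g b))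
    (hπX : ∀ i, π (X i) = ptVal (fun i => e (xi i)) c₀ (fun s => e (α s))
      (fun s => e (β s)) (fun s => e (α' s)) i) :
    RingHom.ker (chartMap g hxi hα hβ hα') ≤ RingHom.ker π := by
  intro F hF
  rw [RingHom.mem_ker] at hF ⊢
  refine chart_lemma g hg (chartPoly xi α β α') (coeff_chartPoly_mem hxi hα hβ hα')
    (chartMap g hxi hα hβ hα') (fun b => ?_) (fun i => ?_) e he (fun _ => c₀) π hπC
    (fun i => ?_) hF
  · rw [chartMap, evalHom_C]; rfl
  · rw [chartMap, evalHom_X]
  · rw [hπX, chartPoly, ptVal_map]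
    simp only [MvPolynomial.eval₂Hom_C, MvPolynomial.eval₂Hom_X']

end Chart

end Fermat.Agent.RT
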