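import Fermat.Agent.RT.ChiPoint

set_option autoImplicit false
set_option maxHeartbeats 400000
set_option linter.style.haveILetI false
set_option linter.unusedSectionVars false
set_option linter.unusedVariables false

/-!
# Points of type `χ` over domains lie on the chart component
-/

open IsLocalRing MvPowerSeries

namespace Fermat.Agent.RT

section Conj

variable {R : Type*} [CommRing R]

/-- The unipotent matrix `(1 1; 0 1)`. -/
def uMat (R : Type*) [CommRing R] : Matrix (Fin 2) (Fin 2) R := !![1, 1; 0, 1]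

/-- The inverse unipotent matrix. -/
def uInv (R : Type*) [CommRing R] : Matrix (Fin 2) (Fin 2) R := !![1, -1; 0, 1]

lemma uMat_mul_uInv : uMat R * uInv R = 1 := by
  ext i j; fin_cases i <;> fin_cases j <;> simp [uMat, uInv]

lemma uInv_mul_uMat : uInv R * uMat R = 1 := by
  ext i j; fin_cases i <;> fin_cases j <;> simp [uMat, uInv]

lemma uMat_map {R' : Type*} [CommRing R'] (f : R →+* R') : (uMat R).map f = uMat R' := by
  ext i j; fin_cases i <;> fin_cases j <;> simp [uMat]

lemma uInv_map {R' : Type*} [CommRing R'] (f : R →+* R') : (uInv R).map f = uInv R' := by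
  ext i j; fin_cases i <;> fin_cases j <;> simp [uInv]

lemma lowConj_conj {c t α β α' : R} (h : (1 - c) * t = 1) :
    uInv R * lowConj c α β α' * uMat R =
      lowConj (c * t) α ((1 - c) * (α - α') + (1 - c) ^ 2 * β) α' := by
  ext i j
  fin_cases i <;> fin_cases j
  · simp [uMat, uInv, lowConj, Matrix.mul_apply, Fin.sum_univ_two]
    linear_combination (c * (α - α') + c * (1 - c) * β) * h
  · simp [uMat, uInv, lowConj, Matrix.mul_apply, Fin.sum_univ_two]
    ring
  · simp [uMat, uInv, lowConj, Matrix.mul_apply, Fin.sum_univ_two]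
    linear_combination (-(c * (α - α')) + c * (c * t) * (α - α') + c ^ 2 * β + c ^ 2 * β * ((1 - c) * t)) * h
  · simp [uMat, uInv, lowConj, Matrix.mul_apply, Fin.sum_univ_two]
    linear_combination (-(c * (α - α')) - c * (1 - c) * β) * h

end Conj

section MatOf

variable {𝒪 : Type*} [CommRing 𝒪] [IsLocalRing 𝒪] {ι' : Type*} [Fintype ι']
  {A : Type*} [CommRing A]

/-- The local lifting matrices of a homomorphism. -/
noncomputable def matOf (π : MvPowerSeries (ι' ⊕ LIx) 𝒪 →+* A) (s : Bool) :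
    Matrix (Fin 2) (Fin 2) A := 1 + Matrix.of fun a b => π (X (Sum.inr (s, a, b)))

lemma matOf_sub_one (π : MvPowerSeries (ι' ⊕ LIx) 𝒪 →+* A) (s : Bool) (a b : Fin 2) :
    (matOf π s - 1) a b = π (X (Sum.inr (s, a, b))) := by
  rw [matOf, add_sub_cancel_left]; rfl

/-- The universal matrix. -/
noncomputable def matP (s : Bool) : Matrix (Fin 2) (Fin 2) (MvPowerSeries (ι' ⊕ LIx) 𝒪) :=
  1 + Matrix.of fun a b => X (Sum.inr (s, a, b))

lemma map_sub_one_apply {R R' : Type*} [CommRing R] [CommRing R'] (f : R →+* R')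
    (M : Matrix (Fin 2) (Fin 2) R) (a b : Fin 2) : f ((M - 1) a b) = (M.map f - 1) a b := by
  rw [Matrix.sub_apply, Matrix.sub_apply, map_sub, Matrix.map_apply]
  congr 1
  by_cases h : a = b
  · subst h; simp
  · simp [Matrix.one_apply_ne h]

lemma matP_map (π : MvPowerSeries (ι' ⊕ LIx) 𝒪 →+* A) (s : Bool) :
    (matP (𝒪 := 𝒪) (ι' := ι') s).map π = matOf π s := by
  ext a b
  rw [matP, matOf, Matrix.map_apply, Matrix.add_apply, Matrix.add_apply, map_add]
  congr 1
  by_cases h : a = b
  · subst h; simp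
  · simp [Matrix.one_apply_ne h]

/-- The values of the variables for the conjugation. -/
noncomputable def conjVal (γ γ' : ∀ (R : Type _) [CommRing R], Matrix (Fin 2) (Fin 2) R) :
    ι' ⊕ LIx → MvPowerSeries (ι' ⊕ LIx) 𝒪
  | Sum.inl i => X (Sum.inl i)
  | Sum.inr (s, a, b) => (γ (MvPowerSeries (ι' ⊕ LIx) 𝒪) * matP s * γ' _ - 1 :
      Matrix (Fin 2) (Fin 2) (MvPowerSeries (ι' ⊕ LIx) 𝒪)) a b

lemma conjVal_mem {γ γ' : ∀ (R : Type _) [CommRing R], Matrix (Fin 2) (Fin 2) R}
    (h : γ (MvPowerSeries (ι' ⊕ LIx) 𝒪) * γ' _ = 1) (i : ι' ⊕ LIx) :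
    conjVal γ γ' i ∈ maximalIdeal (MvPowerSeries (ι' ⊕ LIx) 𝒪) := by
  rcases i with i | ⟨s, a, b⟩
  · exact X_mem_maximalIdeal' _
  · have h1 : γ (MvPowerSeries (ι' ⊕ LIx) 𝒪) * matP s * γ' _ - 1 =
        γ _ * (Matrix.of fun a b => X (Sum.inr (s, a, b))) * γ' _ := by
      rw [matP, mul_add, add_mul, mul_one, h, add_sub_cancel_left]
    change (γ (MvPowerSeries (ι' ⊕ LIx) 𝒪) * matP s * γ' _ - 1 :
      Matrix (Fin 2) (Fin 2) (MvPowerSeries (ι' ⊕ LIx) 𝒪)) a b ∈ _
    rw [h1, Matrix.mul_apply]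
    refine Ideal.sum_mem _ fun k _ => Ideal.mul_mem_right _ _ ?_
    rw [Matrix.mul_apply]
    refine Ideal.sum_mem _ fun l _ => Ideal.mul_mem_left _ _ ?_
    exact X_mem_maximalIdeal' _

variable [IsAdicComplete (maximalIdeal 𝒪) 𝒪]

variable (𝒪 ι') in
/-- Conjugation by `(1 1; 0 1)`. -/
noncomputable def conjU : MvPowerSeries (ι' ⊕ LIx) 𝒪 →+* MvPowerSeries (ι' ⊕ LIx) 𝒪 :=
  evalHom (maximalIdeal _) C (conjVal (fun R _ => uMat R) (fun R _ => uInv R))
    (conjVal_mem uMat_mul_uInv)

variable (𝒪 ι') in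
/-- Conjugation by `(1 -1; 0 1)`. -/
noncomputable def conjV : MvPowerSeries (ι' ⊕ LIx) 𝒪 →+* MvPowerSeries (ι' ⊕ LIx) 𝒪 :=
  evalHom (maximalIdeal _) C (conjVal (fun R _ => uInv R) (fun R _ => uMat R))
    (conjVal_mem uInv_mul_uMat)

lemma conjU_C (b : 𝒪) : conjU 𝒪 ι' (C b) = C b := by rw [conjU, evalHom_C]
lemma conjV_C (b : 𝒪) : conjV 𝒪 ι' (C b) = C b := by rw [conjV, evalHom_C]
lemma conjU_inl (i : ι') : conjU 𝒪 ι' (X (Sum.inl i)) = X (Sum.inl i) := by
  rw [conjU, evalHom_X]; rfl
lemma conjV_inl (i : ι') : conjV 𝒪 ι' (X (Sum.inl i)) = X (Sum.inl i) := by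
  rw [conjV, evalHom_X]; rfl

lemma matOf_comp_conjU (π : MvPowerSeries (ι' ⊕ LIx) 𝒪 →+* A) (s : Bool) :
    matOf (π.comp (conjU 𝒪 ι')) s = uMat A * matOf π s * uInv A := by
  have h : matOf (π.comp (conjU 𝒪 ι')) s - 1 = uMat A * matOf π s * uInv A - 1 := by
    ext a b
    rw [matOf_sub_one, RingHom.comp_apply, conjU, evalHom_X]
    change π ((uMat _ * matP s * uInv _ - 1 :
      Matrix (Fin 2) (Fin 2) (MvPowerSeries (ι' ⊕ LIx) 𝒪)) a b) = _
    rw [map_sub_one_apply, Matrix.map_mul, Matrix.map_mul, uMat_map, uInv_map, matP_map]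
  have := congrArg (· + 1) h
  simpa using this

lemma matOf_comp_conjV (π : MvPowerSeries (ι' ⊕ LIx) 𝒪 →+* A) (s : Bool) :
    matOf (π.comp (conjV 𝒪 ι')) s = uInv A * matOf π s * uMat A := by
  have h : matOf (π.comp (conjV 𝒪 ι')) s - 1 = uInv A * matOf π s * uMat A - 1 := by
    ext a b
    rw [matOf_sub_one, RingHom.comp_apply, conjV, evalHom_X]
    change π ((uInv _ * matP s * uMat _ - 1 :
      Matrix (Fin 2) (Fin 2) (MvPowerSeries (ι' ⊕ LIx) 𝒪)) a b) = _
    rw [map_sub_one_apply, Matrix.map_mul, Matrix.map_mul, uMat_map, uInv_map, matP_map]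
  have := congrArg (· + 1) h
  simpa using this

lemma conjU_comp_conjV : (conjU 𝒪 ι').comp (conjV 𝒪 ι') = RingHom.id _ := by
  have hX : ∀ i : ι' ⊕ LIx, ((conjU 𝒪 ι').comp (conjV 𝒪 ι')) (X i) = X i := by
    intro i
    rcases i with i | ⟨s, a, b⟩
    · rw [RingHom.comp_apply, conjV_inl, conjU_inl]
    · rw [← matOf_sub_one, matOf_comp_conjV]
      have h1 := matOf_comp_conjU (RingHom.id (MvPowerSeries (ι' ⊕ LIx) 𝒪)) s
      rw [RingHom.id_comp] at h1
      rw [h1]
      have h2 : uInv (MvPowerSeries (ι' ⊕ LIx) 𝒪) * (uMat _ * matOf (RingHom.id _) s * uInv _) *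
          uMat _ = matOf (RingHom.id (MvPowerSeries (ι' ⊕ LIx) 𝒪)) s := by
        rw [← mul_assoc, ← mul_assoc, uInv_mul_uMat, one_mul, mul_assoc, uInv_mul_uMat, mul_one]
      rw [h2, matOf_sub_one]
      rfl
  refine (ringHom_ext_of_hausdorff (I := maximalIdeal (MvPowerSeries (ι' ⊕ LIx) 𝒪))
    (fun b hb => ?_) (fun i => ?_) (fun b => ?_) (fun i => ?_))
  · rw [RingHom.comp_apply, conjV_C, conjU_C]; exact C_mem_maximalIdeal hb
  · rw [hX]; exact X_mem_maximalIdeal' _
  · rw [RingHom.comp_apply, conjV_C, conjU_C]; rfl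
  · rw [hX]; rfl

end MatOf

section Domain

universe u

variable {𝒪 : Type*} [CommRing 𝒪] [IsLocalRing 𝒪] (k : ChiConst 𝒪)
  {ι' : Type*} [Fintype ι'] {B : Type*} [CommRing B] [IsLocalRing B] [IsNoetherianRing B]
  [IsAdicComplete (maximalIdeal B) B]
  (g₀ : MvPowerSeries ι' 𝒪 →+* B) (hg₀ : ∀ F ∈ maximalIdeal (MvPowerSeries ι' 𝒪),
    g₀ F ∈ maximalIdeal B)
  {A : Type u} [CommRing A] [IsDomain A] [IsNoetherianRing A] [IsLocalRing A]
  {K : Type u} [Field K] [Algebra A K] [IsFractionRing A K]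

/-- The relations of type `χ` for a homomorphism. -/
structure ChiRel {A : Type*} [CommRing A] (π : MvPowerSeries (ι' ⊕ LIx) 𝒪 →+* A) : Prop where
  tr : (matOf π true).trace = π (C k.ζ) + π (C k.ζ')
  det : (matOf π true).det = 1
  comm : matOf π false * matOf π true = matOf π true * matOf π false
  detF : (matOf π false).det = π (C k.q)

/-- The case of a finite line. -/
theorem chi_finite (j : B →+* A) (hj : ∀ b ∈ maximalIdeal B, j b ∈ maximalIdeal A)
    (π : MvPowerSeries (ι' ⊕ LIx) 𝒪 →+* A)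
    (hπX : ∀ i, π (X i) ∈ maximalIdeal A)
    (hπC : ∀ b, π (C b) = j (g₀ (C b))) (hπi : ∀ i, π (X (Sum.inl i)) = j (g₀ (X i)))
    (hrel : ChiRel k π) (hδ : π (C (k.ζ - k.ζ')) ≠ 0)
    (V : ValuationSubring K)
    (hV : ∀ a : A, algebraMap A K a ∈ V)
    (hV' : ∀ a ∈ maximalIdeal A, algebraMap A K a ∈ V.nonunits)
    (c : K) (hc : c ∈ V)
    (h1 : algebraMap A K (matOf π true 0 0) + c * algebraMap A K (matOf π true 0 1) =
      algebraMap A K (π (C k.ζ)))
    (h2 : algebraMap A K (matOf π true 1 0) + c * algebraMap A K (matOf π true 1 1) =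
      algebraMap A K (π (C k.ζ)) * c) :
    RingHom.ker (chiMap k g₀ hg₀) ≤ RingHom.ker π := by
  obtain ⟨A', _, _, _, h, hinj, hloc⟩ := exists_complete_extension V hV {c}
    (Set.finite_singleton c) (fun x hx => by rw [Set.mem_singleton_iff.mp hx]; exact hc)
  set f : A →+* K := algebraMap A K with hf
  have hfinj : Function.Injective f := IsFractionRing.injective A K
  set ζ := f (π (C k.ζ)) with hζ
  set ζ' := f (π (C k.ζ')) with hζ'
  set S00 := f (matOf π true 0 0)
  set S01 := f (matOf π true 0 1)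
  set S10 := f (matOf π true 1 0)
  set S11 := f (matOf π true 1 1)
  set F00 := f (matOf π false 0 0)
  set F01 := f (matOf π false 0 1)
  set F10 := f (matOf π false 1 0)
  set F11 := f (matOf π false 1 1)
  have htr : S00 + S11 = ζ + ζ' := by
    have := congrArg f hrel.tr
    rw [Matrix.trace_fin_two, map_add, map_add] at this
    exact this
  have hc00 : F01 * S10 = S01 * F10 := by
    have := congrArg f (congrFun (congrFun hrel.comm 0) 0)
    simp only [Matrix.mul_apply, Fin.sum_univ_two, map_add, map_mul] at this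
    linear_combination this
  have hc01 : F00 * S01 + F01 * S11 = S00 * F01 + S01 * F11 := by
    have := congrArg f (congrFun (congrFun hrel.comm 0) 1)
    simp only [Matrix.mul_apply, Fin.sum_univ_two, map_add, map_mul] at this
    exact this
  have hc10 : F10 * S00 + F11 * S10 = S10 * F00 + S11 * F10 := by
    have := congrArg f (congrFun (congrFun hrel.comm 1) 0)
    simp only [Matrix.mul_apply, Fin.sum_univ_two, map_add, map_mul] at this
    exact this
  have hdF : F00 * F11 - F01 * F10 = f (π (C k.q)) := by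
    have := congrArg f hrel.detF
    rw [Matrix.det_fin_two, map_sub, map_mul, map_mul] at this
    exact this
  have hδ' : ζ - ζ' ≠ 0 := by
    intro h0
    apply hδ
    apply hfinj
    rw [map_sub, map_sub, map_sub, map_zero]
    exact h0
  have e00 : S00 = ζ - c * S01 := by linear_combination h1
  have e11 : S11 = ζ' + c * S01 := by linear_combination htr - e00
  have e10 : S10 = c * (ζ - ζ') - c ^ 2 * S01 := by linear_combination h2 - c * e11
  have hl : F10 - c * (F00 - F11) - c ^ 2 * F01 = 0 := by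
    have : (ζ - ζ') * (F10 - c * (F00 - F11) - c ^ 2 * F01) = 0 := by
      rw [e10, e00, e11] at hc10
      rw [e10] at hc00
      rw [e00, e11] at hc01
      linear_combination hc10 - 2 * c * hc00 - c ^ 2 * hc01
    exact (mul_eq_zero.mp this).resolve_left hδ'
  -- elements of the extension
  set i₀ : A →+* Algebra.adjoin A ({c} : Set K) := algebraMap A _ with hi₀
  have hi₀f : ∀ a, ((i₀ a : Algebra.adjoin A ({c} : Set K)) : K) = f a := fun a => rfl
  set c₁ : Algebra.adjoin A ({c} : Set K) := ⟨c, Algebra.subset_adjoin (Set.mem_singleton c)⟩ with hc₁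
  have hc₁K : (c₁ : K) = c := rfl
  set p₁ : Algebra.adjoin A ({c} : Set K) := i₀ (matOf π false 0 0) + c₁ * i₀ (matOf π false 0 1)
    with hp₁
  set p₂ : Algebra.adjoin A ({c} : Set K) := i₀ (matOf π false 1 1) - c₁ * i₀ (matOf π false 0 1)
    with hp₂
  have hp₁K : (p₁ : K) = F00 + c * F01 := rfl
  have hp₂K : (p₂ : K) = F11 - c * F01 := rfl
  have hmem : ∀ a ∈ maximalIdeal A, h (i₀ a) ∈ maximalIdeal A' := fun a ha => hloc _ (hV' a ha)
  have hmat : ∀ s a b, (matOf π s - 1) a b ∈ maximalIdeal A := fun s a b => by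
    rw [matOf_sub_one]; exact hπX _
  have hoff : ∀ s, matOf π s 0 1 ∈ maximalIdeal A := fun s => by
    have := hmat s 0 1
    rwa [Matrix.sub_apply, Matrix.one_apply_ne (by decide), sub_zero] at this
  have hdiag : ∀ s, matOf π s 0 0 - 1 ∈ maximalIdeal A := fun s => by
    have := hmat s 0 0
    rwa [Matrix.sub_apply, Matrix.one_apply_eq] at this
  have main := chiMap_ker_le k g₀ hg₀ ((h.comp i₀).comp j) (fun b hb => hmem _ (hj b hb))
    (c := h c₁) (x := h (i₀ (matOf π true 0 1))) (z := h (i₀ (matOf π false 0 1)))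
    (φ₁ := h p₁) (φ₂ := h p₂) (hmem _ (hoff true)) (hmem _ (hoff false))
    (by
      have h3 : h p₁ - 1 = h (i₀ (matOf π false 0 0 - 1)) + h c₁ * h (i₀ (matOf π false 0 1)) := by
        rw [map_sub, map_sub, map_one, map_one, hp₁, map_add, map_mul]; ring
      rw [h3]
      exact Ideal.add_mem _ (hmem _ (hdiag false)) (Ideal.mul_mem_left _ _ (hmem _ (hoff false))))
    (by
      rw [← map_mul, RingHom.comp_apply, ← hπC, RingHom.comp_apply]
      congr 1
      apply Subtype.ext
      change (F00 + c * F01) * (F11 - c * F01) = f (π (C k.q))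
      linear_combination hdF + F01 * hl)
    (by
      rw [RingHom.comp_apply, ← hπC, RingHom.comp_apply, ← map_sub, ← map_mul, ← map_mul]
      congr 1
      apply Subtype.ext
      change S01 * ((F00 + c * F01) - (F11 - c * F01)) = f (π (C (k.ζ - k.ζ'))) * F01
      rw [map_sub, map_sub, map_sub]
      rw [e00, e11] at hc01
      linear_combination hc01)
    ((h.comp i₀).comp π) (fun b => by rw [RingHom.comp_apply, hπC]; rfl)
    (fun i => by rw [RingHom.comp_apply, hπi]; rfl)
    (fun a b => by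
      have e1 : ((h.comp i₀).comp j) (g₀ (C k.ζ)) = h (i₀ (π (C k.ζ))) := by rw [hπC]; rfl
      have e2 : ((h.comp i₀).comp j) (g₀ (C k.ζ')) = h (i₀ (π (C k.ζ'))) := by rw [hπC]; rfl
      rw [e1, e2, ← lowConj_map_apply h, RingHom.comp_apply, ← matOf_sub_one, RingHom.comp_apply]
      congr 1
      apply Subtype.ext
      have e3 := lowConj_map_apply (Subalgebra.val (Algebra.adjoin A ({c} : Set K)) :
        Algebra.adjoin A ({c} : Set K) →+* K) c₁ (i₀ (π (C k.ζ))) (i₀ (matOf π true 0 1))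
        (i₀ (π (C k.ζ'))) a b
      refine Eq.trans ?_ e3.symm
      change f ((matOf π true - 1) a b) = (lowConj c ζ S01 ζ' - 1) a b
      rw [map_sub_one_apply, Matrix.sub_apply, Matrix.sub_apply]
      congr 1
      fin_cases a <;> fin_cases b
      · exact e00
      · rfl
      · exact e10
      · exact e11)
    (fun a b => by
      rw [← lowConj_map_apply h, RingHom.comp_apply, ← matOf_sub_one, RingHom.comp_apply]
      congr 1
      apply Subtype.ext
      have e3 := lowConj_map_apply (Subalgebra.val (Algebra.adjoin A ({c} : Set K)) :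
        Algebra.adjoin A ({c} : Set K) →+* K) c₁ p₁ (i₀ (matOf π false 0 1)) p₂ a b
      refine Eq.trans ?_ e3.symm
      change f ((matOf π false - 1) a b) =
        (lowConj c (F00 + c * F01) F01 (F11 - c * F01) - 1) a b
      rw [map_sub_one_apply, Matrix.sub_apply, Matrix.sub_apply]
      congr 1
      fin_cases a <;> fin_cases b
      · change F00 = (F00 + c * F01) - c * F01
        ring
      · rfl
      · change F10 = c * ((F00 + c * F01) - (F11 - c * F01)) - c ^ 2 * F01
        linear_combination hl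
      · change F11 = (F11 - c * F01) + c * F01
        ring)
  intro F hF
  have h3 := main hF
  rw [RingHom.mem_ker, RingHom.comp_apply, RingHom.comp_apply] at h3
  have h4 : i₀ (π F) = 0 := hinj (by rw [h3, map_zero])
  rw [RingHom.mem_ker]
  apply hfinj
  rw [← hi₀f, h4, map_zero]
  rfl

end Domain

end Fermat.Agent.RT
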