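import Fermat.Agent.RT.ChiDomain

set_option autoImplicit false
set_option maxHeartbeats 400000
set_option linter.style.haveILetI false
set_option linter.unusedSectionVars false
set_option linter.unusedVariables false

/-!
# Points of type `χ` over domains lie on the chart component: the general case
-/

open IsLocalRing MvPowerSeries

namespace Fermat.Agent.RT

universe u

variable {𝒪 : Type*} [CommRing 𝒪] [IsLocalRing 𝒪] [IsAdicComplete (maximalIdeal 𝒪) 𝒪]
  (k : ChiConst 𝒪)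
  {ι' : Type*} [Fintype ι'] {B : Type*} [CommRing B] [IsLocalRing B] [IsNoetherianRing B]
  [IsAdicComplete (maximalIdeal B) B]
  (g₀ : MvPowerSeries ι' 𝒪 →+* B) (hg₀ : ∀ F ∈ maximalIdeal (MvPowerSeries ι' 𝒪),
    g₀ F ∈ maximalIdeal B)

section Stable

lemma chiMap_C (b : 𝒪) : chiMap k g₀ hg₀ (C b) = C (chiG k g₀ b) := by
  rw [chiMap, chartMap, evalHom_C]; rfl

lemma chiMap_inl (i : ι') : chiMap k g₀ hg₀ (X (Sum.inl i)) = C (chiXi k g₀ i) := by
  rw [chiMap, chartMap, evalHom_X]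
  exact MvPolynomial.coe_C _

lemma map_lowConj_coe {T : Type*} [CommRing T] (c α β α' : MvPolynomial Unit T) (a b : Fin 2) :
    (((lowConj c α β α' - 1) a b : MvPolynomial Unit T) : MvPowerSeries Unit T) =
      (lowConj (c : MvPowerSeries Unit T) α β α' - 1) a b :=
  lowConj_map_apply (MvPolynomial.coeToMvPowerSeries.ringHom (σ := Unit) (R := T)) c α β α' a b

lemma matOf_chiMap_true : matOf (chiMap k g₀ hg₀) true =
    lowConj (X ()) (C (chiG k g₀ k.ζ)) (C (chiB k g₀ true)) (C (chiG k g₀ k.ζ')) := by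
  have h : matOf (chiMap k g₀ hg₀) true - 1 =
      lowConj (X ()) (C (chiG k g₀ k.ζ)) (C (chiB k g₀ true)) (C (chiG k g₀ k.ζ')) - 1 := by
    refine Matrix.ext fun a b => ?_
    rw [matOf_sub_one, chiMap, chartMap, evalHom_X]
    change (((lowConj (MvPolynomial.X ()) (MvPolynomial.C (chiG k g₀ k.ζ))
      (MvPolynomial.C (chiB k g₀ true)) (MvPolynomial.C (chiG k g₀ k.ζ')) - 1) a b :
      MvPolynomial Unit (ChiT k g₀)) : MvPowerSeries Unit (ChiT k g₀)) = _
    rw [map_lowConj_coe]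
    simp only [MvPolynomial.coe_C, MvPolynomial.coe_X]
  have := congrArg (· + 1) h
  simpa using this

lemma matOf_chiMap_false : matOf (chiMap k g₀ hg₀) false =
    lowConj (X ()) (C (chiA k g₀ hg₀ false)) (C (chiB k g₀ false)) (C (chiA' k g₀ hg₀ false)) := by
  have h : matOf (chiMap k g₀ hg₀) false - 1 =
      lowConj (X ()) (C (chiA k g₀ hg₀ false)) (C (chiB k g₀ false))
        (C (chiA' k g₀ hg₀ false)) - 1 := by
    refine Matrix.ext fun a b => ?_
    rw [matOf_sub_one, chiMap, chartMap, evalHom_X]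
    change (((lowConj (MvPolynomial.X ()) (MvPolynomial.C (chiA k g₀ hg₀ false))
      (MvPolynomial.C (chiB k g₀ false)) (MvPolynomial.C (chiA' k g₀ hg₀ false)) - 1) a b :
      MvPolynomial Unit (ChiT k g₀)) : MvPowerSeries Unit (ChiT k g₀)) = _
    rw [map_lowConj_coe]
    simp only [MvPolynomial.coe_C, MvPolynomial.coe_X]
  have := congrArg (· + 1) h
  simpa using this

lemma chiA_mul_chiA' : chiA k g₀ hg₀ false * chiA' k g₀ hg₀ false = chiG k g₀ k.q := by
  change Ideal.Quotient.mk _ _ * Ideal.Quotient.mk _ _ = Ideal.Quotient.mk _ (C (g₀ (C k.q)))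
  rw [← map_mul]
  congr 1
  have h1 := chiW_sq k g₀ hg₀
  have h2 := two_half k g₀
  have h3 : (2 : MvPowerSeries (Fin 3) B) ^ 2 * (C (g₀ (C k.half))) ^ 2 = 1 := by
    rw [← mul_pow, h2, one_pow]
  linear_combination (C (g₀ (C k.half))) ^ 2 * h1 + C (g₀ (C k.q)) * h3

lemma chiA_sub_chiA' : chiA k g₀ hg₀ false - chiA' k g₀ hg₀ false =
    Ideal.Quotient.mk (Ideal.span {chiRel (dB k g₀)}) (X 1) := by
  change Ideal.Quotient.mk _ _ - Ideal.Quotient.mk _ _ = _
  rw [← map_sub]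
  congr 1
  have h2 := two_half k g₀
  linear_combination X 1 * h2

/-- The kernel of the chart map is stable under conjugation. -/
lemma chiMap_conjV {F : MvPowerSeries (ι' ⊕ LIx) 𝒪} (hF : chiMap k g₀ hg₀ F = 0) :
    chiMap k g₀ hg₀ (conjV 𝒪 ι' F) = 0 := by
  set T := ChiT k g₀
  set A₃ := MvPowerSeries Unit T
  have hunit : IsUnit (1 - X () : A₃) := by
    rw [isUnit_iff_constantCoeff]; simp
  obtain ⟨t, ht⟩ := hunit.exists_right_inv
  set j : B →+* A₃ := ((C : T →+* A₃).comp (Ideal.Quotient.mk (Ideal.span {chiRel (dB k g₀)}))).comp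
    (C : B →+* MvPowerSeries (Fin 3) B) with hj
  have hjm : ∀ b ∈ maximalIdeal B, j b ∈ maximalIdeal A₃ := fun b hb =>
    C_mem_maximalIdeal (mk_mem_maximalIdeal _ (C_mem_maximalIdeal hb))
  have hjG : ∀ b : 𝒪, j (g₀ (C b)) = C (chiG k g₀ b) := fun b => rfl
  have hCm : ∀ x ∈ maximalIdeal T, (C x : A₃) ∈ maximalIdeal A₃ := fun x hx => C_mem_maximalIdeal hx
  set ζ : A₃ := C (chiG k g₀ k.ζ)
  set ζ' : A₃ := C (chiG k g₀ k.ζ')
  set φ₁ : A₃ := C (chiA k g₀ hg₀ false)
  set φ₂ : A₃ := C (chiA' k g₀ hg₀ false)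
  set x : A₃ := C (chiB k g₀ true)
  set z : A₃ := C (chiB k g₀ false)
  have hδ : ζ - ζ' = C (chiG k g₀ (k.ζ - k.ζ')) := by
    rw [map_sub, map_sub]
  have hφ : φ₁ - φ₂ ∈ maximalIdeal A₃ := by
    have : φ₁ - φ₂ = C ((chiA k g₀ hg₀ false - 1) - (chiA' k g₀ hg₀ false - 1)) := by
      rw [map_sub, map_sub, map_sub]; ring
    rw [this]
    exact hCm _ (Ideal.sub_mem _ (chiA_sub_one_mem k g₀ hg₀ _) (chiA'_sub_one_mem k g₀ hg₀ _))
  have hrel : x * (φ₁ - φ₂) = (ζ - ζ') * z := by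
    have h1 := congrArg (C : T →+* A₃) (chi_rel k g₀)
    rw [← chiA_sub_chiA' k g₀ hg₀, map_mul, map_mul, map_sub] at h1
    rw [hδ]; exact h1
  have hδm : ζ - ζ' ∈ maximalIdeal A₃ := by
    have : ζ - ζ' = C ((chiG k g₀ (k.ζ - 1)) - (chiG k g₀ (k.ζ' - 1))) := by
      rw [hδ, ← map_sub]
      congr 2
      ring
    rw [this]
    exact hCm _ (Ideal.sub_mem _ (chiG_mem k g₀ hg₀ k.hζ) (chiG_mem k g₀ hg₀ k.hζ'))
  have hxm : x ∈ maximalIdeal A₃ := hCm _ (chiB_mem k g₀ true)
  have hzm : z ∈ maximalIdeal A₃ := hCm _ (chiB_mem k g₀ false)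
  have key := chiMap_ker_le k g₀ hg₀ j hjm (c := X () * t)
    (x := (1 - X ()) * (ζ - ζ') + (1 - X ()) ^ 2 * x)
    (z := (1 - X ()) * (φ₁ - φ₂) + (1 - X ()) ^ 2 * z) (φ₁ := φ₁) (φ₂ := φ₂)
    (Ideal.add_mem _ (Ideal.mul_mem_left _ _ hδm) (Ideal.mul_mem_left _ _ hxm))
    (Ideal.add_mem _ (Ideal.mul_mem_left _ _ hφ) (Ideal.mul_mem_left _ _ hzm))
    (by
      have : φ₁ - 1 = C (chiA k g₀ hg₀ false - 1) := by rw [map_sub, map_one]
      rw [this]
      exact hCm _ (chiA_sub_one_mem k g₀ hg₀ _))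
    (by rw [hjG, ← map_mul, chiA_mul_chiA'])
    (by
      rw [hjG, ← hδ]
      linear_combination (1 - X ()) ^ 2 * hrel)
    ((chiMap k g₀ hg₀).comp (conjV 𝒪 ι'))
    (fun b => by rw [RingHom.comp_apply, conjV_C, chiMap_C]; rfl)
    (fun i => by rw [RingHom.comp_apply, conjV_inl, chiMap_inl]; rfl)
    (fun a b => by
      rw [← matOf_sub_one, matOf_comp_conjV, matOf_chiMap_true, lowConj_conj ht]
      rfl)
    (fun a b => by
      rw [← matOf_sub_one, matOf_comp_conjV, matOf_chiMap_false, lowConj_conj ht])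
  exact key hF

end Stable

section General

lemma uMat_conj_00 {R : Type*} [CommRing R] (M : Matrix (Fin 2) (Fin 2) R) :
    (uMat R * M * uInv R) 0 0 = M 0 0 + M 1 0 := by
  rw [Matrix.mul_apply, Fin.sum_univ_two, Matrix.mul_apply, Matrix.mul_apply, Fin.sum_univ_two,
    Fin.sum_univ_two]
  change (1 * M 0 0 + 1 * M 1 0) * 1 + (1 * M 0 1 + 1 * M 1 1) * 0 = _
  ring

lemma uMat_conj_01 {R : Type*} [CommRing R] (M : Matrix (Fin 2) (Fin 2) R) :
    (uMat R * M * uInv R) 0 1 = M 0 1 + M 1 1 - (M 0 0 + M 1 0) := by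
  rw [Matrix.mul_apply, Fin.sum_univ_two, Matrix.mul_apply, Matrix.mul_apply, Fin.sum_univ_two,
    Fin.sum_univ_two]
  change (1 * M 0 0 + 1 * M 1 0) * (-1) + (1 * M 0 1 + 1 * M 1 1) * 1 = _
  ring

lemma uMat_conj_10 {R : Type*} [CommRing R] (M : Matrix (Fin 2) (Fin 2) R) :
    (uMat R * M * uInv R) 1 0 = M 1 0 := by
  rw [Matrix.mul_apply, Fin.sum_univ_two, Matrix.mul_apply, Matrix.mul_apply, Fin.sum_univ_two,
    Fin.sum_univ_two]
  change (0 * M 0 0 + 1 * M 1 0) * 1 + (0 * M 0 1 + 1 * M 1 1) * 0 = _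
  ring

lemma uMat_conj_11 {R : Type*} [CommRing R] (M : Matrix (Fin 2) (Fin 2) R) :
    (uMat R * M * uInv R) 1 1 = M 1 1 - M 1 0 := by
  rw [Matrix.mul_apply, Fin.sum_univ_two, Matrix.mul_apply, Matrix.mul_apply, Fin.sum_univ_two,
    Fin.sum_univ_two]
  change (0 * M 0 0 + 1 * M 1 0) * (-1) + (0 * M 0 1 + 1 * M 1 1) * 1 = _
  ring

variable {A : Type u} [CommRing A] [IsDomain A] [IsNoetherianRing A] [IsLocalRing A]

lemma mul_three_eq {R : Type*} [CommRing R] (M : Matrix (Fin 2) (Fin 2) R) :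
    uInv R * (uMat R * M * uInv R) * uMat R = M := by
  rw [← mul_assoc, ← mul_assoc, uInv_mul_uMat, one_mul, mul_assoc, uInv_mul_uMat, mul_one]

lemma ChiRel.conjU {π : MvPowerSeries (ι' ⊕ LIx) 𝒪 →+* A} (h : ChiRel k π) :
    ChiRel k (π.comp (conjU 𝒪 ι')) := by
  refine ⟨?_, ?_, ?_, ?_⟩
  · rw [matOf_comp_conjU, Matrix.trace_mul_comm, ← mul_assoc, uInv_mul_uMat, one_mul, h.tr,
      RingHom.comp_apply, RingHom.comp_apply, conjU_C, conjU_C]
  · rw [matOf_comp_conjU, Matrix.det_mul, Matrix.det_mul, h.det]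
    simp [uMat, uInv, Matrix.det_fin_two]
  · rw [matOf_comp_conjU, matOf_comp_conjU]
    have h1 : ∀ M N : Matrix (Fin 2) (Fin 2) A,
        uMat A * M * uInv A * (uMat A * N * uInv A) = uMat A * (M * N) * uInv A := by
      intro M N
      calc uMat A * M * uInv A * (uMat A * N * uInv A)
          = uMat A * M * (uInv A * uMat A) * N * uInv A := by simp only [mul_assoc]
        _ = _ := by rw [uInv_mul_uMat, mul_one]; simp only [mul_assoc]
    rw [h1, h1, h.comm]
  · rw [matOf_comp_conjU, Matrix.det_mul, Matrix.det_mul, h.detF, RingHom.comp_apply, conjU_C]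
    simp [uMat, uInv, Matrix.det_fin_two]

/-- Auxiliary version of `chi_ker_le`. -/
theorem chi_ker_le_aux {K : Type u} [Field K] [Algebra A K] [IsFractionRing A K] (j : B →+* A) (hj : ∀ b ∈ maximalIdeal B, j b ∈ maximalIdeal A)
    (π : MvPowerSeries (ι' ⊕ LIx) 𝒪 →+* A)
    (hπX : ∀ i, π (X i) ∈ maximalIdeal A)
    (hπC : ∀ b, π (C b) = j (g₀ (C b))) (hπi : ∀ i, π (X (Sum.inl i)) = j (g₀ (X i)))
    (hrel : ChiRel k π) (hδ : π (C (k.ζ - k.ζ')) ≠ 0) :
    RingHom.ker (chiMap k g₀ hg₀) ≤ RingHom.ker π := by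
  obtain ⟨V, hV, hVloc⟩ := IsLocalRing.exists_factor_valuationRing (algebraMap A K)
  have hV1 : ∀ a : A, algebraMap A K a ∈ V := hV
  have hV2 : ∀ a ∈ maximalIdeal A, algebraMap A K a ∈ V.nonunits := by
    intro a ha
    by_contra hne
    rw [ValuationSubring.mem_nonunits_iff_or, not_or, not_not] at hne
    obtain ⟨h0, hinv⟩ := hne
    have hu : IsUnit ((algebraMap A K).codRestrict V.toSubring hV a) :=
      IsUnit.of_mul_eq_one ⟨(algebraMap A K a)⁻¹, hinv⟩ (Subtype.ext (mul_inv_cancel₀ h0))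
    exact ha (hVloc.map_nonunit a hu)
  -- an eigenvector
  set M : Matrix (Fin 2) (Fin 2) K := (matOf π true).map (algebraMap A K) with hM
  set z : K := algebraMap A K (π (C k.ζ)) with hz
  set z' : K := algebraMap A K (π (C k.ζ')) with hz'
  have hzz : z * z' = 1 := by
    rw [hz, hz', ← map_mul, ← map_mul, ← map_mul, k.hζζ', map_one, map_one, map_one]
  have htr : M 0 0 + M 1 1 = z + z' := by
    have := congrArg (algebraMap A K) hrel.tr
    rw [Matrix.trace_fin_two, map_add, map_add] at this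
    exact this
  have hdet : M 0 0 * M 1 1 - M 0 1 * M 1 0 = 1 := by
    have := congrArg (algebraMap A K) hrel.det
    rw [Matrix.det_fin_two, map_sub, map_mul, map_mul, map_one] at this
    exact this
  have hdet0 : (M - Matrix.scalar (Fin 2) z).det = 0 := by
    rw [Matrix.det_fin_two]
    simp only [Matrix.sub_apply, Matrix.scalar_apply, Matrix.diagonal_apply_eq]
    rw [Matrix.diagonal_apply_ne _ (by decide), Matrix.diagonal_apply_ne _ (by decide)]
    linear_combination hdet - z * htr - hzz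
  obtain ⟨v, hv0, hv⟩ := Matrix.exists_mulVec_eq_zero_iff.mpr hdet0
  have hv1 : M 0 0 * v 0 + M 0 1 * v 1 = z * v 0 := by
    have := congrFun hv 0
    simp only [Matrix.mulVec, dotProduct, Fin.sum_univ_two, Matrix.sub_apply, Matrix.scalar_apply,
      Matrix.diagonal_apply_eq, Pi.zero_apply] at this
    rw [Matrix.diagonal_apply_ne _ (by decide)] at this
    linear_combination this
  have hv2 : M 1 0 * v 0 + M 1 1 * v 1 = z * v 1 := by
    have := congrFun hv 1
    simp only [Matrix.mulVec, dotProduct, Fin.sum_univ_two, Matrix.sub_apply, Matrix.scalar_apply,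
      Matrix.diagonal_apply_eq, Pi.zero_apply] at this
    rw [Matrix.diagonal_apply_ne _ (by decide)] at this
    linear_combination this
  by_cases hcase : v 0 ≠ 0 ∧ v 1 / v 0 ∈ V
  · obtain ⟨hv00, hcV⟩ := hcase
    refine chi_finite k g₀ hg₀ j hj π hπX hπC hπi hrel hδ V hV1 hV2 (v 1 / v 0) hcV ?_ ?_
    · change M 0 0 + v 1 / v 0 * M 0 1 = z
      field_simp
      linear_combination hv1
    · change M 1 0 + v 1 / v 0 * M 1 1 = z * (v 1 / v 0)
      field_simp
      linear_combination hv2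
  · -- the line at infinity
    have hv10 : v 1 ≠ 0 := by
      intro h1
      apply hcase
      have h00 : v 0 ≠ 0 := by
        intro h0
        apply hv0
        funext i
        fin_cases i
        · exact h0
        · exact h1
      exact ⟨h00, by rw [h1, zero_div]; exact V.zero_mem⟩
    have hc' : v 0 / v 1 ∈ V.nonunits := by
      by_cases h00 : v 0 = 0
      · rw [h00, zero_div, ValuationSubring.mem_nonunits_iff_or]; exact Or.inl rfl
      · have h1 : v 1 / v 0 ∉ V := fun h => hcase ⟨h00, h⟩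
        rw [ValuationSubring.mem_nonunits_iff_or]
        right
        rwa [inv_div]
    have hc'V : v 0 / v 1 ∈ V := V.nonunits_subset hc'
    have hval : V.valuation (v 0 / v 1 + 1) = 1 := by
      rw [ValuationSubring.mem_nonunits_iff] at hc'
      have := Valuation.map_add_eq_of_lt_right V.valuation (x := v 0 / v 1) (y := 1)
        (by rw [map_one]; exact hc')
      rw [this, map_one]
    have hne : v 0 / v 1 + 1 ≠ 0 := by
      intro h
      rw [h, map_zero] at hval
      exact zero_ne_one hval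
    have hsum : v 0 + v 1 ≠ 0 := by
      intro h
      apply hne
      rw [div_add_one hv10, h, zero_div]
    have hcV : v 1 / (v 0 + v 1) ∈ V := by
      have h1 : v 1 / (v 0 + v 1) = (v 0 / v 1 + 1)⁻¹ := by
        field_simp
      rw [h1, ← V.valuation_le_one_iff, map_inv₀, hval, inv_one]
    have hπX' : ∀ i, (π.comp (conjU 𝒪 ι')) (X i) ∈ maximalIdeal A := by
      intro i
      have h1 : conjU 𝒪 ι' (X i) ∈ maximalIdeal (MvPowerSeries (ι' ⊕ LIx) 𝒪) := by
        rw [conjU, evalHom_X]; exact conjVal_mem uMat_mul_uInv i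
      refine map_maximalIdeal_le (fun b hb => ?_) hπX h1
      rw [hπC]
      exact hj _ (hg₀ _ (C_mem_maximalIdeal hb))
    have hMU : (matOf (π.comp (conjU 𝒪 ι')) true).map (algebraMap A K) = uMat K * M * uInv K := by
      rw [matOf_comp_conjU, Matrix.map_mul, Matrix.map_mul, uMat_map, uInv_map]
    have key := chi_finite k g₀ hg₀ j hj (π.comp (conjU 𝒪 ι')) hπX'
      (fun b => by rw [RingHom.comp_apply, conjU_C, hπC])
      (fun i => by rw [RingHom.comp_apply, conjU_inl, hπi]) (hrel.conjU k)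
      (by rw [RingHom.comp_apply, conjU_C]; exact hδ) V hV1 hV2 (v 1 / (v 0 + v 1)) hcV
      (by
        change (matOf (π.comp (conjU 𝒪 ι')) true).map (algebraMap A K) 0 0 + v 1 / (v 0 + v 1) *
          (matOf (π.comp (conjU 𝒪 ι')) true).map (algebraMap A K) 0 1 =
          algebraMap A K (π (conjU 𝒪 ι' (C k.ζ)))
        rw [hMU, conjU_C, ← hz, uMat_conj_00, uMat_conj_01]
        field_simp
        linear_combination hv1 + hv2)
      (by
        change (matOf (π.comp (conjU 𝒪 ι')) true).map (algebraMap A K) 1 0 + v 1 / (v 0 + v 1) *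
          (matOf (π.comp (conjU 𝒪 ι')) true).map (algebraMap A K) 1 1 =
          algebraMap A K (π (conjU 𝒪 ι' (C k.ζ))) * (v 1 / (v 0 + v 1))
        rw [hMU, conjU_C, ← hz, uMat_conj_10, uMat_conj_11]
        field_simp
        linear_combination hv2)
    intro F hF
    have h1 : chiMap k g₀ hg₀ (conjV 𝒪 ι' F) = 0 := chiMap_conjV k g₀ hg₀ hF
    have h2 := key h1
    rw [RingHom.mem_ker, RingHom.comp_apply] at h2
    have h3 : conjU 𝒪 ι' (conjV 𝒪 ι' F) = F := by
      rw [← RingHom.comp_apply, conjU_comp_conjV]; rfl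
    rw [h3] at h2
    exact h2

/-- **Points of type `χ` over local noetherian domains lie on the chart component.** -/
theorem chi_ker_le (j : B →+* A) (hj : ∀ b ∈ maximalIdeal B, j b ∈ maximalIdeal A)
    (π : MvPowerSeries (ι' ⊕ LIx) 𝒪 →+* A)
    (hπX : ∀ i, π (X i) ∈ maximalIdeal A)
    (hπC : ∀ b, π (C b) = j (g₀ (C b))) (hπi : ∀ i, π (X (Sum.inl i)) = j (g₀ (X i)))
    (hrel : ChiRel k π) (hδ : π (C (k.ζ - k.ζ')) ≠ 0) :
    RingHom.ker (chiMap k g₀ hg₀) ≤ RingHom.ker π :=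
  chi_ker_le_aux k g₀ hg₀ (K := FractionRing A) j hj π hπX hπC hπi hrel hδ

end General

end Fermat.Agent.RT
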