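import Fermat.Agent.RT.ChiChart

set_option autoImplicit false
set_option maxHeartbeats 400000
set_option linter.style.haveILetI false
set_option linter.unusedSectionVars false
set_option linter.unusedVariables false

/-!
# Points of the lifting ring of type `χ`
-/

open IsLocalRing MvPowerSeries

namespace Fermat.Agent.RT

/-- The constants for the type `χ`. -/
structure ChiConst (𝒪 : Type*) [CommRing 𝒪] [IsLocalRing 𝒪] where
  ζ : 𝒪
  ζ' : 𝒪
  q : 𝒪
  half : 𝒪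
  hζ : ζ - 1 ∈ maximalIdeal 𝒪
  hζζ' : ζ * ζ' = 1
  hq : q - 1 ∈ maximalIdeal 𝒪
  hhalf : 2 * half = 1

section

variable {𝒪 : Type*} [CommRing 𝒪] [IsLocalRing 𝒪] (k : ChiConst 𝒪)

lemma ChiConst.hζ' : k.ζ' - 1 ∈ maximalIdeal 𝒪 := by
  have : k.ζ' - 1 = -(k.ζ' * (k.ζ - 1)) := by linear_combination k.hζζ'
  rw [this]
  exact (Ideal.neg_mem_iff _).mpr (Ideal.mul_mem_left _ _ k.hζ)

variable {ι' : Type*} [Fintype ι'] {B : Type*} [CommRing B] [IsLocalRing B] [IsNoetherianRing B]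
  [IsAdicComplete (maximalIdeal B) B]
  (g₀ : MvPowerSeries ι' 𝒪 →+* B) (hg₀ : ∀ F ∈ maximalIdeal (MvPowerSeries ι' 𝒪),
    g₀ F ∈ maximalIdeal B)

/-- `δ` in `B`. -/
noncomputable abbrev dB : B := g₀ (C (k.ζ - k.ζ'))

/-- The base ring of the chart. -/
abbrev ChiT : Type _ := TT (dB k g₀)

/-- The structure map of the base ring. -/
noncomputable def chiG : 𝒪 →+* ChiT k g₀ :=
  ((Ideal.Quotient.mk (Ideal.span {chiRel (dB k g₀)})).comp
    (C : B →+* MvPowerSeries (Fin 3) B)).comp (g₀.comp (C : 𝒪 →+* MvPowerSeries ι' 𝒪))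

lemma C_mem_maximalIdeal {R σ : Type*} [CommRing R] [IsLocalRing R] {b : R}
    (hb : b ∈ maximalIdeal R) : (C b : MvPowerSeries σ R) ∈ maximalIdeal (MvPowerSeries σ R) := by
  rw [mem_maximalIdeal, mem_nonunits_iff, isUnit_iff_constantCoeff, constantCoeff_C]
  exact hb

lemma X_mem_maximalIdeal' {R σ : Type*} [CommRing R] [IsLocalRing R] (i : σ) :
    (X i : MvPowerSeries σ R) ∈ maximalIdeal (MvPowerSeries σ R) := by
  rw [mem_maximalIdeal, mem_nonunits_iff, isUnit_iff_constantCoeff, constantCoeff_X]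
  exact not_isUnit_zero

include hg₀ in
lemma chiG_mem {b : 𝒪} (hb : b ∈ maximalIdeal 𝒪) : chiG k g₀ b ∈ maximalIdeal (ChiT k g₀) :=
  mk_mem_maximalIdeal _ (C_mem_maximalIdeal (hg₀ _ (C_mem_maximalIdeal hb)))

include hg₀ in
lemma exists_chiW : ∃ w : MvPowerSeries (Fin 3) B,
    w ^ 2 = X 1 ^ 2 + 4 * C (g₀ (C k.q)) ∧ w - 2 ∈ maximalIdeal (MvPowerSeries (Fin 3) B) := by
  apply sqrt_exists
  · have h : (2 : MvPowerSeries (Fin 3) B) * C (g₀ (C k.half)) = 1 := by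
      have := congrArg ((C : B →+* MvPowerSeries (Fin 3) B).comp
        (g₀.comp (C : 𝒪 →+* MvPowerSeries ι' 𝒪))) k.hhalf
      rw [map_mul, map_one, map_ofNat] at this
      exact this
    exact IsUnit.of_mul_eq_one _ h
  · have h : (X 1 ^ 2 + 4 * C (g₀ (C k.q)) - 4 : MvPowerSeries (Fin 3) B) =
        X 1 ^ 2 + 4 * C (g₀ (C (k.q - 1))) := by
      rw [map_sub, map_sub, map_sub, map_one, map_one, map_one]; ring
    rw [h]
    exact Ideal.add_mem _ (Ideal.pow_mem_of_mem _ (X_mem_maximalIdeal' _) _ two_pos)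
      (Ideal.mul_mem_left _ _ (C_mem_maximalIdeal (hg₀ _ (C_mem_maximalIdeal k.hq))))

/-- The square root of `y² + 4q`. -/
noncomputable def chiW : MvPowerSeries (Fin 3) B := (exists_chiW k g₀ hg₀).choose

lemma chiW_sq : chiW k g₀ hg₀ ^ 2 = X 1 ^ 2 + 4 * C (g₀ (C k.q)) :=
  (exists_chiW k g₀ hg₀).choose_spec.1

lemma chiW_sub_two_mem : chiW k g₀ hg₀ - 2 ∈ maximalIdeal (MvPowerSeries (Fin 3) B) :=
  (exists_chiW k g₀ hg₀).choose_spec.2

local notation "mkT" => Ideal.Quotient.mk (Ideal.span {chiRel (dB k g₀)})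

/-- Upper left entries. -/
noncomputable def chiA : Bool → ChiT k g₀
  | true => chiG k g₀ k.ζ
  | false => mkT ((chiW k g₀ hg₀ + X 1) * C (g₀ (C k.half)))

/-- Upper right entries. -/
noncomputable def chiB : Bool → ChiT k g₀
  | true => mkT (X 0)
  | false => mkT (X 2)

/-- Lower right entries. -/
noncomputable def chiA' : Bool → ChiT k g₀
  | true => chiG k g₀ k.ζ'
  | false => mkT ((chiW k g₀ hg₀ - X 1) * C (g₀ (C k.half)))

/-- The other variables. -/
noncomputable def chiXi (i : ι') : ChiT k g₀ := mkT (C (g₀ (X i)))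

include hg₀ in
lemma chiXi_mem (i : ι') : chiXi k g₀ i ∈ maximalIdeal (ChiT k g₀) :=
  mk_mem_maximalIdeal _ (C_mem_maximalIdeal (hg₀ _ (X_mem_maximalIdeal' i)))

lemma two_half : (2 : MvPowerSeries (Fin 3) B) * C (g₀ (C k.half)) = 1 := by
  have := congrArg ((C : B →+* MvPowerSeries (Fin 3) B).comp
    (g₀.comp (C : 𝒪 →+* MvPowerSeries ι' 𝒪))) k.hhalf
  rw [map_mul, map_one, map_ofNat] at this
  exact this

lemma chiA_sub_one_mem (s : Bool) : chiA k g₀ hg₀ s - 1 ∈ maximalIdeal (ChiT k g₀) := by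
  cases s with
  | true =>
    have h : chiA k g₀ hg₀ true - 1 = chiG k g₀ (k.ζ - 1) := by
      rw [map_sub, map_one]; rfl
    rw [h]
    exact chiG_mem k g₀ hg₀ k.hζ
  | false =>
    have h : chiA k g₀ hg₀ false - 1 =
        mkT (((chiW k g₀ hg₀ - 2) + X 1) * C (g₀ (C k.half))) := by
      have h1 : (((chiW k g₀ hg₀ - 2) + X 1) * C (g₀ (C k.half))) =
        ((chiW k g₀ hg₀ + X 1) * C (g₀ (C k.half))) - 1 := by
        linear_combination - two_half k g₀
      rw [h1, map_sub, map_one]; rfl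
    rw [h]
    exact mk_mem_maximalIdeal _ (Ideal.mul_mem_right _ _
      (Ideal.add_mem _ (chiW_sub_two_mem k g₀ hg₀) (X_mem_maximalIdeal' _)))

lemma chiA'_sub_one_mem (s : Bool) : chiA' k g₀ hg₀ s - 1 ∈ maximalIdeal (ChiT k g₀) := by
  cases s with
  | true =>
    have h : chiA' k g₀ hg₀ true - 1 = chiG k g₀ (k.ζ' - 1) := by
      rw [map_sub, map_one]; rfl
    rw [h]
    exact chiG_mem k g₀ hg₀ k.hζ'
  | false =>
    have h : chiA' k g₀ hg₀ false - 1 =
        mkT (((chiW k g₀ hg₀ - 2) - X 1) * C (g₀ (C k.half))) := by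
      have h1 : (((chiW k g₀ hg₀ - 2) - X 1) * C (g₀ (C k.half))) =
        ((chiW k g₀ hg₀ - X 1) * C (g₀ (C k.half))) - 1 := by
        linear_combination - two_half k g₀
      rw [h1, map_sub, map_one]; rfl
    rw [h]
    exact mk_mem_maximalIdeal _ (Ideal.mul_mem_right _ _
      (Ideal.sub_mem _ (chiW_sub_two_mem k g₀ hg₀) (X_mem_maximalIdeal' _)))

lemma chiB_mem (s : Bool) : chiB k g₀ s ∈ maximalIdeal (ChiT k g₀) := by
  cases s with
  | true => exact mk_mem_maximalIdeal _ (X_mem_maximalIdeal' _)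
  | false => exact mk_mem_maximalIdeal _ (X_mem_maximalIdeal' _)

/-- The relation `x y = δ z`. -/
lemma chi_rel : chiB k g₀ true * mkT (X 1) = chiG k g₀ (k.ζ - k.ζ') * chiB k g₀ false := by
  have h : (mkT (chiRel (dB k g₀)) : ChiT k g₀) = 0 :=
    Ideal.Quotient.eq_zero_iff_mem.mpr (Ideal.mem_span_singleton_self _)
  rw [chiRel, map_sub, sub_eq_zero, map_mul, map_mul] at h
  exact h

/-- **The chart map of type `χ`.** -/
noncomputable def chiMap : MvPowerSeries (ι' ⊕ LIx) 𝒪 →+* MvPowerSeries Unit (ChiT k g₀) :=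
  chartMap (chiG k g₀) (chiXi_mem k g₀ hg₀) (chiA_sub_one_mem k g₀ hg₀) (chiB_mem k g₀)
    (chiA'_sub_one_mem k g₀ hg₀)

/-- **Points of type `χ`.** -/
theorem chiMap_ker_le {A : Type*} [CommRing A] [IsLocalRing A] [IsAdicComplete (maximalIdeal A) A]
    (j : B →+* A) (hj : ∀ b ∈ maximalIdeal B, j b ∈ maximalIdeal A)
    {c x z φ₁ φ₂ : A} (hx : x ∈ maximalIdeal A) (hz : z ∈ maximalIdeal A)
    (hφ₁ : φ₁ - 1 ∈ maximalIdeal A) (hφ : φ₁ * φ₂ = j (g₀ (C k.q)))
    (hrel : x * (φ₁ - φ₂) = j (g₀ (C (k.ζ - k.ζ'))) * z)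
    (π : MvPowerSeries (ι' ⊕ LIx) 𝒪 →+* A) (hπC : ∀ b, π (C b) = j (g₀ (C b)))
    (hπi : ∀ i, π (X (Sum.inl i)) = j (g₀ (X i)))
    (hπt : ∀ a b, π (X (Sum.inr (true, a, b))) =
      (lowConj c (j (g₀ (C k.ζ))) x (j (g₀ (C k.ζ'))) - 1) a b)
    (hπf : ∀ a b, π (X (Sum.inr (false, a, b))) = (lowConj c φ₁ z φ₂ - 1) a b) :
    RingHom.ker (chiMap k g₀ hg₀) ≤ RingHom.ker π := by
  have hjC : ∀ b ∈ maximalIdeal 𝒪, j (g₀ (C b)) ∈ maximalIdeal A := fun b hb =>
    hj _ (hg₀ _ (C_mem_maximalIdeal hb))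
  have hφ₂ : φ₂ - 1 ∈ maximalIdeal A := by
    have h1 : φ₁ * (φ₂ - 1) = j (g₀ (C (k.q - 1))) - (φ₁ - 1) := by
      rw [map_sub, map_sub, map_sub, map_one, map_one, map_one, ← hφ]; ring
    have h2 : φ₁ * (φ₂ - 1) ∈ maximalIdeal A := by
      rw [h1]
      exact Ideal.sub_mem _ (hjC _ k.hq) hφ₁
    rcases (IsLocalRing.maximalIdeal.isMaximal A).isPrime.mem_or_mem h2 with h | h
    · exfalso
      have h3 : (1 : A) ∈ maximalIdeal A := by
        have : (1 : A) = φ₁ - (φ₁ - 1) := by ring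
        rw [this]
        exact Ideal.sub_mem _ h hφ₁
      exact h3 isUnit_one
    · exact h
  have hy : φ₁ - φ₂ ∈ maximalIdeal A := by
    have : φ₁ - φ₂ = (φ₁ - 1) - (φ₂ - 1) := by ring
    rw [this]
    exact Ideal.sub_mem _ hφ₁ hφ₂
  -- the evaluation
  have hval : ∀ i : Fin 3, (![x, φ₁ - φ₂, z] : Fin 3 → A) i ∈ maximalIdeal A := by
    intro i
    fin_cases i
    · exact hx
    · exact hy
    · exact hz
  set e₁ : MvPowerSeries (Fin 3) B →+* A := evalHom (maximalIdeal A) j _ hval with he₁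
  have he₁0 : e₁ (X 0) = x := by rw [he₁, evalHom_X]; rfl
  have he₁1 : e₁ (X 1) = φ₁ - φ₂ := by rw [he₁, evalHom_X]; rfl
  have he₁2 : e₁ (X 2) = z := by rw [he₁, evalHom_X]; rfl
  have he₁C : ∀ b, e₁ (C b) = j b := fun b => by rw [he₁, evalHom_C]
  have hker : ∀ F ∈ Ideal.span {chiRel (dB k g₀)}, e₁ F = 0 := by
    intro F hF
    rw [Ideal.mem_span_singleton] at hF
    obtain ⟨G, rfl⟩ := hF
    rw [map_mul, chiRel, map_sub, map_mul, map_mul, he₁0, he₁1, he₁2, he₁C, hrel, sub_self,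
      zero_mul]
  set e : ChiT k g₀ →+* A := Ideal.Quotient.lift _ e₁ hker with he
  have hemk : ∀ F, e (mkT F) = e₁ F := fun F => by rw [he]; exact Ideal.Quotient.lift_mk _ _ _
  have he₁m : ∀ F ∈ maximalIdeal (MvPowerSeries (Fin 3) B), e₁ F ∈ maximalIdeal A := fun F hF =>
    map_maximalIdeal_le (fun b hb => by rw [he₁C]; exact hj b hb)
      (fun i => by rw [he₁, evalHom_X]; exact hval i) hF
  have hem : ∀ t ∈ maximalIdeal (ChiT k g₀), e t ∈ maximalIdeal A := by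
    intro t ht
    obtain ⟨F, rfl⟩ := Ideal.Quotient.mk_surjective t
    rw [hemk]
    apply he₁m
    intro hu
    exact ht (hu.map _)
  have hhalfA : (2 : A) * j (g₀ (C k.half)) = 1 := by
    have := congrArg (j.comp (g₀.comp (C : 𝒪 →+* MvPowerSeries ι' 𝒪))) k.hhalf
    rw [map_mul, map_one, map_ofNat] at this
    exact this
  have heW : e₁ (chiW k g₀ hg₀) = φ₁ + φ₂ := by
    apply sqrt_unique (IsUnit.of_mul_eq_one _ hhalfA)
    · rw [← map_pow, chiW_sq, map_add, map_pow, map_mul, he₁1, he₁C, map_ofNat, ← hφ]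
      ring
    · have := he₁m _ (chiW_sub_two_mem k g₀ hg₀)
      rwa [map_sub, map_ofNat] at this
    · have : φ₁ + φ₂ - 2 = (φ₁ - 1) + (φ₂ - 1) := by ring
      rw [this]
      exact Ideal.add_mem _ hφ₁ hφ₂
  have heG : ∀ b, e (chiG k g₀ b) = j (g₀ (C b)) := by
    intro b
    rw [chiG, RingHom.comp_apply, RingHom.comp_apply, RingHom.comp_apply, hemk, he₁C]
  have heAf : e (chiA k g₀ hg₀ false) = φ₁ := by
    change e (mkT ((chiW k g₀ hg₀ + X 1) * C (g₀ (C k.half)))) = φ₁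
    rw [hemk, map_mul, map_add, heW, he₁1, he₁C]
    linear_combination φ₁ * hhalfA
  have heA'f : e (chiA' k g₀ hg₀ false) = φ₂ := by
    change e (mkT ((chiW k g₀ hg₀ - X 1) * C (g₀ (C k.half)))) = φ₂
    rw [hemk, map_mul, map_sub, heW, he₁1, he₁C]
    linear_combination φ₂ * hhalfA
  refine chartMap_ker_le (chiG k g₀) (chiXi_mem k g₀ hg₀) (chiA_sub_one_mem k g₀ hg₀)
    (chiB_mem k g₀) (chiA'_sub_one_mem k g₀ hg₀) (fun b hb => chiG_mem k g₀ hg₀ hb) e hem c π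
    (fun b => by rw [hπC, heG]) (fun i => ?_)
  rcases i with i | ⟨s, a, b⟩
  · rw [hπi]
    change _ = e (mkT (C (g₀ (X i))))
    rw [hemk, he₁C]
  · cases s with
    | true =>
      rw [hπt]
      change _ = (lowConj c (e (chiG k g₀ k.ζ)) (e (mkT (X 0))) (e (chiG k g₀ k.ζ')) - 1) a b
      rw [heG, heG, hemk, he₁0]
    | false =>
      rw [hπf]
      change _ = (lowConj c (e (chiA k g₀ hg₀ false)) (e (mkT (X 2)))
        (e (chiA' k g₀ hg₀ false)) - 1) a b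
      rw [heAf, heA'f, hemk, he₁2]

end

end Fermat.Agent.RT
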