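import Fermat.Agent.RT.PatchAssembly

set_option autoImplicit false
set_option maxHeartbeats 400000
set_option linter.style.haveILetI false
set_option linter.unusedSectionVars false
set_option linter.unusedVariables false

/-!
# Patching and level lowering: the final statement of the commutative algebra
-/

open IsLocalRing MvPowerSeries Filter

namespace Fermat.Agent.RT

section Universal

variable {𝒪 : Type*} [CommRing 𝒪] [IsLocalRing 𝒪] (k : ChiConst 𝒪) {ι' : Type*} [Fintype ι']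

/-- The universal matrices in the regular case. -/
noncomputable def matPR (s : Bool) : Matrix (Fin 2) (Fin 2) (MvPowerSeries (ι' ⊕ LIx) 𝒪) :=
  (if s then 1 else uMat _) + Matrix.of fun a b => X (Sum.inr (s, a, b))

lemma matPR_map {A : Type*} [CommRing A] (π : MvPowerSeries (ι' ⊕ LIx) 𝒪 →+* A) (s : Bool) :
    (matPR s).map π = matR π s := by
  cases s
  · change (uMat _ + _ : Matrix _ _ _).map π = uMat A + _
    rw [← RingHom.mapMatrix_apply, map_add, RingHom.mapMatrix_apply, RingHom.mapMatrix_apply,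
      uMat_map]
    rfl
  · change (1 + _ : Matrix _ _ _).map π = (1 : Matrix (Fin 2) (Fin 2) A) + _
    rw [← RingHom.mapMatrix_apply, map_add, map_one]
    rfl

lemma trace_map' {R R' : Type*} [CommRing R] [CommRing R'] (f : R →+* R')
    (M : Matrix (Fin 2) (Fin 2) R) : (M.map f).trace = f M.trace := by
  rw [Matrix.trace_fin_two, Matrix.trace_fin_two, map_add]; rfl

lemma det_map' {R R' : Type*} [CommRing R] [CommRing R'] (f : R →+* R')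
    (M : Matrix (Fin 2) (Fin 2) R) : (M.map f).det = f M.det := by
  rw [RingHom.map_det, RingHom.mapMatrix_apply]

/-- Ideals containing the relations of type `χ` for the matrices `Φ`, `Σ`, with a finite set of
possible eigenvalues. -/
structure ChiIdeal {P : Type*} [CommRing P] (Φ Sg : Matrix (Fin 2) (Fin 2) P) (cst : 𝒪 →+* P)
    (q : 𝒪) (Z : Finset (𝒪 × 𝒪)) (I : Ideal P) : Prop where
  det : Sg.det - 1 ∈ I
  comm : ∀ i j, (Φ * Sg - Sg * Φ) i j ∈ I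
  detF : Φ.det - cst q ∈ I
  tr : ∏ z ∈ Z, (Sg.trace - cst z.1 - cst z.2) ∈ I

/-- Ideals containing the relations of unipotent type. -/
structure UniIdeal {P : Type*} [CommRing P] (Φ Sg : Matrix (Fin 2) (Fin 2) P) (cst : 𝒪 →+* P)
    (q : 𝒪) (I : Ideal P) : Prop where
  tr : Sg.trace - 2 ∈ I
  det : Sg.det - 1 ∈ I
  comm : ∀ i j, (Φ * (Sg - 1) - cst q • ((Sg - 1) * Φ)) i j ∈ I
  detF : Φ.det - cst q ∈ I

variable {k}

lemma UniIdeal.uniRel {I : Ideal (MvPowerSeries (ι' ⊕ LIx) 𝒪)}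
    (h : UniIdeal (matP false) (matP true) C k.q I) : UniRel k (Ideal.Quotient.mk I) := by
  have hm : ∀ s, matOf (Ideal.Quotient.mk I) s = (matP s).map (Ideal.Quotient.mk I) :=
    fun s => (matP_map _ s).symm
  refine ⟨?_, ?_, ?_, ?_⟩
  · rw [hm, trace_map', ← sub_eq_zero, ← map_ofNat (Ideal.Quotient.mk I) 2, ← map_sub]
    exact Ideal.Quotient.eq_zero_iff_mem.mpr h.tr
  · rw [hm, det_map', ← sub_eq_zero, ← map_one (Ideal.Quotient.mk I), ← map_sub]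
    exact Ideal.Quotient.eq_zero_iff_mem.mpr h.det
  · rw [hm, hm]
    ext i j
    have h1 := Ideal.Quotient.eq_zero_iff_mem.mpr (h.comm i j)
    rw [Matrix.sub_apply, map_sub, sub_eq_zero, Matrix.smul_apply, smul_eq_mul, map_mul] at h1
    have h2 : (matP true : Matrix (Fin 2) (Fin 2) (MvPowerSeries (ι' ⊕ LIx) 𝒪)).map
        (Ideal.Quotient.mk I) - 1 = (matP true - 1 :
          Matrix (Fin 2) (Fin 2) (MvPowerSeries (ι' ⊕ LIx) 𝒪)).map (Ideal.Quotient.mk I) := by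
      rw [← RingHom.mapMatrix_apply, ← RingHom.mapMatrix_apply, map_sub, map_one]
    rw [h2, ← Matrix.map_mul, ← Matrix.map_mul, Matrix.map_apply, h1]
    rfl
  · rw [hm, det_map', ← sub_eq_zero, ← map_sub]
    exact Ideal.Quotient.eq_zero_iff_mem.mpr h.detF

lemma UniIdeal.uniRelR {I : Ideal (MvPowerSeries (ι' ⊕ LIx) 𝒪)}
    (h : UniIdeal (matPR false) (matPR true) C k.q I) : UniRelR k (Ideal.Quotient.mk I) := by
  have hm : ∀ s, matR (Ideal.Quotient.mk I) s = (matPR s).map (Ideal.Quotient.mk I) :=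
    fun s => (matPR_map _ s).symm
  refine ⟨?_, ?_⟩
  · rw [hm, hm]
    ext i j
    have h1 := Ideal.Quotient.eq_zero_iff_mem.mpr (h.comm i j)
    rw [Matrix.sub_apply, map_sub, sub_eq_zero, Matrix.smul_apply, smul_eq_mul, map_mul] at h1
    have h2 : (matPR true : Matrix (Fin 2) (Fin 2) (MvPowerSeries (ι' ⊕ LIx) 𝒪)).map
        (Ideal.Quotient.mk I) - 1 = (matPR true - 1 :
          Matrix (Fin 2) (Fin 2) (MvPowerSeries (ι' ⊕ LIx) 𝒪)).map (Ideal.Quotient.mk I) := by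
      rw [← RingHom.mapMatrix_apply, ← RingHom.mapMatrix_apply, map_sub, map_one]
    rw [h2, ← Matrix.map_mul, ← Matrix.map_mul, Matrix.map_apply, h1]
    rfl
  · rw [hm, det_map', ← sub_eq_zero, ← map_sub]
    exact Ideal.Quotient.eq_zero_iff_mem.mpr h.detF

/-- The constants of a root of unity. -/
def ChiConst.withZ (k : ChiConst 𝒪) (z : 𝒪 × 𝒪) (h1 : z.1 - 1 ∈ maximalIdeal 𝒪)
    (h2 : z.1 * z.2 = 1) : ChiConst 𝒪 :=
  { k with ζ := z.1, ζ' := z.2, hζ := h1, hζζ' := h2 }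

lemma ChiIdeal.exists_chiRel {Z : Finset (𝒪 × 𝒪)}
    (hZ : ∀ z ∈ Z, z.1 - 1 ∈ maximalIdeal 𝒪 ∧ z.1 * z.2 = 1 ∧ z.1 ≠ z.2)
    {I : Ideal (MvPowerSeries (ι' ⊕ LIx) 𝒪)} (h : ChiIdeal (matP false) (matP true) C k.q Z I)
    {𝔮 : Ideal (MvPowerSeries (ι' ⊕ LIx) 𝒪)} (h𝔮 : 𝔮.IsPrime) (hI : I ≤ 𝔮) :
    ∃ k' : ChiConst 𝒪, k'.ζ ≠ k'.ζ' ∧ ChiRel k' (Ideal.Quotient.mk 𝔮) := by
  obtain ⟨z, hz, hz2⟩ := (@Ideal.IsPrime.prod_mem_iff _ _ _ _ _ _ h𝔮).mp (hI h.tr)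
  obtain ⟨h1, h2, h3⟩ := hZ z hz
  refine ⟨k.withZ z h1 h2, h3, ?_, ?_, ?_, ?_⟩
  · rw [← matP_map, trace_map', ← map_add, ← sub_eq_zero, ← map_sub]
    apply Ideal.Quotient.eq_zero_iff_mem.mpr
    change (matP true).trace - (C z.1 + C z.2) ∈ 𝔮
    rw [← sub_sub]; exact hz2
  · rw [← matP_map, det_map', ← sub_eq_zero, ← map_one (Ideal.Quotient.mk 𝔮), ← map_sub]
    exact Ideal.Quotient.eq_zero_iff_mem.mpr (hI h.det)
  · rw [← matP_map, ← matP_map, ← Matrix.map_mul, ← Matrix.map_mul]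
    ext i j
    rw [Matrix.map_apply, Matrix.map_apply, ← sub_eq_zero, ← map_sub]
    exact Ideal.Quotient.eq_zero_iff_mem.mpr (hI (h.comm i j))
  · rw [← matP_map, det_map', ← sub_eq_zero, ← map_sub]
    exact Ideal.Quotient.eq_zero_iff_mem.mpr (hI h.detF)

lemma ChiIdeal.exists_chiRelR {Z : Finset (𝒪 × 𝒪)}
    (hZ : ∀ z ∈ Z, z.1 - 1 ∈ maximalIdeal 𝒪 ∧ z.1 * z.2 = 1 ∧ z.1 ≠ z.2)
    {I : Ideal (MvPowerSeries (ι' ⊕ LIx) 𝒪)} (h : ChiIdeal (matPR false) (matPR true) C k.q Z I)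
    {𝔮 : Ideal (MvPowerSeries (ι' ⊕ LIx) 𝒪)} (h𝔮 : 𝔮.IsPrime) (hI : I ≤ 𝔮) :
    ∃ k' : ChiConst 𝒪, k'.ζ ≠ k'.ζ' ∧ ChiRelR k' (Ideal.Quotient.mk 𝔮) := by
  obtain ⟨z, hz, hz2⟩ := (@Ideal.IsPrime.prod_mem_iff _ _ _ _ _ _ h𝔮).mp (hI h.tr)
  obtain ⟨h1, h2, h3⟩ := hZ z hz
  refine ⟨k.withZ z h1 h2, h3, ?_, ?_, ?_, ?_⟩
  · rw [← matPR_map, trace_map', ← map_add, ← sub_eq_zero, ← map_sub]
    apply Ideal.Quotient.eq_zero_iff_mem.mpr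
    change (matPR true).trace - (C z.1 + C z.2) ∈ 𝔮
    rw [← sub_sub]; exact hz2
  · rw [← matPR_map, det_map', ← sub_eq_zero, ← map_one (Ideal.Quotient.mk 𝔮), ← map_sub]
    exact Ideal.Quotient.eq_zero_iff_mem.mpr (hI h.det)
  · rw [← matPR_map, ← matPR_map, ← Matrix.map_mul, ← Matrix.map_mul]
    ext i j
    rw [Matrix.map_apply, Matrix.map_apply, ← sub_eq_zero, ← map_sub]
    exact Ideal.Quotient.eq_zero_iff_mem.mpr (hI (h.comm i j))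
  · rw [← matPR_map, det_map', ← sub_eq_zero, ← map_sub]
    exact Ideal.Quotient.eq_zero_iff_mem.mpr (hI h.detF)

/-- Closedness of the relations. -/
lemma UniIdeal.of_forall {P : Type*} [CommRing P] {Φ Sg : Matrix (Fin 2) (Fin 2) P} {cst : 𝒪 →+* P}
    {q : 𝒪} {K : ℕ → Ideal P} {I : Ideal P} (hK : ∀ x, (∀ n, x ∈ K n) → x ∈ I)
    (h : ∀ n, UniIdeal Φ Sg cst q (K n)) : UniIdeal Φ Sg cst q I :=
  ⟨hK _ fun n => (h n).tr, hK _ fun n => (h n).det, fun i j => hK _ fun n => (h n).comm i j,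
    hK _ fun n => (h n).detF⟩

lemma ChiIdeal.of_forall {P : Type*} [CommRing P] {Φ Sg : Matrix (Fin 2) (Fin 2) P} {cst : 𝒪 →+* P}
    {q : 𝒪} {Z : Finset (𝒪 × 𝒪)} {K : ℕ → Ideal P} {I : Ideal P}
    (hK : ∀ x, (∀ n, x ∈ K n) → x ∈ I)
    (h : ∀ n, ChiIdeal Φ Sg cst q Z (K n)) : ChiIdeal Φ Sg cst q Z I :=
  ⟨hK _ fun n => (h n).det, fun i j => hK _ fun n => (h n).comm i j, hK _ fun n => (h n).detF,
    hK _ fun n => (h n).tr⟩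

end Universal

section Final

variable {𝒪 : Type} [CommRing 𝒪] [IsDomain 𝒪] [IsDiscreteValuationRing 𝒪]
  [IsAdicComplete (maximalIdeal 𝒪) 𝒪] [Finite (ResidueField 𝒪)]
  {e d : ℕ} {ι' : Type} [Fintype ι'] (D : PatchInput 𝒪 (e + 2) d (ι' ⊕ LIx))
  {ι : Type} [Fintype ι]

/-- From a prime of `P` to a prime of the Hecke algebra of level zero. -/
lemma exists_prime_of_output {m : ℕ} {D : PatchInput 𝒪 m d ι} (O : PatchOutput D)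
    {𝔭 : Ideal (MvPowerSeries ι 𝒪)} (h𝔭 : 𝔭.IsPrime)
    (h𝔭𝔫 : 𝔭.comap O.β = RingHom.ker (constantCoeff : MvPowerSeries (Fin m) 𝒪 →+* 𝒪))
    (h : ∀ x, (O.B₁ x).map (Ideal.Quotient.mk
      (RingHom.ker (constantCoeff : MvPowerSeries (Fin m) 𝒪 →+* 𝒪))) = 0 → x ∈ 𝔭) :
    ∃ 𝔮₀ : Ideal D.R₀, 𝔮₀.IsPrime ∧ (∀ b, D.σ₀ b ∈ 𝔮₀ → b = 0) ∧
      ∀ x ∈ 𝔭, ∀ y, (∀ n, D.ψ n x = y) → y ∈ 𝔮₀ := by
  letI alg : Algebra (MvPowerSeries ι 𝒪) D.R₀ := O.φ.toAlgebra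
  have hint : Algebra.IsIntegral (MvPowerSeries ι 𝒪) D.R₀ := ⟨fun y => by
    obtain ⟨p, hp, hp0⟩ := D.hint₀ y
    refine ⟨p.map C, hp.map _, ?_⟩
    rw [Polynomial.eval₂_map]
    have : (algebraMap (MvPowerSeries ι 𝒪) D.R₀).comp C = D.σ₀ := by
      ext b; exact O.hφC b
    rw [this]; exact hp0⟩
  obtain ⟨𝔮₀, -, h1, h2⟩ := Ideal.exists_ideal_over_prime_of_isIntegral (S := D.R₀) 𝔭 ⊥ (by
    intro x hx
    rw [Ideal.mem_comap, Ideal.mem_bot] at hx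
    have hx' : O.φ x = 0 := hx
    apply h
    have h3 := O.hφ x
    rw [hx', map_zero] at h3
    ext i j
    have h4 := congrFun (congrFun h3 i) j
    rw [Matrix.map_apply, Matrix.zero_apply] at h4
    rw [Matrix.map_apply, Matrix.zero_apply, Ideal.Quotient.eq_zero_iff_mem, RingHom.mem_ker]
    exact h4)
  refine ⟨𝔮₀, h1, fun b hb => ?_, fun x hx y hxy => ?_⟩
  · rw [← O.hφC] at hb
    have h3 : (C b : MvPowerSeries ι 𝒪) ∈ 𝔭 := by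
      rw [← h2]; exact hb
    rw [← O.hβ, ← Ideal.mem_comap, h𝔭𝔫, RingHom.mem_ker, constantCoeff_C] at h3
    exact h3
  · rw [← O.hφconst x y hxy]
    rw [← h2] at hx
    exact hx

/-- **Patching and level lowering**, scalar case. -/
theorem patch_lowering (hd : 0 < d) (k : ChiConst 𝒪) (hq0 : k.q ≠ 0) (hq1 : k.q ≠ 1)
    (Z : Finset (𝒪 × 𝒪)) (hZ : ∀ z ∈ Z, z.1 - 1 ∈ maximalIdeal 𝒪 ∧ z.1 * z.2 = 1 ∧ z.1 ≠ z.2)
    (huni : ∀ n, UniIdeal (matP false) (matP true) C k.q (RingHom.ker (D.A₁ n)))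
    (hχ : ∀ n, ChiIdeal (matP false) (matP true) C k.q Z (RingHom.ker (D.Aχ n)))
    (Rel : Set (MvPowerSeries ι' 𝒪)) (hRel : ∀ n, ∀ r ∈ Rel, D.Aχ n (inc 𝒪 ι' r) = 0)
    (θ : Fin e → MvPowerSeries ι' 𝒪) (hθ : ∀ a, θ a ∈ maximalIdeal (MvPowerSeries ι' 𝒪))
    (hfin : ∀ 𝔱 : Ideal (MvPowerSeries ι' 𝒪), 𝔱.IsPrime → Rel ⊆ 𝔱 → (∀ a, θ a ∈ 𝔱) →
      maximalIdeal (MvPowerSeries ι' 𝒪) ≤ 𝔱) :
    ∃ 𝔮₀ : Ideal D.R₀, 𝔮₀.IsPrime ∧ (∀ b, D.σ₀ b ∈ 𝔮₀ → b = 0) ∧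
      ∀ a b y, (∀ n, D.ψ n (X (Sum.inr (true, a, b))) = y) → y ∈ 𝔮₀ := by
  obtain ⟨O⟩ := nonempty_patchOutput D
  haveI h𝔫 : (RingHom.ker (constantCoeff : MvPowerSeries (Fin (e + 2)) 𝒪 →+* 𝒪)).IsPrime :=
    RingHom.ker_isPrime _
  haveI : NoZeroDivisors (MvPowerSeries (Fin (e + 2)) 𝒪) := MvPowerSeries.instNoZeroDivisors
  haveI : IsDomain (MvPowerSeries (Fin (e + 2)) 𝒪) := NoZeroDivisors.to_isDomain _
  have hC : Function.Injective (C : 𝒪 →+* MvPowerSeries (Fin (e + 2)) 𝒪) := C_injective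
  have hkerχ : ∀ x, (∀ n, x ∈ RingHom.ker (D.Aχ n)) → x ∈ RingHom.ker O.Bχ :=
    fun x hx => O.hkerχ x hx
  have hker₁ : ∀ x, (∀ n, x ∈ RingHom.ker (D.A₁ n)) → x ∈ RingHom.ker O.B₁ :=
    fun x hx => O.hker₁ x hx
  have hχ' := ChiIdeal.of_forall hkerχ hχ
  obtain ⟨𝔭, h𝔭, h𝔭𝔫, h1, h2⟩ := lowering k (C : 𝒪 →+* MvPowerSeries (Fin (e + 2)) 𝒪) hC O.β O.hβ hd
    O.B₁ O.Bχ O.hB₁ O.hBχ O.hcongr hq0 hq1 (UniIdeal.of_forall hker₁ huni).uniRel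
    (fun 𝔮 h𝔮 hle => hχ'.exists_chiRel hZ h𝔮 hle) θ hθ
    (fun 𝔱 h𝔱 hle hall => hfin 𝔱 h𝔱 (fun r hr => hle (O.hkerχ _ fun n => hRel n r hr)) hall)
    (le_ringKrullDim_mvPowerSeries (e + 2))
    (RingHom.ker (constantCoeff : MvPowerSeries (Fin (e + 2)) 𝒪 →+* 𝒪))
  obtain ⟨𝔮₀, h3, h4, h5⟩ := exists_prime_of_output O h𝔭 h𝔭𝔫 h1
  exact ⟨𝔮₀, h3, h4, fun a b y hy => h5 _ (h2 a b) y hy⟩

/-- **Patching and level lowering**, regular case. -/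
theorem patch_loweringR (hd : 0 < d) (k : ChiConst 𝒪) (hq0 : k.q ≠ 0) (hq1 : k.q ≠ 1)
    (Z : Finset (𝒪 × 𝒪)) (hZ : ∀ z ∈ Z, z.1 - 1 ∈ maximalIdeal 𝒪 ∧ z.1 * z.2 = 1 ∧ z.1 ≠ z.2)
    (huni : ∀ n, UniIdeal (matPR false) (matPR true) C k.q (RingHom.ker (D.A₁ n)))
    (hχ : ∀ n, ChiIdeal (matPR false) (matPR true) C k.q Z (RingHom.ker (D.Aχ n)))
    (Rel : Set (MvPowerSeries ι' 𝒪)) (hRel : ∀ n, ∀ r ∈ Rel, D.Aχ n (inc 𝒪 ι' r) = 0)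
    (θ : Fin e → MvPowerSeries ι' 𝒪) (hθ : ∀ a, θ a ∈ maximalIdeal (MvPowerSeries ι' 𝒪))
    (hfin : ∀ 𝔱 : Ideal (MvPowerSeries ι' 𝒪), 𝔱.IsPrime → Rel ⊆ 𝔱 → (∀ a, θ a ∈ 𝔱) →
      maximalIdeal (MvPowerSeries ι' 𝒪) ≤ 𝔱) :
    ∃ 𝔮₀ : Ideal D.R₀, 𝔮₀.IsPrime ∧ (∀ b, D.σ₀ b ∈ 𝔮₀ → b = 0) ∧
      ∀ a b y, (∀ n, D.ψ n (X (Sum.inr (true, a, b))) = y) → y ∈ 𝔮₀ := by
  obtain ⟨O⟩ := nonempty_patchOutput D
  haveI h𝔫 : (RingHom.ker (constantCoeff : MvPowerSeries (Fin (e + 2)) 𝒪 →+* 𝒪)).IsPrime :=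
    RingHom.ker_isPrime _
  haveI : NoZeroDivisors (MvPowerSeries (Fin (e + 2)) 𝒪) := MvPowerSeries.instNoZeroDivisors
  haveI : IsDomain (MvPowerSeries (Fin (e + 2)) 𝒪) := NoZeroDivisors.to_isDomain _
  have hC : Function.Injective (C : 𝒪 →+* MvPowerSeries (Fin (e + 2)) 𝒪) := C_injective
  have hkerχ : ∀ x, (∀ n, x ∈ RingHom.ker (D.Aχ n)) → x ∈ RingHom.ker O.Bχ :=
    fun x hx => O.hkerχ x hx
  have hker₁ : ∀ x, (∀ n, x ∈ RingHom.ker (D.A₁ n)) → x ∈ RingHom.ker O.B₁ :=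
    fun x hx => O.hker₁ x hx
  have hχ' := ChiIdeal.of_forall hkerχ hχ
  obtain ⟨𝔭, h𝔭, h𝔭𝔫, h1, h2⟩ := loweringR k (C : 𝒪 →+* MvPowerSeries (Fin (e + 2)) 𝒪) hC O.β O.hβ hd
    O.B₁ O.Bχ O.hB₁ O.hBχ O.hcongr hq0 hq1 (UniIdeal.of_forall hker₁ huni).uniRelR
    (fun 𝔮 h𝔮 hle => hχ'.exists_chiRelR hZ h𝔮 hle) θ hθ
    (fun 𝔱 h𝔱 hle hall => hfin 𝔱 h𝔱 (fun r hr => hle (O.hkerχ _ fun n => hRel n r hr)) hall)
    (le_ringKrullDim_mvPowerSeries (e + 2))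
    (RingHom.ker (constantCoeff : MvPowerSeries (Fin (e + 2)) 𝒪 →+* 𝒪))
  obtain ⟨𝔮₀, h3, h4, h5⟩ := exists_prime_of_output O h𝔭 h𝔭𝔫 h1
  exact ⟨𝔮₀, h3, h4, fun a b y hy => h5 _ (h2 a b) y hy⟩

end Final

end Fermat.Agent.RT
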