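import Fermat.Agent.RT.Frames
import Fermat.Agent.RT.PatchLowering

set_option autoImplicit false
set_option maxHeartbeats 400000
set_option linter.style.haveILetI false
set_option linter.unusedSectionVars false
set_option linter.unusedVariables false

/-!
# Combination of the local types, and the levels
-/

open IsLocalRing MvPowerSeries Filter

namespace Fermat.Agent.RT

section Comb

variable {𝒪 : Type} [CommRing 𝒪] [IsLocalRing 𝒪] [IsAdicComplete (maximalIdeal 𝒪) 𝒪]
  {κ : Type} [Fintype κ] {c : κ → ℕ} (τ : ∀ v, LocType 𝒪 (c v)) (g : ℕ)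

/-- The variables for the places of `κ` and the global variables. -/
abbrev PIx : Type := (Σ v : κ, (τ v).ι) ⊕ Fin g

/-- The inclusion of the variables of one place. -/
noncomputable def incl (v : κ) : MvPowerSeries (τ v).ι 𝒪 →+* MvPowerSeries (PIx τ g) 𝒪 :=
  evalHom (maximalIdeal _) C (fun i => X (Sum.inl ⟨v, i⟩)) (fun i => X_mem_maximalIdeal' _)

@[simp] lemma incl_C (v : κ) (b : 𝒪) : incl τ g v (C b) = C b := by rw [incl, evalHom_C]

@[simp] lemma incl_X (v : κ) (i : (τ v).ι) : incl τ g v (X i) = X (Sum.inl ⟨v, i⟩) := by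
  rw [incl, evalHom_X]

lemma incl_mem (v : κ) {F : MvPowerSeries (τ v).ι 𝒪}
    (hF : F ∈ maximalIdeal (MvPowerSeries (τ v).ι 𝒪)) :
    incl τ g v F ∈ maximalIdeal (MvPowerSeries (PIx τ g) 𝒪) :=
  map_maximalIdeal_le (fun b hb => by rw [incl_C]; exact C_mem_maximalIdeal hb)
    (fun i => by rw [incl_X]; exact X_mem_maximalIdeal' _) hF

/-- The relations of all places. -/
def combRel : Set (MvPowerSeries (PIx τ g) 𝒪) := {r | ∃ v, ∃ r' ∈ (τ v).Rel, incl τ g v r' = r}

/-- The parameters. -/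
noncomputable def combθ (ϖ : 𝒪) : Unit ⊕ ((Σ v : κ, Fin (c v)) ⊕ Fin g) →
    MvPowerSeries (PIx τ g) 𝒪
  | Sum.inl _ => C ϖ
  | Sum.inr (Sum.inl ⟨v, a⟩) => incl τ g v ((τ v).θ a)
  | Sum.inr (Sum.inr j) => X (Sum.inr j)

lemma combθ_mem {ϖ : 𝒪} (hϖ : ϖ ∈ maximalIdeal 𝒪) (a) :
    combθ τ g ϖ a ∈ maximalIdeal (MvPowerSeries (PIx τ g) 𝒪) := by
  rcases a with _ | ⟨v, a⟩ | j
  · exact C_mem_maximalIdeal hϖ
  · exact incl_mem τ g v ((τ v).hθ a)
  · exact X_mem_maximalIdeal' _

theorem comb_fin {ϖ : 𝒪} (hϖ : maximalIdeal 𝒪 = Ideal.span {ϖ})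
    {𝔱 : Ideal (MvPowerSeries (PIx τ g) 𝒪)} (h𝔱 : 𝔱.IsPrime) (hR : combRel τ g ⊆ 𝔱)
    (hθ : ∀ a, combθ τ g ϖ a ∈ 𝔱) : maximalIdeal (MvPowerSeries (PIx τ g) 𝒪) ≤ 𝔱 := by
  have hC : ∀ b ∈ maximalIdeal 𝒪, C b ∈ 𝔱 := by
    intro b hb
    rw [hϖ, Ideal.mem_span_singleton] at hb
    obtain ⟨u, rfl⟩ := hb
    rw [map_mul]
    exact Ideal.mul_mem_right _ _ (hθ (Sum.inl ()))
  refine maximalIdeal_le_of_X hC fun i => ?_
  rcases i with ⟨v, i⟩ | j
  · haveI : (𝔱.comap (incl τ g v)).IsPrime := Ideal.comap_isPrime _ _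
    have h1 := (τ v).hfin (𝔱.comap (incl τ g v)) this
      (fun b hb => by rw [Ideal.mem_comap, incl_C]; exact hC b hb)
      (fun r hr => hR ⟨v, r, hr, rfl⟩) (fun a => hθ (Sum.inr (Sum.inl ⟨v, a⟩)))
    have h2 := h1 (X_mem_maximalIdeal' (R := 𝒪) i)
    rw [Ideal.mem_comap, incl_X] at h2
    exact h2
  · exact hθ (Sum.inr (Sum.inr j))

end Comb

section Frame

variable {κ : Type} {T : Type} [CommRing T] [IsLocalRing T]

/-- The frame at a place. -/
noncomputable def frame (v : Option κ) : Matrix (Fin 2) (Fin 2) (MvPowerSeries (Option κ × Fin 3) T) :=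
  !![1 + X (v, 0), X (v, 1); X (v, 2), 1]

lemma isUnit_det_frame (v : Option κ) : IsUnit (frame (T := T) v).det := by
  rw [frame, Matrix.det_fin_two_of, isUnit_iff_constantCoeff]
  simp

/-- The framed matrix. -/
noncomputable def framed (v : Option κ) (M : Matrix (Fin 2) (Fin 2) T) :
    Matrix (Fin 2) (Fin 2) (MvPowerSeries (Option κ × Fin 3) T) :=
  frame v * M.map C * (frame v)⁻¹

lemma frame_mul_inv (v : Option κ) : frame (T := T) v * (frame v)⁻¹ = 1 :=
  Matrix.mul_nonsing_inv _ (isUnit_det_frame v)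

lemma frame_inv_mul (v : Option κ) : (frame (T := T) v)⁻¹ * frame v = 1 :=
  Matrix.nonsing_inv_mul _ (isUnit_det_frame v)

lemma framed_mul (v : Option κ) (M N : Matrix (Fin 2) (Fin 2) T) :
    framed v (M * N) = framed v M * framed v N := by
  rw [framed, framed, framed, Matrix.map_mul]
  calc frame v * (M.map C * N.map C) * (frame v)⁻¹
      = frame v * M.map C * (1 : Matrix _ _ _) * (N.map C) * (frame v)⁻¹ := by
        rw [Matrix.mul_one]; simp only [Matrix.mul_assoc]
    _ = frame v * M.map C * ((frame v)⁻¹ * frame v) * N.map C * (frame v)⁻¹ := by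
        rw [frame_inv_mul]
    _ = _ := by simp only [Matrix.mul_assoc]

lemma framed_sub (v : Option κ) (M N : Matrix (Fin 2) (Fin 2) T) :
    framed v (M - N) = framed v M - framed v N := by
  rw [framed, framed, framed, ← RingHom.mapMatrix_apply, map_sub, Matrix.mul_sub, Matrix.sub_mul]
  rfl

lemma framed_one (v : Option κ) : framed v (1 : Matrix (Fin 2) (Fin 2) T) = 1 := by
  rw [framed, Matrix.map_one _ (map_zero _) (map_one _), Matrix.mul_one, frame_mul_inv]

lemma framed_smul (v : Option κ) (a : T) (M : Matrix (Fin 2) (Fin 2) T) :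
    framed v (a • M) = (C a : MvPowerSeries (Option κ × Fin 3) T) • framed v M := by
  rw [framed, framed]
  have : (a • M).map (C : T →+* MvPowerSeries (Option κ × Fin 3) T) =
      (C a : MvPowerSeries (Option κ × Fin 3) T) • M.map C := by
    ext i j
    rw [Matrix.map_apply, Matrix.smul_apply, Matrix.smul_apply, smul_eq_mul, smul_eq_mul, map_mul,
      Matrix.map_apply]
  rw [this, Matrix.mul_smul, Matrix.smul_mul]

lemma trace_framed (v : Option κ) (M : Matrix (Fin 2) (Fin 2) T) :
    (framed v M).trace = C M.trace := by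
  rw [framed, Matrix.trace_mul_comm, ← Matrix.mul_assoc, frame_inv_mul, Matrix.one_mul,
    Matrix.trace_fin_two, Matrix.trace_fin_two, map_add]
  rfl

lemma det_framed (v : Option κ) (M : Matrix (Fin 2) (Fin 2) T) :
    (framed v M).det = C M.det := by
  have h1 : (frame (T := T) v).det * ((frame v)⁻¹).det = 1 := by
    rw [← Matrix.det_mul, frame_mul_inv, Matrix.det_one]
  have h2 : (M.map (C : T →+* MvPowerSeries (Option κ × Fin 3) T)).det = C M.det := by
    rw [RingHom.map_det, RingHom.mapMatrix_apply]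
  rw [framed, Matrix.det_mul, Matrix.det_mul, h2]
  linear_combination C M.det * h1

lemma constantCoeff_frame (v : Option κ) :
    (frame (T := T) v).map (constantCoeff : MvPowerSeries (Option κ × Fin 3) T →+* T) = 1 := by
  ext i j
  fin_cases i <;> fin_cases j <;> simp [frame]

lemma constantCoeff_framed (v : Option κ) (M : Matrix (Fin 2) (Fin 2) T) :
    (framed v M).map (constantCoeff : MvPowerSeries (Option κ × Fin 3) T →+* T) = M := by
  have h1 := congrArg (fun N => N.map (constantCoeff : MvPowerSeries (Option κ × Fin 3) T →+* T))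
    (frame_mul_inv (T := T) v)
  rw [Matrix.map_mul, constantCoeff_frame, Matrix.one_mul,
    Matrix.map_one _ (map_zero _) (map_one _)] at h1
  have h2 : (M.map (C : T →+* MvPowerSeries (Option κ × Fin 3) T)).map
      (constantCoeff : MvPowerSeries (Option κ × Fin 3) T →+* T) = M := by
    ext i j
    rw [Matrix.map_apply, Matrix.map_apply, constantCoeff_C]
  rw [framed, Matrix.map_mul, Matrix.map_mul, constantCoeff_frame, Matrix.one_mul, h1,
    Matrix.mul_one, h2]

/-- Entries of framed matrices are in the ideal generated by the entries. -/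
lemma framed_mem (v : Option κ) {I : Ideal (MvPowerSeries (Option κ × Fin 3) T)}
    {M : Matrix (Fin 2) (Fin 2) T} (hM : ∀ i j, C (M i j) ∈ I) (i j : Fin 2) :
    framed v M i j ∈ I := by
  rw [framed, Matrix.mul_apply]
  refine Ideal.sum_mem _ fun k _ => Ideal.mul_mem_right _ _ ?_
  rw [Matrix.mul_apply]
  exact Ideal.sum_mem _ fun l _ => Ideal.mul_mem_left _ _ (hM _ _)

end Frame

end Fermat.Agent.RT
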