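import Mathlib

set_option autoImplicit false
set_option linter.style.haveILetI false
set_option linter.unusedSectionVars false
set_option linter.unusedVariables false
set_option maxHeartbeats 400000

/-!
# The component principle for patched modules

`S` is a noetherian domain, `P` a noetherian `S`-algebra, `M` a `P`-module which is finite and
torsion free over `S`.  The components of the support of `M` have full dimension; consequently a
component of the ambient ring which is the only one passing through a point of the support lies in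
the support.
-/

open Polynomial

namespace Fermat.Agent.RT

section Basic

variable {S P M : Type*} [CommRing S] [IsDomain S] [CommRing P] [IsNoetherianRing P] [Algebra S P]
  [AddCommGroup M] [Module S M] [Module P M] [IsScalarTower S P M] [Module.Finite S M]

omit [IsDomain S] [IsNoetherianRing P] in
include S in
lemma finite_of_tower : Module.Finite P M := Module.Finite.of_restrictScalars_finite S P M

/-- Minimal primes of the annihilator of a torsion free module contract to zero. -/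
lemma comap_eq_bot_of_mem_minimalPrimes (htf : ∀ (s : S) (m : M), s • m = 0 → s = 0 ∨ m = 0)
    {𝔮 : Ideal P} (h𝔮 : 𝔮 ∈ (Module.annihilator P M).minimalPrimes) :
    𝔮.comap (algebraMap S P) = ⊥ := by
  have : Module.Finite P M := finite_of_tower (S := S)
  have h1 := Module.associatedPrimes.minimalPrimes_annihilator_subset_associatedPrimes P M h𝔮
  rw [AssociatedPrimes.mem_iff, isAssociatedPrime_iff] at h1
  obtain ⟨hp, x, hx⟩ := h1
  rw [eq_bot_iff]
  intro s hs
  rw [Ideal.mem_comap, hx, Submodule.mem_colon_singleton, Submodule.mem_bot,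
    algebraMap_smul] at hs
  rcases htf s x hs with h | h
  · exact h
  · exfalso
    apply hp.ne_top
    rw [hx, h, Ideal.eq_top_iff_one, Submodule.mem_colon_singleton, smul_zero]
    exact Submodule.zero_mem _

omit [IsDomain S] [IsNoetherianRing P] in
/-- The action of `P` on a finite `S`-module is integral. -/
lemma exists_monic_mem_annihilator (x : P) :
    ∃ f : S[X], f.Monic ∧ aeval x f ∈ Module.annihilator P M := by
  obtain ⟨f, hf, hf0⟩ := (Module.End.isIntegral (R := S) (M := M)).isIntegral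
    (Algebra.lsmul S S M x)
  refine ⟨f, hf, ?_⟩
  rw [Module.mem_annihilator]
  intro m
  have h2 : aeval (Algebra.lsmul S S M x) f = Algebra.lsmul S S M (aeval x f) :=
    (Polynomial.aeval_algHom_apply (Algebra.lsmul S S M) x f)
  have h3 : Algebra.lsmul S S M (aeval x f) = 0 := by
    rw [← h2]; exact hf0
  have h4 := congrArg (fun g : Module.End S M => g m) h3
  simpa using h4

omit [IsDomain S] [IsNoetherianRing P] in
/-- If the annihilator of `M` is contained in `I`, then `P/I` is integral over `S`. -/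
lemma isIntegral_quotient {I : Ideal P} (hI : Module.annihilator P M ≤ I) :
    Algebra.IsIntegral S (P ⧸ I) := by
  constructor
  intro y
  obtain ⟨x, rfl⟩ := Ideal.Quotient.mk_surjective y
  obtain ⟨f, hf, hf0⟩ := exists_monic_mem_annihilator (S := S) (M := M) x
  refine ⟨f, hf, ?_⟩
  have h1 : aeval (Ideal.Quotient.mk I x) f = Ideal.Quotient.mk I (aeval x f) := by
    have := Polynomial.aeval_algHom_apply (Ideal.Quotient.mkₐ S I) x f
    simpa using this
  rw [← aeval_def, h1]
  exact Ideal.Quotient.eq_zero_iff_mem.mpr (hI hf0)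

omit [IsDomain S] [IsNoetherianRing P] in
/-- Going up: the dimension of an integral extension is at least the dimension of the base. -/
lemma ringKrullDim_le_of_isIntegral {R R' : Type*} [CommRing R] [CommRing R'] [Algebra R R']
    [Algebra.IsIntegral R R'] (hinj : Function.Injective (algebraMap R R')) :
    ringKrullDim R ≤ ringKrullDim R' := by
  have : FaithfulSMul R R' := (faithfulSMul_iff_algebraMap_injective R R').mpr hinj
  rw [ringKrullDim, Order.krullDim]
  refine iSup_le fun l => ?_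
  obtain ⟨Q, hQ1, hQ2⟩ := Ideal.exists_ideal_over_prime_of_isIntegral (S := R') l.head.asIdeal
    (⊥ : Ideal R') (by
      intro x hx
      rw [Ideal.mem_comap, Ideal.mem_bot] at hx
      have : x = 0 := hinj (by rw [hx, map_zero])
      rw [this]; exact Ideal.zero_mem _)
  obtain ⟨hQ2, hQ3⟩ := hQ2
  have := hQ2
  have : Q.LiesOver l.head.asIdeal := ⟨hQ3.symm⟩
  obtain ⟨L, hL, -, -⟩ := Ideal.exists_ltSeries_of_hasGoingUp l Q
  rw [← hL, ringKrullDim]
  exact Order.LTSeries.length_le_krullDim L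

/-- The components of the support of `M` have dimension at least `dim S`. -/
lemma le_ringKrullDim_quotient (htf : ∀ (s : S) (m : M), s • m = 0 → s = 0 ∨ m = 0)
    {𝔮 : Ideal P} (h𝔮 : 𝔮 ∈ (Module.annihilator P M).minimalPrimes) :
    ringKrullDim S ≤ ringKrullDim (P ⧸ 𝔮) := by
  have : Algebra.IsIntegral S (P ⧸ 𝔮) := isIntegral_quotient (M := M) h𝔮.1.2
  apply ringKrullDim_le_of_isIntegral
  rw [injective_iff_map_eq_zero]
  intro s hs
  have h1 : algebraMap S P s ∈ 𝔮 := by
    rw [IsScalarTower.algebraMap_apply S P (P ⧸ 𝔮), Ideal.Quotient.algebraMap_eq,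
      Ideal.Quotient.eq_zero_iff_mem] at hs
    exact hs
  have h2 : s ∈ 𝔮.comap (algebraMap S P) := h1
  rw [comap_eq_bot_of_mem_minimalPrimes htf h𝔮] at h2
  exact h2

end Basic

/-- A prime containing a prime `I` with `dim P/I ≤ dim P/𝔮 < ∞` is equal to it. -/
lemma eq_of_le_of_ringKrullDim_le {P : Type*} [CommRing P] {I 𝔮 : Ideal P} [hI : I.IsPrime]
    (hIq : I ≤ 𝔮) {d : ℕ} (h1 : ringKrullDim (P ⧸ I) ≤ d) (h2 : (d : WithBot ℕ∞) ≤ ringKrullDim (P ⧸ 𝔮)) :
    I = 𝔮 := by
  by_contra hne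
  obtain ⟨x, hx, hxI⟩ := SetLike.exists_of_lt (lt_of_le_of_ne hIq hne)
  have h3 : ringKrullDim (P ⧸ 𝔮) + 1 ≤ ringKrullDim (P ⧸ I) := by
    refine ringKrullDim_succ_le_of_surjective (Ideal.Quotient.factor hIq)
      (Ideal.Quotient.factor_surjective hIq) (r := Ideal.Quotient.mk I x) ?_ ?_
    · rw [mem_nonZeroDivisors_iff_ne_zero]
      intro h
      exact hxI (Ideal.Quotient.eq_zero_iff_mem.mp h)
    · rw [Ideal.Quotient.factor_mk]
      exact Ideal.Quotient.eq_zero_iff_mem.mpr hx
  have h4 : (d : WithBot ℕ∞) + 1 ≤ d := (add_le_add_left h2 1).trans (h3.trans h1)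
  have h5 : ((d + 1 : ℕ) : WithBot ℕ∞) ≤ (d : ℕ) := by
    rw [Nat.cast_add, Nat.cast_one]; exact h4
  have h6 : d + 1 ≤ d := by
    exact_mod_cast h5
  omega

section Component

variable {S P M : Type*} [CommRing S] [IsDomain S] [CommRing P] [IsNoetherianRing P] [Algebra S P]
  [AddCommGroup M] [Module S M] [Module P M] [IsScalarTower S P M] [Module.Finite S M]

/-- **Component principle.** If the union of the components `V(I i)` contains the support of `M`
and the point `𝔭` of the support of `M` lies only on the component `V(I c)`, which is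
irreducible of dimension at most `dim S`, then `V(I c)` is contained in the support. -/
theorem annihilator_le_component (htf : ∀ (s : S) (m : M), s • m = 0 → s = 0 ∨ m = 0)
    {d : ℕ} (hd : (d : WithBot ℕ∞) ≤ ringKrullDim S)
    {ι : Type*} (t : Finset ι) (I : ι → Ideal P)
    (hcov : ∏ i ∈ t, I i ≤ Module.annihilator P M) {𝔭 : Ideal P} [h𝔭 : 𝔭.IsPrime]
    (h𝔭M : Module.annihilator P M ≤ 𝔭) {c : ι} (hc : (I c).IsPrime)
    (hdim : ringKrullDim (P ⧸ I c) ≤ d) (hother : ∀ i ∈ t, i ≠ c → ¬ I i ≤ 𝔭) :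
    Module.annihilator P M ≤ I c := by
  obtain ⟨𝔮, h𝔮, h𝔮𝔭⟩ := Ideal.exists_minimalPrimes_le h𝔭M
  have : 𝔮.IsPrime := h𝔮.1.1
  obtain ⟨i, hi, hi𝔮⟩ := (Ideal.IsPrime.prod_le h𝔮.1.1).mp (hcov.trans h𝔮.1.2)
  have hic : i = c := by
    by_contra hne
    exact hother i hi hne (hi𝔮.trans h𝔮𝔭)
  subst hic
  have := eq_of_le_of_ringKrullDim_le (hI := hc) hi𝔮 hdim
    (hd.trans (le_ringKrullDim_quotient htf h𝔮))
  rw [this]
  exact h𝔮.1.2

/-- A variant: the covering hypothesis in terms of primes. -/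
theorem annihilator_le_component' (htf : ∀ (s : S) (m : M), s • m = 0 → s = 0 ∨ m = 0)
    {d : ℕ} (hd : (d : WithBot ℕ∞) ≤ ringKrullDim S)
    {𝔭 : Ideal P} [h𝔭 : 𝔭.IsPrime] (h𝔭M : Module.annihilator P M ≤ 𝔭) {J : Ideal P}
    (hJ : J.IsPrime) (hdim : ringKrullDim (P ⧸ J) ≤ d)
    (hcov : ∀ 𝔮 : Ideal P, 𝔮.IsPrime → Module.annihilator P M ≤ 𝔮 → 𝔮 ≤ 𝔭 → J ≤ 𝔮) :
    Module.annihilator P M ≤ J := by
  obtain ⟨𝔮, h𝔮, h𝔮𝔭⟩ := Ideal.exists_minimalPrimes_le h𝔭M
  have hJ𝔮 := hcov 𝔮 h𝔮.1.1 h𝔮.1.2 h𝔮𝔭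
  have := eq_of_le_of_ringKrullDim_le (hI := hJ) hJ𝔮 hdim
    (hd.trans (le_ringKrullDim_quotient htf h𝔮))
  rw [this]
  exact h𝔮.1.2

omit [IsDomain S] in
/-- Specialisation of the support: points of the support of `M` on `V(𝔫)` are points of the
support of a quotient which contains `M/𝔫M`. -/
theorem annihilator_quotient_le (𝔫 : Ideal S) {𝔭 : Ideal P} [h𝔭 : 𝔭.IsPrime]
    (h𝔭M : Module.annihilator P M ≤ 𝔭) (h𝔫 : 𝔫.map (algebraMap S P) ≤ 𝔭) :
    Module.annihilator P (M ⧸ (𝔫.map (algebraMap S P) • ⊤ : Submodule P M)) ≤ 𝔭 := by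
  have : Module.Finite P M := finite_of_tower (S := S)
  have h1 : (⟨𝔭, h𝔭⟩ : PrimeSpectrum P) ∈
      Module.support P (M ⧸ (𝔫.map (algebraMap S P) • ⊤ : Submodule P M)) := by
    rw [Module.support_quotient]
    exact ⟨Module.mem_support_iff_of_finite.mpr h𝔭M, h𝔫⟩
  exact Module.mem_support_iff_of_finite.mp h1

omit [IsDomain S] [Algebra S P] [IsNoetherianRing P] in
/-- **Taylor's trick.** If `M₁/ϖ` and `M₂/ϖ` are isomorphic, the supports of `M₁` and `M₂` agree
on the special fibre. -/
theorem annihilator_le_iff_of_quotient_equiv {M₁ M₂ : Type*} [AddCommGroup M₁] [AddCommGroup M₂]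
    [Module P M₁] [Module P M₂] [Module.Finite P M₁] [Module.Finite P M₂] (J : Ideal P)
    (e : (M₁ ⧸ (J • ⊤ : Submodule P M₁)) ≃ₗ[P] (M₂ ⧸ (J • ⊤ : Submodule P M₂)))
    {𝔭 : Ideal P} [h𝔭 : 𝔭.IsPrime] (hJ : J ≤ 𝔭) :
    Module.annihilator P M₁ ≤ 𝔭 ↔ Module.annihilator P M₂ ≤ 𝔭 := by
  have key : ∀ (N : Type _) [AddCommGroup N] [Module P N] [Module.Finite P N],
      (Module.annihilator P N ≤ 𝔭 ↔ (⟨𝔭, h𝔭⟩ : PrimeSpectrum P) ∈
        Module.support P (N ⧸ (J • ⊤ : Submodule P N))) := by
    intro N _ _ _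
    rw [Module.support_quotient]
    constructor
    · intro h
      exact ⟨Module.mem_support_iff_of_finite.mpr h, hJ⟩
    · intro h
      exact Module.mem_support_iff_of_finite.mp h.1
  have key2 : ∀ (N : Type _) [AddCommGroup N] [Module P N] [Module.Finite P N],
      (Module.annihilator P N ≤ 𝔭 ↔ (⟨𝔭, h𝔭⟩ : PrimeSpectrum P) ∈
        Module.support P (N ⧸ (J • ⊤ : Submodule P N))) := by
    intro N _ _ _
    rw [Module.support_quotient]
    constructor
    · intro h
      exact ⟨Module.mem_support_iff_of_finite.mpr h, hJ⟩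
    · intro h
      exact Module.mem_support_iff_of_finite.mp h.1
  rw [key M₁, key2 M₂, e.support_eq]

/-- **Points on a component in the support.** A component `J` in the support of `M` contains
points above every point of `S`. -/
theorem exists_prime_over {J : Ideal P} [hJ : J.IsPrime]
    (hMJ : Module.annihilator P M ≤ J) (hJ0 : J.comap (algebraMap S P) = ⊥)
    (𝔫 : Ideal S) [h𝔫 : 𝔫.IsPrime] :
    ∃ 𝔭 : Ideal P, 𝔭.IsPrime ∧ J ≤ 𝔭 ∧ 𝔭.comap (algebraMap S P) = 𝔫 := by
  have : Algebra.IsIntegral S (P ⧸ J) := isIntegral_quotient (M := M) hMJ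
  obtain ⟨Q, hQ1, hQ2, hQ3⟩ := Ideal.exists_ideal_over_prime_of_isIntegral (S := P ⧸ J) 𝔫
    (⊥ : Ideal (P ⧸ J)) (by
      intro x hx
      rw [Ideal.mem_comap, Ideal.mem_bot, IsScalarTower.algebraMap_apply S P (P ⧸ J),
        Ideal.Quotient.algebraMap_eq, Ideal.Quotient.eq_zero_iff_mem] at hx
      have hx2 : x ∈ J.comap (algebraMap S P) := hx
      rw [hJ0, Ideal.mem_bot] at hx2
      rw [hx2]; exact Ideal.zero_mem _)
  refine ⟨Q.comap (Ideal.Quotient.mk J), Ideal.IsPrime.comap _, ?_, ?_⟩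
  · intro x hx
    rw [Ideal.mem_comap, Ideal.Quotient.eq_zero_iff_mem.mpr hx]
    exact Ideal.zero_mem _
  · rw [Ideal.comap_comap, ← hQ3]
    rfl

end Component

end Fermat.Agent.RT
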