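import Mathlib
import Fermat.Agent.RT.AL6

set_option autoImplicit false
set_option maxHeartbeats 400000
set_option linter.style.haveILetI false
set_option linter.unusedSectionVars false
set_option linter.unusedVariables false

/-!
# Conductors of characters of squarefree level
-/

noncomputable section

namespace Fermat.Agent.RT

open DirichletCharacter

lemma squarefree_coprime_div {N N₁ D₁ q : ℕ} (hN : N = N₁ * D₁) (hcop : N₁.Coprime D₁)
    (hsq : Squarefree D₁) (hq : q.Prime) (hqD : q ∣ D₁) : q.Coprime (N / q) := by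
  obtain ⟨c, rfl⟩ := hqD
  have h1 : N / q = N₁ * c := by
    rw [hN, ← mul_assoc, mul_comm N₁ q, mul_assoc, Nat.mul_div_cancel_left _ hq.pos]
  rw [h1]
  refine Nat.Coprime.mul_right ?_ ?_
  · exact (Nat.Coprime.coprime_mul_right_right hcop).symm
  · exact Nat.coprime_of_squarefree_mul hsq

/-- Units congruent to `1` modulo `N / q` with given residue modulo `q`. -/
lemma exists_unit_crt {N q : ℕ} [NeZero N] (hqN : q ∣ N) (hcop : q.Coprime (N / q)) (x : ℕ)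
    (hx : x.Coprime q) : ∃ u : (ZMod N)ˣ, ∃ y : ℕ, (u : ZMod N) = y ∧ y ≡ x [MOD q] ∧
      y ≡ 1 [MOD (N / q)] := by
  obtain ⟨y, hy1, hy2⟩ := Nat.chineseRemainder hcop x 1
  have h1 : y.Coprime q := by
    rw [Nat.Coprime, hy1.gcd_eq]; exact hx
  have h2 : y.Coprime (N / q) := by
    rw [Nat.Coprime, hy2.gcd_eq]; exact Nat.coprime_one_left _
  have h3 : y.Coprime N := by
    have := Nat.Coprime.mul_right h1 h2
    rwa [Nat.mul_div_cancel' hqN] at this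
  exact ⟨ZMod.unitOfCoprime y h3, y, rfl, hy1, hy2⟩

lemma changeLevel_intCast {n m : ℕ} (hm : n ∣ m) (χ : DirichletCharacter ℂ n) {x : ℤ}
    {u : (ZMod m)ˣ} (hu : (u : ZMod m) = x) : changeLevel hm χ u = χ (x : ZMod n) := by
  rw [changeLevel_eq_cast_of_dvd, hu, ZMod.cast_intCast hm]

lemma unitsMap_intCast {n m : ℕ} (hm : n ∣ m) {x : ℤ} {u : (ZMod m)ˣ} (hu : (u : ZMod m) = x) :
    ((ZMod.unitsMap hm u : (ZMod n)ˣ) : ZMod n) = x := by
  change ((u : ZMod m).cast : ZMod n) = x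
  rw [hu, ZMod.cast_intCast hm]

theorem exists_conductor_char {N N₁ D₁ : ℕ} [NeZero N] (hN : N = N₁ * D₁)
    (hcop : N₁.Coprime D₁) (hsq : Squarefree D₁) (hd₁ : D₁ ∣ N) (κ : (ZMod N)ˣ →* ℂˣ)
    (hκ : ∀ u : (ZMod N)ˣ, ZMod.unitsMap hd₁ u = 1 → κ u = 1)
    (hodd : ∀ u, ∃ m : ℕ, _root_.Odd m ∧ (κ u) ^ m = 1) :
    ∃ (D : ℕ) (ψ : DirichletCharacter ℂ D), D ∣ D₁ ∧
      (∀ (x : ℤ) (u : (ZMod N)ˣ), (u : ZMod N) = x → ψ (x : ZMod D) = κ u) ∧
      (∀ q : ℕ, q.Prime → q ∣ D → AL.NontrivAt D ψ q) ∧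
      ∀ (q : ℕ) (hq : q.Prime) (hqD : q ∣ D₁), (q ∣ D ↔ ∃ u : (ZMod N)ˣ,
        (∃ y : ℕ, (u : ZMod N) = y ∧ y ≡ 1 [MOD (N / q)]) ∧ κ u ≠ 1) := by
  have hD₁0 : D₁ ≠ 0 := fun h => NeZero.ne N (by rw [hN, h, mul_zero])
  haveI : NeZero D₁ := ⟨hD₁0⟩
  let χ : DirichletCharacter ℂ N := MulChar.ofUnitHom κ
  have hχ : ∀ u : (ZMod N)ˣ, χ u = κ u := fun u => MulChar.ofUnitHom_coe κ u
  have hfac : χ.FactorsThrough D₁ := by
    rw [factorsThrough_iff_ker_unitsMap hd₁]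
    intro u hu
    rw [MonoidHom.mem_ker] at hu ⊢
    apply Units.ext
    rw [MulChar.coe_toUnitHom, hχ, hκ u hu]
  obtain ⟨hd, χ₁, hχ₁⟩ := hfac
  obtain ⟨D, ψ, hDD₁, hψ, hprim⟩ : ∃ (D : ℕ) (ψ : DirichletCharacter ℂ D), ∃ h : D ∣ D₁,
      changeLevel h ψ = χ₁ ∧ ψ.IsPrimitive :=
    ⟨χ₁.conductor, χ₁.primitiveCharacter, conductor_dvd_level χ₁,
      changeLevel_primitiveCharacter χ₁, primitiveCharacter_isPrimitive χ₁⟩
  have hDN : D ∣ N := hDD₁.trans hd₁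
  haveI : NeZero D := ⟨fun h => hD₁0 (by rw [h] at hDD₁; exact zero_dvd_iff.mp hDD₁)⟩
  have hψκ : ∀ (x : ℤ) (u : (ZMod N)ˣ), (u : ZMod N) = x → ψ (x : ZMod D) = κ u := by
    intro x u hu
    rw [← hχ, hχ₁, changeLevel_intCast hd χ₁ hu, ← hψ]
    have h1 := unitsMap_intCast hd₁ hu
    rw [← h1, changeLevel_intCast hDD₁ ψ h1]
  -- lifting of units
  have hlift : ∀ v : (ZMod D)ˣ, ∃ u : (ZMod N)ˣ, ZMod.unitsMap hDN u = v := fun v =>
    ZMod.unitsMap_surjective hDN v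
  have hintu : ∀ u : (ZMod N)ˣ, (u : ZMod N) = ((u : ZMod N).val : ℤ) := by
    intro u
    rw [Int.cast_natCast, ZMod.natCast_zmod_val]
  have hval : ∀ u : (ZMod N)ˣ, ψ ((ZMod.unitsMap hDN u : (ZMod D)ˣ) : ZMod D) = κ u := by
    intro u
    rw [unitsMap_intCast hDN (hintu u), hψκ _ u (hintu u)]
  have hoddψ : ∀ v : (ZMod D)ˣ, ψ v ^ 2 = 1 → ψ v = 1 := by
    intro v hv
    obtain ⟨u, rfl⟩ := hlift v
    rw [hval] at hv ⊢
    obtain ⟨m, ⟨k, hk⟩, hm⟩ := hodd u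
    have h1 := congrArg (fun z : ℂˣ => (z : ℂ)) hm
    simp only [Units.val_pow_eq_pow_val, Units.val_one] at h1
    rw [hk, pow_succ, pow_mul, hv, one_pow, one_mul] at h1
    exact h1
  -- nontriviality
  have hnt : ∀ q : ℕ, q.Prime → ∀ hqD : q ∣ D, ∃ v : (ZMod D)ˣ,
      ZMod.unitsMap (Nat.div_dvd_of_dvd hqD : D / q ∣ D) v = 1 ∧ ψ v ≠ 1 := by
    intro q hq hqD
    by_contra hne
    push Not at hne
    have h1 : ψ.FactorsThrough (D / q) := by
      rw [factorsThrough_iff_ker_unitsMap (Nat.div_dvd_of_dvd hqD)]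
      intro v hv
      rw [MonoidHom.mem_ker] at hv ⊢
      apply Units.ext
      rw [MulChar.coe_toUnitHom, hne v hv, Units.val_one]
    have h2 : ψ.conductor ≤ D / q := Nat.sInf_le h1
    rw [hprim] at h2
    exact absurd h2 (not_le.mpr (Nat.div_lt_self (NeZero.pos D) hq.one_lt))
  have hnt' : ∀ q : ℕ, q.Prime → q ∣ D → ∃ x : ℕ, x ≡ 1 [MOD (D / q)] ∧ x.Coprime D ∧
      ψ (x : ZMod D) ≠ 1 ∧ ψ (x : ZMod D) ^ 2 ≠ 1 := by
    intro q hq hqD
    obtain ⟨v, hv1, hv2⟩ := hnt q hq hqD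
    have h0 : ((v : ZMod D).val : ZMod D) = v := ZMod.natCast_zmod_val _
    refine ⟨(v : ZMod D).val, ?_, ZMod.val_coe_unit_coprime v, by rw [h0]; exact hv2, ?_⟩
    · rw [← ZMod.natCast_eq_natCast_iff]
      have h1 := unitsMap_intCast (Nat.div_dvd_of_dvd hqD) (u := v)
        (x := ((v : ZMod D).val : ℤ)) (by rw [Int.cast_natCast, h0])
      rw [hv1, Units.val_one, Int.cast_natCast] at h1
      rw [← h1, Nat.cast_one]
    · rw [h0]
      exact fun h => hv2 (hoddψ v h)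
  refine ⟨D, ψ, hDD₁, hψκ, fun q hq hqD => ?_, fun q hq hqD₁ => ⟨fun hqD => ?_, ?_⟩⟩
  · obtain ⟨x, h1, h2, h3, h4⟩ := hnt' q hq hqD
    refine ⟨(x : ℤ), ?_, by rw [Int.cast_natCast]; exact h4, ?_⟩
    · have := (Nat.modEq_iff_dvd.mp h1.symm)
      exact_mod_cast this
    · intro h
      have h5 : q ∣ x := by exact_mod_cast h
      have h6 : q ∣ 1 := by
        rw [← h2]; exact Nat.dvd_gcd h5 hqD
      exact hq.one_lt.ne' (Nat.dvd_one.mp h6)
  · obtain ⟨x, h1, h2, h3, h4⟩ := hnt' q hq hqD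
    have hqN : q ∣ N := hqD₁.trans hd₁
    have hc := squarefree_coprime_div hN hcop hsq hq hqD₁
    obtain ⟨u, y, hu, hy1, hy2⟩ := exists_unit_crt hqN hc x
      (Nat.Coprime.coprime_dvd_right hqD h2)
    refine ⟨u, ⟨y, hu, hy2⟩, fun hκu => h3 ?_⟩
    have h5 := hψκ (y : ℤ) u (by rw [Int.cast_natCast, hu])
    rw [hκu, Units.val_one, Int.cast_natCast] at h5
    rw [← h5]
    congr 1
    rw [ZMod.natCast_eq_natCast_iff]
    have hDq : D = q * (D / q) := (Nat.mul_div_cancel' hqD).symm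
    have hcD : q.Coprime (D / q) := by
      refine Nat.Coprime.coprime_dvd_right ?_ hc
      exact Nat.div_dvd_div hqD hDN
    rw [hDq]
    refine (Nat.modEq_and_modEq_iff_modEq_mul hcD).mp ⟨hy1.symm, ?_⟩
    have h6 : y ≡ 1 [MOD (D / q)] := hy2.of_dvd (Nat.div_dvd_div hqD hDN)
    exact h1.trans h6.symm
  · rintro ⟨u, ⟨y, hu, hy⟩, hκu⟩
    by_contra hqD
    apply hκu
    apply Units.ext
    have h5 := hψκ (y : ℤ) u (by rw [Int.cast_natCast, hu])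
    rw [← h5, Units.val_one, Int.cast_natCast]
    have hqN : q ∣ N := hqD₁.trans hd₁
    have hDq : D ∣ N / q := by
      have h6 : D.Coprime q := ((Nat.Prime.coprime_iff_not_dvd hq).mpr hqD).symm
      have h7 : D * q ∣ N := Nat.Coprime.mul_dvd_of_dvd_of_dvd h6 hDN hqN
      exact Nat.dvd_div_of_mul_dvd (by rwa [mul_comm])
    have h8 : (y : ZMod D) = 1 := by
      have := (ZMod.natCast_eq_natCast_iff _ _ _).mpr (hy.of_dvd hDq)
      rwa [Nat.cast_one] at this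
    rw [h8, map_one]

end Fermat.Agent.RT
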