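import Fermat.Agent.RT.IharaDeep

set_option autoImplicit false

/-!
# Correspondences on homomorphisms from subgroups of `SL(2,ℤ)`

A homomorphism `c : G → A` (given as a function on `SL(2,ℤ)`, additive on `G`) has a *primitive*:
a function `s` on integral matrices of nonzero determinant with `s (g m) = c g + s m` for `g ∈ G`
and `s (n m) = s m` for `n > 0`. A finite family `D` of matrices such that the cosets `G₁ D_x` are
distinct and permuted by right multiplication by `G₂` defines an operator `Hom(G₁,A) → Hom(G₂,A)`,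
which is `s ↦ ∑ s (D_x ·)` on primitives.
-/

open Matrix CongruenceSubgroup
open scoped MatrixGroups

namespace Fermat.Agent.RT.Ihara

variable {A : Type*} [AddCommGroup A] {G G₁ G₂ G₃ : Subgroup SL(2, ℤ)}

/-- additivity on a subgroup -/
def AddOn (G : Subgroup SL(2, ℤ)) (c : SL(2, ℤ) → A) : Prop :=
  ∀ g ∈ G, ∀ h ∈ G, c (g * h) = c g + c h

theorem AddOn.one {c : SL(2, ℤ) → A} (H : AddOn G c) : c 1 = 0 := by
  have := H 1 (one_mem _) 1 (one_mem _)
  rw [mul_one] at this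
  simpa using this

theorem AddOn.inv {c : SL(2, ℤ) → A} (H : AddOn G c) {g : SL(2, ℤ)} (hg : g ∈ G) :
    c g⁻¹ = - c g := by
  have := H g hg g⁻¹ (inv_mem hg)
  rw [mul_inv_cancel, H.one] at this
  exact (neg_eq_of_add_eq_zero_right this.symm).symm

theorem AddOn.mono {c : SL(2, ℤ) → A} (H : AddOn G c) (h : G₁ ≤ G) : AddOn G₁ c :=
  fun g hg k hk => H g (h hg) k (h hk)

theorem AddOn.conj {c : SL(2, ℤ) → A} (H : AddOn G c) {g h : SL(2, ℤ)} (hg : g ∈ G)
    (hh : h ∈ G) : c (h * g * h⁻¹) = c g := by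
  rw [H _ (mul_mem hh hg) _ (inv_mem hh), H _ hh _ hg, H.inv hh]
  abel

theorem AddOn.pow {c : SL(2, ℤ) → A} (H : AddOn G c) {g : SL(2, ℤ)} (hg : g ∈ G) (n : ℕ) :
    c (g ^ n) = n • c g := by
  induction n with
  | zero => rw [pow_zero, H.one, zero_smul]
  | succ n ih => rw [pow_succ, H _ (pow_mem hg n) _ hg, ih, succ_nsmul]

theorem AddOn.zpow {c : SL(2, ℤ) → A} (H : AddOn G c) {g : SL(2, ℤ)} (hg : g ∈ G) (n : ℤ) :
    c (g ^ n) = n • c g := by
  rcases n with n | n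
  · rw [Int.ofNat_eq_natCast, zpow_natCast, H.pow hg, natCast_zsmul]
  · rw [zpow_negSucc, H.inv (pow_mem hg _), H.pow hg, Int.negSucc_eq, neg_smul]
    norm_cast

/-- the equivalence relation `m' ∈ ℚ_{>0} G m` -/
def relG (G : Subgroup SL(2, ℤ)) (m m' : Mat) : Prop :=
  ∃ n n' : ℤ, 0 < n ∧ 0 < n' ∧ ∃ g ∈ G, n • ((g : Mat) * m) = n' • m'

theorem relG.equiv (G : Subgroup SL(2, ℤ)) : Equivalence (relG G) where
  refl m := ⟨1, 1, one_pos, one_pos, 1, one_mem _, by simp⟩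
  symm := by
    rintro m m' ⟨n, n', hn, hn', g, hg, h⟩
    refine ⟨n', n, hn', hn, g⁻¹, inv_mem hg, ?_⟩
    have h1 : ((g⁻¹ : SL(2, ℤ)) : Mat) * (g : Mat) = 1 := by
      rw [← sl_coe_mul, inv_mul_cancel]; rfl
    rw [← Matrix.mul_smul, ← h, Matrix.mul_smul, ← mul_assoc, h1, one_mul]
  trans := by
    rintro m m' m'' ⟨n, n', hn, hn', g, hg, h⟩ ⟨k, k', hk, hk', g', hg', h'⟩
    refine ⟨k * n, n' * k', by positivity, by positivity, g' * g, mul_mem hg' hg, ?_⟩
    rw [sl_coe_mul, mul_smul, mul_assoc, ← Matrix.mul_smul (g' : Mat) n, h, Matrix.mul_smul,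
      smul_comm, h', smul_smul]

/-- the setoid of `relG` -/
def setG (G : Subgroup SL(2, ℤ)) : Setoid Mat := ⟨relG G, relG.equiv G⟩

/-- a representative of the orbit -/
noncomputable def repG (G : Subgroup SL(2, ℤ)) (m : Mat) : Mat :=
  (Quotient.mk (setG G) m).out

theorem repG_rel (G : Subgroup SL(2, ℤ)) (m : Mat) : relG G (repG G m) m :=
  Quotient.exact (s := setG G) (Quotient.out_eq (Quotient.mk (setG G) m))

theorem repG_eq {m m' : Mat} (h : relG G m m') : repG G m = repG G m' := by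
  have : (Quotient.mk (setG G) m) = Quotient.mk (setG G) m' := Quotient.sound (s := setG G) h
  rw [repG, this, repG]

/-- the element of `G` which maps the representative to (a multiple of) `m` -/
noncomputable def gsel (G : Subgroup SL(2, ℤ)) (m : Mat) : SL(2, ℤ) :=
  (repG_rel G m).choose_spec.choose_spec.2.2.choose

theorem gsel_spec (G : Subgroup SL(2, ℤ)) (m : Mat) : gsel G m ∈ G ∧
    ∃ n n' : ℤ, 0 < n ∧ 0 < n' ∧ n • ((gsel G m : Mat) * repG G m) = n' • m :=
  ⟨(repG_rel G m).choose_spec.choose_spec.2.2.choose_spec.1, _, _,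
    (repG_rel G m).choose_spec.choose_spec.1, (repG_rel G m).choose_spec.choose_spec.2.1,
    (repG_rel G m).choose_spec.choose_spec.2.2.choose_spec.2⟩

theorem smul_det (n : ℤ) (m : Mat) : (n • m).det = n ^ 2 * m.det := by
  rw [Matrix.det_smul]; simp

theorem rel_unique {g g' : SL(2, ℤ)} {r m : Mat} (hm : m.det ≠ 0) {n n' k k' : ℤ} (hn : 0 < n)
    (hn' : 0 < n') (hk : 0 < k) (hk' : 0 < k') (h : n • ((g : Mat) * r) = n' • m)
    (h' : k • ((g' : Mat) * r) = k' • m) : g = g' := by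
  have e1 : (k' * n) • ((g : Mat) * r) = (n' * k) • ((g' : Mat) * r) := by
    rw [mul_smul, mul_smul, h, h', smul_comm]
  have hr : r.det ≠ 0 := by
    intro h0
    have := congrArg Matrix.det h
    rw [smul_det, smul_det, Matrix.det_mul, h0, mul_zero, mul_zero] at this
    have h2 := mul_ne_zero (pow_ne_zero 2 hn'.ne') hm
    exact h2 this.symm
  have e2 := congrArg Matrix.det e1
  rw [smul_det, smul_det, Matrix.det_mul, Matrix.det_mul, g.det_coe, g'.det_coe] at e2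
  have e3 : (k' * n) ^ 2 = (n' * k) ^ 2 := mul_right_cancel₀ (by simpa using hr) e2
  have e4 : k' * n = n' * k := by
    have h1 : 0 < k' * n := by positivity
    have h2 : 0 < n' * k := by positivity
    exact (pow_left_inj₀ h1.le h2.le two_ne_zero).mp e3
  rw [e4] at e1
  have e5 := smul_cancel (by positivity : n' * k ≠ 0) e1
  have e6 := mat_cancel_right hr e5
  exact Subtype.ext e6

/-- the canonical primitive -/
noncomputable def prim (G : Subgroup SL(2, ℤ)) (c : SL(2, ℤ) → A) (m : Mat) : A := c (gsel G m)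

/-- primitives -/
structure IsPrim (G : Subgroup SL(2, ℤ)) (c : SL(2, ℤ) → A) (s : Mat → A) : Prop where
  mul : ∀ g ∈ G, ∀ m : Mat, m.det ≠ 0 → s ((g : Mat) * m) = c g + s m
  scal : ∀ n : ℤ, 0 < n → ∀ m : Mat, m.det ≠ 0 → s (n • m) = s m

theorem isPrim_prim {c : SL(2, ℤ) → A} (H : AddOn G c) : IsPrim G c (prim G c) where
  mul := by
    intro g hg m hm
    obtain ⟨hs, n, n', hn, hn', e⟩ := gsel_spec G m
    obtain ⟨hs', k, k', hk, hk', e'⟩ := gsel_spec G ((g : Mat) * m)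
    have hr : repG G m = repG G ((g : Mat) * m) :=
      repG_eq ⟨1, 1, one_pos, one_pos, g, hg, by simp⟩
    have e2 : n • (((g * gsel G m : SL(2, ℤ)) : Mat) * repG G ((g : Mat) * m)) =
        n' • ((g : Mat) * m) := by
      rw [← hr, sl_coe_mul, mul_assoc, ← Matrix.mul_smul, e, Matrix.mul_smul]
    have hm' : ((g : Mat) * m).det ≠ 0 := by rw [Matrix.det_mul, g.det_coe, one_mul]; exact hm
    have e3 := rel_unique hm' hk hk' hn hn' e' e2
    rw [prim, e3, H _ hg _ hs, prim]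
  scal := by
    intro d hd m hm
    obtain ⟨hs, n, n', hn, hn', e⟩ := gsel_spec G m
    obtain ⟨hs', k, k', hk, hk', e'⟩ := gsel_spec G (d • m)
    have hr : repG G m = repG G (d • m) := repG_eq ⟨d, 1, hd, one_pos, 1, one_mem _, by simp⟩
    rw [← hr, smul_smul] at e'
    have e3 := rel_unique hm hk (by positivity : 0 < k' * d) hn hn' e' e
    rw [prim, e3, prim]

theorem IsPrim.addOn {c : SL(2, ℤ) → A} {s : Mat → A} (H : IsPrim G c s) : AddOn G c := by
  intro g hg h hh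
  have e1 := H.mul (g * h) (mul_mem hg hh) 1 (by simp)
  have e2 := H.mul g hg ((h : Mat) * 1) (by simp)
  have e3 := H.mul h hh 1 (by simp)
  rw [sl_coe_mul, mul_assoc, e2, e3, ← add_assoc] at e1
  exact (add_right_cancel e1).symm

theorem IsPrim.val {c : SL(2, ℤ) → A} {s : Mat → A} (H : IsPrim G c s) {g : SL(2, ℤ)}
    (hg : g ∈ G) : c g = s (g : Mat) - s 1 := by
  have := H.mul g hg 1 (by simp)
  rw [mul_one] at this
  rw [this]; abel

theorem IsPrim.add {c c' : SL(2, ℤ) → A} {s s' : Mat → A} (H : IsPrim G c s)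
    (H' : IsPrim G c' s') : IsPrim G (c + c') (s + s') where
  mul := by
    intro g hg m hm
    simp only [Pi.add_apply]
    rw [H.mul g hg m hm, H'.mul g hg m hm]
    abel
  scal := by
    intro n hn m hm
    simp only [Pi.add_apply]
    rw [H.scal n hn m hm, H'.scal n hn m hm]

theorem IsPrim.mono {c : SL(2, ℤ) → A} {s : Mat → A} (H : IsPrim G c s) (h : G₁ ≤ G) :
    IsPrim G₁ c s := ⟨fun g hg => H.mul g (h hg), H.scal⟩

/-- a family of matrices defining a correspondence -/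
structure Corr (G₁ G₂ : Subgroup SL(2, ℤ)) {ι : Type*} (D : ι → Mat) : Prop where
  det : ∀ x, (D x).det ≠ 0
  act : ∀ x, ∀ g ∈ G₂, ∃ y, ∃ g' ∈ G₁, D x * (g : Mat) = (g' : Mat) * D y
  inj : ∀ x y, ∀ g ∈ G₁, D x = (g : Mat) * D y → x = y

variable {ι κ : Type*} [Fintype ι] [Fintype κ]

/-- the operator of a correspondence -/
noncomputable def opc (G₁ : Subgroup SL(2, ℤ)) (D : ι → Mat) (c : SL(2, ℤ) → A)
    (g : SL(2, ℤ)) : A := ∑ x, (prim G₁ c (D x * (g : Mat)) - prim G₁ c (D x))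

theorem opc_add (D : ι → Mat) (c c' : SL(2, ℤ) → A) :
    opc G₁ D (c + c') = opc G₁ D c + opc G₁ D c' := by
  ext g
  simp only [opc, prim, Pi.add_apply, ← Finset.sum_add_distrib]
  exact Finset.sum_congr rfl fun x _ => by abel

theorem opc_smul {R : Type*} [Ring R] [Module R A] (D : ι → Mat) (r : R) (c : SL(2, ℤ) → A) :
    opc G₁ D (r • c) = r • opc G₁ D c := by
  ext g
  simp only [opc, prim, Pi.smul_apply, Finset.smul_sum, smul_sub]

theorem opc_map {A' : Type*} [AddCommGroup A'] (f : A →+ A') (D : ι → Mat) (c : SL(2, ℤ) → A)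
    (g : SL(2, ℤ)) : opc G₁ D (fun h => f (c h)) g = f (opc G₁ D c g) := by
  simp only [opc, prim, map_sum, map_sub]

/-- the action as a permutation -/
theorem Corr.exists_perm {D : ι → Mat} (H : Corr G₁ G₂ D) {g : SL(2, ℤ)} (hg : g ∈ G₂) :
    ∃ (σ : Equiv.Perm ι) (γ : ι → SL(2, ℤ)), (∀ x, γ x ∈ G₁) ∧
      ∀ x, D x * (g : Mat) = (γ x : Mat) * D (σ x) := by
  choose σ γ hγ e using fun x => H.act x g hg
  have hσ : Function.Injective σ := by
    intro x y hxy
    have e1 := e x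
    have e2 := e y
    rw [hxy] at e1
    refine H.inj x y (γ x * (γ y)⁻¹) (mul_mem (hγ x) (inv_mem (hγ y))) ?_
    have hgd : (g : Mat).det ≠ 0 := by rw [g.det_coe]; norm_num
    refine mat_cancel_right hgd ?_
    rw [e1, mul_assoc, e2, ← mul_assoc, ← sl_coe_mul]
    congr 2
    group
  exact ⟨Equiv.ofBijective σ (Finite.injective_iff_bijective.mp hσ), γ, hγ, e⟩

theorem sum_prim_mul {D : ι → Mat} (hD : ∀ x, (D x).det ≠ 0) {c : SL(2, ℤ) → A} {s : Mat → A}
    (hs : IsPrim G₁ c s) {g m : Mat} (hm : m.det ≠ 0) {σ : Equiv.Perm ι}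
    {γ : ι → SL(2, ℤ)} (hγ : ∀ x, γ x ∈ G₁) (e : ∀ x, D x * g = (γ x : Mat) * D (σ x)) :
    ∑ x, s (D x * (g * m)) = ∑ x, c (γ x) + ∑ x, s (D x * m) := by
  have h1 : ∀ x, s (D x * (g * m)) = c (γ x) + s (D (σ x) * m) := by
    intro x
    rw [← mul_assoc, e, mul_assoc, hs.mul _ (hγ x)]
    rw [Matrix.det_mul]
    exact mul_ne_zero (hD _) hm
  rw [Finset.sum_congr rfl fun x _ => h1 x, Finset.sum_add_distrib]
  congr 1
  exact Equiv.sum_comp σ fun x => s (D x * m)

/-- evaluation of the operator with an arbitrary primitive -/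
theorem Corr.opc_eq_prim {D : ι → Mat} (H : Corr G₁ G₂ D) {c : SL(2, ℤ) → A} {s : Mat → A}
    (hs : IsPrim G₁ c s) {g : SL(2, ℤ)} (hg : g ∈ G₂) :
    opc G₁ D c g = ∑ x, (s (D x * (g : Mat)) - s (D x)) := by
  obtain ⟨σ, γ, hγ, e⟩ := H.exists_perm hg
  have h1 := sum_prim_mul H.det hs (m := 1) (by simp) hγ e
  have h2 := sum_prim_mul H.det (isPrim_prim hs.addOn) (m := 1) (by simp) hγ e
  simp only [mul_one] at h1 h2
  rw [opc, Finset.sum_sub_distrib, Finset.sum_sub_distrib, h1, h2]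
  abel

/-- evaluation of the operator -/
theorem Corr.opc_eq {D : ι → Mat} (H : Corr G₁ G₂ D) {c : SL(2, ℤ) → A} (hc : AddOn G₁ c)
    {g : SL(2, ℤ)} (hg : g ∈ G₂) {γ : ι → SL(2, ℤ)} {σ : ι → ι} (hγ : ∀ x, γ x ∈ G₁)
    (e : ∀ x, D x * (g : Mat) = (γ x : Mat) * D (σ x)) : opc G₁ D c g = ∑ x, c (γ x) := by
  obtain ⟨σ', γ', hγ', e'⟩ := H.exists_perm hg
  have hu : ∀ x, σ x = σ' x := by
    intro x
    have h1 : D (σ x) = (((γ x)⁻¹ * γ' x : SL(2, ℤ)) : Mat) * D (σ' x) := by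
      have h2 : ((γ x)⁻¹ : SL(2, ℤ)) * γ x = 1 := inv_mul_cancel _
      rw [sl_coe_mul, mul_assoc, ← e', e, ← mul_assoc, ← sl_coe_mul, h2]
      exact (one_mul _).symm
    exact H.inj _ _ _ (mul_mem (inv_mem (hγ x)) (hγ' x)) h1
  have h1 := sum_prim_mul H.det (isPrim_prim hc) (m := 1) (by simp) hγ
    (fun x => by rw [← hu x]; exact e x)
  simp only [mul_one] at h1
  rw [opc, Finset.sum_sub_distrib, h1]
  abel

/-- the primitive of the image -/
theorem Corr.isPrim {D : ι → Mat} (H : Corr G₁ G₂ D) {c : SL(2, ℤ) → A} {s : Mat → A}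
    (hs : IsPrim G₁ c s) : IsPrim G₂ (opc G₁ D c) (fun m => ∑ x, s (D x * m)) where
  mul := by
    intro g hg m hm
    obtain ⟨σ, γ, hγ, e⟩ := H.exists_perm hg
    have h1 := sum_prim_mul H.det hs hm hγ e
    rw [h1]
    have h2 := sum_prim_mul H.det hs (m := 1) (by simp) hγ e
    simp only [mul_one] at h2
    rw [H.opc_eq_prim hs hg, Finset.sum_sub_distrib, h2]
    abel
  scal := by
    intro n hn m hm
    refine Finset.sum_congr rfl fun x _ => ?_
    rw [Matrix.mul_smul, hs.scal n hn]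
    rw [Matrix.det_mul]
    exact mul_ne_zero (H.det _) hm

theorem Corr.addOn {D : ι → Mat} (H : Corr G₁ G₂ D) {c : SL(2, ℤ) → A} (hc : AddOn G₁ c) :
    AddOn G₂ (opc G₁ D c) := (H.isPrim (isPrim_prim hc)).addOn

theorem Corr.opc_congr {D : ι → Mat} (H : Corr G₁ G₂ D) {c c' : SL(2, ℤ) → A}
    (hc : AddOn G₁ c) (hcc : ∀ g ∈ G₁, c g = c' g) {g : SL(2, ℤ)} (hg : g ∈ G₂) :
    opc G₁ D c g = opc G₁ D c' g := by
  refine Finset.sum_congr rfl fun x _ => ?_
  rw [prim, prim, prim, prim, hcc _ (gsel_spec _ _).1, hcc _ (gsel_spec _ _).1]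

/-- composition of correspondences, in terms of primitives -/
theorem Corr.opc_comp {D : ι → Mat} {D' : κ → Mat} (H : Corr G₁ G₂ D) (H' : Corr G₂ G₃ D')
    {c : SL(2, ℤ) → A} {s : Mat → A} (hs : IsPrim G₁ c s) {g : SL(2, ℤ)} (hg : g ∈ G₃) :
    opc G₂ D' (opc G₁ D c) g =
      ∑ y, ∑ x, s (D x * (D' y * (g : Mat))) - ∑ y, ∑ x, s (D x * D' y) := by
  rw [H'.opc_eq_prim (H.isPrim hs) hg, Finset.sum_sub_distrib]

/-- comparison of two families -/
theorem sum_prim_comm {D : ι → Mat} {E : κ → Mat} (hD : ∀ x, (D x).det ≠ 0)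
    (hE : ∀ x, (E x).det ≠ 0) {c : SL(2, ℤ) → A} {s : Mat → A}
    (hs : IsPrim G₁ c s) (f : ι ≃ κ) (h : ∀ x, relG G₁ (E (f x)) (D x)) {m : Mat}
    (hm : m.det ≠ 0) :
    ∑ x, s (D x * m) - ∑ x, s (D x) = ∑ y, s (E y * m) - ∑ y, s (E y) := by
  rw [← Equiv.sum_comp f (fun y => s (E y * m)), ← Equiv.sum_comp f (fun y => s (E y)),
    ← Finset.sum_sub_distrib, ← Finset.sum_sub_distrib]
  refine Finset.sum_congr rfl fun x _ => ?_
  obtain ⟨n, n', hn, hn', g, hg, e⟩ := h x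
  have key : ∀ m : Mat, m.det ≠ 0 → s (D x * m) = c g + s (E (f x) * m) := by
    intro m hm
    have h1 : (D x * m).det ≠ 0 := by
      rw [Matrix.det_mul]; exact mul_ne_zero (hD _) hm
    have h2 : (E (f x) * m).det ≠ 0 := by
      rw [Matrix.det_mul]; exact mul_ne_zero (hE _) hm
    rw [← hs.scal n' hn' _ h1, ← Matrix.smul_mul, ← e, Matrix.smul_mul, mul_assoc,
      hs.scal n hn, hs.mul g hg _ h2]
    rw [Matrix.det_mul, g.det_coe, one_mul]
    exact h2
  have k1 := key m hm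
  have k2 := key 1 (by simp)
  simp only [mul_one] at k2
  rw [k1, k2]
  abel

theorem opc_eq_of_equiv {D : ι → Mat} {E : κ → Mat} (H : Corr G₁ G₂ D) (H' : Corr G₁ G₂ E)
    {c : SL(2, ℤ) → A} (hc : AddOn G₁ c) (f : ι ≃ κ)
    (h : ∀ x, relG G₁ (E (f x)) (D x)) {g : SL(2, ℤ)} (hg : g ∈ G₂) :
    opc G₁ D c g = opc G₁ E c g := by
  have hs := isPrim_prim hc
  rw [H.opc_eq_prim hs hg, H'.opc_eq_prim hs hg, Finset.sum_sub_distrib, Finset.sum_sub_distrib]
  exact sum_prim_comm H.det H'.det hs f h (by rw [g.det_coe]; norm_num)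

end Fermat.Agent.RT.Ihara
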