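import Fermat.Agent.RT.CFam

set_option autoImplicit false

/-!
# Degeneracy maps and transfers between level `N` and level `N q`: relations with Hecke operators
-/

open Matrix CongruenceSubgroup
open scoped MatrixGroups

namespace Fermat.Agent.RT.Ihara

variable {G : Subgroup SL(2, ℤ)} {N q n : ℕ}
variable {O A : Type*} [CommRing O] [AddCommGroup A] [Module O A]

theorem Gq_le : Gq G q ≤ G := inf_le_left

theorem le_Gq (h1 : Gamma1 N ≤ G) : Gamma1 (N * q) ≤ Gq G q := by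
  intro g hg
  rw [Gamma1_mem] at hg
  obtain ⟨h00, h11, h10⟩ := hg
  have c := fun a : ℤ => ZMod.intCast_zmod_eq_zero_iff_dvd a (N * q)
  have c' := fun a : ℤ => ZMod.intCast_zmod_eq_zero_iff_dvd a N
  have d00 : ((N * q : ℕ) : ℤ) ∣ g 0 0 - 1 := (c _).mp (by push_cast; rw [h00, sub_self])
  have d11 : ((N * q : ℕ) : ℤ) ∣ g 1 1 - 1 := (c _).mp (by push_cast; rw [h11, sub_self])
  have d10 : ((N * q : ℕ) : ℤ) ∣ g 1 0 := (c _).mp h10
  push_cast at d00 d11 d10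
  rw [mem_Gq]
  refine ⟨h1 ?_, (dvd_mul_left (q : ℤ) N).trans d10⟩
  rw [Gamma1_mem]
  refine ⟨?_, ?_, (c' _).mpr ((dvd_mul_right (N : ℤ) q).trans d10)⟩
  · have := (c' _).mpr ((dvd_mul_right (N : ℤ) q).trans d00)
    push_cast at this
    exact sub_eq_zero.mp this
  · have := (c' _).mpr ((dvd_mul_right (N : ℤ) q).trans d11)
    push_cast at this
    exact sub_eq_zero.mp this

theorem Gq_le_Gamma0 (h0 : G ≤ Gamma0 N) (hqN : IsCoprime (N : ℤ) (q : ℤ)) :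
    Gq G q ≤ Gamma0 (N * q) := by
  intro g hg
  rw [mem_Gq] at hg
  rw [mem_G0]
  push_cast
  exact hqN.mul_dvd (mem_G0.mp (h0 hg.1)) hg.2

theorem Gq_Gamma0 (hqN : IsCoprime (N : ℤ) (q : ℤ)) : Gq (Gamma0 N) q = Gamma0 (N * q) := by
  refine le_antisymm (Gq_le_Gamma0 le_rfl hqN) fun g hg => ?_
  rw [mem_G0] at hg
  push_cast at hg
  rw [mem_Gq, mem_G0]
  exact ⟨(dvd_mul_right (N : ℤ) q).trans hg, (dvd_mul_left (q : ℤ) N).trans hg⟩

section

variable (h1 : Gamma1 N ≤ G) (h0 : G ≤ Gamma0 N) (hq : q.Prime) (hqN : IsCoprime (N : ℤ) (q : ℤ))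

include h1 h0 hq hqN in
theorem corr_B : Corr G (Gq G q) (fun _ : Unit => dlt q) where
  det _ := by rw [dlt_det]; exact_mod_cast hq.ne_zero
  act _ g hg := by
    obtain ⟨g', hg', hd⟩ := exists_del_Gq h1 h0 hqN hg
    exact ⟨(), g', hg', hd.dlt⟩
  inj _ _ _ _ _ := rfl

/-- the second degeneracy map -/
noncomputable def degB : H1 O A G →ₗ[O] H1 O A (Gq G q) := opH (corr_B h1 h0 hq hqN)

/-- the transfer -/
noncomputable def tr1 : H1 O A (Gq G q) →ₗ[O] H1 O A G := opH (corr_D1 h1 hq hqN)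

/-- the second transfer -/
noncomputable def tr2 : H1 O A (Gq G q) →ₗ[O] H1 O A G := opH (corr_D2 h1 h0 hq hqN)

theorem degB_apply (c : H1 O A G) {g g' : SL(2, ℤ)} (hg : g ∈ Gq G q) (hg' : g' ∈ G)
    (hd : Del q g g') : (degB h1 h0 hq hqN c).1 ⟨g, hg⟩ = c.1 ⟨g', hg'⟩ := by
  rw [degB, opH_apply, (corr_B h1 h0 hq hqN).opc_eq (addOn_ex c) hg (γ := fun _ => g') (σ := id)
    (fun _ => hg') (fun _ => hd.dlt), Fintype.sum_unique, ex_apply _ hg']

/-! ### Exchange relations -/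

variable {ι : Type*} {P : ι → Mat}

include h1 h0 hqN in
theorem exch_B (F' : CFam (N * q) n P) (hnq : IsCoprime (n : ℤ) (q : ℤ)) (x : ι) :
    ∃ x', ∃ g ∈ G, P x * dlt q = (g : Mat) * (dlt q * P x') := by
  obtain ⟨k, hk⟩ := (F'.gmat x).d10
  obtain ⟨m, hm⟩ := (F'.gmat x).d00
  have hdet := F'.det x
  rw [Matrix.det_fin_two] at hdet
  push_cast at hk hm
  -- `d` is prime to `q`
  have hd : IsCoprime (P x 1 1) (q : ℤ) := by
    have h2 : IsCoprime (P x 0 0 * P x 1 1 - P x 0 1 * P x 1 0) (q : ℤ) := by rw [hdet]; exact hnq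
    obtain ⟨u, v, huv⟩ := h2
    refine ⟨u * P x 0 0, v - u * P x 0 1 * N * k, ?_⟩
    rw [hk] at huv
    linear_combination huv
  obtain ⟨u, v, huv⟩ := hd
  set s : ℤ := -P x 0 1 * u with hs
  have hsq : P x 0 1 + s * P x 1 1 = q * (P x 0 1 * v) := by
    rw [hs]; linear_combination (-P x 0 1) * huv
  set M : Mat := !![P x 0 0 + s * P x 1 0, P x 0 1 * v; q * P x 1 0, P x 1 1] with hM
  have hMd : M.det = n := by
    rw [hM, Matrix.det_fin_two_of]
    linear_combination hdet + P x 1 0 * hsq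
  have hMg : GMat (N * q) M := by
    constructor
    · change _ ∣ q * P x 1 0
      rw [hk]; push_cast; exact ⟨q * k, by ring⟩
    · change _ ∣ P x 0 0 + s * P x 1 0 - 1
      rw [hk]; push_cast; exact ⟨m + s * k, by linear_combination hm⟩
  obtain ⟨x', h, e⟩ := F'.surj M hMg hMd
  have hh : h ∈ Gq G q := le_Gq h1 (gmat_mem_Gamma1 hMg (F'.gmat x') e)
  obtain ⟨h', hh', hdel⟩ := exists_del_Gq h1 h0 hqN hh
  refine ⟨x', up (-s) * h', mul_mem (h1 (up_mem N _)) hh', ?_⟩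
  rw [sl_coe_mul, mul_assoc, ← mul_assoc (h' : Mat), ← hdel.dlt, mul_assoc, ← e]
  ext i j
  fin_cases i <;> fin_cases j <;>
    simp [dlt, hM, up, sl, Matrix.mul_apply, Fin.sum_univ_two]
  · ring
  · linear_combination hsq
  · ring

include h1 h0 hq hqN in
theorem exch_D1 (F : CFam N n P) (x : ι) (i : Option (Fin q)) :
    ∃ i' x', ∃ g ∈ Gq G q, P x * D1 N q i = (g : Mat) * (D1 N q i' * P x') := by
  have hr := rr1_mem (N := N) (q := q) h1 i
  obtain ⟨x', g', hg', e⟩ := F.exists_act x (h0 hr)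
  obtain ⟨i', g, hg, e'⟩ := exists_D1 h1 hq hqN (mul_mem hr (h1 hg'))
  refine ⟨i', x', g, hg, ?_⟩
  rw [D1, e, e', D1, sl_coe_mul, mul_assoc]

theorem prime_entry (F' : CFam (N * q) n P) (hnq : IsCoprime (n : ℤ) (q : ℤ)) (x : ι) :
    IsCoprime (P x 1 1) (q : ℤ) := by
  obtain ⟨k, hk⟩ := (F'.gmat x).d10
  have hdet := F'.det x
  rw [Matrix.det_fin_two] at hdet
  push_cast at hk
  have h2 : IsCoprime (P x 0 0 * P x 1 1 - P x 0 1 * P x 1 0) (q : ℤ) := by rw [hdet]; exact hnq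
  obtain ⟨u, v, huv⟩ := h2
  refine ⟨u * P x 0 0, v - u * P x 0 1 * N * k, ?_⟩
  rw [hk] at huv
  linear_combination huv

include hq hqN in
theorem inj_D1 (F' : CFam (N * q) n P) (hnq : IsCoprime (n : ℤ) (q : ℤ)) {x x' : ι}
    {i i' : Option (Fin q)} {g : SL(2, ℤ)} (hg : g ∈ Gq G q)
    (e : P x * D1 N q i = (g : Mat) * (P x' * D1 N q i')) : x = x' ∧ i = i' := by
  have h2 : (rr1 N q i' : Mat) * (((rr1 N q i')⁻¹ : SL(2, ℤ)) : Mat) = 1 := by
    rw [← sl_coe_mul, mul_inv_cancel]; rfl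
  have e2 : P x * ((rr1 N q i * (rr1 N q i')⁻¹ : SL(2, ℤ)) : Mat) = (g : Mat) * P x' := by
    rw [sl_coe_mul, ← mul_assoc]
    change P x * D1 N q i * _ = _
    rw [e, D1, mul_assoc, mul_assoc, h2, mul_one]
  have h3 := congrFun (congrFun e2 1) 0
  simp only [Matrix.mul_apply, Fin.sum_univ_two] at h3
  obtain ⟨k, hk⟩ := (F'.gmat x).d10
  obtain ⟨k', hk'⟩ := (F'.gmat x').d10
  obtain ⟨m, hm⟩ := (mem_Gq.mp hg).2
  push_cast at hk hk'
  have h4 : (q : ℤ) ∣ P x 1 1 * (rr1 N q i * (rr1 N q i')⁻¹) 1 0 := by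
    refine ⟨m * P x' 0 0 + g 1 1 * N * k' - N * k * (rr1 N q i * (rr1 N q i')⁻¹) 0 0, ?_⟩
    rw [hk, hk', hm] at h3
    linear_combination h3
  have h5 := (prime_entry F' hnq x).symm.dvd_of_dvd_mul_left h4
  have h6 := rr1_unique hq hqN h5
  subst h6
  refine ⟨F'.inj x x' g ?_, rfl⟩
  rw [mul_inv_cancel] at e2
  rw [← e2]; exact (mul_one _).symm

include h1 h0 hq hqN in
theorem exch_D2 (F : CFam N n P) (F' : CFam (N * q) n P) (x : ι) (i : Option (Fin q)) :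
    ∃ i' x', ∃ g ∈ Gq G q, P x * D2 N q i = (g : Mat) * (D2 N q i' * P x') := by
  obtain ⟨k, hk⟩ := (F'.gmat x).d10
  obtain ⟨m, hm⟩ := (F.gmat x).d00
  have hdet := F'.det x
  rw [Matrix.det_fin_two] at hdet
  push_cast at hk
  set M : Mat := !![P x 0 0, q * P x 0 1; N * k, P x 1 1] with hM
  have hMd : M.det = n := by
    rw [hM, Matrix.det_fin_two_of]
    rw [hk] at hdet
    linear_combination hdet
  have hMg : GMat N M := ⟨dvd_mul_right _ _, ⟨m, hm⟩⟩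
  obtain ⟨y, h, e⟩ := F.surj M hMg hMd
  have hh : h ∈ G := h1 (gmat_mem_Gamma1 hMg (F.gmat y) e)
  have hr := rr2_mem (N := N) (q := q) h1 i
  obtain ⟨x', g', hg', e'⟩ := F.exists_act y (h0 hr)
  obtain ⟨i', g'', hg'', hq'', e''⟩ := exists_D2 h1 hq hqN (mul_mem hh (mul_mem hr (h1 hg')))
  obtain ⟨g, hg, hdel⟩ := exists_del' h1 h0 hg'' hq''
  refine ⟨i', x', g, hg, ?_⟩
  have hPd : P x * dlt' q = dlt' q * M := by
    ext i j
    fin_cases i <;> fin_cases j <;>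
      simp [dlt', hM, Matrix.mul_apply, Fin.sum_univ_two]
    · ring
    · rw [hk]; ring
    · ring
  rw [D2, ← mul_assoc, hPd, e, mul_assoc, mul_assoc (h : Mat), e', ← mul_assoc (h : Mat),
    ← sl_coe_mul, e'', sl_coe_mul, ← mul_assoc, ← mul_assoc, hdel.dlt', D2]
  simp only [mul_assoc]

include hq hqN in
theorem inj_D2 (F' : CFam (N * q) n P) {x x' : ι}
    {i i' : Option (Fin q)} {g : SL(2, ℤ)}
    (e : P x * D2 N q i = (g : Mat) * (P x' * D2 N q i')) : x = x' ∧ i = i' := by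
  have h2 : (rr2 N q i' : Mat) * (((rr2 N q i')⁻¹ : SL(2, ℤ)) : Mat) = 1 := by
    rw [← sl_coe_mul, mul_inv_cancel]; rfl
  have e2 : P x * dlt' q * ((rr2 N q i * (rr2 N q i')⁻¹ : SL(2, ℤ)) : Mat) =
      (g : Mat) * P x' * dlt' q := by
    rw [sl_coe_mul, ← mul_assoc, mul_assoc (P x)]
    change P x * D2 N q i * _ = _
    rw [e, D2]
    simp only [mul_assoc]
    rw [h2, mul_one]
  have h3 := congrFun (congrFun e2 0) 1
  simp only [Matrix.mul_apply, Fin.sum_univ_two, dlt', Matrix.of_apply, Matrix.cons_val',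
    Matrix.cons_val_zero, Matrix.cons_val_one, Matrix.cons_val_fin_one, Matrix.empty_val',
    mul_one, mul_zero, zero_add, add_zero] at h3
  obtain ⟨m, hm⟩ := (F'.gmat x).d00
  push_cast at hm
  have h4 : (q : ℤ) ∣ (rr2 N q i * (rr2 N q i')⁻¹) 0 1 := by
    refine ⟨(g 0 0 * P x' 0 1 + g 0 1 * P x' 1 1) - P x 0 1 * (rr2 N q i * (rr2 N q i')⁻¹) 1 1 -
      N * m * (rr2 N q i * (rr2 N q i')⁻¹) 0 1, ?_⟩
    have h5 : P x 0 0 = 1 + N * q * m := by linear_combination hm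
    rw [h5] at h3
    linear_combination h3
  have h6 := rr2_unique hq hqN h4
  subst h6
  refine ⟨F'.inj x x' g ?_, rfl⟩
  rw [mul_inv_cancel] at e2
  have h7 : (((1 : SL(2, ℤ))) : Mat) = 1 := rfl
  rw [h7, mul_one] at e2
  exact mat_cancel_right (by rw [dlt'_det]; exact_mod_cast hq.ne_zero) e2

/-! ### Commutation with the Hecke operators -/

theorem isCoprime_of_ne {l : ℕ} (hl : l.Prime) (hq : q.Prime) (h : l ≠ q) :
    IsCoprime (l : ℤ) (q : ℤ) :=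
  Nat.isCoprime_iff_coprime.mpr ((Nat.coprime_primes hl hq).mpr h)

include hq in
theorem hec_degA (n : ℕ) (hn : n ≠ q) (c : H1 O A G) :
    resH (Gq_le (G := G) (q := q)) (hec h1 h0 n c) =
      hec (le_Gq h1) (Gq_le_Gamma0 h0 hqN) n (resH Gq_le c) := by
  by_cases hnp : n.Prime
  swap
  · rw [hec_zero _ _ hnp, hec_zero _ _ hnp]; rfl
  obtain ⟨ι, _, P, F, F'⟩ := exists_cfam (N := N) hnp (isCoprime_of_ne hnp hq hn)
  rw [hec_eq hnp F, hec_eq hnp F']
  exact (opH_resH _ _ _ _ c).symm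

theorem hec_degB (n : ℕ) (hn : n ≠ q) (c : H1 O A G) :
    degB h1 h0 hq hqN (hec h1 h0 n c) =
      hec (le_Gq h1) (Gq_le_Gamma0 h0 hqN) n (degB h1 h0 hq hqN c) := by
  by_cases hnp : n.Prime
  swap
  · rw [hec_zero _ _ hnp, hec_zero _ _ hnp]; exact map_zero _
  have hnq := isCoprime_of_ne hnp hq hn
  obtain ⟨ι, _, P, F, F'⟩ := exists_cfam (N := N) hnp hnq
  rw [hec_eq hnp F, hec_eq hnp F']
  refine opH_comm' _ _ _ _ (by simp) (fun x _ => ?_) (fun x _ x' _ g hg e => ⟨?_, rfl⟩) c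
  · obtain ⟨x', g, hg, e⟩ := exch_B h1 h0 hqN F' hnq x
    exact ⟨(), x', g, hg, e⟩
  · rw [← mul_assoc] at e
    exact F.inj x x' g (mat_cancel_right (by rw [dlt_det]; exact_mod_cast hq.ne_zero) e)

theorem hec_tr1 (n : ℕ) (hn : n ≠ q) (c : H1 O A (Gq G q)) :
    tr1 h1 hq hqN (hec (le_Gq h1) (Gq_le_Gamma0 h0 hqN) n c) =
      hec h1 h0 n (tr1 h1 hq hqN c) := by
  by_cases hnp : n.Prime
  swap
  · rw [hec_zero _ _ hnp, hec_zero _ _ hnp]; exact map_zero _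
  have hnq := isCoprime_of_ne hnp hq hn
  obtain ⟨ι, _, P, F, F'⟩ := exists_cfam (N := N) hnp hnq
  rw [hec_eq hnp F, hec_eq hnp F']
  refine opH_comm' _ _ _ _ (by simp [mul_comm]) (fun x i => exch_D1 h1 h0 hq hqN F x i)
    (fun x i x' i' g hg e => inj_D1 hq hqN F' hnq hg e) c

theorem hec_tr2 (n : ℕ) (hn : n ≠ q) (c : H1 O A (Gq G q)) :
    tr2 h1 h0 hq hqN (hec (le_Gq h1) (Gq_le_Gamma0 h0 hqN) n c) =
      hec h1 h0 n (tr2 h1 h0 hq hqN c) := by
  by_cases hnp : n.Prime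
  swap
  · rw [hec_zero _ _ hnp, hec_zero _ _ hnp]; exact map_zero _
  have hnq := isCoprime_of_ne hnp hq hn
  obtain ⟨ι, _, P, F, F'⟩ := exists_cfam (N := N) hnp hnq
  rw [hec_eq hnp F, hec_eq hnp F']
  refine opH_comm' _ _ _ _ (by simp [mul_comm]) (fun x i => exch_D2 h1 h0 hq hqN F F' x i)
    (fun x i x' i' g hg e => inj_D2 hq hqN F' e) c

end

end Fermat.Agent.RT.Ihara
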