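import Fermat.Agent.RT.DegH

set_option autoImplicit false

/-!
# Composites of the degeneracy maps and the transfers
-/

open Matrix CongruenceSubgroup
open scoped MatrixGroups

namespace Fermat.Agent.RT.Ihara

variable {G : Subgroup SL(2, ℤ)} {N q n : ℕ}
variable {O A : Type*} [CommRing O] [AddCommGroup A] [Module O A]
variable (h1 : Gamma1 N ≤ G) (h0 : G ≤ Gamma0 N) (hq : q.Prime) (hqN : IsCoprime (N : ℤ) (q : ℤ))

theorem dlt_dlt' (q : ℕ) : dlt q * dlt' q = (q : ℤ) • (1 : Mat) := by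
  ext i j
  fin_cases i <;> fin_cases j <;> simp [dlt, dlt', Matrix.mul_apply, Fin.sum_univ_two]

theorem smul_coe_inj {q : ℕ} (hq : q ≠ 0) {a b : SL(2, ℤ)}
    (h : (q : ℤ) • (a : Mat) = (q : ℤ) • (b : Mat)) : a = b := by
  apply Subtype.ext
  exact smul_right_injective _ (by exact_mod_cast hq : (q : ℤ) ≠ 0) h

theorem card_opt (q : ℕ) : Fintype.card (Option (Fin q)) = q + 1 := by simp

include h0 in
theorem tr1_degA (c : H1 O A G) : tr1 h1 hq hqN (resH Gq_le c) = (q + 1 : ℕ) • c := by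
  apply Subtype.ext
  funext g
  obtain ⟨σ, γ, hγ, e⟩ := (corr_D1 h1 hq hqN).exists_perm g.2
  rw [tr1, opH_apply, (corr_D1 h1 hq hqN).opc_eq (addOn_ex _) g.2 hγ e]
  have hr : ∀ x, γ x = rr1 N q x * g * (rr1 N q (σ x))⁻¹ := by
    intro x
    have h2 : rr1 N q x * g = γ x * rr1 N q (σ x) := Subtype.ext (by
      rw [sl_coe_mul, sl_coe_mul]; exact e x)
    rw [h2, mul_inv_cancel_right]
  have h3 := sum_conj_eq c (fun x => ⟨rr1 N q x, rr1_mem h1 x⟩) g σ
  rw [card_opt] at h3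
  change _ = (q + 1) • c.1 g
  rw [← h3]
  refine Finset.sum_congr rfl fun x _ => ?_
  rw [ex_apply _ (hγ x), resH_apply]
  exact congrArg c.1 (Subtype.ext (hr x))

theorem tr2_degB (c : H1 O A G) :
    tr2 h1 h0 hq hqN (degB h1 h0 hq hqN c) = (q + 1 : ℕ) • c := by
  apply Subtype.ext
  funext g
  obtain ⟨σ, γ, hγ, e⟩ := (corr_D2 h1 h0 hq hqN).exists_perm g.2
  rw [tr2, opH_apply, (corr_D2 h1 h0 hq hqN).opc_eq (addOn_ex _) g.2 hγ e]
  choose γ' hγ' hd using fun x => exists_del_Gq h1 h0 hqN (hγ x)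
  have hr : ∀ x, γ' x = rr2 N q x * g * (rr2 N q (σ x))⁻¹ := by
    intro x
    have h2 : rr2 N q x * g = γ' x * rr2 N q (σ x) := by
      apply smul_coe_inj hq.ne_zero
      have h4 : ∀ y, dlt q * D2 N q y = (q : ℤ) • (rr2 N q y : Mat) := fun y => by
        rw [D2, ← mul_assoc, dlt_dlt', Matrix.smul_mul, one_mul]
      rw [sl_coe_mul, sl_coe_mul, ← Matrix.smul_mul, ← h4, mul_assoc, e, ← mul_assoc, (hd x).dlt,
        mul_assoc, h4, Matrix.mul_smul]
    rw [h2, mul_inv_cancel_right]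
  have h3 := sum_conj_eq c (fun x => ⟨rr2 N q x, rr2_mem h1 x⟩) g σ
  rw [card_opt] at h3
  change _ = (q + 1) • c.1 g
  rw [← h3]
  refine Finset.sum_congr rfl fun x _ => ?_
  rw [ex_apply _ (hγ x), degB_apply h1 h0 hq hqN c (hγ x) (hγ' x) (hd x)]
  exact congrArg c.1 (Subtype.ext (hr x))

/-- the `U_q` operator at level `N q` -/
theorem hec_Uq : (hec (le_Gq h1) (Gq_le_Gamma0 h0 hqN) q : Module.End O (H1 O A (Gq G q))) =
    opH ((gfam_U hq.ne_zero (dvd_mul_left q N)).corrG (le_Gq h1) (Gq_le_Gamma0 h0 hqN)) :=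
  hec_U _ _ hq (dvd_mul_left q N)

theorem U_degB (c : H1 O A G) : hec (le_Gq h1) (Gq_le_Gamma0 h0 hqN) q (degB h1 h0 hq hqN c) =
    (q : ℕ) • resH Gq_le c := by
  apply Subtype.ext
  funext g
  rw [hec_Uq h1 h0 hq hqN]
  have H := (gfam_U hq.ne_zero (dvd_mul_left q N)).corrG (le_Gq h1) (Gq_le_Gamma0 h0 hqN)
  obtain ⟨σ, γ, hγ, e⟩ := H.exists_perm g.2
  rw [opH_apply, H.opc_eq (addOn_ex _) g.2 hγ e]
  choose γ' hγ' hd using fun x => exists_del_Gq h1 h0 hqN (hγ x)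
  have h4 : ∀ j : Fin q, dlt q * Mx q (some j) = (q : ℤ) • (up ((j : ℕ) : ℤ) : Mat) := fun y => by
    ext i j
    fin_cases i <;> fin_cases j <;>
      simp [dlt, Mx, up, sl, Matrix.mul_apply, Fin.sum_univ_two]
  have hr : ∀ x : Fin q, γ' x = up ((x : ℕ) : ℤ) * g * (up ((σ x : ℕ) : ℤ))⁻¹ := by
    intro x
    have h2 : up ((x : ℕ) : ℤ) * g = γ' x * up ((σ x : ℕ) : ℤ) := by
      apply smul_coe_inj hq.ne_zero
      rw [sl_coe_mul, sl_coe_mul, ← Matrix.smul_mul, ← h4, mul_assoc, e, ← mul_assoc, (hd x).dlt,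
        mul_assoc, h4, Matrix.mul_smul]
    rw [h2, mul_inv_cancel_right]
  have h3 := sum_conj_eq c (fun x : Fin q => ⟨up ((x : ℕ) : ℤ), h1 (up_mem N _)⟩)
    ⟨g, Gq_le g.2⟩ σ
  rw [Fintype.card_fin] at h3
  change _ = q • c.1 ⟨g, Gq_le g.2⟩
  rw [← h3]
  refine Finset.sum_congr rfl fun x _ => ?_
  rw [ex_apply _ (hγ x), degB_apply h1 h0 hq hqN c (hγ x) (hγ' x) (hd x)]
  exact congrArg c.1 (Subtype.ext (hr x))

/-- the diamond element at `q` -/
noncomputable def sq (N q : ℕ) : Gamma0 N := ⟨diaEl N q, diaEl_mem N q⟩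

theorem hec_Tq : (hec h1 h0 q : Module.End O (H1 O A G)) = opH (corr_TD h1 h0 hq hqN) := by
  have hN : ¬ q ∣ N := fun h => not_dvd_N hq hqN (Int.natCast_dvd_natCast.mpr h)
  exact hec_T h1 h0 hq hN

theorem degA_T (c : H1 O A G) : resH (Gq_le (q := q)) (hec h1 h0 q c) =
    hec (le_Gq h1) (Gq_le_Gamma0 h0 hqN) q (resH Gq_le c) +
      degB h1 h0 hq hqN (diaH h1 h0 (sq N q) c) := by
  apply Subtype.ext
  funext g
  rw [hec_Uq h1 h0 hq hqN, hec_Tq h1 h0 hq hqN]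
  have H := (gfam_U hq.ne_zero (dvd_mul_left q N)).corrG (le_Gq h1) (Gq_le_Gamma0 h0 hqN)
  obtain ⟨σ, γ, hγ, e⟩ := H.exists_perm g.2
  obtain ⟨g', hg', hd⟩ := exists_del_Gq h1 h0 hqN g.2
  change _ = (opH H (resH Gq_le c)).1 g + (degB h1 h0 hq hqN (diaH h1 h0 (sq N q) c)).1 g
  rw [opH_apply, H.opc_eq (addOn_ex _) g.2 hγ e, degB_apply h1 h0 hq hqN _ g.2 hg' hd, diaH_apply,
    resH_apply, opH_apply]
  have hmem : (diaEl N q) * g' * (diaEl N q)⁻¹ ∈ G := conj_mem_G h1 h0 hg' (diaEl_mem N q)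
  rw [(corr_TD h1 h0 hq hqN).opc_eq (addOn_ex c) (Gq_le g.2)
    (γ := fun x => x.elim ((diaEl N q) * g' * (diaEl N q)⁻¹) γ)
    (σ := fun x => x.elim none (fun j => some (σ j))) ?_ ?_]
  · rw [Fintype.sum_option, add_comm]
    have e1 : ∀ x : Fin q, ex c.1 (γ x) = ex (resH (Gq_le (G := G) (q := q)) c).1 (γ x) := by
      intro x
      rw [ex_apply _ (hγ x), ex_apply _ (Gq_le (hγ x))]
      rfl
    change (∑ x : Fin q, ex c.1 (γ x)) + ex c.1 (diaEl N q * g' * (diaEl N q)⁻¹) = _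
    rw [Finset.sum_congr rfl fun x _ => e1 x, ex_apply _ hmem]
    rfl
  · rintro (_ | j)
    · exact hmem
    · exact Gq_le (hγ j)
  · rintro (_ | j)
    · change ((diaEl N q : SL(2, ℤ)) : Mat) * dlt q * (g : Mat) =
        (((diaEl N q) * g' * (diaEl N q)⁻¹ : SL(2, ℤ)) : Mat) *
          (((diaEl N q : SL(2, ℤ)) : Mat) * dlt q)
      rw [mul_assoc, hd.dlt, sl_coe_mul, sl_coe_mul]
      have h2 : (((diaEl N q)⁻¹ : SL(2, ℤ)) : Mat) * (diaEl N q : Mat) = 1 := by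
        rw [← sl_coe_mul, inv_mul_cancel]; rfl
      simp only [mul_assoc]
      rw [← mul_assoc _ (diaEl N q : Mat) (dlt q), h2, one_mul]
    · have h2 : ∀ j : Fin q, TD N q (some j) = Mx q (some j) := fun j => by simp [TD, twEl]
      change TD N q (some j) * (g : Mat) = (γ j : Mat) * TD N q (some (σ j))
      rw [h2, h2]
      exact e j

theorem tr2_degA (c : H1 O A G) : tr2 h1 h0 hq hqN (resH Gq_le c) = hec h1 h0 q c := by
  rw [hec_Tq h1 h0 hq hqN, ← opH_one, tr2]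
  refine opH_comp _ _ _ (by simp) (fun _ i => ?_) (fun _ i _ i' g hg e => ⟨rfl, ?_⟩) c
  · obtain ⟨j, g, e⟩ := exists_TD (N := N) hq (D2 N q i) (D2_det i)
    have hD2 : GMat N (D2 N q i) := by
      have hr := rr2_mem (N := N) (q := q) (le_refl (Gamma1 N)) i
      rw [Gamma1_mem] at hr
      obtain ⟨h00, -, h10⟩ := hr
      have d10 := (ZMod.intCast_zmod_eq_zero_iff_dvd _ _).mp h10
      have d00 := (ZMod.intCast_zmod_eq_zero_iff_dvd (rr2 N q i 0 0 - 1) N).mp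
        (by push_cast; rw [h00, sub_self])
      constructor
      · have : D2 N q i 1 0 = q * rr2 N q i 1 0 := by
          simp [D2, dlt', Matrix.mul_apply, Fin.sum_univ_two]
        rw [this]; exact d10.mul_left _
      · have : D2 N q i 0 0 = rr2 N q i 0 0 := by
          simp [D2, dlt', Matrix.mul_apply, Fin.sum_univ_two]
        rw [this]; exact d00
    exact ⟨j, g, GMat.mem h1 h0 hD2 (TD_gmat hqN j) (one_mem G) (by rw [← e]; exact mul_one _),
      by rw [one_mul]; exact e⟩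
  · rw [one_mul, one_mul] at e
    apply rr2_unique hq hqN
    have h2 : (rr2 N q i' : Mat) * (((rr2 N q i')⁻¹ : SL(2, ℤ)) : Mat) = 1 := by
      rw [← sl_coe_mul, mul_inv_cancel]; rfl
    have e2 : dlt' q * ((rr2 N q i * (rr2 N q i')⁻¹ : SL(2, ℤ)) : Mat) = (g : Mat) * dlt' q := by
      rw [sl_coe_mul, ← mul_assoc]
      change D2 N q i * _ = _
      rw [e, D2]
      simp only [mul_assoc]
      rw [h2, mul_one]
    have h3 := congrFun (congrFun e2 0) 1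
    simp only [Matrix.mul_apply, Fin.sum_univ_two, dlt', Matrix.of_apply, Matrix.cons_val',
      Matrix.cons_val_zero, Matrix.cons_val_one, Matrix.cons_val_fin_one, Matrix.empty_val',
      mul_one, mul_zero, zero_add, add_zero, one_mul, zero_mul] at h3
    rw [h3]
    exact dvd_mul_left _ _

include h1 h0 hq hqN in
theorem corr_sB : Corr G (Gq G q) (fun _ : Unit => ((sq N q : SL(2, ℤ)) : Mat) * dlt q) where
  det _ := by
    rw [Matrix.det_mul, (sq N q : SL(2, ℤ)).det_coe, one_mul, dlt_det]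
    exact_mod_cast hq.ne_zero
  act _ g hg := by
    obtain ⟨g', hg', hd⟩ := exists_del_Gq h1 h0 hqN hg
    refine ⟨(), _, conj_mem_G h1 h0 hg' (sq N q).2, ?_⟩
    have h2 : (((sq N q : SL(2, ℤ))⁻¹ : SL(2, ℤ)) : Mat) * ((sq N q : SL(2, ℤ)) : Mat) = 1 := by
      rw [← sl_coe_mul, inv_mul_cancel]; rfl
    rw [mul_assoc, hd.dlt, sl_coe_mul, sl_coe_mul]
    simp only [mul_assoc]
    rw [← mul_assoc _ ((sq N q : SL(2, ℤ)) : Mat) (dlt q), h2, one_mul]
  inj _ _ _ _ _ := rfl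

theorem opH_sB (c : H1 O A G) : opH (corr_sB h1 h0 hq hqN) c =
    degB h1 h0 hq hqN (diaH h1 h0 (sq N q) c) := by
  apply Subtype.ext
  funext g
  obtain ⟨g', hg', hd⟩ := exists_del_Gq h1 h0 hqN g.2
  have hmem := conj_mem_G h1 h0 hg' (sq N q).2
  rw [opH_apply, (corr_sB h1 h0 hq hqN).opc_eq (addOn_ex c) g.2 (γ := fun _ =>
    (sq N q : SL(2, ℤ)) * g' * ((sq N q : SL(2, ℤ)))⁻¹) (σ := id) (fun _ => hmem),
    Fintype.sum_unique, ex_apply _ hmem, degB_apply h1 h0 hq hqN _ g.2 hg' hd, diaH_apply]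
  intro _
  have h2 : (((sq N q : SL(2, ℤ))⁻¹ : SL(2, ℤ)) : Mat) * ((sq N q : SL(2, ℤ)) : Mat) = 1 := by
    rw [← sl_coe_mul, inv_mul_cancel]; rfl
  rw [mul_assoc, hd.dlt, sl_coe_mul, sl_coe_mul]
  simp only [mul_assoc]
  rw [← mul_assoc _ ((sq N q : SL(2, ℤ)) : Mat) (dlt q), h2, one_mul]

theorem tr1_degB (c : H1 O A G) :
    tr1 h1 hq hqN (degB h1 h0 hq hqN (diaH h1 h0 (sq N q) c)) = hec h1 h0 q c := by
  rw [hec_Tq h1 h0 hq hqN, ← opH_sB, tr1]
  refine opH_comp _ _ _ (by simp) (fun _ i => ?_) (fun _ i _ i' g hg e => ⟨rfl, ?_⟩) c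
  · have hdet : (((sq N q : SL(2, ℤ)) : Mat) * dlt q * D1 N q i).det = q := by
      rw [Matrix.det_mul, Matrix.det_mul, (sq N q : SL(2, ℤ)).det_coe, one_mul, dlt_det, D1_det,
        mul_one]
    obtain ⟨j, g, e⟩ := exists_TD (N := N) hq _ hdet
    have hD : GMat N (((sq N q : SL(2, ℤ)) : Mat) * dlt q * D1 N q i) := by
      have hr := rr1_mem (N := N) (q := q) (le_refl (Gamma1 N)) i
      rw [Gamma1_mem] at hr
      obtain ⟨h00, -, h10⟩ := hr
      obtain ⟨u, hu⟩ := (ZMod.intCast_zmod_eq_zero_iff_dvd _ _).mp h10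
      obtain ⟨v, hv⟩ := (ZMod.intCast_zmod_eq_zero_iff_dvd (rr1 N q i 0 0 - 1) N).mp
        (by push_cast; rw [h00, sub_self])
      obtain ⟨w, hw⟩ := diaEl_00 hqN
      obtain ⟨t, ht⟩ := mem_G0.mp (diaEl_mem N q)
      constructor
      · have : (((sq N q : SL(2, ℤ)) : Mat) * dlt q * D1 N q i) 1 0 =
            diaEl N q 1 0 * q * rr1 N q i 0 0 + diaEl N q 1 1 * rr1 N q i 1 0 := by
          simp [sq, D1, dlt, Matrix.mul_apply, Fin.sum_univ_two]
        rw [this, ht, hu]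
        exact ⟨t * q * rr1 N q i 0 0 + diaEl N q 1 1 * u, by ring⟩
      · have : (((sq N q : SL(2, ℤ)) : Mat) * dlt q * D1 N q i) 0 0 =
            diaEl N q 0 0 * q * rr1 N q i 0 0 + diaEl N q 0 1 * rr1 N q i 1 0 := by
          simp [sq, D1, dlt, Matrix.mul_apply, Fin.sum_univ_two]
        rw [this, hu]
        exact ⟨w * rr1 N q i 0 0 + v + diaEl N q 0 1 * u, by
          linear_combination (rr1 N q i 0 0) * hw + hv⟩
    exact ⟨j, g, GMat.mem h1 h0 hD (TD_gmat hqN j) (one_mem G)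
      (by rw [← e]; exact mul_one _), e⟩
  · apply rr1_unique hq hqN
    have h2 : (rr1 N q i' : Mat) * (((rr1 N q i')⁻¹ : SL(2, ℤ)) : Mat) = 1 := by
      rw [← sl_coe_mul, mul_inv_cancel]; rfl
    have h3 : (((sq N q : SL(2, ℤ))⁻¹ : SL(2, ℤ)) : Mat) * ((sq N q : SL(2, ℤ)) : Mat) = 1 := by
      rw [← sl_coe_mul, inv_mul_cancel]; rfl
    have e2 : dlt q * ((rr1 N q i * (rr1 N q i')⁻¹ : SL(2, ℤ)) : Mat) =
        (((sq N q : SL(2, ℤ))⁻¹ * g * (sq N q : SL(2, ℤ)) : SL(2, ℤ)) : Mat) * dlt q := by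
      have e3 : dlt q * D1 N q i = (((sq N q : SL(2, ℤ))⁻¹ : SL(2, ℤ)) : Mat) *
          (((sq N q : SL(2, ℤ)) : Mat) * dlt q * D1 N q i) := by
        rw [← mul_assoc, ← mul_assoc, h3, one_mul]
      rw [sl_coe_mul, ← mul_assoc]
      change dlt q * D1 N q i * _ = _
      rw [e3, e, D1, sl_coe_mul, sl_coe_mul]
      simp only [mul_assoc]
      rw [h2, mul_one]
    generalize (sq N q : SL(2, ℤ))⁻¹ * g * (sq N q : SL(2, ℤ)) = k at e2
    have h4 := congrFun (congrFun e2 1) 0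
    simp only [Matrix.mul_apply, Fin.sum_univ_two, dlt, Matrix.of_apply, Matrix.cons_val',
      Matrix.cons_val_zero, Matrix.cons_val_one, Matrix.cons_val_fin_one, Matrix.empty_val',
      mul_one, mul_zero, zero_add, add_zero, one_mul, zero_mul] at h4
    rw [h4]
    exact dvd_mul_left _ _

end Fermat.Agent.RT.Ihara
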