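import Fermat.Agent.RT.Inter3

set_option autoImplicit false

/-!
# Degeneracy maps: the transfers `Hom(G ∩ Γ₀(q), A) → Hom(G, A)`
-/

open Matrix CongruenceSubgroup
open scoped MatrixGroups

namespace Fermat.Agent.RT.Ihara

variable {A : Type*} [AddCommGroup A] {G G₁ G₂ : Subgroup SL(2, ℤ)} {N q : ℕ}

/-- `G ∩ Γ₀(q)` -/
abbrev Gq (G : Subgroup SL(2, ℤ)) (q : ℕ) : Subgroup SL(2, ℤ) := G ⊓ Gamma0 q

theorem mem_Gq {g : SL(2, ℤ)} : g ∈ Gq G q ↔ g ∈ G ∧ (q : ℤ) ∣ g 1 0 := by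
  rw [Gq, Subgroup.mem_inf, mem_G0]

/-- `diag(q, 1)` -/
def dlt (q : ℕ) : Mat := !![(q : ℤ), 0; 0, 1]

/-- `diag(1, q)` -/
def dlt' (q : ℕ) : Mat := !![1, 0; 0, (q : ℤ)]

theorem dlt_det (q : ℕ) : (dlt q).det = q := by simp [dlt, Matrix.det_fin_two]

theorem dlt'_det (q : ℕ) : (dlt' q).det = q := by simp [dlt', Matrix.det_fin_two]

theorem adj_dlt' (q : ℕ) : adjugate (dlt' q) = dlt q := by
  ext i j
  fin_cases i <;> fin_cases j <;> simp [dlt, dlt', Matrix.adjugate_fin_two]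

theorem Del.dlt {g g' : SL(2, ℤ)} (h : Del q g g') : dlt q * (g : Mat) = (g' : Mat) * dlt q := by
  obtain ⟨h00, h01, h10, h11⟩ := h
  ext i j
  fin_cases i <;> fin_cases j <;>
    simp [Ihara.dlt, Matrix.mul_apply, Fin.sum_univ_two, h00, h01, h10, h11] <;> ring

theorem Del.dlt' {g g' : SL(2, ℤ)} (h : Del q g g') :
    dlt' q * (g' : Mat) = (g : Mat) * dlt' q := by
  obtain ⟨h00, h01, h10, h11⟩ := h
  ext i j
  fin_cases i <;> fin_cases j <;>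
    simp [Ihara.dlt', Matrix.mul_apply, Fin.sum_univ_two, h00, h01, h10, h11] <;> ring

theorem Del.iff (hq : q ≠ 0) {g g' : SL(2, ℤ)} :
    Del q g g' ↔ Ihara.dlt q * (g : Mat) = (g' : Mat) * Ihara.dlt q := by
  refine ⟨Del.dlt, fun h => ?_⟩
  have hq0 : (q : ℤ) ≠ 0 := by exact_mod_cast hq
  have h00 := congrFun (congrFun h 0) 0
  have h01 := congrFun (congrFun h 0) 1
  have h10 := congrFun (congrFun h 1) 0
  have h11 := congrFun (congrFun h 1) 1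
  simp [Ihara.dlt, Matrix.mul_apply, Fin.sum_univ_two] at h00 h01 h10 h11
  refine ⟨?_, h01.symm, ?_, h11.symm⟩
  · apply mul_left_cancel₀ hq0
    rw [h00]; ring
  · rw [h10]; ring

/-- elements of `G ∩ Γ⁰(q)` are dilates -/
theorem exists_del' (h1 : Gamma1 N ≤ G) (h0 : G ≤ Gamma0 N) {h : SL(2, ℤ)} (hh : h ∈ G)
    (hq : (q : ℤ) ∣ h 0 1) : ∃ g ∈ Gq G q, Del q g h := by
  obtain ⟨k, hk⟩ := hq
  obtain ⟨a, ha⟩ := mem_G0.mp (h0 hh)
  have hdet := det2 h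
  have e : h 0 0 * h 1 1 - k * (q * h 1 0) = 1 := by
    rw [hk] at hdet
    linear_combination hdet
  refine ⟨sl (h 0 0) k (q * h 1 0) (h 1 1) e, ?_, ⟨rfl, hk, rfl, rfl⟩⟩
  rw [mem_Gq]
  refine ⟨mem_of_congr' h1 hh ⟨a, ha⟩ ?_ (by rw [sl_00, sub_self]; exact dvd_zero _), ?_⟩
  · rw [sl_10, ha]; exact ⟨q * a, by ring⟩
  · rw [sl_10]; exact dvd_mul_right _ _

theorem exists_del_Gq (h1 : Gamma1 N ≤ G) (h0 : G ≤ Gamma0 N) (hqN : IsCoprime (N : ℤ) (q : ℤ))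
    {g : SL(2, ℤ)} (hg : g ∈ Gq G q) : ∃ g' ∈ G, Del q g g' := by
  rw [mem_Gq] at hg
  exact exists_del h1 hg.1 (hqN.mul_dvd (mem_G0.mp (h0 hg.1)) hg.2)

/-- `N y + 1 ≡ 0 mod q` -/
def yq (N q : ℕ) : ℤ := -Int.gcdA N q

theorem yq_spec (hqN : IsCoprime (N : ℤ) (q : ℤ)) : (q : ℤ) ∣ N * yq N q + 1 := by
  have h := Int.gcd_eq_gcd_ab (N : ℤ) (q : ℤ)
  rw [Int.isCoprime_iff_gcd_eq_one.mp hqN] at h
  refine ⟨Int.gcdB N q, ?_⟩
  rw [yq]
  push_cast at h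
  linear_combination h

/-- representatives of `(G ∩ Γ₀(q)) \ G` -/
def rr1 (N q : ℕ) : Option (Fin q) → SL(2, ℤ)
  | some i => lo (N * ((i : ℕ) : ℤ))
  | none => lo N * up (yq N q)

/-- representatives of `(G ∩ Γ⁰(q)) \ G` -/
def rr2 (N q : ℕ) : Option (Fin q) → SL(2, ℤ)
  | some i => up ((i : ℕ) : ℤ)
  | none => up (yq N q) * lo N

theorem rr1_mem (h1 : Gamma1 N ≤ G) (x : Option (Fin q)) : rr1 N q x ∈ G := by
  rcases x with _ | i
  · exact mul_mem (h1 (lo_mem dvd_rfl)) (h1 (up_mem N _))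
  · exact h1 (lo_mem (dvd_mul_right _ _))

theorem rr2_mem (h1 : Gamma1 N ≤ G) (x : Option (Fin q)) : rr2 N q x ∈ G := by
  rcases x with _ | i
  · exact mul_mem (h1 (up_mem N _)) (h1 (lo_mem dvd_rfl))
  · exact h1 (up_mem N _)

theorem mul_inv_10 (g r : SL(2, ℤ)) : (g * r⁻¹) 1 0 = g 1 0 * r 1 1 - g 1 1 * r 1 0 := by
  have i00 : (r⁻¹) 0 0 = r 1 1 := by simp [adjugate_fin_two]
  have i10 : (r⁻¹) 1 0 = -r 1 0 := by simp [adjugate_fin_two]
  rw [sl_mul_10, i00, i10]; ring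

theorem mul_inv_01 (g r : SL(2, ℤ)) : (g * r⁻¹) 0 1 = -(g 0 0 * r 0 1) + g 0 1 * r 0 0 := by
  have i01 : (r⁻¹) 0 1 = -r 0 1 := by simp [adjugate_fin_two]
  have i11 : (r⁻¹) 1 1 = r 0 0 := by simp [adjugate_fin_two]
  rw [sl_mul_01, i01, i11]; ring

theorem exists_fin_lin (hq : q.Prime) {a b : ℤ} (ha : ¬ (q : ℤ) ∣ a) :
    ∃ i : Fin q, (q : ℤ) ∣ b - a * ((i : ℕ) : ℤ) := by
  have hq0 : (q : ℤ) ≠ 0 := by exact_mod_cast hq.ne_zero
  have hqp : Prime (q : ℤ) := Nat.prime_iff_prime_int.mp hq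
  obtain ⟨u, v, huv⟩ := (hqp.coprime_iff_not_dvd.mpr ha).symm
  have h3 := Int.emod_lt_of_pos (b * u) (by exact_mod_cast hq.pos : (0 : ℤ) < q)
  have h4 := Int.emod_nonneg (b * u) hq0
  have h5 : ((((b * u) % q).toNat : ℕ) : ℤ) = (b * u) % q := Int.toNat_of_nonneg h4
  refine ⟨⟨((b * u) % q).toNat, by omega⟩, b * v + a * (b * u / q), ?_⟩
  have h6 := Int.emod_add_mul_ediv (b * u) q
  simp only [h5]
  linear_combination (-b) * huv - a * h6

theorem fin_eq_of_dvd {i j : Fin q} (h : (q : ℤ) ∣ ((i : ℕ) : ℤ) - ((j : ℕ) : ℤ)) : i = j := by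
  have h5 : ((i : ℕ) : ZMod q) = ((j : ℕ) : ZMod q) := by
    have := (ZMod.intCast_zmod_eq_zero_iff_dvd _ _).mpr h
    push_cast at this
    exact sub_eq_zero.mp this
  rw [ZMod.natCast_eq_natCast_iff', Nat.mod_eq_of_lt i.2, Nat.mod_eq_of_lt j.2] at h5
  exact Fin.ext h5

theorem not_dvd_N (hq : q.Prime) (hqN : IsCoprime (N : ℤ) (q : ℤ)) : ¬ (q : ℤ) ∣ N := by
  intro h
  have := hqN.isUnit_of_dvd' h dvd_rfl
  exact (Nat.prime_iff_prime_int.mp hq).not_unit this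

/-- transversal property for integral matrices prime to `q` -/
theorem exists_rr1 (hq : q.Prime) (hqN : IsCoprime (N : ℤ) (q : ℤ)) (a b : ℤ) :
    ∃ x : Option (Fin q), (q : ℤ) ∣ a * (rr1 N q x) 1 1 - b * (rr1 N q x) 1 0 := by
  have hqp : Prime (q : ℤ) := Nat.prime_iff_prime_int.mp hq
  by_cases hb : (q : ℤ) ∣ b
  · obtain ⟨k, hk⟩ := hb
    obtain ⟨c, hc⟩ := yq_spec hqN
    refine ⟨none, a * c - k * N, ?_⟩
    have e1 : (rr1 N q none) 1 1 = N * yq N q + 1 := by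
      rw [rr1, sl_mul_11]; simp [lo, up]
    have e2 : (rr1 N q none) 1 0 = N := by
      rw [rr1, sl_mul_10]; simp [lo, up]
    rw [e1, e2, hc, hk]; ring
  · have h1 : ¬ (q : ℤ) ∣ b * N := fun h => (hqp.dvd_or_dvd h).elim hb (not_dvd_N hq hqN)
    obtain ⟨i, k, hk⟩ := exists_fin_lin hq (a := b * N) (b := a) h1
    refine ⟨some i, k, ?_⟩
    have e1 : (rr1 N q (some i)) 1 1 = 1 := by simp [rr1, lo]
    have e2 : (rr1 N q (some i)) 1 0 = N * ((i : ℕ) : ℤ) := by simp [rr1, lo]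
    rw [e1, e2]
    linear_combination hk

theorem exists_rr2 (hq : q.Prime) (hqN : IsCoprime (N : ℤ) (q : ℤ)) (a b : ℤ) :
    ∃ x : Option (Fin q), (q : ℤ) ∣ -(a * (rr2 N q x) 0 1) + b * (rr2 N q x) 0 0 := by
  by_cases ha : (q : ℤ) ∣ a
  · obtain ⟨k, hk⟩ := ha
    obtain ⟨c, hc⟩ := yq_spec hqN
    refine ⟨none, -(k * yq N q) + b * c, ?_⟩
    have e1 : (rr2 N q none) 0 1 = yq N q := by
      rw [rr2, sl_mul_01]; simp [lo, up]
    have e2 : (rr2 N q none) 0 0 = N * yq N q + 1 := by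
      rw [rr2, sl_mul_00]; simp [lo, up]; ring
    rw [e1, e2, hc, hk]; ring
  · obtain ⟨i, k, hk⟩ := exists_fin_lin hq (a := a) (b := b) ha
    refine ⟨some i, k, ?_⟩
    have e1 : (rr2 N q (some i)) 0 1 = ((i : ℕ) : ℤ) := by simp [rr2, up]
    have e2 : (rr2 N q (some i)) 0 0 = 1 := by simp [rr2, up]
    rw [e1, e2]
    linear_combination hk

theorem rr1_unique (hq : q.Prime) (hqN : IsCoprime (N : ℤ) (q : ℤ)) {x y : Option (Fin q)}
    (h : (q : ℤ) ∣ (rr1 N q x * (rr1 N q y)⁻¹) 1 0) : x = y := by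
  have hqp : Prime (q : ℤ) := Nat.prime_iff_prime_int.mp hq
  rw [mul_inv_10] at h
  obtain ⟨c, hc⟩ := yq_spec hqN
  have a1 : (rr1 N q none) 1 1 = N * yq N q + 1 := by rw [rr1, sl_mul_11]; simp [lo, up]
  have a2 : (rr1 N q none) 1 0 = N := by rw [rr1, sl_mul_10]; simp [lo, up]
  have b1 : ∀ i : Fin q, (rr1 N q (some i)) 1 1 = 1 := fun i => by simp [rr1, lo]
  have b2 : ∀ i : Fin q, (rr1 N q (some i)) 1 0 = N * ((i : ℕ) : ℤ) := fun i => by simp [rr1, lo]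
  rcases x with _ | i <;> rcases y with _ | j
  · rfl
  · rw [a1, a2, b1, b2, hc] at h
    obtain ⟨k, hk⟩ := h
    exact absurd ⟨k + c * N * ((j : ℕ) : ℤ), by linear_combination hk⟩ (not_dvd_N hq hqN)
  · rw [a1, a2, b1, b2, hc] at h
    obtain ⟨k, hk⟩ := h
    exact absurd ⟨N * ((i : ℕ) : ℤ) * c - k, by linear_combination -hk⟩ (not_dvd_N hq hqN)
  · rw [b1, b2, b1, b2] at h
    have h2 : (q : ℤ) ∣ N * (((i : ℕ) : ℤ) - ((j : ℕ) : ℤ)) := by
      obtain ⟨k, hk⟩ := h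
      exact ⟨k, by linear_combination hk⟩
    rw [fin_eq_of_dvd ((hqp.dvd_or_dvd h2).resolve_left (not_dvd_N hq hqN))]

theorem rr2_unique (hq : q.Prime) (hqN : IsCoprime (N : ℤ) (q : ℤ)) {x y : Option (Fin q)}
    (h : (q : ℤ) ∣ (rr2 N q x * (rr2 N q y)⁻¹) 0 1) : x = y := by
  have hqp : Prime (q : ℤ) := Nat.prime_iff_prime_int.mp hq
  rw [mul_inv_01] at h
  obtain ⟨c, hc⟩ := yq_spec hqN
  have hy : ¬ (q : ℤ) ∣ yq N q := by
    rintro ⟨k, hk⟩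
    rw [hk] at hc
    exact hqp.not_unit (isUnit_of_dvd_one ⟨c - N * k, by linear_combination hc⟩)
  have a1 : (rr2 N q none) 0 1 = yq N q := by rw [rr2, sl_mul_01]; simp [lo, up]
  have a2 : (rr2 N q none) 0 0 = N * yq N q + 1 := by
    rw [rr2, sl_mul_00]; simp [lo, up]; ring
  have b1 : ∀ i : Fin q, (rr2 N q (some i)) 0 0 = 1 := fun i => by simp [rr2, up]
  have b2 : ∀ i : Fin q, (rr2 N q (some i)) 0 1 = ((i : ℕ) : ℤ) := fun i => by simp [rr2, up]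
  rcases x with _ | i <;> rcases y with _ | j
  · rfl
  · rw [a1, a2, b1, b2, hc] at h
    obtain ⟨k, hk⟩ := h
    exact absurd ⟨k + c * ((j : ℕ) : ℤ), by linear_combination hk⟩ hy
  · rw [a1, a2, b1, b2, hc] at h
    obtain ⟨k, hk⟩ := h
    exact absurd ⟨((i : ℕ) : ℤ) * c - k, by linear_combination -hk⟩ hy
  · rw [b1, b2, b1, b2] at h
    have h2 : (q : ℤ) ∣ (((i : ℕ) : ℤ) - ((j : ℕ) : ℤ)) := by
      obtain ⟨k, hk⟩ := h
      exact ⟨k, by linear_combination hk⟩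
    rw [fin_eq_of_dvd h2]

/-- the family of the first transfer -/
def D1 (N q : ℕ) (x : Option (Fin q)) : Mat := (rr1 N q x : Mat)

/-- the family of the second transfer -/
def D2 (N q : ℕ) (x : Option (Fin q)) : Mat := dlt' q * (rr2 N q x : Mat)

theorem D1_det (x : Option (Fin q)) : (D1 N q x).det = 1 := (rr1 N q x).det_coe

theorem D2_det (x : Option (Fin q)) : (D2 N q x).det = q := by
  rw [D2, Matrix.det_mul, (rr2 N q x).det_coe, mul_one, dlt'_det]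

theorem exists_D1 (h1 : Gamma1 N ≤ G) (hq : q.Prime) (hqN : IsCoprime (N : ℤ) (q : ℤ))
    {g : SL(2, ℤ)} (hg : g ∈ G) : ∃ x, ∃ g' ∈ Gq G q, g = g' * rr1 N q x := by
  obtain ⟨x, hx⟩ := exists_rr1 hq hqN (g 1 0) (g 1 1)
  refine ⟨x, g * (rr1 N q x)⁻¹, ?_, by group⟩
  rw [mem_Gq, mul_inv_10]
  exact ⟨mul_mem hg (inv_mem (rr1_mem h1 x)), hx⟩

theorem exists_D2 (h1 : Gamma1 N ≤ G) (hq : q.Prime) (hqN : IsCoprime (N : ℤ) (q : ℤ))
    {g : SL(2, ℤ)} (hg : g ∈ G) : ∃ x, ∃ g' ∈ G, (q : ℤ) ∣ g' 0 1 ∧ g = g' * rr2 N q x := by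
  obtain ⟨x, hx⟩ := exists_rr2 hq hqN (g 0 0) (g 0 1)
  refine ⟨x, g * (rr2 N q x)⁻¹, mul_mem hg (inv_mem (rr2_mem h1 x)), ?_, by group⟩
  rw [mul_inv_01]
  exact hx

theorem corr_D1 (h1 : Gamma1 N ≤ G) (hq : q.Prime) (hqN : IsCoprime (N : ℤ) (q : ℤ)) :
    Corr (Gq G q) G (D1 N q) where
  det x := by rw [D1_det]; norm_num
  act x g hg := by
    obtain ⟨y, g', hg', e⟩ := exists_D1 h1 hq hqN (mul_mem (rr1_mem h1 x) hg)
    refine ⟨y, g', hg', ?_⟩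
    rw [D1, D1, ← sl_coe_mul, e, sl_coe_mul]
  inj x y g hg e := by
    have e' : rr1 N q x = g * rr1 N q y := by
      apply Subtype.ext
      rw [sl_coe_mul]; exact e
    refine rr1_unique hq hqN ?_
    rw [e', mul_inv_cancel_right]
    exact (mem_Gq.mp hg).2

theorem corr_D2 (h1 : Gamma1 N ≤ G) (h0 : G ≤ Gamma0 N) (hq : q.Prime)
    (hqN : IsCoprime (N : ℤ) (q : ℤ)) : Corr (Gq G q) G (D2 N q) where
  det x := by rw [D2_det]; exact_mod_cast hq.ne_zero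
  act x g hg := by
    obtain ⟨y, g', hg', hq', e⟩ := exists_D2 h1 hq hqN (mul_mem (rr2_mem h1 x) hg)
    obtain ⟨k, hk, hd⟩ := exists_del' h1 h0 hg' hq'
    refine ⟨y, k, hk, ?_⟩
    rw [D2, D2, mul_assoc, ← sl_coe_mul, e, sl_coe_mul, ← mul_assoc, hd.dlt', mul_assoc]
  inj x y g hg e := by
    have hq0 : (dlt' q).det ≠ 0 := by rw [dlt'_det]; exact_mod_cast hq.ne_zero
    obtain ⟨g', hg', hd⟩ := exists_del_Gq h1 h0 hqN hg
    rw [D2, D2, ← mul_assoc, ← hd.dlt', mul_assoc] at e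
    have e' : rr2 N q x = g' * rr2 N q y := by
      apply Subtype.ext
      rw [sl_coe_mul]; exact mat_cancel_left hq0 e
    refine rr2_unique hq hqN ?_
    rw [e', mul_inv_cancel_right, hd.h01]
    exact dvd_mul_right _ _

/-- first transfer of intersection homomorphisms -/
theorem opc_D1_J (h1 : Gamma1 N ≤ G) (hq : q.Prime) (hqN : IsCoprime (N : ℤ) (q : ℤ)) (m : Mat)
    {g : SL(2, ℤ)} (hg : g ∈ G) : opc (Gq G q) (D1 N q) (Jm (Gq G q) m) g = Jm G m g := by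
  have key := opc_J (corr_D1 h1 hq hqN) (D' := fun _ : Unit => (1 : Mat)) (fun _ => by simp) ?_ ?_ ?_
    m hg
  · simpa using key
  · intro x h hh
    refine ⟨(), (rr1 N q x)⁻¹ * h, mul_mem (inv_mem (rr1_mem h1 x)) (mem_Gq.mp hh).1, ?_⟩
    rw [D1, adj_coe_mul, mul_one]
  · intro _ h' hh'
    obtain ⟨x, g', hg', e⟩ := exists_D1 h1 hq hqN (inv_mem hh')
    refine ⟨x, g'⁻¹, inv_mem hg', ?_⟩
    rw [D1, adj_coe_mul, mul_one]
    congr 1
    rw [← _root_.mul_inv_rev, ← e, inv_inv]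
  · intro i j _ _ _
    rfl

/-- second transfer of intersection homomorphisms -/
theorem opc_D2_J (h1 : Gamma1 N ≤ G) (h0 : G ≤ Gamma0 N) (hq : q.Prime)
    (hqN : IsCoprime (N : ℤ) (q : ℤ)) (m : Mat) {g : SL(2, ℤ)} (hg : g ∈ G) :
    opc (Gq G q) (D2 N q) (Jm (Gq G q) m) g = Jm G (dlt q * m) g := by
  have key := opc_J (corr_D2 h1 h0 hq hqN) (D' := fun _ : Unit => dlt q)
    (fun _ => by rw [dlt_det]; exact_mod_cast hq.pos) ?_ ?_ ?_ m hg
  · simpa using key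
  · intro x h hh
    obtain ⟨h', hh', hd⟩ := exists_del_Gq h1 h0 hqN hh
    refine ⟨(), (rr2 N q x)⁻¹ * h', mul_mem (inv_mem (rr2_mem h1 x)) hh', ?_⟩
    rw [D2, Matrix.adjugate_mul_distrib, adj_dlt', adj_coe, mul_assoc, hd.dlt, sl_coe_mul,
      mul_assoc]
  · intro _ h' hh'
    obtain ⟨x, g', hg', hq', e⟩ := exists_D2 h1 hq hqN (inv_mem hh')
    have hq'' : (q : ℤ) ∣ (g'⁻¹) 0 1 := by
      have : (g'⁻¹) 0 1 = -g' 0 1 := by simp [adjugate_fin_two]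
      rw [this]; exact hq'.neg_right
    obtain ⟨k, hk, hd⟩ := exists_del' h1 h0 (inv_mem hg') hq''
    refine ⟨x, k, hk, ?_⟩
    rw [D2, Matrix.adjugate_mul_distrib, adj_dlt', adj_coe, mul_assoc, hd.dlt, ← mul_assoc,
      ← sl_coe_mul, ← _root_.mul_inv_rev, ← e, inv_inv]
  · intro i j _ _ _
    rfl

/-- Hecke operators on intersection homomorphisms -/
theorem opc_T_J (h1 : Gamma1 N ≤ G) (h0 : G ≤ Gamma0 N) {l : ℕ} (hl : l.Prime)
    (hNl : IsCoprime (N : ℤ) (l : ℤ)) (m : Mat) {g : SL(2, ℤ)} (hg : g ∈ G) :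
    opc G (TD N l) (Jm G m) g =
      ∑ x, Jm G ((((diaEl N l)⁻¹ : SL(2, ℤ)) : Mat) * TD N l x * m) g := by
  set σ := diaEl N l with hσ
  have hl0 : (0 : ℤ) < l := by exact_mod_cast hl.pos
  obtain ⟨a, ha⟩ := mem_G0.mp (diaEl_mem N l)
  rw [← hσ] at ha
  obtain ⟨b, hb⟩ := diaEl_00 hNl
  rw [← hσ] at hb
  obtain ⟨c, hc⟩ := diaEl_11 hNl
  rw [← hσ] at hc
  have cancel : ∀ {X Y : Mat}, X.det ≠ 0 → Y * X = X → Y = 1 := by
    intro X Y hX h
    exact mat_cancel_right hX (by rw [h, one_mul])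
  refine opc_J (corr_TD h1 h0 hl hNl) (fun x => ?_) ?_ ?_ ?_ m hg
  · rw [Matrix.det_mul, (σ⁻¹).det_coe, one_mul, TD_det]; exact hl0
  · intro x h hh
    have hMd : (adjugate (TD N l x) * (h : Mat)).det = l := by
      rw [Matrix.det_mul, h.det_coe, mul_one, Matrix.det_adjugate, TD_det]; simp
    obtain ⟨y, h₀, e⟩ := exists_TD (N := N) hl _ hMd
    refine ⟨y, h₀ * σ, ?_, ?_⟩
    · obtain ⟨a1, ha1⟩ := (TD_gmat hNl x).d10
      obtain ⟨b1, hb1⟩ := (TD_gmat hNl x).d00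
      obtain ⟨a2, ha2⟩ := (TD_gmat hNl y).d10
      obtain ⟨b2, hb2⟩ := (TD_gmat hNl y).d00
      obtain ⟨k, hk⟩ := mem_G0.mp (h0 hh)
      have hdetx := TD_det N l x
      rw [Matrix.det_fin_two, ha1] at hdetx
      have e10 := congrFun (congrFun e 1) 0
      have e00 := congrFun (congrFun e 0) 0
      simp only [Matrix.mul_apply, Fin.sum_univ_two, Matrix.adjugate_fin_two, Matrix.of_apply,
        Matrix.cons_val', Matrix.cons_val_zero, Matrix.cons_val_one,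
        Matrix.cons_val_fin_one] at e10 e00
      rw [ha1, hk, ha2] at e10
      rw [hk, ha2] at e00
      -- h₀ 1 0 ≡ 0, h₀ 0 0 ≡ l h 0 0
      have f10 : h₀ 1 0 = N * (-(a1 * h 0 0) + TD N l x 0 0 * k - h₀ 1 0 * b2 - h₀ 1 1 * a2) := by
        linear_combination -e10 - h₀ 1 0 * hb2
      have f11 : TD N l x 1 1 = l + N * (TD N l x 0 1 * a1 - b1 * TD N l x 1 1) := by
        linear_combination hdetx - TD N l x 1 1 * hb1
      have f00 : h₀ 0 0 = l * h 0 0 + N * ((TD N l x 0 1 * a1 - b1 * TD N l x 1 1) * h 0 0 -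
          TD N l x 0 1 * k - h₀ 0 0 * b2 - h₀ 0 1 * a2) := by
        linear_combination -e00 - h₀ 0 0 * hb2 + h 0 0 * f11
      refine mem_of_congr' h1 hh ⟨k, hk⟩ ?_ ?_
      · rw [sl_mul_10, ha, f10]
        exact ⟨(-(a1 * h 0 0) + TD N l x 0 0 * k - h₀ 1 0 * b2 - h₀ 1 1 * a2) * σ 0 0 +
          h₀ 1 1 * a, by ring⟩
      · refine ⟨h 0 0 * b + ((TD N l x 0 1 * a1 - b1 * TD N l x 1 1) * h 0 0 -
          TD N l x 0 1 * k - h₀ 0 0 * b2 - h₀ 0 1 * a2) * σ 0 0 + h₀ 0 1 * a, ?_⟩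
        rw [sl_mul_00, ha]
        linear_combination σ 0 0 * f00 + h 0 0 * hb
    · rw [e, sl_coe_mul, mul_assoc, ← mul_assoc (σ : Mat), ← sl_coe_mul, mul_inv_cancel]
      congr 1
      exact (one_mul _).symm
  · intro y h' hh'
    set M : Mat := (h' : Mat) * ((((σ)⁻¹ : SL(2, ℤ)) : Mat) * TD N l y) with hM
    have hMd : M.det = l := by
      rw [hM, Matrix.det_mul, Matrix.det_mul, h'.det_coe, (σ⁻¹).det_coe, one_mul, one_mul,
        TD_det]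
    have hMd' : (adjugate M).det = l := by rw [Matrix.det_adjugate, hMd]; simp
    obtain ⟨x, h₀, e⟩ := exists_TD (N := N) hl _ hMd'
    have hmem : h₀ ∈ G := by
      obtain ⟨a1, ha1⟩ := (TD_gmat hNl x).d10
      obtain ⟨b1, hb1⟩ := (TD_gmat hNl x).d00
      obtain ⟨a2, ha2⟩ := (TD_gmat hNl y).d10
      obtain ⟨b2, hb2⟩ := (TD_gmat hNl y).d00
      obtain ⟨k, hk⟩ := mem_G0.mp (h0 hh')
      have i00 : (σ⁻¹) 0 0 = σ 1 1 := by simp [adjugate_fin_two]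
      have i01 : (σ⁻¹) 0 1 = -σ 0 1 := by simp [adjugate_fin_two]
      have i10 : (σ⁻¹) 1 0 = -σ 1 0 := by simp [adjugate_fin_two]
      have i11 : (σ⁻¹) 1 1 = σ 0 0 := by simp [adjugate_fin_two]
      have m10 : M 1 0 = N * (k * (σ 1 1 * TD N l y 0 0 - σ 0 1 * (N * a2)) +
          h' 1 1 * (-a * TD N l y 0 0 + σ 0 0 * a2)) := by
        rw [hM]
        simp only [Matrix.mul_apply, Fin.sum_univ_two, i00, i01, i10, i11]
        rw [hk, ha, ha2]; ring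
      have m00 : M 0 0 = h' 0 0 * l + N * (h' 0 0 * (c * TD N l y 0 0 + l * b2 - σ 0 1 * a2) +
          h' 0 1 * (-a * TD N l y 0 0 + σ 0 0 * a2)) := by
        rw [hM]
        simp only [Matrix.mul_apply, Fin.sum_univ_two, i00, i01, i10, i11]
        rw [ha, ha2]
        linear_combination h' 0 0 * TD N l y 0 0 * hc + h' 0 0 * l * hb2
      have e10 := congrFun (congrFun e 1) 0
      have e00 := congrFun (congrFun e 0) 0
      simp only [Matrix.mul_apply, Fin.sum_univ_two, Matrix.adjugate_fin_two, Matrix.of_apply,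
        Matrix.cons_val', Matrix.cons_val_zero, Matrix.cons_val_one,
        Matrix.cons_val_fin_one] at e10 e00
      rw [ha1] at e10 e00
      have hdM := hMd
      rw [Matrix.det_fin_two, m00, m10] at hdM
      -- `h' 0 0 * M 1 1 ≡ 1`
      have hinv : (N : ℤ) ∣ h' 0 0 * M 1 1 - 1 := by
        refine hNl.dvd_of_dvd_mul_left (?_ : (N : ℤ) ∣ l * (h' 0 0 * M 1 1 - 1))
        refine ⟨M 0 1 * (k * (σ 1 1 * TD N l y 0 0 - σ 0 1 * (N * a2)) +
          h' 1 1 * (-a * TD N l y 0 0 + σ 0 0 * a2)) -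
          (h' 0 0 * (c * TD N l y 0 0 + l * b2 - σ 0 1 * a2) +
          h' 0 1 * (-a * TD N l y 0 0 + σ 0 0 * a2)) * M 1 1, ?_⟩
        linear_combination hdM
      obtain ⟨r, hr⟩ := hinv
      have hdh := det2 h'
      rw [hk] at hdh
      have j00 : (h'⁻¹) 0 0 = h' 1 1 := by simp [adjugate_fin_two]
      have j10 : (h'⁻¹) 1 0 = -h' 1 0 := by simp [adjugate_fin_two]
      have f10 : h₀ 1 0 = N * (-(k * (σ 1 1 * TD N l y 0 0 - σ 0 1 * (N * a2)) +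
          h' 1 1 * (-a * TD N l y 0 0 + σ 0 0 * a2)) - h₀ 1 0 * b1 - h₀ 1 1 * a1) := by
        linear_combination -e10 - h₀ 1 0 * hb1 - m10
      have f00 : h₀ 0 0 = M 1 1 + N * (-(h₀ 0 0 * b1) - h₀ 0 1 * a1) := by
        linear_combination -e00 - h₀ 0 0 * hb1
      refine mem_of_congr' h1 (inv_mem hh') ⟨-k, by rw [j10, hk]; ring⟩ ⟨_, f10⟩ ?_
      rw [j00, f00]
      -- `M 1 1 - h' 1 1 ≡ 0`
      refine ⟨h' 1 1 * r + (-(h₀ 0 0 * b1) - h₀ 0 1 * a1) - h' 0 1 * k * M 1 1, ?_⟩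
      linear_combination h' 1 1 * hr - M 1 1 * hdh
    refine ⟨x, h₀⁻¹, inv_mem hmem, ?_⟩
    have e2 := congrArg adjugate e
    rw [Matrix.adjugate_adjugate M (by simp), Matrix.adjugate_mul_distrib, adj_coe] at e2
    simp only [Fintype.card_fin, tsub_self, pow_zero, one_smul] at e2
    exact e2
  · intro i j h hh e
    refine TD_unique (N := N) hl (h := σ * h * σ⁻¹) ?_
    have h3 : TD N l i = (σ : Mat) * ((((σ)⁻¹ : SL(2, ℤ)) : Mat) * TD N l i) := by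
      rw [← mul_assoc, ← sl_coe_mul, mul_inv_cancel]; exact (one_mul _).symm
    rw [h3, e, sl_coe_mul, sl_coe_mul]
    simp only [mul_assoc]

end Fermat.Agent.RT.Ihara
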