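import Fermat.Agent.RT.DegId

set_option autoImplicit false

/-!
# The new part: `U_q² = 1` on the kernel of the two transfers
-/

open Matrix CongruenceSubgroup
open scoped MatrixGroups

namespace Fermat.Agent.RT.Ihara

variable {G : Subgroup SL(2, ℤ)} {N q n : ℕ}
variable {O A : Type*} [CommRing O] [AddCommGroup A] [Module O A]
variable (h1 : Gamma1 N ≤ G) (h0 : G ≤ Gamma0 N) (hq : q.Prime) (hqN : IsCoprime (N : ℤ) (q : ℤ))

theorem D2_some (i : Fin q) : D2 N q (some i) = Mx q (some i) := by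
  ext a b
  fin_cases a <;> fin_cases b <;>
    simp [D2, rr2, dlt', Mx, up, sl, Matrix.mul_apply, Fin.sum_univ_two]

include h1 h0 hq hqN in
/-- the action of `G ∩ Γ₀(q)` on the matrix of the Atkin–Lehner operator -/
theorem W_act {g : SL(2, ℤ)} (hg : g ∈ Gq G q) : ∃ g' ∈ Gq G q,
    D2 N q none * (g : Mat) = (g' : Mat) * D2 N q none := by
  obtain ⟨y, g', hg', e⟩ := (corr_D2 h1 h0 hq hqN).act none g (Gq_le hg)
  rcases y with _ | j
  · exact ⟨g', hg', e⟩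
  · exfalso
    have HU := (gfam_U hq.ne_zero (dvd_mul_left q N)).corrG (le_Gq h1) (Gq_le_Gamma0 h0 hqN)
    obtain ⟨j', g'', hg'', e'⟩ := HU.act j g⁻¹ (inv_mem hg)
    have h2 : (g : Mat) * ((g⁻¹ : SL(2, ℤ)) : Mat) = 1 := by
      rw [← sl_coe_mul, mul_inv_cancel]; rfl
    have h3 : D2 N q none = ((g' * g'' : SL(2, ℤ)) : Mat) * D2 N q (some j') := by
      rw [sl_coe_mul, mul_assoc, D2_some, ← e', ← mul_assoc, ← D2_some (N := N), ← e, mul_assoc,
        h2, mul_one]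
    have := (corr_D2 h1 h0 hq hqN).inj none (some j') _ (mul_mem hg' hg'') h3
    exact absurd this (by simp)

include h1 h0 hq hqN in
theorem corr_W : Corr (Gq G q) (Gq G q) (fun _ : Unit => D2 N q none) where
  det _ := by rw [D2_det]; exact_mod_cast hq.ne_zero
  act _ g hg := by
    obtain ⟨g', hg', e⟩ := W_act h1 h0 hq hqN hg
    exact ⟨(), g', hg', e⟩
  inj _ _ _ _ _ := rfl

/-- the Atkin–Lehner operator -/
noncomputable def opW : H1 O A (Gq G q) →ₗ[O] H1 O A (Gq G q) := opH (corr_W h1 h0 hq hqN)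

theorem opW_apply (c : H1 O A (Gq G q)) {g g' : SL(2, ℤ)} (hg : g ∈ Gq G q) (hg' : g' ∈ Gq G q)
    (e : D2 N q none * (g : Mat) = (g' : Mat) * D2 N q none) :
    (opW h1 h0 hq hqN c).1 ⟨g, hg⟩ = c.1 ⟨g', hg'⟩ := by
  rw [opW, opH_apply, (corr_W h1 h0 hq hqN).opc_eq (addOn_ex c) hg (γ := fun _ => g') (σ := id)
    (fun _ => hg') (fun _ => e), Fintype.sum_unique, ex_apply _ hg']

/-- restriction of the second transfer -/
theorem degA_tr2 (c : H1 O A (Gq G q)) : resH Gq_le (tr2 h1 h0 hq hqN c) =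
    hec (le_Gq h1) (Gq_le_Gamma0 h0 hqN) q c + opW h1 h0 hq hqN c := by
  apply Subtype.ext
  funext g
  rw [hec_Uq h1 h0 hq hqN]
  have H := (gfam_U hq.ne_zero (dvd_mul_left q N)).corrG (le_Gq h1) (Gq_le_Gamma0 h0 hqN)
  obtain ⟨σ, γ, hγ, e⟩ := H.exists_perm g.2
  obtain ⟨g', hg', hd⟩ := W_act h1 h0 hq hqN g.2
  change _ = (opH H c).1 g + (opW h1 h0 hq hqN c).1 g
  rw [opH_apply, H.opc_eq (addOn_ex _) g.2 hγ e, opW_apply h1 h0 hq hqN _ g.2 hg' hd,
    resH_apply, tr2, opH_apply,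
    (corr_D2 h1 h0 hq hqN).opc_eq (addOn_ex c) (Gq_le g.2)
    (γ := fun x => x.elim g' γ) (σ := fun x => x.elim none (fun j => some (σ j))) ?_ ?_]
  · rw [Fintype.sum_option, add_comm]
    change (∑ x : Fin q, ex c.1 (γ x)) + ex c.1 g' = _
    rw [ex_apply _ hg']
  · rintro (_ | j)
    · exact hg'
    · exact hγ j
  · rintro (_ | j)
    · exact hd
    · change D2 N q (some j) * (g : Mat) = (γ j : Mat) * D2 N q (some (σ j))
      rw [D2_some, D2_some]
      exact e j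

/-! ### The first transfer -/

/-- `(1 + y N) / q` -/
noncomputable def cq (N q : ℕ) : ℤ := (N * yq N q + 1) / q

theorem cq_spec (hqN : IsCoprime (N : ℤ) (q : ℤ)) : (q : ℤ) * cq N q = N * yq N q + 1 :=
  Int.mul_ediv_cancel' (yq_spec hqN)

/-- the transversal coming from `W U_q` -/
noncomputable def ss (hqN : IsCoprime (N : ℤ) (q : ℤ)) (j : Fin q) : SL(2, ℤ) :=
  sl (cq N q) (cq N q * ((j : ℕ) : ℤ) + yq N q) N (N * ((j : ℕ) : ℤ) + q) (by
    have := cq_spec hqN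
    linear_combination this)

theorem WU (j : Fin q) : D2 N q none * Mx q (some j) = (q : ℤ) • (ss hqN j : Mat) := by
  have h := cq_spec hqN
  ext a b
  fin_cases a <;> fin_cases b <;>
    simp [D2, rr2, dlt', Mx, up, lo, sl, ss, Matrix.mul_apply, Fin.sum_univ_two]
  · linear_combination -h
  · linear_combination (-((j : ℕ) : ℤ)) * h
  · ring

theorem ss_mem (j : Fin q) : ss hqN j ∈ Gamma0 N := by
  rw [mem_G0]
  exact dvd_rfl

/-- another transversal -/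
noncomputable def Es (hqN : IsCoprime (N : ℤ) (q : ℤ)) : Option (Fin q) → SL(2, ℤ)
  | none => 1
  | some j => ss hqN j

theorem Es_mem (x : Option (Fin q)) : Es hqN x ∈ Gamma0 N := by
  rcases x with _ | j
  · exact one_mem _
  · exact ss_mem hqN j

include hq in
theorem Es_inj {x y : Option (Fin q)} {g : SL(2, ℤ)} (hg : g ∈ Gq (Gamma0 N) q)
    (e : Es hqN x = g * Es hqN y) : x = y := by
  have hqp : Prime (q : ℤ) := Nat.prime_iff_prime_int.mp hq
  have h2 : (q : ℤ) ∣ (Es hqN x * (Es hqN y)⁻¹) 1 0 := by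
    rw [e, mul_inv_cancel_right]
    exact (mem_Gq.mp hg).2
  rw [mul_inv_10] at h2
  rcases x with _ | i <;> rcases y with _ | j
  · rfl
  · exfalso
    have h3 : (q : ℤ) ∣ 0 * (ss hqN j) 1 1 - 1 * (N : ℤ) := h2
    rw [zero_mul, zero_sub, one_mul, dvd_neg] at h3
    exact not_dvd_N hq hqN h3
  · exfalso
    have h3 : (q : ℤ) ∣ (N : ℤ) * 1 - (ss hqN i) 1 1 * 0 := h2
    rw [mul_one, mul_zero, sub_zero] at h3
    exact not_dvd_N hq hqN h3
  · have h3 : (q : ℤ) ∣ (N : ℤ) * (N * ((j : ℕ) : ℤ) + q) - (N * ((i : ℕ) : ℤ) + q) * N := h2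
    have h4 : (q : ℤ) ∣ (N : ℤ) * (N * (((j : ℕ) : ℤ) - ((i : ℕ) : ℤ))) := by
      obtain ⟨k, hk⟩ := h3
      exact ⟨k, by linear_combination hk⟩
    have h5 := (hqp.dvd_or_dvd h4).resolve_left (not_dvd_N hq hqN)
    have h6 := (hqp.dvd_or_dvd h5).resolve_left (not_dvd_N hq hqN)
    rw [fin_eq_of_dvd h6]

include hq in
theorem corr_Es_aux : ∃ f : Option (Fin q) ≃ Option (Fin q), ∀ x, ∃ g ∈ Gq (Gamma0 N) q,
    (Es hqN x : Mat) = (g : Mat) * D1 N q (f x) := by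
  choose f γ hγ e using fun x => exists_D1 (N := N) (Gamma1_le N) hq hqN (Es_mem hqN x)
  have hf : Function.Injective f := by
    intro x y hxy
    refine Es_inj hq hqN (g := γ x * (γ y)⁻¹) (mul_mem (hγ x) (inv_mem (hγ y))) ?_
    rw [e x, e y, hxy]
    group
  refine ⟨Equiv.ofBijective f (Finite.injective_iff_bijective.mp hf), fun x => ⟨γ x, hγ x, ?_⟩⟩
  rw [e x, sl_coe_mul]
  rfl

theorem degA_tr1 (c : H1 O A (Gq (Gamma0 N) q)) : resH Gq_le (tr1 (Gamma1_le N) hq hqN c) =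
    c + hec (le_Gq (Gamma1_le N)) (Gq_le_Gamma0 le_rfl hqN) q
      (opW (Gamma1_le N) le_rfl hq hqN c) := by
  obtain ⟨f, hf⟩ := corr_Es_aux hq hqN
  have K : Corr (Gq (Gamma0 N) q) (Gamma0 N) (fun x => (Es hqN x : Mat)) :=
    (corr_D1 (Gamma1_le N) hq hqN).of_equiv f hf
  apply Subtype.ext
  funext g
  have hK : (tr1 (Gamma1_le N) hq hqN c).1 ⟨g, Gq_le g.2⟩ =
      opc (Gq (Gamma0 N) q) (fun x => (Es hqN x : Mat)) (ex c.1) g := by
    rw [tr1, opH_apply]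
    refine (opc_eq_of_equiv K (corr_D1 (Gamma1_le N) hq hqN) (addOn_ex c) f (fun x => ?_)
      (Gq_le g.2)).symm
    obtain ⟨γ, hγ, e⟩ := hf x
    exact ⟨1, 1, one_pos, one_pos, γ, hγ, by rw [e]⟩
  rw [hec_Uq (Gamma1_le N) le_rfl hq hqN, resH_apply, hK]
  have H := (gfam_U hq.ne_zero (dvd_mul_left q N)).corrG (le_Gq (Gamma1_le N))
    (Gq_le_Gamma0 le_rfl hqN)
  obtain ⟨σ, γ, hγ, e⟩ := H.exists_perm g.2
  choose γ' hγ' hd using fun j => W_act (Gamma1_le N) le_rfl hq hqN (hγ j)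
  change _ = c.1 g + (opH H (opW (Gamma1_le N) le_rfl hq hqN c)).1 g
  rw [opH_apply, H.opc_eq (addOn_ex _) g.2 hγ e,
    K.opc_eq (addOn_ex c) (Gq_le g.2)
    (γ := fun x => x.elim (g : SL(2, ℤ)) γ') (σ := fun x => x.elim none (fun j => some (σ j))) ?_ ?_]
  · rw [Fintype.sum_option]
    change ex c.1 g + (∑ x : Fin q, ex c.1 (γ' x)) = _
    rw [ex_apply _ g.2]
    congr 1
    refine Finset.sum_congr rfl fun x _ => ?_
    rw [ex_apply _ (hγ' x), ex_apply _ (hγ x),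
      opW_apply (Gamma1_le N) le_rfl hq hqN c (hγ x) (hγ' x) (hd x)]
  · rintro (_ | j)
    · exact g.2
    · exact hγ' j
  · rintro (_ | j)
    · change ((1 : SL(2, ℤ)) : Mat) * ((g : SL(2, ℤ)) : Mat) =
        ((g : SL(2, ℤ)) : Mat) * ((1 : SL(2, ℤ)) : Mat)
      rw [← sl_coe_mul, ← sl_coe_mul, one_mul, mul_one]
    · change (ss hqN j : Mat) * ((g : SL(2, ℤ)) : Mat) = (γ' j : Mat) * (ss hqN (σ j) : Mat)
      have hq0 : (q : ℤ) ≠ 0 := by exact_mod_cast hq.ne_zero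
      apply smul_right_injective _ hq0
      change (q : ℤ) • ((ss hqN j : Mat) * ((g : SL(2, ℤ)) : Mat)) =
        (q : ℤ) • ((γ' j : Mat) * (ss hqN (σ j) : Mat))
      rw [← Matrix.smul_mul, ← WU, mul_assoc, e, ← mul_assoc, hd, mul_assoc, WU, Matrix.mul_smul]

/-- **On the new part, `U_q² = 1`.** -/
theorem Uq_sq_of_new (c : H1 O A (Gq (Gamma0 N) q)) (h1c : tr1 (Gamma1_le N) hq hqN c = 0)
    (h2c : tr2 (Gamma1_le N) le_rfl hq hqN c = 0) :
    hec (le_Gq (Gamma1_le N)) (Gq_le_Gamma0 le_rfl hqN) q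
      (hec (le_Gq (Gamma1_le N)) (Gq_le_Gamma0 le_rfl hqN) q c) = c := by
  have e1 := degA_tr1 hq hqN c
  have e2 := degA_tr2 (Gamma1_le N) le_rfl hq hqN c
  rw [h1c, map_zero] at e1
  rw [h2c, map_zero] at e2
  have e3 : hec (le_Gq (Gamma1_le N)) (Gq_le_Gamma0 le_rfl hqN) q c =
      -opW (Gamma1_le N) le_rfl hq hqN c := eq_neg_of_add_eq_zero_left e2.symm
  rw [e3, map_neg]
  exact (neg_eq_of_add_eq_zero_left e1.symm)

end Fermat.Agent.RT.Ihara
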