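import Fermat.Agent.RT.DualIhara

set_option autoImplicit false

/-!
# The dual form of Ihara's lemma: the theorem
-/

open Matrix CongruenceSubgroup
open scoped MatrixGroups

namespace Fermat.Agent.RT.Ihara

variable {G : Subgroup SL(2, ℤ)} {N q : ℕ}
variable {O V : Type*} [CommRing O] [AddCommGroup V] [Module O V]

/-- invariant additive functions on pairs of cusps -/
structure Phi (N : ℕ) (φ : ℤ × ℤ → ℤ × ℤ → V) : Prop where
  add : ∀ u v w, u ≠ 0 → v ≠ 0 → w ≠ 0 → φ u v + φ v w = φ u w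
  smul : ∀ r s : ℤ, r ≠ 0 → s ≠ 0 → ∀ u v, φ (r • u) (s • v) = φ u v
  inv : ∀ σ ∈ Gamma0 N, ∀ u v, φ (act (σ : Mat) u) (act (σ : Mat) v) = φ u v

namespace Phi

variable {φ : ℤ × ℤ → ℤ × ℤ → V} (H : Phi N φ)
include H

theorem self {u : ℤ × ℤ} (hu : u ≠ 0) : φ u u = 0 := by
  have := H.add u u u hu hu hu
  simpa using this

theorem swap {u v : ℤ × ℤ} (hu : u ≠ 0) (hv : v ≠ 0) : φ v u = -φ u v := by
  have := H.add u v u hu hv hu
  rw [H.self hu] at this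
  exact (neg_eq_of_add_eq_zero_right this).symm

theorem smul_right {n : ℤ} (hn : n ≠ 0) (u v : ℤ × ℤ) : φ u (n • v) = φ u v := by
  have := H.smul 1 n one_ne_zero hn u v
  rwa [one_smul] at this

theorem smul_left {n : ℤ} (hn : n ≠ 0) (u v : ℤ × ℤ) : φ (n • u) v = φ u v := by
  have := H.smul n 1 hn one_ne_zero u v
  rwa [one_smul] at this

theorem act_sl_ne (g : SL(2, ℤ)) {u : ℤ × ℤ} (hu : u ≠ 0) : act (g : Mat) u ≠ 0 :=
  act_ne (by rw [g.det_coe]; norm_num) hu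

theorem prim (h0 : G ≤ Gamma0 N) {a : ℤ × ℤ} (ha : a ≠ 0) :
    IsPrim G (fun g => φ a (act (g : Mat) a)) (fun M => φ a (act M a)) where
  mul := by
    intro g hg M hM
    have hne := H.act_sl_ne g ha
    have hne2 := act_ne hM ha
    rw [act_mul]
    rw [← H.add a (act (g : Mat) a) (act (g : Mat) (act M a)) ha hne (H.act_sl_ne g hne2),
      H.inv g (h0 hg)]
  scal := by
    intro n hn M hM
    rw [smul_act, H.smul_right hn.ne']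

theorem addOn (h0 : G ≤ Gamma0 N) {a : ℤ × ℤ} (ha : a ≠ 0) :
    AddOn G (fun g : SL(2, ℤ) => φ a (act (g : Mat) a)) := (H.prim h0 ha).addOn

/-- independence of the base point -/
theorem base {g : SL(2, ℤ)} (hg : g ∈ Gamma0 N) {a b : ℤ × ℤ} (ha : a ≠ 0) (hb : b ≠ 0) :
    φ b (act (g : Mat) b) = φ a (act (g : Mat) a) := by
  have hga := H.act_sl_ne g ha
  have hgb := H.act_sl_ne g hb
  have e1 := H.add b a (act (g : Mat) b) hb ha hgb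
  have e2 := H.add a (act (g : Mat) a) (act (g : Mat) b) ha hga hgb
  rw [H.inv g hg] at e2
  rw [← e1, ← e2, H.swap ha hb]
  abel

theorem dia {a : ℤ × ℤ} (ha : a ≠ 0) {g h : SL(2, ℤ)} (hg : g ∈ Gamma0 N) (hh : h ∈ Gamma0 N) :
    φ a (act ((h * g * h⁻¹ : SL(2, ℤ)) : Mat) a) = φ a (act (g : Mat) a) := by
  have hb := H.act_sl_ne h⁻¹ ha
  rw [← H.inv h⁻¹ (inv_mem hh) a, ← act_mul, ← sl_coe_mul]
  have : h⁻¹ * (h * g * h⁻¹) = g * h⁻¹ := by group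
  rw [this, sl_coe_mul, act_mul]
  exact H.base hg ha hb

theorem hecke (h1 : Gamma1 N ≤ G) (h0 : G ≤ Gamma0 N) {l : ℕ} (hl : l.Prime)
    (hNl : IsCoprime (N : ℤ) (l : ℤ)) {θ : O}
    (hT : ∀ u v, u ≠ 0 → v ≠ 0 →
      θ • φ u v = ∑ x, φ (act (TD N l x) u) (act (TD N l x) v))
    {a : ℤ × ℤ} (ha : a ≠ 0) {g : SL(2, ℤ)} (hg : g ∈ G) :
    opc G (TD N l) (fun g : SL(2, ℤ) => φ a (act (g : Mat) a)) g = θ • φ a (act (g : Mat) a) := by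
  have HT := corr_TD h1 h0 hl hNl
  rw [HT.opc_eq_prim (H.prim h0 ha) hg, hT _ _ ha (H.act_sl_ne g ha)]
  refine Finset.sum_congr rfl fun x _ => ?_
  have h2 := act_ne (HT.det x) ha
  have h3 := act_ne (HT.det x) (H.act_sl_ne g ha)
  rw [act_mul, ← H.add a (act (TD N l x) a) (act (TD N l x) (act (g : Mat) a)) ha h2 h3,
    add_sub_cancel_left]

/-- the vanishing criterion -/
theorem zero (h1 : Gamma1 N ≤ G) (h0 : G ≤ Gamma0 N) {l : ℕ} (hl : l.Prime)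
    (hNl : IsCoprime (N : ℤ) (l : ℤ)) (hl1 : (N : ℤ) ∣ (l : ℤ) - 1) {θ : O}
    (hu : IsUnit (θ - ((l : O) + 1)))
    (hT : ∀ u v, u ≠ 0 → v ≠ 0 →
      θ • φ u v = ∑ x, φ (act (TD N l x) u) (act (TD N l x) v))
    {a : ℤ × ℤ} (ha : a ≠ 0) (hz : ∀ g ∈ G, φ a (act (g : Mat) a) = 0)
    {u v : ℤ × ℤ} (hu0 : u ≠ 0) (hv0 : v ≠ 0) : φ u v = 0 := by
  have hz' : ∀ b : ℤ × ℤ, b ≠ 0 → ∀ g ∈ G, φ b (act (g : Mat) b) = 0 := fun b hb g hg => by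
    rw [H.base (h0 hg) ha hb, hz g hg]
  obtain ⟨f, hf⟩ := exists_equiv_TD h1 h0 hl hNl (PD_gmat hl1 1) (PD_det N l 1)
    (fun x y g => PD_inj hl hNl 1 x y g)
  have hl0 : (l : ℤ) ≠ 0 := by exact_mod_cast hl.ne_zero
  -- the sum over the adapted family
  have s1 : ∑ x, φ (act (TD N l x) u) (act (TD N l x) v) =
      ∑ x, φ (act (PD N l 1 x) u) (act (PD N l 1 x) v) := by
    rw [← Equiv.sum_comp f]
    refine Finset.sum_congr rfl fun x _ => ?_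
    obtain ⟨g, hg, e⟩ := hf x
    rw [e, act_mul, act_mul, H.inv g (h0 hg)]
  -- entries of the adapted family
  have hP : ∀ x, (N : ℤ) ∣ PD N l 1 x 0 0 - 1 ∧ (N : ℤ) ∣ PD N l 1 x 0 1 ∧
      (N : ℤ) ∣ PD N l 1 x 1 0 ∧ (N : ℤ) ∣ PD N l 1 x 1 1 - 1 := by
    rintro (_ | j)
    · have : PD N l 1 none = !![(l : ℤ), 0; 0, 1] := by
        simp [PD]
      rw [this]
      simpa using hl1
    · have : PD N l 1 (some j) = !![1, (N : ℤ) * ((j : ℕ) : ℤ); 0, l] := by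
        simp [PD]
      rw [this]
      simpa using hl1
  have hcusp : ∀ x, ∀ w : ℤ × ℤ, w ≠ 0 → φ w (act (PD N l 1 x) w) = 0 := by
    intro x w hw
    obtain ⟨p00, p01, p10, p11⟩ := hP x
    obtain ⟨g, hg, n, n', hn, hn', e⟩ := exists_cusp_eq hl hl1 (PD_det N l 1 x) p00 p01 p10 p11 hw
    rw [← H.smul_right hn, e, H.smul_right hn']
    exact hz' w hw g (h1 hg)
  have s2 : ∀ x, φ (act (PD N l 1 x) u) (act (PD N l 1 x) v) = φ u v := by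
    intro x
    have hd : (PD N l 1 x).det ≠ 0 := by rw [PD_det]; exact hl0
    have hPu := act_ne hd hu0
    have hPv := act_ne hd hv0
    rw [← H.add _ u _ hPu hu0 hPv, ← H.add u v _ hu0 hv0 hPv, hcusp x v hv0,
      H.swap hu0 hPu, hcusp x u hu0]
    simp
  have key := hT u v hu0 hv0
  rw [s1, Finset.sum_congr rfl fun x _ => s2 x, Finset.sum_const, Finset.card_univ,
    Fintype.card_option, Fintype.card_fin] at key
  have hcast : (l + 1) • φ u v = ((l : O) + 1) • φ u v := by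
    rw [add_smul, one_smul, add_smul, one_smul, Nat.cast_smul_eq_nsmul]
  rw [hcast, ← sub_eq_zero, ← sub_smul] at key
  obtain ⟨w, hw⟩ := hu
  rw [← hw] at key
  have h2 := congrArg (fun y => ((w⁻¹ : Oˣ) : O) • y) key
  simpa [smul_smul] using h2

end Phi

/-- functionals define invariant additive functions on pairs of cusps -/
theorem phi_of_functional (h1 : Gamma1 N ≤ G) (h0 : G ≤ Gamma0 N) (lam : H1 O O G →ₗ[O] V)
    (dia : ∀ σ : Gamma0 N, ∀ c, lam (diaH h1 h0 σ c) = lam c) :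
    Phi N (fun u v => lam (JH O G (cm u v))) where
  add u v w hu hv hw := by
    rw [← map_add]
    congr 1
    apply Subtype.ext
    ext g
    change ((Jm G (cm u v) g : ℤ) : O) + ((Jm G (cm v w) g : ℤ) : O) = ((Jm G (cm u w) g : ℤ) : O)
    rw [← J_cocycle hu hv hw g.2]
    push_cast; rfl
  smul r s hr hs u v := by
    congr 1
    apply Subtype.ext
    ext g
    rw [JH_apply, JH_apply, J_cm_smul hr hs]
  inv σ hσ u v := by
    rw [← dia (⟨σ, hσ⟩⁻¹ : Gamma0 N) (JH O G (cm u v))]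
    congr 1
    apply Subtype.ext
    ext g
    rw [diaH_apply, JH_apply, JH_apply, cm_act, J_conj (G := G) (fun g => ?_) _ g.2]
    · simp
    · constructor
      · intro hg; exact conj_mem_G h1 h0 hg hσ
      · intro hg
        have := conj_mem_G h1 h0 hg (inv_mem hσ)
        have e : σ⁻¹ * (σ * g * σ⁻¹) * σ⁻¹⁻¹ = g := by group
        rwa [e] at this

theorem phi_hecke (h1 : Gamma1 N ≤ G) (h0 : G ≤ Gamma0 N) (lam : H1 O O G →ₗ[O] V)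
    (dia : ∀ σ : Gamma0 N, ∀ c, lam (diaH h1 h0 σ c) = lam c) {l : ℕ} (hl : l.Prime)
    (hNl : IsCoprime (N : ℤ) (l : ℤ)) {θ : O}
    (hT : ∀ c, lam (opH (corr_TD h1 h0 hl hNl) c) = θ • lam c) (u v : ℤ × ℤ) :
    θ • lam (JH O G (cm u v)) =
      ∑ x, lam (JH O G (cm (act (TD N l x) u) (act (TD N l x) v))) := by
  have H := phi_of_functional h1 h0 lam dia
  rw [← hT, opH_JH _ (cm u v) (fun x => (((diaEl N l)⁻¹ : SL(2, ℤ)) : Mat) * TD N l x * cm u v)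
    (fun g hg => opc_T_J h1 h0 hl hNl _ hg), map_sum]
  refine Finset.sum_congr rfl fun x _ => ?_
  rw [mul_assoc, ← cm_act, ← cm_act]
  exact H.inv _ (inv_mem (diaEl_mem N l)) _ _

/-- a functional vanishing on all intersection homomorphisms vanishes -/
theorem functional_zero [G.FiniteIndex] (h3 : ∀ c : H1 O O G, ∀ g : G, g ^ 3 = 1 → c.1 g = 0)
    (h8 : ∀ v : V, (8 : ℕ) • v = 0 → v = 0) {lam : H1 O O G →ₗ[O] V}
    (hz : ∀ u v : ℤ × ℤ, u ≠ 0 → v ≠ 0 → lam (JH O G (cm u v)) = 0) : lam = 0 := by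
  ext c
  rw [LinearMap.zero_apply]
  apply h8
  obtain ⟨ι, _, m, w, hw⟩ := exists_J_decomp (addOn_ex c) (fun g hg hg3 => by
    rw [ex_apply _ hg]
    exact h3 c ⟨g, hg⟩ (Subtype.ext hg3))
  have e : (8 : ℕ) • c = ∑ x, w x • JH O G (m x : Mat) := by
    apply Subtype.ext
    ext g
    have h5 := hw g g.2
    rw [ex_apply _ g.2] at h5
    rw [AddSubmonoidClass.coe_finset_sum, Finset.sum_apply]
    change (8 : ℕ) • c.1 g = ∑ x, w x • ((Jm G (m x) g : ℤ) : O)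
    rw [h5]
    refine Finset.sum_congr rfl fun x _ => ?_
    rw [zsmul_eq_mul, smul_eq_mul, mul_comm]
  rw [← map_nsmul, e, map_sum]
  refine Finset.sum_eq_zero fun x _ => ?_
  rw [map_smul]
  have hm : (m x : Mat) = cm (m x 0 0, m x 1 0) (m x 0 1, m x 1 1) := by
    ext i j
    fin_cases i <;> fin_cases j <;> simp [cm]
  have hdet := det2 (m x)
  rw [hm, hz, smul_zero]
  · intro h
    have h6 := congrArg Prod.fst h
    have h7 := congrArg Prod.snd h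
    simp only [Prod.fst_zero, Prod.snd_zero] at h6 h7
    rw [h6, h7] at hdet
    simp at hdet
  · intro h
    have h6 := congrArg Prod.fst h
    have h7 := congrArg Prod.snd h
    simp only [Prod.fst_zero, Prod.snd_zero] at h6 h7
    rw [h6, h7] at hdet
    simp at hdet

/-- **Dual form of Ihara's lemma**: a non-Eisenstein eigenfunctional on `H¹(G, O)²` which vanishes
on the image of the transfers `(Tr₁, Tr₂) : H¹(G ∩ Γ₀(q), O) → H¹(G, O)²` is zero. -/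
theorem dual_ihara [G.FiniteIndex] (h1 : Gamma1 N ≤ G) (h0 : G ≤ Gamma0 N) (hneg : -1 ∈ G)
    (hq : q.Prime) (hqN : IsCoprime (N : ℤ) (q : ℤ))
    (h3 : ∀ c : H1 O O G, ∀ g : G, g ^ 3 = 1 → c.1 g = 0)
    (h8 : ∀ v : V, (8 : ℕ) • v = 0 → v = 0) (lam₁ lam₂ : H1 O O G →ₗ[O] V)
    (dia₁ : ∀ σ : Gamma0 N, ∀ c, lam₁ (diaH h1 h0 σ c) = lam₁ c)
    (dia₂ : ∀ σ : Gamma0 N, ∀ c, lam₂ (diaH h1 h0 σ c) = lam₂ c)
    (hker : ∀ z : H1 O O (Gq G q), lam₁ (opH (corr_D1 h1 hq hqN) z) +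
      lam₂ (opH (corr_D2 h1 h0 hq hqN) z) = 0)
    {l₁ : ℕ} (hl₁ : l₁.Prime) (hNl₁ : IsCoprime (N : ℤ) (l₁ : ℤ)) (hl11 : (N : ℤ) ∣ (l₁ : ℤ) - 1)
    {θ₁ : O} (hT₁₁ : ∀ c, lam₁ (opH (corr_TD h1 h0 hl₁ hNl₁) c) = θ₁ • lam₁ c)
    (hT₂₁ : ∀ c, lam₂ (opH (corr_TD h1 h0 hl₁ hNl₁) c) = θ₁ • lam₂ c)
    (hu₁ : IsUnit (θ₁ - ((l₁ : O) + 1)))
    {l₂ : ℕ} (hl₂ : l₂.Prime) (hNl₂ : IsCoprime (N : ℤ) (l₂ : ℤ))
    (hlq : IsCoprime (l₂ : ℤ) (q : ℤ)) (hlq2 : IsCoprime (l₂ : ℤ) ((q : ℤ) ^ 2 - 1))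
    {θ₂ : O} (hT₁₂ : ∀ c, lam₁ (opH (corr_TD h1 h0 hl₂ hNl₂) c) = θ₂ • lam₁ c)
    (hT₂₂ : ∀ c, lam₂ (opH (corr_TD h1 h0 hl₂ hNl₂) c) = θ₂ • lam₂ c)
    (hu₂ : IsUnit (θ₂ ^ 2 - ((l₂ : O) + 1) ^ 2)) : lam₁ = 0 ∧ lam₂ = 0 := by
  have H₁ := phi_of_functional h1 h0 lam₁ dia₁
  have H₂ := phi_of_functional h1 h0 lam₂ dia₂
  set φ₁ : ℤ × ℤ → ℤ × ℤ → V := fun u v => lam₁ (JH O G (cm u v)) with hφ₁
  set φ₂ : ℤ × ℤ → ℤ × ℤ → V := fun u v => lam₂ (JH O G (cm u v)) with hφ₂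
  have T₁₁ : ∀ u v : ℤ × ℤ, u ≠ 0 → v ≠ 0 →
      θ₁ • φ₁ u v = ∑ x, φ₁ (act (TD N l₁ x) u) (act (TD N l₁ x) v) := fun u v _ _ =>
    phi_hecke h1 h0 lam₁ dia₁ hl₁ hNl₁ hT₁₁ u v
  have T₂₁ : ∀ u v : ℤ × ℤ, u ≠ 0 → v ≠ 0 →
      θ₁ • φ₂ u v = ∑ x, φ₂ (act (TD N l₁ x) u) (act (TD N l₁ x) v) := fun u v _ _ =>
    phi_hecke h1 h0 lam₂ dia₂ hl₁ hNl₁ hT₂₁ u v
  have T₁₂ : ∀ u v : ℤ × ℤ, u ≠ 0 → v ≠ 0 →
      θ₂ • φ₁ u v = ∑ x, φ₁ (act (TD N l₂ x) u) (act (TD N l₂ x) v) := fun u v _ _ =>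
    phi_hecke h1 h0 lam₁ dia₁ hl₂ hNl₂ hT₁₂ u v
  have T₂₂ : ∀ u v : ℤ × ℤ, u ≠ 0 → v ≠ 0 →
      θ₂ • φ₂ u v = ∑ x, φ₂ (act (TD N l₂ x) u) (act (TD N l₂ x) v) := fun u v _ _ =>
    phi_hecke h1 h0 lam₂ dia₂ hl₂ hNl₂ hT₂₂ u v
  -- the relation between the two functions
  have hrel : ∀ u v : ℤ × ℤ, φ₁ u v + φ₂ (act (dlt q) u) (act (dlt q) v) = 0 := by
    intro u v
    have k := hker (JH O (Gq G q) (cm u v))
    have k1 := opH_JH (O := O) (corr_D1 h1 hq hqN) (cm u v) (fun _ : Unit => cm u v)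
      (fun g hg => by rw [opc_D1_J h1 hq hqN _ hg]; simp)
    have k2 := opH_JH (O := O) (corr_D2 h1 h0 hq hqN) (cm u v) (fun _ : Unit => dlt q * cm u v)
      (fun g hg => by rw [opc_D2_J h1 h0 hq hqN _ hg]; simp)
    rw [k1, k2] at k
    simp only [Finset.univ_unique, Finset.sum_singleton] at k
    rw [hφ₁, hφ₂]
    simp only [cm_act]
    exact k
  have ha : ((1, 0) : ℤ × ℤ) ≠ 0 := by simp
  have hq0 : (dlt q).det ≠ 0 := by rw [dlt_det]; exact_mod_cast hq.ne_zero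
  set a : ℤ × ℤ := (1, 0) with hadef
  have hb : act (dlt q) a ≠ 0 := act_ne hq0 ha
  have key := ihara_pair (A := V) (R := O) h1 h0 hneg hq.ne_zero hqN (H₁.addOn h0 ha)
    (H₂.addOn h0 hb) (fun g hg h hh => H₁.dia ha (h0 hg) hh)
    (fun g hg h hh => H₂.dia hb (h0 hg) hh)
    (fun g hg g' hg' hd => by
      have := hrel a (act (g : Mat) a)
      rw [← act_mul, hd.dlt, act_mul] at this
      exact this)
    hl₁ hNl₁ hl11 (fun g hg => H₁.hecke h1 h0 hl₁ hNl₁ T₁₁ ha hg)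
    (fun g hg => H₂.hecke h1 h0 hl₁ hNl₁ T₂₁ hb hg) hu₁
    hl₂ hNl₂ hlq hlq2 (fun g hg => H₁.hecke h1 h0 hl₂ hNl₂ T₁₂ ha hg)
    (fun g hg => H₂.hecke h1 h0 hl₂ hNl₂ T₂₂ hb hg) hu₂
  exact ⟨functional_zero h3 h8 fun u v hu hv =>
      H₁.zero h1 h0 hl₁ hNl₁ hl11 hu₁ T₁₁ ha (fun g hg => (key g hg).1) hu hv,
    functional_zero h3 h8 fun u v hu hv =>
      H₂.zero h1 h0 hl₁ hNl₁ hl11 hu₁ T₂₁ hb (fun g hg => (key g hg).2) hu hv⟩

end Fermat.Agent.RT.Ihara
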