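import Fermat.Agent.RT.Level
import Fermat.Agent.RT.DualIhara2

set_option autoImplicit false

/-!
# Subgroups of `Γ₀(N)` with abelian quotient: restriction, transfer and extension
-/

open Matrix CongruenceSubgroup
open scoped MatrixGroups

namespace Fermat.Agent.RT.Ihara

variable {G : Subgroup SL(2, ℤ)} {N : ℕ}
variable {O A A' : Type*} [CommRing O] [AddCommGroup A] [Module O A] [AddCommGroup A'] [Module O A']

/-! ### Generation by intersection homomorphisms -/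

variable (O A) in
/-- homomorphisms vanish on the elements of order 3 -/
def No3 (G : Subgroup SL(2, ℤ)) : Prop := ∀ c : H1 O A G, ∀ g : G, g ^ 3 = 1 → c.1 g = 0

theorem no3_of (h : ∀ a : A, (3 : ℕ) • a = 0 → a = 0) : No3 O A G := by
  intro c g hg
  apply h
  have h1 := c.2 g g
  have h2 := c.2 (g * g) g
  have h3 : c.1 1 = 0 := by
    have := c.2 1 1
    rw [mul_one] at this
    simpa using this
  have h4 : g * g * g = 1 := by rw [← hg, pow_succ, pow_two]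
  rw [h4, h3, h1] at h2
  rw [h2]
  abel

theorem exists_J_sum [G.FiniteIndex] (h3 : No3 O A G) (c : H1 O A G) :
    ∃ (ι : Type) (_ : Fintype ι) (m : ι → SL(2, ℤ)) (w : ι → A), ∀ g : G,
      (8 : ℕ) • c.1 g = ∑ x, Jm G (m x : Mat) g • w x := by
  obtain ⟨ι, i, m, w, hw⟩ := exists_J_decomp (addOn_ex c) (fun g hg hg3 => by
    rw [ex_apply _ hg]
    exact h3 c ⟨g, hg⟩ (Subtype.ext hg3))
  refine ⟨ι, i, m, w, fun g => ?_⟩
  have h5 := hw g g.2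
  rwa [ex_apply _ g.2] at h5

theorem exists_JH_sum [G.FiniteIndex] (h3 : No3 O O G) (h8 : IsUnit (8 : O)) (c : H1 O O G) :
    ∃ (ι : Type) (_ : Fintype ι) (m : ι → SL(2, ℤ)) (w : ι → O),
      c = ∑ x, w x • JH O G (m x : Mat) := by
  obtain ⟨ι, i, m, w, hw⟩ := exists_J_sum h3 c
  obtain ⟨u, hu⟩ := h8
  refine ⟨ι, i, m, fun x => (↑u⁻¹ : O) * w x, ?_⟩
  apply Subtype.ext
  funext g
  rw [AddSubmonoidClass.coe_finset_sum, Finset.sum_apply]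
  change c.1 g = ∑ x, ((↑u⁻¹ : O) * w x) • ((Jm G (m x) g : ℤ) : O)
  have h1 : (↑u⁻¹ : O) * ((8 : ℕ) • c.1 g) = c.1 g := by
    rw [nsmul_eq_mul, Nat.cast_ofNat, ← hu, ← mul_assoc, Units.inv_mul, one_mul]
  rw [← h1, hw g, Finset.mul_sum]
  refine Finset.sum_congr rfl fun x _ => ?_
  rw [zsmul_eq_mul, smul_eq_mul]; ring

/-- reduction of the coefficients is surjective -/
theorem mapH_surjective [G.FiniteIndex] (h3 : No3 O A G) (h8 : IsUnit (8 : O))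
    (f : O →ₗ[O] A) (hf : Function.Surjective f) :
    Function.Surjective (mapH f : H1 O O G →ₗ[O] H1 O A G) := by
  intro c
  obtain ⟨ι, i, m, w, hw⟩ := exists_J_sum h3 c
  choose w' hw' using fun x => hf (w x)
  obtain ⟨u, hu⟩ := h8
  refine ⟨∑ x, ((↑u⁻¹ : O) * w' x) • JH O G (m x : Mat), ?_⟩
  apply Subtype.ext
  funext g
  rw [mapH_apply, AddSubmonoidClass.coe_finset_sum, Finset.sum_apply, map_sum]
  have h1 : (↑u⁻¹ : O) • ((8 : ℕ) • c.1 g) = c.1 g := by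
    rw [← Nat.cast_smul_eq_nsmul O, smul_smul, Nat.cast_ofNat, ← hu, Units.inv_mul, one_smul]
  rw [← h1, hw g, Finset.smul_sum]
  refine Finset.sum_congr rfl fun x _ => ?_
  change f (((↑u⁻¹ : O) * w' x) • ((Jm G (m x) g : ℤ) : O)) = _
  rw [← hw', ← Int.cast_smul_eq_zsmul O, smul_smul, ← map_smul]
  congr 1
  rw [smul_eq_mul, smul_eq_mul]; ring

/-! ### The quotient of `Γ₀(N)` -/

/-- lower right entry -/
def dE (N : ℕ) : Gamma0 N →* (ZMod N)ˣ := (Gamma0Map N).toHomUnits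

theorem dE_coe (δ : Gamma0 N) : ((dE N δ : (ZMod N)ˣ) : ZMod N) =
    (((δ : SL(2, ℤ)) 1 1 : ℤ) : ZMod N) := rfl

theorem dE_surjective [NeZero N] : Function.Surjective (dE N) := by
  intro a
  have hc : IsCoprime (N : ℤ) ((a : ZMod N).val : ℤ) := by
    rw [Nat.isCoprime_iff_coprime, Nat.coprime_comm]
    exact ZMod.val_coe_unit_coprime a
  refine ⟨⟨diaEl N (a : ZMod N).val, diaEl_mem _ _⟩, Units.ext ?_⟩
  rw [dE_coe]
  have h := diaEl_11 hc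
  have h2 : (((diaEl N (a : ZMod N).val) 1 1 - ((a : ZMod N).val : ℤ) : ℤ) : ZMod N) = 0 :=
    (ZMod.intCast_zmod_eq_zero_iff_dvd _ _).mpr h
  rw [Int.cast_sub, sub_eq_zero] at h2
  rw [h2, Int.cast_natCast, ZMod.natCast_zmod_val]

theorem dE_eq_one {g : Gamma0 N} : dE N g = 1 ↔ (g : SL(2, ℤ)) ∈ Gamma1 N := by
  rw [Gamma1_mem]
  constructor
  · intro h
    have h1 : (((g : SL(2, ℤ)) 1 1 : ℤ) : ZMod N) = 1 := by
      rw [← dE_coe, h]; rfl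
    have h2 : (((g : SL(2, ℤ)) 1 0 : ℤ) : ZMod N) = 0 := Gamma0_mem.mp g.2
    have h3 := congrArg (Int.cast : ℤ → ZMod N) (det2 (g : SL(2, ℤ)))
    push_cast at h3
    rw [h1, h2, mul_zero, sub_zero, mul_one] at h3
    exact ⟨h3, h1, h2⟩
  · rintro ⟨-, h, -⟩
    exact Units.ext h

/-- the class modulo `Γ₁(N)` is preserved by the families `GFam` -/
theorem GFam.dE_eq {ι : Type*} {D : ι → Mat} (F : GFam N D) {x y : ι} {g g' : Gamma0 N}
    (e : D x * ((g : SL(2, ℤ)) : Mat) = ((g' : SL(2, ℤ)) : Mat) * D y) : dE N g' = dE N g := by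
  apply Units.ext
  rw [dE_coe, dE_coe]
  have c := fun a : ℤ => (ZMod.intCast_zmod_eq_zero_iff_dvd a N).mpr
  have hx1 := c _ (F.gmat x).d10
  have hx2 := c _ (F.gmat x).d00
  have hy1 := c _ (F.gmat y).d10
  have hy2 := c _ (F.gmat y).d00
  have hg : (((g : SL(2, ℤ)) 1 0 : ℤ) : ZMod N) = 0 := Gamma0_mem.mp g.2
  have hg' : (((g' : SL(2, ℤ)) 1 0 : ℤ) : ZMod N) = 0 := Gamma0_mem.mp g'.2
  have d1 := congrArg (Int.cast : ℤ → ZMod N) (det2 (g : SL(2, ℤ)))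
  have d2 := congrArg (Int.cast : ℤ → ZMod N) (det2 (g' : SL(2, ℤ)))
  have e00 := congrArg (Int.cast : ℤ → ZMod N) (congrFun (congrFun e 0) 0)
  simp only [Matrix.mul_apply, Fin.sum_univ_two] at e00
  push_cast at d1 d2 e00 hx2 hy2
  rw [hg] at d1
  rw [hg'] at d2
  rw [hg, hy1] at e00
  linear_combination ((g : SL(2, ℤ)) 1 1 : ZMod N) * d2 - ((g' : SL(2, ℤ)) 1 1 : ZMod N) * d1 +
    ((g : SL(2, ℤ)) 1 1 : ZMod N) * ((g' : SL(2, ℤ)) 1 1 : ZMod N) * (e00 -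
      ((g : SL(2, ℤ)) 0 0 : ZMod N) * hx2 + ((g' : SL(2, ℤ)) 0 0 : ZMod N) * hy2)

variable {D : Type*} [CommGroup D] (ψ : (ZMod N)ˣ →* D)

/-- the kernel of a character -/
def GK : Subgroup SL(2, ℤ) := ((ψ.comp (dE N)).ker).map (Gamma0 N).subtype

variable {ψ}

theorem mem_GK {g : SL(2, ℤ)} : g ∈ GK ψ ↔ ∃ h : g ∈ Gamma0 N, ψ (dE N ⟨g, h⟩) = 1 := by
  rw [GK, Subgroup.mem_map]
  constructor
  · rintro ⟨x, hx, rfl⟩
    exact ⟨x.2, hx⟩
  · rintro ⟨h, hx⟩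
    exact ⟨⟨g, h⟩, hx, rfl⟩

theorem coe_mem_GK {g : Gamma0 N} : (g : SL(2, ℤ)) ∈ GK ψ ↔ ψ (dE N g) = 1 := by
  rw [mem_GK]
  exact ⟨fun ⟨_, h⟩ => h, fun h => ⟨g.2, h⟩⟩

theorem GK_le : GK ψ ≤ Gamma0 N := fun _ h => (mem_GK.mp h).1

theorem le_GK : Gamma1 N ≤ GK ψ := fun g hg => by
  rw [mem_GK]
  refine ⟨Gamma1_le N hg, ?_⟩
  rw [dE_eq_one.mpr hg, map_one]

section Rep

variable [NeZero N] (hψ : Function.Surjective ψ)

/-- representatives -/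
noncomputable def rep (δ : D) : Gamma0 N := (hψ.comp dE_surjective δ).choose

@[simp] theorem psi_rep (δ : D) : ψ (dE N (rep hψ δ)) = δ := (hψ.comp dE_surjective δ).choose_spec

theorem mul_rep_inv_mem (g : Gamma0 N) :
    (g : SL(2, ℤ)) * ((rep hψ (ψ (dE N g)) : SL(2, ℤ)))⁻¹ ∈ GK ψ := by
  have : (g : SL(2, ℤ)) * ((rep hψ (ψ (dE N g)) : SL(2, ℤ)))⁻¹ =
    ((g * (rep hψ (ψ (dE N g)))⁻¹ : Gamma0 N) : SL(2, ℤ)) := rfl
  rw [this, coe_mem_GK, map_mul, map_mul, map_inv, map_inv, psi_rep, mul_inv_cancel]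

theorem corr_rep : Corr (GK ψ) (Gamma0 N) (fun δ : D => ((rep hψ δ : SL(2, ℤ)) : Mat)) where
  det δ := by rw [(rep hψ δ : SL(2, ℤ)).det_coe]; norm_num
  act δ g hg := by
    refine ⟨δ * ψ (dE N ⟨g, hg⟩), _, mul_rep_inv_mem hψ (rep hψ δ * ⟨g, hg⟩), ?_⟩
    rw [← sl_coe_mul, ← sl_coe_mul, map_mul, map_mul, psi_rep]
    congr 1
    simp
  inj δ δ' g hg e := by
    have h1 : rep hψ δ = ⟨g, GK_le hg⟩ * rep hψ δ' := by
      apply Subtype.ext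
      apply Subtype.ext
      rw [Subgroup.coe_mul]
      exact e
    have h2 := congrArg (fun x => ψ (dE N x)) h1
    simp only [map_mul, psi_rep] at h2
    rw [h2, coe_mem_GK.mp hg, one_mul]

end Rep

/-- diamond operators depend only on the class -/
theorem diaH_of_mem (h1 : Gamma1 N ≤ G) (h0 : G ≤ Gamma0 N) {σ : Gamma0 N}
    (hσ : (σ : SL(2, ℤ)) ∈ G) : (diaH h1 h0 σ : H1 O A G →ₗ[O] H1 O A G) = LinearMap.id := by
  refine LinearMap.ext fun c => Subtype.ext (funext fun g => ?_)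
  rw [diaH_apply, LinearMap.id_apply]
  have h2 : (⟨σ * g * (σ : SL(2, ℤ))⁻¹, conj_mem_G h1 h0 g.2 σ.2⟩ : G) =
      ⟨σ, hσ⟩ * g * ⟨σ, hσ⟩⁻¹ := rfl
  rw [h2, c.2, c.2]
  have h3 := c.2 ⟨σ, hσ⟩ ⟨σ, hσ⟩⁻¹
  rw [mul_inv_cancel] at h3
  have h4 : c.1 1 = 0 := by
    have := c.2 1 1
    rw [mul_one] at this
    simpa using this
  rw [h4] at h3
  rw [add_right_comm, ← h3, zero_add]

theorem diaH_mul (h1 : Gamma1 N ≤ G) (h0 : G ≤ Gamma0 N) (σ τ : Gamma0 N) :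
    (diaH h1 h0 (σ * τ) : H1 O A G →ₗ[O] H1 O A G) = (diaH h1 h0 τ).comp (diaH h1 h0 σ) := by
  refine LinearMap.ext fun c => Subtype.ext (funext fun g => ?_)
  rw [diaH_apply, LinearMap.comp_apply, diaH_apply, diaH_apply]
  refine congrArg c.1 (Subtype.ext ?_)
  simp only [Subgroup.coe_mul]
  group

theorem diaH_congr {σ τ : Gamma0 N} (h : ψ (dE N σ) = ψ (dE N τ)) :
    (diaH le_GK GK_le σ : H1 O A (GK ψ) →ₗ[O] H1 O A (GK ψ)) = diaH le_GK GK_le τ := by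
  have h1 : σ = τ * (τ⁻¹ * σ) := by group
  have h2 : ((τ⁻¹ * σ : Gamma0 N) : SL(2, ℤ)) ∈ GK ψ := by
    rw [coe_mem_GK, map_mul, map_mul, map_inv, map_inv, h, inv_mul_cancel]
  rw [h1, diaH_mul, diaH_of_mem _ _ h2]
  rfl

section Main

variable [NeZero N] (hψ : Function.Surjective ψ)

/-- The action of the quotient. -/
noncomputable def actDia : D →* Module.End O (H1 O A (GK ψ)) where
  toFun δ := diaH le_GK GK_le (rep hψ δ)
  map_one' := by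
    rw [diaH_of_mem le_GK GK_le (σ := rep hψ 1) (coe_mem_GK.mpr (psi_rep hψ 1))]
    rfl
  map_mul' δ δ' := by
    rw [mul_comm δ, diaH_congr (σ := rep hψ (δ' * δ)) (τ := rep hψ δ' * rep hψ δ) (by simp),
      diaH_mul]
    rfl

theorem diaH_eq (σ : Gamma0 N) : (diaH le_GK GK_le σ : Module.End O (H1 O A (GK ψ))) =
    actDia hψ (ψ (dE N σ)) := diaH_congr (by simp)

theorem actDia_apply (δ : D) (c : H1 O A (GK ψ)) {σ : Gamma0 N} (hσ : ψ (dE N σ) = δ)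
    {g : SL(2, ℤ)} (hg : g ∈ GK ψ) {g' : SL(2, ℤ)} (hg' : g' ∈ GK ψ)
    (e : g' = σ * g * (σ : SL(2, ℤ))⁻¹) : (actDia hψ δ c).1 ⟨g, hg⟩ = c.1 ⟨g', hg'⟩ := by
  subst e hσ
  rw [← diaH_eq]
  rfl

variable [Fintype D]

/-- The transfer -/
noncomputable def trD : H1 O A (GK ψ) →ₗ[O] H1 O A (Gamma0 N) := opH (corr_rep hψ)

theorem trD_apply (c : H1 O A (GK ψ)) (g : Gamma0 N) (γ : D → SL(2, ℤ))
    (hγ : ∀ δ, γ δ ∈ GK ψ)
    (e : ∀ δ, γ δ = rep hψ δ * (g : SL(2, ℤ)) * ((rep hψ (δ * ψ (dE N g)) : SL(2, ℤ)))⁻¹) :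
    (trD hψ c).1 g = ∑ δ, c.1 ⟨γ δ, hγ δ⟩ := by
  rw [trD, opH_apply, (corr_rep hψ).opc_eq (addOn_ex c) g.2 (γ := γ)
    (σ := fun δ => δ * ψ (dE N g)) hγ]
  · exact Finset.sum_congr rfl fun δ _ => ex_apply _ (hγ δ)
  · intro δ
    rw [e, ← sl_coe_mul, ← sl_coe_mul]
    congr 1
    simp

/-- restriction of the transfer -/
theorem resH_trD (c : H1 O A (GK ψ)) : resH GK_le (trD hψ c) = ∑ δ, actDia hψ δ c := by
  apply Subtype.ext
  funext g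
  have hg1 : ψ (dE N ⟨g, GK_le g.2⟩) = 1 := coe_mem_GK.mp g.2
  have hmem : ∀ δ, (rep hψ δ : SL(2, ℤ)) * g * ((rep hψ δ : SL(2, ℤ)))⁻¹ ∈ GK ψ :=
    fun δ => conj_mem_G le_GK GK_le g.2 (rep hψ δ).2
  rw [resH_apply, trD_apply hψ c ⟨g, GK_le g.2⟩ _ hmem (fun δ => by rw [hg1, mul_one]),
    AddSubmonoidClass.coe_finset_sum, Finset.sum_apply]
  exact Finset.sum_congr rfl fun δ _ =>
    (actDia_apply hψ δ c (psi_rep hψ δ) g.2 (hmem δ) rfl).symm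

theorem trD_actDia (ε : D) (c : H1 O A (GK ψ)) : trD hψ (actDia hψ ε c) = trD hψ c := by
  apply Subtype.ext
  funext g
  -- the family of the translated representatives
  set E : D → Mat := fun δ => (((rep hψ ε * rep hψ δ : Gamma0 N) : SL(2, ℤ)) : Mat) with hE
  have hf : ∀ δ, ∃ γ ∈ GK ψ, E δ =
      (γ : Mat) * ((rep hψ (Equiv.mulLeft ε δ) : SL(2, ℤ)) : Mat) := by
    intro δ
    refine ⟨_, mul_rep_inv_mem hψ (rep hψ ε * rep hψ δ), ?_⟩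
    rw [hE, ← sl_coe_mul]
    simp
  have K : Corr (GK ψ) (Gamma0 N) E := (corr_rep hψ).of_equiv (Equiv.mulLeft ε) hf
  have hmem : ∀ δ, (rep hψ δ : SL(2, ℤ)) * g * ((rep hψ (δ * ψ (dE N g)) : SL(2, ℤ)))⁻¹ ∈ GK ψ := by
    intro δ
    have := mul_rep_inv_mem hψ (rep hψ δ * g)
    rwa [map_mul, map_mul, psi_rep] at this
  have hmem2 : ∀ δ, (rep hψ ε : SL(2, ℤ)) * ((rep hψ δ : SL(2, ℤ)) * g *
      ((rep hψ (δ * ψ (dE N g)) : SL(2, ℤ)))⁻¹) * ((rep hψ ε : SL(2, ℤ)))⁻¹ ∈ GK ψ :=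
    fun δ => conj_mem_G le_GK GK_le (hmem δ) (rep hψ ε).2
  rw [trD_apply hψ _ g _ hmem (fun _ => rfl)]
  have h2 : (trD hψ c).1 g = opc (GK ψ) E (ex c.1) g := by
    refine (opc_eq_of_equiv K (corr_rep hψ) (addOn_ex c) (Equiv.mulLeft ε) (fun δ => ?_)
      g.2).symm
    obtain ⟨γ, hγ, e⟩ := hf δ
    exact ⟨1, 1, one_pos, one_pos, γ, hγ, by rw [e]⟩
  rw [h2, K.opc_eq (addOn_ex c) g.2 (σ := fun δ => δ * ψ (dE N g)) hmem2]
  · refine Finset.sum_congr rfl fun δ _ => ?_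
    rw [ex_apply _ (hmem2 δ)]
    exact actDia_apply hψ ε c (psi_rep hψ ε) (hmem δ) (hmem2 δ) rfl
  · intro δ
    simp only [hE]
    rw [← sl_coe_mul, ← sl_coe_mul]
    congr 1
    simp only [Subgroup.coe_mul]
    group

/-- transfers commute with the Hecke operators -/
theorem opH_trD {ι : Type*} [Fintype ι] {P : ι → Mat} (F : GFam N P) (c : H1 O A (GK ψ)) :
    opH F.corr (trD hψ c) = trD hψ (opH (F.corrG le_GK GK_le) c) := by
  have hperm : ∀ δ : D, ∃ (σ : Equiv.Perm ι) (γ : ι → SL(2, ℤ)), (∀ x, γ x ∈ Gamma0 N) ∧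
      ∀ x, P x * ((rep hψ δ : SL(2, ℤ)) : Mat) = (γ x : Mat) * P (σ x) :=
    fun δ => F.corr.exists_perm (rep hψ δ).2
  choose σ γ hγ e using hperm
  refine (opH_comm (F.corrG le_GK GK_le) (corr_rep hψ) (corr_rep hψ) F.corr
    (((Equiv.prodComm ι D).trans (Equiv.prodShear (Equiv.refl D) σ))) ?_ c).symm
  rintro ⟨x, δ⟩
  have h1 : dE N ⟨γ δ x, hγ δ x⟩ = dE N (rep hψ δ) := F.dE_eq (e δ x)
  have h2 := mul_rep_inv_mem hψ ⟨γ δ x, hγ δ x⟩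
  rw [h1, psi_rep] at h2
  refine ⟨1, 1, one_pos, one_pos, _, h2, ?_⟩
  rw [one_smul, one_smul]
  change _ * (((rep hψ δ : SL(2, ℤ)) : Mat) * P (σ δ x)) = P x * ((rep hψ δ : SL(2, ℤ)) : Mat)
  rw [e, ← mul_assoc, ← sl_coe_mul]
  simp

theorem hec_trD (n : ℕ) (c : H1 O A (GK ψ)) :
    hec (Gamma1_le N) le_rfl n (trD hψ c) = trD hψ (hec le_GK GK_le n c) := by
  by_cases hn : n.Prime
  swap
  · rw [hec_zero _ _ hn, hec_zero _ _ hn]; exact (map_zero _).symm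
  by_cases hN : n ∣ N
  · rw [hec_U _ _ hn hN, hec_U _ _ hn hN]
    exact opH_trD hψ (gfam_U hn.ne_zero hN) c
  · rw [hec_T _ _ hn hN, hec_T _ _ hn hN]
    exact opH_trD hψ (gfam_TD hn hN) c

theorem trD_JH (m : Mat) : trD hψ (JH O (GK ψ) m) = JH O (Gamma0 N) m := by
  have h := opH_JH (O := O) (corr_rep hψ) m (fun _ : Unit => m) (fun g hg => ?_)
  · rw [trD, h]; simp
  have key := opc_J (corr_rep hψ) (D' := fun _ : Unit => (1 : Mat)) (fun _ => by simp) ?_ ?_ ?_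
    m hg
  · simpa using key
  · intro δ h hh
    refine ⟨(), (rep hψ δ : SL(2, ℤ))⁻¹ * h, mul_mem (inv_mem (rep hψ δ).2) (GK_le hh), ?_⟩
    rw [adj_coe_mul, mul_one]
  · intro _ h' hh'
    have h2 := mul_rep_inv_mem hψ (⟨h', hh'⟩⁻¹)
    refine ⟨ψ (dE N (⟨h', hh'⟩⁻¹)), _, inv_mem h2, ?_⟩
    rw [adj_coe_mul, mul_one]
    congr 1
    simp
  · intro i j _ _ _
    rfl

/-- **The transfer is surjective.** -/
theorem trD_surjective [(Gamma0 N).FiniteIndex] (h3 : No3 O O (Gamma0 N)) (h8 : IsUnit (8 : O)) :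
    Function.Surjective (trD hψ : H1 O O (GK ψ) →ₗ[O] H1 O O (Gamma0 N)) := by
  intro c
  obtain ⟨ι, _, m, w, rfl⟩ := exists_JH_sum h3 h8 c
  exact ⟨∑ x, w x • JH O (GK ψ) (m x : Mat), by simp only [map_sum, map_smul, trD_JH]⟩

/-- kernel of the restriction -/
theorem opH_of_resH {ι : Type*} [Fintype ι] {P : ι → Mat} (F : GFam N P)
    {c : H1 O A (Gamma0 N)} (hc : resH (GK_le (ψ := ψ)) c = 0) :
    opH F.corr c = (Fintype.card ι : ℕ) • c := by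
  apply Subtype.ext
  funext g
  obtain ⟨σ, γ, hγ, e⟩ := F.corr.exists_perm g.2
  rw [opH_apply, F.corr.opc_eq (addOn_ex c) g.2 hγ e]
  have h1 : ∀ x, ex c.1 (γ x) = c.1 g := by
    intro x
    rw [ex_apply _ (hγ x)]
    have h2 : dE N ⟨γ x, hγ x⟩ = dE N g := F.dE_eq (e x)
    have h3 : ((⟨γ x, hγ x⟩ * g⁻¹ : Gamma0 N) : SL(2, ℤ)) ∈ GK ψ := by
      rw [coe_mem_GK, map_mul, map_mul, map_inv, map_inv, h2, mul_inv_cancel]
    have h4 : c.1 (⟨γ x, hγ x⟩ * g⁻¹) = 0 := by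
      have := congrFun (congrArg Subtype.val hc) ⟨_, h3⟩
      exact this
    have h5 : (⟨γ x, hγ x⟩ : Gamma0 N) = (⟨γ x, hγ x⟩ * g⁻¹) * g := by group
    rw [h5, c.2, h4, zero_add]
  rw [Finset.sum_congr rfl fun x _ => h1 x, Finset.sum_const, Finset.card_univ]
  rfl

/-- **Extension** of invariant homomorphisms, up to `T - card`. -/
theorem exists_extension {ι : Type*} [Fintype ι] {P : ι → Mat} (F : GFam N P)
    {c : H1 O A (GK ψ)} (hc : ∀ δ, actDia hψ δ c = c) :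
    ∃ c' : H1 O A (Gamma0 N),
      resH GK_le c' = opH (F.corrG le_GK GK_le) c - (Fintype.card ι : ℕ) • c := by
  -- the extension as a function
  let ct : Gamma0 N → A := fun g => c.1 ⟨_, mul_rep_inv_mem hψ g⟩
  have hinv : ∀ (σ : Gamma0 N) (g : GK ψ) (g' : GK ψ),
      (g' : SL(2, ℤ)) = σ * g * (σ : SL(2, ℤ))⁻¹ → c.1 g' = c.1 g := by
    intro σ g g' e
    have := actDia_apply hψ (ψ (dE N σ)) c rfl g.2 g'.2 e
    rw [hc] at this
    exact this.symm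
  let z : D → D → A := fun d d' => c.1 ⟨((rep hψ d * rep hψ d' * (rep hψ (d * d'))⁻¹ : Gamma0 N) :
    SL(2, ℤ)), by rw [coe_mem_GK]; simp⟩
  have hct : ∀ g g' : Gamma0 N, ct (g * g') = ct g + ct g' + z (ψ (dE N g)) (ψ (dE N g')) := by
    intro g g'
    have h0 := mul_rep_inv_mem hψ g'
    have h1 : (⟨_, mul_rep_inv_mem hψ (g * g')⟩ : GK ψ) = ⟨_, mul_rep_inv_mem hψ g⟩ *
        ⟨(rep hψ (ψ (dE N g)) : SL(2, ℤ)) * ((g' : SL(2, ℤ)) *
          ((rep hψ (ψ (dE N g')) : SL(2, ℤ)))⁻¹) * ((rep hψ (ψ (dE N g)) : SL(2, ℤ)))⁻¹,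
          conj_mem_G le_GK GK_le h0 (rep hψ _).2⟩ *
        ⟨((rep hψ (ψ (dE N g)) * rep hψ (ψ (dE N g')) *
          (rep hψ (ψ (dE N g) * ψ (dE N g')))⁻¹ : Gamma0 N) : SL(2, ℤ)), by
            rw [coe_mem_GK]; simp⟩ := by
      apply Subtype.ext
      simp only [Subgroup.coe_mul, map_mul, Subgroup.coe_inv]
      group
    change c.1 _ = c.1 _ + c.1 _ + c.1 _
    rw [h1, c.2, c.2]
    congr 2
    exact hinv (rep hψ (ψ (dE N g))) ⟨_, h0⟩ _ rfl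
  -- the coset permutation
  have hperm := fun g : Gamma0 N => F.corr.exists_perm g.2
  choose σ γ hγ e using hperm
  have hγm : ∀ (g : Gamma0 N) x, dE N ⟨γ g x, hγ g x⟩ = dE N g := fun g x => F.dE_eq (e g x)
  have huniq : ∀ (g g' : Gamma0 N) x, σ (g * g') x = σ g' (σ g x) ∧
      (⟨γ (g * g') x, hγ _ x⟩ : Gamma0 N) = ⟨γ g x, hγ _ x⟩ * ⟨γ g' (σ g x), hγ _ _⟩ := by
    intro g g' x
    have h1 : (γ (g * g') x : Mat) * P (σ (g * g') x) =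
        ((γ g x * γ g' (σ g x) : SL(2, ℤ)) : Mat) * P (σ g' (σ g x)) := by
      rw [← e (g * g') x, Subgroup.coe_mul, sl_coe_mul, sl_coe_mul, mul_assoc, ← e g' (σ g x),
        ← mul_assoc, e g x, mul_assoc]
    have h2 : P (σ (g * g') x) =
        (((γ (g * g') x)⁻¹ * (γ g x * γ g' (σ g x)) : SL(2, ℤ)) : Mat) * P (σ g' (σ g x)) := by
      have h3 : ((γ (g * g') x)⁻¹ : SL(2, ℤ)) * γ (g * g') x = 1 := inv_mul_cancel _
      rw [sl_coe_mul, mul_assoc, ← h1, ← mul_assoc, ← sl_coe_mul, h3]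
      exact (one_mul _).symm
    have h3 := F.corr.inj _ _ _ (mul_mem (inv_mem (hγ _ _)) (mul_mem (hγ _ _) (hγ _ _))) h2
    refine ⟨h3, Subtype.ext ?_⟩
    rw [h3] at h1
    exact Subtype.ext (mat_cancel_right (F.corr.det _) h1)
  let c' : Gamma0 N → A := fun g => ∑ x, ct ⟨γ g x, hγ g x⟩ - (Fintype.card ι : ℕ) • ct g
  have hc' : ∀ g g', c' (g * g') = c' g + c' g' := by
    intro g g'
    have h1 : ∑ x, ct ⟨γ (g * g') x, hγ _ x⟩ = ∑ x, ct ⟨γ g x, hγ _ x⟩ +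
        ∑ x, ct ⟨γ g' x, hγ _ x⟩ + (Fintype.card ι : ℕ) • z (ψ (dE N g)) (ψ (dE N g')) := by
      rw [← Equiv.sum_comp (σ g) (fun x => ct ⟨γ g' x, hγ _ x⟩), ← Finset.sum_add_distrib,
        ← Finset.card_univ, ← Finset.sum_const, ← Finset.sum_add_distrib]
      refine Finset.sum_congr rfl fun x _ => ?_
      rw [(huniq g g' x).2, hct, hγm, hγm]
    change _ - _ = (_ - _) + (_ - _)
    rw [h1, hct, smul_add, smul_add]
    abel
  refine ⟨⟨c', hc'⟩, ?_⟩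
  apply Subtype.ext
  funext g
  rw [resH_apply]
  change c' ⟨g, GK_le g.2⟩ = opc (GK ψ) P (ex c.1) g - (Fintype.card ι : ℕ) • c.1 g
  have hg1 : ψ (dE N ⟨g, GK_le g.2⟩) = 1 := coe_mem_GK.mp g.2
  have hr1 : ((rep hψ (1 : D) : Gamma0 N) : SL(2, ℤ)) ∈ GK ψ := coe_mem_GK.mpr (psi_rep hψ 1)
  have hct1 : ∀ (h : Gamma0 N) (hh : (h : SL(2, ℤ)) ∈ GK ψ),
      ct h = c.1 ⟨h, hh⟩ - c.1 ⟨_, hr1⟩ := by
    intro h hh
    have h2 : (⟨_, mul_rep_inv_mem hψ h⟩ : GK ψ) * ⟨_, hr1⟩ = ⟨h, hh⟩ := by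
      apply Subtype.ext
      simp only [Subgroup.coe_mul, coe_mem_GK.mp hh, inv_mul_cancel_right]
    rw [← h2, c.2]
    change c.1 _ = _
    abel
  have hγG : ∀ x, γ ⟨g, GK_le g.2⟩ x ∈ GK ψ := fun x => by
    have := hγm ⟨g, GK_le g.2⟩ x
    have h2 := coe_mem_GK (ψ := ψ) (g := ⟨γ ⟨g, GK_le g.2⟩ x, hγ _ x⟩)
    rw [this] at h2
    exact h2.mpr hg1
  rw [(F.corrG le_GK GK_le).opc_eq (addOn_ex c) g.2 hγG (e ⟨g, GK_le g.2⟩)]
  change ∑ x, ct _ - _ • ct _ = _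
  rw [hct1 ⟨g, GK_le g.2⟩ g.2, Finset.sum_congr rfl fun x _ => hct1 ⟨_, hγ _ x⟩ (hγG x),
    Finset.sum_sub_distrib, Finset.sum_const, Finset.card_univ, smul_sub]
  rw [Finset.sum_congr rfl fun x _ => ex_apply c.1 (hγG x)]
  abel

end Main

end Fermat.Agent.RT.Ihara
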