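import Fermat.Agent.RT.DegMaps

set_option autoImplicit false

/-!
# The dual form of Ihara's lemma: surjectivity of the transfers
-/

open Matrix CongruenceSubgroup
open scoped MatrixGroups

namespace Fermat.Agent.RT.Ihara

variable {G G₁ G₂ : Subgroup SL(2, ℤ)} {N q : ℕ}

section H1

variable (O A : Type*) [CommRing O] [AddCommGroup A] [Module O A]

/-- `H¹(G, A) = Hom(G, A)` -/
def H1 (G : Subgroup SL(2, ℤ)) : Submodule O (G → A) where
  carrier := {c | ∀ g h : G, c (g * h) = c g + c h}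
  add_mem' := by
    intro a b ha hb g h
    simp only [Pi.add_apply]
    rw [ha g h, hb g h]; abel
  zero_mem' := by intro g h; simp
  smul_mem' := by
    intro r a ha g h
    simp only [Pi.smul_apply]
    rw [ha g h, smul_add]

end H1

variable {O A : Type*} [CommRing O] [AddCommGroup A] [Module O A]

open Classical in
/-- extension by zero -/
noncomputable def ex (c : G → A) (g : SL(2, ℤ)) : A := if h : g ∈ G then c ⟨g, h⟩ else 0

theorem ex_apply (c : G → A) {g : SL(2, ℤ)} (h : g ∈ G) : ex c g = c ⟨g, h⟩ := by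
  rw [ex, dif_pos h]

theorem ex_add (c c' : G → A) : ex (c + c') = ex c + ex c' := by
  ext g
  simp only [ex, Pi.add_apply]
  split_ifs
  · rfl
  · rw [add_zero]

theorem ex_smul (r : O) (c : G → A) : ex (r • c) = r • ex c := by
  ext g
  simp only [ex, Pi.smul_apply]
  split_ifs
  · rfl
  · rw [smul_zero]

theorem addOn_ex (c : H1 O A G) : AddOn G (ex c.1) := by
  intro g hg h hh
  rw [ex_apply _ hg, ex_apply _ hh, ex_apply _ (mul_mem hg hh)]
  exact c.2 ⟨g, hg⟩ ⟨h, hh⟩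

/-- restriction of a function to `G` as an element of `H¹` -/
def toH1 (c : SL(2, ℤ) → A) (hc : AddOn G c) : H1 O A G :=
  ⟨fun g => c g, fun g h => hc g g.2 h h.2⟩

/-- the operator of a correspondence on `H¹` -/
noncomputable def opH {ι : Type*} [Fintype ι] {D : ι → Mat} (H : Corr G₁ G₂ D) :
    H1 O A G₁ →ₗ[O] H1 O A G₂ where
  toFun c := toH1 (opc G₁ D (ex c.1)) (H.addOn (addOn_ex c))
  map_add' c c' := by
    apply Subtype.ext
    ext g
    change opc G₁ D (ex (c.1 + c'.1)) g = opc G₁ D (ex c.1) g + opc G₁ D (ex c'.1) g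
    rw [ex_add, opc_add]; rfl
  map_smul' r c := by
    apply Subtype.ext
    ext g
    change opc G₁ D (ex (r • c.1)) g = r • opc G₁ D (ex c.1) g
    rw [ex_smul, opc_smul]; rfl

theorem opH_apply {ι : Type*} [Fintype ι] {D : ι → Mat} (H : Corr G₁ G₂ D) (c : H1 O A G₁)
    (g : G₂) : (opH H c).1 g = opc G₁ D (ex c.1) g := rfl

/-- diamond operators on `H¹` -/
def diaH (h1 : Gamma1 N ≤ G) (h0 : G ≤ Gamma0 N) (σ : Gamma0 N) : H1 O A G →ₗ[O] H1 O A G where
  toFun c := ⟨fun g => c.1 ⟨σ * g * (σ : SL(2, ℤ))⁻¹, conj_mem_G h1 h0 g.2 σ.2⟩, fun g h => by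
    rw [← c.2]
    refine congrArg c.1 (Subtype.ext ?_)
    simp only [Subgroup.coe_mul]
    group⟩
  map_add' c c' := rfl
  map_smul' r c := rfl

theorem diaH_apply (h1 : Gamma1 N ≤ G) (h0 : G ≤ Gamma0 N) (σ : Gamma0 N) (c : H1 O A G) (g : G) :
    (diaH h1 h0 σ c).1 g = c.1 ⟨σ * g * (σ : SL(2, ℤ))⁻¹, conj_mem_G h1 h0 g.2 σ.2⟩ := rfl

/-- the intersection homomorphisms with values in `O` -/
noncomputable def JH (O : Type*) [CommRing O] (G : Subgroup SL(2, ℤ)) (m : Mat) : H1 O O G :=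
  toH1 (fun g => (Jm G m g : O)) (fun g hg h hh => by
    have := addOn_J G m g hg h hh
    simp only [this]
    push_cast; rfl)

theorem JH_apply (m : Mat) (g : G) : (JH O G m).1 g = (Jm G m g : O) := rfl

/-- correspondences on `JH` -/
theorem opH_JH {ι κ : Type*} [Fintype ι] [Fintype κ] {D : ι → Mat} (H : Corr G₁ G₂ D) (m : Mat)
    (m' : κ → Mat) (hJ : ∀ g ∈ G₂, opc G₁ D (Jm G₁ m) g = ∑ j, Jm G₂ (m' j) g) :
    opH H (JH O G₁ m) = ∑ j, JH O G₂ (m' j) := by
  apply Subtype.ext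
  ext g
  rw [opH_apply, H.opc_congr (addOn_ex _) (c' := fun g => (Int.castAddHom O) (Jm G₁ m g)) ?_ g.2,
    opc_map, hJ g g.2, map_sum]
  · rw [AddSubmonoidClass.coe_finset_sum, Finset.sum_apply]
    rfl
  · intro h hh
    rw [ex_apply _ hh]
    rfl

/-- matrices acting on vectors -/
def act (M : Mat) (u : ℤ × ℤ) : ℤ × ℤ := (M 0 0 * u.1 + M 0 1 * u.2, M 1 0 * u.1 + M 1 1 * u.2)

theorem cm_act (M : Mat) (u v : ℤ × ℤ) : cm (act M u) (act M v) = M * cm u v := by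
  ext i j
  fin_cases i <;> fin_cases j <;> simp [cm, act, Matrix.mul_apply, Fin.sum_univ_two]

theorem act_mul (M M' : Mat) (u : ℤ × ℤ) : act (M * M') u = act M (act M' u) := by
  simp only [act, Matrix.mul_apply, Fin.sum_univ_two]
  exact Prod.ext (by ring) (by ring)

theorem act_one (u : ℤ × ℤ) : act 1 u = u := by simp [act]

theorem act_smul (M : Mat) (n : ℤ) (u : ℤ × ℤ) : act M (n • u) = n • act M u := by
  simp only [act, Prod.smul_fst, Prod.smul_snd, smul_eq_mul]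
  exact Prod.ext (by simp; ring) (by simp; ring)

theorem smul_act (M : Mat) (n : ℤ) (u : ℤ × ℤ) : act (n • M) u = n • act M u := by
  simp only [act, Matrix.smul_apply, smul_eq_mul]
  exact Prod.ext (by simp; ring) (by simp; ring)

theorem act_ne {M : Mat} (hM : M.det ≠ 0) {u : ℤ × ℤ} (hu : u ≠ 0) : act M u ≠ 0 := by
  intro h
  have h1 : act (adjugate M * M) u = 0 := by
    rw [act_mul, h]; simp [act]
  rw [Matrix.adjugate_mul, smul_act, act_one] at h1
  exact hu ((smul_eq_zero.mp h1).resolve_left hM)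

/-- two primitive vectors congruent modulo `N` are equivalent under `Γ₁(N)` -/
theorem exists_gamma_of_congr {a c a' c' : ℤ} (h : IsCoprime a c) (h' : IsCoprime a' c')
    (ha : (N : ℤ) ∣ a' - a) (hc : (N : ℤ) ∣ c' - c) :
    ∃ g ∈ Gamma1 N, g 0 0 * a + g 0 1 * c = a' ∧ g 1 0 * a + g 1 1 * c = c' := by
  obtain ⟨k, hk0, hk1⟩ := exists_sl_col h
  obtain ⟨k', hk0', hk1'⟩ := exists_sl_col h'
  obtain ⟨r, hr⟩ := ha
  obtain ⟨s, hs⟩ := hc
  have d := det2 k
  have d' := det2 k'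
  rw [hk0, hk1] at d
  rw [hk0', hk1'] at d'
  -- `t` = upper right entry of `k⁻¹ k'`
  set t := k 1 1 * k' 0 1 - k 0 1 * k' 1 1 with ht
  set g := k' * up (-t) * k⁻¹ with hg
  have i00 : (k⁻¹) 0 0 = k 1 1 := by simp [adjugate_fin_two]
  have i01 : (k⁻¹) 0 1 = -k 0 1 := by simp [adjugate_fin_two]
  have i10 : (k⁻¹) 1 0 = -c := by rw [← hk1]; simp [adjugate_fin_two]
  have i11 : (k⁻¹) 1 1 = a := by rw [← hk0]; simp [adjugate_fin_two]
  have g00 : g 0 0 = a' * k 1 1 - (-t * a' + k' 0 1) * c := by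
    rw [hg, sl_mul_00, sl_mul_00, sl_mul_01, i00, i10]
    simp only [up, sl_00, sl_01, sl_10, sl_11, hk0']
    ring
  have g01 : g 0 1 = -a' * k 0 1 + (-t * a' + k' 0 1) * a := by
    rw [hg, sl_mul_01, sl_mul_00, sl_mul_01, i01, i11]
    simp only [up, sl_00, sl_01, sl_10, sl_11, hk0']
    ring
  have g10 : g 1 0 = c' * k 1 1 - (-t * c' + k' 1 1) * c := by
    rw [hg, sl_mul_10, sl_mul_10, sl_mul_11, i00, i10]
    simp only [up, sl_00, sl_01, sl_10, sl_11, hk1']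
    ring
  have g11 : g 1 1 = -c' * k 0 1 + (-t * c' + k' 1 1) * a := by
    rw [hg, sl_mul_11, sl_mul_10, sl_mul_11, i01, i11]
    simp only [up, sl_00, sl_01, sl_10, sl_11, hk1']
    ring
  have e1 : g 0 0 * a + g 0 1 * c = a' := by rw [g00, g01]; linear_combination a' * d
  have e2 : g 1 0 * a + g 1 1 * c = c' := by rw [g10, g11]; linear_combination c' * d
  refine ⟨g, ?_, e1, e2⟩
  -- congruences; `k' up(-t) ≡ k mod N`
  have c01 : ∃ z, -t * a' + k' 0 1 = k 0 1 + N * z := by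
    -- `k' 0 1 - t a' = k' 0 1 (1 - k11 a') + k01 k'11 a'`
    refine ⟨-(k' 0 1 * k 1 1 * r) + k 0 1 * k' 1 1 * r - k 0 1 * (k' 0 1 * (-s)) -
      k 0 1 * k' 1 1 * r, ?_⟩
    rw [ht]
    have ha' : a' = a + N * r := by linarith
    have hc' : c' = c + N * s := by linarith
    linear_combination (-(k' 0 1)) * d + k 0 1 * d' + (-(k' 0 1 * k 1 1)) * hr +
      (k 0 1 * k' 0 1) * hs
  have c11 : ∃ z, -t * c' + k' 1 1 = k 1 1 + N * z := by
    refine ⟨-(k 1 1 * k' 1 1 * r) + k 1 1 * k' 0 1 * s - k 1 1 * k' 0 1 * s +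
      k 0 1 * k' 1 1 * s, ?_⟩
    rw [ht]
    linear_combination (-(k' 1 1)) * d + k 1 1 * d' + (-(k 1 1 * k' 1 1)) * hr +
      (k 0 1 * k' 1 1) * hs
  obtain ⟨z, hz⟩ := c01
  obtain ⟨w, hw⟩ := c11
  rw [Gamma1_mem]
  have f00 : g 0 0 = 1 + N * (r * k 1 1 - z * c) := by
    rw [g00, hz]; linear_combination k 1 1 * hr + d
  have f10 : g 1 0 = N * (s * k 1 1 - w * c) := by
    rw [g10, hw]; linear_combination k 1 1 * hs
  have f11 : g 1 1 = 1 + N * (-(s * k 0 1) + w * a) := by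
    rw [g11, hw]; linear_combination (-k 0 1) * hs + d
  rw [f00, f10, f11]
  simp

/-- cusps: a matrix `≡ 1 mod N` of prime determinant `l ≡ 1 mod N` fixes all `Γ₁(N)`-cusps -/
theorem exists_cusp_eq {l : ℕ} (hl : l.Prime) (hl1 : (N : ℤ) ∣ (l : ℤ) - 1) {P : Mat}
    (hP : P.det = l) (p00 : (N : ℤ) ∣ P 0 0 - 1) (p01 : (N : ℤ) ∣ P 0 1) (p10 : (N : ℤ) ∣ P 1 0)
    (p11 : (N : ℤ) ∣ P 1 1 - 1) {u : ℤ × ℤ} (hu : u ≠ 0) :
    ∃ g ∈ Gamma1 N, ∃ n n' : ℤ, n ≠ 0 ∧ n' ≠ 0 ∧ n • act P u = n' • act (g : Mat) u := by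
  have hl0 : (l : ℤ) ≠ 0 := by exact_mod_cast hl.ne_zero
  -- reduce to a primitive vector
  have hg : 0 < Int.gcd u.1 u.2 := by
    rw [Int.gcd_pos_iff]
    by_contra hcon
    push Not at hcon
    exact hu (Prod.ext hcon.1 hcon.2)
  obtain ⟨a, c, hco, h1, h2⟩ := Int.exists_gcd_one hg
  set d : ℤ := (Int.gcd u.1 u.2 : ℤ) with hd
  have hd0 : d ≠ 0 := by
    have : 0 < d := by rw [hd]; exact_mod_cast hg
    exact this.ne'
  have hco' : IsCoprime a c := Int.isCoprime_iff_gcd_eq_one.mpr hco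
  have hu' : u = d • ((a, c) : ℤ × ℤ) := by
    apply Prod.ext
    · simp only [Prod.smul_fst, smul_eq_mul]; rw [h1]; ring
    · simp only [Prod.smul_snd, smul_eq_mul]; rw [h2]; ring
  have hac : ((a, c) : ℤ × ℤ) ≠ 0 := by
    intro h
    rw [h, smul_zero] at hu'
    exact hu hu'
  -- the image vector
  set v := act P (a, c) with hv
  have hv0 : v ≠ 0 := act_ne (by rw [hP]; exact hl0) hac
  have hg' : 0 < Int.gcd v.1 v.2 := by
    rw [Int.gcd_pos_iff]
    by_contra hcon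
    push Not at hcon
    exact hv0 (Prod.ext hcon.1 hcon.2)
  obtain ⟨a', c', hco2, h3, h4⟩ := Int.exists_gcd_one hg'
  set e : ℕ := Int.gcd v.1 v.2 with he
  have hco2' : IsCoprime a' c' := Int.isCoprime_iff_gcd_eq_one.mpr hco2
  have hP' := hP
  rw [Matrix.det_fin_two] at hP'
  have v1 : v.1 = P 0 0 * a + P 0 1 * c := rfl
  have v2 : v.2 = P 1 0 * a + P 1 1 * c := rfl
  -- `e ∣ l`
  have hel : (e : ℤ) ∣ l := by
    have k1 : (e : ℤ) ∣ l * a := ⟨P 1 1 * a' - P 0 1 * c', by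
      rw [v1] at h3
      rw [v2] at h4
      linear_combination (-a) * hP' + P 1 1 * h3 - P 0 1 * h4⟩
    have k2 : (e : ℤ) ∣ l * c := ⟨P 0 0 * c' - P 1 0 * a', by
      rw [v1] at h3
      rw [v2] at h4
      linear_combination (-c) * hP' + P 0 0 * h4 - P 1 0 * h3⟩
    obtain ⟨s, t, hst⟩ := hco'
    have : (l : ℤ) = s * (l * a) + t * (l * c) := by linear_combination (-(l : ℤ)) * hst
    rw [this]
    exact dvd_add (k1.mul_left _) (k2.mul_left _)
  have he1 : (N : ℤ) ∣ (e : ℤ) - 1 := by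
    rcases (Nat.dvd_prime hl).mp (Int.natCast_dvd_natCast.mp hel) with h | h
    · rw [h]; simp
    · rw [h]; exact hl1
  have he0 : (e : ℤ) ≠ 0 := by
    have : (0 : ℤ) < e := by exact_mod_cast hg'
    exact this.ne'
  obtain ⟨r, hr⟩ := he1
  obtain ⟨x00, y00⟩ := p00
  obtain ⟨x01, y01⟩ := p01
  obtain ⟨x10, y10⟩ := p10
  obtain ⟨x11, y11⟩ := p11
  obtain ⟨g, hgm, g0, g1⟩ := exists_gamma_of_congr (N := N) hco' hco2'
    ⟨x00 * a + x01 * c - r * a', by
      rw [v1] at h3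
      linear_combination -h3 + a * y00 + c * y01 - a' * hr⟩
    ⟨x10 * a + x11 * c - r * c', by
      rw [v2] at h4
      linear_combination -h4 + a * y10 + c * y11 - c' * hr⟩
  refine ⟨g, hgm, 1, e, one_ne_zero, he0, ?_⟩
  rw [one_smul, hu', act_smul, act_smul, ← hv, smul_comm]
  congr 1
  apply Prod.ext
  · rw [h3]
    simp only [act, Prod.smul_fst, smul_eq_mul]
    rw [g0]; ring
  · rw [h4]
    simp only [act, Prod.smul_snd, smul_eq_mul]
    rw [g1]; ring

end Fermat.Agent.RT.Ihara
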