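import Mathlib
import Fermat.Agent.RT.Idem

set_option autoImplicit false
set_option maxHeartbeats 400000
set_option linter.style.haveILetI false
set_option linter.unusedSectionVars false
set_option linter.unusedVariables false

/-!
# Finite extensions of complete discrete valuation rings
-/

open IsLocalRing

namespace Fermat.Agent.RT

section Local

variable {𝒪 : Type} [CommRing 𝒪] [IsLocalRing 𝒪] [IsNoetherianRing 𝒪]
  [IsAdicComplete (maximalIdeal 𝒪) 𝒪]

/-- A finite domain over a complete local ring is local. -/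
theorem isLocalRing_of_finite_domain (S : Type) [CommRing S] [IsDomain S] [Algebra 𝒪 S]
    [Module.Finite 𝒪 S] : IsLocalRing S := by
  obtain ⟨𝔐, h𝔐⟩ := Ideal.exists_maximal S
  haveI := h𝔐
  obtain ⟨e, hee, he, n, hn⟩ := exists_idem_finite (𝒪 := 𝒪) 𝔐
  have he1 : e = 1 := by
    rcases eq_or_ne e 0 with h | h
    · exfalso
      rw [h, sub_zero] at he
      exact h𝔐.ne_top (Ideal.eq_top_of_isUnit_mem _ he isUnit_one)
    · exact mul_left_cancel₀ h (by rw [hee, mul_one])
  haveI hint : Algebra.IsIntegral 𝒪 S := Algebra.IsIntegral.of_finite 𝒪 S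
  refine IsLocalRing.of_unique_max_ideal ⟨𝔐, h𝔐, fun 𝔐' h𝔐' => ?_⟩
  have hcom : 𝔐'.comap (algebraMap 𝒪 S) = maximalIdeal 𝒪 := by
    haveI : (𝔐'.comap (algebraMap 𝒪 S)).IsMaximal :=
      Ideal.isMaximal_comap_of_isIntegral_of_isMaximal (R := 𝒪) 𝔐'
    exact IsLocalRing.eq_maximalIdeal this
  have h1 : 𝔐 ≤ 𝔐' := by
    intro t ht
    have h2 := hn (t ^ n) (Ideal.pow_mem_pow ht n)
    rw [he1, mul_one] at h2
    have h3 : (maximalIdeal 𝒪).map (algebraMap 𝒪 S) ≤ 𝔐' := by
      rw [Ideal.map_le_iff_le_comap, hcom]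
    exact h𝔐'.isPrime.mem_of_pow_mem n (h3 h2)
  exact (h𝔐.eq_of_le h𝔐'.ne_top h1).symm

end Local

variable {𝒪 : Type} [CommRing 𝒪] [IsDomain 𝒪] [IsDiscreteValuationRing 𝒪]
  [IsAdicComplete (maximalIdeal 𝒪) 𝒪] [Finite (ResidueField 𝒪)] [CharZero 𝒪]

/-- **Finite extensions**. -/
theorem exists_dvr_ext (B : Type) [CommRing B] [IsDomain B] [Algebra 𝒪 B] [Module.Finite 𝒪 B]
    (hinj : Function.Injective (algebraMap 𝒪 B)) :
    ∃ (O' : Type) (_ : CommRing O') (_ : IsDomain O') (_ : IsDiscreteValuationRing O')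
      (_ : IsAdicComplete (maximalIdeal O') O') (_ : Finite (ResidueField O')) (_ : CharZero O')
      (_ : Algebra 𝒪 O') (_ : Module.Finite 𝒪 O') (_ : IsLocalHom (algebraMap 𝒪 O')),
      Function.Injective (algebraMap 𝒪 O') ∧ ∃ f : B →ₐ[𝒪] O', Function.Injective f := by
  haveI : FaithfulSMul 𝒪 B := (faithfulSMul_iff_algebraMap_injective 𝒪 B).mpr hinj
  letI := FractionRing.liftAlgebra 𝒪 (FractionRing B)
  haveI : IsScalarTower 𝒪 (FractionRing 𝒪) (FractionRing B) :=
    FractionRing.isScalarTower_liftAlgebra 𝒪 (FractionRing B)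
  haveI hfd : FiniteDimensional (FractionRing 𝒪) (FractionRing B) := inferInstance
  haveI : CharZero (FractionRing 𝒪) := inferInstance
  haveI : Algebra.IsSeparable (FractionRing 𝒪) (FractionRing B) := inferInstance
  let O' := integralClosure 𝒪 (FractionRing B)
  haveI h1 : Module.Finite 𝒪 O' := IsIntegralClosure.finite 𝒪 (FractionRing 𝒪) (FractionRing B) O'
  haveI h2 : IsDedekindDomain O' := integralClosure.isDedekindDomain 𝒪 (FractionRing 𝒪)
    (FractionRing B)
  haveI h3 : IsLocalRing O' := isLocalRing_of_finite_domain (𝒪 := 𝒪) O'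
  have hi : Function.Injective (algebraMap 𝒪 O') := by
    have h4 : Function.Injective (algebraMap 𝒪 (FractionRing B)) := by
      rw [IsScalarTower.algebraMap_eq 𝒪 B (FractionRing B)]
      exact (IsFractionRing.injective B (FractionRing B)).comp hinj
    intro x y h
    apply h4
    exact congrArg (fun z : O' => (z : FractionRing B)) h
  haveI hint : Algebra.IsIntegral 𝒪 O' := Algebra.IsIntegral.of_finite 𝒪 O'
  have hnf : ¬ IsField O' := by
    intro h
    have h5 : IsField 𝒪 := isField_of_isIntegral_of_isField hi h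
    exact IsDiscreteValuationRing.not_isField 𝒪 h5
  haveI h4 : IsDiscreteValuationRing O' :=
    ((IsDiscreteValuationRing.TFAE O' hnf).out 0 2).mpr h2
  haveI h5 : IsAdicComplete (maximalIdeal O') O' := isAdicComplete_finite_local (𝒪 := 𝒪) O'
  have hcom : (maximalIdeal O').comap (algebraMap 𝒪 O') = maximalIdeal 𝒪 := by
    haveI : ((maximalIdeal O').comap (algebraMap 𝒪 O')).IsMaximal :=
      Ideal.isMaximal_comap_of_isIntegral_of_isMaximal (R := 𝒪) (maximalIdeal O')
    exact IsLocalRing.eq_maximalIdeal this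
  haveI h6 : IsLocalHom (algebraMap 𝒪 O') := by
    refine ⟨fun a ha => ?_⟩
    by_contra hne
    have h7 : a ∈ maximalIdeal 𝒪 := hne
    rw [← hcom] at h7
    exact h7 ha
  haveI h7 : Finite (ResidueField O') := by
    haveI : Module.Finite (ResidueField 𝒪) (ResidueField O') := inferInstance
    exact Module.finite_of_finite (ResidueField 𝒪)
  haveI h8 : CharZero O' := charZero_of_injective_algebraMap hi
  refine ⟨O', inferInstance, inferInstance, h4, h5, h7, h8, inferInstance, h1, h6, hi, ?_⟩
  let f : B →ₐ[𝒪] O' :=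
    { toFun := fun b => ⟨algebraMap B (FractionRing B) b,
        (IsIntegral.of_finite 𝒪 b).map (IsScalarTower.toAlgHom 𝒪 B (FractionRing B))⟩
      map_one' := Subtype.ext (map_one _)
      map_mul' := fun _ _ => Subtype.ext (map_mul _ _ _)
      map_zero' := Subtype.ext (map_zero _)
      map_add' := fun _ _ => Subtype.ext (map_add _ _ _)
      commutes' := fun r => Subtype.ext (IsScalarTower.algebraMap_apply 𝒪 B (FractionRing B) r).symm }
  exact ⟨f, fun x y h => IsFractionRing.injective B (FractionRing B)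
    (congrArg (fun z : O' => (z : FractionRing B)) h)⟩

end Fermat.Agent.RT
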