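import Fermat.Agent.RT.EigLift
import Fermat.Agent.RT.HFinal
import Fermat.Agent.DS.Traces

set_option autoImplicit false

/-!
# Residual eigenvalues and Galois representations
-/

open Matrix CongruenceSubgroup IsLocalRing
open scoped MatrixGroups

namespace Fermat.Agent.RT.Ihara

open Fermat.Agent.RT Fermat.Agent.ESCore Fermat.Agent.ESCore.UnivG Fermat.Agent.ESCore.Gal

section Gen

variable {𝒪 : Type*} [CommRing 𝒪] [IsLocalRing 𝒪] [IsNoetherianRing 𝒪]
  [IsAdicComplete (maximalIdeal 𝒪) 𝒪] {M : Type*} [AddCommGroup M] [Module 𝒪 M]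
  [Module.Finite 𝒪 M] {H : ℕ → Module.End 𝒪 M}

theorem nilAt_of_pow (hH : ∀ i j, H i * H j = H j * H i) (I : Set ℕ) (a : ℕ → 𝒪) (q : ℕ) (s : 𝒪)
    (k : ℕ) (key : ∀ v ∈ LocI H I a, ((H q - s • 1) ^ k) v ∈
      maximalIdeal 𝒪 • (⊤ : Submodule 𝒪 M)) (v : M) (hv : v ∈ LocI H I a) :
    NilAt (H q - s • 1) v := by
  have hTN : TopNil (resI hH I a q - s • 1) := by
    refine ⟨k, fun w => ?_⟩
    have h2 : ∀ (j : ℕ) (w : LocI H I a),
        (((resI hH I a q - s • 1) ^ j) w : M) = ((H q - s • 1) ^ j) w.1 := by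
      intro j
      induction j with
      | zero => intro w; rfl
      | succ j ih => intro w; rw [pow_succ, pow_succ, Module.End.mul_apply, ih]; rfl
    have h3 := key w.1 w.2
    rw [← h2] at h3
    generalize ((resI hH I a q - s • 1) ^ k) w = y at h3 ⊢
    obtain ⟨y, hy⟩ := y
    have h4 : y ∈ maximalIdeal 𝒪 ^ 1 • (⊤ : Submodule 𝒪 M) := by
      rw [pow_one]; exact h3
    have h5 := LocG.mem_smul (T := fun i : I => H i) (fun i j => hH i j) hy h4
    rw [pow_one] at h5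
    exact h5
  exact (nilAt_resI hH I a q s ⟨v, hv⟩).mp (TopNil.nilAt hTN _)

omit [IsNoetherianRing 𝒪] [IsAdicComplete (maximalIdeal 𝒪) 𝒪] [Module.Finite 𝒪 M] in
/-- Change of the set of indices. -/
theorem LocI_eq_of_nilAt {I I' : Set ℕ} (hI : I ⊆ I') {a : ℕ → 𝒪}
    (h : ∀ i ∈ I', i ∉ I → ∀ v ∈ LocI H I a, NilAt (H i - a i • 1) v) :
    LocI H I' a = LocI H I a :=
  le_antisymm (fun _ hv i => hv ⟨i, hI i.2⟩) fun v hv i => by
    by_cases hi : (i : ℕ) ∈ I
    · exact hv ⟨i, hi⟩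
    · exact h i i.2 hi v hv

end Gen

theorem comm_pow_sub {E V : Type*} [CommRing E] [AddCommGroup V] [Module E V]
    {A B : Module.End E V} (h : A * B = B * A) (s : E) (k : ℕ) :
    A * (B - s • 1) ^ k = (B - s • 1) ^ k * A := by
  have h3 : A * (s • (1 : Module.End E V)) = (s • 1) * A := by
    refine LinearMap.ext fun x => ?_
    change A (s • x) = s • A x
    rw [map_smul]
  have h4 : A * (B - s • 1) = (B - s • 1) * A := by rw [mul_sub, sub_mul, h, h3]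
  induction k with
  | zero => rw [pow_zero, one_mul, mul_one]
  | succ k ih => rw [pow_succ, ← mul_assoc, ih, mul_assoc, h4, ← mul_assoc]

section NotEig

variable {N q : ℕ}
variable {𝒪 : Type*} [CommRing 𝒪] [IsDomain 𝒪] [IsDiscreteValuationRing 𝒪]
variable [IsAdicComplete (maximalIdeal 𝒪) 𝒪]
variable {E : Type*} [Field E] [IsAlgClosed E] [Algebra 𝒪 E]

omit [IsAdicComplete (maximalIdeal 𝒪) 𝒪] [IsAlgClosed E] in
theorem mem_smul_of_toE_eq_zero {G : Subgroup SL(2, ℤ)} (hE : ∀ x : 𝒪, algebraMap 𝒪 E x = 0 → x ∈ maximalIdeal 𝒪)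
    {c : H1 𝒪 𝒪 G} (hc : (toE c : H1 E E G) = 0) :
    c ∈ maximalIdeal 𝒪 • (⊤ : Submodule 𝒪 (H1 𝒪 𝒪 G)) := by
  refine mem_of_mapH_eq_zero (Subtype.ext (funext fun g => ?_))
  have h2 : algebraMap 𝒪 E (c.1 g) = 0 := congrFun (congrArg Subtype.val hc) g
  exact resL_eq_zero.mpr (hE _ h2)

/-- If `T_q - s` is not topologically nilpotent there is a residual eigenclass with
another eigenvalue. -/
theorem exists_eigenclass_of_not_eigAt [NeZero N]
    (hE : ∀ x : 𝒪, algebraMap 𝒪 E x = 0 ↔ x ∈ maximalIdeal 𝒪)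
    {I : Set ℕ} {a : ℕ → 𝒪} {s : 𝒪} (h : ¬ EigAt N q I a s) :
    ∃ (c : H1 E E (Gamma0 N)) (lam : ℕ → E), c ≠ 0 ∧
      (∀ n, hec (Gamma1_le N) le_rfl n c = lam n • c) ∧ (∀ i ∈ I, lam i = algebraMap 𝒪 E (a i)) ∧
      lam q ≠ algebraMap 𝒪 E s := by
  have := finite_H1 (O := E) (A := E) (G := Gamma0 N)
  have := finite_H1 (O := 𝒪) (A := 𝒪) (G := Gamma0 N)
  set T : ℕ → Module.End 𝒪 (H1 𝒪 𝒪 (Gamma0 N)) := hec (Gamma1_le N) le_rfl with hT
  set T' : ℕ → Module.End E (H1 E E (Gamma0 N)) := hec (Gamma1_le N) le_rfl with hT'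
  set V : Submodule 𝒪 (H1 𝒪 𝒪 (Gamma0 N)) := HM 𝒪 (Gamma1_le N) le_rfl I a with hV
  set W : Submodule E (H1 E E (Gamma0 N)) :=
    Submodule.span E (toE '' (V : Set (H1 𝒪 𝒪 (Gamma0 N)))) with hW
  have hVst : ∀ n, ∀ v ∈ V, T n v ∈ V := fun n v hv =>
    LocG.map (M := H1 𝒪 𝒪 (Gamma0 N)) (M' := H1 𝒪 𝒪 (Gamma0 N))
      (T := hecI (Gamma1_le N) le_rfl I) (T' := hecI (Gamma1_le N) le_rfl I)
      (a := fun i : I => a i) (T n)
      (fun i m => LinearMap.congr_fun (hec_comm (Gamma1_le N) le_rfl n i) m) hv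
  have hWst : ∀ n, ∀ w ∈ W, T' n w ∈ W := by
    intro n w hw
    induction hw using Submodule.span_induction with
    | mem x hx =>
      obtain ⟨v, hv, rfl⟩ := hx
      rw [hT', hec_toE]
      exact Submodule.subset_span ⟨_, hVst n v hv, rfl⟩
    | zero => rw [map_zero]; exact W.zero_mem
    | add x y _ _ hx hy => rw [map_add]; exact W.add_mem hx hy
    | smul a x _ hx => rw [map_smul]; exact W.smul_mem a hx
  have hcomm : ∀ i j, T' i * T' j = T' j * T' i := hec_comm (Gamma1_le N) le_rfl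
  set sE : E := algebraMap 𝒪 E s with hsE
  set f : Module.End E (H1 E E (Gamma0 N)) := T' q - sE • 1 with hf
  have hfcomm : ∀ n (k : ℕ), T' n * f ^ k = f ^ k * T' n := by
    intro n k
    exact comm_pow_sub (V := H1 E E (Gamma0 N)) (hcomm n q) sE k
  obtain ⟨k₀, hk₀⟩ := Filter.eventually_atTop.mp (Module.End.eventually_disjoint_ker_pow_range_pow f)
  set k := k₀ + 1 with hk
  have hdis : Disjoint (LinearMap.ker (f ^ k)) (LinearMap.range (f ^ k)) :=
    hk₀ k (Nat.le_succ k₀)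
  -- `f ^ k` is nonzero on `W`
  have hne : W.map (f ^ k) ≠ ⊥ := by
    intro hbot
    apply h
    have key : ∀ v ∈ V, ((T q - s • 1) ^ k) v ∈ maximalIdeal 𝒪 • (⊤ : Submodule 𝒪 _) := by
      intro v hv
      refine mem_smul_of_toE_eq_zero (E := E) (fun x hx => (hE x).mp hx) ?_
      have h2 : ∀ (j : ℕ) (v : H1 𝒪 𝒪 (Gamma0 N)),
          (toE (((T q - s • 1) ^ j) v) : H1 E E (Gamma0 N)) = (f ^ j) (toE v) := by
        intro j
        induction j with
        | zero => intro v; rfl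
        | succ j ih =>
          intro v
          rw [pow_succ, pow_succ, Module.End.mul_apply, Module.End.mul_apply, ih]
          congr 1
          rw [LinearMap.sub_apply, toE_sub, hf, LinearMap.sub_apply, hT', hec_toE]
          congr 1
          rw [LinearMap.smul_apply, Module.End.one_apply, toE_smul]
          rfl
      rw [h2]
      have h3 : (f ^ k) (toE v) ∈ W.map (f ^ k) :=
        Submodule.mem_map_of_mem (Submodule.subset_span ⟨v, hv, rfl⟩)
      rw [hbot, Submodule.mem_bot] at h3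
      exact h3
    exact nilAt_of_pow (M := H1 𝒪 𝒪 (Gamma0 N)) (H := T)
      (hec_comm (Gamma1_le N) le_rfl) I a q s k key
  have hst : ∀ n, ∀ w ∈ W.map (f ^ k), T' n w ∈ W.map (f ^ k) := by
    rintro n _ ⟨w, hw, rfl⟩
    refine ⟨T' n w, hWst n w hw, ?_⟩
    exact (LinearMap.congr_fun (hfcomm n k) w).symm
  obtain ⟨c, hcW, hc0, hc⟩ := exists_common_eigenvector (L := E) (V := H1 E E (Gamma0 N))
    T' (fun n m => hcomm n m) _ (W.map (f ^ k)) rfl hne hst
  choose lam hlam using hc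
  refine ⟨c, lam, hc0, hlam, fun i hi => ?_, fun hq => ?_⟩
  · obtain ⟨P, hP, m, hm⟩ := LocI_exists_poly (M := H1 𝒪 𝒪 (Gamma0 N)) (H := T)
      (hec_comm (Gamma1_le N) le_rfl) I a hi
    have hmapW : ∀ w ∈ W, w ∈ W → Polynomial.aeval (T' i) (P.map (algebraMap 𝒪 E)) w = 0 := by
      intro w hw _
      induction hw using Submodule.span_induction with
      | mem x hx =>
        obtain ⟨v, hv, rfl⟩ := hx
        rw [hT', aeval_toE, hP v hv]
        exact map_zero (extH (algebraMap 𝒪 E).toAddMonoidHom)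
      | zero => rw [map_zero]
      | add x y hx' hy' hx hy => rw [map_add, hx hx', hy hy', add_zero]
      | smul a x hx' hx => rw [map_smul, hx hx', smul_zero]
    obtain ⟨w, hw, rfl⟩ := hcW
    have h3 : Polynomial.aeval (T' i) (P.map (algebraMap 𝒪 E)) ((f ^ k) w) = 0 := by
      have h4 : ∀ j : ℕ, (f ^ j) w ∈ W := by
        intro j
        induction j with
        | zero => exact hw
        | succ j ih =>
          rw [pow_succ', Module.End.mul_apply, hf, LinearMap.sub_apply, LinearMap.smul_apply,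
            Module.End.one_apply]
          exact W.sub_mem (hWst q _ ih) (W.smul_mem _ ih)
      exact hmapW _ (h4 k) (h4 k)
    rw [hT', aeval_eigen _ _ (hlam i), smul_eq_zero, or_iff_left hc0] at h3
    obtain ⟨g, hg⟩ : ∃ g : ResidueField 𝒪 →+* E, algebraMap 𝒪 E = g.comp (residue 𝒪) :=
      ⟨Ideal.Quotient.lift (maximalIdeal 𝒪) (algebraMap 𝒪 E) (fun x hx => (hE x).mpr hx), rfl⟩
    rw [hg, ← Polynomial.map_map, hm, Polynomial.map_pow, Polynomial.map_sub, Polynomial.map_X,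
      Polynomial.map_C, Polynomial.eval_pow, Polynomial.eval_sub, Polynomial.eval_X,
      Polynomial.eval_C] at h3
    have hm0 : m ≠ 0 := by
      rintro rfl
      rw [pow_zero] at h3
      exact one_ne_zero h3
    rw [hg]
    exact sub_eq_zero.mp ((pow_eq_zero_iff hm0).mp h3)
  · have h3 : f c = 0 := by
      rw [hf, LinearMap.sub_apply, hlam q, hq, LinearMap.smul_apply, Module.End.one_apply, sub_self]
    have h4 : c ∈ LinearMap.ker (f ^ k) := by
      rw [LinearMap.mem_ker, hk, pow_succ, Module.End.mul_apply, h3, map_zero]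
    have h5 : c ∈ LinearMap.range (f ^ k) := by
      obtain ⟨w, -, rfl⟩ := hcW
      exact ⟨w, rfl⟩
    exact hc0 ((Submodule.disjoint_def.mp hdis) c h4 h5)

end NotEig

section Galois

variable {N : ℕ} {E : Type} [Field E]

theorem isAdicComplete_field : IsAdicComplete (maximalIdeal E) E := by
  rw [IsLocalRing.maximalIdeal_eq_bot]
  infer_instance

/-- Residual eigenclasses are parabolic. -/
theorem eigenclass_par (h2 : (2 : E) ≠ 0) {c : H1 E E (Gamma0 N)} {lam : ℕ → E}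
    (hc : ∀ n, hec (Gamma1_le N) le_rfl n c = lam n • c) {l₀ : ℕ} (hl₀ : l₀.Prime)
    (hl1 : (N : ℤ) ∣ (l₀ : ℤ) - 1) (hne : lam l₀ ≠ l₀ + 1) :
    Par (Gamma1_le N) le_rfl (toChar c) := by
  have key : ∀ g : Gamma0 N, (g : SL(2, ℤ)) 0 0 + (g : SL(2, ℤ)) 1 1 = 2 → c.1 g = 0 := by
    rintro ⟨g, hgG⟩ hg
    obtain ⟨h, t, rfl⟩ := exists_parabolic g hg
    have hlN := not_dvd_of_dvd_sub_one hl₀ hl1
    have h3 : (hec (Gamma1_le N) le_rfl l₀ c).1 ⟨h * up t * h⁻¹, hgG⟩ =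
        (l₀ + 1) • c.1 ⟨h * up t * h⁻¹, hgG⟩ := by
      rw [hec_T (Gamma1_le N) le_rfl hl₀ hlN, opH_apply, opc_parabolic (Gamma1_le N) le_rfl hl₀
        (isCoprime_N hl₀ hlN) hl1 (addOn_ex c) h t hgG, ex_apply _ hgG]
    rw [hc] at h3
    have h4 : (lam l₀ - (l₀ + 1)) * c.1 ⟨h * up t * h⁻¹, hgG⟩ = 0 := by
      change lam l₀ * c.1 ⟨h * up t * h⁻¹, hgG⟩ = _ at h3
      rw [sub_mul, h3, nsmul_eq_mul]
      push_cast
      ring
    exact (mul_eq_zero.mp h4).resolve_left (sub_ne_zero.mpr hne)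
  intro δ γ hγ
  rw [diaChar_apply]
  have h3 : c.1 (conjG (Gamma1_le N) le_rfl δ γ * conjG (Gamma1_le N) le_rfl δ γ) = 0 := by
    refine key _ ?_
    rw [← map_mul]
    exact (trace_conj δ _).trans (trace_sq hγ)
  rw [c.2, ← two_mul] at h3
  rw [toChar_apply, (mul_eq_zero.mp h3).resolve_left h2]
  rfl

/-- **The pseudo-representation of a residual eigenclass.** -/
theorem exists_galois_of_eigenclass [NeZero N] {p : ℕ} (hp : p.Prime) (hpE : (p : E) = 0)
    (h2 : (2 : E) ≠ 0) {c : H1 E E (Gamma0 N)} {lam : ℕ → E} (hc0 : c ≠ 0)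
    (hc : ∀ n, hec (Gamma1_le N) le_rfl n c = lam n • c) {l₀ : ℕ} (hl₀ : l₀.Prime)
    (hl1 : (N : ℤ) ∣ (l₀ : ℤ) - 1) (hne : lam l₀ ≠ l₀ + 1) {S : Finset ℕ} (hpS : p ∈ S)
    (hNS : ∀ l : ℕ, l.Prime → l ∣ N → l ∈ S) :
    ∃ (t : GQ → E) (ε : GQ →* Eˣ), IsPseudo t ε ∧
      (∀ l : ℕ, l.Prime → l ∉ S → ∀ B : ValuationSubring Qb, B.LiesOverPrime l →
        ∀ σ : GQ, B.IsFrobeniusAt σ l → t σ = lam l ∧ (ε σ : E) = l) ∧
      ∃ L : IntermediateField ℚ Qb, FiniteDimensional ℚ L ∧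
        ∀ σ : GQ, (∀ x ∈ L, σ x = x) → (∀ g, t (σ * g) = t g) ∧ ε σ = 1 := by
  have := isAdicComplete_field (E := E)
  have hinj : Function.Injective (fun x : E => toChar (x • c)) := by
    intro x y h
    have h3 := toChar_injective h
    obtain ⟨g, hg⟩ : ∃ g, c.1 g ≠ 0 := by
      by_contra hcon
      push Not at hcon
      exact hc0 (Subtype.ext (funext hcon))
    exact mul_right_cancel₀ hg (congrFun (congrArg Subtype.val h3) g)
  let ι : E →+ Additive (Gamma0 N →* Multiplicative E) :=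
    { toFun := fun x => Additive.ofMul (toChar (x • c))
      map_zero' := by rw [zero_smul]; rfl
      map_add' := fun x y => by rw [add_smul]; rfl }
  let τ : Univ.Idx N S ⊕ Gamma0 N → E := Sum.elim (fun i => lam i.1) fun _ => 1
  have hpar := eigenclass_par h2 hc hl₀ hl1 hne
  have hcx : ∀ (x : E) n, hec (Gamma1_le N) le_rfl n (x • c) = (lam n * x) • c := by
    intro x n
    rw [map_smul, hc, smul_smul, mul_comm]
  have H : HeckeModule (Gamma1_le N) le_rfl S ι τ :=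
    { faithful := fun r hr => by simpa using hr 1
      injective := hinj
      par := fun x => by
        refine eigenclass_par (lam := lam) h2 (c := x • c) (fun n => ?_) hl₀ hl1 hne
        rw [hcx, mul_smul]
      hecke := fun i x => by
        change toChar ((lam i.1 * x) • c) = heckeCharG i.2.1 i.2.2.1 (Gamma1_le N) le_rfl
          (toChar (x • c))
        rw [heckeCharG_hec, hcx]
      dia := fun δ x => by
        change toChar (((1 : E) * x) • c) = diaChar (Gamma1_le N) le_rfl δ (toChar (x • c))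
        rw [diaChar_toChar, one_mul]
        rw [diaH_of_mem (Gamma1_le N) le_rfl (σ := δ) δ.2, LinearMap.id_apply] }
  obtain ⟨π, hπ⟩ := H.exists_hom
  obtain ⟨t, ε, hps, hT, -, hε, hL, -, -⟩ := exists_pseudo_G (Gamma1_le N) le_rfl (S := S) hp hpS
    hNS (O := E) (by rw [hpE]; exact Ideal.zero_mem _) π
  refine ⟨t, ε, hps, fun l hl hlS B hB σ hσ => ⟨?_, ?_⟩, ?_⟩
  · rw [hT l hl (fun h => hlS (hNS l hl h)) hlS B hB σ hσ, hπ]
    rfl
  · rw [hε l hl hlS B hB σ hσ, hπ]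
    exact mul_one _
  · obtain ⟨L, hLf, hL⟩ := hL 1
    refine ⟨L, hLf, fun σ hσ => ⟨fun g => ?_, ?_⟩⟩
    · have h3 := (hL σ hσ).1 g
      rw [pow_one, hpE, Ideal.span_singleton_eq_bot.mpr rfl, Ideal.mem_bot, sub_eq_zero] at h3
      exact h3
    · have h3 := (hL σ hσ).2
      rw [pow_one, hpE, Ideal.span_singleton_eq_bot.mpr rfl, Ideal.mem_bot, sub_eq_zero] at h3
      exact Units.ext h3

theorem pseudo_pow {G R : Type*} [Group G] [CommRing R] {t : G → R} {χ : G →* Rˣ}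
    (h : IsPseudo t χ) (g : G) : ∀ n : ℕ, t (g ^ n) = DS.lt (t g) (χ g) n
  | 0 => by rw [pow_zero, h.one, DS.lt]
  | 1 => by rw [pow_one, DS.lt]
  | (n + 2) => by
    have h2 := h.mul g (g ^ (n + 1))
    rw [DS.lt, ← pseudo_pow h g (n + 1), ← pseudo_pow h g n, h2, ← pow_succ',
      pow_succ' g n, inv_mul_cancel_left, add_sub_cancel_right]

theorem pseudo_inv {G R : Type*} [Group G] [CommRing R] {t : G → R} {χ : G →* Rˣ}
    (h : IsPseudo t χ) (g : G) : (χ g : R) * t g⁻¹ = t g := by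
  have h2 := h.mul g 1
  rw [h.one, mul_one, mul_one, mul_two] at h2
  exact (add_left_cancel h2).symm

/-- **Comparison of a pseudo-representation with a representation.** -/
theorem pseudo_eq_trace {K : Type*} [CommRing K] {R : Type*} [CommRing R] {t : GQ → R}
    {ε : GQ →* Rˣ} (h : IsPseudo t ε) {L L' : IntermediateField ℚ Qb} [FiniteDimensional ℚ L]
    [FiniteDimensional ℚ L']
    (hL : ∀ σ : GQ, (∀ x ∈ L, σ x = x) → (∀ g, t (σ * g) = t g) ∧ ε σ = 1)
    (ρ : GQ →* GL (Fin 2) K) (hL' : ∀ σ : GQ, (∀ x ∈ L', σ x = x) → ρ σ = 1) (ψ : K →+* R)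
    (T : Finset ℕ) (hT : ∀ l : ℕ, l.Prime → l ∉ T → ∀ B : ValuationSubring Qb,
      B.LiesOverPrime l → ∀ σ : GQ, B.IsFrobeniusAt σ l →
        t σ = ψ (ρ σ : Matrix (Fin 2) (Fin 2) K).trace ∧
        (ε σ : R) = ψ (ρ σ : Matrix (Fin 2) (Fin 2) K).det) (σ : GQ) :
    t σ = ψ (ρ σ : Matrix (Fin 2) (Fin 2) K).trace := by
  obtain ⟨l, hl, hlT, B, hB, φ, hφ, i, -, hi, -⟩ :=
    FrobDensity.exists_frobenius_pow (L ⊔ L') σ T
  obtain ⟨h1, h2⟩ := hT l hl hlT B hB φ hφ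
  have h3 : ∀ x ∈ L ⊔ L', ((φ ^ i)⁻¹ * σ) x = x := by
    intro x hx
    have h4 : σ x = (φ ^ i) x := (hi x hx).symm
    rw [AlgEquiv.mul_apply, h4, ← AlgEquiv.mul_apply, inv_mul_cancel, AlgEquiv.one_apply]
  set τ := (φ ^ i)⁻¹ * σ with hτ
  have hσ : σ = φ ^ i * τ := by rw [hτ, mul_inv_cancel_left]
  have h4 : t σ = t (φ ^ i) := by
    have h5 := hL τ fun x hx => h3 x ((le_sup_left : L ≤ L ⊔ L') hx)
    have h6 := hL τ⁻¹ fun x hx => by
      rw [← h3 x ((le_sup_left : L ≤ L ⊔ L') hx), ← AlgEquiv.mul_apply, inv_mul_cancel,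
        AlgEquiv.one_apply, h3 x ((le_sup_left : L ≤ L ⊔ L') hx)]
    rw [hσ, ← pseudo_inv h, _root_.mul_inv_rev, h6.1, map_mul, h5.2, mul_one, pseudo_inv h]
  have h5 : ρ σ = ρ φ ^ i := by
    rw [hσ, map_mul, hL' τ fun x hx => h3 x ((le_sup_right : L' ≤ L ⊔ L') hx), mul_one, map_pow]
  rw [h4, pseudo_pow h, h5, Units.val_pow_eq_pow_val, DS.trace_pow_eq, DS.lt_map, h1, h2]

end Galois

section Final

variable {N q : ℕ} {𝒪 : Type} [CommRing 𝒪] [IsDomain 𝒪] [IsDiscreteValuationRing 𝒪]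
variable [IsAdicComplete (maximalIdeal 𝒪) 𝒪]

/-- **The residual eigenvalue of `T_q` is given by the residual representation.** -/
theorem eigAt_of_galois [NeZero N] {I : Set ℕ} {a : ℕ → 𝒪} {s : 𝒪} {p : ℕ} (hp : p.Prime)
    (hp𝒪 : (p : 𝒪) ∈ maximalIdeal 𝒪) (h2 : (2 : 𝒪) ∉ maximalIdeal 𝒪) (hNE : NonEisP N I a)
    {S : Finset ℕ} (hpS : p ∈ S) (hNS : ∀ l : ℕ, l.Prime → l ∣ N → l ∈ S) (hq : q.Prime)
    (hqS : q ∉ S) (hI : ∀ l : ℕ, l.Prime → l ∉ S → l ≠ q → l ∈ I)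
    {K : Type} [Field K] [Algebra (ResidueField 𝒪) K] (ρ : GQ →* GL (Fin 2) K)
    {L' : IntermediateField ℚ Qb} [FiniteDimensional ℚ L']
    (hL' : ∀ σ : GQ, (∀ x ∈ L', σ x = x) → ρ σ = 1)
    (hρ : ∀ l : ℕ, l.Prime → l ∉ S → l ≠ q → ∀ B : ValuationSubring Qb, B.LiesOverPrime l →
      ∀ σ : GQ, B.IsFrobeniusAt σ l → (ρ σ : Matrix (Fin 2) (Fin 2) K).det = l ∧
        (ρ σ : Matrix (Fin 2) (Fin 2) K).trace = algebraMap (ResidueField 𝒪) K (residue 𝒪 (a l)))
    (hs : ∃ B : ValuationSubring Qb, B.LiesOverPrime q ∧ ∃ σ : GQ, B.IsFrobeniusAt σ q ∧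
      (ρ σ : Matrix (Fin 2) (Fin 2) K).trace = algebraMap (ResidueField 𝒪) K (residue 𝒪 s)) :
    EigAt N q I a s := by
  by_contra hcon
  let E := AlgebraicClosure K
  letI alg : Algebra 𝒪 E :=
    ((algebraMap K E).comp ((algebraMap (ResidueField 𝒪) K).comp (residue 𝒪))).toAlgebra
  have halg : ∀ x : 𝒪, algebraMap 𝒪 E x =
      algebraMap K E (algebraMap (ResidueField 𝒪) K (residue 𝒪 x)) := fun _ => rfl
  have hE : ∀ x : 𝒪, algebraMap 𝒪 E x = 0 ↔ x ∈ maximalIdeal 𝒪 := by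
    intro x
    rw [halg, map_eq_zero, map_eq_zero, residue_eq_zero_iff]
  obtain ⟨c, lam, hc0, hc, hlam, hlq⟩ := exists_eigenclass_of_not_eigAt (E := E) hE hcon
  obtain ⟨l₀, hl₀I, hl₀, hl1, hu⟩ := hNE
  have hpE : (p : E) = 0 := by
    have := (hE p).mpr hp𝒪
    rwa [map_natCast] at this
  have h2E : (2 : E) ≠ 0 := by
    intro h
    apply h2
    rw [← hE, map_ofNat]
    exact h
  have hne : lam l₀ ≠ l₀ + 1 := by
    rw [hlam l₀ hl₀I]
    intro h
    have h3 : algebraMap 𝒪 E (a l₀ - (l₀ + 1)) = 0 := by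
      rw [map_sub, map_add, map_natCast, map_one, h, sub_self]
    exact (mem_nonunits_iff.mp ((mem_maximalIdeal _).mp ((hE _).mp h3))) hu
  obtain ⟨t, ε, hps, hT, L, hLf, hL⟩ := exists_galois_of_eigenclass hp hpE h2E hc0 hc hl₀ hl1 hne
    hpS hNS
  obtain ⟨B, hB, σ, hσ, hsσ⟩ := hs
  have key := pseudo_eq_trace hps hL ρ hL' (algebraMap K E) (insert q S)
    (fun l hl hlS B hB σ hσ => by
      rw [Finset.mem_insert, not_or] at hlS
      obtain ⟨h3, h4⟩ := hT l hl hlS.2 B hB σ hσ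
      obtain ⟨h5, h6⟩ := hρ l hl hlS.2 hlS.1 B hB σ hσ
      rw [h3, h4, h5, h6, map_natCast, hlam l (hI l hl hlS.2 hlS.1)]
      exact ⟨rfl, rfl⟩) σ
  rw [(hT q hq hqS B hB σ hσ).1, hsσ] at key
  exact hlq key

omit [IsAdicComplete (maximalIdeal 𝒪) 𝒪] in
/-- Change of the set of indices in the localised cohomology. -/
theorem HM0_eq_of_eigAt {I I' : Set ℕ} (hI : I ⊆ I') {a : ℕ → 𝒪}
    (h : ∀ i ∈ I', i ∉ I → EigAt N i I a (a i)) :
    HM 𝒪 (Gamma1_le N) le_rfl I' a = HM 𝒪 (Gamma1_le N) le_rfl I a :=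
  LocI_eq_of_nilAt (M := H1 𝒪 𝒪 (Gamma0 N)) (H := hec (Gamma1_le N) le_rfl) hI h

end Final

end Fermat.Agent.RT.Ihara
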