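import Fermat.Agent.RT.TWStep

set_option autoImplicit false

/-!
# The Taylor–Wiles step for a set of primes
-/

open Matrix CongruenceSubgroup IsLocalRing
open scoped MatrixGroups

namespace Fermat.Agent.RT.Ihara

open Fermat.Agent.RT

variable {G : Subgroup SL(2, ℤ)} {N q : ℕ}
variable {𝒪 : Type*} [CommRing 𝒪] [IsDomain 𝒪] [IsDiscreteValuationRing 𝒪]
variable [IsAdicComplete (maximalIdeal 𝒪) 𝒪]

/-- The localised cohomology of `Γ₀(N)` -/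
noncomputable abbrev HM0 (N : ℕ) (I : Set ℕ) (a : ℕ → 𝒪) : Submodule 𝒪 (H1 𝒪 𝒪 (Gamma0 N)) :=
  HM 𝒪 (Gamma1_le N) le_rfl I a

/-- Equivalence of localised cohomologies, equivariant away from `E`. -/
def LevEquiv (N N' : ℕ) (I I' : Set ℕ) (a : ℕ → 𝒪) (E : Set ℕ) : Prop :=
  ∃ e : HM0 N' I' a ≃ₗ[𝒪] HM0 N I a, ∀ n ∉ E, ∀ v w : HM0 N' I' a,
    w.1 = hec (Gamma1_le N') le_rfl n v.1 → (e w).1 = hec (Gamma1_le N) le_rfl n (e v).1

omit [IsAdicComplete (maximalIdeal 𝒪) 𝒪] in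
theorem LevEquiv.refl (N : ℕ) (I : Set ℕ) (a : ℕ → 𝒪) (E : Set ℕ) : LevEquiv N N I I a E :=
  ⟨LinearEquiv.refl 𝒪 _, fun _ _ _ _ h => h⟩

theorem hec_mem_HM0 {I : Set ℕ} {a : ℕ → 𝒪} (n : ℕ) (v : HM0 N I a) :
    hec (Gamma1_le N) le_rfl n v.1 ∈ HM0 N I a :=
  LocG.map (M := H1 𝒪 𝒪 (Gamma0 N)) (M' := H1 𝒪 𝒪 (Gamma0 N))
    (T := hecI (Gamma1_le N) le_rfl I) (T' := hecI (Gamma1_le N) le_rfl I) (a := fun i : I => a i)
    (hec (Gamma1_le N) le_rfl n)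
    (fun i m => LinearMap.congr_fun (hec_comm (Gamma1_le N) le_rfl n i) m) v.2

theorem LevEquiv.trans {N N' N'' : ℕ} {I I' I'' : Set ℕ} {a : ℕ → 𝒪} {E E' : Set ℕ}
    (h : LevEquiv N N' I I' a E) (h' : LevEquiv N' N'' I' I'' a E') :
    LevEquiv N N'' I I'' a (E ∪ E') := by
  obtain ⟨e, he⟩ := h
  obtain ⟨e', he'⟩ := h'
  refine ⟨e'.trans e, fun n hn v w hw => ?_⟩
  exact he n (fun h => hn (Or.inl h)) _ _ (he' n (fun h => hn (Or.inr h)) v w hw)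

theorem NilAt.equiv {M M' : Type*} [AddCommGroup M] [Module 𝒪 M] [AddCommGroup M'] [Module 𝒪 M']
    {W : Submodule 𝒪 M} {W' : Submodule 𝒪 M'} (e : W →ₗ[𝒪] W') {g : Module.End 𝒪 M}
    {g' : Module.End 𝒪 M'} (hgW : ∀ w : W, g w ∈ W)
    (he : ∀ v w : W, (w : M) = g v → (e w : M') = g' (e v)) {v : W}
    (h : ∀ j, ∃ n, ∀ w : W, (w : M) = (g ^ n) v → w ∈ maximalIdeal 𝒪 ^ j • (⊤ : Submodule 𝒪 W)) :
    NilAt g' (e v : M') := by
  intro j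
  obtain ⟨n, hn⟩ := h j
  refine ⟨n, ?_⟩
  have h1 : ∀ n, ∃ w : W, (w : M) = (g ^ n) v ∧ (e w : M') = (g' ^ n) (e v) := by
    intro n
    induction n with
    | zero => exact ⟨v, rfl, rfl⟩
    | succ n ih =>
      obtain ⟨w, hw, hw2⟩ := ih
      refine ⟨⟨g w, hgW w⟩, ?_, ?_⟩
      · change g w = _
        rw [pow_succ', Module.End.mul_apply, hw]
      · rw [he w ⟨g w, hgW w⟩ rfl, hw2, pow_succ', Module.End.mul_apply]
  obtain ⟨w, hw, hw2⟩ := h1 n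
  rw [← hw2]
  exact map_mem_smul_top ((Submodule.subtype W').comp e) _ (hn w hw)

theorem symm_sub_smul {M M' : Type*} [AddCommGroup M] [Module 𝒪 M] [AddCommGroup M'] [Module 𝒪 M']
    {X : Submodule 𝒪 M} {X' : Submodule 𝒪 M'}
    (e : X' ≃ₗ[𝒪] X) (u : X') (v : X) (s : 𝒪) : e.symm (e u - s • v) = u - s • e.symm v := by
  rw [map_sub, map_smul, e.symm_apply_apply]

/-- Transport of the residual eigenvalue -/
theorem LevEquiv.eigAt [NeZero N] {N' : ℕ} {I I' : Set ℕ} {a : ℕ → 𝒪} {E : Set ℕ}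
    (h : LevEquiv N N' I I' a E) (hq : q ∉ E) {s : 𝒪} (hT : EigAt N q I a s) :
    EigAt N' q I' a s := by
  have := finite_H1 (O := 𝒪) (A := 𝒪) (G := Gamma0 N)
  obtain ⟨e, he⟩ := h
  intro v hv
  have h1 := hT _ (e ⟨v, hv⟩).2
  have h2 := NilAt.equiv (M := H1 𝒪 𝒪 (Gamma0 N)) (M' := H1 𝒪 𝒪 (Gamma0 N')) (W := HM0 N I a)
    (W' := HM0 N' I' a) e.symm.toLinearMap
    (g := hec (Gamma1_le N) le_rfl q - s • (1 : Module.End 𝒪 (H1 𝒪 𝒪 (Gamma0 N))))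
    (g' := hec (Gamma1_le N') le_rfl q - s • (1 : Module.End 𝒪 (H1 𝒪 𝒪 (Gamma0 N'))))
    (fun w => Submodule.sub_mem _ (hec_mem_HM0 q w) (Submodule.smul_mem _ _ w.2)) ?_
    (v := e ⟨v, hv⟩) ?_
  · have h3 : e.symm.toLinearMap (e ⟨v, hv⟩) = ⟨v, hv⟩ := e.symm_apply_apply _
    rw [h3] at h2
    exact h2
  · intro v w hw
    have h3 := he q hq (e.symm v) ⟨_, hec_mem_HM0 q (e.symm v)⟩ rfl
    rw [e.apply_symm_apply] at h3
    have h4 : w = e ⟨_, hec_mem_HM0 q (e.symm v)⟩ - s • v := by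
      apply Subtype.ext
      rw [Submodule.coe_sub, h3, Submodule.coe_smul, hw]
      rfl
    have h5 : e.symm w = ⟨_, hec_mem_HM0 q (e.symm v)⟩ - s • e.symm v := by
      rw [h4]
      exact symm_sub_smul (M := H1 𝒪 𝒪 (Gamma0 N)) (M' := H1 𝒪 𝒪 (Gamma0 N')) e _ v s
    change ((e.symm w : HM0 N' I' a) : H1 𝒪 𝒪 (Gamma0 N')) = _
    rw [h5]
    rfl
  · intro j
    obtain ⟨n, hn⟩ := h1 j
    refine ⟨n, fun w hw => ?_⟩
    rw [← hw] at hn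
    obtain ⟨w, hw'⟩ := w
    exact LocG.mem_smul (hecI_comm (Gamma1_le N) le_rfl I) hw' hn

/-- one step -/
theorem LevEquiv.step [NeZero N] {N' : ℕ} {I : Set ℕ} {a : ℕ → 𝒪} {b : 𝒪} (hq : q.Prime)
    (hqN : IsCoprime (N : ℤ) (q : ℤ)) (hN' : N' = N * q) (hI : q ∉ I)
    (hnew : NoNew N hq hqN I a) (hT : EigAt N q I a (a q + b))
    (hab : a q * b - q ∈ maximalIdeal 𝒪) (hu1 : IsUnit (a q - b)) (hu2 : IsUnit (b - q * a q))
    (hu3 : IsUnit (((q : 𝒪) + 1) * (q + 1) - (a q + b) * (a q + b))) :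
    LevEquiv N N' I (insert q I) a {q} := by
  subst hN'
  have key : ∀ (G' : Subgroup SL(2, ℤ)) (hG : G' = Gq (Gamma0 N) q) (h1 : Gamma1 (N * q) ≤ G')
      (h0 : G' ≤ Gamma0 (N * q)), ∃ e : HM 𝒪 h1 h0 (insert q I) a ≃ₗ[𝒪] HM0 N I a,
      ∀ n ≠ q, ∀ v w : HM 𝒪 h1 h0 (insert q I) a, w.1 = hec h1 h0 n v.1 →
        (e w).1 = hec (Gamma1_le N) le_rfl n (e v).1 := by
    intro G' hG h1 h0
    subst hG
    obtain ⟨e, he⟩ := tw_step hq hqN hI hnew hT hab hu1 hu2 hu3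
    refine ⟨e, fun n hn v w hw => ?_⟩
    rw [he, he, hw]
    exact hec_tr1 (Gamma1_le N) le_rfl hq hqN n hn v.1
  obtain ⟨e, he⟩ := key (Gamma0 (N * q)) (Gq_Gamma0 hqN).symm (Gamma1_le _) le_rfl
  exact ⟨e, fun n hn v w hw => he n hn v w hw⟩

/-- **The Taylor–Wiles step for a finite set of primes.** -/
theorem tw_all {N₀ : ℕ} [NeZero N₀] (Q : Finset ℕ) {I : Set ℕ} {a b : ℕ → 𝒪}
    (hQ : ∀ q ∈ Q, q.Prime) (hN₀ : ∀ q ∈ Q, ¬ q ∣ N₀) (hI : ∀ q ∈ Q, q ∉ I)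
    (hnew : ∀ Q' ⊆ Q, ∀ q ∈ Q, q ∉ Q' → ∀ (hq : q.Prime)
      (hqN : IsCoprime ((N₀ * ∏ x ∈ Q', x : ℕ) : ℤ) (q : ℤ)),
      NoNew (N₀ * ∏ x ∈ Q', x) hq hqN (I ∪ Q') a)
    (hT : ∀ q ∈ Q, EigAt N₀ q I a (a q + b q))
    (hab : ∀ q ∈ Q, a q * b q - q ∈ maximalIdeal 𝒪) (hu1 : ∀ q ∈ Q, IsUnit (a q - b q))
    (hu2 : ∀ q ∈ Q, IsUnit (b q - q * a q))
    (hu3 : ∀ q ∈ Q, IsUnit (((q : 𝒪) + 1) * (q + 1) - (a q + b q) * (a q + b q))) :
    LevEquiv N₀ (N₀ * ∏ x ∈ Q, x) I (I ∪ Q) a Q := by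
  classical
  suffices h : ∀ Q' ⊆ Q, LevEquiv N₀ (N₀ * ∏ x ∈ Q', x) I (I ∪ Q') a Q' from h Q subset_rfl
  intro Q'
  induction Q' using Finset.induction_on with
  | empty =>
    intro _
    have h1 := LevEquiv.refl N₀ I a ((∅ : Finset ℕ) : Set ℕ)
    convert h1 using 1
    · simp
    · simp
  | insert q Q' hqQ ih =>
    intro hsub
    have hq : q ∈ Q := hsub (Finset.mem_insert_self q Q')
    have hsub' : Q' ⊆ Q := (Finset.subset_insert q Q').trans hsub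
    have ih' := ih hsub'
    have hprod : (∏ x ∈ Q', x) ≠ 0 := Finset.prod_ne_zero_iff.mpr fun x hx => (hQ x (hsub' hx)).ne_zero
    have : NeZero (N₀ * ∏ x ∈ Q', x) := ⟨mul_ne_zero (NeZero.ne N₀) hprod⟩
    have hcop : IsCoprime ((N₀ * ∏ x ∈ Q', x : ℕ) : ℤ) (q : ℤ) := by
      rw [Nat.isCoprime_iff_coprime]
      refine Nat.Coprime.mul_left ?_ ?_
      · exact ((Nat.Prime.coprime_iff_not_dvd (hQ q hq)).mpr (hN₀ q hq)).symm
      · refine Nat.Coprime.prod_left fun x hx => ?_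
        rw [Nat.coprime_primes (hQ x (hsub' hx)) (hQ q hq)]
        rintro rfl
        exact hqQ hx
    have hstep := LevEquiv.step (N' := N₀ * ∏ x ∈ insert q Q', x) (hQ q hq) hcop
      (by rw [Finset.prod_insert hqQ]; ring) (I := I ∪ Q') (a := a) (b := b q)
      (by
        rintro (h | h)
        · exact hI q hq h
        · exact hqQ h)
      (hnew Q' hsub' q hq hqQ (hQ q hq) hcop)
      (ih'.eigAt (E := Q') (by exact_mod_cast hqQ) (hT q hq)) (hab q hq) (hu1 q hq) (hu2 q hq)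
      (hu3 q hq)
    have h2 := ih'.trans hstep
    convert h2 using 1
    · rw [Finset.coe_insert, Set.union_insert]
    · rw [Finset.coe_insert, Set.union_singleton]

end Fermat.Agent.RT.Ihara
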