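import Fermat.Agent.RT.TWGroup

set_option autoImplicit false
set_option maxHeartbeats 400000
set_option linter.style.haveILetI false
set_option linter.unusedSectionVars false
set_option linter.unusedVariables false

/-!
# From eigenvalues to the structure of the Hecke module
-/

open IsLocalRing

namespace Fermat.Agent.RT

section Common

variable {L V : Type*} [Field L] [IsAlgClosed L] [AddCommGroup V] [Module L V]
  [FiniteDimensional L V] {S : Type*} (f : S → Module.End L V)

/-- Common eigenvectors of commuting endomorphisms. -/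
theorem exists_common_eigenvector (hcomm : ∀ s t, Commute (f s) (f t)) :
    ∀ (n : ℕ) (W : Submodule L V), Module.finrank L W = n → W ≠ ⊥ →
      (∀ s, ∀ v ∈ W, f s v ∈ W) → ∃ v ∈ W, v ≠ 0 ∧ ∀ s, ∃ c : L, f s v = c • v := by
  intro n
  induction n using Nat.strong_induction_on with
  | _ n ih =>
    intro W hn hW hst
    by_cases hall : ∀ s, ∃ c : L, ∀ v ∈ W, f s v = c • v
    · obtain ⟨v, hv, hv0⟩ := Submodule.exists_mem_ne_zero_of_ne_bot hW
      exact ⟨v, hv, hv0, fun s => ⟨(hall s).choose, (hall s).choose_spec v hv⟩⟩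
    · push Not at hall
      obtain ⟨s, hs⟩ := hall
      haveI : Nontrivial W := Submodule.nontrivial_iff_ne_bot.mpr hW
      obtain ⟨c, hc⟩ := Module.End.exists_eigenvalue ((f s).restrict (hst s))
      obtain ⟨⟨v, hvW⟩, hv⟩ := hc.exists_hasEigenvector
      have hv1 : f s v = c • v := congrArg Subtype.val hv.apply_eq_smul
      have hv0 : v ≠ 0 := fun h => hv.2 (Subtype.ext h)
      let W' : Submodule L V := W ⊓ LinearMap.ker (f s - algebraMap L (Module.End L V) c)
      have hmem : ∀ u, u ∈ W' ↔ u ∈ W ∧ f s u = c • u := by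
        intro u
        rw [Submodule.mem_inf, LinearMap.mem_ker, LinearMap.sub_apply, Module.algebraMap_end_apply,
          sub_eq_zero]
      have hlt : W' < W := by
        refine lt_of_le_of_ne inf_le_left fun h => ?_
        obtain ⟨u, hu, hu2⟩ := hs c
        rw [← h] at hu
        exact hu2 ((hmem u).mp hu).2
      have hW' : W' ≠ ⊥ := fun h => hv0 (by
        have := (hmem v).mpr ⟨hvW, hv1⟩
        rw [h] at this
        exact (Submodule.mem_bot L).mp this)
      obtain ⟨u, hu, hu0, hu2⟩ := ih (Module.finrank L W') (by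
        rw [← hn]; exact Submodule.finrank_lt_finrank_of_lt hlt) W' rfl hW' (fun t u hu => by
          rw [hmem] at hu ⊢
          refine ⟨hst t u hu.1, ?_⟩
          have h1 := congrArg (fun g : Module.End L V => g u) (hcomm s t).eq
          change f s (f t u) = f t (f s u) at h1
          rw [h1, hu.2, map_smul])
      exact ⟨u, ((hmem u).mp hu).1, hu0, hu2⟩

end Common

section Sep

variable {𝒪 : Type} [CommRing 𝒪] {L : Type} [Field L] [IsAlgClosed L] [CharZero L] [Algebra 𝒪 L]
  (hL : Function.Injective (algebraMap 𝒪 L))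

include hL in
/-- Characters separate the elements of the group algebra. -/
lemma eq_zero_of_forall_char {D : Type} [CommGroup D] [Finite D] (y : MonoidAlgebra 𝒪 D)
    (hy : ∀ ψ : D →* L, MonoidAlgebra.lift 𝒪 L D ψ y = 0) : y = 0 := by
  classical
  haveI : Fintype D := Fintype.ofFinite D
  haveI : HasEnoughRootsOfUnity L (Monoid.exponent D) := inferInstance
  have hcard := CommGroup.card_monoidHom_of_hasEnoughRootsOfUnity D L
  haveI : Finite (D →* Lˣ) := Nat.finite_of_card_ne_zero (by
    rw [hcard]; exact Nat.card_pos.ne')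
  haveI : Fintype (D →* Lˣ) := Fintype.ofFinite _
  let b : (D →* Lˣ) → (D → L) := fun ψ g => (ψ g : L)
  have hb : LinearIndependent L b := by
    have h1 := linearIndependent_monoidHom D L
    refine h1.comp (fun ψ : D →* Lˣ => (Units.coeHom L).comp ψ) ?_
    intro ψ ψ' h
    ext g
    exact DFunLike.congr_fun h g
  have hspan : Submodule.span L (Set.range b) = ⊤ := by
    refine hb.span_eq_top_of_card_eq_finrank' ?_
    rw [Module.finrank_fintype_fun_eq_card, ← Nat.card_eq_fintype_card, hcard,
      Nat.card_eq_fintype_card]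
  let Λy : (D → L) →ₗ[L] L :=
    { toFun := fun F => ∑ g, algebraMap 𝒪 L (y.coeff g) * F g
      map_add' := fun F F' => by
        rw [← Finset.sum_add_distrib]
        exact Finset.sum_congr rfl fun g _ => by rw [Pi.add_apply, mul_add]
      map_smul' := fun c F => by
        rw [RingHom.id_apply, smul_eq_mul, Finset.mul_sum]
        exact Finset.sum_congr rfl fun g _ => by rw [Pi.smul_apply, smul_eq_mul]; ring }
  have hzero : Λy = 0 := by
    apply LinearMap.ext_on_range hspan
    intro ψ
    have h1 := hy ((Units.coeHom L).comp ψ)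
    rw [MonoidAlgebra.lift_apply] at h1
    rw [LinearMap.zero_apply]
    change ∑ g, algebraMap 𝒪 L (y.coeff g) * (ψ g : L) = 0
    rw [← h1, Finsupp.sum_fintype _ _ (fun g => by rw [zero_smul])]
    exact Finset.sum_congr rfl fun g _ => by rw [Algebra.smul_def]; rfl
  ext g
  apply hL
  have h2 := LinearMap.congr_fun hzero (Pi.single g 1)
  change ∑ g', algebraMap 𝒪 L (y.coeff g') * (Pi.single g 1 : D → L) g' = 0 at h2
  rw [Finset.sum_eq_single g (fun g' _ hg' => by rw [Pi.single_eq_of_ne hg', mul_zero])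
    (fun h => absurd (Finset.mem_univ g) h), Pi.single_eq_same, mul_one] at h2
  rw [h2]
  exact (map_zero _).symm

end Sep

section Quot

variable {𝒪 : Type} [CommRing 𝒪] {L : Type} [Field L] [IsAlgClosed L] [CharZero L] [Algebra 𝒪 L]
  (hL : Function.Injective (algebraMap 𝒪 L)) {D : Type} [CommGroup D] [Finite D]

include hL in
/-- Elements killed by all the characters trivial on `δ`. -/
lemma mem_span_of_forall_char (δ : D) (x : MonoidAlgebra 𝒪 D)
    (hx : ∀ ψ : MonoidAlgebra 𝒪 D →ₐ[𝒪] L, ψ (MonoidAlgebra.of 𝒪 D δ) = 1 → ψ x = 0) :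
    x ∈ Ideal.span {MonoidAlgebra.of 𝒪 D δ - 1} := by
  set I : Ideal (MonoidAlgebra 𝒪 D) := Ideal.span {MonoidAlgebra.of 𝒪 D δ - 1} with hI
  let D' := D ⧸ Subgroup.zpowers δ
  let q : MonoidAlgebra 𝒪 D →ₐ[𝒪] MonoidAlgebra 𝒪 D' :=
    MonoidAlgebra.lift 𝒪 _ D ((MonoidAlgebra.of 𝒪 D').comp (QuotientGroup.mk' (Subgroup.zpowers δ)))
  have hq : q x = 0 := by
    apply eq_zero_of_forall_char hL
    intro ψ
    have h1 := hx ((MonoidAlgebra.lift 𝒪 L D' ψ).comp q) (by
      rw [AlgHom.comp_apply, MonoidAlgebra.lift_of, MonoidHom.comp_apply, MonoidAlgebra.lift_of]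
      have : QuotientGroup.mk' (Subgroup.zpowers δ) δ = 1 :=
        (QuotientGroup.eq_one_iff δ).mpr (Subgroup.mem_zpowers δ)
      rw [this, map_one])
    exact h1
  -- the section
  have hof : ∀ g ∈ Subgroup.zpowers δ, MonoidAlgebra.of 𝒪 D g - 1 ∈ I := by
    intro g hg
    let H : Subgroup D :=
      { carrier := {g | MonoidAlgebra.of 𝒪 D g - 1 ∈ I}
        one_mem' := by
          change MonoidAlgebra.of 𝒪 D 1 - 1 ∈ I
          rw [map_one, sub_self]; exact I.zero_mem
        mul_mem' := fun {a b} ha hb => by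
          change MonoidAlgebra.of 𝒪 D (a * b) - 1 ∈ I
          have : MonoidAlgebra.of 𝒪 D (a * b) - 1 =
              MonoidAlgebra.of 𝒪 D a * (MonoidAlgebra.of 𝒪 D b - 1) +
                (MonoidAlgebra.of 𝒪 D a - 1) := by rw [map_mul]; ring
          rw [this]
          exact I.add_mem (I.mul_mem_left _ hb) ha
        inv_mem' := fun {a} ha => by
          change MonoidAlgebra.of 𝒪 D a⁻¹ - 1 ∈ I
          have : MonoidAlgebra.of 𝒪 D a⁻¹ - 1 = -(MonoidAlgebra.of 𝒪 D a⁻¹ *
              (MonoidAlgebra.of 𝒪 D a - 1)) := by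
            rw [mul_sub, ← map_mul, inv_mul_cancel, map_one]; ring
          rw [this]
          exact (I.neg_mem_iff).mpr (I.mul_mem_left _ ha) }
    have h1 : Subgroup.zpowers δ ≤ H := by
      rw [Subgroup.zpowers_le]
      exact Ideal.subset_span rfl
    exact h1 hg
  let s : MonoidAlgebra 𝒪 D' →ₗ[𝒪] MonoidAlgebra 𝒪 D ⧸ I :=
    (Finsupp.linearCombination 𝒪 (fun g' : D' =>
      Ideal.Quotient.mk I (MonoidAlgebra.of 𝒪 D (Quotient.out g')))) ∘ₗ
      (MonoidAlgebra.coeffLinearEquiv 𝒪 : MonoidAlgebra 𝒪 D' ≃ₗ[𝒪] (D' →₀ 𝒪)).toLinearMap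
  have hs : ∀ z, s (q z) = Ideal.Quotient.mk I z := by
    intro z
    induction z using MonoidAlgebra.induction_on with
    | of g =>
      rw [MonoidAlgebra.lift_of, MonoidHom.comp_apply]
      have h2 : s (MonoidAlgebra.of 𝒪 D' (QuotientGroup.mk' (Subgroup.zpowers δ) g)) =
          Ideal.Quotient.mk I (MonoidAlgebra.of 𝒪 D
            (Quotient.out (QuotientGroup.mk' (Subgroup.zpowers δ) g))) := by
        change Finsupp.linearCombination 𝒪 _ (MonoidAlgebra.of 𝒪 D'
          (QuotientGroup.mk' (Subgroup.zpowers δ) g)).coeff = _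
        rw [MonoidAlgebra.of_apply, MonoidAlgebra.coeff_single, Finsupp.linearCombination_single,
          one_smul]
      rw [h2, Ideal.Quotient.eq]
      set g₀ := Quotient.out (QuotientGroup.mk' (Subgroup.zpowers δ) g)
      have h3 : g⁻¹ * g₀ ∈ Subgroup.zpowers δ := by
        rw [← QuotientGroup.eq]
        exact (QuotientGroup.out_eq' _).symm
      have h4 : MonoidAlgebra.of 𝒪 D g₀ - MonoidAlgebra.of 𝒪 D g =
          MonoidAlgebra.of 𝒪 D g * (MonoidAlgebra.of 𝒪 D (g⁻¹ * g₀) - 1) := by
        rw [mul_sub, ← map_mul, mul_inv_cancel_left, mul_one]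
      rw [h4]
      exact I.mul_mem_left _ (hof _ h3)
    | add z z' hz hz' => rw [map_add, map_add, hz, hz', map_add]
    | smul c z hz =>
      rw [map_smul, map_smul, hz]
      rfl
  have h5 := hs x
  rw [hq, map_zero] at h5
  exact Ideal.Quotient.eq_zero_iff_mem.mp h5.symm

end Quot

end Fermat.Agent.RT
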