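import Fermat.Agent.RT.EigU
import Fermat.Agent.RT.TWEigen
import Fermat.Agent.RT.TWAll

set_option autoImplicit false

/-!
# Lifting to characteristic zero
-/

open Matrix CongruenceSubgroup IsLocalRing
open scoped MatrixGroups

namespace Fermat.Agent.RT.Ihara

open Fermat.Agent.RT

variable {N n : ℕ} {G : Subgroup SL(2, ℤ)}

section Ext

variable {O A O' A' : Type*} [CommRing O] [AddCommGroup A] [Module O A] [CommRing O']
  [AddCommGroup A'] [Module O' A']

/-- Change of coefficients -/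
def extH (φ : A →+ A') : H1 O A G →+ H1 O' A' G where
  toFun c := ⟨fun g => φ (c.1 g), fun g h => by
    change φ (c.1 (g * h)) = _
    rw [c.2, map_add]⟩
  map_zero' := Subtype.ext (funext fun g => map_zero φ)
  map_add' c c' := Subtype.ext (funext fun g => map_add φ _ _)

@[simp] theorem extH_apply (φ : A →+ A') (c : H1 O A G) (g : G) :
    (extH φ c : H1 O' A' G).1 g = φ (c.1 g) := rfl

variable (h1 : Gamma1 N ≤ G) (h0 : G ≤ Gamma0 N)

/-- formula for the Hecke operators -/
theorem exists_hec_sum (hn : n.Prime) (g : G) : ∃ (κ : Type) (_ : Fintype κ) (γ : κ → G),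
    (∀ c : H1 O A G, (hec h1 h0 n c).1 g = ∑ x, c.1 (γ x)) ∧
    (∀ c : H1 O' A' G, (hec h1 h0 n c).1 g = ∑ x, c.1 (γ x)) := by
  obtain ⟨κ, _, Q, F⟩ : ∃ (κ : Type) (_ : Fintype κ) (Q : κ → Mat), CFam N n Q := by
    by_cases hN : n ∣ N
    · exact ⟨Fin n, inferInstance, _, cfam_U hn hN⟩
    · exact ⟨Option (Fin n), inferInstance, _, cfam_TD hn (isCoprime_N hn hN) dvd_rfl⟩
  have H := F.corr hn.ne_zero h1 h0
  obtain ⟨σ, γ, hγ, e⟩ := H.exists_perm g.2
  refine ⟨κ, inferInstance, fun x => ⟨γ x, hγ x⟩, fun c => ?_, fun c => ?_⟩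
  · rw [hec_eq hn F h1 h0, opH_apply, H.opc_eq (addOn_ex _) g.2 hγ e]
    exact Finset.sum_congr rfl fun x _ => ex_apply _ (hγ x)
  · rw [hec_eq hn F h1 h0, opH_apply, H.opc_eq (addOn_ex _) g.2 hγ e]
    exact Finset.sum_congr rfl fun x _ => ex_apply _ (hγ x)

theorem hec_extH (φ : A →+ A') (n : ℕ) (c : H1 O A G) :
    hec h1 h0 n (extH φ c : H1 O' A' G) = extH φ (hec h1 h0 n c) := by
  by_cases hn : n.Prime
  swap
  · rw [hec_zero _ _ hn, hec_zero _ _ hn, LinearMap.zero_apply, LinearMap.zero_apply, map_zero]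
  apply Subtype.ext
  funext g
  obtain ⟨κ, _, γ, e1, e2⟩ := exists_hec_sum (O := O) (A := A) (O' := O') (A' := A') h1 h0 hn g
  rw [e2, extH_apply, e1, map_sum]
  rfl

end Ext

section Integral

variable {O E : Type*} [CommRing O] [Field E] [CharZero E] [Module O E]
  (h1 : Gamma1 N ≤ G) (h0 : G ≤ Gamma0 N)

/-- **Eigenvalues are integral.** -/
theorem isIntegral_eigenvalue [G.FiniteIndex] {c : H1 E E G} (hc : c ≠ 0) {lam : E}
    (h : hec h1 h0 n c = lam • c) : IsIntegral ℤ lam := by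
  have hG : Group.FG SL(2, ℤ) := by
    rw [Group.fg_iff]
    exact ⟨{ModularGroup.S, ModularGroup.T}, SpecialLinearGroup.SL2Z_generators, by simp⟩
  have hfg : Group.FG G := inferInstance
  obtain ⟨S, hS, hfin⟩ := Group.fg_iff.mp hfg
  set Λ : Submodule ℤ E := Submodule.span ℤ (c.1 '' S) with hΛ
  have hmem : ∀ g : G, c.1 g ∈ Λ := by
    intro g
    have hg : g ∈ Subgroup.closure S := by rw [hS]; exact Subgroup.mem_top g
    induction hg using Subgroup.closure_induction with
    | mem x hx => exact Submodule.subset_span ⟨x, hx, rfl⟩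
    | one => rw [H1_one]; exact Λ.zero_mem
    | mul x y _ _ hx hy => rw [c.2]; exact Λ.add_mem hx hy
    | inv x _ hx => rw [H1_inv]; exact Λ.neg_mem hx
  have hstab : ∀ g : G, lam • c.1 g ∈ Λ := by
    intro g
    have h2 : lam • c.1 g = (hec h1 h0 n c).1 g := by rw [h]; rfl
    rw [h2]
    by_cases hn : n.Prime
    · obtain ⟨κ, _, γ, e1, -⟩ := exists_hec_sum (O := E) (A := E) (O' := E) (A' := E) h1 h0 hn g
      rw [e1]
      exact Λ.sum_mem fun x _ => hmem (γ x)
    · rw [hec_zero _ _ hn]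
      exact Λ.zero_mem
  refine isIntegral_of_smul_mem_submodule Λ ?_ (Submodule.fg_span (hfin.image _)) lam ?_
  · intro h0'
    apply hc
    apply Subtype.ext
    funext g
    have := hmem g
    rw [h0', Submodule.mem_bot] at this
    exact this
  · intro x hx
    induction hx using Submodule.span_induction with
    | mem x hx => obtain ⟨g, -, rfl⟩ := hx; exact hstab g
    | zero => rw [smul_zero]; exact Λ.zero_mem
    | add x y _ _ hx hy => rw [smul_add]; exact Λ.add_mem hx hy
    | smul a x _ hx => rw [smul_comm]; exact Λ.smul_mem a hx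

end Integral

section Poly

variable {𝒪 : Type*} [CommRing 𝒪] [IsLocalRing 𝒪] {M : Type*} [AddCommGroup M] [Module 𝒪 M]

/-- polynomial relation for topologically nilpotent operators -/
theorem TopNil.exists_poly [Module.Finite 𝒪 M] {T : Module.End 𝒪 M} {a : 𝒪}
    (h : TopNil (T - a • 1)) : ∃ P : Polynomial 𝒪, Polynomial.aeval T P = 0 ∧
      ∃ m, P.map (residue 𝒪) = (Polynomial.X - Polynomial.C (residue 𝒪 a)) ^ m := by
  obtain ⟨k, hk⟩ := h
  obtain ⟨P, hP, -, hc, hP0⟩ :=
    LinearMap.exists_monic_and_natDegree_eq_and_coeff_mem_pow_and_aeval_eq_zero 𝒪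
      ((T - a • 1) ^ k) (maximalIdeal 𝒪) (by rintro _ ⟨x, rfl⟩; exact hk x)
  refine ⟨P.comp ((Polynomial.X - Polynomial.C a) ^ k), ?_, k * P.natDegree, ?_⟩
  · rw [Polynomial.aeval_comp, map_pow, map_sub, Polynomial.aeval_X, Polynomial.aeval_C,
      Algebra.algebraMap_eq_smul_one, hP0]
  · have h1 : P.map (residue 𝒪) = Polynomial.X ^ P.natDegree := by
      ext j
      rw [Polynomial.coeff_map, Polynomial.coeff_X_pow]
      split_ifs with hj
      · rw [hj, hP.coeff_natDegree, map_one]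
      · rcases lt_or_gt_of_ne hj with h | h
        · rw [residue_eq_zero_iff]
          exact Ideal.pow_le_self (by omega) (hc j)
        · rw [Polynomial.coeff_eq_zero_of_natDegree_lt h, map_zero]
    rw [Polynomial.map_comp, h1, Polynomial.pow_comp, Polynomial.X_comp, Polynomial.map_pow,
      Polynomial.map_sub, Polynomial.map_X, Polynomial.map_C, ← pow_mul]

theorem aeval_resI {H : ℕ → Module.End 𝒪 M} (hH : ∀ i j, H i * H j = H j * H i) (I : Set ℕ)
    (a : ℕ → 𝒪) (n : ℕ) (P : Polynomial 𝒪) (v : LocI H I a) :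
    ((Polynomial.aeval (resI hH I a n) P v : LocI H I a) : M) = Polynomial.aeval (H n) P v.1 := by
  induction P using Polynomial.induction_on' with
  | add p q hp hq =>
    rw [map_add, map_add, LinearMap.add_apply, LinearMap.add_apply, Submodule.coe_add, hp, hq]
  | monomial k a =>
    rw [Polynomial.aeval_monomial, Polynomial.aeval_monomial,
      Module.End.mul_apply, Module.End.mul_apply, Module.algebraMap_end_apply,
      Module.algebraMap_end_apply, Submodule.coe_smul]
    congr 1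
    induction k with
    | zero => rfl
    | succ k ih =>
      rw [pow_succ', pow_succ', Module.End.mul_apply, Module.End.mul_apply, ← ih, resI_coe]

variable [IsNoetherianRing 𝒪] [IsAdicComplete (maximalIdeal 𝒪) 𝒪]

theorem LocI_exists_poly [Module.Finite 𝒪 M] {H : ℕ → Module.End 𝒪 M}
    (hH : ∀ i j, H i * H j = H j * H i) (I : Set ℕ)
    (a : ℕ → 𝒪) {i : ℕ} (hi : i ∈ I) : ∃ P : Polynomial 𝒪,
      (∀ v ∈ LocI H I a, Polynomial.aeval (H i) P v = 0) ∧
      ∃ m, P.map (residue 𝒪) = (Polynomial.X - Polynomial.C (residue 𝒪 (a i))) ^ m := by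
  have h1 : TopNil (resI hH I a i - a i • 1) :=
      NilAt.topNil fun v => (nilAt_resI hH I a i _ v).mpr (v.2 ⟨i, hi⟩)
  obtain ⟨P, hP, hm⟩ := TopNil.exists_poly h1
  refine ⟨P, fun v hv => ?_, hm⟩
  rw [← aeval_resI hH I a i P ⟨v, hv⟩, hP]
  rfl

end Poly

section Span

variable {O E : Type*} [CommRing O] [Field E] [Algebra O E]
  (h1 : Gamma1 N ≤ G) (h0 : G ≤ Gamma0 N)

/-- extension of scalars -/
def toE (c : H1 O O G) : H1 E E G := extH (algebraMap O E).toAddMonoidHom c

theorem toE_smul (a : O) (c : H1 O O G) :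
    (toE (a • c) : H1 E E G) = algebraMap O E a • (toE c : H1 E E G) := by
  apply Subtype.ext
  funext g
  exact map_mul (algebraMap O E) _ _

theorem toE_add (c c' : H1 O O G) :
    (toE (c + c') : H1 E E G) = toE c + toE c' := map_add _ _ _

theorem toE_sub (c c' : H1 O O G) :
    (toE (c - c') : H1 E E G) = toE c - toE c' := map_sub _ _ _

theorem toE_injective (hinj : Function.Injective (algebraMap O E)) :
    Function.Injective (toE : H1 O O G → H1 E E G) := by
  intro c c' h
  apply Subtype.ext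
  funext g
  exact hinj (congrFun (congrArg Subtype.val h) g)

theorem hec_toE (n : ℕ) (c : H1 O O G) :
    hec h1 h0 n (toE c : H1 E E G) = toE (hec h1 h0 n c) := hec_extH h1 h0 _ n c

theorem aeval_toE (n : ℕ) (P : Polynomial O) (c : H1 O O G) :
    Polynomial.aeval (hec h1 h0 n : Module.End E (H1 E E G)) (P.map (algebraMap O E)) (toE c) =
      toE (Polynomial.aeval (hec h1 h0 n : Module.End O (H1 O O G)) P c) := by
  induction P using Polynomial.induction_on' with
  | add p q hp hq =>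
    rw [Polynomial.map_add, map_add, map_add, LinearMap.add_apply, LinearMap.add_apply, hp, hq,
      toE_add]
  | monomial k a =>
    rw [Polynomial.map_monomial, Polynomial.aeval_monomial, Polynomial.aeval_monomial,
      Module.End.mul_apply, Module.End.mul_apply, Module.algebraMap_end_apply,
      Module.algebraMap_end_apply, toE_smul]
    congr 1
    induction k with
    | zero => rfl
    | succ k ih => rw [pow_succ', pow_succ', Module.End.mul_apply, Module.End.mul_apply, ih, hec_toE]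

theorem aeval_eigen {n : ℕ} {c : H1 E E G} {lam : E} (h : hec h1 h0 n c = lam • c)
    (Q : Polynomial E) :
    Polynomial.aeval (hec h1 h0 n : Module.End E (H1 E E G)) Q c = Q.eval lam • c := by
  induction Q using Polynomial.induction_on' with
  | add p q hp hq =>
    rw [map_add, LinearMap.add_apply, hp, hq, Polynomial.eval_add, add_smul]
  | monomial k a =>
    rw [Polynomial.aeval_monomial, Polynomial.eval_monomial,
      Module.End.mul_apply, Module.algebraMap_end_apply, mul_smul]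
    congr 1
    induction k with
    | zero => rw [pow_zero, pow_zero, one_smul]; rfl
    | succ k ih =>
      rw [pow_succ', Module.End.mul_apply, ih, map_smul, h, smul_smul, pow_succ, mul_comm]

variable [IsAlgClosed E]

/-- **Existence of simultaneous eigenclasses.** -/
theorem exists_eigenclass [G.FiniteIndex] (hinj : Function.Injective (algebraMap O E))
    (V : Submodule O (H1 O O G)) (hV : V ≠ ⊥) (hst : ∀ n, ∀ v ∈ V, hec h1 h0 n v ∈ V) :
    ∃ (c : H1 E E G) (lam : ℕ → E), c ≠ 0 ∧ (∀ n, hec h1 h0 n c = lam n • c) ∧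
      ∀ n, ∀ P : Polynomial O, (∀ v ∈ V, Polynomial.aeval (hec h1 h0 n : Module.End O (H1 O O G)) P v = 0) →
        Polynomial.aeval (lam n) P = 0 := by
  have := finite_H1 (O := E) (A := E) (G := G)
  set W : Submodule E (H1 E E G) := Submodule.span E (toE '' (V : Set (H1 O O G))) with hW
  have hW0 : W ≠ ⊥ := by
    obtain ⟨v, hv, hv0⟩ := Submodule.exists_mem_ne_zero_of_ne_bot hV
    intro h
    have h2 : (toE v : H1 E E G) ∈ W := Submodule.subset_span ⟨v, hv, rfl⟩
    rw [h, Submodule.mem_bot] at h2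
    exact hv0 (toE_injective hinj (h2.trans (map_zero (extH (algebraMap O E).toAddMonoidHom)).symm))
  have hWst : ∀ n, ∀ w ∈ W, hec h1 h0 n w ∈ W := by
    intro n w hw
    induction hw using Submodule.span_induction with
    | mem x hx =>
      obtain ⟨v, hv, rfl⟩ := hx
      rw [hec_toE]
      exact Submodule.subset_span ⟨_, hst n v hv, rfl⟩
    | zero => rw [map_zero]; exact W.zero_mem
    | add x y _ _ hx hy => rw [map_add]; exact W.add_mem hx hy
    | smul a x _ hx => rw [map_smul]; exact W.smul_mem a hx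
  obtain ⟨c, hcW, hc0, hc⟩ := exists_common_eigenvector (L := E) (V := H1 E E G)
    (fun n : ℕ => (hec h1 h0 n : Module.End E (H1 E E G)))
    (fun n m => hec_comm h1 h0 n m) _ W rfl hW0 hWst
  choose lam hlam using hc
  refine ⟨c, lam, hc0, hlam, fun n P hP => ?_⟩
  have h2 : ∀ w ∈ W, Polynomial.aeval (hec h1 h0 n : Module.End E (H1 E E G))
      (P.map (algebraMap O E)) w = 0 := by
    intro w hw
    induction hw using Submodule.span_induction with
    | mem x hx =>
      obtain ⟨v, hv, rfl⟩ := hx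
      rw [aeval_toE, hP v hv]
      exact map_zero (extH (algebraMap O E).toAddMonoidHom)
    | zero => rw [map_zero]
    | add x y _ _ hx hy => rw [map_add, hx, hy, add_zero]
    | smul a x _ hx => rw [map_smul, hx, smul_zero]
  have h3 := h2 c hcW
  rw [aeval_eigen h1 h0 (hlam n), smul_eq_zero, or_iff_left hc0, Polynomial.eval_map] at h3
  exact h3

end Span

section Transfer

theorem exists_transfer (E : Type*) [Field E] [CharZero E] [IsAlgClosed E] :
    ∃ ε : integralClosure ℤ ℂ →+* E, (∀ x : E, IsIntegral ℤ x → ∃ b, ε b = x) ∧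
      ∀ y : E, y ≠ 0 → ∃ ψ : E →+ ℂ, ψ y ≠ 0 ∧ ∀ b x, ψ (ε b * x) = (b : ℂ) * ψ x := by
  set K := algebraicClosure ℚ ℂ with hK
  haveI : IsAlgClosed K := (algebraicClosure.isAlgClosure ℚ ℂ).isAlgClosed
  haveI : Algebra.IsAlgebraic ℚ K := algebraicClosure.isAlgebraic ℚ ℂ
  set f : K →ₐ[ℚ] E := IsAlgClosed.lift with hf
  have hmem : ∀ b : integralClosure ℤ ℂ, (b : ℂ) ∈ K := fun b => by
    rw [hK, mem_algebraicClosure_iff]
    have h1 : IsIntegral ℤ (b : ℂ) := b.2
    exact (h1.tower_top (A := ℚ)).isAlgebraic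
  set incl : integralClosure ℤ ℂ →+* K :=
    { toFun := fun b => ⟨b, hmem b⟩
      map_one' := rfl
      map_mul' := fun _ _ => rfl
      map_zero' := rfl
      map_add' := fun _ _ => rfl } with hincl
  refine ⟨f.toRingHom.comp incl, fun x hx => ?_, fun y hy => ?_⟩
  · letI : Algebra K E := f.toRingHom.toAlgebra
    haveI : IsScalarTower ℚ K E := IsScalarTower.of_algebraMap_eq fun q => (f.commutes q).symm
    have hxK : IsAlgebraic K x := ((hx.tower_top (A := ℚ)).tower_top (A := K)).isAlgebraic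
    have hx2 : ∃ k : K, f k = x := by
      haveI : Algebra.IsAlgebraic K (IntermediateField.adjoin K {x}) :=
        IntermediateField.isAlgebraic_adjoin_simple hxK.isIntegral
      have h2 := IntermediateField.eq_bot_of_isAlgClosed_of_isAlgebraic
        (IntermediateField.adjoin K {x})
      have h3 : x ∈ IntermediateField.adjoin K {x} := IntermediateField.mem_adjoin_simple_self K x
      rw [h2, IntermediateField.mem_bot] at h3
      exact h3
    obtain ⟨k, rfl⟩ := hx2
    have hk : IsIntegral ℤ (k : ℂ) := by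
      have h3 : IsIntegral ℤ k := by
        have h4 : IsIntegral ℤ ((f.restrictScalars ℤ) k) := hx
        rwa [isIntegral_algHom_iff (f.restrictScalars ℤ) f.toRingHom.injective] at h4
      exact h3.map (K.val.restrictScalars ℤ)
    exact ⟨⟨k, hk⟩, rfl⟩
  · letI : Algebra K E := f.toRingHom.toAlgebra
    have h2 : ∃ φ : Module.Dual K E, φ y ≠ 0 := by
      by_contra h
      push Not at h
      exact hy ((Module.forall_dual_apply_eq_zero_iff K y).mp h)
    obtain ⟨φ, hφ⟩ := h2
    refine ⟨(algebraMap K ℂ).toAddMonoidHom.comp φ.toAddMonoidHom, fun h => hφ ?_, fun b x => ?_⟩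
    · exact (algebraMap K ℂ).injective (h.trans (map_zero (algebraMap K ℂ)).symm)
    · change algebraMap K ℂ (φ (f (incl b) * x)) = _
      have h3 : f (incl b) * x = (incl b) • x := rfl
      rw [h3, map_smul, smul_eq_mul, map_mul]
      rfl

variable {𝒪 : Type*} [CommRing 𝒪] [IsLocalRing 𝒪] {E : Type*} [Field E] [Algebra 𝒪 E]

/-- the residual homomorphism -/
theorem exists_resHom (hinj : Function.Injective (algebraMap 𝒪 E)) :
    ∃ φ : integralClosure 𝒪 E →+* AlgebraicClosure (ResidueField 𝒪), ∀ a : 𝒪,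
      φ (algebraMap 𝒪 (integralClosure 𝒪 E) a) =
        algebraMap (ResidueField 𝒪) (AlgebraicClosure (ResidueField 𝒪)) (residue 𝒪 a) := by
  have hker : RingHom.ker (algebraMap 𝒪 (integralClosure 𝒪 E)) ≤ maximalIdeal 𝒪 := by
    intro x hx
    have h2 : algebraMap 𝒪 E x = 0 := congrArg Subtype.val (RingHom.mem_ker.mp hx)
    have h3 : x = 0 := hinj (h2.trans (map_zero _).symm)
    rw [h3]
    exact Ideal.zero_mem _
  obtain ⟨Q, hQ, hQc⟩ := Ideal.exists_ideal_over_maximal_of_isIntegral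
    (S := integralClosure 𝒪 E) (maximalIdeal 𝒪) hker
  letI : Field (integralClosure 𝒪 E ⧸ Q) := Ideal.Quotient.field Q
  set g : ResidueField 𝒪 →+* integralClosure 𝒪 E ⧸ Q :=
    Ideal.quotientMap Q (algebraMap 𝒪 (integralClosure 𝒪 E)) (by rw [hQc]) with hg
  letI : Algebra (ResidueField 𝒪) (integralClosure 𝒪 E ⧸ Q) := g.toAlgebra
  have halg : Algebra.IsAlgebraic (ResidueField 𝒪) (integralClosure 𝒪 E ⧸ Q) := by
    refine ⟨fun x => ?_⟩
    obtain ⟨x, rfl⟩ := Ideal.Quotient.mk_surjective x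
    have hx : IsIntegral 𝒪 x := Algebra.IsIntegral.isIntegral x
    obtain ⟨P, hP, hPx⟩ := hx
    refine ⟨P.map (residue 𝒪), (hP.map _).ne_zero, ?_⟩
    rw [Polynomial.aeval_def, Polynomial.eval₂_map]
    have h2 : (algebraMap (ResidueField 𝒪) (integralClosure 𝒪 E ⧸ Q)).comp (residue 𝒪) =
        (Ideal.Quotient.mk Q).comp (algebraMap 𝒪 (integralClosure 𝒪 E)) := by
      ext y
      rfl
    rw [h2, ← Polynomial.hom_eval₂, hPx, map_zero]
  set ι : integralClosure 𝒪 E ⧸ Q →ₐ[ResidueField 𝒪] AlgebraicClosure (ResidueField 𝒪) :=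
    IsAlgClosed.lift with hι
  refine ⟨ι.toRingHom.comp (Ideal.Quotient.mk Q), fun a => ?_⟩
  have h2 : Ideal.Quotient.mk Q (algebraMap 𝒪 (integralClosure 𝒪 E) a) =
      algebraMap (ResidueField 𝒪) (integralClosure 𝒪 E ⧸ Q) (residue 𝒪 a) := rfl
  rw [RingHom.comp_apply, h2]
  exact ι.commutes _

omit [IsLocalRing 𝒪] in
theorem phi_eq [IsLocalRing 𝒪] {B L : Type*} [CommRing B] [Algebra 𝒪 B] [Field L]
    [Algebra (ResidueField 𝒪) L]
    {φ : B →+* L} (hφ : ∀ a : 𝒪, φ (algebraMap 𝒪 B a) = algebraMap (ResidueField 𝒪) L (residue 𝒪 a))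
    {P : Polynomial 𝒪} {a : 𝒪} {m : ℕ}
    (hP : P.map (residue 𝒪) = (Polynomial.X - Polynomial.C (residue 𝒪 a)) ^ m) {x : B}
    (hx : Polynomial.aeval x P = 0) : φ x = algebraMap (ResidueField 𝒪) L (residue 𝒪 a) := by
  have h1 := congrArg φ hx
  rw [map_zero, Polynomial.aeval_def, Polynomial.hom_eval₂] at h1
  have h2 : φ.comp (algebraMap 𝒪 B) = (algebraMap (ResidueField 𝒪) L).comp (residue 𝒪) :=
    RingHom.ext hφ
  rw [h2, ← Polynomial.eval₂_map, hP, Polynomial.eval₂_pow, Polynomial.eval₂_sub,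
    Polynomial.eval₂_X, Polynomial.eval₂_C] at h1
  have hm : m ≠ 0 := by
    rintro rfl
    rw [pow_zero] at h1
    exact one_ne_zero h1
  exact sub_eq_zero.mp ((pow_eq_zero_iff hm).mp h1)

end Transfer

section Final

open ModularFormClass

variable {𝒪 : Type*} [CommRing 𝒪] [IsDomain 𝒪] [IsDiscreteValuationRing 𝒪]
variable [IsAdicComplete (maximalIdeal 𝒪) 𝒪] [CharZero 𝒪] [NeZero N]

/-- **Eigenforms from the localised cohomology**: a nonzero stable submodule of the localised
cohomology of `Γ₀(N)` (at a non-Eisenstein system) contributes a normalised eigenform. -/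
theorem exists_eigenform_aux {E : Type*} [Field E] [CharZero E] [IsAlgClosed E] [Algebra 𝒪 E]
    (hinj : Function.Injective (algebraMap 𝒪 E)) {I : Set ℕ} {a : ℕ → 𝒪}
    (hNE : ∃ l ∈ I, l.Prime ∧ (N : ℤ) ∣ (l : ℤ) - 1 ∧ IsUnit (a l - (l + 1)))
    (V : Submodule 𝒪 (H1 𝒪 𝒪 (Gamma0 N))) (hV : V ≠ ⊥) (hVM : V ≤ HM0 N I a)
    (hst : ∀ n, ∀ v ∈ V, hec (Gamma1_le N) le_rfl n v ∈ V) :
    ∃ (F : CuspForm (Gamma0 N) 2)
      (φ : integralClosure ℤ ℂ →+* AlgebraicClosure (ResidueField 𝒪)),
      F.IsNormalizedEigenform ∧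
      (∀ i ∈ I, i.Prime → ∃ b : integralClosure ℤ ℂ, (b : ℂ) = qCoeff F i ∧
        φ b = algebraMap (ResidueField 𝒪) (AlgebraicClosure (ResidueField 𝒪)) (residue 𝒪 (a i))) ∧
      (∀ n : ℕ, n.Prime → ∀ P : Polynomial ℤ, (∀ v ∈ V, Polynomial.aeval
        (hec (Gamma1_le N) le_rfl n : Module.End 𝒪 (H1 𝒪 𝒪 (Gamma0 N)))
        (P.map (algebraMap ℤ 𝒪)) v = 0) → Polynomial.aeval (qCoeff F n) P = 0) := by
  obtain ⟨c, lam, hc, hlam, hrel⟩ := exists_eigenclass (Gamma1_le N) le_rfl hinj V hV hst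
  obtain ⟨ε, hε, hψ⟩ := exists_transfer E
  have hb : ∀ n, ∃ b, ε b = lam n := fun n =>
    hε _ (isIntegral_eigenvalue (Gamma1_le N) le_rfl hc (hlam n))
  choose b hb using hb
  obtain ⟨φB, hφB⟩ := exists_resHom (𝒪 := 𝒪) (E := E) hinj
  -- the residual homomorphism
  have hint : ∀ x : integralClosure ℤ ℂ, ε x ∈ integralClosure 𝒪 E := by
    intro x
    have h1 : IsIntegral ℤ x := by
      have h2 : IsIntegral ℤ (x : ℂ) := x.2
      exact (isIntegral_algHom_iff (integralClosure ℤ ℂ).val Subtype.val_injective).mp h2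
    have h3 : IsIntegral ℤ (ε x) := h1.map ε.toIntAlgHom
    exact h3.tower_top
  set φ : integralClosure ℤ ℂ →+* AlgebraicClosure (ResidueField 𝒪) :=
    φB.comp (ε.codRestrict (integralClosure 𝒪 E) hint) with hφ
  have hφi : ∀ i ∈ I, φ (b i) =
      algebraMap (ResidueField 𝒪) (AlgebraicClosure (ResidueField 𝒪)) (residue 𝒪 (a i)) := by
    intro i hi
    have := finite_H1 (O := 𝒪) (A := 𝒪) (G := Gamma0 N)
    obtain ⟨P, hP, m, hm⟩ := LocI_exists_poly (M := H1 𝒪 𝒪 (Gamma0 N))
      (H := hec (Gamma1_le N) le_rfl) (hec_comm (Gamma1_le N) le_rfl) I a hi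
    have h1 : Polynomial.aeval (lam i) P = 0 := hrel i P fun v hv => hP v (hVM hv)
    refine phi_eq hφB hm (x := ε.codRestrict (integralClosure 𝒪 E) hint (b i)) ?_
    apply Subtype.ext
    have h2 : ((Polynomial.aeval (ε.codRestrict (integralClosure 𝒪 E) hint (b i)) P :
        integralClosure 𝒪 E) : E) = Polynomial.aeval (ε (b i)) P := by
      rw [Polynomial.aeval_subalgebra_coe]
      rfl
    rw [h2, hb, h1]
    rfl
  -- the complex eigenclass
  have hcγ : ∃ γ, c.1 γ ≠ 0 := by
    by_contra h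
    push Not at h
    exact hc (Subtype.ext (funext h))
  obtain ⟨γ₀, hγ₀⟩ := hcγ
  obtain ⟨ψ, hψ0, hψb⟩ := hψ _ hγ₀
  have hc0 : (extH ψ c : H1 ℂ ℂ (Gamma0 N)) ≠ 0 := fun h =>
    hψ0 (congrFun (congrArg Subtype.val h) γ₀)
  have hc1 : ∀ n : ℕ, n.Prime → hec (Gamma1_le N) le_rfl n (extH ψ c : H1 ℂ ℂ (Gamma0 N)) =
      (b n : ℂ) • (extH ψ c : H1 ℂ ℂ (Gamma0 N)) := by
    intro n _
    rw [hec_extH, hlam]
    apply Subtype.ext
    funext γ
    change ψ (lam n * c.1 γ) = (b n : ℂ) * ψ (c.1 γ)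
    rw [← hb, hψb]
  obtain ⟨l, hl, hlp, hl1, hu⟩ := hNE
  obtain ⟨F, hF, hFn⟩ := exists_eigenform_of_H1 (lam := fun n => (b n : ℂ)) hc0 hc1
    ⟨l, hlp, hl1, fun h => by
      have h1 : b l = (l : integralClosure ℤ ℂ) + 1 := by
        apply Subtype.ext
        push_cast
        exact h
      have h2 := hφi l hl
      rw [h1, map_add, map_one, map_natCast] at h2
      have h3 : algebraMap (ResidueField 𝒪) (AlgebraicClosure (ResidueField 𝒪))
          (residue 𝒪 (a l - (l + 1))) = 0 := by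
        rw [map_sub, map_sub, ← h2]
        simp
      have h4 : residue 𝒪 (a l - (l + 1)) = 0 :=
        (algebraMap (ResidueField 𝒪) (AlgebraicClosure (ResidueField 𝒪))).injective
          (h3.trans (map_zero _).symm)
      rw [residue_eq_zero_iff] at h4
      exact (mem_maximalIdeal _).mp h4 hu⟩
  refine ⟨F, φ, hF, fun i hi hip => ⟨b i, (hFn i hip).symm, hφi i hi⟩, fun n hn P hP => ?_⟩
  have h1 := hrel n (P.map (algebraMap ℤ 𝒪)) hP
  rw [← hb, Polynomial.aeval_map_algebraMap] at h1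
  have h2 : ε (Polynomial.aeval (b n) P) = 0 := by
    rw [← h1, Polynomial.aeval_def, Polynomial.aeval_def, Polynomial.hom_eval₂]
    congr 1
    exact RingHom.ext_int _ _
  -- injectivity of `ε`
  have hεinj : Function.Injective ε := by
    rw [injective_iff_map_eq_zero]
    intro x hx
    have h3 := hψb x (c.1 γ₀)
    rw [hx, zero_mul, map_zero] at h3
    have h4 : (x : ℂ) = 0 := (mul_eq_zero.mp h3.symm).resolve_right hψ0
    exact Subtype.ext h4
  have h3 : Polynomial.aeval (b n) P = 0 := hεinj (h2.trans (map_zero ε).symm)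
  rw [hFn n hn]
  have h4 := congrArg (integralClosure ℤ ℂ).val h3
  rw [map_zero, ← Polynomial.aeval_algHom_apply] at h4
  exact h4

/-- **Eigenforms from the localised cohomology**: a nonzero stable submodule of the localised
cohomology of `Γ₀(N)` (at a non-Eisenstein system) contributes a normalised eigenform. -/
theorem exists_eigenform_of_HM {I : Set ℕ} {a : ℕ → 𝒪}
    (hNE : ∃ l ∈ I, l.Prime ∧ (N : ℤ) ∣ (l : ℤ) - 1 ∧ IsUnit (a l - (l + 1)))
    (V : Submodule 𝒪 (H1 𝒪 𝒪 (Gamma0 N))) (hV : V ≠ ⊥) (hVM : V ≤ HM0 N I a)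
    (hst : ∀ n, ∀ v ∈ V, hec (Gamma1_le N) le_rfl n v ∈ V) :
    ∃ (F : CuspForm (Gamma0 N) 2)
      (φ : integralClosure ℤ ℂ →+* AlgebraicClosure (ResidueField 𝒪)),
      F.IsNormalizedEigenform ∧
      (∀ i ∈ I, i.Prime → ∃ b : integralClosure ℤ ℂ, (b : ℂ) = qCoeff F i ∧
        φ b = algebraMap (ResidueField 𝒪) (AlgebraicClosure (ResidueField 𝒪)) (residue 𝒪 (a i))) ∧
      (∀ n : ℕ, n.Prime → ∀ P : Polynomial ℤ, (∀ v ∈ V, Polynomial.aeval
        (hec (Gamma1_le N) le_rfl n : Module.End 𝒪 (H1 𝒪 𝒪 (Gamma0 N)))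
        (P.map (algebraMap ℤ 𝒪)) v = 0) → Polynomial.aeval (qCoeff F n) P = 0) := by
  have hinj : Function.Injective (algebraMap 𝒪 (AlgebraicClosure (FractionRing 𝒪))) := by
    rw [IsScalarTower.algebraMap_eq 𝒪 (FractionRing 𝒪) (AlgebraicClosure (FractionRing 𝒪))]
    exact (algebraMap (FractionRing 𝒪) (AlgebraicClosure (FractionRing 𝒪))).injective.comp
      (IsFractionRing.injective 𝒪 (FractionRing 𝒪))
  haveI : CharZero (AlgebraicClosure (FractionRing 𝒪)) := charZero_of_injective_algebraMap hinj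
  exact exists_eigenform_aux hinj hNE V hV hVM hst

end Final

end Fermat.Agent.RT.Ihara
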