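import Fermat.Agent.ESG.Eig
import Fermat.Agent.Hecke.Eigenform
import Fermat.Agent.RT.CFam

set_option autoImplicit false

/-!
# Simultaneous eigenvectors of all the Hecke operators in the cohomology of `Γ₀(N)`
-/

open UpperHalfPlane hiding I
open Matrix CongruenceSubgroup ModularForm
open Fermat.Agent.ES Fermat.Agent.ESCore Fermat.Agent.ESCore.UnivG Fermat.Agent.ESG
open ModularCurve.Period
open Multiplicative (toAdd ofAdd)
open scoped MatrixGroups ModularForm Manifold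

noncomputable section

namespace Fermat.Agent.RT.Ihara

variable {N n : ℕ} {G : Subgroup SL(2, ℤ)} {ι : Type*} {P : ι → Mat}

section Conj

theorem CFam.jConj (F : CFam N n P) : CFam N n fun x => jConjMat (P x) where
  gmat x := by
    have h := F.gmat x
    constructor
    · rw [jConjMat_apply_one_zero]
      exact (dvd_neg).mpr h.d10
    · rw [jConjMat_apply_zero_zero]
      exact h.d00
  det x := by rw [jConjMat_det, F.det]
  inj x y g e := by
    have e2 := congrArg jConjMat e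
    rw [jConjMat_jConjMat, jConjMat_mul, jConjMat_jConjMat, ← jConj_coe] at e2
    exact F.inj x y _ e2
  surj M hG hM := by
    obtain ⟨x, g, e⟩ := F.surj (jConjMat M) (by
      constructor
      · rw [jConjMat_apply_one_zero]
        exact (dvd_neg).mpr hG.d10
      · rw [jConjMat_apply_zero_zero]
        exact hG.d00) (by rw [jConjMat_det, hM])
    refine ⟨x, jConjSL g, ?_⟩
    rw [jConj_coe, ← jConjMat_mul, ← e, jConjMat_jConjMat]

variable {O A : Type*} [CommRing O] [AddCommGroup A] [Module O A]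
variable (h1 : Gamma1 N ≤ G) (h0 : G ≤ Gamma0 N)

/-- The involution given by the conjugation by `diag(1, -1)` -/
def jH : H1 O A G →ₗ[O] H1 O A G where
  toFun c := ⟨fun g => c.1 (jG h1 h0 g), fun g h => by
    change c.1 (jG h1 h0 (g * h)) = _
    rw [map_mul, c.2]⟩
  map_add' _ _ := rfl
  map_smul' _ _ := rfl

theorem jH_apply (c : H1 O A G) (g : G) : (jH h1 h0 c).1 g = c.1 (jG h1 h0 g) := rfl

theorem hec_jH (c : H1 O A G) : hec h1 h0 n (jH h1 h0 c) = jH h1 h0 (hec h1 h0 n c) := by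
  by_cases hn : n.Prime
  swap
  · rw [hec_zero _ _ hn]; rfl
  obtain ⟨κ, _, Q, F⟩ : ∃ (κ : Type) (_ : Fintype κ) (Q : κ → Mat), CFam N n Q := by
    by_cases hN : n ∣ N
    · exact ⟨Fin n, inferInstance, _, cfam_U hn hN⟩
    · exact ⟨Option (Fin n), inferInstance, _, cfam_TD hn (isCoprime_N hn hN) dvd_rfl⟩
  apply Subtype.ext
  funext g
  have H := F.corr hn.ne_zero h1 h0
  have H' := F.jConj.corr hn.ne_zero h1 h0
  obtain ⟨σ, γ, hγ, e⟩ := H.exists_perm g.2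
  have e' : ∀ x, jConjMat (Q x) * ((jConjSL g : SL(2, ℤ)) : Mat) =
      ((jConjSL (γ x) : SL(2, ℤ)) : Mat) * jConjMat (Q (σ x)) := by
    intro x
    rw [jConj_coe, jConj_coe, ← jConjMat_mul, ← jConjMat_mul, e]
  have e1 : (hec h1 h0 n (jH h1 h0 c)).1 g = ∑ x, c.1 ⟨_, jConj_mem h1 h0 (hγ x)⟩ := by
    rw [hec_eq hn F h1 h0, opH_apply, H.opc_eq (addOn_ex _) g.2 hγ e]
    refine Finset.sum_congr rfl fun x _ => ?_
    rw [ex_apply _ (hγ x)]
    rfl
  have e2 : (jH h1 h0 (hec h1 h0 n c)).1 g = ∑ x, c.1 ⟨_, jConj_mem h1 h0 (hγ x)⟩ := by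
    rw [jH_apply, hec_eq hn F.jConj h1 h0, opH_apply]
    change opc G (fun x => jConjMat (Q x)) (ex c.1) (jConjSL g) = _
    rw [H'.opc_eq (addOn_ex _) (jConj_mem h1 h0 g.2) (fun x => jConj_mem h1 h0 (hγ x)) e']
    exact Finset.sum_congr rfl fun x _ => ex_apply _ (jConj_mem h1 h0 (hγ x))
  rw [e1, e2]

end Conj

section Per

variable (h1 : Gamma1 N ≤ G) (h0 : G ≤ Gamma0 N)

theorem heckeSysUG_det {q : ℕ} (hq : q.Prime) (hN : q ∣ N) (x : Fin q) :
    0 < (((heckeSysUG hq.ne_zero hN h1 h0).δ x).det : ℝ) := det_heckeMatrix_pos q x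

theorem heckeSysUG_cusp {q : ℕ} (hq : q.Prime) (hN : q ∣ N) (x : Fin q) (A : SL(2, ℤ)) :
    ∃ (A' : SL(2, ℤ)) (B : GL (Fin 2) ℝ),
      (heckeSysUG hq.ne_zero hN h1 h0).δ x * Matrix.SpecialLinearGroup.mapGL ℝ A =
        Matrix.SpecialLinearGroup.mapGL ℝ A' * B ∧ (B : Matrix (Fin 2) (Fin 2) ℝ) 1 0 = 0 :=
  (isMulSys_heckeSysU hq hN).cusp x A

/-- The operator `U_q` on cusp forms of weight two. -/
def heckeUS2 {q : ℕ} (hq : q.Prime) (hN : q ∣ N) : Module.End ℂ (S2 G) where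
  toFun f := ⟨∑ x, f.1 ∣[(2 : ℤ)] (heckeSysUG hq.ne_zero hN h1 h0).δ x,
    sum_slash_mem (heckeSysUG_cusp h1 h0 hq hN) f.2⟩
  map_add' f g := by
    apply Subtype.ext
    change ∑ x, (f.1 + g.1) ∣[(2 : ℤ)] (heckeSysUG hq.ne_zero hN h1 h0).δ x =
      (∑ x, f.1 ∣[(2 : ℤ)] (heckeSysUG hq.ne_zero hN h1 h0).δ x) +
        ∑ x, g.1 ∣[(2 : ℤ)] (heckeSysUG hq.ne_zero hN h1 h0).δ x
    rw [← Finset.sum_add_distrib]
    exact Finset.sum_congr rfl fun x _ => SlashAction.add_slash _ _ _ _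
  map_smul' c f := by
    apply Subtype.ext
    change ∑ x, (c • f.1) ∣[(2 : ℤ)] (heckeSysUG hq.ne_zero hN h1 h0).δ x =
      c • ∑ x, f.1 ∣[(2 : ℤ)] (heckeSysUG hq.ne_zero hN h1 h0).δ x
    rw [Finset.smul_sum]
    refine Finset.sum_congr rfl fun x _ => ?_
    rw [ModularForm.smul_slash, UpperHalfPlane.σ, if_pos (heckeSysUG_det h1 h0 hq hN x)]
    rfl

theorem heckeUS2_coe {q : ℕ} (hq : q.Prime) (hN : q ∣ N) (f : S2 G) :
    (heckeUS2 h1 h0 hq hN f).1 =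
      ∑ x, f.1 ∣[(2 : ℤ)] (heckeSysUG hq.ne_zero hN h1 h0).δ x := rfl

theorem per_heckeU (hN0 : 0 < N) {q : ℕ} (hq : q.Prime) (hN : q ∣ N) (f : S2 G) :
    per h1 hN0 (heckeUS2 h1 h0 hq hN f) = heckeCharUG hq.ne_zero hN h1 h0 (per h1 hN0 f) :=
  per_sum h1 hN0 (heckeSysUG_det h1 h0 hq hN) f _ (heckeUS2_coe h1 h0 hq hN f)

/-- The periods as a cohomology class. -/
def perH (hN0 : 0 < N) (f : S2 G) : H1 ℂ ℂ G := ofChar (per h1 hN0 f)

theorem toChar_perH (hN0 : 0 < N) (f : S2 G) : toChar (perH h1 hN0 f) = per h1 hN0 f := rfl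

/-- The Hecke operators on cusp forms. -/
def hecS (n : ℕ) : Module.End ℂ (S2 G) :=
  open Classical in
  if h : n.Prime then if hN : n ∣ N then heckeUS2 h1 h0 h hN else heckeS2 h1 h0 h hN else 0

theorem hecS_T {l : ℕ} (hl : l.Prime) (hN : ¬ l ∣ N) : hecS h1 h0 l = heckeS2 h1 h0 hl hN := by
  rw [hecS, dif_pos hl, dif_neg hN]

theorem hecS_U {l : ℕ} (hl : l.Prime) (hN : l ∣ N) : hecS h1 h0 l = heckeUS2 h1 h0 hl hN := by
  rw [hecS, dif_pos hl, dif_pos hN]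

theorem perH_hecS (hN0 : 0 < N) (f : S2 G) {n : ℕ} (hn : n.Prime) :
    perH h1 hN0 (hecS h1 h0 n f) = hec h1 h0 n (perH h1 hN0 f) := by
  apply toChar_injective
  by_cases hN : n ∣ N
  · rw [hecS_U h1 h0 hn hN, toChar_perH, per_heckeU, ← heckeCharUG_hec hn hN, toChar_perH]
  · rw [hecS_T h1 h0 hn hN, toChar_perH, per_hecke, ← heckeCharG_hec hn hN, toChar_perH]

theorem pairA_eq (hN0 : 0 < N) (f g : S2 G) (γ : G) : pairA h1 h0 hN0 (f, g) (Additive.ofMul γ) =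
    (perH h1 hN0 f + jH h1 h0 (perH h1 hN0 g)).1 γ := rfl

variable [NeZero N]

/-- **Eigenvectors in the cohomology come from cusp forms.** -/
theorem exists_S2_of_eigen {lam : ℕ → ℂ} {c : H1 ℂ ℂ G} (hc : c ≠ 0)
    (hlam : ∀ n : ℕ, n.Prime → hec h1 h0 n c = lam n • c)
    (hl : ∃ l : ℕ, l.Prime ∧ (N : ℤ) ∣ (l : ℤ) - 1 ∧ lam l ≠ l + 1) :
    ∃ f : S2 G, f ≠ 0 ∧ ∀ n : ℕ, n.Prime → hecS h1 h0 n f = lam n • f := by
  have hN := Nat.pos_of_ne_zero (NeZero.ne N)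
  obtain ⟨l, hl, hl1, hll⟩ := hl
  have hlN : ¬ l ∣ N := by
    intro h2
    have h3 : (l : ℤ) ∣ (l : ℤ) - 1 := (Int.natCast_dvd_natCast.mpr h2).trans hl1
    have h4 : (l : ℤ) ∣ 1 := by
      have := Int.dvd_sub (dvd_refl (l : ℤ)) h3
      simpa using this
    have h5 := Int.natCast_dvd_natCast.mp (by exact_mod_cast h4 : (l : ℤ) ∣ ((1 : ℕ) : ℤ))
    exact hl.one_lt.ne' (Nat.dvd_one.mp h5)
  have hl1' : N ∣ l - 1 := by
    rw [← Int.natCast_dvd_natCast, Nat.cast_sub hl.one_lt.le, Nat.cast_one]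
    exact hl1
  have hpar : ∀ γ : G, ((γ : SL(2, ℤ)) : Mat).trace ^ 2 = 4 → toChar c γ = 1 :=
    parabolic_of_eigen' h1 h0 hl hlN hl1' (fun γ => by
      rw [heckeCharG_hec hl hlN, hlam l hl]
      rfl) hll
  obtain ⟨f, g, e⟩ := exists_pair h1 h0 hN (c := addC (toChar c)) (fun γ hγ => hpar γ hγ)
  have hcfg : c = perH h1 hN f + jH h1 h0 (perH h1 hN g) := by
    apply Subtype.ext
    funext γ
    exact DFunLike.congr_fun e (Additive.ofMul γ)
  have key : ∀ n : ℕ, n.Prime → hecS h1 h0 n f = lam n • f ∧ hecS h1 h0 n g = lam n • g := by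
    intro n hn
    have h2 : pairA h1 h0 hN (hecS h1 h0 n f, hecS h1 h0 n g) =
        pairA h1 h0 hN (lam n • f, lam n • g) := by
      refine AddMonoidHom.ext fun γ => ?_
      have h3 := hlam n hn
      rw [hcfg, map_add, hec_jH, ← perH_hecS h1 h0 hN f hn, ← perH_hecS h1 h0 hN g hn] at h3
      have h4 := congrFun (congrArg Subtype.val h3) γ.toMul
      have h5 : pairA h1 h0 hN (lam n • f, lam n • g) γ =
          lam n * pairA h1 h0 hN (f, g) γ := by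
        have : ((lam n • f, lam n • g) : S2 G × S2 G) = lam n • (f, g) := rfl
        rw [this, map_smul]
        rfl
      rw [h5]
      exact h4
    have h3 := pairA_injective h1 h0 hN h2
    exact ⟨congrArg Prod.fst h3, congrArg Prod.snd h3⟩
  by_cases hf : f = 0
  · refine ⟨g, fun hg => hc ?_, fun n hn => (key n hn).2⟩
    have h4 : per h1 hN (0 : S2 G) = 1 := congrArg Additive.toMul (map_zero (perHomG h1 hN))
    rw [hcfg, hf, hg]
    have h5 : perH h1 hN (0 : S2 G) = 0 := by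
      apply toChar_injective
      rw [toChar_perH, h4]
      rfl
    rw [h5, map_zero, add_zero]
  · exact ⟨f, hf, fun n hn => (key n hn).1⟩

end Per

section Norm

open Fermat.Agent.Hecke ModularFormClass

variable [NeZero N]

/-- a cusp form from a function -/
def cuspOf (f : S2 (Gamma0 N)) : CuspForm (Gamma0 N) 2 := toCusp f.2.1 f.2.2

theorem coe_cuspOf (f : S2 (Gamma0 N)) : ⇑(cuspOf f) = f.1 := rfl

theorem slash_G0 (f : S2 (Gamma0 N)) (g : Gamma0 N) (A : GL (Fin 2) ℝ) :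
    f.1 ∣[(2 : ℤ)] (gam N g * A) = f.1 ∣[(2 : ℤ)] A := by
  rw [SlashAction.slash_mul]
  congr 1
  exact S2_inv f.2 g

theorem heckeT_cuspOf {l : ℕ} (hl : l.Prime) (hN : ¬ l ∣ N) (f : S2 (Gamma0 N)) :
    CuspForm.heckeTLin 2 hl hN (cuspOf f) = cuspOf (heckeS2 (Gamma1_le N) le_rfl hl hN f) := by
  apply DFunLike.coe_injective
  rw [CuspForm.coe_heckeTLin_apply, coe_cuspOf, coe_cuspOf, heckeS2_coe, heckeT_def]
  have h1 : ∀ x, f.1 ∣[(2 : ℤ)] (heckeSysG hl hN (Gamma1_le N) le_rfl).δ x =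
      f.1 ∣[(2 : ℤ)] hdelta l x := fun x => slash_G0 f (sigmaX N l x) (hdelta l x)
  rw [Finset.sum_congr rfl fun x _ => h1 x, Fintype.sum_option, add_comm, Finset.sum_range]
  rfl

theorem heckeU_cuspOf {q : ℕ} (hq : q.Prime) (hN : q ∣ N) (f : S2 (Gamma0 N)) :
    CuspForm.heckeULin 2 hN (cuspOf f) = cuspOf (heckeUS2 (Gamma1_le N) le_rfl hq hN f) := by
  apply DFunLike.coe_injective
  rw [CuspForm.coe_heckeULin_apply, coe_cuspOf, coe_cuspOf, heckeUS2_coe, heckeU_def,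
    Finset.sum_range]
  rfl

theorem cuspOf_smul (c : ℂ) (f : S2 (Gamma0 N)) : cuspOf (c • f) = c • cuspOf f := by
  apply DFunLike.coe_injective
  rfl

theorem cuspOf_ne_zero {f : S2 (Gamma0 N)} (hf : f ≠ 0) : cuspOf f ≠ 0 := by
  intro h
  apply hf
  apply Subtype.ext
  rw [← coe_cuspOf, h]
  rfl

theorem exists_normalized_of_S2 {f : S2 (Gamma0 N)} (hf : f ≠ 0) {lam : ℕ → ℂ}
    (hlam : ∀ n : ℕ, n.Prime → hecS (Gamma1_le N) le_rfl n f = lam n • f) :
    ∃ F : CuspForm (Gamma0 N) 2, F.IsNormalizedEigenform ∧ ∀ n : ℕ, n.Prime → qCoeff F n = lam n := by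
  have hT : ∀ (l : ℕ) (hl : l.Prime) (hN : ¬ l ∣ N),
      CuspForm.heckeTLin 2 hl hN (cuspOf f) = lam l • cuspOf f := fun l hl hN => by
    rw [heckeT_cuspOf, ← cuspOf_smul, ← hlam l hl, hecS_T _ _ hl hN]
  have hU : ∀ (l : ℕ) (hl : l.Prime) (hN : l ∣ N),
      CuspForm.heckeULin 2 hN (cuspOf f) = lam l • cuspOf f := fun l hl hN => by
    rw [heckeU_cuspOf hl, ← cuspOf_smul, ← hlam l hl, hecS_U _ _ hl hN]
  have h1 : qCoeff (cuspOf f) 1 ≠ 0 := by
    intro h0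
    apply cuspOf_ne_zero hf
    refine eq_zero_of_first _ fun t ht => ?_
    have h2 : ∃ c : ℂ, t (cuspOf f) = c • cuspOf f := by
      induction ht using Algebra.adjoin_induction with
      | mem x hx =>
        rcases hx with ⟨l, hl, hN, -, rfl⟩ | ⟨l, hN, hl, -, rfl⟩
        · exact ⟨_, hT l hl hN⟩
        · exact ⟨_, hU l hl hN⟩
      | algebraMap r => exact ⟨r, rfl⟩
      | add x y _ _ hx hy =>
        obtain ⟨c, hc⟩ := hx
        obtain ⟨c', hc'⟩ := hy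
        exact ⟨c + c', by rw [LinearMap.add_apply, hc, hc', add_smul]⟩
      | mul x y _ _ hx hy =>
        obtain ⟨c, hc⟩ := hx
        obtain ⟨c', hc'⟩ := hy
        exact ⟨c' * c, by rw [Module.End.mul_apply, hc', map_smul, hc, smul_smul]⟩
    obtain ⟨c, hc⟩ := h2
    rw [hc, qCoeff_smul, h0, mul_zero]
  set F : CuspForm (Gamma0 N) 2 := (qCoeff (cuspOf f) 1)⁻¹ • cuspOf f with hF
  have hF1 : qCoeff F 1 = 1 := by rw [hF, qCoeff_smul, inv_mul_cancel₀ h1]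
  have hT' : ∀ (l : ℕ) (hl : l.Prime) (hN : ¬ l ∣ N),
      CuspForm.heckeTLin 2 hl hN F = lam l • F := fun l hl hN => by
    rw [hF, map_smul, hT, smul_comm]
  have hU' : ∀ (l : ℕ) (hl : l.Prime) (hN : l ∣ N),
      CuspForm.heckeULin 2 hN F = lam l • F := fun l hl hN => by
    rw [hF, map_smul, hU l hl hN, smul_comm]
  refine ⟨F, isNormalizedEigenform_of_eigen F hF1 (fun l hl hN => ⟨_, hT' l hl hN⟩)
    (fun l hl hN => ⟨_, hU' l hl hN⟩), fun n hn => ?_⟩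
  by_cases hN : n ∣ N
  · have h2 := qCoeff_heckeULin hn hN F 1
    rwa [hU' n hn hN, qCoeff_smul, hF1, mul_one, one_mul, eq_comm] at h2
  · have h2 := qCoeff_heckeTLin hn hN F 1
    have hn1 : ¬ n ∣ 1 := fun h => hn.one_lt.ne' (Nat.dvd_one.mp h)
    rwa [hT' n hn hN, qCoeff_smul, hF1, mul_one, one_mul, if_neg hn1, add_zero, eq_comm] at h2

/-- **Eigenclasses of all the Hecke operators come from normalised eigenforms.** -/
theorem exists_eigenform_of_H1 {lam : ℕ → ℂ} {c : H1 ℂ ℂ (Gamma0 N)} (hc : c ≠ 0)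
    (hlam : ∀ n : ℕ, n.Prime → hec (Gamma1_le N) le_rfl n c = lam n • c)
    (hl : ∃ l : ℕ, l.Prime ∧ (N : ℤ) ∣ (l : ℤ) - 1 ∧ lam l ≠ l + 1) :
    ∃ F : CuspForm (Gamma0 N) 2, F.IsNormalizedEigenform ∧
      ∀ n : ℕ, n.Prime → qCoeff F n = lam n := by
  obtain ⟨f, hf, h2⟩ := exists_S2_of_eigen (Gamma1_le N) le_rfl hc hlam hl
  exact exists_normalized_of_S2 hf h2

end Norm

end Fermat.Agent.RT.Ihara
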