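import Fermat.Agent.RT.EvalHom
import Fermat.Agent.RT.ChiPoint
import Fermat.Prelude.Thm_IsLocalRing_isAdicComplete_of_module_finite

set_option autoImplicit false
set_option maxHeartbeats 400000
set_option linter.style.haveILetI false
set_option linter.unusedSectionVars false
set_option linter.unusedVariables false

/-!
# Group rings of finite abelian `p`-groups over complete local rings
-/

open IsLocalRing MvPowerSeries

namespace Fermat.Agent.RT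

section Pow

/-- Powers of one-units. -/
lemma one_add_pow_prime_pow_sub_one_mem {A : Type*} [CommRing A] {I : Ideal A} {p : ℕ}
    (hp : (p : A) ∈ I) (hp2 : 2 ≤ p) {x : A} (hx : x ∈ I) (m : ℕ) :
    (1 + x) ^ p ^ m - 1 ∈ I ^ (m + 1) := by
  induction m with
  | zero => simpa using hx
  | succ m ih =>
    obtain ⟨c, hc⟩ := Polynomial.powAddExpansion (1 : A) ((1 + x) ^ p ^ m - 1) p
    have h1 : (1 + x) ^ p ^ (m + 1) - 1 = p * ((1 + x) ^ p ^ m - 1) +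
        c * ((1 + x) ^ p ^ m - 1) ^ 2 := by
      have h2 : (1 + x) ^ p ^ (m + 1) = (1 + ((1 + x) ^ p ^ m - 1)) ^ p := by
        rw [add_sub_cancel, ← pow_mul, pow_succ]
      rw [h2, hc, one_pow, one_pow]
      ring
    rw [h1]
    refine Ideal.add_mem _ ?_ (Ideal.mul_mem_left _ _ ?_)
    · rw [pow_succ' I (m + 1)]
      exact Ideal.mul_mem_mul hp ih
    · have h2 := Ideal.pow_mem_pow ih 2
      rw [← pow_mul] at h2
      exact Ideal.pow_le_pow_right (by omega) h2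

end Pow

section Local

variable {𝒪 : Type} [CommRing 𝒪] {D : Type} [CommGroup D]

variable (𝒪 D) in
/-- The augmentation. -/
noncomputable def aug : MonoidAlgebra 𝒪 D →ₐ[𝒪] 𝒪 := MonoidAlgebra.lift 𝒪 𝒪 D 1

@[simp] lemma aug_of (g : D) : aug 𝒪 D (MonoidAlgebra.of 𝒪 D g) = 1 := by
  rw [aug, MonoidAlgebra.lift_of]; rfl

/-- Elements differ from their augmentation by the ideal generated by the `g - 1`. -/
lemma sub_aug_mem {I : Ideal (MonoidAlgebra 𝒪 D)}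
    (hI : ∀ g, MonoidAlgebra.of 𝒪 D g - 1 ∈ I) (x : MonoidAlgebra 𝒪 D) :
    x - algebraMap 𝒪 _ (aug 𝒪 D x) ∈ I := by
  induction x using MonoidAlgebra.induction_on with
  | of g => rw [aug_of, map_one]; exact hI g
  | add x y hx hy =>
    have : x + y - algebraMap 𝒪 _ (aug 𝒪 D (x + y)) =
        (x - algebraMap 𝒪 _ (aug 𝒪 D x)) + (y - algebraMap 𝒪 _ (aug 𝒪 D y)) := by
      rw [map_add, map_add]; ring
    rw [this]
    exact Ideal.add_mem _ hx hy
  | smul r x hx =>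
    have : r • x - algebraMap 𝒪 _ (aug 𝒪 D (r • x)) =
        algebraMap 𝒪 _ r * (x - algebraMap 𝒪 _ (aug 𝒪 D x)) := by
      rw [map_smul, smul_eq_mul, map_mul, Algebra.smul_def, mul_sub]
    rw [this]
    exact Ideal.mul_mem_left _ _ hx

variable [IsLocalRing 𝒪] {p : ℕ} [Fact p.Prime]

include p in
lemma isUnit_of_isUnit_aug [Finite D] (hp : (p : 𝒪) ∈ maximalIdeal 𝒪)
    (hD : ∀ g : D, ∃ k, g ^ p ^ k = 1) {x : MonoidAlgebra 𝒪 D} (hx : IsUnit (aug 𝒪 D x)) :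
    IsUnit x := by
  by_contra hne
  obtain ⟨𝔐, h𝔐, hx𝔐⟩ := exists_max_ideal_of_mem_nonunits hne
  haveI : Algebra.IsIntegral 𝒪 (MonoidAlgebra 𝒪 D) := inferInstance
  haveI h1 : (Ideal.comap (algebraMap 𝒪 (MonoidAlgebra 𝒪 D)) 𝔐).IsMaximal :=
    Ideal.isMaximal_comap_of_isIntegral_of_isMaximal 𝔐
  have h2 : Ideal.comap (algebraMap 𝒪 (MonoidAlgebra 𝒪 D)) 𝔐 = maximalIdeal 𝒪 :=
    IsLocalRing.eq_maximalIdeal h1
  have hp𝔐 : (p : MonoidAlgebra 𝒪 D) ∈ 𝔐 := by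
    rw [← h2, Ideal.mem_comap, map_natCast] at hp
    exact hp
  letI : Field (MonoidAlgebra 𝒪 D ⧸ 𝔐) := Ideal.Quotient.field 𝔐
  haveI : CharP (MonoidAlgebra 𝒪 D ⧸ 𝔐) p := by
    have h3 : ((p : ℕ) : MonoidAlgebra 𝒪 D ⧸ 𝔐) = 0 := by
      rw [← map_natCast (Ideal.Quotient.mk 𝔐)]
      exact Ideal.Quotient.eq_zero_iff_mem.mpr hp𝔐
    exact (CharP.charP_iff_prime_eq_zero (Fact.out : p.Prime)).mpr h3
  have h4 : ∀ g, MonoidAlgebra.of 𝒪 D g - 1 ∈ 𝔐 := by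
    intro g
    obtain ⟨k, hk⟩ := hD g
    have h5 : (Ideal.Quotient.mk 𝔐 (MonoidAlgebra.of 𝒪 D g) - 1) ^ p ^ k = 0 := by
      rw [sub_pow_char_pow, one_pow, ← map_pow, ← map_pow, hk, map_one, map_one, sub_self]
    have h6 := pow_eq_zero_iff (pow_ne_zero k (Fact.out : p.Prime).ne_zero) |>.mp h5
    rw [← map_one (Ideal.Quotient.mk 𝔐), ← map_sub] at h6
    exact Ideal.Quotient.eq_zero_iff_mem.mp h6
  have h5 := sub_aug_mem h4 x
  have h6 : algebraMap 𝒪 _ (aug 𝒪 D x) ∈ 𝔐 := by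
    have : algebraMap 𝒪 _ (aug 𝒪 D x) = x - (x - algebraMap 𝒪 _ (aug 𝒪 D x)) := by ring
    rw [this]
    exact Ideal.sub_mem _ hx𝔐 h5
  exact h𝔐.ne_top (Ideal.eq_top_of_isUnit_mem _ h6 (hx.map _))

include p in
lemma isLocalRing_groupRing [Finite D] (hp : (p : 𝒪) ∈ maximalIdeal 𝒪)
    (hD : ∀ g : D, ∃ k, g ^ p ^ k = 1) : IsLocalRing (MonoidAlgebra 𝒪 D) := by
  haveI : Nontrivial (MonoidAlgebra 𝒪 D) := (aug 𝒪 D).toRingHom.domain_nontrivial
  refine IsLocalRing.of_nonunits_add fun a b ha hb => ?_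
  rw [mem_nonunits_iff] at ha hb ⊢
  have h1 : aug 𝒪 D a ∈ nonunits 𝒪 := fun h => ha (isUnit_of_isUnit_aug hp hD h)
  have h2 : aug 𝒪 D b ∈ nonunits 𝒪 := fun h => hb (isUnit_of_isUnit_aug hp hD h)
  intro h
  have h3 := h.map (aug 𝒪 D)
  rw [map_add] at h3
  exact IsLocalRing.nonunits_add h1 h2 h3

end Local

end Fermat.Agent.RT
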