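import Fermat.Agent.RT.AsmT
import Fermat.Agent.RT.CycPs
import Fermat.Agent.RT.GroupRing

set_option autoImplicit false
set_option maxHeartbeats 400000
set_option linter.style.haveILetI false
set_option linter.unusedSectionVars false
set_option linter.unusedVariables false

/-!
# The representation over the twisted Hecke algebra
-/

open IsLocalRing CongruenceSubgroup Matrix.SpecialLinearGroup
open scoped MatrixGroups
open Fermat.Agent.ESCore Fermat.Agent.ESCore.UnivG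
open Fermat.Agent.ESCore.Univ (Idx)
open Fermat.Agent.ESCore.Gal (dU dLift dU_dLift)

noncomputable section

namespace Fermat.Agent.RT

section Adjoin

variable {R A : Type} [CommRing R] [Ring A] [Algebra R A]

/-- The commutative algebra generated by commuting elements. -/
lemma exists_comm_adjoin {I : Type} (x : I → A) (h : ∀ i j, x i * x j = x j * x i) :
    ∃ (T : Type) (_ : CommRing T) (_ : Algebra R T) (ι : T →ₐ[R] A) (y : I → T),
      Function.Injective ι ∧ (∀ i, ι (y i) = x i) ∧ Algebra.adjoin R (Set.range y) = ⊤ := by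
  haveI hc : IsMulCommutative (Algebra.adjoin R (Set.range x)) :=
    Algebra.isMulCommutative_adjoin R (by
      rintro _ ⟨i, rfl⟩ _ ⟨j, rfl⟩
      exact h i j)
  letI : CommRing (Algebra.adjoin R (Set.range x)) :=
    { (inferInstance : Ring (Algebra.adjoin R (Set.range x))) with
      mul_comm := fun a b => hc.is_comm.comm a b }
  refine ⟨Algebra.adjoin R (Set.range x), inferInstance, (Algebra.adjoin R (Set.range x)).algebra,
    (Algebra.adjoin R (Set.range x)).val,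
    fun i => ⟨x i, Algebra.subset_adjoin ⟨i, rfl⟩⟩, Subtype.val_injective, fun i => rfl, ?_⟩
  have h1 := Algebra.adjoin_adjoin_coe_preimage (R := R) (s := Set.range x)
  rw [← h1]
  congr 1
  ext z
  constructor
  · rintro ⟨i, rfl⟩
    exact ⟨i, rfl⟩
  · rintro ⟨i, hi⟩
    exact ⟨i, Subtype.ext hi⟩

/-- Morphisms between such algebras. -/
lemma exists_adjoin_map {A' T T' : Type} [Ring A'] [Algebra R A'] [CommRing T] [Algebra R T]
    [CommRing T'] [Algebra R T'] (ι : T →ₐ[R] A) (ι' : T' →ₐ[R] A') (hι' : Function.Injective ι')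
    {I : Type} (y : I → T) (hy : Algebra.adjoin R (Set.range y) = ⊤) (f : A →ₐ[R] A')
    (h : ∀ i, ∃ t', ι' t' = f (ι (y i))) : ∃ g : T →ₐ[R] T', ∀ t, ι' (g t) = f (ι t) := by
  have h1 : (f.comp ι).range ≤ ι'.range := by
    rintro _ ⟨t, rfl⟩
    have ht : t ∈ Algebra.adjoin R (Set.range y) := by rw [hy]; trivial
    induction ht using Algebra.adjoin_induction with
    | mem z hz =>
      obtain ⟨i, rfl⟩ := hz
      exact h i
    | algebraMap r => exact ⟨algebraMap R T' r, by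
        change ι' (algebraMap R T' r) = f (ι (algebraMap R T r))
        rw [AlgHom.commutes, AlgHom.commutes, AlgHom.commutes]⟩
    | add a b _ _ ha hb =>
      obtain ⟨a', ha'⟩ := ha
      obtain ⟨b', hb'⟩ := hb
      exact ⟨a' + b', (map_add ι' a' b').trans (by
        rw [show ι' a' = _ from ha', show ι' b' = _ from hb']; exact (map_add (f.comp ι) a b).symm)⟩
    | mul a b _ _ ha hb =>
      obtain ⟨a', ha'⟩ := ha
      obtain ⟨b', hb'⟩ := hb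
      exact ⟨a' * b', (map_mul ι' a' b').trans (by
        rw [show ι' a' = _ from ha', show ι' b' = _ from hb']; exact (map_mul (f.comp ι) a b).symm)⟩
  let e := AlgEquiv.ofInjective ι' hι'
  refine ⟨(e.symm : ι'.range →ₐ[R] T').comp ((f.comp ι).codRestrict ι'.range
    (fun t => h1 ⟨t, rfl⟩)), fun t => ?_⟩
  have h2 := e.apply_symm_apply ((f.comp ι).codRestrict ι'.range (fun t => h1 ⟨t, rfl⟩) t)
  exact congrArg Subtype.val h2

end Adjoin

section Scal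

variable {𝒪 : Type} [CommRing 𝒪] {𝔻 : Type} [CommGroup 𝔻] {d : ℕ}

variable (𝒪 d) in
/-- The scalar matrices of the group elements. -/
def scal (g : 𝔻) : Matrix (Fin d) (Fin d) (MonoidAlgebra 𝒪 𝔻) :=
  Matrix.scalar (Fin d) (MonoidAlgebra.of 𝒪 𝔻 g)

lemma scal_one : scal 𝒪 d (1 : 𝔻) = 1 := by rw [scal, map_one, map_one]

lemma scal_mul (g h : 𝔻) : scal 𝒪 d (g * h) = scal 𝒪 d g * scal 𝒪 d h := by
  rw [scal, map_mul, map_mul]; rfl

lemma scal_comm (g : 𝔻) (M : Matrix (Fin d) (Fin d) (MonoidAlgebra 𝒪 𝔻)) :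
    scal 𝒪 d g * M = M * scal 𝒪 d g := by
  exact Matrix.scalar_commute _ (fun _ => Commute.all _ _) M

variable [IsLocalRing 𝒪] {p : ℕ} [Fact p.Prime]

lemma tnil_scal (hp : (p : 𝒪) ∈ maximalIdeal 𝒪) {g : 𝔻} (hg : ∃ k, g ^ p ^ k = 1) :
    TNil 𝒪 (scal 𝒪 d g - 1) := by
  obtain ⟨k, hk⟩ := hg
  have h1 : ∃ r : MonoidAlgebra 𝒪 𝔻, (MonoidAlgebra.of 𝒪 𝔻 g - 1) ^ p ^ k = (p : MonoidAlgebra 𝒪 𝔻) * r := by
    by_cases htriv : Nontrivial (MonoidAlgebra 𝒪 𝔻 ⧸ Ideal.span {(p : MonoidAlgebra 𝒪 𝔻)})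
    · haveI : CharP (MonoidAlgebra 𝒪 𝔻 ⧸ Ideal.span {(p : MonoidAlgebra 𝒪 𝔻)}) p := by
        refine (CharP.charP_iff_prime_eq_zero (Fact.out : p.Prime)).mpr ?_
        rw [← map_natCast (Ideal.Quotient.mk _)]
        exact Ideal.Quotient.eq_zero_iff_mem.mpr (Ideal.mem_span_singleton_self _)
      have h3 : Ideal.Quotient.mk (Ideal.span {(p : MonoidAlgebra 𝒪 𝔻)})
          ((MonoidAlgebra.of 𝒪 𝔻 g - 1) ^ p ^ k) = 0 := by
        rw [map_pow, map_sub, map_one, sub_pow_char_pow, one_pow, ← map_pow, ← map_pow, hk,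
          map_one, map_one, sub_self]
      rw [Ideal.Quotient.eq_zero_iff_mem, Ideal.mem_span_singleton] at h3
      exact h3
    · rw [not_nontrivial_iff_subsingleton] at htriv
      have h3 : Ideal.Quotient.mk (Ideal.span {(p : MonoidAlgebra 𝒪 𝔻)})
          ((MonoidAlgebra.of 𝒪 𝔻 g - 1) ^ p ^ k) = 0 := Subsingleton.elim _ _
      rw [Ideal.Quotient.eq_zero_iff_mem, Ideal.mem_span_singleton] at h3
      exact h3
  obtain ⟨r, hr⟩ := h1
  refine ⟨p ^ k, ?_⟩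
  have h2 : (scal 𝒪 d g - 1) ^ p ^ k = (p : 𝒪) • Matrix.scalar (Fin d) r := by
    rw [scal, ← map_one (Matrix.scalar (Fin d)), ← map_sub, ← map_pow, hr, map_mul, map_natCast,
      Algebra.smul_def, map_natCast]
  rw [h2]
  exact Submodule.smul_mem_smul hp Submodule.mem_top

end Scal

/-- The maximal ideal is nilpotent modulo the maximal ideal of the base. -/
lemma exists_pow_le_map {𝒪 : Type} [CommRing 𝒪] [IsLocalRing 𝒪] [IsNoetherianRing 𝒪] (S : Type)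
    [CommRing S] [Algebra 𝒪 S] [Module.Finite 𝒪 S] [IsLocalRing S] :
    ∃ n, maximalIdeal S ^ n ≤ (maximalIdeal 𝒪).map (algebraMap 𝒪 S) := by
  have hint : Algebra.IsIntegral 𝒪 S := Algebra.IsIntegral.of_finite 𝒪 S
  have h3 : IsNoetherianRing S := IsNoetherianRing.of_finite 𝒪 S
  set I := (maximalIdeal 𝒪).map (algebraMap 𝒪 S) with hI
  have h4 : maximalIdeal S ≤ I.radical := by
    rw [Ideal.radical_eq_sInf]
    refine le_sInf fun P hP => ?_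
    obtain ⟨hP1, hP2⟩ := hP
    have h5 : P.comap (algebraMap 𝒪 S) = maximalIdeal 𝒪 := by
      have : maximalIdeal 𝒪 ≤ P.comap (algebraMap 𝒪 S) := by
        rw [← Ideal.map_le_iff_le_comap]; exact hP1
      exact ((IsLocalRing.maximalIdeal.isMaximal 𝒪).eq_of_le
        (Ideal.IsPrime.ne_top (Ideal.comap_isPrime _ _)) this).symm
    have h6 : P.IsMaximal := Ideal.isMaximal_of_isIntegral_of_isMaximal_comap (R := 𝒪) P (by
      rw [h5]; infer_instance)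
    rw [IsLocalRing.eq_maximalIdeal h6]
  exact Ideal.exists_pow_le_of_le_radical_of_fg h4 (IsNoetherian.noetherian _)

section Rep

variable {N : ℕ} [NeZero N] {G : Subgroup SL(2, ℤ)} (h1 : Gamma1 N ≤ G) (h0 : G ≤ Gamma0 N)
  {S : Finset ℕ} {p : ℕ}
  {𝒪 : Type} [CommRing 𝒪] [IsLocalRing 𝒪] [IsNoetherianRing 𝒪] [IsAdicComplete (maximalIdeal 𝒪) 𝒪]
  {χ : GQ →* 𝒪ˣ}

/-- **Twisting**. -/
theorem exists_twisted (hp : p.Prime) (hp𝒪 : (p : 𝒪) ∈ maximalIdeal 𝒪) (hχ : IsCyc p χ)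
    (hpS : p ∈ S) (hNS : ∀ q : ℕ, q.Prime → q ∣ N → q ∈ S)
    {𝒯 : Type} [CommRing 𝒯] [IsLocalRing 𝒯] [Algebra 𝒪 𝒯] [Module.Finite 𝒪 𝒯]
    (hp𝒯 : (p : 𝒯) ∈ maximalIdeal 𝒯) (π : TG h1 h0 S →+* 𝒯) (s : GQ →* 𝒯ˣ)
    (hs : ∀ (σ : GQ) (δ : Gamma0 N), cyc N σ = dU N δ →
      (s σ : 𝒯) ^ 2 * π (genT h1 h0 S (Sum.inr δ)) = 1)
    (hs1 : ∀ σ : GQ, cyc N σ = 1 → s σ = 1) :
    ∃ t : GQ → 𝒯, CycPs χ p {q | q ∣ N ∨ q = p} t ∧
      ∀ (l : ℕ) (hl : l.Prime) (hlN : ¬ l ∣ N) (hlS : l ∉ S),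
        ∀ B : ValuationSubring Qb, B.LiesOverPrime l → ∀ σ : GQ, B.IsFrobeniusAt σ l →
          t σ = π (genT h1 h0 S (Sum.inl ⟨l, hl, hlN, hlS⟩)) * s σ := by
  haveI : G.FiniteIndex := Subgroup.finiteIndex_of_le h1
  haveI : IsNoetherianRing 𝒯 := IsNoetherianRing.of_finite 𝒪 𝒯
  haveI : IsAdicComplete (maximalIdeal 𝒯) 𝒯 := isAdicComplete_finite_local (𝒪 := 𝒪) 𝒯
  obtain ⟨t, ε, hps, hfr, hε, -, hct, hun, -⟩ := exists_pseudo_G h1 h0 hp hpS hNS hp𝒯 π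
  have hdet : ∀ σ, (cycT 𝒯 χ σ : 𝒯) = ε σ * s σ ^ 2 := by
    intro σ
    rw [← sub_eq_zero]
    refine eq_zero_of_pow hp𝒯 fun n => ?_
    obtain ⟨k, hk⟩ := act_eq hp n σ
    have e1 := hχ n σ k hk
    have e2 := hε n σ (dLift (cyc N σ)) k (dU_dLift _).symm hk
    have e3 := hs σ (dLift (cyc N σ)) (dU_dLift _).symm
    rw [Ideal.mem_span_singleton] at e1 e2 ⊢
    obtain ⟨c, hc⟩ := e1
    obtain ⟨c', hc'⟩ := e2
    refine ⟨algebraMap 𝒪 𝒯 c - c' * (s σ : 𝒯) ^ 2, ?_⟩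
    have e4 : (cycT 𝒯 χ σ : 𝒯) - k = (p : 𝒯) ^ n * algebraMap 𝒪 𝒯 c := by
      rw [cycT_coe, ← map_natCast (algebraMap 𝒪 𝒯) k, ← map_sub, hc, map_mul, map_pow,
        map_natCast]
    linear_combination e4 - (s σ : 𝒯) ^ 2 * hc' - (k : 𝒯) * e3
  refine ⟨fun σ => t σ * s σ, ⟨⟨?_, fun g h => ?_⟩, fun n => ?_, fun q hq hqB A hA σ hσ g => ?_⟩,
    fun l hl hlN hlS B hB σ hσ => ?_⟩
  · rw [hps.one, map_one, Units.val_one, mul_one]
  · have e1 := hps.mul g h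
    have e2 : (s (g⁻¹ * h) : 𝒯) * s g = s h := by
      rw [map_mul, map_inv, Units.val_mul, mul_comm (((s g)⁻¹ : 𝒯ˣ) : 𝒯), mul_assoc,
        Units.inv_mul, mul_one]
    rw [hdet, map_mul, Units.val_mul]
    linear_combination (s g : 𝒯) * s h * e1 - (ε g : 𝒯) * t (g⁻¹ * h) * s g * e2
  · obtain ⟨L, hL, hL2⟩ := hct n
    obtain ⟨L', hL', hL2'⟩ := cyc_finite N
    haveI := hL
    haveI := hL'
    refine ⟨L ⊔ L', inferInstance, fun σ hσ g => ?_⟩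
    have e1 := (hL2 σ fun x hx => hσ x (le_sup_left (a := L) hx)).1 g
    have e2 := hs1 σ (hL2' σ fun x hx => hσ x (le_sup_right (a := L) hx))
    rw [map_mul, e2, one_mul, ← sub_mul]
    exact Ideal.mul_mem_right _ _ e1
  · rw [Set.mem_ofPred_eq, not_or] at hqB
    have e1 := (hun q hq hqB.1 hqB.2 A hA σ hσ).1 g
    have e2 := hs1 σ (cyc_inertia hA hq hσ hqB.1)
    rw [map_mul, e2, one_mul, e1]
  · change t σ * s σ = _
    rw [hfr l hl hlN hlS B hB σ hσ]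

/-- Lifting a morphism from the Hecke algebra. -/
lemma exists_lift_TG {A 𝒯 : Type} [Ring A] [CommRing 𝒯] (π : TG h1 h0 S →+* A) (I : 𝒯 →+* A)
    (hI : Function.Injective I) (h : ∀ i, ∃ y, I y = π (genT h1 h0 S i)) :
    ∃ P0 : TG h1 h0 S →+* 𝒯, ∀ T, I (P0 T) = π T := by
  have hrange : ∀ T : TG h1 h0 S, ∃ y : 𝒯, I y = π T := by
    intro T
    refine TG_induction h1 h0 S (P := fun T => ∃ y : 𝒯, I y = π T)
      h (fun n => ⟨(n : 𝒯), by rw [map_intCast, map_intCast]⟩)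
      (fun x y hx hy => ?_) (fun x y hx hy => ?_) T
    · obtain ⟨x', hx⟩ := hx
      obtain ⟨y', hy⟩ := hy
      exact ⟨x' + y', by rw [map_add, map_add, hx, hy]⟩
    · obtain ⟨x', hx⟩ := hx
      obtain ⟨y', hy⟩ := hy
      exact ⟨x' * y', by rw [map_mul, map_mul, hx, hy]⟩
  choose F hF using hrange
  exact ⟨{ toFun := F
           map_one' := hI (by rw [hF, map_one, map_one])
           map_mul' := fun x y => hI (by rw [hF, map_mul, map_mul, hF, hF])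
           map_zero' := hI (by rw [hF, map_zero, map_zero])
           map_add' := fun x y => hI (by rw [hF, map_add, map_add, hF, hF]) }, hF⟩

/-- Half of an element of a finite group of odd order. -/
def half {𝔻 : Type} [CommGroup 𝔻] (g : 𝔻) : 𝔻 := g ^ ((Nat.card 𝔻 + 1) / 2)

lemma half_sq {𝔻 : Type} [CommGroup 𝔻] [Finite 𝔻] (hodd : Odd (Nat.card 𝔻)) (g : 𝔻) :
    half g ^ 2 = g := by
  obtain ⟨k, hk⟩ := hodd
  rw [half, ← pow_mul, hk]
  have h2 : (2 * k + 1 + 1) / 2 * 2 = Nat.card 𝔻 + 1 := by rw [hk]; omega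
  rw [h2, pow_succ, pow_card_eq_one', one_mul]

lemma half_one {𝔻 : Type} [CommGroup 𝔻] : half (1 : 𝔻) = 1 := one_pow _

lemma half_mul {𝔻 : Type} [CommGroup 𝔻] (g h : 𝔻) : half (g * h) = half g * half h :=
  mul_pow _ _ _

/-- **The representation over the twisted Hecke algebra.** -/
theorem exists_hecke_rep (hp : p.Prime) (hp𝒪 : (p : 𝒪) ∈ maximalIdeal 𝒪) (hχ : IsCyc p χ)
    (hpS : p ∈ S) (hNS : ∀ q : ℕ, q.Prime → q ∣ N → q ∈ S)
    {𝔻 : Type} [CommGroup 𝔻] [Finite 𝔻] (hodd : Odd (Nat.card 𝔻))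
    (h𝔻 : ∀ g : 𝔻, ∃ k, g ^ p ^ k = 1) (ψ : (ZMod N)ˣ →* 𝔻) (hψ : Function.Surjective ψ)
    {d : ℕ} (hd : 0 < d) (π : TG h1 h0 S →+* Matrix (Fin d) (Fin d) (MonoidAlgebra 𝒪 𝔻))
    (hπ : ∀ δ, π (genT h1 h0 S (Sum.inr δ)) = scal 𝒪 d (ψ (dU N δ))) (a : ℕ → 𝒪)
    (ha : ∀ i : Idx N S, TNil 𝒪 (π (genT h1 h0 S (Sum.inl i)) -
      algebraMap 𝒪 (Matrix (Fin d) (Fin d) (MonoidAlgebra 𝒪 𝔻)) (a i.1))) :
    ∃ (T : Type) (_ : CommRing T) (_ : Algebra 𝒪 T) (_ : Module.Finite 𝒪 T) (_ : IsLocalRing T)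
      (ι : T →ₐ[𝒪] Matrix (Fin d) (Fin d) (MonoidAlgebra 𝒪 𝔻)) (x : Idx N S → T) (t : GQ → T),
      Function.Injective ι ∧ Algebra.adjoin 𝒪 (Set.range x) = ⊤ ∧
      (∀ i, ι (x i) = π (genT h1 h0 S (Sum.inl i)) *
        scal 𝒪 d ((half (ψ (dU N (sigmaD N i.1))))⁻¹)) ∧
      (∀ i, x i - algebraMap 𝒪 T (a i.1) ∈ maximalIdeal T) ∧
      (∀ y : T, ∃ b, y - algebraMap 𝒪 T b ∈ maximalIdeal T) ∧
      (∀ b, algebraMap 𝒪 T b ∈ maximalIdeal T ↔ b ∈ maximalIdeal 𝒪) ∧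
      CycPs χ p {q | q ∣ N ∨ q = p} t ∧
      ∀ i : Idx N S, ∀ B : ValuationSubring Qb, B.LiesOverPrime i.1 → ∀ σ : GQ,
        B.IsFrobeniusAt σ i.1 → t σ = x i := by
  haveI : Fact p.Prime := ⟨hp⟩
  haveI : NeZero d := ⟨hd.ne'⟩
  haveI : Nontrivial (MonoidAlgebra 𝒪 𝔻) := (aug 𝒪 𝔻).toRingHom.domain_nontrivial
  haveI : Nonempty (Fin d) := ⟨⟨0, hd⟩⟩
  haveI : Nontrivial (Matrix (Fin d) (Fin d) (MonoidAlgebra 𝒪 𝔻)) := inferInstance
  haveI : Module.Finite 𝒪 (MonoidAlgebra 𝒪 𝔻) := inferInstance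
  haveI : Module.Finite 𝒪 (Matrix (Fin d) (Fin d) (MonoidAlgebra 𝒪 𝔻)) := inferInstance
  -- the big algebra
  obtain ⟨𝒯, _, _, I, Y, hI, hY, hYgen⟩ := exists_comm_adjoin (R := 𝒪)
    (fun i : Idx N S ⊕ Gamma0 N => π (genT h1 h0 S i)) (fun i j => by
      rw [← map_mul, ← map_mul, mul_comm])
  haveI : Nontrivial 𝒯 := I.toRingHom.domain_nontrivial
  obtain ⟨hfin, hloc, hYm, -, hm𝒯⟩ := isLocalRing_of_gen Y (Sum.elim (fun i => a i.1) fun _ => 1)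
    I hI hYgen (fun i => by
      rw [hY]
      rcases i with i | δ
      · exact ha i
      · change TNil 𝒪 (π (genT h1 h0 S (Sum.inr δ)) - algebraMap 𝒪 _ 1)
        rw [map_one, hπ]
        exact tnil_scal hp𝒪 (h𝔻 _))
  haveI := hfin
  haveI := hloc
  have hp𝒯 : (p : 𝒯) ∈ maximalIdeal 𝒯 := by
    have := (hm𝒯 (p : 𝒪)).mpr hp𝒪
    rwa [map_natCast] at this
  -- the map from the Hecke algebra
  obtain ⟨P0, hP0⟩ := exists_lift_TG h1 h0 π (I : 𝒯 →+* _) hI (fun i => ⟨Y i, hY i⟩)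
  have hP0 : ∀ T, I (P0 T) = π T := hP0
  -- the group elements
  have hsur : ∀ g : 𝔻, ∃ δ : Gamma0 N, ψ (dU N δ) = g := by
    intro g
    obtain ⟨u, hu⟩ := hψ g
    exact ⟨dLift u, by rw [dU_dLift, hu]⟩
  choose δ hδ using hsur
  let sD : 𝔻 →* 𝒯 :=
    { toFun := fun g => Y (Sum.inr (δ g))
      map_one' := hI (by rw [hY, hπ, hδ, scal_one, map_one])
      map_mul' := fun g h => hI (by rw [hY, hπ, hδ, scal_mul, map_mul, hY, hY, hπ, hπ, hδ, hδ]) }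
  have hsD : ∀ g, I (sD g) = scal 𝒪 d g := by
    intro g
    change I (Y (Sum.inr (δ g))) = _
    rw [hY, hπ, hδ]
  have hsDm : ∀ g, sD g - 1 ∈ maximalIdeal 𝒯 := by
    intro g
    have := hYm (Sum.inr (δ g))
    change Y (Sum.inr (δ g)) - algebraMap 𝒪 𝒯 1 ∈ _ at this
    rwa [map_one] at this
  let hm : GQ →* 𝔻 :=
    { toFun := fun σ => (half (ψ (cyc N σ)))⁻¹
      map_one' := by rw [map_one, map_one, half_one, inv_one]
      map_mul' := fun σ τ => by rw [map_mul, map_mul, half_mul, mul_inv] }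
  let s : GQ →* 𝒯ˣ := (sD.comp hm).toHomUnits
  have hs : ∀ σ, (s σ : 𝒯) = sD ((half (ψ (cyc N σ)))⁻¹) := fun σ => rfl
  obtain ⟨t𝒯, ht, htfr⟩ := exists_twisted h1 h0 hp hp𝒪 hχ hpS hNS hp𝒯 P0 s
    (fun σ δ' hδ' => by
      apply hI
      rw [map_mul, map_pow, hs, hsD, hP0, hπ, map_one, sq, ← scal_mul, ← scal_mul, ← hδ', ← sq,
        inv_pow, half_sq hodd, inv_mul_cancel, scal_one])
    (fun σ hσ => by
      apply Units.ext
      rw [hs, hσ, map_one, half_one, inv_one, map_one, Units.val_one])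
  -- the small algebra
  have hx0 : ∀ i : Idx N S, I (P0 (genT h1 h0 S (Sum.inl i)) *
      sD ((half (ψ (dU N (sigmaD N i.1))))⁻¹)) = π (genT h1 h0 S (Sum.inl i)) *
        scal 𝒪 d (half (ψ (dU N (sigmaD N i.1))))⁻¹ := by
    intro i
    rw [map_mul, hP0, hsD]
  obtain ⟨T, _, _, ι, x, hι, hx, hxgen⟩ := exists_comm_adjoin (R := 𝒪)
    (fun i : Idx N S => π (genT h1 h0 S (Sum.inl i)) *
      scal 𝒪 d (half (ψ (dU N (sigmaD N i.1))))⁻¹) (fun i j => by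
      rw [← hx0, ← hx0, ← map_mul, ← map_mul, mul_comm])
  haveI : Nontrivial T := ι.toRingHom.domain_nontrivial
  obtain ⟨n, hn⟩ : ∃ n, maximalIdeal 𝒯 ^ n ≤ (maximalIdeal 𝒪).map (algebraMap 𝒪 𝒯) :=
    exists_pow_le_map 𝒯
  have hmI : ∀ y ∈ (maximalIdeal 𝒪).map (algebraMap 𝒪 𝒯), I y ∈ (maximalIdeal 𝒪) •
      (⊤ : Submodule 𝒪 (Matrix (Fin d) (Fin d) (MonoidAlgebra 𝒪 𝔻))) := by
    intro y hy
    have hy' : y ∈ (maximalIdeal 𝒪) • (⊤ : Submodule 𝒪 𝒯) := by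
      rw [Ideal.smul_top_eq_map]; exact hy
    refine Submodule.smul_induction_on hy' (fun b hb z _ => ?_) (fun z z' hz hz' => ?_)
    · rw [map_smul]
      exact Submodule.smul_mem_smul hb Submodule.mem_top
    · rw [map_add]
      exact Submodule.add_mem _ hz hz'
  obtain ⟨hfinT, hlocT, hxm, hresT, hmT⟩ := isLocalRing_of_gen x (fun i => a i.1)
    ι hι hxgen (fun i => by
      refine ⟨n, ?_⟩
      rw [hx, ← hx0, ← AlgHom.commutes I, ← map_sub, ← map_pow]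
      refine hmI _ (hn (Ideal.pow_mem_pow ?_ n))
      have e1 : P0 (genT h1 h0 S (Sum.inl i)) = Y (Sum.inl i) := hI (by rw [hP0, hY])
      have e2 := hYm (Sum.inl i)
      change Y (Sum.inl i) - algebraMap 𝒪 𝒯 (a i.1) ∈ _ at e2
      have e3 : P0 (genT h1 h0 S (Sum.inl i)) * sD ((half (ψ (dU N (sigmaD N i.1))))⁻¹) -
          algebraMap 𝒪 𝒯 (a i.1) = (Y (Sum.inl i) - algebraMap 𝒪 𝒯 (a i.1)) *
            sD ((half (ψ (dU N (sigmaD N i.1))))⁻¹) + algebraMap 𝒪 𝒯 (a i.1) *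
              (sD ((half (ψ (dU N (sigmaD N i.1))))⁻¹) - 1) := by rw [e1]; ring
      rw [e3]
      exact Ideal.add_mem _ (Ideal.mul_mem_right _ _ e2) (Ideal.mul_mem_left _ _ (hsDm _)))
  haveI := hfinT
  haveI := hlocT
  obtain ⟨j, hj⟩ := exists_adjoin_map ι I hI x hxgen (AlgHom.id 𝒪 _) (fun i =>
    ⟨P0 (genT h1 h0 S (Sum.inl i)) * sD ((half (ψ (dU N (sigmaD N i.1))))⁻¹), by
      rw [AlgHom.id_apply, hx]
      exact hx0 i⟩)
  have hj' : ∀ t, I (j t) = ι t := hj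
  have hjinj : Function.Injective j := fun u v h => hι (by rw [← hj', ← hj', h])
  have hfr2 : ∀ i : Idx N S, ∀ B : ValuationSubring Qb, B.LiesOverPrime i.1 → ∀ σ : GQ,
      B.IsFrobeniusAt σ i.1 → j (x i) = t𝒯 σ := by
    intro i B hB σ hσ
    rw [htfr i.1 i.2.1 i.2.2.1 i.2.2.2 B hB σ hσ]
    apply hI
    rw [hj', hx, ← hx0, hs, cyc_frob_eq i.2.1 i.2.2.1 hB hσ]
    rfl
  obtain ⟨t, htj, htc⟩ := CycPs.descend j hp hp𝒪 hχ hjinj ht S (fun l hl hlS B hB σ hσ =>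
    ⟨x ⟨l, hl, fun h => hlS (hNS l hl h), hlS⟩, hfr2 ⟨l, hl, fun h => hlS (hNS l hl h), hlS⟩ B hB σ hσ⟩)
  exact ⟨T, inferInstance, inferInstance, hfinT, hlocT, ι, x, t, hι, hxgen, hx, hxm, hresT, hmT,
    htc, fun i B hB σ hσ => hjinj (by rw [htj, hfr2 i B hB σ hσ])⟩

end Rep

end Fermat.Agent.RT
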