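import Fermat.Agent.RT.TWUnit
import Fermat.Agent.RT.HeckeRep
import Fermat.Agent.Pet.Semi

set_option autoImplicit false
set_option maxHeartbeats 400000
set_option linter.style.haveILetI false
set_option linter.unusedSectionVars false
set_option linter.unusedVariables false

/-!
# Systems of eigenvalues
-/

open IsLocalRing Module

noncomputable section

namespace Fermat.Agent.RT

section Sys

variable {𝒪 : Type} [CommRing 𝒪] [IsDomain 𝒪] [IsDiscreteValuationRing 𝒪]
  [IsAdicComplete (maximalIdeal 𝒪) 𝒪] [CharZero 𝒪] {D : Type} [CommGroup D] [Finite D] {d : ℕ}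
  {T : Type} [CommRing T] [Algebra 𝒪 T]
  (Φ : T →ₐ[𝒪] Matrix (Fin d) (Fin d) (MonoidAlgebra 𝒪 D))
  {L : Type} [Field L] [IsAlgClosed L] [CharZero L] [Algebra 𝒪 L]

/-- Systems of eigenvalues. -/
def EigSys (ψ : MonoidAlgebra 𝒪 D →ₐ[𝒪] L) (lam : T →ₐ[𝒪] L) : Prop :=
  ∃ v : Fin d → L, v ≠ 0 ∧ ∀ t, Matrix.mulVec ((Φ t).map ψ) v = lam t • v

variable {Φ} {ψ : MonoidAlgebra 𝒪 D →ₐ[𝒪] L}

lemma exists_eigSys_of_fun {v : Fin d → L} {lam : T → L} (hv : v ≠ 0)
    (h : ∀ t, Matrix.mulVec ((Φ t).map ψ) v = lam t • v) :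
    ∃ lam' : T →ₐ[𝒪] L, (∀ t, lam' t = lam t) ∧ EigSys Φ ψ lam' := by
  have huniq : ∀ a b : L, a • v = b • v → a = b := by
    intro a b hab
    have h4 : (a - b) • v = 0 := by rw [sub_smul, hab, sub_self]
    exact sub_eq_zero.mp ((smul_eq_zero.mp h4).resolve_right hv)
  have hadd : ∀ s t, lam (s + t) = lam s + lam t := by
    intro s t
    apply huniq
    rw [← h, map_add, add_smul, ← h, ← h, ← Matrix.add_mulVec]
    congr 1
    ext i j
    rw [Matrix.map_apply, Matrix.add_apply, map_add]; rfl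
  have hmul : ∀ s t, lam (s * t) = lam s * lam t := by
    intro s t
    apply huniq
    have h1 := congrArg (fun g : Module.End L (Fin d → L) => g v) (spAct_mul Φ ψ s t)
    change Matrix.mulVec ((Φ (s * t)).map ψ) v =
      Matrix.mulVec ((Φ s).map ψ) (Matrix.mulVec ((Φ t).map ψ) v) at h1
    rw [← h, h1, h, Matrix.mulVec_smul, h, smul_smul, mul_comm]
  have halg : ∀ c : 𝒪, lam (algebraMap 𝒪 T c) = algebraMap 𝒪 L c := by
    intro c
    apply huniq
    rw [← h, AlgHom.commutes]
    have h1 : (algebraMap 𝒪 (Matrix (Fin d) (Fin d) (MonoidAlgebra 𝒪 D)) c).map ψ =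
        algebraMap 𝒪 L c • (1 : Matrix (Fin d) (Fin d) L) := by
      ext i j
      rw [Matrix.map_apply, Matrix.algebraMap_matrix_apply, Matrix.smul_apply, Matrix.one_apply]
      split_ifs
      · rw [smul_eq_mul, mul_one]
        exact AlgHom.commutes _ _
      · rw [map_zero, smul_zero]
    rw [h1, Matrix.smul_mulVec, Matrix.one_mulVec]
  refine ⟨{ toFun := lam
            map_one' := by have := halg 1; rwa [map_one, map_one] at this
            map_mul' := hmul
            map_zero' := by have := halg 0; rwa [map_zero, map_zero] at this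
            map_add' := hadd
            commutes' := halg }, fun t => rfl, v, hv, h⟩

/-- If the action of `y` is not nilpotent, there is a system of eigenvalues with non zero value
at `y`. -/
theorem exists_eigSys {y : T} (hy : ¬ IsNilpotent (spAct Φ ψ y)) :
    ∃ lam : T →ₐ[𝒪] L, EigSys Φ ψ lam ∧ lam y ≠ 0 := by
  set A := spAct Φ ψ y with hA
  set n := finrank L (Fin d → L) with hn
  obtain ⟨v, hv, hv0, hev⟩ := exists_common_eigenvector (spAct Φ ψ) (spAct_comm Φ ψ) _
    (LinearMap.range (A ^ n)) rfl (fun h => hy ⟨n, LinearMap.range_eq_bot.mp h⟩)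
    (fun s v hv => by
      obtain ⟨u, rfl⟩ := hv
      refine ⟨spAct Φ ψ s u, ?_⟩
      have h2 : Commute (A ^ n) (spAct Φ ψ s) := (spAct_comm Φ ψ y s).pow_left n
      exact congrArg (fun g : Module.End L (Fin d → L) => g u) h2.eq)
  choose lam hlam using hev
  obtain ⟨lam', hlam', hsys⟩ := exists_eigSys_of_fun (Φ := Φ) (ψ := ψ) hv0 hlam
  refine ⟨lam', hsys, fun h0 => hv0 ?_⟩
  have h1 : A v = 0 := by
    rw [hA, hlam, ← hlam', h0, zero_smul]
  obtain ⟨u, rfl⟩ := hv
  have h2 : (A ^ (n + 1)) u = 0 := by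
    rw [pow_succ', Module.End.mul_apply]; exact h1
  have h3 : u ∈ LinearMap.ker (A ^ (n + 1)) := h2
  rw [Module.End.ker_pow_eq_ker_pow_finrank_of_le (Nat.le_succ n)] at h3
  exact h3

variable (hL : Function.Injective (algebraMap 𝒪 L))

include hL in
/-- **Vanishing criterion.** -/
theorem eq_zero_of_eigSys
    (hss : ∀ (ψ : MonoidAlgebra 𝒪 D →ₐ[𝒪] L) (y : T), IsNilpotent ((Φ y).map ψ) → (Φ y).map ψ = 0)
    {y : T} (h : ∀ (ψ : MonoidAlgebra 𝒪 D →ₐ[𝒪] L) (lam : T →ₐ[𝒪] L), EigSys Φ ψ lam →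
      lam y = 0) : Φ y = 0 := by
  ext1 i j
  apply eq_zero_of_forall_char hL
  intro χ
  have h1 : (Φ y).map (MonoidAlgebra.lift 𝒪 L D χ) = 0 := by
    apply hss
    by_contra hne
    have h2 : ¬ IsNilpotent (spAct Φ (MonoidAlgebra.lift 𝒪 L D χ) y) := by
      rintro ⟨n, hn⟩
      apply hne
      refine ⟨n, ?_⟩
      apply (Matrix.toLin' (R := L) (m := Fin d) (n := Fin d)).injective
      rw [map_zero]
      change Matrix.mulVecLin _ = 0
      have h3 : ∀ m : ℕ, Matrix.mulVecLin (((Φ y).map (MonoidAlgebra.lift 𝒪 L D χ)) ^ m) =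
          (spAct Φ (MonoidAlgebra.lift 𝒪 L D χ) y) ^ m := by
        intro m
        induction m with
        | zero => rw [pow_zero, pow_zero, Matrix.mulVecLin_one]; rfl
        | succ m ih => rw [pow_succ, pow_succ, Matrix.mulVecLin_mul, ih]; rfl
      rw [h3, hn]
    obtain ⟨lam, hlam, hne⟩ := exists_eigSys h2
    exact hne (h _ lam hlam)
  exact congrFun (congrFun h1 i) j

end Sys

section SS

variable {𝒪 : Type} [CommRing 𝒪] {D : Type} [CommGroup D] [Finite D] {d : ℕ}
  {T : Type} [CommRing T] [Algebra 𝒪 T]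
  {Φ : T →ₐ[𝒪] Matrix (Fin d) (Fin d) (MonoidAlgebra 𝒪 D)}
  {L : Type} [Field L] [CharZero L] [Algebra 𝒪 L]

/-- **Semisimplicity.** -/
theorem hss_of_sepInt {I : Type} (x : I → T) (hgen : Algebra.adjoin 𝒪 (Set.range x) = ⊤)
    (A : I → Matrix (Fin d) (Fin d) (MonoidAlgebra 𝒪 D)) (c : I → MonoidAlgebra 𝒪 D)
    (hx : ∀ i, Φ (x i) = A i * Matrix.scalar (Fin d) (c i)) (hA : ∀ i, Pet.SepInt (A i))
    (hcomm : ∀ i j, A i * A j = A j * A i) (ψ : MonoidAlgebra 𝒪 D →ₐ[𝒪] L) (y : T)
    (hy : IsNilpotent ((Φ y).map ψ)) : (Φ y).map ψ = 0 := by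
  let F : Matrix (Fin d) (Fin d) (MonoidAlgebra 𝒪 D) →+* Matrix (Fin d) (Fin d) L :=
    (ψ : MonoidAlgebra 𝒪 D →+* L).mapMatrix
  have hmem : ∀ t : T, F (Φ t) ∈ Algebra.adjoin L (Set.range fun i => F (A i)) := by
    intro t
    have ht : t ∈ Algebra.adjoin 𝒪 (Set.range x) := by rw [hgen]; trivial
    induction ht using Algebra.adjoin_induction with
    | mem z hz =>
      obtain ⟨i, rfl⟩ := hz
      have h1 : F (Φ (x i)) = ψ (c i) • F (A i) := by
        rw [hx, map_mul]
        have h2 : F (Matrix.scalar (Fin d) (c i)) = Matrix.scalar (Fin d) (ψ (c i)) := by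
          ext a b
          change ψ (Matrix.scalar (Fin d) (c i) a b) = _
          rw [Matrix.scalar_apply, Matrix.scalar_apply, Matrix.diagonal_apply,
            Matrix.diagonal_apply]
          split_ifs
          · rfl
          · exact map_zero _
        rw [h2, Matrix.scalar_apply, ← Matrix.smul_one_eq_diagonal, mul_smul_comm, mul_one]
      rw [h1]
      exact Subalgebra.smul_mem _ (Algebra.subset_adjoin (Set.mem_range_self i)) _
    | algebraMap r =>
      rw [AlgHom.commutes]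
      have h2 : F (algebraMap 𝒪 _ r) = algebraMap L (Matrix (Fin d) (Fin d) L)
          (algebraMap 𝒪 L r) := by
        ext a b
        change ψ (algebraMap 𝒪 (Matrix (Fin d) (Fin d) (MonoidAlgebra 𝒪 D)) r a b) = _
        rw [Matrix.algebraMap_matrix_apply, Matrix.algebraMap_matrix_apply]
        split_ifs
        · exact AlgHom.commutes _ _
        · exact map_zero _
      rw [h2]
      exact Subalgebra.algebraMap_mem _ _
    | add a b _ _ ha hb =>
      rw [map_add, map_add]
      exact Subalgebra.add_mem _ ha hb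
    | mul a b _ _ ha hb =>
      rw [map_mul, map_mul]
      exact Subalgebra.mul_mem _ ha hb
  obtain ⟨n, hn⟩ := hy
  refine Pet.eq_zero_of_pow_of_mem_adjoin (O := L) (B := Matrix (Fin d) (Fin d) L)
    (s := Set.range fun i => F (A i)) ?_ ?_ (hmem y) hn
  · rintro _ ⟨i, rfl⟩
    exact (hA i).map F
  · rintro _ ⟨i, rfl⟩ _ ⟨j, rfl⟩
    change F (A i) * F (A j) = F (A j) * F (A i)
    rw [← map_mul, ← map_mul, hcomm]

end SS

end Fermat.Agent.RT
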