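import Fermat.Agent.UnivDef.PowerSeriesComplete

set_option autoImplicit false
set_option maxHeartbeats 400000
set_option linter.style.haveILetI false
set_option linter.unusedSectionVars false
set_option linter.unusedVariables false

/-!
# Evaluation of power series in complete rings
-/

open IsLocalRing MvPowerSeries Finsupp

namespace Fermat.Agent.RT

section General

variable {B A : Type*} [CommRing B] [CommRing A] {σ : Type*} [Fintype σ] (I : Ideal A)

omit [Fintype σ] in
lemma eval₂_mem_pow (φ : B →+* A) {a : σ → A} (ha : ∀ i, a i ∈ I) {n : ℕ} {p : MvPolynomial σ B}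
    (hp : p ∈ MvPolynomial.idealOfVars σ B ^ n) : MvPolynomial.eval₂Hom φ a p ∈ I ^ n := by
  have h1 : (MvPolynomial.idealOfVars σ B).map (MvPolynomial.eval₂Hom φ a) ≤ I := by
    rw [MvPolynomial.idealOfVars, Ideal.map_span, Ideal.span_le]
    rintro _ ⟨_, ⟨i, rfl⟩, rfl⟩
    rw [MvPolynomial.coe_eval₂Hom, MvPolynomial.eval₂_X]
    exact ha i
  refine Ideal.pow_right_mono h1 n ?_
  rw [← Ideal.map_pow]
  exact Ideal.mem_map_of_mem _ hp

variable [IsAdicComplete I A]

/-- The truncated evaluation. -/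
noncomputable def evalTrunc (φ : B →+* A) (a : σ → A) (ha : ∀ i, a i ∈ I) (n : ℕ) :
    MvPowerSeries σ B →+* A ⧸ I ^ n :=
  (Ideal.Quotient.lift (MvPolynomial.idealOfVars σ B ^ n)
    ((Ideal.Quotient.mk (I ^ n)).comp (MvPolynomial.eval₂Hom φ a)) (fun _ hp =>
      Ideal.Quotient.eq_zero_iff_mem.mpr (eval₂_mem_pow I φ ha hp))).comp
    (MvPowerSeries.truncTotalAlgHom σ B n : MvPowerSeries σ B →+* _)

omit [IsAdicComplete I A] in
lemma evalTrunc_apply (φ : B →+* A) (a : σ → A) (ha : ∀ i, a i ∈ I) (n : ℕ)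
    (F : MvPowerSeries σ B) : evalTrunc I φ a ha n F =
      Ideal.Quotient.mk (I ^ n) (MvPolynomial.eval₂Hom φ a (MvPowerSeries.truncTotal n F)) := rfl

omit [IsAdicComplete I A] in
lemma evalTrunc_compat (φ : B →+* A) (a : σ → A) (ha : ∀ i, a i ∈ I) {m n : ℕ} (hmn : m ≤ n) :
    (Ideal.Quotient.factorPow I hmn).comp (evalTrunc I φ a ha n) = evalTrunc I φ a ha m := by
  ext F
  rw [RingHom.comp_apply, evalTrunc_apply, evalTrunc_apply, Ideal.Quotient.factorPow,
    Ideal.Quotient.factor_mk, Ideal.Quotient.eq, ← map_sub]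
  exact eval₂_mem_pow I φ ha
    (MvPowerSeries.truncTotal_sub_truncTotal_mem_pow_idealOfVars hmn le_rfl F)

/-- Evaluation of power series at topologically nilpotent elements of a complete ring. -/
noncomputable def evalHom (φ : B →+* A) (a : σ → A) (ha : ∀ i, a i ∈ I) :
    MvPowerSeries σ B →+* A :=
  IsAdicComplete.liftRingHom I (evalTrunc I φ a ha) (evalTrunc_compat I φ a ha)

lemma evalHom_sub_mem (φ : B →+* A) (a : σ → A) (ha : ∀ i, a i ∈ I) (n : ℕ)
    (F : MvPowerSeries σ B) :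
    evalHom I φ a ha F - MvPolynomial.eval₂Hom φ a (MvPowerSeries.truncTotal n F) ∈ I ^ n := by
  rw [← Ideal.Quotient.eq, ← evalTrunc_apply I φ a ha, evalHom,
    IsAdicComplete.mk_liftRingHom I _ (evalTrunc_compat I φ a ha)]

lemma evalHom_coe (φ : B →+* A) (a : σ → A) (ha : ∀ i, a i ∈ I) (p : MvPolynomial σ B) :
    evalHom I φ a ha (p : MvPowerSeries σ B) = MvPolynomial.eval₂Hom φ a p := by
  rw [← sub_eq_zero]
  apply IsHausdorff.haus (I := I) inferInstance
  intro n
  rw [SModEq.zero, smul_eq_mul, Ideal.mul_top]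
  have h1 := evalHom_sub_mem I φ a ha n (p : MvPowerSeries σ B)
  have h2 : MvPolynomial.eval₂Hom φ a (MvPowerSeries.truncTotal n (p : MvPowerSeries σ B)) -
      MvPolynomial.eval₂Hom φ a p ∈ I ^ n := by
    rw [← map_sub]
    refine eval₂_mem_pow I φ ha ?_
    rw [MvPolynomial.mem_pow_idealOfVars_iff']
    intro x hx
    rw [MvPolynomial.coeff_sub, coeff_truncTotal _ hx, MvPolynomial.coeff_coe, sub_self]
  have h3 : evalHom I φ a ha (p : MvPowerSeries σ B) - MvPolynomial.eval₂Hom φ a p =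
    (evalHom I φ a ha (p : MvPowerSeries σ B) -
      MvPolynomial.eval₂Hom φ a (MvPowerSeries.truncTotal n (p : MvPowerSeries σ B))) +
    (MvPolynomial.eval₂Hom φ a (MvPowerSeries.truncTotal n (p : MvPowerSeries σ B)) -
      MvPolynomial.eval₂Hom φ a p) := by ring
  rw [h3]
  exact Ideal.add_mem _ h1 h2

@[simp] lemma evalHom_X (φ : B →+* A) (a : σ → A) (ha : ∀ i, a i ∈ I) (i : σ) :
    evalHom I φ a ha (X i) = a i := by
  rw [← MvPolynomial.coe_X, evalHom_coe, MvPolynomial.coe_eval₂Hom, MvPolynomial.eval₂_X]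

@[simp] lemma evalHom_C (φ : B →+* A) (a : σ → A) (ha : ∀ i, a i ∈ I) (b : B) :
    evalHom I φ a ha (C b) = φ b := by
  rw [← MvPolynomial.coe_C, evalHom_coe, MvPolynomial.coe_eval₂Hom, MvPolynomial.eval₂_C]

end General

section Local

variable {B A : Type*} [CommRing B] [IsLocalRing B] [CommRing A] {σ : Type*} [Fintype σ]
  {I : Ideal A}

/-- Approximation by polynomials modulo powers of the maximal ideal. -/
lemma sub_truncTotal_mem_pow (n : ℕ) (F : MvPowerSeries σ B) :
    F - ((MvPowerSeries.truncTotal n F : MvPolynomial σ B) : MvPowerSeries σ B) ∈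
      maximalIdeal (MvPowerSeries σ B) ^ n := by
  rw [← Fermat.Agent.UnivDef.filt_eq_pow, Fermat.Agent.UnivDef.mem_filt]
  intro e
  rw [map_sub, MvPolynomial.coeff_coe]
  by_cases h : degree e < n
  · rw [coeff_truncTotal _ h, sub_self]
    exact Ideal.zero_mem _
  · have : n - degree e = 0 := by omega
    rw [this, pow_zero, Ideal.one_eq_top]
    exact Submodule.mem_top

/-- Membership in the maximal ideal of a power series ring. -/
lemma mem_maximalIdeal_iff (F : MvPowerSeries σ B) :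
    F ∈ maximalIdeal (MvPowerSeries σ B) ↔ constantCoeff F ∈ maximalIdeal B := by
  rw [mem_maximalIdeal, mem_maximalIdeal, mem_nonunits_iff, mem_nonunits_iff,
    isUnit_iff_constantCoeff]

/-- A ring homomorphism from a power series ring over a local ring which maps the variables and
the maximal ideal of the base into `I` maps the maximal ideal into `I`. -/
lemma map_maximalIdeal_le {ψ : MvPowerSeries σ B →+* A} (hC : ∀ b ∈ maximalIdeal B, ψ (C b) ∈ I)
    (hX : ∀ i, ψ (X i) ∈ I) {F : MvPowerSeries σ B} (hF : F ∈ maximalIdeal (MvPowerSeries σ B)) :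
    ψ F ∈ I := by
  obtain ⟨g, hg, -⟩ := Fermat.Agent.UnivDef.exists_decomp F
  rw [hg, map_add, map_sum]
  refine Ideal.add_mem _ (hC _ ((mem_maximalIdeal_iff F).mp hF)) (Ideal.sum_mem _ fun i _ => ?_)
  rw [map_mul]
  exact Ideal.mul_mem_right _ _ (hX i)

lemma map_pow_mem {ψ : MvPowerSeries σ B →+* A} (hC : ∀ b ∈ maximalIdeal B, ψ (C b) ∈ I)
    (hX : ∀ i, ψ (X i) ∈ I) {n : ℕ} {F : MvPowerSeries σ B}
    (hF : F ∈ maximalIdeal (MvPowerSeries σ B) ^ n) : ψ F ∈ I ^ n := by
  have h1 : (maximalIdeal (MvPowerSeries σ B)).map ψ ≤ I := by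
    rw [Ideal.map_le_iff_le_comap]
    intro F hF
    exact map_maximalIdeal_le hC hX hF
  refine Ideal.pow_right_mono h1 n ?_
  rw [← Ideal.map_pow]
  exact Ideal.mem_map_of_mem _ hF

/-- Uniqueness: two homomorphisms with the same values on constants and variables agree. -/
lemma ringHom_ext_of_hausdorff [IsHausdorff I A] {ψ₁ ψ₂ : MvPowerSeries σ B →+* A}
    (hC₁ : ∀ b ∈ maximalIdeal B, ψ₁ (C b) ∈ I) (hX₁ : ∀ i, ψ₁ (X i) ∈ I)
    (hC : ∀ b, ψ₁ (C b) = ψ₂ (C b)) (hX : ∀ i, ψ₁ (X i) = ψ₂ (X i)) : ψ₁ = ψ₂ := by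
  ext F
  rw [← sub_eq_zero]
  apply IsHausdorff.haus (I := I) inferInstance
  intro n
  rw [SModEq.zero, smul_eq_mul, Ideal.mul_top]
  have hpoly : ∀ p : MvPolynomial σ B, ψ₁ (p : MvPowerSeries σ B) = ψ₂ (p : MvPowerSeries σ B) := by
    intro p
    induction p using MvPolynomial.induction_on with
    | C b => rw [MvPolynomial.coe_C]; exact hC b
    | add p q hp hq => rw [MvPolynomial.coe_add, map_add, map_add, hp, hq]
    | mul_X p i hp => rw [MvPolynomial.coe_mul, MvPolynomial.coe_X, map_mul, map_mul, hp, hX]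
  have h1 := map_pow_mem hC₁ hX₁ (sub_truncTotal_mem_pow n F)
  have h2 := map_pow_mem (ψ := ψ₂) (fun b hb => by rw [← hC]; exact hC₁ b hb)
    (fun i => by rw [← hX]; exact hX₁ i) (sub_truncTotal_mem_pow n F)
  rw [map_sub] at h1 h2
  rw [hpoly] at h1
  have h3 : ψ₁ F - ψ₂ F = (ψ₁ F - ψ₂ ((MvPowerSeries.truncTotal n F : MvPolynomial σ B) :
    MvPowerSeries σ B)) - (ψ₂ F - ψ₂ ((MvPowerSeries.truncTotal n F : MvPolynomial σ B) :
    MvPowerSeries σ B)) := by ring
  rw [h3]
  exact Ideal.sub_mem _ h1 h2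

end Local

end Fermat.Agent.RT
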