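import Fermat.Agent.RT.HPDefs

set_option autoImplicit false
set_option maxHeartbeats 400000
set_option linter.style.haveILetI false
set_option linter.unusedSectionVars false
set_option linter.unusedVariables false

/-!
# The Hecke package: the groups
-/

noncomputable section

namespace Fermat.Agent.RT

section Cyclic

variable {p : ℕ}

lemma mem_zpowers_ofAdd_one {n : ℕ} (x : Multiplicative (ZMod n)) :
    x ∈ Subgroup.zpowers (Multiplicative.ofAdd (1 : ZMod n)) := by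
  obtain ⟨k, hk⟩ := ZMod.intCast_surjective (Multiplicative.toAdd x)
  refine ⟨k, ?_⟩
  change Multiplicative.ofAdd (1 : ZMod n) ^ k = x
  rw [← ofAdd_zsmul, zsmul_one, hk, ofAdd_toAdd]

lemma orderOf_ofAdd_one (n : ℕ) : orderOf (Multiplicative.ofAdd (1 : ZMod n)) = n := by
  rw [orderOf_ofAdd_eq_addOrderOf, ZMod.addOrderOf_one]

/-- The quotient of order `p ^ e` of `(ℤ/q)ˣ`. -/
theorem exists_cyc_quot {q e : ℕ} (hq : q.Prime) (h : p ^ e ∣ q - 1) (γ : (ZMod q)ˣ)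
    (hγ : ∀ x, x ∈ Subgroup.zpowers γ) :
    ∃ ψ : (ZMod q)ˣ →* Multiplicative (ZMod (p ^ e)), Function.Surjective ψ ∧
      ψ γ = Multiplicative.ofAdd 1 := by
  haveI : Fact q.Prime := ⟨hq⟩
  have h1 : orderOf (Multiplicative.ofAdd (1 : ZMod (p ^ e))) ∣ orderOf γ := by
    rw [orderOf_ofAdd_one, orderOf_eq_card_of_forall_mem_zpowers hγ, Nat.card_eq_fintype_card,
      ZMod.card_units]
    exact h
  refine ⟨monoidHomOfForallMemZpowers hγ h1, fun x => ?_,
    monoidHomOfForallMemZpowers_apply_gen hγ h1⟩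
  obtain ⟨k, hk⟩ := mem_zpowers_ofAdd_one x
  refine ⟨γ ^ k, ?_⟩
  rw [map_zpow, monoidHomOfForallMemZpowers_apply_gen]
  exact hk

/-- A generator. -/
theorem exists_units_gen {q : ℕ} (hq : q.Prime) : ∃ γ : (ZMod q)ˣ, ∀ x, x ∈ Subgroup.zpowers γ := by
  haveI : Fact q.Prime := ⟨hq⟩
  exact IsCyclic.exists_generator

lemma exists_hom_of_pow {n : ℕ} (hn : n ≠ 0) {B : Type} [CommRing B] (u : B) (hu : u ^ n = 1) :
    ∃ φ : Multiplicative (ZMod n) →* B, φ (Multiplicative.ofAdd 1) = u := by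
  let v : Bˣ := Units.ofPowEqOne u n hu hn
  have hv : orderOf v ∣ orderOf (Multiplicative.ofAdd (1 : ZMod n)) := by
    rw [orderOf_ofAdd_one]
    exact orderOf_dvd_of_pow_eq_one (Units.pow_ofPowEqOne hu hn)
  refine ⟨(Units.coeHom B).comp (monoidHomOfForallMemZpowers mem_zpowers_ofAdd_one hv), ?_⟩
  rw [MonoidHom.comp_apply, monoidHomOfForallMemZpowers_apply_gen]
  rfl

/-- The product of the cyclic groups. -/
def genPi (p : ℕ) (hp : p ≠ 0) {r : ℕ} (e : Fin r → ℕ) :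
    GenGroup p r (∀ i : Fin r, Multiplicative (ZMod (p ^ e i))) where
  δ i := Pi.mulSingle i (Multiplicative.ofAdd 1)
  m := e
  pow i := by
    rw [← Pi.mulSingle_pow, ← ofAdd_nsmul, nsmul_one, ZMod.natCast_self, ofAdd_zero,
      Pi.mulSingle_one]
  gen := by
    rw [eq_top_iff]
    intro x _
    rw [← Finset.univ_prod_mulSingle x]
    refine Subgroup.prod_mem _ fun i _ => ?_
    obtain ⟨k, hk⟩ := mem_zpowers_ofAdd_one (x i)
    have hk : (Multiplicative.ofAdd (1 : ZMod (p ^ e i))) ^ k = x i := hk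
    rw [← hk, Pi.mulSingle_zpow]
    exact Subgroup.zpow_mem _ (Subgroup.subset_closure (Set.mem_range_self i)) k
  lift B _ u hu := by
    choose φ hφ using fun i => exists_hom_of_pow (pow_ne_zero (e i) hp) (u i) (hu i)
    refine ⟨∏ i, (φ i).comp (Pi.evalMonoidHom _ i), fun i => ?_⟩
    rw [MonoidHom.finsetProd_apply, Finset.prod_eq_single i]
    · rw [MonoidHom.comp_apply, Pi.evalMonoidHom_apply, Pi.mulSingle_eq_same, hφ]
    · intro j _ hj
      rw [MonoidHom.comp_apply, Pi.evalMonoidHom_apply, Pi.mulSingle_eq_of_ne hj, map_one]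
    · intro h
      exact absurd (Finset.mem_univ i) h

end Cyclic

section Grp

variable {N q₀ p r M : ℕ} {q : Fin r → ℕ} {e : Fin r → ℕ}

lemma isPGroup_DG [hp : Fact p.Prime] : IsPGroup p (DG p e) := by
  intro g
  have h1 : ∀ (n : ℕ) (x : Multiplicative (ZMod (p ^ n))) (m : ℕ), n ≤ m → x ^ p ^ m = 1 := by
    intro n x m hm
    obtain ⟨c, rfl⟩ := Nat.exists_eq_add_of_le hm
    have : x ^ p ^ n = 1 := by
      rw [← ofAdd_toAdd x, ← ofAdd_nsmul, nsmul_eq_mul, ZMod.natCast_self, zero_mul, ofAdd_zero]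
    rw [pow_add, pow_mul, this, one_pow]
  refine ⟨1 + ∑ i, e i, Prod.ext ?_ ?_⟩
  · rw [Prod.pow_fst, pow_add, pow_one, pow_mul]
    have : g.1 ^ p = 1 := by
      rw [← ofAdd_toAdd g.1, ← ofAdd_nsmul, nsmul_eq_mul, ZMod.natCast_self, zero_mul, ofAdd_zero]
    rw [this, one_pow, Prod.fst_one]
  · funext i
    rw [Prod.pow_snd, Pi.pow_apply]
    exact h1 (e i) _ _ ((Finset.single_le_sum (fun j _ => Nat.zero_le (e j))
      (Finset.mem_univ i)).trans (Nat.le_add_left _ _))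

instance finite_DG [hp : Fact p.Prime] : Finite (DG p e) := by
  have : ∀ i, NeZero (p ^ e i) := fun i => ⟨pow_ne_zero _ hp.out.ne_zero⟩
  have : ∀ i, Finite (Multiplicative (ZMod (p ^ e i))) := fun i => inferInstance
  infer_instance

lemma odd_card_DG [hp : Fact p.Prime] (hp2 : p ≠ 2) : Odd (Nat.card (DG p e)) := by
  obtain ⟨n, hn⟩ := IsPGroup.iff_card.mp (isPGroup_DG (p := p) (e := e))
  rw [hn]
  exact (hp.out.odd_of_ne_two hp2).pow

lemma exists_pow_DG [hp : Fact p.Prime] (g : DG p e) : ∃ k, g ^ p ^ k = 1 :=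
  isPGroup_DG g

variable (h₀ : q₀ ∣ N) (h₁ : ∀ i, q i ∣ N) (ψ₀ : (ZMod q₀)ˣ →* Multiplicative (ZMod p))
    (ψ₁ : ∀ i, (ZMod (q i))ˣ →* Multiplicative (ZMod (p ^ e i)))

lemma psiN_fst (u : (ZMod N)ˣ) : (psiN h₀ h₁ ψ₀ ψ₁ u).1 = ψ₀ (ZMod.unitsMap h₀ u) := rfl

lemma psiN_snd (u : (ZMod N)ˣ) (i : Fin r) :
    (psiN h₀ h₁ ψ₀ ψ₁ u).2 i = ψ₁ i (ZMod.unitsMap (h₁ i) u) := rfl

lemma psiN_eq_one {D₁ : ℕ} (h : D₁ ∣ N) (h₀' : q₀ ∣ D₁) (h₁' : ∀ i, q i ∣ D₁) {u : (ZMod N)ˣ}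
    (hu : ZMod.unitsMap h u = 1) : psiN h₀ h₁ ψ₀ ψ₁ u = 1 := by
  have h2 : ∀ {m : ℕ} (hm : m ∣ D₁) (hm' : m ∣ N), ZMod.unitsMap hm' u = 1 := by
    intro m hm hm'
    have := congrFun (congrArg DFunLike.coe (ZMod.unitsMap_comp hm h)) u
    rw [← this, MonoidHom.comp_apply, hu, map_one]
  refine Prod.ext ?_ ?_
  · rw [psiN_fst, h2 h₀', map_one]; rfl
  · funext i
    rw [psiN_snd, h2 (h₁' i), map_one]; rfl

/-- CRT for units -/
lemma exists_unit_of_pairwise [NeZero N] {ι : Type} [Fintype ι] {m : ι → ℕ} (hm : ∀ i, m i ∣ N)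
    (hco : Pairwise fun i j => (m i).Coprime (m j)) (u : ∀ i, (ZMod (m i))ˣ) :
    ∃ v : (ZMod N)ˣ, ∀ i, ZMod.unitsMap (hm i) v = u i := by
  classical
  have hm0 : ∀ i, NeZero (m i) := fun i => ⟨fun h => NeZero.ne N (by
    have := hm i
    rw [h, zero_dvd_iff] at this
    exact this)⟩
  obtain ⟨k, hk⟩ := Nat.chineseRemainderOfFinset (fun i => ((u i : (ZMod (m i))ˣ) : ZMod (m i)).val) m
    Finset.univ (fun i _ => NeZero.ne (m i)) (fun i _ j _ hij => hco hij)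
  have hk' : ∀ i, (k : ZMod (m i)) = u i := by
    intro i
    have h1 := hk i (Finset.mem_univ i)
    rw [← ZMod.natCast_eq_natCast_iff, ZMod.natCast_zmod_val] at h1
    exact h1
  have hP : ∏ i, m i ∣ N :=
    Fintype.prod_dvd_of_isRelPrime (fun i j hij => Nat.coprime_iff_isRelPrime.mp (hco hij)) hm
  have hkc : Nat.Coprime k (∏ i, m i) := by
    refine Nat.Coprime.prod_right fun i _ => ?_
    rw [← ZMod.isUnit_iff_coprime, hk' i]
    exact (u i).isUnit
  haveI : NeZero (∏ i, m i) := ⟨Finset.prod_ne_zero_iff.mpr fun i _ => NeZero.ne (m i)⟩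
  obtain ⟨v, hv⟩ := ZMod.unitsMap_surjective hP (ZMod.unitOfCoprime k hkc)
  refine ⟨v, fun i => ?_⟩
  have h2 := congrFun (congrArg DFunLike.coe (ZMod.unitsMap_comp
    (Finset.dvd_prod_of_mem m (Finset.mem_univ i)) hP)) v
  rw [← h2, MonoidHom.comp_apply, hv]
  apply Units.ext
  rw [ZMod.unitsMap_val, ZMod.coe_unitOfCoprime, ZMod.cast_natCast
    (Finset.dvd_prod_of_mem m (Finset.mem_univ i)), hk' i]

theorem psiN_surjective [NeZero N] (hq₀ : q₀.Prime) (hq : ∀ i, (q i).Prime)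
    (hinj : Function.Injective q) (hne : ∀ i, q i ≠ q₀) (hψ₀ : Function.Surjective ψ₀)
    (hψ₁ : ∀ i, Function.Surjective (ψ₁ i)) : Function.Surjective (psiN h₀ h₁ ψ₀ ψ₁) := by
  rintro ⟨x₀, x⟩
  obtain ⟨u₀, rfl⟩ := hψ₀ x₀
  choose u hu using fun i => hψ₁ i (x i)
  let m : Option (Fin r) → ℕ := fun o => o.elim q₀ q
  have hm : ∀ o, m o ∣ N := by
    rintro (_ | i)
    · exact h₀
    · exact h₁ i
  have hco : Pairwise fun i j => (m i).Coprime (m j) := by
    rintro (_ | i) (_ | j) hij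
    · exact absurd rfl hij
    · exact (Nat.coprime_primes hq₀ (hq j)).mpr (hne j).symm
    · exact (Nat.coprime_primes (hq i) hq₀).mpr (hne i)
    · refine (Nat.coprime_primes (hq i) (hq j)).mpr fun h => hij ?_
      rw [hinj h]
  let w : ∀ o, (ZMod (m o))ˣ := fun o => match o with
    | none => u₀
    | some i => u i
  obtain ⟨v, hv⟩ := exists_unit_of_pairwise hm hco w
  refine ⟨v, Prod.ext ?_ ?_⟩
  · rw [psiN_fst]
    exact congrArg ψ₀ (hv none)
  · funext i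
    rw [psiN_snd]
    exact (congrArg (ψ₁ i) (hv (some i))).trans (hu i)

end Grp

end Fermat.Agent.RT
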