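import Fermat.Agent.RT.PointLoc2
import Fermat.Agent.RT.ResRep
import Fermat.Prelude.Def_CuspForm_HeckeGaloisRepDatum
import Fermat.Prelude.Def_CuspForm_Newforms
import Fermat.Prelude.Def_GaloisRep_LocalConditions
import Fermat.Prelude.Def_GaloisRep_Residual

set_option autoImplicit false
set_option maxHeartbeats 400000
set_option linter.style.haveILetI false
set_option linter.unusedSectionVars false
set_option linter.unusedVariables false

/-!
# Local properties at the points of the twisted Hecke algebra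
-/

open IsLocalRing CongruenceSubgroup Matrix.SpecialLinearGroup ModularFormClass
open scoped MatrixGroups
open Fermat.Agent.ESCore Fermat.Agent.ESCore.UnivG Fermat.Agent.UnivDef
open Fermat.Agent.ESCore.Univ (Idx)
open Fermat.Agent.ESCore.Gal (dU dLift dU_dLift dU_coe)

noncomputable section

namespace Fermat.Agent.RT

open Polynomial in
/-- The statement of the theorem of Carayol (S36). -/
def S36P : Prop :=
  ∀ {M : ℕ} [NeZero M] {g : CuspForm (CongruenceSubgroup.Gamma0 M) 2} (_ : g.IsNewform)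
    (lam : ℕ) [Fact lam.Prime]
    (S : Finset ℕ)
    (O' : Type) [CommRing O'] [IsDomain O'] [IsDiscreteValuationRing O']
    [IsAdicComplete (IsLocalRing.maximalIdeal O') O'] [Finite (IsLocalRing.ResidueField O')]
    [CharZero O'] (_ : (lam : O') ∈ IsLocalRing.maximalIdeal O')
    (_ : lam ≠ 2)
    (chig : CuspForm.heckeAlgebra M 2 (↑S : Set ℕ) →+* ℂ)
    (_ : ∀ (ℓ : ℕ) (hℓ : ℓ.Prime) (hℓM : ¬ ℓ ∣ M) (hℓS : ℓ ∉ (↑S : Set ℕ)),
      chig (CuspForm.heckeAlgebra.T hℓ hℓM hℓS) = ModularFormClass.qCoeff g ℓ)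
    (iota : chig.range →+* O')
    (_ : lam ∈ S) (_ : ∀ q : ℕ, q.Prime → q ∣ M → q ∈ S)
    (_ : ∀ (O'' : Type) [CommRing O''] [IsDomain O''] [IsDiscreteValuationRing O'']
      [IsAdicComplete (IsLocalRing.maximalIdeal O'') O''] [Finite (IsLocalRing.ResidueField O'')] [CharZero O'']
      [Algebra O' O''] [Module.Finite O' O''] [IsLocalHom (algebraMap O' O'')],
      Function.Injective (algebraMap O' O'') → ∀ (ρ : GaloisRepAdic O''),
      (∀ (ℓ : ℕ) (hℓ : ℓ.Prime) (hℓlam : ℓ ≠ lam) (hℓM : ¬ ℓ ∣ M) (hℓS : ℓ ∉ (↑S : Set ℕ)),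
        ∀ A : ValuationSubring (AlgebraicClosure ℚ), A.LiesOverPrime ℓ →
          ∀ σ : AlgebraicClosure ℚ ≃ₐ[ℚ] AlgebraicClosure ℚ, A.IsFrobeniusAt σ ℓ →
            LinearMap.charpoly (ρ.ρ σ) =
              X ^ 2 - C (algebraMap O' O'' ((iota.comp chig.rangeRestrict) (CuspForm.heckeAlgebra.T hℓ hℓM hℓS))) * X
                + C ((ℓ : O'')))
      → ρ.residual.IsAbsolutelyIrreducible ∧ ρ.residual.IsOdd),
    ∃ (O'' : Type) (_ : CommRing O'') (_ : IsDomain O'') (_ : IsDiscreteValuationRing O'')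
      (_ : IsAdicComplete (IsLocalRing.maximalIdeal O'') O'') (_ : Finite (IsLocalRing.ResidueField O''))
      (_ : CharZero O'') (_ : Algebra O' O'') (_ : Module.Finite O' O'') (_ : IsLocalHom (algebraMap O' O'')),
      Function.Injective (algebraMap O' O'') ∧
      ∃ ρ : GaloisRepAdic O'',
        (∀ (ℓ : ℕ) (hℓ : ℓ.Prime) (hℓM : ¬ ℓ ∣ M) (hℓS : ℓ ∉ (↑S : Set ℕ)),
          ∀ A : ValuationSubring (AlgebraicClosure ℚ), A.LiesOverPrime ℓ →
            ∀ σ : AlgebraicClosure ℚ ≃ₐ[ℚ] AlgebraicClosure ℚ, A.IsFrobeniusAt σ ℓ →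
              LinearMap.charpoly (ρ.ρ σ) =
                X ^ 2 - C (algebraMap O' O'' ((iota.comp chig.rangeRestrict) (CuspForm.heckeAlgebra.T hℓ hℓM hℓS))) * X
                  + C ((ℓ : O''))) ∧
        (∀ q : ℕ, q.Prime → q ≠ lam → M.factorization q = 2 → ¬ ρ.IsUnipotentOnInertiaAt q)

/-- Unipotence from the trace. -/
lemma charpoly_eq_of_trace {R V : Type} [CommRing R] [Nontrivial R] [AddCommGroup V] [Module R V]
    (b : Module.Basis (Fin 2) R V) (f : Module.End R V)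
    (h1 : (LinearMap.toMatrix b b f).trace = 2) (h2 : (LinearMap.toMatrix b b f).det = 1)
    [Module.Free R V] [Module.Finite R V] :
    LinearMap.charpoly f = (Polynomial.X - 1) ^ 2 := by
  rw [← LinearMap.charpoly_toMatrix f b, Matrix.charpoly_fin_two, h1, h2]
  simp only [map_ofNat, map_one]
  ring

section Local

variable {N : ℕ} [NeZero N] {G : Subgroup SL(2, ℤ)} (h1 : Gamma1 N ≤ G) (h0 : G ≤ Gamma0 N)
  {S : Finset ℕ} {𝒪 : Type} [CommRing 𝒪] [IsDomain 𝒪] [IsDiscreteValuationRing 𝒪]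
  [IsAdicComplete (maximalIdeal 𝒪) 𝒪] [Finite (ResidueField 𝒪)] [CharZero 𝒪]
  {𝔻 : Type} [CommGroup 𝔻] [Finite 𝔻] {d : ℕ}
  {ψ : (ZMod N)ˣ →* 𝔻} {π : TG h1 h0 S →+* Matrix (Fin d) (Fin d) (MonoidAlgebra 𝒪 𝔻)}
  (hπ : ∀ δ, π (genT h1 h0 S (Sum.inr δ)) = scal 𝒪 d (ψ (dU N δ)))
  {T : Type} [CommRing T] [Algebra 𝒪 T] [Module.Finite 𝒪 T] [IsLocalRing T]
  {ι : T →ₐ[𝒪] Matrix (Fin d) (Fin d) (MonoidAlgebra 𝒪 𝔻)}
  {x : Idx N S → T}
  (hx : ∀ i, ι (x i) = π (genT h1 h0 S (Sum.inl i)) *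
        scal 𝒪 d ((half (ψ (dU N (sigmaD N i.1))))⁻¹))
  {L : Type} [Field L] [CharZero L] [Algebra 𝒪 L] (hL : Function.Injective (algebraMap 𝒪 L))
  {ψh : MonoidAlgebra 𝒪 𝔻 →ₐ[𝒪] L} {lam : T →ₐ[𝒪] L}
  {a : ℕ → 𝒪} (hxm : ∀ i, x i - algebraMap 𝒪 T (a i.1) ∈ maximalIdeal T)
  {χ : GQ →* 𝒪ˣ} {p : ℕ} (hp : p.Prime) (hp2 : p ≠ 2) (hp𝒪 : (p : 𝒪) ∈ maximalIdeal 𝒪)
  (hχ : IsCyc p χ) (hpS : p ∈ S) (hNS : ∀ q : ℕ, q.Prime → q ∣ N → q ∈ S)
  {t : GQ → T} {B : Set ℕ} (ht : CycPs χ p B t)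
  (hfr : ∀ i : Idx N S, ∀ A : ValuationSubring Qb, A.LiesOverPrime i.1 → ∀ σ : GQ,
        A.IsFrobeniusAt σ i.1 → t σ = x i)
  (b : PsB 𝒪 χ) (hg : b.Good t)

include hπ hx hL hxm hp hp2 hp𝒪 hχ hpS hNS ht hfr hg in
/-- **The local behaviour at the points.** -/
theorem EigSys.local (h36 : S36P) (h : EigSys ι ψh lam) {N₁ D₁ : ℕ} (hN : N = N₁ * D₁)
    (hcop : N₁.Coprime D₁) (hsq : Squarefree D₁) (hd₁ : D₁ ∣ N) (hodd : Odd (Nat.card 𝔻))
    (hψ1 : ∀ u : (ZMod N)ˣ, ZMod.unitsMap hd₁ u = 1 → ψ u = 1)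
    (i₀ : Idx N S) (hi₀ : N ∣ i₀.1 - 1) (ha₀ : IsUnit (a i₀.1 - (i₀.1 + 1))) :
    (∀ q : ℕ, q.Prime → q ≠ p → ¬ q ∣ D₁ → N.factorization q ≤ 1 →
      ∀ A : ValuationSubring Qb, A.LiesOverPrime q → ∀ σ ∈ A.inertiaSubgroupIn ℚ,
        lam (t σ) = 2) ∧
    (∀ q : ℕ, q.Prime → q ≠ p → q ∣ D₁ → (∀ (u : (ZMod N)ˣ) (y : ℕ), (u : ZMod N) = y →
          y ≡ 1 [MOD (N / q)] → ψh (MonoidAlgebra.of 𝒪 𝔻 (ψ u)) = 1) →
      ∀ A : ValuationSubring Qb, A.LiesOverPrime q → ∀ σ ∈ A.inertiaSubgroupIn ℚ,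
        lam (t σ) = 2) ∧
    (∀ q : ℕ, q.Prime → q ≠ p → q ∣ D₁ → (∃ (u : (ZMod N)ˣ) (y : ℕ), (u : ZMod N) = y ∧
          y ≡ 1 [MOD (N / q)] ∧ ψh (MonoidAlgebra.of 𝒪 𝔻 (ψ u)) ≠ 1) →
      ∃ A : ValuationSubring Qb, A.LiesOverPrime q ∧ ∃ σ ∈ A.inertiaSubgroupIn ℚ,
        lam (t σ) ≠ 2) := by
  obtain ⟨K, f, E, hK0, hf, hz, hKle, hK1, hK2⟩ := EigSys.exists_newform h1 h0 hπ hx hxm h hN
    hcop hsq hd₁ hodd hψ1 i₀ hi₀ ha₀
  haveI : NeZero K := ⟨hK0⟩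
  have hKS : ∀ q : ℕ, q.Prime → q ∣ K → q ∈ S := by
    intro q hq hqK
    by_cases hqD : q ∣ D₁
    · exact hNS q hq (hqD.trans hd₁)
    · have e1 : 1 ≤ K.factorization q :=
        (hq.dvd_iff_one_le_factorization hK0).mp hqK
      exact hNS q hq ((hq.dvd_iff_one_le_factorization (NeZero.ne N)).mpr
        (e1.trans (hKle q hq hqD)))
  obtain ⟨O', _, _, _, _, _, _, _, _, _, hinj, f', hf'⟩ := exists_dvr_of_point hL lam
  have hpO : (p : O') ∈ maximalIdeal O' := by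
    rw [← map_natCast (algebraMap 𝒪 O')]
    exact map_nonunit (algebraMap 𝒪 O') _ hp𝒪
  let μ : T →ₐ[𝒪] O' := f'.comp lam.rangeRestrict
  have hμ : ∀ y z : T, μ y = μ z → lam y = lam z := by
    intro y z hyz
    exact congrArg Subtype.val (hf' hyz)
  have hidx : ∀ l : ℕ, l.Prime → l ∉ S → ¬ l ∣ N := fun l hl hlS hlN => hlS (hNS l hl hlN)
  obtain ⟨iota, hiota⟩ := exists_iota hf.1 hKS lam.range.toSubring (f' : lam.range →+* O') E
    (fun l hl hlS => by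
      obtain ⟨z, hz1, hz2⟩ := hz ⟨l, hl, hidx l hl hlS, hlS⟩
      exact ⟨z, by rw [hz1]; exact ⟨_, rfl⟩, hz2⟩)
  have hiota' : ∀ (l : ℕ) (hl : l.Prime) (hlK : ¬ l ∣ K) (hlS : l ∉ (↑S : Set ℕ)),
      iota ((eigenHomC hf.1 (↑S : Set ℕ)).rangeRestrict (CuspForm.heckeAlgebra.T hl hlK hlS)) =
        μ (x ⟨l, hl, hidx l hl hlS, hlS⟩) := by
    intro l hl hlK hlS
    obtain ⟨z, hz1, hz2⟩ := hz ⟨l, hl, hidx l hl hlS, hlS⟩
    rw [hiota l hl hlK hlS z (by rw [hz1]; exact ⟨_, rfl⟩) hz2]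
    change f' _ = f' _
    congr 1
    exact Subtype.ext hz1
  have hdO : ∀ (d : ℕ) (x : O'), d ≠ 0 → d * x = 0 → x = 0 := fun d x hd hx =>
    (mul_eq_zero.mp hx).resolve_left (Nat.cast_ne_zero.mpr hd)
  obtain ⟨t', ht', hfr', hun'⟩ := exists_cycPs_full (O := O') hp hp𝒪 hχ hpS hKS hpO hdO
    (iota.comp (eigenHomC hf.1 (↑S : Set ℕ)).rangeRestrict)
  have htt : t' = fun σ => μ (t σ) := by
    refine ht'.ext (fun y hy => eq_zero_of_pow hpO hy) (ht.map μ) S ?_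
    intro l hl hlS A hA σ hσ
    have hlK : ¬ l ∣ K := fun hlK => hlS (hKS l hl hlK)
    rw [hfr' l hl hlK hlS A hA σ hσ, RingHom.comp_apply, hiota' l hl hlK hlS,
      hfr ⟨l, hl, hidx l hl hlS, hlS⟩ A hA σ hσ]
  have hfac : ∀ q : ℕ, q.Prime → K.factorization q ≤ 1 → ¬ q ^ 2 ∣ K := by
    intro q hq hle hq2
    have := (hq.pow_dvd_iff_le_factorization hK0).mp hq2
    omega
  have key : ∀ q : ℕ, q.Prime → q ≠ p → K.factorization q ≤ 1 →
      ∀ A : ValuationSubring Qb, A.LiesOverPrime q → ∀ σ ∈ A.inertiaSubgroupIn ℚ,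
        lam (t σ) = 2 := by
    intro q hq hqp hle A hA σ hσ
    have e1 := hun' q hq hqp (hfac q hq hle) A hA σ hσ
    rw [htt] at e1
    have e2 : lam (t σ) = lam 2 := hμ _ _ (by rw [map_ofNat]; exact e1)
    rw [e2, map_ofNat]
  refine ⟨fun q hq hqp hqD hle => key q hq hqp ((hKle q hq hqD).trans hle),
    fun q hq hqp hqD hu => key q hq hqp ?_, fun q hq hqp hqD hu => ?_⟩
  · rcases hK1 q hq hqD with h3 | ⟨u, y, hu1, hu2, hu3⟩
    · exact h3
    · exact absurd (hu u y hu1 hu2) hu3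
  · by_contra hcon
    push Not at hcon
    haveI : Fact p.Prime := ⟨hp⟩
    -- the Frobenius condition
    have hcp : ∀ (O'' : Type) [CommRing O''] [IsDomain O''] [IsDiscreteValuationRing O'']
        [IsAdicComplete (maximalIdeal O'') O''] [CharZero O''] [Algebra O' O'']
        [IsLocalHom (algebraMap O' O'')] (ρ : GaloisRepAdic O''),
        (∀ (ℓ : ℕ) (hℓ : ℓ.Prime) (hℓlam : ℓ ≠ p) (hℓM : ¬ ℓ ∣ K) (hℓS : ℓ ∉ (↑S : Set ℕ)),
          ∀ A : ValuationSubring Qb, A.LiesOverPrime ℓ → ∀ σ : GQ, A.IsFrobeniusAt σ ℓ →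
            LinearMap.charpoly (ρ.ρ σ) = Polynomial.X ^ 2 - Polynomial.C (algebraMap O' O''
              ((iota.comp (eigenHomC hf.1 (↑S : Set ℕ)).rangeRestrict)
                (CuspForm.heckeAlgebra.T hℓ hℓM hℓS))) * Polynomial.X
                + Polynomial.C ((ℓ : O''))) →
        ρ.residual.IsAbsolutelyIrreducible ∧ ρ.residual.IsOdd ∧
        ∃ β : Module.Basis (Fin 2) O'' ρ.V, ∀ σ, (matOf ρ β σ).trace = algebraMap O' O'' (t' σ) ∧
          (matOf ρ β σ).det = algebraMap O' O'' (algebraMap 𝒪 O' (χ σ)) := by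
      intro O'' _ _ _ _ _ _ _ ρ hρ
      letI : Algebra 𝒪 O'' := ((algebraMap O' O'').comp (algebraMap 𝒪 O')).toAlgebra
      let g' : O' →ₐ[𝒪] O'' := { algebraMap O' O'' with commutes' := fun _ => rfl }
      have hg' : ∀ y, g' y = algebraMap O' O'' y := fun _ => rfl
      have hpO'' : (p : O'') ∈ maximalIdeal O'' := by
        rw [← map_natCast (algebraMap O' O'')]
        exact map_nonunit (algebraMap O' O'') _ hpO
      have ht'' := ht'.map g'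
      obtain ⟨β⟩ := GaloisRepAdic.exists_basis ρ
      have h20 : ∀ y : O'', 2 * y = 0 → y = 0 := fun y hy =>
        (mul_eq_zero.mp hy).resolve_left two_ne_zero
      have htd := ht''.trace_det hp hpO'' hp𝒪 hχ h20 ρ (insert p S) (by
        intro l hl hlS A hA σ hσ
        rw [Finset.mem_insert, not_or] at hlS
        have hlK : ¬ l ∣ K := fun hlK => hlS.2 (hKS l hl hlK)
        rw [hρ l hl hlS.1 hlK hlS.2 A hA σ hσ, hg', hfr' l hl hlK hlS.2 A hA σ hσ]) β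
      have hgood : b.Good (fun σ => g' (t' σ)) := by
        have e1 : b.Good (fun σ => (g'.comp μ) (t σ)) := hg.map b (g'.comp μ) (fun _ => rfl)
        rw [htt]
        exact e1
      refine ⟨PsB.Good.absIrr b ht'' hgood ρ β fun σ => (htd σ).1,
        isOdd_of_det hp hp𝒪 hχ ρ β fun σ => (htd σ).2, β, fun σ => htd σ⟩
    obtain ⟨O'', _, _, _, _, _, _, _, _, _, hinj', ρ, hρ, hnot⟩ := h36 hf p S O' hpO hp2
      (eigenHomC hf.1 (↑S : Set ℕ)) (fun l hl hlM hlS => eigenHom_T hf.1 hl hlM hlS) iota hpS hKS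
      (fun O'' _ _ _ _ _ _ _ _ _ hinj ρ hρ => by
        obtain ⟨h3, h4, -⟩ := hcp O'' ρ hρ
        exact ⟨h3, h4⟩)
    obtain ⟨-, -, β, hβ⟩ := hcp O'' ρ (fun l hl _ hlM hlS A hA σ hσ => hρ l hl hlM hlS A hA σ hσ)
    refine hnot q hq hqp (hK2 q hq hqD hu) ?_
    intro A hA σ hσ
    refine charpoly_eq_of_trace β _ ?_ ?_
    · have e1 := (hβ σ).1
      have e2 : t' σ = 2 := by
        rw [htt]
        have e3 := hcon A hA σ hσ
        have e4 : (lam.rangeRestrict (t σ)) = 2 := Subtype.ext e3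
        change f' (lam.rangeRestrict (t σ)) = 2
        rw [e4, map_ofNat]
      rw [e2, map_ofNat] at e1
      exact e1
    · have e1 := (hβ σ).2
      rw [hχ.inertia hp hp𝒪 hq hqp hA hσ, Units.val_one, map_one, map_one] at e1
      exact e1

end Local

end Fermat.Agent.RT
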