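import Fermat.Agent.RT.TWPts

set_option autoImplicit false
set_option maxHeartbeats 400000
set_option linter.style.haveILetI false
set_option linter.unusedSectionVars false
set_option linter.unusedVariables false

/-!
# Inertia at the points
-/

open IsLocalRing Matrix MvPowerSeries
open Fermat.Agent.ESCore Fermat.Agent.Coh Fermat.Agent.GalD Fermat.Agent.LocalCFT
  Fermat.Agent.GCFT
open scoped Pointwise

noncomputable section

namespace Fermat.Agent.RT

section GLz

variable {L : Type*} [Field L]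

lemma trace_inv_of_det {g : GL (Fin 2) L} (h : g.val.det = 1) :
    (g⁻¹).val.trace = g.val.trace := by
  have h1 : (g⁻¹).val = g.val.adjugate := by
    have h2 : (g⁻¹).val * (g.val * g.val.adjugate) = (g⁻¹).val * (1 : Matrix (Fin 2) (Fin 2) L) := by
      rw [Matrix.mul_adjugate, h, one_smul]
    rw [← mul_assoc, ← Units.val_mul, inv_mul_cancel, Units.val_one, one_mul, mul_one] at h2
    exact h2.symm
  rw [h1, Matrix.adjugate_fin_two, Matrix.trace_fin_two_of, Matrix.trace_fin_two, add_comm]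

lemma trace_zpow_of_two {g : GL (Fin 2) L} (h1 : g.val.trace = 2) (h2 : g.val.det = 1) (m : ℤ) :
    (g ^ m).val.trace = 2 := by
  have key : ∀ n : ℕ, (g ^ n).val.trace = 2 := by
    intro n
    rw [Units.val_pow_eq_pow_val, pow_of_sq_zero (sq_zero_of_trace h1 h2), Matrix.trace_add,
      Matrix.trace_smul, Matrix.trace_sub, h1, Matrix.trace_one]
    simp
  obtain ⟨n, rfl | rfl⟩ := m.eq_nat_or_neg
  · rw [zpow_natCast]; exact key n
  · rw [_root_.zpow_neg, zpow_natCast, trace_inv_of_det, key n]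
    rw [Units.val_pow_eq_pow_val, Matrix.det_pow, h2, one_pow]

end GLz

section Rho

variable {𝒪 : Type} [CommRing 𝒪] [IsLocalRing 𝒪] [IsNoetherianRing 𝒪] {T : Type} [CommRing T]
  [IsLocalRing T] [IsNoetherianRing T] [Algebra 𝒪 T] {k : Type} [Field k] {π : T →+* k}
  (hπ : RingHom.ker π = maximalIdeal T) {χ : GQ →* 𝒪ˣ} {p : ℕ} (hp : p.Prime)
  (hp𝒪 : (p : 𝒪) ∈ maximalIdeal 𝒪) (hpT : (p : T) ∈ maximalIdeal T) (hχ : IsCyc p χ)
  {B : Set ℕ} {t : GQ → T} (ht : CycPs χ p B t) (b : PsB 𝒪 χ) (hg : b.Good t)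
  {q : Nat.Primes} (hqp : (q : ℕ) ≠ p) {L : Type} [Field L] (lam : T →+* L)

include hπ hp hp𝒪 hχ hqp hpT ht hg in
/-- Unipotence at the tame generator implies unipotence. -/
theorem two_of_tame (hin : ∀ s ∈ Il (q : ℕ), π (t (rl q s)) = 2) {τ : Gl q}
    (hτ : TameGen p q τ) (h : lam (t (rl q τ)) = 2)
    {A : ValuationSubring Qb} (hA : A.LiesOverPrime (q : ℕ)) {σ : GQ}
    (hσ : σ ∈ A.inertiaSubgroupIn ℚ) : lam (t σ) = 2 := by
  have hJ : RingHom.ker lam ≠ ⊤ := RingHom.ker_ne_top lam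
  set g : GL (Fin 2) L := GeneralLinearGroup.map (n := Fin 2) lam (b.rho ht hg (rl q τ)) with hgd
  have hgv : ∀ m : ℤ, (g ^ m).val = ((b.rho ht hg (rl q τ)) ^ m).val.map lam := by
    intro m
    rw [hgd, ← map_zpow]; rfl
  have h1 : g.val.trace = 2 := by
    have : g.val = (b.rho ht hg (rl q τ)).val.map lam := rfl
    rw [this, Matrix.trace_fin_two, Matrix.map_apply, Matrix.map_apply, ← map_add,
      ← Matrix.trace_fin_two, b.trace_rho, h]
  have h2 : g.val.det = 1 := by
    have h3 : g.val.det = lam (b.rho ht hg (rl q τ)).val.det := by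
      rw [RingHom.map_det]; rfl
    rw [h3, det_rho_inertia hp hp𝒪 hχ ht b hg hqp hτ.1, map_one]
  have h3 := trace_inertia_of_gen hπ hp hp𝒪 hpT hχ ht b hg hqp hin hτ hJ (fun m => by
    rw [RingHom.mem_ker, map_sub, map_ofNat]
    have h4 := trace_zpow_of_two h1 h2 m
    rw [hgv, Matrix.trace_fin_two, Matrix.map_apply, Matrix.map_apply, ← map_add,
      ← Matrix.trace_fin_two] at h4
    rw [h4, sub_self]) hA hσ
  rw [RingHom.mem_ker, map_sub, map_ofNat, sub_eq_zero] at h3
  exact h3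

include hπ hp hp𝒪 hχ hqp hpT in
/-- The eigenvalue of the tame generator at a split place. -/
theorem split_iff (hin : ∀ s ∈ Il (q : ℕ), π (t (rl q s)) = 2) {τ : Gl q}
    (hτ : TameGen p q τ) {P P' : Matrix (Fin 2) (Fin 2) T} {u u' : T} (hP'P : P' * P = 1)
    (hd : P * (b.rho ht hg (rl q τ)).val * P' = !![u, 0; 0, u']) (huu : u * u' = 1) :
    lam u = 1 ↔ ∀ A : ValuationSubring Qb, A.LiesOverPrime (q : ℕ) →
      ∀ σ ∈ A.inertiaSubgroupIn ℚ, lam (t σ) = 2 := by
  have htr : t (rl q τ) = u + u' := by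
    rw [← b.trace_rho ht hg]
    have h1 := congrArg Matrix.trace hd
    rw [Matrix.trace_mul_cycle, hP'P, one_mul, Matrix.trace_fin_two_of] at h1
    exact h1
  have huu' : lam u * lam u' = 1 := by rw [← map_mul, huu, map_one]
  constructor
  · intro h A hA σ hσ
    refine two_of_tame hπ hp hp𝒪 hpT hχ ht b hg hqp lam hin hτ ?_ hA hσ
    rw [h, one_mul] at huu'
    rw [htr, map_add, h, huu']
    norm_num
  · intro h
    have h1 := h _ (nonunits_padicPlace q) _ (rl_mem_inertia hτ.1)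
    rw [htr, map_add] at h1
    have h2 : (lam u - 1) ^ 2 = 0 := by linear_combination lam u * h1 - huu'
    exact sub_eq_zero.mp (pow_eq_zero_iff two_ne_zero |>.mp h2)

end Rho

end Fermat.Agent.RT
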