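import Fermat.Agent.RT.PsiLoc
import Fermat.Agent.RT.HPGrp
import Fermat.Agent.RT.PointLoc3
import Fermat.Agent.RT.TWPts2

set_option autoImplicit false
set_option maxHeartbeats 400000
set_option linter.style.haveILetI false
set_option linter.unusedSectionVars false
set_option linter.unusedVariables false

/-!
# Points of the Hecke algebra of a Taylor–Wiles level
-/

open IsLocalRing CongruenceSubgroup Matrix.SpecialLinearGroup
open scoped MatrixGroups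
open Fermat.Agent.ESCore Fermat.Agent.ESCore.UnivG
open Fermat.Agent.ESCore.Univ (Idx)
open Fermat.Agent.ESCore.Gal (dU dLift dU_dLift)

noncomputable section

namespace Fermat.Agent.RT

open Ihara

variable {𝒪 : Type} [CommRing 𝒪] [IsDomain 𝒪] [IsDiscreteValuationRing 𝒪]
  [IsAdicComplete (maximalIdeal 𝒪) 𝒪] [Finite (ResidueField 𝒪)] [CharZero 𝒪]

variable (𝒪) in
/-- An algebraically closed field containing `𝒪`. -/
abbrev LL : Type := AlgebraicClosure (FractionRing 𝒪)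

lemma LL_inj : Function.Injective (algebraMap 𝒪 (LL 𝒪)) := by
  rw [IsScalarTower.algebraMap_eq 𝒪 (FractionRing 𝒪) (LL 𝒪)]
  exact (algebraMap (FractionRing 𝒪) (LL 𝒪)).injective.comp (IsFractionRing.injective 𝒪 _)

instance : CharZero (LL 𝒪) := charZero_of_injective_algebraMap (R := 𝒪) LL_inj

section General

variable {p : ℕ} {χ : GQ →* 𝒪ˣ} {N₀ : ℕ} [NeZero N₀] {S₀ : Finset ℕ} {a : ℕ → 𝒪} {d : ℕ}
  {Z : HZero p χ N₀ S₀ a d} {N : ℕ} [NeZero N] {S : Finset ℕ} {D : Type} [CommGroup D]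
  [Finite D] {ψ : (ZMod N)ˣ →* D} (H : HLevel Z N S ψ)

namespace HLevel

lemma hss {L : Type} [Field L] [CharZero L] [Algebra 𝒪 L] (ψh : MonoidAlgebra 𝒪 D →ₐ[𝒪] L)
    (y : H.T) (hy : IsNilpotent ((H.ι y).map ψh)) : (H.ι y).map ψh = 0 := by
  refine hss_of_sepInt H.x H.gen (fun i => H.π (genT le_GK GK_le S (Sum.inl i)))
    (fun i => MonoidAlgebra.of 𝒪 D (half (ψ (dU N (sigmaD N i.1))))⁻¹) (fun i => H.hx i)
    (fun i => H.sep _) (fun i j => ?_) ψh y hy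
  rw [← map_mul, ← map_mul, mul_comm]

/-- **Equalities can be checked at the points.** -/
theorem eq_of_points {y z : H.T} (h : ∀ (ψh : MonoidAlgebra 𝒪 D →ₐ[𝒪] LL 𝒪)
    (lam : H.T →ₐ[𝒪] LL 𝒪), EigSys H.ι ψh lam → lam y = lam z) : y = z := by
  rw [← sub_eq_zero]
  apply H.hι
  rw [map_zero]
  exact eq_zero_of_eigSys LL_inj (fun ψh y hy => H.hss ψh y hy) fun ψh lam hl => by
    rw [map_sub, h ψh lam hl, sub_self]

/-- Points exist. -/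
lemma exists_point (hd : 0 < d) (ψh : MonoidAlgebra 𝒪 D →ₐ[𝒪] LL 𝒪) :
    ∃ lam : H.T →ₐ[𝒪] LL 𝒪, EigSys H.ι ψh lam := by
  haveI : Nonempty (Fin d) := ⟨⟨0, hd⟩⟩
  haveI : Nontrivial (Fin d → LL 𝒪) := inferInstance
  obtain ⟨lam, h, -⟩ := exists_eigSys (Φ := H.ι) (ψ := ψh) (y := 1) (by
    rw [spAct_one]
    intro hn
    obtain ⟨n, hn⟩ := hn
    rw [one_pow] at hn
    exact one_ne_zero hn)
  exact ⟨lam, h⟩

include H in
lemma nonunit_of_point {lam : H.T →ₐ[𝒪] LL 𝒪} {y : H.T} (h : lam y = 0) :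
    y ∈ maximalIdeal H.T := by
  rw [mem_maximalIdeal, mem_nonunits_iff]
  intro hu
  have := hu.map lam
  rw [h] at this
  exact not_isUnit_zero this

end HLevel

end General

section Level

variable {p M q₀ : ℕ} [Fact p.Prime] {χ : GQ →* 𝒪ˣ} [NeZero (M * q₀)] {S₀ : Finset ℕ} {a : ℕ → 𝒪} {d : ℕ}
  {K : Type} [Field K] [Algebra (ResidueField 𝒪) K] {ρK : GQ →* GL (Fin 2) K}
  (hB : HBase p M q₀ S₀ a ρK χ)
  {Z : HZero p χ (M * q₀) S₀ a d} {N : ℕ} [NeZero N] {S : Finset ℕ} {r : ℕ}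
  {q : Fin r → ℕ} {e : Fin r → ℕ} {h₀ : q₀ ∣ N} {h₁ : ∀ i, q i ∣ N}
  {ψ₀ : (ZMod q₀)ˣ →* Multiplicative (ZMod p)}
  {ψ₁ : ∀ i, (ZMod (q i))ˣ →* Multiplicative (ZMod (p ^ e i))}
  (H : HLevel Z N S (psiN h₀ h₁ ψ₀ ψ₁)) (hN : LvlN N M q₀ q)
  (hM : Squarefree M) (hpS : p ∈ S) (hNS : ∀ l : ℕ, l.Prime → l ∣ N → l ∈ S)
  (b : PsB 𝒪 χ) (hg : b.Good H.t) (h36 : S36P)

include hN in
lemma psi_of_D₁ (u : (ZMod N)ˣ) (hu : ZMod.unitsMap hN.dvd_D₁ u = 1) :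
    psiN h₀ h₁ ψ₀ ψ₁ u = 1 := by
  have key : ∀ (l : ℕ) (hl : l ∣ N) (hlD : l ∣ q₀ * ∏ i, q i), ZMod.unitsMap hl u = 1 := by
    intro l hl hlD
    have h2 : ZMod.unitsMap hl u = ZMod.unitsMap hlD (ZMod.unitsMap hN.dvd_D₁ u) := by
      rw [← MonoidHom.comp_apply, ← ZMod.unitsMap_comp]
    rw [h2, hu, map_one]
  rw [psiN_apply]
  refine Prod.ext ?_ ?_
  · rw [key q₀ h₀ (Dvd.intro _ rfl), map_one]
    rfl
  · funext i
    change ψ₁ i (ZMod.unitsMap (h₁ i) u) = _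
    rw [key (q i) (h₁ i) ((Finset.dvd_prod_of_mem q (Finset.mem_univ i)).trans
      (Dvd.intro_left q₀ rfl)), map_one]
    rfl

include hN hM in
lemma fact_le {l : ℕ} (hl : l.Prime) : N.factorization l ≤ 1 := by
  have h1 : Squarefree N := by
    rw [hN.hN, Nat.squarefree_mul hN.copMD]
    exact ⟨hM, hN.sqf⟩
  exact (Nat.squarefree_iff_factorization_le_one (NeZero.ne N)).mp h1 l

include hB hN hM hpS hNS hg h36 in
/-- The local behaviour at the points. -/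
theorem HLevel.local {ψh : MonoidAlgebra 𝒪 (DG p e) →ₐ[𝒪] LL 𝒪} {lam : H.T →ₐ[𝒪] LL 𝒪}
    (h : EigSys H.ι ψh lam) :
    (∀ l : ℕ, l.Prime → l ≠ p → ¬ l ∣ q₀ * ∏ i, q i →
      ∀ A : ValuationSubring Qb, A.LiesOverPrime l → ∀ σ ∈ A.inertiaSubgroupIn ℚ,
        lam (H.t σ) = 2) ∧
    (∀ l : ℕ, l.Prime → l ≠ p → l ∣ q₀ * ∏ i, q i → (∀ (u : (ZMod N)ˣ) (y : ℕ),
          (u : ZMod N) = y → y ≡ 1 [MOD (N / l)] →
            ψh (MonoidAlgebra.of 𝒪 (DG p e) (psiN h₀ h₁ ψ₀ ψ₁ u)) = 1) →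
      ∀ A : ValuationSubring Qb, A.LiesOverPrime l → ∀ σ ∈ A.inertiaSubgroupIn ℚ,
        lam (H.t σ) = 2) ∧
    (∀ l : ℕ, l.Prime → l ≠ p → l ∣ q₀ * ∏ i, q i → (∃ (u : (ZMod N)ˣ) (y : ℕ),
          (u : ZMod N) = y ∧ y ≡ 1 [MOD (N / l)] ∧
            ψh (MonoidAlgebra.of 𝒪 (DG p e) (psiN h₀ h₁ ψ₀ ψ₁ u)) ≠ 1) →
      ∃ A : ValuationSubring Qb, A.LiesOverPrime l ∧ ∃ σ ∈ A.inertiaSubgroupIn ℚ,
        lam (H.t σ) ≠ 2) := by
  have h3 := EigSys.local le_GK GK_le H.hπ H.hx LL_inj H.hxa hB.hp hB.hp2 hB.hp𝒪 hB.hχ hpS hNS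
    H.ht H.hfr b hg h36 h hN.hN hN.copMD hN.sqf hN.dvd_D₁ (odd_card_DG hB.hp2)
    (fun u hu => psi_of_D₁ hN u hu) H.i₀ H.hi₀ H.hi₀a
  exact ⟨fun l hl hlp hlD => h3.1 l hl hlp hlD (fact_le hN hM hl), h3.2.1, h3.2.2⟩

include hB hN hM hpS hNS hg h36 in
/-- Inertia at the primes dividing `M` (and outside). -/
theorem HLevel.t_eq_two {l : ℕ} (hl : l.Prime) (hlp : l ≠ p) (hlD : ¬ l ∣ q₀ * ∏ i, q i)
    {A : ValuationSubring Qb} (hA : A.LiesOverPrime l) {σ : GQ}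
    (hσ : σ ∈ A.inertiaSubgroupIn ℚ) : H.t σ = 2 := by
  refine H.eq_of_points fun ψh lam h => ?_
  rw [map_ofNat]
  exact (H.local hB hN hM hpS hNS b hg h36 h).1 l hl hlp hlD A hA σ hσ

include hB hN hM hpS hNS hg h36 in
/-- Inertia residually. -/
theorem HLevel.t_res {l : ℕ} (hl : l.Prime) (hlp : l ≠ p) (hd : 0 < d)
    {A : ValuationSubring Qb} (hA : A.LiesOverPrime l) {σ : GQ}
    (hσ : σ ∈ A.inertiaSubgroupIn ℚ) : H.t σ - 2 ∈ maximalIdeal H.T := by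
  obtain ⟨lam, h⟩ := H.exists_point hd ((Algebra.ofId 𝒪 (LL 𝒪)).comp (aug 𝒪 (DG p e)))
  refine H.nonunit_of_point (lam := lam) ?_
  rw [map_sub, map_ofNat, sub_eq_zero]
  obtain ⟨k1, k2, -⟩ := H.local hB hN hM hpS hNS b hg h36 h
  by_cases hlD : l ∣ q₀ * ∏ i, q i
  · refine k2 l hl hlp hlD (fun u y _ _ => ?_) A hA σ hσ
    change Algebra.ofId 𝒪 (LL 𝒪) (aug 𝒪 (DG p e) (MonoidAlgebra.of 𝒪 _ _)) = 1
    rw [aug_of, map_one]
  · exact k1 l hl hlp hlD A hA σ hσ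

end Level

end Fermat.Agent.RT
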