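import Fermat.Agent.RT.HPack
import Fermat.Agent.RT.LvlPts

set_option autoImplicit false
set_option maxHeartbeats 400000
set_option linter.style.haveILetI false
set_option linter.unusedSectionVars false
set_option linter.unusedVariables false

/-!
# Points of the Hecke algebra of level zero and newforms
-/

open IsLocalRing CongruenceSubgroup Matrix.SpecialLinearGroup ModularFormClass
open scoped MatrixGroups
open Fermat.Agent.ESCore Fermat.Agent.ESCore.UnivG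
open Fermat.Agent.ESCore.Univ (Idx)
open Fermat.Agent.ESCore.Gal (dU dLift dU_dLift dU_coe)

noncomputable section

namespace Fermat.Agent.RT

open Ihara

section Lam

variable {𝒪 : Type} [CommRing 𝒪] [IsDomain 𝒪] [IsDiscreteValuationRing 𝒪]
  [IsAdicComplete (maximalIdeal 𝒪) 𝒪] [Finite (ResidueField 𝒪)] [CharZero 𝒪]
  {T : Type} [CommRing T] [Algebra 𝒪 T] [Module.Finite 𝒪 T]

/-- The primes of characteristic zero are kernels of points. -/
theorem exists_lam (𝔮 : Ideal T) [𝔮.IsPrime] (h : ∀ c, algebraMap 𝒪 T c ∈ 𝔮 → c = 0) :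
    ∃ lam : T →ₐ[𝒪] LL 𝒪, ∀ y, lam y = 0 ↔ y ∈ 𝔮 := by
  have hinj : Function.Injective (algebraMap 𝒪 (T ⧸ 𝔮)) := by
    rw [injective_iff_map_eq_zero]
    intro c hc
    refine h c ?_
    have : Ideal.Quotient.mk 𝔮 (algebraMap 𝒪 T c) = 0 := hc
    exact Ideal.Quotient.eq_zero_iff_mem.mp this
  haveI : Module.Finite 𝒪 (T ⧸ 𝔮) := Module.Finite.of_surjective
    (Ideal.Quotient.mkₐ 𝒪 𝔮).toLinearMap Ideal.Quotient.mk_surjective
  haveI : FaithfulSMul 𝒪 (T ⧸ 𝔮) := (faithfulSMul_iff_algebraMap_injective 𝒪 (T ⧸ 𝔮)).mpr hinj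
  haveI : FaithfulSMul 𝒪 (LL 𝒪) := (faithfulSMul_iff_algebraMap_injective 𝒪 (LL 𝒪)).mpr LL_inj
  haveI : Algebra.IsIntegral 𝒪 (T ⧸ 𝔮) := inferInstance
  haveI : Algebra.IsAlgebraic 𝒪 (T ⧸ 𝔮) := inferInstance
  let ℓ : (T ⧸ 𝔮) →ₐ[𝒪] LL 𝒪 := IsAlgClosed.lift
  refine ⟨ℓ.comp (Ideal.Quotient.mkₐ 𝒪 𝔮), fun y => ?_⟩
  have hk : RingHom.ker (ℓ : (T ⧸ 𝔮) →+* LL 𝒪) = ⊥ := by
    refine Ideal.eq_bot_of_comap_eq_bot (R := 𝒪) ?_
    rw [eq_bot_iff]
    intro c hc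
    rw [Ideal.mem_comap, RingHom.mem_ker, AlgHom.coe_toRingHom, AlgHom.commutes] at hc
    exact (Submodule.mem_bot 𝒪).mpr (LL_inj (by rw [hc, map_zero]))
  change ℓ (Ideal.Quotient.mk 𝔮 y) = 0 ↔ _
  rw [← Ideal.Quotient.eq_zero_iff_mem, ← AlgHom.coe_toRingHom, ← RingHom.mem_ker, hk, Ideal.mem_bot]

end Lam

section Coef

theorem coef_unique {𝒪 V : Type*} [CommRing 𝒪] [AddCommGroup V] [Module 𝒪 V] {H : Submodule 𝒪 V}
    {d : ℕ} (m : Module.Basis (Fin d) 𝒪 H) {c c' : Fin d → 𝒪}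
    (h : ∑ k, c k • (m k).1 = ∑ k, c' k • (m k).1) : c = c' := by
  have h3 : ∑ k, (c k - c' k) • m k = 0 := by
    simp only [sub_smul, Finset.sum_sub_distrib]
    rw [sub_eq_zero]
    apply Subtype.ext
    rw [AddSubmonoidClass.coe_finsetSum, AddSubmonoidClass.coe_finsetSum]
    exact h
  funext k
  exact sub_eq_zero.mp (Fintype.linearIndependent_iff.mp m.linearIndependent _ h3 k)

end Coef

section Zero

variable {𝒪 : Type} [CommRing 𝒪] [IsDomain 𝒪] [IsDiscreteValuationRing 𝒪]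
  [IsAdicComplete (maximalIdeal 𝒪) 𝒪] [CharZero 𝒪] [Finite (ResidueField 𝒪)]
  {K : Type} [Field K] [Algebra (ResidueField 𝒪) K]
  {p M q₀ : ℕ} {S₀ : Finset ℕ} {a : ℕ → 𝒪} {ρ : GQ →* GL (Fin 2) K} {χ : GQ →* 𝒪ˣ} {d : ℕ}

/-- The classical Hecke algebra maps to the Hecke algebra of level zero. -/
theorem HZero.exists_theta [NeZero (M * q₀)] (hB : HBase p M q₀ S₀ a ρ χ)
    (Z : HZero p χ (M * q₀) S₀ a d) (hd : 0 < d) :
    ∃ θ : TG (le_GK (ψ := (1 : (ZMod (M * q₀))ˣ →* Unit))) GK_le S₀ →+* Z.T,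
      (∀ i, θ (genT le_GK GK_le S₀ (Sum.inl i)) = Z.x i) ∧
      ∀ δ, θ (genT le_GK GK_le S₀ (Sum.inr δ)) = 1 := by
  set N₀ := M * q₀ with hN₀
  set J : Set ℕ := {l : ℕ | l.Prime ∧ l ∉ S₀} with hJ
  obtain ⟨l, hl, hlS, -, hl1, hu⟩ := hB.exists_nonEis N₀ ∅
  have hNE : NonEisP N₀ J a := by
    refine ⟨l, ⟨hl, hlS⟩, hl, ?_, hu⟩
    have := Int.natCast_dvd_natCast.mpr hl1
    rwa [Nat.cast_sub hl.one_lt.le, Nat.cast_one] at this
  let m₀ : Module.Basis (Fin d) 𝒪 (HM0 N₀ J a) := Z.m.map (LinearEquiv.ofEq _ _ Z.hIa)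
  have hm₀ : ∀ j, (m₀ j).1 = (Z.m j).1 := fun j => rfl
  obtain ⟨π, hπ, hsep, hxm, -⟩ :=
    exists_core (N₀ := N₀) (N := N₀) hB.hp hB.hp𝒪 hB.hχ (S := S₀)
      ((hB.hS₀ p hB.hp).mpr (Or.inr rfl)) (fun q hq hqN => (hB.hS₀ q hq).mpr (Or.inl hqN))
      (D := Unit) (by simp) (fun g => ⟨0, rfl⟩) 1 (fun u => ⟨1, rfl⟩) (LevEquiv.refl N₀ J a ∅) hNE
      hB.h8 hB.h3 hd m₀ (fun l hl hlS => ⟨hl, hlS⟩) (fun l hl => hl.elim)
  have hιx : ∀ i, ((aug 𝒪 Unit).mapMatrix (π (genT le_GK GK_le S₀ (Sum.inl i))) :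
      Matrix (Fin d) (Fin d) 𝒪) = Z.ι (Z.x i) := by
    intro i
    ext k j
    have h1 := hxm i j
    rw [hm₀, Z.hx i j] at h1
    have h2 := congrFun (coef_unique Z.m h1) k
    exact h2.symm
  have hex : ∀ y, ∃ z : Z.T, Z.ι z = (aug 𝒪 Unit).mapMatrix (π y) := by
    intro y
    refine TG_induction le_GK GK_le S₀ (P := fun y => ∃ z : Z.T,
      Z.ι z = (aug 𝒪 Unit).mapMatrix (π y)) ?_ ?_ ?_ ?_ y
    · rintro (i | δ)
      · exact ⟨Z.x i, (hιx i).symm⟩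
      · refine ⟨1, ?_⟩
        rw [hπ]
        have : scal 𝒪 d ((1 : (ZMod N₀)ˣ →* Unit) (dU N₀ δ)) = 1 := scal_one
        rw [this, map_one, map_one]
    · intro n
      exact ⟨n, by rw [map_intCast, map_intCast, map_intCast]⟩
    · rintro s t ⟨z, hz⟩ ⟨w, hw⟩
      exact ⟨z + w, by rw [map_add, map_add, map_add, hz, hw]⟩
    · rintro s t ⟨z, hz⟩ ⟨w, hw⟩
      exact ⟨z * w, by rw [map_mul, map_mul, map_mul, hz, hw]⟩
  choose θ hθ using hex
  refine ⟨{ toFun := θ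
            map_one' := Z.hι (by rw [hθ, map_one, map_one, map_one])
            map_mul' := fun s t => Z.hι (by rw [map_mul, hθ, hθ, hθ, map_mul, map_mul])
            map_zero' := Z.hι (by rw [hθ, map_zero, map_zero, map_zero])
            map_add' := fun s t => Z.hι (by rw [map_add, hθ, hθ, hθ, map_add, map_add]) },
    fun i => Z.hι ?_, fun δ => Z.hι ?_⟩
  · change Z.ι (θ _) = _
    rw [hθ, hιx]
  · change Z.ι (θ _) = _
    rw [hθ, hπ]
    have : scal 𝒪 d ((1 : (ZMod N₀)ˣ →* Unit) (dU N₀ δ)) = 1 := scal_one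
    rw [this, map_one, map_one]

/-- **The points of the Hecke algebra of level zero come from newforms.** -/
theorem HZero.exists_newform [NeZero (M * q₀)] (hB : HBase p M q₀ S₀ a ρ χ)
    (Z : HZero p χ (M * q₀) S₀ a d) (hd : 0 < d) {L : Type} [Field L] [CharZero L]
    (lam : Z.T →+* L) :
    ∃ (K : ℕ) (f : CuspForm (Gamma0 K) 2) (E : algebraicClosure ℚ L →+* ℂ),
      K ∣ M * q₀ ∧ f.IsNewform ∧
      ∀ i : Idx (M * q₀) S₀, ∃ z : algebraicClosure ℚ L, (z : L) = lam (Z.x i) ∧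
        E z = qCoeff f i.1 := by
  obtain ⟨θ, hθ1, hθ2⟩ := HZero.exists_theta hB Z hd
  -- algebraicity
  have hθK : ∀ t, lam (θ t) ∈ algebraicClosure ℚ L := by
    intro t
    rw [mem_algebraicClosure_iff]
    have e1 : IsIntegral ℤ (lam (θ t)) :=
      (isIntegral_TG _ _ t).map ((lam.comp θ).toIntAlgHom)
    exact (e1.tower_top (A := ℚ)).isAlgebraic
  haveI : Algebra.IsAlgebraic ℚ (algebraicClosure ℚ L) :=
    algebraicClosure.isAlgebraic ℚ (L)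
  obtain ⟨E⟩ : Nonempty (algebraicClosure ℚ L →+* ℂ) :=
    ⟨((IsAlgClosed.lift : algebraicClosure ℚ L →ₐ[ℚ] ℂ) :
      algebraicClosure ℚ L →+* ℂ)⟩
  let θ' : TG (le_GK (ψ := (1 : (ZMod (M * q₀))ˣ →* Unit))) GK_le S₀ →+*
      algebraicClosure ℚ L :=
    (lam.comp θ).codRestrict (algebraicClosure ℚ L).toSubring hθK
  have hθ' : ∀ t, ((θ' t : algebraicClosure ℚ L) : L) = lam (θ t) := fun t => rfl
  obtain ⟨i₀, hi₀, hu⟩ : ∃ i₀ : Idx (M * q₀) S₀, M * q₀ ∣ i₀.1 - 1 ∧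
      IsUnit (a i₀.1 - (i₀.1 + 1)) := by
    obtain ⟨l, hl, hlS, -, hl1, hu⟩ := hB.exists_nonEis (M * q₀) ∅
    have hlN : ¬ l ∣ M * q₀ := fun h => hlS ((hB.hS₀ l hl).mpr (Or.inl h))
    exact ⟨⟨l, hl, hlN, hlS⟩, hl1, hu⟩
  obtain ⟨K, f, hK, hf, hcoef, -⟩ := exists_newform_of_point' (N := (M * q₀)) (N₁ := (M * q₀)) (D := 1)
    (mul_one _).symm (Nat.coprime_one_right (M * q₀)) squarefree_one (1 : DirichletCharacter ℂ 1)
    le_GK GK_le (E.comp θ') i₀ hi₀ (fun hbad => by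
      have e2 : E (θ' (genT le_GK GK_le S₀ (Sum.inl i₀))) = i₀.1 + 1 := hbad
      have e3 : θ' (genT le_GK GK_le S₀ (Sum.inl i₀)) = i₀.1 + 1 := by
        apply E.injective
        rw [e2, map_add, map_natCast, map_one]
      have e4 : lam (Z.x i₀) = i₀.1 + 1 := by
        have e5 := congrArg (fun z : algebraicClosure ℚ L => (z : L)) e3
        change lam (θ _) = _ at e5
        rw [hθ1] at e5
        rw [e5]; push_cast; rfl
      have e5 : IsUnit (Z.x i₀ - (i₀.1 + 1)) := by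
        by_contra hne
        have e6 : Z.x i₀ - (i₀.1 + 1) ∈ maximalIdeal Z.T := hne
        have e7 := Ideal.sub_mem _ e6 (Z.hxa i₀)
        have e8 : Z.x i₀ - (i₀.1 + 1) - (Z.x i₀ -
            algebraMap 𝒪 Z.T (a i₀.1)) = algebraMap 𝒪 Z.T (a i₀.1 - (i₀.1 + 1)) := by
          rw [map_sub, map_add, map_natCast, map_one]; ring
        change Z.x i₀ - (i₀.1 + 1) - (Z.x i₀ -
            algebraMap 𝒪 Z.T (a i₀.1)) ∈ _ at e7
        rw [e8] at e7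
        exact e7 (hu.map _)
      have e6 := e5.map lam
      rw [map_sub, map_add, map_natCast, map_one, e4, sub_self] at e6
      exact not_isUnit_zero e6) (fun δ => by
      change E (θ' (genT le_GK GK_le S₀ (Sum.inr δ))) = _
      have e1 : θ' (genT le_GK GK_le S₀ (Sum.inr δ)) = 1 :=
        Subtype.ext (by rw [hθ', hθ2, map_one]; rfl)
      rw [e1, map_one, Subsingleton.elim ((((δ : SL(2, ℤ)) 1 1 : ℤ)) : ZMod 1) 1, map_one,
        one_pow])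
  refine ⟨K, f, E, by rwa [one_pow, mul_one] at hK, hf, fun i => ⟨θ' (genT le_GK GK_le S₀ (Sum.inl i)),
    by rw [hθ', hθ1], ?_⟩⟩
  rw [hcoef i, Subsingleton.elim ((i.1 : ZMod 1)) 1, inv_one, map_one, one_mul]
  rfl

end Zero

end Fermat.Agent.RT
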