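import Fermat.Agent.RT.RhoLoc

set_option autoImplicit false
set_option maxHeartbeats 400000
set_option linter.style.haveILetI false
set_option linter.unusedSectionVars false
set_option linter.unusedVariables false

/-!
# Triviality of the inertia from triviality of the tame generator
-/

open IsLocalRing Matrix MvPowerSeries
open Fermat.Agent.ESCore Fermat.Agent.Coh Fermat.Agent.GalD Fermat.Agent.LocalCFT
  Fermat.Agent.GCFT
open scoped Pointwise

noncomputable section

namespace Fermat.Agent.RT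

section Rho

variable {𝒪 : Type} [CommRing 𝒪] [IsLocalRing 𝒪] [IsNoetherianRing 𝒪] {T : Type} [CommRing T]
  [IsLocalRing T] [IsNoetherianRing T] [Algebra 𝒪 T] {k : Type} [Field k] {π : T →+* k}
  (hπ : RingHom.ker π = maximalIdeal T) {χ : GQ →* 𝒪ˣ} {p : ℕ} (hp : p.Prime)
  (hp𝒪 : (p : 𝒪) ∈ maximalIdeal 𝒪) (hpT : (p : T) ∈ maximalIdeal T) (hχ : IsCyc p χ)
  {B : Set ℕ} {t : GQ → T} (ht : CycPs χ p B t) (b : PsB 𝒪 χ) (hg : b.Good t)
  {q : Nat.Primes} (hqp : (q : ℕ) ≠ p)

include hπ hp hp𝒪 hχ hqp hpT in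
/-- **Triviality at the tame generator implies triviality.** -/
theorem triv_of_gen (hin : ∀ s ∈ Il (q : ℕ), π (t (rl q s)) = 2) {τ : Gl q}
    (hτ : TameGen p q τ) {J : Ideal T} (hJ : J ≠ ⊤)
    (h : ∀ i j, ((b.rho ht hg (rl q τ)).val - 1) i j ∈ J)
    {A : ValuationSubring Qb} (hA : A.LiesOverPrime (q : ℕ)) {σ : GQ}
    (hσ : σ ∈ A.inertiaSubgroupIn ℚ) (x : GQ) : t (σ * x) - t x ∈ J := by
  obtain ⟨g, hg'⟩ := exists_smul_eq q.2 (nonunits_padicPlace q) hA
  rw [hg'] at hσ
  have h1 := conj_mem_inertia hσ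
  haveI : IsLocalRing (T ⧸ J) := isLocalRing_quotient hJ
  let F : GQ →* GL (Fin 2) (T ⧸ J) :=
    (GeneralLinearGroup.map (n := Fin 2) (Ideal.Quotient.mk J)).comp (b.rho ht hg)
  have hF : ∀ y, (F y).val = (b.rho ht hg y).val.map (Ideal.Quotient.mk J) := fun y => rfl
  have hFτ : F (rl q τ) = 1 := by
    apply Units.ext
    rw [hF, Units.val_one]
    ext i j
    have h2 := Ideal.Quotient.eq_zero_iff_mem.mpr (h i j)
    rw [Matrix.sub_apply, map_sub, sub_eq_zero] at h2
    rw [Matrix.map_apply, h2]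
    fin_cases i <;> fin_cases j <;> simp
  have hcont : ∀ n : ℕ, ∀ M : Matrix (Fin 2) (Fin 2) T, (∀ i j, M i j ∈ maximalIdeal T ^ n) →
      ∀ i j, Ideal.Quotient.mk J (M i j) ∈ maximalIdeal (T ⧸ J) ^ n := by
    intro n M hM i j
    have e5 := Ideal.mem_map_of_mem (Ideal.Quotient.mk J) (hM i j)
    rw [Ideal.map_pow] at e5
    refine Ideal.pow_right_mono ?_ n e5
    rw [Ideal.map_le_iff_le_comap]
    intro y hy
    exact mk_mem_maximalIdeal' hy
  have key : F (g⁻¹ * σ * g) = 1 := by
    apply Units.ext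
    rw [Units.val_one, ← sub_eq_zero]
    ext i j
    rw [Matrix.zero_apply]
    have h3 : ((F (g⁻¹ * σ * g)).val - 1) i j ∈ ⨅ n : ℕ, maximalIdeal (T ⧸ J) ^ n := by
      rw [Submodule.mem_iInf]
      intro n
      obtain ⟨U, hU, hU2⟩ := rho_cont hpT ht b hg n
      obtain ⟨s, hs, u, hu, hsu⟩ := exists_rl_inertia hU h1
      obtain ⟨m, hm⟩ := inertia_tame hp hqp.symm hπ hpT (rho_cont hpT ht b hg)
        (rho_hpp hπ hp hp𝒪 hpT hχ ht b hg hqp hin) hτ hs n
      rw [redN_eq_iff] at hm
      have e1 : F (g⁻¹ * σ * g) = F (rl q s) * F u := by rw [hsu, map_mul]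
      have e2 : (F (rl q s)).val = 1 + ((b.rho ht hg (rl q s)).val -
          (b.rho ht hg (rl q τ) ^ m).val).map (Ideal.Quotient.mk J) := by
        have e3 : F (rl q τ) ^ m = 1 := by rw [hFτ, _root_.one_zpow]
        have e4 : (F (rl q τ) ^ m).val = (b.rho ht hg (rl q τ) ^ m).val.map
            (Ideal.Quotient.mk J) := by
          rw [← map_zpow]
          change ((GeneralLinearGroup.map (n := Fin 2) (Ideal.Quotient.mk J))
            (b.rho ht hg (rl q τ ^ m))).val = _
          rw [map_zpow]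
          rfl
        rw [e3, Units.val_one] at e4
        rw [hF, e4]
        ext i j
        simp only [Matrix.add_apply, Matrix.map_apply, Matrix.sub_apply, map_sub]
        ring
      have e3 : (F u).val = 1 + ((b.rho ht hg u).val - 1).map (Ideal.Quotient.mk J) := by
        rw [hF]
        ext i j
        simp only [Matrix.add_apply, Matrix.map_apply, Matrix.sub_apply, map_sub]
        have : Ideal.Quotient.mk J ((1 : Matrix (Fin 2) (Fin 2) T) i j) =
            (1 : Matrix (Fin 2) (Fin 2) (T ⧸ J)) i j := by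
          fin_cases i <;> fin_cases j <;> simp
        rw [this]
        ring
      have hX := hcont n _ (fun i j => hm i j)
      have hY := hcont n ((b.rho ht hg u).val - 1) (fun i j => by
        rw [Matrix.sub_apply]; exact hU2 u hu i j)
      rw [e1, Units.val_mul, e2, e3]
      set X := ((b.rho ht hg (rl q s)).val - (b.rho ht hg (rl q τ) ^ m).val).map
        (Ideal.Quotient.mk J) with hXd
      set Y := ((b.rho ht hg u).val - 1).map (Ideal.Quotient.mk J) with hYd
      have e6 : (1 + X) * (1 + Y) - 1 = X + Y + X * Y := by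
        rw [add_mul, one_mul, mul_add, mul_one]; abel
      rw [e6, Matrix.add_apply, Matrix.add_apply, Matrix.mul_apply]
      exact Ideal.add_mem _ (Ideal.add_mem _ (hX i j) (hY i j))
        (Ideal.sum_mem _ fun l _ => Ideal.mul_mem_right _ _ (hX i l))
    rw [Ideal.iInf_pow_eq_bot_of_isLocalRing _ (maximalIdeal.isMaximal _).ne_top,
      Submodule.mem_bot] at h3
    exact h3
  have key2 : F σ = 1 := by
    have e1 : F (g⁻¹ * σ * g) = (F g)⁻¹ * F σ * F g := by rw [map_mul, map_mul, map_inv]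
    rw [e1] at key
    calc F σ = F g * ((F g)⁻¹ * F σ * F g) * (F g)⁻¹ := by group
      _ = 1 := by rw [key, mul_one, mul_inv_cancel]
  rw [← Ideal.Quotient.eq_zero_iff_mem, map_sub, sub_eq_zero]
  have htr : ∀ y, Ideal.Quotient.mk J (t y) = (F y).val.trace := by
    intro y
    rw [← b.trace_rho ht hg, hF, Matrix.trace_fin_two, Matrix.trace_fin_two, map_add]
    rfl
  rw [htr, htr, map_mul, key2, one_mul]

end Rho

end Fermat.Agent.RT
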