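import Fermat.Agent.RT.FPt1
import Fermat.Agent.RT.LGcDef
import Fermat.Agent.RT.RhoTriv

set_option autoImplicit false
set_option maxHeartbeats 400000
set_option linter.style.haveILetI false
set_option linter.unusedSectionVars false
set_option linter.unusedVariables false

/-!
# The level of an unramified point
-/

open IsLocalRing CongruenceSubgroup Matrix.SpecialLinearGroup ModularFormClass
open scoped MatrixGroups
open Fermat.Agent.ESCore Fermat.Agent.ESCore.UnivG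
open Fermat.Agent.ESCore.Univ (Idx)
open Fermat.Agent.ESCore.Gal (dU dLift dU_dLift dU_coe)
open Fermat.Agent.Coh Fermat.Agent.GalD Fermat.Agent.LocalCFT Fermat.Agent.GCFT

noncomputable section

namespace Fermat.Agent.RT

open Ihara

section Point

variable {𝒪 : Type} [CommRing 𝒪] [IsDomain 𝒪] [IsDiscreteValuationRing 𝒪]
  [IsAdicComplete (maximalIdeal 𝒪) 𝒪] [CharZero 𝒪] [Finite (ResidueField 𝒪)]
  {K : Type} [Field K] [Algebra (ResidueField 𝒪) K]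
  {p M q₀ : ℕ} {S₀ : Finset ℕ} {a : ℕ → 𝒪} {ρ : GQ →* GL (Fin 2) K} {χ : GQ →* 𝒪ˣ} {d : ℕ}

lemma HBase.ne_p (hB : HBase p M q₀ S₀ a ρ χ) : q₀ ≠ p := by
  rintro rfl
  have h1 := Nat.le_of_dvd (by have := hB.hq₀.two_le; omega) hB.hpq
  have := hB.hq₀.two_le
  omega

/-- The newform and the discrete valuation ring of a point. -/
theorem HZero.exists_point_data [NeZero (M * q₀)] (hB : HBase p M q₀ S₀ a ρ χ)
    (Z : HZero p χ (M * q₀) S₀ a d) (hd : 0 < d) (lam : Z.T →ₐ[𝒪] LL 𝒪) :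
    ∃ (N : ℕ) (_ : NeZero N) (f : CuspForm (Gamma0 N) 2) (hf : f.IsNewform)
      (O' : Type) (_ : CommRing O') (_ : IsDomain O') (_ : IsDiscreteValuationRing O')
      (_ : IsAdicComplete (maximalIdeal O') O') (_ : Finite (ResidueField O')) (_ : CharZero O')
      (_ : Algebra 𝒪 O') (_ : Module.Finite 𝒪 O') (_ : IsLocalHom (algebraMap 𝒪 O'))
      (μ : Z.T →ₐ[𝒪] O') (iota : (eigenHomC hf.1 (↑S₀ : Set ℕ)).range →+* O'),
      N ∣ M * q₀ ∧ Function.Injective (algebraMap 𝒪 O') ∧ (∀ y z, μ y = μ z ↔ lam y = lam z) ∧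
      (∀ (i : Idx (M * q₀) S₀) (hlN : ¬ i.1 ∣ N) (hlS : i.1 ∉ (↑S₀ : Set ℕ)),
        iota ((eigenHomC hf.1 (↑S₀ : Set ℕ)).rangeRestrict
          (CuspForm.heckeAlgebra.T i.2.1 hlN hlS)) = μ (Z.x i)) ∧
      (∀ q : ℕ, q.Prime → q ≠ p → ¬ q ^ 2 ∣ N → ∀ A : ValuationSubring Qb, A.LiesOverPrime q →
        ∀ σ ∈ A.inertiaSubgroupIn ℚ, μ (Z.t σ) = 2) := by
  obtain ⟨N, f, E, hN, hf, hz⟩ := HZero.exists_newform hB Z hd (lam : Z.T →+* LL 𝒪)
  have hN0 : N ≠ 0 := fun h => NeZero.ne (M * q₀) (by rwa [h, zero_dvd_iff] at hN)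
  haveI : NeZero N := ⟨hN0⟩
  have hNS : ∀ q : ℕ, q.Prime → q ∣ N → q ∈ S₀ := fun q hq hqN =>
    (hB.hS₀ q hq).mpr (Or.inl (hqN.trans hN))
  have hpS : p ∈ S₀ := (hB.hS₀ p hB.hp).mpr (Or.inr rfl)
  obtain ⟨O', i1, i2, i3, i4, i5, i6, i7, i8, i9, hinj, f', hf'⟩ := exists_dvr_of_point LL_inj lam
  have hpO : (p : O') ∈ maximalIdeal O' := by
    rw [← map_natCast (algebraMap 𝒪 O')]
    exact map_nonunit (algebraMap 𝒪 O') _ hB.hp𝒪
  let μ : Z.T →ₐ[𝒪] O' := f'.comp lam.rangeRestrict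
  have hμ : ∀ y z : Z.T, μ y = μ z ↔ lam y = lam z := by
    intro y z
    constructor
    · intro hyz
      exact congrArg Subtype.val (hf' hyz)
    · intro hyz
      change f' (lam.rangeRestrict y) = f' (lam.rangeRestrict z)
      congr 1
      exact Subtype.ext hyz
  have hidx : ∀ l : ℕ, l.Prime → l ∉ S₀ → ¬ l ∣ M * q₀ := fun l hl hlS hlN =>
    hlS ((hB.hS₀ l hl).mpr (Or.inl hlN))
  obtain ⟨iota, hiota⟩ := exists_iota hf.1 hNS lam.range.toSubring (f' : lam.range →+* O') E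
    (fun l hl hlS => by
      obtain ⟨z, hz1, hz2⟩ := hz ⟨l, hl, hidx l hl hlS, hlS⟩
      exact ⟨z, by rw [hz1]; exact ⟨_, rfl⟩, hz2⟩)
  have hiota' : ∀ (i : Idx (M * q₀) S₀) (hlN : ¬ i.1 ∣ N) (hlS : i.1 ∉ (↑S₀ : Set ℕ)),
      iota ((eigenHomC hf.1 (↑S₀ : Set ℕ)).rangeRestrict
        (CuspForm.heckeAlgebra.T i.2.1 hlN hlS)) = μ (Z.x i) := by
    intro i hlN hlS
    obtain ⟨z, hz1, hz2⟩ := hz i
    rw [hiota i.1 i.2.1 hlN hlS z (by rw [hz1]; exact ⟨_, rfl⟩) hz2]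
    change f' _ = f' _
    congr 1
    exact Subtype.ext hz1
  have hdO : ∀ (d : ℕ) (x : O'), d ≠ 0 → d * x = 0 → x = 0 := fun d x hd hx =>
    (mul_eq_zero.mp hx).resolve_left (Nat.cast_ne_zero.mpr hd)
  obtain ⟨t', ht', hfr', hun'⟩ := exists_cycPs_full (O := O') hB.hp hB.hp𝒪 hB.hχ hpS hNS hpO hdO
    (iota.comp (eigenHomC hf.1 (↑S₀ : Set ℕ)).rangeRestrict)
  have htt : t' = fun σ => μ (Z.t σ) := by
    refine ht'.ext (fun y hy => eq_zero_of_pow hpO hy) (Z.ht.map μ) S₀ ?_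
    intro l hl hlS A hA σ hσ
    have hlN : ¬ l ∣ N := fun hlN => hlS (hNS l hl hlN)
    rw [hfr' l hl hlN hlS A hA σ hσ, RingHom.comp_apply,
      hiota' ⟨l, hl, hidx l hl hlS, hlS⟩ hlN hlS, Z.hfr ⟨l, hl, hidx l hl hlS, hlS⟩ A hA σ hσ]
  refine ⟨N, ‹_›, f, hf, O', i1, i2, i3, i4, i5, i6, i7, i8, i9, μ, iota, hN, hinj, hμ, hiota',
    fun q hq hqp hq2 A hA σ hσ => ?_⟩
  have h1 := hun' q hq hqp hq2 A hA σ hσ
  rw [htt] at h1
  exact h1

variable {Q : Nat.Primes} {τ₀ : Gl Q}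

/-- **The level of an unramified point divides `M`.** -/
theorem HZero.exists_unramified_newform [NeZero (M * q₀)] (hB : HBase p M q₀ S₀ a ρ χ)
    (hM : Squarefree M) (Z : HZero p χ (M * q₀) S₀ a d) (hd : 0 < d) (b : PsB 𝒪 χ)
    (hg : b.Good Z.t) (hQ : (Q : ℕ) = q₀) (hτ₀ : TameGen p Q τ₀)
    (𝔮₀ : Ideal Z.T) [𝔮₀.IsPrime] (h0 : ∀ c, algebraMap 𝒪 Z.T c ∈ 𝔮₀ → c = 0)
    (h1 : ∀ i j, ((b.rho Z.ht hg (rl Q τ₀)).val - 1) i j ∈ 𝔮₀)
    (hLG : LGcP) :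
    ∃ (N : ℕ) (_ : NeZero N) (f : CuspForm (Gamma0 N) 2) (hf : f.IsNewform)
      (O' : Type) (_ : CommRing O') (_ : IsDomain O') (_ : IsDiscreteValuationRing O')
      (_ : IsAdicComplete (maximalIdeal O') O') (_ : Finite (ResidueField O')) (_ : CharZero O')
      (_ : Algebra 𝒪 O') (_ : Module.Finite 𝒪 O') (_ : IsLocalHom (algebraMap 𝒪 O'))
      (μ : Z.T →ₐ[𝒪] O') (iota : (eigenHomC hf.1 (↑S₀ : Set ℕ)).range →+* O'),
      N ∣ M ∧ Function.Injective (algebraMap 𝒪 O') ∧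
      (∀ (i : Idx (M * q₀) S₀) (hlN : ¬ i.1 ∣ N) (hlS : i.1 ∉ (↑S₀ : Set ℕ)),
        iota ((eigenHomC hf.1 (↑S₀ : Set ℕ)).rangeRestrict
          (CuspForm.heckeAlgebra.T i.2.1 hlN hlS)) = μ (Z.x i)) := by
  obtain ⟨lam, hlam⟩ := exists_lam 𝔮₀ h0
  obtain ⟨N, i0, f, hf, O', i1, i2, i3, i4, i5, i6, i7, i8, i9, μ, iota, hN, hinj, hμ, hiota,
    hun⟩ := HZero.exists_point_data hB Z hd lam
  refine ⟨N, i0, f, hf, O', i1, i2, i3, i4, i5, i6, i7, i8, i9, μ, iota, ?_, hinj, hiota⟩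
  have hpq : q₀ ≠ p := hB.ne_p
  have hsq : Squarefree N := by
    refine Squarefree.squarefree_of_dvd hN ?_
    rw [Nat.squarefree_mul hB.hcop]
    exact ⟨hM, hB.hq₀.squarefree⟩
  have hsq2 : ∀ q : ℕ, q.Prime → ¬ q ^ 2 ∣ N := fun q hq h => by
    rw [Nat.squarefree_iff_prime_squarefree] at hsq
    exact hsq q hq (by rwa [pow_two] at h)
  have hNS : ∀ q : ℕ, q.Prime → q ∣ N → q ∈ S₀ := fun q hq hqN =>
    (hB.hS₀ q hq).mpr (Or.inl (hqN.trans hN))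
  have hpS : p ∈ S₀ := (hB.hS₀ p hB.hp).mpr (Or.inr rfl)
  by_cases hqN : q₀ ∣ N
  · exfalso
    have hpT : (p : Z.T) ∈ maximalIdeal Z.T := by
      rw [← map_natCast (algebraMap 𝒪 Z.T)]
      exact (Z.hm _).mpr hB.hp𝒪
    haveI : IsNoetherianRing Z.T := IsNoetherianRing.of_finite 𝒪 Z.T
    have hmem : ∀ y, μ y = 0 ↔ y ∈ 𝔮₀ := by
      intro y
      rw [← hlam y]
      have := hμ y 0
      rwa [map_zero, map_zero] at this
    refine hLG hf p hB.hp hB.hp2 q₀ hB.hq₀ hpq ?_ hsq S₀ hpS hNS 𝒪 hB.hp𝒪 O' hinj χ hB.hχ iota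
      {q | q ∣ M * q₀ ∨ q = p} (fun σ => μ (Z.t σ)) (Z.ht.map μ) ?_ b
      (hg.map b μ (fun _ => rfl)) (fun l hl hlp A hA σ hσ => hun l hl hlp (hsq2 l hl) A hA σ hσ) ?_
    · refine le_antisymm ((Nat.squarefree_iff_factorization_le_one i0.out).mp hsq q₀) ?_
      exact (hB.hq₀.dvd_iff_one_le_factorization i0.out).mp hqN
    · intro l hl hlN hlS A hA σ hσ
      have hlN' : ¬ l ∣ M * q₀ := fun h => hlS ((hB.hS₀ l hl).mpr (Or.inl h))
      rw [hiota ⟨l, hl, hlN', hlS⟩ hlN hlS]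
      change μ (Z.t σ) = _
      rw [Z.hfr ⟨l, hl, hlN', hlS⟩ A hA σ hσ]
    · intro A hA σ hσ g
      subst hQ
      have h2 := triv_of_gen (π := residue Z.T) IsLocalRing.ker_residue hB.hp hB.hp𝒪 hpT
        hB.hχ Z.ht b hg hpq (fun s hs => ?_) hτ₀ (J := 𝔮₀) (Ideal.IsPrime.ne_top inferInstance)
        h1 hA hσ g
      · change μ (Z.t (σ * g)) = μ (Z.t g)
        rw [← sub_eq_zero, ← map_sub, hmem]
        exact h2
      · have h3 := hun _ hB.hq₀ hpq (hsq2 _ hB.hq₀) _ (nonunits_padicPlace Q) _ (rl_mem_inertia hs)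
        have h4 : Z.t (rl Q s) - 2 ∈ 𝔮₀ := by
          rw [← hmem, map_sub, h3, map_ofNat, sub_self]
        have h5 : Z.t (rl Q s) - 2 ∈ maximalIdeal Z.T :=
          le_maximalIdeal (Ideal.IsPrime.ne_top inferInstance) h4
        rw [← residue_eq_zero_iff, map_sub, sub_eq_zero, map_ofNat] at h5
        exact h5
  · have h2 : N.Coprime q₀ := ((Nat.Prime.coprime_iff_not_dvd hB.hq₀).mpr hqN).symm
    exact h2.dvd_of_dvd_mul_right hN

end Point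

end Fermat.Agent.RT
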