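import Mathlib
import Fermat.Prelude.Def_FLTPrelim_ModularRep

/-!
# The semistable integral model of the Frey curve
-/

set_option autoImplicit false

open WeierstrassCurve

namespace Fermat.Agent.RT

section

variable (P : FreyPackage)

theorem frey_four_dvd : (4 : ℤ) ∣ P.b ^ P.p - 1 - P.a ^ P.p := by
  have hodd := P.hp_odd
  have h5 := P.hp5
  have hb : (4 : ℤ) ∣ P.b ^ P.p := by
    have h2 : (2 : ℤ) ∣ P.b := (ZMod.intCast_zmod_eq_zero_iff_dvd P.b 2).1 P.hb2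
    have h4 : (4 : ℤ) = 2 ^ 2 := by norm_num
    rw [h4]
    exact (pow_dvd_pow 2 (by omega : 2 ≤ P.p)).trans (pow_dvd_pow_of_dvd h2 P.p)
  have ha : (4 : ℤ) ∣ 1 + P.a ^ P.p := by
    refine (ZMod.intCast_zmod_eq_zero_iff_dvd (1 + P.a ^ P.p) 4).mp ?_
    push_cast
    rw [P.ha4]
    have h3 : (3 : ZMod 4) = -1 := by decide
    rw [h3, hodd.neg_one_pow, add_neg_cancel]
  have h1 : P.b ^ P.p - 1 - P.a ^ P.p = P.b ^ P.p - (1 + P.a ^ P.p) := by ring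
  rw [h1]
  exact dvd_sub hb ha

theorem frey_sixteen_dvd : (16 : ℤ) ∣ -(P.a ^ P.p) * (P.b ^ P.p) := by
  have h5 := P.hp5
  have h2 : (2 : ℤ) ∣ P.b := (ZMod.intCast_zmod_eq_zero_iff_dvd P.b 2).1 P.hb2
  have h4 : (16 : ℤ) = 2 ^ 4 := by norm_num
  rw [h4]
  exact Dvd.dvd.mul_left ((pow_dvd_pow 2 (by omega : 4 ≤ P.p)).trans (pow_dvd_pow_of_dvd h2 P.p)) _

theorem freyInt_a₂ : 4 * P.freyCurveInt.a₂ = P.b ^ P.p - 1 - P.a ^ P.p :=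
  Int.mul_ediv_cancel' (frey_four_dvd P)

theorem freyInt_a₄ : 16 * P.freyCurveInt.a₄ = -(P.a ^ P.p) * (P.b ^ P.p) :=
  Int.mul_ediv_cancel' (frey_sixteen_dvd P)

theorem freyInt_map : P.freyCurveInt.map (Int.castRingHom ℚ) = P.freyCurve := by
  have h2 := congrArg (Int.cast : ℤ → ℚ) (freyInt_a₂ P)
  have h4 := congrArg (Int.cast : ℤ → ℚ) (freyInt_a₄ P)
  push_cast at h2 h4
  ext
  · change ((1 : ℤ) : ℚ) = 1
    norm_num
  · change ((P.freyCurveInt.a₂ : ℤ) : ℚ) = ((P.b : ℚ) ^ P.p - 1 - (P.a : ℚ) ^ P.p) / 4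
    linarith
  · change ((0 : ℤ) : ℚ) = 0
    norm_num
  · change ((P.freyCurveInt.a₄ : ℤ) : ℚ) = -((P.a : ℚ) ^ P.p) * ((P.b : ℚ) ^ P.p) / 16
    linarith
  · change ((0 : ℤ) : ℚ) = 0
    norm_num

theorem freyInt_c₄ : P.freyCurveInt.c₄ = (P.a ^ P.p) ^ 2 + P.a ^ P.p * P.b ^ P.p +
    (P.b ^ P.p) ^ 2 := by
  have h2 := freyInt_a₂ P
  have h4 := freyInt_a₄ P
  have h1 : P.freyCurveInt.a₁ = 1 := rfl
  have h3 : P.freyCurveInt.a₃ = 0 := rfl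
  have h6 : P.freyCurveInt.a₆ = 0 := rfl
  have hb2 : P.freyCurveInt.b₂ = P.b ^ P.p - P.a ^ P.p := by
    rw [WeierstrassCurve.b₂, h1]
    linarith
  have hb4 : 8 * P.freyCurveInt.b₄ = - (P.a ^ P.p) * (P.b ^ P.p) := by
    rw [WeierstrassCurve.b₄, h1, h3]
    linarith
  have h : P.freyCurveInt.c₄ = (P.b ^ P.p - P.a ^ P.p) ^ 2 - 3 * (8 * P.freyCurveInt.b₄) := by
    rw [WeierstrassCurve.c₄, hb2]
    ring
  rw [h, hb4]
  ring

theorem freyInt_Δ : 256 * P.freyCurveInt.Δ = (P.a ^ P.p * P.b ^ P.p * P.c ^ P.p) ^ 2 := by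
  have h2 := freyInt_a₂ P
  have h4 := freyInt_a₄ P
  have h1 : P.freyCurveInt.a₁ = 1 := rfl
  have h3 : P.freyCurveInt.a₃ = 0 := rfl
  have h6 : P.freyCurveInt.a₆ = 0 := rfl
  have hb2 : P.freyCurveInt.b₂ = P.b ^ P.p - P.a ^ P.p := by
    rw [WeierstrassCurve.b₂, h1]
    linarith
  have hb4 : P.freyCurveInt.b₄ = 2 * P.freyCurveInt.a₄ := by
    rw [WeierstrassCurve.b₄, h1, h3]
    ring
  have hb6 : P.freyCurveInt.b₆ = 0 := by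
    rw [WeierstrassCurve.b₆, h3, h6]
    ring
  have hb8 : P.freyCurveInt.b₈ = - P.freyCurveInt.a₄ ^ 2 := by
    rw [WeierstrassCurve.b₈, h1, h3, h6]
    ring
  have hΔ : 256 * P.freyCurveInt.Δ = (16 * P.freyCurveInt.a₄) ^ 2 *
      ((P.b ^ P.p - P.a ^ P.p) ^ 2 - 4 * (16 * P.freyCurveInt.a₄)) := by
    rw [WeierstrassCurve.Δ, hb2, hb4, hb6, hb8]
    ring
  rw [hΔ, h4, ← P.hFLT]
  ring

theorem freyInt_Δ_ne_zero : P.freyCurveInt.Δ ≠ 0 := by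
  intro h
  have h1 := freyInt_Δ P
  rw [h, mul_zero] at h1
  have h2 : (P.a ^ P.p * P.b ^ P.p * P.c ^ P.p) ^ 2 ≠ 0 :=
    pow_ne_zero _ (mul_ne_zero (mul_ne_zero (pow_ne_zero _ P.ha0) (pow_ne_zero _ P.hb0))
      (pow_ne_zero _ P.hc0))
  exact h2 h1.symm

theorem freyInt_semistable : P.freyCurveInt.IsSemistableModel := by
  intro q hq hd hc
  have hqp : Prime (q : ℤ) := Nat.prime_iff_prime_int.mp hq
  rw [freyInt_c₄] at hc
  have h1 : (q : ℤ) ∣ (P.a ^ P.p * P.b ^ P.p * P.c ^ P.p) ^ 2 := by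
    rw [← freyInt_Δ]
    exact Dvd.dvd.mul_left hd _
  have h2 := hqp.dvd_of_dvd_pow h1
  have hcon : ¬ ((q : ℤ) ∣ P.a ∧ (q : ℤ) ∣ P.b) := by
    rintro ⟨ha, hb⟩
    have h3 : (q : ℤ) ∣ gcd P.a P.b := dvd_gcd ha hb
    rw [P.hgcdab] at h3
    exact hqp.not_dvd_one h3
  have hFLT := P.hFLT
  rcases hqp.dvd_or_dvd h2 with h3 | hcc
  · rcases hqp.dvd_or_dvd h3 with haa | hbb
    · refine hcon ⟨hqp.dvd_of_dvd_pow haa, ?_⟩
      have h4 : (q : ℤ) ∣ (P.b ^ P.p) ^ 2 := by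
        have h5 : (P.b ^ P.p) ^ 2 = ((P.a ^ P.p) ^ 2 + P.a ^ P.p * P.b ^ P.p + (P.b ^ P.p) ^ 2) -
            P.a ^ P.p * (P.a ^ P.p + P.b ^ P.p) := by ring
        rw [h5]
        exact dvd_sub hc (Dvd.dvd.mul_right haa _)
      exact hqp.dvd_of_dvd_pow (hqp.dvd_of_dvd_pow h4)
    · refine hcon ⟨?_, hqp.dvd_of_dvd_pow hbb⟩
      have h4 : (q : ℤ) ∣ (P.a ^ P.p) ^ 2 := by
        have h5 : (P.a ^ P.p) ^ 2 = ((P.a ^ P.p) ^ 2 + P.a ^ P.p * P.b ^ P.p + (P.b ^ P.p) ^ 2) -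
            P.b ^ P.p * (P.a ^ P.p + P.b ^ P.p) := by ring
        rw [h5]
        exact dvd_sub hc (Dvd.dvd.mul_right hbb _)
      exact hqp.dvd_of_dvd_pow (hqp.dvd_of_dvd_pow h4)
  · -- `c₄ = c^{2p} - a^p b^p`
    have h4 : (q : ℤ) ∣ P.a ^ P.p * P.b ^ P.p := by
      have h5 : P.a ^ P.p * P.b ^ P.p = P.c ^ P.p * P.c ^ P.p -
          ((P.a ^ P.p) ^ 2 + P.a ^ P.p * P.b ^ P.p + (P.b ^ P.p) ^ 2) := by
        rw [← hFLT]; ring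
      rw [h5]
      exact dvd_sub (Dvd.dvd.mul_right hcc _) hc
    rcases hqp.dvd_or_dvd h4 with haa | hbb
    · refine hcon ⟨hqp.dvd_of_dvd_pow haa, ?_⟩
      have h5 : P.b ^ P.p = P.c ^ P.p - P.a ^ P.p := by rw [← hFLT]; ring
      refine hqp.dvd_of_dvd_pow (n := P.p) ?_
      rw [h5]
      exact dvd_sub hcc haa
    · refine hcon ⟨?_, hqp.dvd_of_dvd_pow hbb⟩
      have h5 : P.a ^ P.p = P.c ^ P.p - P.b ^ P.p := by rw [← hFLT]; ring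
      refine hqp.dvd_of_dvd_pow (n := P.p) ?_
      rw [h5]
      exact dvd_sub hcc hbb

/-- The Frey curve has a semistable integral model. -/
theorem exists_semistable_model : ∃ W : WeierstrassCurve ℤ, W.IsIntegralModelOf P.freyCurve ∧
    W.Δ ≠ 0 ∧ W.IsSemistableModel :=
  ⟨P.freyCurveInt, ⟨1, by rw [one_smul, freyInt_map]⟩, freyInt_Δ_ne_zero P, freyInt_semistable P⟩

end

end Fermat.Agent.RT
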