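import Fermat.Agent.RT.SetC
import Fermat.Agent.RT.SetF
import Fermat.Agent.ESCore.Assembly
import Fermat.Agent.ESCore.GalGamma0
import Fermat.Agent.KL.Final
import Fermat.Agent.GaloisBasics.FrobeniusExists

/-!
# Comparison of the mod `p` representations of a curve and of an eigenform
-/

set_option autoImplicit false
set_option linter.unusedSectionVars false

noncomputable section

open Matrix ModularFormClass CongruenceSubgroup
open WeierstrassCurve WeierstrassCurve.Affine WeierstrassCurve.Affine.Point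

namespace Fermat.Agent.RT

open Fermat.Agent.EC Fermat.Agent.ESCore Fermat.Agent.ESCore.ModP Fermat.Agent.GaloisBasics

/-- The field of algebraic numbers. -/
local notation "Kb" => AlgebraicClosure ℚ
/-- The absolute Galois group. -/
local notation "GQ" => (AlgebraicClosure ℚ ≃ₐ[ℚ] AlgebraicClosure ℚ)

/-- **The matrix representation attached to an eigenform.** -/
theorem exists_matRep {N : ℕ} [NeZero N] {g : CuspForm (Gamma0 N) 2}
    (hg : g.IsNormalizedEigenform) {p : ℕ} (hp : p.Prime) {k : Type} [Field k] [CharP k p]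
    (φ : integralClosure ℤ ℂ →+* k) :
    ∃ (ρ' : GQ →* Matrix (Fin 2) (Fin 2) k) (L : IntermediateField ℚ Kb),
      FiniteDimensional ℚ L ∧
      (∀ σ : GQ, (∀ x ∈ L, σ x = x) → ρ' σ = 1) ∧
      (∀ l : ℕ, l.Prime → ¬ l ∣ N → l ≠ p → ∀ B : ValuationSubring Kb,
        B.LiesOverPrime l → ∀ σ ∈ B.inertiaSubgroupIn ℚ, ρ' σ = 1) ∧
      (∀ l : ℕ, l.Prime → ¬ l ∣ N → l ≠ p → ∀ B : ValuationSubring Kb,
        B.LiesOverPrime l → ∀ σ : GQ, B.IsFrobeniusAt σ l → ∃ a : integralClosure ℤ ℂ,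
          (a : ℂ) = qCoeff g l ∧ (ρ' σ).trace = φ a ∧ (ρ' σ).det = l) := by
  have hgal : GalData N p (galX N hp.pos) := galData_galX hp.pos
    fun _ hl hlN hlm _ hB => Fermat.Agent.KL.klProp hp.pos hl hlN hlm hB
  obtain ⟨ρ', h1, h2, h3⟩ := exists_rep_quot hg hp (RingHom.ker φ) (ker_isMaximal hp φ)
    (mem_ker φ) hgal
  let ψ : (integralClosure ℤ ℂ ⧸ RingHom.ker φ) →+* k := RingHom.kerLift φ
  let ρ'' : GQ →* Matrix (Fin 2) (Fin 2) k := (ψ.mapMatrix (m := Fin 2)).toMonoidHom.comp ρ'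
  obtain ⟨L, hL, h⟩ := h1
  refine ⟨ρ'', L, hL, fun σ hσ => ?_, fun l hl hlN hlp B hB σ hσ => ?_,
    fun l hl hlN hlp B hB σ hσ => ?_⟩
  · change ψ.mapMatrix (ρ' σ) = 1
    rw [h σ hσ, map_one]
  · change ψ.mapMatrix (ρ' σ) = 1
    rw [h2 l hl hlN hlp B hB σ hσ, map_one]
  · obtain ⟨a, ha, h5⟩ := h3 l hl hlN hlp B hB σ hσ
    have h6 : ψ (Ideal.Quotient.mk (RingHom.ker φ) a) = φ a := rfl
    have h7 : (ρ'' σ).charpoly = Polynomial.X ^ 2 - Polynomial.C (φ a) * Polynomial.X +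
        Polynomial.C (l : k) := by
      change (ψ.mapMatrix (ρ' σ)).charpoly = _
      rw [RingHom.mapMatrix_apply, Matrix.charpoly_map, h5]
      simp only [Polynomial.map_add, Polynomial.map_sub, Polynomial.map_mul, Polynomial.map_pow,
        Polynomial.map_X, Polynomial.map_C, h6, map_natCast, Polynomial.map_natCast]
    refine ⟨a, ha, ?_, ?_⟩
    · rw [Matrix.trace_eq_neg_charpoly_coeff, h7]
      simp
    · rw [Matrix.det_eq_sign_charpoly_coeff, h7]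
      simp

section Curve

variable {W : WeierstrassCurve ℤ} {p : ℕ} [hp : Fact p.Prime]

/-- the trace and the determinant of Frobenius elements at good primes -/
theorem modRep_frob (hΔ : W.Δ ≠ 0) {l : ℕ} (hl : l.Prime) (hW : W.IsGoodPrimeFor l) (hlp : l ≠ p)
    {A : ValuationSubring Kb} (hA : A.LiesOverPrime l) {σ : GQ} (hσ : A.IsFrobeniusAt σ l) :
    (modRep (torsBasis p W hΔ) σ).val.trace = (W.apOfModel l : ZMod p) ∧
      (modRep (torsBasis p W hΔ) σ).val.det = (l : ZMod p) := by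
  haveI : Fact l.Prime := ⟨hl⟩
  have h := EFrob.trace_det_frobenius hW hlp.symm hA hσ
  rw [modRep_trace, modRep_det]
  exact h

/-- the determinant of the mod `p` representation at Frobenius elements -/
theorem modRep_det_frob (hΔ : W.Δ ≠ 0) {l : ℕ} (hl : l.Prime) (hlp : l ≠ p)
    {A : ValuationSubring Kb} (hA : A.LiesOverPrime l) {σ : GQ} (hσ : A.IsFrobeniusAt σ l) :
    (modRep (torsBasis p W hΔ) σ).val.det = (l : ZMod p) := by
  haveI : NeZero p := ⟨hp.out.ne_zero⟩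
  rw [modRep_det, ss_det hΔ]
  exact cyc_frob hA hl hσ fun h => hlp ((Nat.prime_dvd_prime_iff_eq hl hp.out).mp h)

/-- **Comparison** -/
theorem trace_eq_modRep (hΔ : W.Δ ≠ 0) {N : ℕ} (hN : N ≠ 0) {g : CuspForm (Gamma0 N) 2}
    {k : Type} [Field k] (φ : integralClosure ℤ ℂ →+* k) (j : ZMod p →+* k)
    {ρ' : GQ →* Matrix (Fin 2) (Fin 2) k} {L' : IntermediateField ℚ Kb}
    [FiniteDimensional ℚ L'] (hL' : ∀ σ : GQ, (∀ x ∈ L', σ x = x) → ρ' σ = 1)
    (hfr : ∀ l : ℕ, l.Prime → ¬ l ∣ N → l ≠ p → ∀ B : ValuationSubring Kb,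
        B.LiesOverPrime l → ∀ σ : GQ, B.IsFrobeniusAt σ l → ∃ a : integralClosure ℤ ℂ,
          (a : ℂ) = qCoeff g l ∧ (ρ' σ).trace = φ a ∧ (ρ' σ).det = l)
    (hcong : ∀ l : ℕ, l.Prime → W.IsGoodPrimeFor l → ¬ l ∣ N → l ≠ p →
      ∃ a : integralClosure ℤ ℂ, (a : ℂ) = qCoeff g l ∧ φ a = ((W.apOfModel l : ℤ) : k))
    (σ : GQ) :
    (ρ' σ).trace = j (modRep (torsBasis p W hΔ) σ).val.trace ∧
      (ρ' σ).det = j (modRep (torsBasis p W hΔ) σ).val.det := by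
  obtain ⟨L, hLf, hL⟩ := exists_level_modRep (p := p) hΔ
  refine trace_eq_of_frob j hL hL' ((W.Δ.natAbs.primeFactors ∪ N.primeFactors) ∪ {p})
    (fun l hl hlT A hA φ' hφ' => ?_) σ
  simp only [Finset.mem_union, Finset.mem_singleton, not_or, Nat.mem_primeFactors, not_and] at hlT
  obtain ⟨⟨h1, h2⟩, h3⟩ := hlT
  have hgood : W.IsGoodPrimeFor l := by
    intro hd
    exact h1 hl (by rwa [← Int.natCast_dvd]) (Int.natAbs_ne_zero.mpr hΔ)
  have hlN : ¬ l ∣ N := fun h => h2 hl h hN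
  obtain ⟨a, ha, ht, hd⟩ := hfr l hl hlN h3 A hA φ' hφ'
  obtain ⟨a', ha', hφa⟩ := hcong l hl hgood hlN h3
  have haa : a = a' := Subtype.ext (ha.trans ha'.symm)
  obtain ⟨h4, h5⟩ := modRep_frob hΔ hl hgood h3 hA hφ'
  rw [ht, hd, h4, h5, haa, hφa, map_intCast, map_natCast]
  exact ⟨rfl, rfl⟩

end Curve

section Transfer

variable {W W' : WeierstrassCurve ℤ} {p : ℕ} [hp : Fact p.Prime]

theorem charP_quot {𝔪 : Ideal (integralClosure ℤ ℂ)} (h𝔪 : 𝔪.IsMaximal)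
    (hp𝔪 : (p : integralClosure ℤ ℂ) ∈ 𝔪) :
    letI := quotField 𝔪 h𝔪
    CharP (integralClosure ℤ ℂ ⧸ 𝔪) p := by
  letI := quotField 𝔪 h𝔪
  refine (CharP.charP_iff_prime_eq_zero hp.out).mpr ?_
  rw [← map_natCast (Ideal.Quotient.mk 𝔪)]
  exact Ideal.Quotient.eq_zero_iff_mem.mpr hp𝔪

/-- **Residual modularity only depends on the traces of the mod `p` representation.** -/
theorem residuallyModular_of_trace_eq (hΔ : W.Δ ≠ 0) (hΔ' : W'.Δ ≠ 0) {N : ℕ} (hN : N ≠ 0)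
    (htr : ∀ σ : GQ, (modRep (torsBasis p W hΔ) σ).val.trace =
      (modRep (torsBasis p W' hΔ') σ).val.trace)
    (h : W.IsResiduallyModularOfLevel p N) : W'.IsResiduallyModularOfLevel p N := by
  obtain ⟨f, 𝔪, hf, h𝔪, hp𝔪, hcong⟩ := h
  haveI : NeZero N := ⟨hN⟩
  letI fld := quotField 𝔪 h𝔪
  haveI hchar : CharP (integralClosure ℤ ℂ ⧸ 𝔪) p := charP_quot h𝔪 hp𝔪
  obtain ⟨ρ', L', hLf, hL', hunr, hfr⟩ := exists_matRep hf hp.out (Ideal.Quotient.mk 𝔪)
  let j : ZMod p →+* integralClosure ℤ ℂ ⧸ 𝔪 := ZMod.castHom dvd_rfl _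
  have hcmp := trace_eq_modRep hΔ hN (Ideal.Quotient.mk 𝔪) j hL' hfr
    (fun l hl hgood hlN hlp => by
      obtain ⟨a, ha, h1⟩ := hcong l hl hgood hlN hlp
      refine ⟨a, ha, ?_⟩
      rw [← map_intCast (Ideal.Quotient.mk 𝔪)]
      exact (Ideal.Quotient.eq).mpr h1)
  refine ⟨f, 𝔪, hf, h𝔪, hp𝔪, fun l hl hgood hlN hlp => ?_⟩
  obtain ⟨B, hB⟩ := exists_liesOverPrime hl
  obtain ⟨σ, hσ⟩ := exists_isFrobeniusAt hl B hB
  obtain ⟨a, ha, ht, -⟩ := hfr l hl hlN hlp B hB σ hσ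
  refine ⟨a, ha, ?_⟩
  rw [← Ideal.Quotient.eq, ← ht, (hcmp σ).1, htr, (modRep_frob hΔ' hl hgood hlp hB hσ).1,
    map_intCast, map_intCast]

/-- Residual modularity does not depend on the integral model. -/
theorem IsResiduallyModularOfLevel.of_model {E : WeierstrassCurve ℚ}
    (hW : W.IsIntegralModelOf E) (hW' : W'.IsIntegralModelOf E)
    (hΔ : W.Δ ≠ 0) (hΔ' : W'.Δ ≠ 0) {N : ℕ} (hN : N ≠ 0)
    (h : W.IsResiduallyModularOfLevel p N) : W'.IsResiduallyModularOfLevel p N :=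
  residuallyModular_of_trace_eq hΔ hΔ' hN (trace_modRep_eq hW hW' hΔ hΔ') h

end Transfer

section Frey

variable {P : FreyPackage} {W : WeierstrassCurve ℤ}

theorem frey_model_Δ_ne_zero (hW : W.IsIntegralModelOf P.freyCurve) : W.Δ ≠ 0 := by
  haveI := frey_isElliptic P
  exact LR.Δ_ne_zero hW

/-- From the Frey package to an integral model -/
theorem residuallyModular_of_modularRep {N : ℕ} (hN : N ≠ 0) (h : P.ModularRepOfLevel N)
    (hW : W.IsIntegralModelOf P.freyCurve) : W.IsResiduallyModularOfLevel P.p N := by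
  obtain ⟨f, W', 𝔪, hf, hW', h𝔪, hp𝔪, hcong⟩ := h
  haveI : Fact P.p.Prime := ⟨P.pp⟩
  exact IsResiduallyModularOfLevel.of_model hW' hW (frey_model_Δ_ne_zero hW')
    (frey_model_Δ_ne_zero hW) hN ⟨f, 𝔪, hf, h𝔪, hp𝔪, hcong⟩

/-- From an integral model to the Frey package -/
theorem modularRep_of_residuallyModular {N : ℕ} (h : W.IsResiduallyModularOfLevel P.p N)
    (hW : W.IsIntegralModelOf P.freyCurve) : P.ModularRepOfLevel N := by
  obtain ⟨f, 𝔪, hf, h𝔪, hp𝔪, hcong⟩ := h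
  exact ⟨f, W, 𝔪, hf, hW, h𝔪, hp𝔪, hcong⟩

end Frey

end Fermat.Agent.RT
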