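import Fermat.Agent.RT.FPt2
import Fermat.Agent.RT.SetE

set_option autoImplicit false
set_option maxHeartbeats 400000
set_option linter.style.haveILetI false
set_option linter.unusedSectionVars false
set_option linter.unusedVariables false

/-!
# Residual modularity at the level of an unramified point
-/

open IsLocalRing CongruenceSubgroup Matrix.SpecialLinearGroup ModularFormClass
open scoped MatrixGroups
open Fermat.Agent.ESCore Fermat.Agent.ESCore.UnivG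
open Fermat.Agent.ESCore.Univ (Idx)
open Fermat.Agent.Coh Fermat.Agent.GalD Fermat.Agent.LocalCFT Fermat.Agent.GCFT
open Fermat.Agent.GaloisBasics Fermat.Agent.ESCore.ModP

noncomputable section

namespace Fermat.Agent.RT

open Ihara

section LyingOver

/-- Lying over. -/
theorem exists_maximal_over {p : ℕ} (hp : p.Prime) (R₀ : Subring ℂ)
    (hR : ∀ x ∈ R₀, x ∈ integralClosure ℤ ℂ) {κ : Type*} [Field κ] [CharP κ p] (κ₀ : R₀ →+* κ) :
    ∃ 𝔪 : Ideal (integralClosure ℤ ℂ), 𝔪.IsMaximal ∧ (p : integralClosure ℤ ℂ) ∈ 𝔪 ∧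
      ∀ (x : R₀) (y : integralClosure ℤ ℂ), (y : ℂ) = x → (y ∈ 𝔪 ↔ κ₀ x = 0) := by
  let ι₀ : R₀ →+* integralClosure ℤ ℂ :=
    { toFun := fun x => ⟨x.1, hR x.1 x.2⟩
      map_one' := rfl
      map_mul' := fun _ _ => rfl
      map_zero' := rfl
      map_add' := fun _ _ => rfl }
  letI : Algebra R₀ (integralClosure ℤ ℂ) := ι₀.toAlgebra
  have hι : ∀ x : R₀, ((algebraMap R₀ (integralClosure ℤ ℂ) x : integralClosure ℤ ℂ) : ℂ) = x :=
    fun x => rfl
  haveI : Algebra.IsIntegral R₀ (integralClosure ℤ ℂ) := by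
    refine ⟨fun y => ?_⟩
    have h1 : IsIntegral ℤ y := by
      obtain ⟨f, hf, hf'⟩ := y.2
      refine ⟨f, hf, Subtype.ext ?_⟩
      have h2 : (algebraMap (integralClosure ℤ ℂ) ℂ) (Polynomial.eval₂
          (algebraMap ℤ (integralClosure ℤ ℂ)) y f) = 0 := by
        rw [Polynomial.hom_eval₂]
        exact hf'
      exact h2
    obtain ⟨f, hf, hf'⟩ := h1
    refine ⟨f.map (algebraMap ℤ R₀), hf.map _, ?_⟩
    rw [Polynomial.eval₂_map]
    have h3 : (algebraMap R₀ (integralClosure ℤ ℂ)).comp (algebraMap ℤ R₀) =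
        algebraMap ℤ (integralClosure ℤ ℂ) := RingHom.ext_int _ _
    rw [h3]
    exact hf'
  haveI : (RingHom.ker κ₀).IsPrime := RingHom.ker_isPrime κ₀
  obtain ⟨𝔪, h𝔪, hcomap⟩ := Ideal.exists_ideal_over_prime_of_isIntegral_of_isDomain
    (S := integralClosure ℤ ℂ) (RingHom.ker κ₀) (by
      intro x hx
      have h1 : x = 0 := by
        apply Subtype.ext
        rw [← hι x, RingHom.mem_ker.mp hx]
        rfl
      rw [h1]
      exact Ideal.zero_mem _)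
  have hmem : ∀ (x : R₀) (y : integralClosure ℤ ℂ), (y : ℂ) = x → (y ∈ 𝔪 ↔ κ₀ x = 0) := by
    intro x y hxy
    have h1 : y = algebraMap R₀ (integralClosure ℤ ℂ) x := Subtype.ext (by rw [hxy, hι])
    rw [h1, ← Ideal.mem_comap, hcomap, RingHom.mem_ker]
  have hpm : (p : integralClosure ℤ ℂ) ∈ 𝔪 := by
    rw [hmem (p : R₀) _ (by push_cast; rfl), map_natCast, CharP.cast_eq_zero]
  refine ⟨𝔪, ?_, hpm, hmem⟩
  haveI := h𝔪
  refine Ideal.isMaximal_of_isIntegral_of_isMaximal_comap (R := ℤ) _ ?_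
  have h1 : (Ideal.span {(p : ℤ)}).IsMaximal := by
    refine PrincipalIdealRing.isMaximal_of_irreducible ?_
    exact (Nat.prime_iff_prime_int.mp hp).irreducible
  have h2 : Ideal.span {(p : ℤ)} ≤ 𝔪.comap (algebraMap ℤ (integralClosure ℤ ℂ)) := by
    rw [Ideal.span_singleton_le_iff_mem, Ideal.mem_comap]
    simpa using hpm
  have h3 : 𝔪.comap (algebraMap ℤ (integralClosure ℤ ℂ)) ≠ ⊤ :=
    Ideal.comap_ne_top _ (Ideal.IsPrime.ne_top inferInstance)
  rw [← h1.eq_of_le h3 h2]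
  exact h1

/-- Algebra homomorphisms from finite local algebras are local. -/
theorem map_mem_maximalIdeal_of_finite {𝒪 T O' : Type*} [CommRing 𝒪] [IsLocalRing 𝒪] [CommRing T]
    [IsLocalRing T] [CommRing O'] [IsLocalRing O'] [Algebra 𝒪 T] [Module.Finite 𝒪 T]
    [Algebra 𝒪 O'] [IsLocalHom (algebraMap 𝒪 O')] (μ : T →ₐ[𝒪] O') {y : T}
    (hy : y ∈ maximalIdeal T) : μ y ∈ maximalIdeal O' := by
  haveI : Algebra.IsIntegral 𝒪 T := inferInstance
  have h1 : ((maximalIdeal O').comap (μ : T →+* O')).IsMaximal := by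
    refine Ideal.isMaximal_of_isIntegral_of_isMaximal_comap (R := 𝒪) _ ?_
    rw [Ideal.comap_comap, AlgHom.comp_algebraMap]
    have h2 : (maximalIdeal O').comap (algebraMap 𝒪 O') = maximalIdeal 𝒪 := by
      have h3 := (local_hom_TFAE (algebraMap 𝒪 O')).out 0 4
      exact h3.mp (by assumption)
    rw [h2]
    exact maximalIdeal.isMaximal 𝒪
  rw [← eq_maximalIdeal h1] at hy
  exact hy

end LyingOver

section Final

variable {𝒪 : Type} [CommRing 𝒪] [IsDomain 𝒪] [IsDiscreteValuationRing 𝒪]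
  [IsAdicComplete (maximalIdeal 𝒪) 𝒪] [CharZero 𝒪] [Finite (ResidueField 𝒪)]
  {p M q₀ : ℕ} [Fact p.Prime] [Algebra (ZMod p) (ResidueField 𝒪)]
  {S₀ : Finset ℕ} {a : ℕ → 𝒪} {χ : GQ →* 𝒪ˣ} {d : ℕ} {W : WeierstrassCurve ℤ} (hΔ : W.Δ ≠ 0)
  {Q : Nat.Primes} {τ₀ : Gl Q}

/-- **The final step**: an unramified point gives residual modularity of a level dividing `M`. -/
theorem exists_level_of_point [NeZero (M * q₀)]
    (hB : HBase p M q₀ S₀ a (bc (ResidueField 𝒪) (modRep (torsBasis p W hΔ))) χ)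
    (hM : Squarefree M) (Z : HZero p χ (M * q₀) S₀ a d) (hd : 0 < d) (b : PsB 𝒪 χ)
    (hg : b.Good Z.t) (hQ : (Q : ℕ) = q₀) (hτ₀ : TameGen p Q τ₀)
    (𝔮₀ : Ideal Z.T) [𝔮₀.IsPrime] (h0 : ∀ c, algebraMap 𝒪 Z.T c ∈ 𝔮₀ → c = 0)
    (h1 : ∀ i j, ((b.rho Z.ht hg (rl Q τ₀)).val - 1) i j ∈ 𝔮₀) (hLG : LGcP) :
    ∃ M₁ : ℕ, M₁ ∣ M ∧ M₁ ≠ 0 ∧ W.IsResiduallyModularOfLevel p M₁ := by
  have hp := hB.hp
  obtain ⟨N, i0, f, hf, O', i1, i2, i3, i4, i5, i6, i7, i8, i9, μ, iota, hN, hinj, hiota⟩ :=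
    HZero.exists_unramified_newform hB hM Z hd b hg hQ hτ₀ 𝔮₀ h0 h1 hLG
  refine ⟨N, hN, i0.out, ?_⟩
  have hpO : (p : O') ∈ maximalIdeal O' := by
    rw [← map_natCast (algebraMap 𝒪 O')]
    exact map_nonunit (algebraMap 𝒪 O') _ hB.hp𝒪
  haveI hch : CharP (ResidueField O') p := by
    refine (CharP.charP_iff_prime_eq_zero hp).mpr ?_
    rw [← map_natCast (residue O'), residue_eq_zero_iff]
    exact hpO
  obtain ⟨𝔪, h𝔪, hp𝔪, hmem⟩ := exists_maximal_over hp (eigenHomC hf.1 (↑S₀ : Set ℕ)).range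
    (by rintro _ ⟨t, rfl⟩; exact eigenHomC_integral hf.1 t) ((residue O').comp iota)
  refine ⟨f, 𝔪, hf.1, h𝔪, hp𝔪, ?_⟩
  letI fld := quotField 𝔪 h𝔪
  haveI hchar : CharP (integralClosure ℤ ℂ ⧸ 𝔪) p := charP_quot h𝔪 hp𝔪
  obtain ⟨ρ', L', hLf, hL', hunr, hfr⟩ := exists_matRep hf.1 hp (Ideal.Quotient.mk 𝔪)
  let j : ZMod p →+* integralClosure ℤ ℂ ⧸ 𝔪 := ZMod.castHom dvd_rfl _
  obtain ⟨L, hLf', hL⟩ := exists_level_modRep (p := p) hΔ
  have hcmp := trace_eq_of_frob j hL hL' S₀ (fun l hl hlS A hA φ hφ => by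
    have hlN' : ¬ l ∣ M * q₀ := fun h => hlS ((hB.hS₀ l hl).mpr (Or.inl h))
    have hlN : ¬ l ∣ N := fun h => hlN' ((h.trans hN).trans (Dvd.intro _ rfl))
    have hlp : l ≠ p := fun h => hlS ((hB.hS₀ l hl).mpr (Or.inr h))
    obtain ⟨c, hc, ht, hdt⟩ := hfr l hl hlN hlp A hA φ hφ
    refine ⟨?_, ?_⟩
    · obtain ⟨n, hn⟩ := ZMod.intCast_surjective (modRep (torsBasis p W hΔ) φ).val.trace
      have h2 : j (modRep (torsBasis p W hΔ) φ).val.trace =
          Ideal.Quotient.mk 𝔪 ((n : ℤ) : integralClosure ℤ ℂ) := by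
        rw [← hn, map_intCast, map_intCast]
      rw [ht, h2, Ideal.Quotient.eq]
      let T : (eigenHomC hf.1 (↑S₀ : Set ℕ)).range :=
        (eigenHomC hf.1 (↑S₀ : Set ℕ)).rangeRestrict (CuspForm.heckeAlgebra.T hl hlN hlS)
      have hT : (T : ℂ) = qCoeff f l := eigenHom_T hf.1 hl hlN hlS
      rw [hmem (T - (n : ℤ)) (c - (n : ℤ)) (by push_cast; rw [hc, hT]), map_sub, map_intCast]
      have h3 : ((residue O').comp iota) T = residue O' (μ (Z.x ⟨l, hl, hlN', hlS⟩)) := by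
        rw [RingHom.comp_apply, ← hiota ⟨l, hl, hlN', hlS⟩ hlN hlS]
      have h4 : residue O' (μ (Z.x ⟨l, hl, hlN', hlS⟩)) = residue O' (algebraMap 𝒪 O' (a l)) := by
        rw [← sub_eq_zero, ← map_sub, residue_eq_zero_iff, ← AlgHom.commutes μ, ← map_sub]
        have h5 := Z.hxa ⟨l, hl, hlN', hlS⟩
        change Z.x ⟨l, hl, hlN', hlS⟩ - algebraMap 𝒪 Z.T (a l) ∈ _ at h5
        exact map_mem_maximalIdeal_of_finite μ h5
      have h5 := (hB.frob l hl hlS A hA φ hφ).2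
      rw [bc_coe] at h5
      have h6 : algebraMap (ZMod p) (ResidueField 𝒪) (modRep (torsBasis p W hΔ) φ).val.trace =
          residue 𝒪 (a l) := by
        rw [Matrix.trace_fin_two, Matrix.map_apply, Matrix.map_apply, ← map_add,
          ← Matrix.trace_fin_two] at h5
        exact h5
      rw [← hn, map_intCast] at h6
      have h7 : residue O' (algebraMap 𝒪 O' (a l)) = ((n : ℤ) : ResidueField O') := by
        have h8 : residue O' (algebraMap 𝒪 O' (a l)) =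
            ResidueField.map (algebraMap 𝒪 O') (residue 𝒪 (a l)) := rfl
        rw [h8, ← h6, map_intCast]
      rw [h3, h4, h7, sub_self]
    · rw [hdt, modRep_det_frob hΔ hl hlp hA hφ, map_natCast])
  intro l hl hgood hlN hlp
  obtain ⟨B, hB'⟩ := exists_liesOverPrime hl
  obtain ⟨σ, hσ⟩ := exists_isFrobeniusAt hl B hB'
  obtain ⟨c, hc, ht, -⟩ := hfr l hl hlN hlp B hB' σ hσ
  refine ⟨c, hc, ?_⟩
  rw [← Ideal.Quotient.eq, ← ht, (hcmp σ).1, (modRep_frob hΔ hl hgood hlp hB' hσ).1,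
    map_intCast, map_intCast]

end Final

end Fermat.Agent.RT
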