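import Fermat.Agent.RT.ULim

set_option autoImplicit false
set_option maxHeartbeats 400000
set_option linter.style.haveILetI false
set_option linter.unusedSectionVars false
set_option linter.unusedVariables false

/-!
# Patching limits of matrix representations

A sequence of ring homomorphisms `A n : P →+* Matrix (Fin d) (Fin d) (S ⧸ J n)` with `J n → 0`
has an ultralimit `P →+* Matrix (Fin d) (Fin d) S`.
-/

open Filter IsLocalRing Polynomial

namespace Fermat.Agent.RT

section Cont

/-- The matrices with entries in an ideal. -/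
def MatIn {T : Type*} [CommRing T] {d : ℕ} (I : Ideal T) (M : Matrix (Fin d) (Fin d) T) : Prop :=
  ∀ i j, M i j ∈ I

variable {T : Type*} [CommRing T] {d : ℕ} {I I' : Ideal T} {M M' : Matrix (Fin d) (Fin d) T}

lemma MatIn.add (h : MatIn I M) (h' : MatIn I M') : MatIn I (M + M') := fun i j =>
  Ideal.add_mem _ (h i j) (h' i j)

lemma MatIn.sub (h : MatIn I M) (h' : MatIn I M') : MatIn I (M - M') := fun i j =>
  Ideal.sub_mem _ (h i j) (h' i j)

lemma MatIn.mul_left (N : Matrix (Fin d) (Fin d) T) (h : MatIn I M) : MatIn I (N * M) :=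
  fun i j => by
    rw [Matrix.mul_apply]
    exact Ideal.sum_mem _ fun k _ => Ideal.mul_mem_left _ _ (h k j)

lemma MatIn.mul_right (N : Matrix (Fin d) (Fin d) T) (h : MatIn I M) : MatIn I (M * N) :=
  fun i j => by
    rw [Matrix.mul_apply]
    exact Ideal.sum_mem _ fun k _ => Ideal.mul_mem_right _ _ (h i k)

lemma MatIn.mul (h : MatIn I M) (h' : MatIn I' M') : MatIn (I * I') (M * M') :=
  fun i j => by
    rw [Matrix.mul_apply]
    exact Ideal.sum_mem _ fun k _ => Ideal.mul_mem_mul (h i k) (h' k j)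

lemma MatIn.mono (hI : I ≤ I') (h : MatIn I M) : MatIn I' M := fun i j => hI (h i j)

end Cont

section Nilpotent

variable {S P : Type*} [CommRing S] [IsLocalRing S] [CommRing P] [IsLocalRing P] {d : ℕ}

/-- Elements of the maximal ideal act nilpotently on the residual space. -/
lemma pow_eq_zero_of_mem_maximalIdeal (B : P →+* Matrix (Fin d) (Fin d) (ResidueField S))
    (σ : S →+* P) (hσ : ∀ s ∈ maximalIdeal S, σ s ∈ maximalIdeal P)
    (hB : ∀ s, B (σ s) = Matrix.scalar (Fin d) (residue S s)) {x : P}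
    (hx : x ∈ maximalIdeal P) : (B x) ^ d = 0 := by
  set f := (B x).charpoly with hf
  have hfm : f.Monic := Matrix.charpoly_monic _
  have hfne : f ≠ 0 := hfm.ne_zero
  have hdeg : f.natDegree = d := by rw [hf, Matrix.charpoly_natDegree_eq_dim, Fintype.card_fin]
  obtain ⟨g, hg, hg0⟩ := Polynomial.exists_eq_pow_rootMultiplicity_mul_and_not_dvd f hfne 0
  rw [C_0, sub_zero] at hg hg0
  set a := f.rootMultiplicity 0 with ha
  have hg0' : g.coeff 0 ≠ 0 := fun h => hg0 (X_dvd_iff.mpr h)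
  obtain ⟨g', hg'⟩ := Polynomial.map_surjective (residue S) residue_surjective g
  have hunit : IsUnit (eval₂ σ x g') := by
    have h1 : eval₂ σ x g' - σ (g'.coeff 0) ∈ maximalIdeal P := by
      have h2 : g' = g'.divX * X + C (g'.coeff 0) := (Polynomial.divX_mul_X_add g').symm
      have h3 : eval₂ σ x g' = eval₂ σ x g'.divX * x + σ (g'.coeff 0) := by
        conv_lhs => rw [h2]
        rw [eval₂_add, eval₂_mul_X, eval₂_C]
      rw [h3, add_sub_cancel_right]
      exact Ideal.mul_mem_left _ _ hx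
    have h4 : IsUnit (σ (g'.coeff 0)) := by
      apply IsUnit.map
      by_contra hne
      have h5 : g'.coeff 0 ∈ maximalIdeal S := hne
      apply hg0'
      rw [← hg', coeff_map]
      exact (residue_eq_zero_iff _).mpr h5
    by_contra hne
    have h6 : eval₂ σ x g' ∈ maximalIdeal P := hne
    have h7 : σ (g'.coeff 0) ∈ maximalIdeal P := by
      have := Ideal.sub_mem _ h6 h1
      rwa [sub_sub_cancel] at this
    exact h7 h4
  have h8 : B (eval₂ σ x g') = aeval (B x) g := by
    rw [Polynomial.hom_eval₂, ← hg', aeval_def, eval₂_map]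
    congr 1
    ext s : 1
    rw [RingHom.comp_apply, hB, RingHom.comp_apply]
    rfl
  have h9 : (B x) ^ a * aeval (B x) g = 0 := by
    have h10 : aeval (B x) f = 0 := by rw [hf]; exact Matrix.aeval_self_charpoly _
    rw [hg, map_mul, map_pow, aeval_X] at h10
    exact h10
  have h11 : (B x) ^ a = 0 := by
    rw [← h8] at h9
    obtain ⟨u, hu⟩ := hunit.map B
    rw [← hu] at h9
    exact (Units.mul_left_eq_zero u).mp h9
  have h12 : a ≤ d := by
    have h13 : f.natDegree = a + g.natDegree := by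
      have hgne : g ≠ 0 := fun h => hg0' (by rw [h, coeff_zero])
      conv_lhs => rw [hg]
      rw [natDegree_mul (pow_ne_zero _ X_ne_zero) hgne, natDegree_X_pow]
    omega
  exact pow_eq_zero_of_le h12 h11

variable [IsNoetherianRing P]

variable (S P) in
/-- Uniform nilpotency. -/
lemma exists_pow_map_eq_zero (d : ℕ) : ∃ N : ℕ, ∀ (B : P →+* Matrix (Fin d) (Fin d) (ResidueField S))
    (σ : S →+* P) (hσ : ∀ s ∈ maximalIdeal S, σ s ∈ maximalIdeal P)
    (hB : ∀ s, B (σ s) = Matrix.scalar (Fin d) (residue S s)) (x : P),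
    x ∈ maximalIdeal P ^ N → B x = 0 := by
  obtain ⟨G, hG⟩ := (isNoetherianRing_iff_ideal_fg P).mp inferInstance (maximalIdeal P)
  set K : Ideal P := Ideal.span ((fun x => x ^ d) '' (G : Set P)) with hK
  have h1 : maximalIdeal P ≤ K.radical := by
    rw [← hG, Ideal.span_le]
    intro x hx
    exact ⟨d, Ideal.subset_span ⟨x, hx, rfl⟩⟩
  obtain ⟨N, hN⟩ := Ideal.exists_pow_le_of_le_radical_of_fg h1 ⟨G, hG⟩
  refine ⟨N, fun B σ hσ hB x hx => ?_⟩
  have h2 : x ∈ K := hN hx
  have h3 : K ≤ RingHom.ker B := by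
    rw [hK, Ideal.span_le]
    rintro _ ⟨y, hy, rfl⟩
    rw [SetLike.mem_coe, RingHom.mem_ker, map_pow]
    refine pow_eq_zero_of_mem_maximalIdeal B σ hσ hB ?_
    rw [← hG]
    exact Ideal.subset_span hy
  exact h3 h2

variable (S P) in
/-- **Uniform continuity** of the actions. -/
lemma exists_pow_matIn (d : ℕ) : ∃ N : ℕ, ∀ (J : Ideal S) (hJ : J ≤ maximalIdeal S)
    (A : P →+* Matrix (Fin d) (Fin d) (S ⧸ J))
    (σ : S →+* P) (hσ : ∀ s ∈ maximalIdeal S, σ s ∈ maximalIdeal P)
    (hA : ∀ s, A (σ s) = Matrix.scalar (Fin d) (Ideal.Quotient.mk J s)) (k : ℕ) (x : P),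
    x ∈ maximalIdeal P ^ (N * k) → MatIn ((maximalIdeal S ^ k).map (Ideal.Quotient.mk J)) (A x) := by
  obtain ⟨N, hN⟩ := exists_pow_map_eq_zero S P d
  refine ⟨N, fun J hJ A σ hσ hA k => ?_⟩
  have h1 : ∀ x ∈ maximalIdeal P ^ N, MatIn ((maximalIdeal S).map (Ideal.Quotient.mk J)) (A x) := by
    intro x hx i j
    have h2 := hN ((RingHom.mapMatrix (Ideal.Quotient.lift J (residue S)
      (fun s hs => (residue_eq_zero_iff s).mpr (hJ hs)))).comp A) σ hσ (by
        intro s
        rw [RingHom.comp_apply, hA]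
        ext i j
        rw [RingHom.mapMatrix_apply, Matrix.map_apply, Matrix.scalar_apply, Matrix.scalar_apply]
        by_cases hij : i = j
        · subst hij
          rw [Matrix.diagonal_apply_eq, Matrix.diagonal_apply_eq, Ideal.Quotient.lift_mk]
        · rw [Matrix.diagonal_apply_ne _ hij, Matrix.diagonal_apply_ne _ hij, map_zero]) x hx
    have h3 := congrFun (congrFun h2 i) j
    rw [RingHom.comp_apply, RingHom.mapMatrix_apply, Matrix.map_apply, Matrix.zero_apply] at h3
    obtain ⟨s, hs⟩ := Ideal.Quotient.mk_surjective (A x i j)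
    rw [← hs, Ideal.Quotient.lift_mk] at h3
    rw [← hs]
    exact Ideal.mem_map_of_mem _ ((residue_eq_zero_iff s).mp h3)
  induction k with
  | zero =>
    intro x _ i j
    rw [pow_zero, Ideal.one_eq_top, Ideal.map_top]
    exact Submodule.mem_top
  | succ k ih =>
    intro x hx
    rw [Nat.mul_succ, pow_add] at hx
    refine Submodule.mul_induction_on hx ?_ ?_
    · intro y hy z hz
      rw [map_mul, pow_succ, Ideal.map_mul]
      exact (ih y hy).mul (h1 z hz)
    · intro y z hy hz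
      rw [map_add]
      exact hy.add hz

end Nilpotent

section Limit

variable {S : Type*} [CommRing S] [IsLocalRing S] [IsAdicComplete (maximalIdeal S) S]
  {P : Type*} [CommRing P] {d : ℕ}

/-- The ultralimit of a sequence of ring homomorphisms to a complete ring with finite
quotients. -/
theorem exists_ringHom_limit (hfin : ∀ k : ℕ, Finite (S ⧸ maximalIdeal S ^ k))
    (ψ : ℕ → P →+* S) :
    ∃ φ : P →+* S, ∀ x, IsULim (maximalIdeal S) (fun n => ψ n x) (φ x) := by
  choose φ hφ using fun x : P => exists_isULim (I := maximalIdeal S) hfin (fun n => ψ n x)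
  refine ⟨{ toFun := φ, map_one' := ?_, map_mul' := ?_, map_zero' := ?_, map_add' := ?_ }, hφ⟩
  · refine (hφ 1).unique (IsULim.const 1 |>.congr fun k => Eventually.of_forall fun n => ?_)
    simp
  · intro x y
    refine (hφ (x * y)).unique (((hφ x).mul (hφ y)).congr fun k => Eventually.of_forall fun n => ?_)
    simp
  · refine (hφ 0).unique (IsULim.const 0 |>.congr fun k => Eventually.of_forall fun n => ?_)
    simp
  · intro x y
    refine (hφ (x + y)).unique (((hφ x).add (hφ y)).congr fun k => Eventually.of_forall fun n => ?_)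
    simp

/-- Approximation of matrices over `S ⧸ J n` by a matrix over `S`. -/
def IsMatLim (J : ℕ → Ideal S) (M : ∀ n, Matrix (Fin d) (Fin d) (S ⧸ J n))
    (M' : Matrix (Fin d) (Fin d) S) : Prop :=
  ∀ k : ℕ, ∀ᶠ n in (UU : Filter ℕ), MatIn ((maximalIdeal S ^ k).map (Ideal.Quotient.mk (J n)))
    (M n - M'.map (Ideal.Quotient.mk (J n)))

omit [IsAdicComplete (maximalIdeal S) S] in
lemma isMatLim_iff {J : ℕ → Ideal S} (hJ : ∀ k, ∀ᶠ n in atTop, J n ≤ maximalIdeal S ^ k)
    {M : ∀ n, Matrix (Fin d) (Fin d) (S ⧸ J n)} {M' : Matrix (Fin d) (Fin d) S} :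
    IsMatLim J M M' ↔ ∀ (m : ∀ n, Matrix (Fin d) (Fin d) S),
      (∀ n i j, Ideal.Quotient.mk (J n) (m n i j) = M n i j) →
      ∀ i j, IsULim (maximalIdeal S) (fun n => m n i j) (M' i j) := by
  constructor
  · intro h m hm i j k
    filter_upwards [h k, eventually_of_atTop (hJ k)] with n h1 h2
    have h3 := h1 i j
    rw [Matrix.sub_apply, ← hm, Matrix.map_apply, ← map_sub,
      Ideal.mem_map_iff_of_surjective _ Ideal.Quotient.mk_surjective] at h3
    obtain ⟨x, hx, hx2⟩ := h3
    have h4 : x - (m n i j - M' i j) ∈ J n := Ideal.Quotient.eq.mp hx2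
    have h5 : m n i j - M' i j = x - (x - (m n i j - M' i j)) := by ring
    rw [h5]
    exact Ideal.sub_mem _ hx (h2 h4)
  · intro h k
    have h1 : ∀ n, ∀ i j, ∃ s, Ideal.Quotient.mk (J n) s = M n i j := fun n i j =>
      Ideal.Quotient.mk_surjective _
    choose m hm using h1
    have h2 := h m hm
    have h3 : ∀ᶠ n in (UU : Filter ℕ), ∀ i j : Fin d, m n i j - M' i j ∈ maximalIdeal S ^ k := by
      rw [eventually_all]
      intro i
      rw [eventually_all]
      intro j
      exact h2 i j k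
    filter_upwards [h3] with n h4 i j
    rw [Matrix.sub_apply, ← hm, Matrix.map_apply, ← map_sub]
    exact Ideal.mem_map_of_mem _ (h4 i j)

/-- **Existence of the patched action.** -/
theorem exists_matrix_limit (hfin : ∀ k : ℕ, Finite (S ⧸ maximalIdeal S ^ k)) {J : ℕ → Ideal S}
    (hJ : ∀ k, ∀ᶠ n in atTop, J n ≤ maximalIdeal S ^ k)
    (A : ∀ n, P →+* Matrix (Fin d) (Fin d) (S ⧸ J n)) :
    ∃ B : P →+* Matrix (Fin d) (Fin d) S, ∀ x, IsMatLim J (fun n => A n x) (B x) := by
  have h1 : ∀ n, ∀ (x : P) i j, ∃ s, Ideal.Quotient.mk (J n) s = A n x i j := fun n x i j =>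
    Ideal.Quotient.mk_surjective _
  choose m hm using h1
  choose B hB using fun (x : P) (i j : Fin d) => exists_isULim (I := maximalIdeal S) hfin
    (fun n => m n x i j)
  have key : ∀ (x : P) (y : ℕ → Matrix (Fin d) (Fin d) S) (b : Matrix (Fin d) (Fin d) S),
      (∀ n i j, Ideal.Quotient.mk (J n) (y n i j) = A n x i j) →
      (∀ i j, IsULim (maximalIdeal S) (fun n => y n i j) (b i j)) → Matrix.of (B x) = b := by
    intro x y b hy hb
    ext i j
    refine (hB x i j).unique ((hb i j).congr fun k => ?_)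
    filter_upwards [eventually_of_atTop (hJ k)] with n hn
    apply hn
    apply Ideal.Quotient.eq.mp
    rw [hm, hy]
  refine ⟨{ toFun := fun x => Matrix.of (B x), map_one' := ?_, map_mul' := ?_, map_zero' := ?_,
            map_add' := ?_ }, ?_⟩
  · refine key 1 (fun _ => 1) 1 (fun n i j => ?_) (fun i j => IsULim.const _)
    rw [map_one]
    by_cases hij : i = j
    · subst hij; simp
    · simp [Matrix.one_apply_ne hij]
  · intro x y
    refine key (x * y) (fun n => Matrix.of (m n x) * Matrix.of (m n y)) _ (fun n i j => ?_)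
      (fun i j => ?_)
    · rw [map_mul, Matrix.mul_apply, Matrix.mul_apply, map_sum]
      refine Finset.sum_congr rfl fun l _ => ?_
      rw [map_mul, Matrix.of_apply, Matrix.of_apply, hm, hm]
    · simp only [Matrix.mul_apply]
      exact IsULim.sum _ fun l _ => (hB x i l).mul (hB y l j)
  · refine key 0 (fun _ => 0) 0 (fun n i j => ?_) (fun i j => IsULim.const _)
    rw [map_zero, Matrix.zero_apply, Matrix.zero_apply, map_zero]
  · intro x y
    refine key (x + y) (fun n => Matrix.of (m n x) + Matrix.of (m n y)) _ (fun n i j => ?_)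
      (fun i j => ?_)
    · rw [map_add, Matrix.add_apply, Matrix.add_apply, map_add, Matrix.of_apply, Matrix.of_apply,
        hm, hm]
    · exact (hB x i j).add (hB y i j)
  · intro x
    rw [isMatLim_iff hJ]
    intro y hy i j
    refine (hB x i j).congr fun k => ?_
    filter_upwards [eventually_of_atTop (hJ k)] with n hn
    apply hn
    apply Ideal.Quotient.eq.mp
    rw [hm, hy]

/-- Uniqueness of matrix limits. -/
lemma IsMatLim.unique {J : ℕ → Ideal S}
    (hJ : ∀ k, ∀ᶠ n in atTop, J n ≤ maximalIdeal S ^ k)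
    {M : ∀ n, Matrix (Fin d) (Fin d) (S ⧸ J n)} {M₁ M₂ : Matrix (Fin d) (Fin d) S}
    (h₁ : IsMatLim J M M₁) (h₂ : IsMatLim J M M₂) : M₁ = M₂ := by
  rw [isMatLim_iff hJ] at h₁ h₂
  have h1 : ∀ n, ∀ i j, ∃ s, Ideal.Quotient.mk (J n) s = M n i j := fun n i j =>
    Ideal.Quotient.mk_surjective _
  choose m hm using h1
  ext i j
  exact (h₁ m hm i j).unique (h₂ m hm i j)

omit [IsAdicComplete (maximalIdeal S) S] in
/-- Constant sequences. -/
lemma IsMatLim.const (J : ℕ → Ideal S) (M : Matrix (Fin d) (Fin d) S) :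
    IsMatLim J (fun n => M.map (Ideal.Quotient.mk (J n))) M := fun k =>
  Eventually.of_forall fun n i j => by
    rw [sub_self]; exact Ideal.zero_mem _

omit [IsAdicComplete (maximalIdeal S) S] in
/-- Perturbation of sequences. -/
lemma IsMatLim.congr {J : ℕ → Ideal S}
    {M N : ∀ n, Matrix (Fin d) (Fin d) (S ⧸ J n)} {M' : Matrix (Fin d) (Fin d) S}
    (h : IsMatLim J M M')
    (h' : ∀ k, ∀ᶠ n in (UU : Filter ℕ),
      MatIn ((maximalIdeal S ^ k).map (Ideal.Quotient.mk (J n))) (N n - M n)) :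
    IsMatLim J N M' := fun k => by
  filter_upwards [h k, h' k] with n h1 h2
  have : N n - M'.map (Ideal.Quotient.mk (J n)) =
    (N n - M n) + (M n - M'.map (Ideal.Quotient.mk (J n))) := by abel
  rw [this]
  exact h2.add h1

/-- Relations valid at all finite levels hold in the limit. -/
lemma IsMatLim.eq_zero {J : ℕ → Ideal S}
    (hJ : ∀ k, ∀ᶠ n in atTop, J n ≤ maximalIdeal S ^ k)
    {M : ∀ n, Matrix (Fin d) (Fin d) (S ⧸ J n)} {M' : Matrix (Fin d) (Fin d) S}
    (h : IsMatLim J M M') (h0 : ∀ᶠ n in (UU : Filter ℕ), M n = 0) : M' = 0 := by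
  refine h.unique hJ ?_
  refine (IsMatLim.const J 0).congr fun k => ?_
  filter_upwards [h0] with n hn
  intro i j
  rw [hn, Matrix.sub_apply, Matrix.map_apply, Matrix.zero_apply, Matrix.zero_apply, map_zero,
    sub_zero]
  exact Ideal.zero_mem _

/-- The limit action restricted to the limit of the structure maps is by scalars. -/
theorem limit_scalar [IsLocalRing P] [IsNoetherianRing P]
    {J : ℕ → Ideal S} (hJ : ∀ k, ∀ᶠ n in atTop, J n ≤ maximalIdeal S ^ k)
    (hJ1 : ∀ n, J n ≤ maximalIdeal S)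
    {A : ∀ n, P →+* Matrix (Fin d) (Fin d) (S ⧸ J n)} {α : ℕ → S →+* P}
    (hα : ∀ n, ∀ s ∈ maximalIdeal S, α n s ∈ maximalIdeal P)
    (hA : ∀ n s, A n (α n s) = Matrix.scalar (Fin d) (Ideal.Quotient.mk (J n) s))
    {B : P →+* Matrix (Fin d) (Fin d) S} (hB : ∀ x, IsMatLim J (fun n => A n x) (B x))
    {β : S →+* P} (hβ : ∀ s, IsULim (maximalIdeal P) (fun n => α n s) (β s)) (s : S) :
    B (β s) = Matrix.scalar (Fin d) s := by
  obtain ⟨N, hN⟩ := exists_pow_matIn S P d
  refine (hB (β s)).unique hJ ?_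
  have h1 : (fun n => (Matrix.scalar (Fin d) s).map (Ideal.Quotient.mk (J n))) =
      fun n => A n (α n s) := by
    funext n
    rw [hA]
    ext i j
    rw [Matrix.map_apply, Matrix.scalar_apply, Matrix.scalar_apply]
    by_cases hij : i = j
    · subst hij
      rw [Matrix.diagonal_apply_eq, Matrix.diagonal_apply_eq]
    · rw [Matrix.diagonal_apply_ne _ hij, Matrix.diagonal_apply_ne _ hij, map_zero]
  have h2 := IsMatLim.const J (Matrix.scalar (Fin d) s)
  rw [h1] at h2
  refine h2.congr fun k => ?_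
  filter_upwards [hβ s (N * k)] with n hn
  rw [← map_sub]
  refine hN (J n) (hJ1 n) (A n) (α n) (hα n) (hA n) k _ ?_
  have : β s - α n s = - (α n s - β s) := by ring
  rw [this]
  exact (Ideal.neg_mem_iff _).mpr hn

/-- Compatibility with the level zero action: the reduction of the limit action modulo `𝔫` is
the action at level zero through the limit of the maps `ψ n`. -/
theorem limit_level_zero [IsNoetherianRing S] {R₀ : Type*} [CommRing R₀] [IsLocalRing R₀]
    [IsNoetherianRing R₀]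
    {J : ℕ → Ideal S} (hJ : ∀ k, ∀ᶠ n in atTop, J n ≤ maximalIdeal S ^ k)
    {𝔫 : Ideal S} (h𝔫 : ∀ n, J n ≤ 𝔫) (h𝔫1 : 𝔫 ≤ maximalIdeal S)
    {A : ∀ n, P →+* Matrix (Fin d) (Fin d) (S ⧸ J n)}
    {B : P →+* Matrix (Fin d) (Fin d) S} (hB : ∀ x, IsMatLim J (fun n => A n x) (B x))
    (σ : S →+* R₀) (hσ : ∀ s ∈ maximalIdeal S, σ s ∈ maximalIdeal R₀)
    (A₀ : R₀ →+* Matrix (Fin d) (Fin d) (S ⧸ 𝔫))
    (hA₀ : ∀ s, A₀ (σ s) = Matrix.scalar (Fin d) (Ideal.Quotient.mk 𝔫 s))
    {ψ : ℕ → P →+* R₀} {φ : P →+* R₀}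
    (hφ : ∀ x, IsULim (maximalIdeal R₀) (fun n => ψ n x) (φ x))
    (hAψ : ∀ n x, (A n x).map (Ideal.Quotient.factor (h𝔫 n)) = A₀ (ψ n x)) (x : P) :
    (B x).map (Ideal.Quotient.mk 𝔫) = A₀ (φ x) := by
  obtain ⟨N, hN⟩ := exists_pow_matIn S R₀ d
  ext i j
  rw [← sub_eq_zero]
  obtain ⟨c, hc⟩ := Ideal.Quotient.mk_surjective (A₀ (φ x) i j)
  rw [Matrix.map_apply, ← hc, ← map_sub, Ideal.Quotient.eq_zero_iff_mem]
  have key : ∀ k, B x i j - c ∈ 𝔫 ⊔ maximalIdeal S ^ k := by
    intro k
    obtain ⟨n, h1, h2⟩ := ((hB x k).and (hφ x (N * k))).exists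
    have h3 : MatIn ((maximalIdeal S ^ k).map (Ideal.Quotient.mk 𝔫)) (A₀ (ψ n x - φ x)) :=
      hN 𝔫 h𝔫1 A₀ σ hσ hA₀ k _ h2
    have h4 := h3 i j
    have h5 := h1 i j
    rw [Matrix.sub_apply, Matrix.map_apply] at h5
    have h6 : (Ideal.Quotient.factor (h𝔫 n)) (A n x i j - Ideal.Quotient.mk (J n) (B x i j)) ∈
        (maximalIdeal S ^ k).map (Ideal.Quotient.mk 𝔫) := by
      have := Ideal.mem_map_of_mem (Ideal.Quotient.factor (h𝔫 n)) h5
      rw [Ideal.map_map, Ideal.Quotient.factor_comp_mk] at this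
      exact this
    rw [map_sub, Ideal.Quotient.factor_mk] at h6
    rw [map_sub, Matrix.sub_apply, ← hAψ, Matrix.map_apply, ← hc] at h4
    have h7 : Ideal.Quotient.mk 𝔫 (B x i j - c) ∈ (maximalIdeal S ^ k).map (Ideal.Quotient.mk 𝔫) := by
      have h8 : Ideal.Quotient.mk 𝔫 (B x i j - c) =
        ((Ideal.Quotient.factor (h𝔫 n)) (A n x i j) - Ideal.Quotient.mk 𝔫 c) -
        ((Ideal.Quotient.factor (h𝔫 n)) (A n x i j) - Ideal.Quotient.mk 𝔫 (B x i j)) := by
        rw [map_sub]; ring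
      rw [h8]
      exact Ideal.sub_mem _ h4 h6
    rw [Ideal.mem_map_iff_of_surjective _ Ideal.Quotient.mk_surjective] at h7
    obtain ⟨y, hy, hy2⟩ := h7
    have h9 : y - (B x i j - c) ∈ 𝔫 := Ideal.Quotient.eq.mp hy2
    have h10 : B x i j - c = -(y - (B x i j - c)) + y := by ring
    rw [h10]
    exact Ideal.add_mem _ (Ideal.mem_sup_left ((Ideal.neg_mem_iff _).mpr h9))
      (Ideal.mem_sup_right hy)
  haveI : IsHausdorff (maximalIdeal S) (S ⧸ 𝔫) :=
    IsHausdorff.of_isLocalRing _ _ (Ideal.IsPrime.ne_top inferInstance)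
  have h11 : Ideal.Quotient.mk 𝔫 (B x i j - c) = 0 := by
    apply IsHausdorff.haus (I := maximalIdeal S) ‹_›
    intro k
    rw [SModEq.zero]
    obtain ⟨u, hu, v, hv, huv⟩ := Submodule.mem_sup.mp (key k)
    rw [← huv, map_add, Ideal.Quotient.eq_zero_iff_mem.mpr hu, zero_add]
    have : Ideal.Quotient.mk 𝔫 v = v • (1 : S ⧸ 𝔫) := by
      rw [Algebra.smul_def, mul_one]; rfl
    rw [this]
    exact Submodule.smul_mem_smul hv Submodule.mem_top
  exact Ideal.Quotient.eq_zero_iff_mem.mp h11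

end Limit

end Fermat.Agent.RT
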