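import Fermat.Agent.RT.Component
import Fermat.Agent.RT.PatchLimit
import Fermat.Agent.Patching.PowerSeriesRegular

set_option autoImplicit false
set_option maxHeartbeats 400000
set_option linter.style.haveILetI false
set_option linter.unusedSectionVars false
set_option linter.unusedVariables false

/-!
# The component principle for matrix representations, and dimension estimates
-/

open IsLocalRing

namespace Fermat.Agent.RT

/-- The module `S^d` with the action of `P` through a matrix representation. -/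
def PMod {S P : Type*} [CommRing S] [CommRing P] {d : ℕ}
    (_B : P →+* Matrix (Fin d) (Fin d) S) : Type _ := Fin d → S

section PMod

variable {S P : Type*} [CommRing S] [CommRing P] {d : ℕ} (B : P →+* Matrix (Fin d) (Fin d) S)

noncomputable instance : AddCommGroup (PMod B) := inferInstanceAs (AddCommGroup (Fin d → S))

noncomputable instance PMod.modS : Module S (PMod B) := inferInstanceAs (Module S (Fin d → S))

instance : Module.Finite S (PMod B) := inferInstanceAs (Module.Finite S (Fin d → S))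

/-- The underlying vector. -/
noncomputable def PMod.get : PMod B ≃ₗ[S] (Fin d → S) := LinearEquiv.refl S (Fin d → S)

noncomputable instance PMod.modP : Module P (PMod B) where
  smul x v := (PMod.get B).symm ((B x).mulVec (PMod.get B v))
  one_smul v := by
    change (PMod.get B).symm ((B 1).mulVec (PMod.get B v)) = v
    rw [map_one, Matrix.one_mulVec, LinearEquiv.symm_apply_apply]
  mul_smul x y v := by
    change (PMod.get B).symm ((B (x * y)).mulVec (PMod.get B v)) =
      (PMod.get B).symm ((B x).mulVec (PMod.get B ((PMod.get B).symm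
        ((B y).mulVec (PMod.get B v)))))
    rw [LinearEquiv.apply_symm_apply, map_mul, Matrix.mulVec_mulVec]
  smul_zero x := by
    change (PMod.get B).symm ((B x).mulVec (PMod.get B 0)) = 0
    rw [map_zero, Matrix.mulVec_zero, map_zero]
  smul_add x v w := by
    change (PMod.get B).symm ((B x).mulVec (PMod.get B (v + w))) =
      (PMod.get B).symm ((B x).mulVec (PMod.get B v)) +
      (PMod.get B).symm ((B x).mulVec (PMod.get B w))
    rw [map_add, Matrix.mulVec_add, map_add]
  add_smul x y v := by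
    change (PMod.get B).symm ((B (x + y)).mulVec (PMod.get B v)) =
      (PMod.get B).symm ((B x).mulVec (PMod.get B v)) +
      (PMod.get B).symm ((B y).mulVec (PMod.get B v))
    rw [map_add, Matrix.add_mulVec, map_add]
  zero_smul v := by
    change (PMod.get B).symm ((B 0).mulVec (PMod.get B v)) = 0
    rw [map_zero, Matrix.zero_mulVec, map_zero]

lemma PMod.get_smul (x : P) (v : PMod B) :
    PMod.get B (x • v) = (B x).mulVec (PMod.get B v) :=
  (PMod.get B).apply_symm_apply _

lemma annihilator_PMod : Module.annihilator P (PMod B) = RingHom.ker B := by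
  ext x
  rw [Module.mem_annihilator, RingHom.mem_ker]
  constructor
  · intro h
    ext i j
    have h1 := congrFun (congrArg (PMod.get B) (h ((PMod.get B).symm (Pi.single j 1)))) i
    rw [PMod.get_smul, LinearEquiv.apply_symm_apply, Matrix.mulVec_single_one, map_zero] at h1
    exact h1
  · intro h v
    apply (PMod.get B).injective
    rw [PMod.get_smul, h, Matrix.zero_mulVec, map_zero]

lemma isScalarTower_PMod (β : S →+* P) (hβ : ∀ s, B (β s) = Matrix.scalar (Fin d) s) :
    letI := β.toAlgebra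
    IsScalarTower S P (PMod B) := by
  letI := β.toAlgebra
  constructor
  intro s x v
  rw [Algebra.smul_def, mul_smul]
  apply (PMod.get B).injective
  rw [PMod.get_smul, LinearEquiv.map_smul (PMod.get B) s (x • v)]
  change (B (β s)).mulVec _ = _
  rw [hβ]
  funext i
  rw [Matrix.scalar_apply, Matrix.mulVec_diagonal]
  rfl

lemma torsionFree_PMod [IsDomain S] (s : S) (v : PMod B) (h : s • v = 0) : s = 0 ∨ v = 0 := by
  rw [or_iff_not_imp_left]
  intro hs
  apply (PMod.get B).injective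
  have h1 := congrArg (PMod.get B) h
  rw [map_smul, map_zero] at h1
  rw [map_zero]
  funext i
  exact (mul_eq_zero.mp (congrFun h1 i)).resolve_left hs

/-- **Component principle**, matrix form. -/
theorem ker_le_component [IsDomain S] [IsNoetherianRing P] (β : S →+* P)
    (hβ : ∀ s, B (β s) = Matrix.scalar (Fin d) s) {e : ℕ}
    (he : (e : WithBot ℕ∞) ≤ ringKrullDim S) {𝔭 : Ideal P} [h𝔭 : 𝔭.IsPrime]
    (h𝔭B : RingHom.ker B ≤ 𝔭) {J : Ideal P} (hJ : J.IsPrime) (hdim : ringKrullDim (P ⧸ J) ≤ e)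
    (hcov : ∀ 𝔮 : Ideal P, 𝔮.IsPrime → RingHom.ker B ≤ 𝔮 → 𝔮 ≤ 𝔭 → J ≤ 𝔮) :
    RingHom.ker B ≤ J := by
  letI := β.toAlgebra
  haveI := isScalarTower_PMod B β hβ
  rw [← annihilator_PMod] at h𝔭B hcov ⊢
  exact annihilator_le_component' (S := S) (M := PMod B) (torsionFree_PMod B) he h𝔭B hJ hdim hcov

/-- Finite covering form: if every prime of the support contains one of the `I i`. -/
theorem ker_le_component' [IsDomain S] [IsNoetherianRing P] (β : S →+* P)
    (hβ : ∀ s, B (β s) = Matrix.scalar (Fin d) s) {e : ℕ}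
    (he : (e : WithBot ℕ∞) ≤ ringKrullDim S) {𝔭 : Ideal P} [h𝔭 : 𝔭.IsPrime]
    (h𝔭B : RingHom.ker B ≤ 𝔭) {ι : Type*} (I : ι → Ideal P)
    (hI : ∀ 𝔮 : Ideal P, 𝔮.IsPrime → RingHom.ker B ≤ 𝔮 → 𝔮 ≤ 𝔭 → ∃ i, I i ≤ 𝔮) (c : ι)
    (hc : (I c).IsPrime) (hdim : ringKrullDim (P ⧸ I c) ≤ e)
    (hother : ∀ i, i ≠ c → ¬ I i ≤ 𝔭) : RingHom.ker B ≤ I c := by
  refine ker_le_component B β hβ he h𝔭B hc hdim fun 𝔮 h1 h2 h3 => ?_
  obtain ⟨i, hi⟩ := hI 𝔮 h1 h2 h3
  by_cases hic : i = c
  · rw [← hic]; exact hi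
  · exact absurd (hi.trans h3) (hother i hic)

/-- Specialisation of the support, matrix form. -/
theorem ker_map_le (β : S →+* P) (hβ : ∀ s, B (β s) = Matrix.scalar (Fin d) s)
    (𝔫 : Ideal S) {𝔭 : Ideal P} [h𝔭 : 𝔭.IsPrime] (h𝔭B : RingHom.ker B ≤ 𝔭)
    (h𝔫 : 𝔫.map β ≤ 𝔭) (x : P) (hx : (B x).map (Ideal.Quotient.mk 𝔫) = 0) : x ∈ 𝔭 := by
  letI := β.toAlgebra
  haveI := isScalarTower_PMod B β hβ
  haveI : Module.Finite P (PMod B) := finite_of_tower (S := S)
  rw [← annihilator_PMod] at h𝔭B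
  have h1 : (⟨𝔭, h𝔭⟩ : PrimeSpectrum P) ∈
      Module.support P (PMod B ⧸ (𝔫.map β • ⊤ : Submodule P (PMod B))) := by
    rw [Module.support_quotient]
    exact ⟨Module.mem_support_iff_of_finite.mpr h𝔭B, h𝔫⟩
  have h2 := Module.mem_support_iff_of_finite.mp h1
  apply h2
  rw [Module.mem_annihilator]
  intro y
  obtain ⟨v, rfl⟩ := Submodule.Quotient.mk_surjective _ y
  rw [← Submodule.Quotient.mk_smul, Submodule.Quotient.mk_eq_zero]
  have h3 : ∀ w : PMod B, (∀ i, PMod.get B w i ∈ 𝔫) →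
      w ∈ (𝔫.map β • ⊤ : Submodule P (PMod B)) := by
    intro w hw
    have h4 : w = ∑ i : Fin d, β (PMod.get B w i) • (PMod.get B).symm (Pi.single i 1) := by
      apply (PMod.get B).injective
      rw [map_sum]
      have h5 : ∀ i : Fin d, PMod.get B (β (PMod.get B w i) • (PMod.get B).symm (Pi.single i 1)) =
          PMod.get B w i • (Pi.single i 1 : Fin d → S) := by
        intro i
        rw [PMod.get_smul, hβ, LinearEquiv.apply_symm_apply]
        funext j
        rw [Matrix.scalar_apply, Matrix.mulVec_diagonal]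
        rfl
      rw [Finset.sum_congr rfl fun i _ => h5 i]
      funext j
      rw [Finset.sum_apply]
      simp [Pi.single_apply]
    rw [h4]
    exact Submodule.sum_mem _ fun i _ =>
      Submodule.smul_mem_smul (Ideal.mem_map_of_mem _ (hw i)) Submodule.mem_top
  apply h3
  intro i
  rw [PMod.get_smul, Matrix.mulVec_eq_sum, Finset.sum_apply]
  refine Ideal.sum_mem _ fun j _ => ?_
  rw [Pi.smul_apply]
  refine Ideal.mul_mem_right _ _ ?_
  have := congrFun (congrFun hx i) j
  rw [Matrix.map_apply, Matrix.zero_apply] at this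
  exact Ideal.Quotient.eq_zero_iff_mem.mp this

/-- **Taylor's trick**, matrix form. -/
theorem ker_le_of_congr {B₁ B₂ : P →+* Matrix (Fin d) (Fin d) S} (β : S →+* P)
    (hβ₁ : ∀ s, B₁ (β s) = Matrix.scalar (Fin d) s)
    (ϖ : Ideal S) (hcongr : ∀ x, (B₁ x).map (Ideal.Quotient.mk ϖ) = (B₂ x).map (Ideal.Quotient.mk ϖ))
    {𝔭 : Ideal P} [h𝔭 : 𝔭.IsPrime] (hϖ : ϖ.map β ≤ 𝔭) (h : RingHom.ker B₁ ≤ 𝔭) :
    RingHom.ker B₂ ≤ 𝔭 := by
  intro x hx
  refine ker_map_le B₁ β hβ₁ ϖ h hϖ x ?_
  rw [hcongr, RingHom.mem_ker.mp hx]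
  ext i j
  simp

/-- Primes of a component of the support above a given prime of `S`. -/
theorem exists_prime_over_of_ker_le [IsDomain S] [IsNoetherianRing P] (β : S →+* P)
    (hβ : ∀ s, B (β s) = Matrix.scalar (Fin d) s) {J : Ideal P} [hJ : J.IsPrime]
    (hBJ : RingHom.ker B ≤ J) (hJ0 : J.comap β = ⊥) (𝔫 : Ideal S) [h𝔫 : 𝔫.IsPrime] :
    ∃ 𝔭 : Ideal P, 𝔭.IsPrime ∧ J ≤ 𝔭 ∧ 𝔭.comap β = 𝔫 := by
  letI := β.toAlgebra
  haveI := isScalarTower_PMod B β hβ
  rw [← annihilator_PMod] at hBJ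
  exact exists_prime_over (S := S) (M := PMod B) hBJ hJ0 𝔫

/-- A component of dimension at most `dim S` in the support contracts to zero. -/
theorem comap_eq_bot_of_component [IsDomain S] [IsNoetherianRing P] (β : S →+* P)
    (hβ : ∀ s, B (β s) = Matrix.scalar (Fin d) s) {e : ℕ}
    (he : (e : WithBot ℕ∞) ≤ ringKrullDim S)
    {J : Ideal P} (hJ : J.IsPrime) (hdim : ringKrullDim (P ⧸ J) ≤ e)
    (hcov : ∀ 𝔮 : Ideal P, 𝔮.IsPrime → RingHom.ker B ≤ 𝔮 → 𝔮 ≤ J → J ≤ 𝔮)
    (hBJ : RingHom.ker B ≤ J) : J.comap β = ⊥ := by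
  letI := β.toAlgebra
  haveI := isScalarTower_PMod B β hβ
  rw [← annihilator_PMod] at hBJ hcov
  obtain ⟨𝔮, h𝔮, h𝔮J⟩ := Ideal.exists_minimalPrimes_le hBJ
  have h1 := hcov 𝔮 h𝔮.1.1 h𝔮.1.2 h𝔮J
  have h2 : J = 𝔮 := le_antisymm h1 h𝔮J
  rw [h2]
  exact comap_eq_bot_of_mem_minimalPrimes (S := S) (M := PMod B) (torsionFree_PMod B) h𝔮

end PMod

section Dim

/-- The dimension of a power series ring over a discrete valuation ring is at least the number of
variables plus one. -/
lemma le_ringKrullDim_mvPowerSeries {𝒪 : Type*} [CommRing 𝒪] [IsDomain 𝒪]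
    [IsDiscreteValuationRing 𝒪] (r : ℕ)
    [IsNoetherianRing (MvPowerSeries (Fin r) 𝒪)] :
    ((r + 1 : ℕ) : WithBot ℕ∞) ≤ ringKrullDim (MvPowerSeries (Fin r) 𝒪) := by
  obtain ⟨ϖ, hϖ⟩ := IsDiscreteValuationRing.exists_irreducible 𝒪
  have h1 := Fermat.Agent.Patching.isWeaklyRegular_X_append (r := r) ϖ (fun x hx => by
    rcases mul_eq_zero.mp hx with h | h
    · exact absurd h hϖ.ne_zero
    · exact h)
  have hmem : ∀ f ∈ (List.ofFn (MvPowerSeries.X : Fin r → MvPowerSeries (Fin r) 𝒪) ++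
      [MvPowerSeries.C ϖ]), f ∈ maximalIdeal (MvPowerSeries (Fin r) 𝒪) := by
    intro f hf
    rw [mem_maximalIdeal, mem_nonunits_iff, MvPowerSeries.isUnit_iff_constantCoeff]
    rcases List.mem_append.mp hf with h | h
    · obtain ⟨i, rfl⟩ := (List.mem_ofFn' _ _).mp h
      simp
    · rw [List.mem_singleton.mp h, MvPowerSeries.constantCoeff_C]
      exact hϖ.not_isUnit
  have h2 : RingTheory.Sequence.IsRegular (MvPowerSeries (Fin r) 𝒪)
      (List.ofFn (MvPowerSeries.X : Fin r → MvPowerSeries (Fin r) 𝒪) ++ [MvPowerSeries.C ϖ]) :=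
    RingTheory.Sequence.IsRegular.of_isWeaklyRegular_of_mem_maximalIdeal _ hmem h1
  have h3 := ringKrullDim_add_length_eq_ringKrullDim_of_isRegular _ h2
  rw [← h3, List.length_append, List.length_ofFn, List.length_singleton]
  haveI : Nontrivial (MvPowerSeries (Fin r) 𝒪 ⧸ Ideal.ofList
      (List.ofFn (MvPowerSeries.X : Fin r → MvPowerSeries (Fin r) 𝒪) ++ [MvPowerSeries.C ϖ])) := by
    apply Ideal.Quotient.nontrivial_iff.mpr
    intro h
    have h4 : Ideal.ofList (List.ofFn (MvPowerSeries.X : Fin r → MvPowerSeries (Fin r) 𝒪) ++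
      [MvPowerSeries.C ϖ]) ≤ maximalIdeal (MvPowerSeries (Fin r) 𝒪) := by
      rw [Ideal.ofList, Ideal.span_le]
      exact hmem
    rw [h, top_le_iff] at h4
    exact (Ideal.IsPrime.ne_top inferInstance) h4
  have h5 := ringKrullDim_nonneg_of_nontrivial (R := MvPowerSeries (Fin r) 𝒪 ⧸ Ideal.ofList
      (List.ofFn (MvPowerSeries.X : Fin r → MvPowerSeries (Fin r) 𝒪) ++ [MvPowerSeries.C ϖ]))
  calc ((r + 1 : ℕ) : WithBot ℕ∞) = 0 + ((r + 1 : ℕ) : WithBot ℕ∞) := by rw [zero_add]
    _ ≤ _ := by gcongr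

/-- Upper bound for the dimension from a system of parameters. -/
lemma ringKrullDim_quotient_le_of_pow_le {P : Type*} [CommRing P] [IsLocalRing P]
    [IsNoetherianRing P] (I : Ideal P) {m : ℕ} (θ : Fin m → P)
    (hθ : ∀ i, θ i ∈ maximalIdeal P) {N : ℕ}
    (h : maximalIdeal P ^ N ≤ I ⊔ Ideal.span (Set.range θ)) :
    ringKrullDim (P ⧸ I) ≤ m := by
  classical
  by_cases hI : I = ⊤
  · haveI : Subsingleton (P ⧸ I) := Ideal.Quotient.subsingleton_iff.mpr hI
    rw [ringKrullDim_eq_bot_of_subsingleton]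
    exact bot_le
  haveI : Nontrivial (P ⧸ I) := Ideal.Quotient.nontrivial_iff.mpr hI
  haveI : IsLocalRing (P ⧸ I) := IsLocalRing.of_surjective' (Ideal.Quotient.mk I)
    Ideal.Quotient.mk_surjective
  set s : Finset (P ⧸ I) := Finset.univ.image fun i => Ideal.Quotient.mk I (θ i) with hs
  have hmax : ∀ x ∈ maximalIdeal P, Ideal.Quotient.mk I x ∈ maximalIdeal (P ⧸ I) := by
    intro x hx hu
    obtain ⟨y, hy⟩ := hu.exists_right_inv
    obtain ⟨y, rfl⟩ := Ideal.Quotient.mk_surjective y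
    rw [← map_mul, ← map_one (Ideal.Quotient.mk I)] at hy
    have h1 := Ideal.Quotient.eq.mp hy
    have h2 : (1 : P) ∈ maximalIdeal P := by
      have h3 : (1 : P) = x * y - (x * y - 1) := by ring
      rw [h3]
      exact Ideal.sub_mem _ (Ideal.mul_mem_right _ _ hx) (le_maximalIdeal hI h1)
    exact h2 isUnit_one
  have h1 := ringKrullDim_le_ringKrullDim_quotient_add_card s (by
    rw [IsLocalRing.ringJacobson_eq_maximalIdeal]
    intro x hx
    rw [hs, Finset.coe_image, Finset.coe_univ, Set.image_univ] at hx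
    obtain ⟨i, rfl⟩ := hx
    exact hmax _ (hθ i))
  have h2 : ringKrullDim ((P ⧸ I) ⧸ Ideal.span (s : Set (P ⧸ I))) ≤ 0 := by
    have h3 : Ring.KrullDimLE 0 ((P ⧸ I) ⧸ Ideal.span (s : Set (P ⧸ I))) := by
      apply Ring.KrullDimLE.mk₀
      intro 𝔮 h𝔮
      set f : P →+* (P ⧸ I) ⧸ Ideal.span (s : Set (P ⧸ I)) :=
        (Ideal.Quotient.mk _).comp (Ideal.Quotient.mk I) with hf
      have hfs : Function.Surjective f :=
        Ideal.Quotient.mk_surjective.comp Ideal.Quotient.mk_surjective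
      have h4 : maximalIdeal P ≤ 𝔮.comap f := by
        haveI : (𝔮.comap f).IsPrime := Ideal.IsPrime.comap f
        apply Ideal.IsPrime.le_of_pow_le (n := N)
        refine h.trans (sup_le ?_ ?_)
        · intro x hx
          rw [Ideal.mem_comap, hf, RingHom.comp_apply, Ideal.Quotient.eq_zero_iff_mem.mpr hx,
            map_zero]
          exact Ideal.zero_mem _
        · rw [Ideal.span_le]
          rintro _ ⟨i, rfl⟩
          rw [SetLike.mem_coe, Ideal.mem_comap, hf, RingHom.comp_apply]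
          have h5 : Ideal.Quotient.mk I (θ i) ∈ Ideal.span (s : Set (P ⧸ I)) :=
            Ideal.subset_span (by
              rw [hs, Finset.coe_image, Finset.coe_univ, Set.image_univ]
              exact ⟨i, rfl⟩)
          rw [Ideal.Quotient.eq_zero_iff_mem.mpr h5]
          exact Ideal.zero_mem _
      have h5 : 𝔮.comap f = maximalIdeal P := by
        haveI : (𝔮.comap f).IsPrime := Ideal.IsPrime.comap f
        exact (le_maximalIdeal (Ideal.IsPrime.ne_top ‹_›)).antisymm h4
      have h6 : 𝔮 = (maximalIdeal P).map f := by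
        rw [← h5, Ideal.map_comap_of_surjective f hfs]
      rcases Ideal.map_eq_top_or_isMaximal_of_surjective f hfs
        (IsLocalRing.maximalIdeal.isMaximal P) with h7 | h7
      · exact absurd (h6.trans h7) h𝔮.ne_top
      · rw [h6]; exact h7
    exact (Order.krullDimLE_iff 0 _).mp h3
  calc ringKrullDim (P ⧸ I) ≤ ringKrullDim ((P ⧸ I) ⧸ Ideal.span (s : Set (P ⧸ I))) + s.card := h1
    _ ≤ 0 + (m : WithBot ℕ∞) := by
        gcongr
        have : s.card ≤ m := by
          rw [hs]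
          exact Finset.card_image_le.trans (by simp)
        exact_mod_cast this
    _ = m := zero_add _

end Dim

end Fermat.Agent.RT
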