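import Fermat.Agent.RT.LocType
import Fermat.Agent.RT.MatrixForm

set_option autoImplicit false
set_option maxHeartbeats 400000
set_option linter.style.haveILetI false
set_option linter.unusedSectionVars false
set_option linter.unusedVariables false

/-!
# Power series with coefficients acting on a free module
-/

open IsLocalRing MvPowerSeries Finsupp

namespace Fermat.Agent.RT

/-- A power series from its coefficients. -/
def mkPS {σ R : Type*} (f : (σ →₀ ℕ) → R) : MvPowerSeries σ R := f

lemma coeff_mkPS {σ R : Type*} [CommRing R] (f : (σ →₀ ℕ) → R) (e : σ →₀ ℕ) :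
    coeff e (mkPS f) = f e := rfl

section Curry

variable {ι σ τ : Type} (E : (ι →₀ ℕ) ≃+ (σ →₀ ℕ) × (τ →₀ ℕ)) {R : Type*} [CommRing R]

/-- Iterated power series (function). -/
noncomputable def curFun (f : MvPowerSeries ι R) : MvPowerSeries τ (MvPowerSeries σ R) :=
  fun b => (fun a => coeff (E.symm (a, b)) f : MvPowerSeries σ R)

lemma coeff_curFun (f : MvPowerSeries ι R) (a : σ →₀ ℕ) (b : τ →₀ ℕ) :
    coeff a (coeff b (curFun E f)) = coeff (E.symm (a, b)) f := rfl

lemma ext_two {f g : MvPowerSeries τ (MvPowerSeries σ R)}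
    (h : ∀ a b, coeff a (coeff b f) = coeff a (coeff b g)) : f = g := by
  ext b a
  exact h a b

lemma curFun_mul (f g : MvPowerSeries ι R) : curFun E (f * g) = curFun E f * curFun E g := by
  classical
  apply ext_two
  intro a b
  rw [coeff_curFun, coeff_mul, coeff_mul, map_sum]
  have h1 : ∀ p : (τ →₀ ℕ) × (τ →₀ ℕ), coeff a (coeff p.1 (curFun E f) * coeff p.2 (curFun E g)) =
      ∑ r ∈ Finset.HasAntidiagonal.antidiagonal a, coeff (E.symm (r.1, p.1)) f * coeff (E.symm (r.2, p.2)) g := by
    intro p
    rw [coeff_mul]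
    rfl
  rw [Finset.sum_congr rfl fun p _ => h1 p, ← Finset.sum_product']
  refine Finset.sum_nbij' (fun p => (((E p.1).2, (E p.2).2), ((E p.1).1, (E p.2).1)))
    (fun p => (E.symm (p.2.1, p.1.1), E.symm (p.2.2, p.1.2))) ?_ ?_ ?_ ?_ ?_
  · intro p hp
    rw [Finset.HasAntidiagonal.mem_antidiagonal] at hp
    have := congrArg E hp
    rw [map_add, AddEquiv.apply_symm_apply] at this
    rw [Finset.mem_product, Finset.HasAntidiagonal.mem_antidiagonal, Finset.HasAntidiagonal.mem_antidiagonal]
    exact ⟨congrArg Prod.snd this, congrArg Prod.fst this⟩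
  · intro p hp
    rw [Finset.mem_product, Finset.HasAntidiagonal.mem_antidiagonal, Finset.HasAntidiagonal.mem_antidiagonal] at hp
    rw [Finset.HasAntidiagonal.mem_antidiagonal]
    apply E.injective
    rw [map_add, AddEquiv.apply_symm_apply, AddEquiv.apply_symm_apply,
      AddEquiv.apply_symm_apply, Prod.mk_add_mk, hp.1, hp.2]
  · intro p hp
    simp
  · intro p hp
    simp
  · intro p hp
    simp

lemma curFun_C (b : R) : curFun E (C b) = C (C b) := by
  classical
  apply ext_two
  intro x y
  rw [coeff_curFun, coeff_C, coeff_C]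
  by_cases hy : y = 0
  · subst hy
    rw [if_pos rfl, coeff_C]
    by_cases hx : x = 0
    · subst hx
      rw [if_pos rfl, if_pos]
      exact map_zero _
    · rw [if_neg hx, if_neg]
      intro h
      apply hx
      have := congrArg E h
      rw [AddEquiv.apply_symm_apply, map_zero] at this
      exact congrArg Prod.fst this
  · rw [if_neg hy, map_zero, if_neg]
    intro h
    apply hy
    have := congrArg E h
    rw [AddEquiv.apply_symm_apply, map_zero] at this
    exact congrArg Prod.snd this

/-- Iterated power series. -/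
noncomputable def cur : MvPowerSeries ι R →+* MvPowerSeries τ (MvPowerSeries σ R) where
  toFun f := curFun E f
  map_one' := by
    have := curFun_C E (1 : R)
    rw [map_one, map_one, map_one] at this
    exact this
  map_zero' := by
    have := curFun_C E (0 : R)
    rw [map_zero, map_zero, map_zero] at this
    exact this
  map_add' f g := by
    apply ext_two
    intro a b
    rw [coeff_curFun, map_add, map_add, map_add, coeff_curFun, coeff_curFun]
  map_mul' f g := curFun_mul E f g

lemma coeff_coeff_cur (f : MvPowerSeries ι R) (a : σ →₀ ℕ) (b : τ →₀ ℕ) :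
    coeff a (coeff b (cur E f)) = coeff (E.symm (a, b)) f := rfl

lemma cur_surjective : Function.Surjective (cur E (R := R)) := by
  intro g
  refine ⟨mkPS fun e => coeff (E e).1 (coeff (E e).2 g), ?_⟩
  apply ext_two
  intro a b
  rw [coeff_coeff_cur, coeff_mkPS, AddEquiv.apply_symm_apply]

lemma constantCoeff_cur (f : MvPowerSeries ι R) :
    constantCoeff (constantCoeff (cur E f)) = constantCoeff f := by
  rw [← coeff_zero_eq_constantCoeff_apply, ← coeff_zero_eq_constantCoeff_apply,
    ← coeff_zero_eq_constantCoeff_apply, coeff_coeff_cur]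
  congr 1
  have : ((0, 0) : (σ →₀ ℕ) × (τ →₀ ℕ)) = 0 := rfl
  rw [this, map_zero]

lemma cur_C (b : R) : cur E (C b) = C (C b) := curFun_C E b

end Curry

section Ext

variable {F : Type} {T R : Type*} [CommRing T] [CommRing R] {d : ℕ}

/-- Extension of an action by matrices to power series (function). -/
noncomputable def frameFun (A : T →+* Matrix (Fin d) (Fin d) R) (f : MvPowerSeries F T)
    (i j : Fin d) : MvPowerSeries F R := fun e => A (coeff e f) i j

lemma coeff_frameFun (A : T →+* Matrix (Fin d) (Fin d) R) (f : MvPowerSeries F T)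
    (i j : Fin d) (e : F →₀ ℕ) : coeff e (frameFun A f i j) = A (coeff e f) i j := rfl

/-- Extension of an action by matrices to power series. -/
noncomputable def frameExt (A : T →+* Matrix (Fin d) (Fin d) R) :
    MvPowerSeries F T →+* Matrix (Fin d) (Fin d) (MvPowerSeries F R) where
  toFun f := Matrix.of (frameFun A f)
  map_one' := by
    classical
    ext i j e
    rw [Matrix.of_apply, coeff_frameFun, coeff_one, Matrix.one_apply]
    by_cases he : e = 0
    · rw [if_pos he, map_one, Matrix.one_apply]
      by_cases hij : i = j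
      · rw [if_pos hij, if_pos hij, coeff_one, if_pos he]
      · rw [if_neg hij, if_neg hij, map_zero]
    · rw [if_neg he, map_zero]
      by_cases hij : i = j
      · rw [if_pos hij, coeff_one, if_neg he]; rfl
      · rw [if_neg hij, map_zero]; rfl
  map_zero' := by
    ext i j e
    rw [Matrix.of_apply, coeff_frameFun, map_zero, map_zero, Matrix.zero_apply, Matrix.zero_apply,
      map_zero]
  map_add' f g := by
    ext i j e
    rw [Matrix.of_apply, coeff_frameFun, Matrix.add_apply, map_add, map_add, map_add,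
      Matrix.add_apply]
    rfl
  map_mul' f g := by
    classical
    ext i j e
    rw [Matrix.of_apply, Matrix.mul_apply, map_sum, coeff_frameFun, coeff_mul, map_sum,
      Matrix.sum_apply]
    have h1 : ∀ l : Fin d, coeff e (Matrix.of (frameFun A f) i l * Matrix.of (frameFun A g) l j) =
        ∑ p ∈ Finset.HasAntidiagonal.antidiagonal e, A (coeff p.1 f) i l * A (coeff p.2 g) l j := by
      intro l
      rw [coeff_mul]
      rfl
    rw [Finset.sum_congr rfl fun l _ => h1 l, Finset.sum_comm]
    refine Finset.sum_congr rfl fun p _ => ?_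
    rw [map_mul, Matrix.mul_apply]

lemma coeff_frameExt (A : T →+* Matrix (Fin d) (Fin d) R) (f : MvPowerSeries F T) (i j : Fin d)
    (e : F →₀ ℕ) : coeff e (frameExt A f i j) = A (coeff e f) i j := rfl

lemma constantCoeff_frameExt (A : T →+* Matrix (Fin d) (Fin d) R) (f : MvPowerSeries F T)
    (i j : Fin d) : constantCoeff (frameExt A f i j) = A (constantCoeff f) i j := by
  rw [← coeff_zero_eq_constantCoeff_apply, ← coeff_zero_eq_constantCoeff_apply, coeff_frameExt]

lemma frameExt_C_eq_zero {A : T →+* Matrix (Fin d) (Fin d) R} {t : T} (h : A t = 0) :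
    frameExt (F := F) A (C t) = 0 := by
  classical
  ext i j e
  rw [coeff_frameExt, coeff_C]
  split_ifs
  · rw [h]; rfl
  · rw [map_zero]; rfl

/-- Scalars act by scalars. -/
lemma frameExt_map_scalar {B : Type*} [CommRing B] {A : T →+* Matrix (Fin d) (Fin d) R}
    {b : B →+* T} {μ : B →+* R} (h : ∀ s, A (b s) = Matrix.scalar (Fin d) (μ s))
    (f : MvPowerSeries F B) : frameExt A (MvPowerSeries.map b f) =
      Matrix.scalar (Fin d) (MvPowerSeries.map μ f) := by
  ext i j e
  rw [coeff_frameExt, coeff_map, h, Matrix.scalar_apply, Matrix.scalar_apply,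
    Matrix.diagonal_apply, Matrix.diagonal_apply]
  split_ifs
  · rw [coeff_map]
  · rw [map_zero]

/-- Congruences extend to power series. -/
lemma frameExt_congr {A A' : T →+* Matrix (Fin d) (Fin d) R} {ϖ : R}
    (h : ∀ t, MatIn (Ideal.span {ϖ}) (A t - A' t)) (f : MvPowerSeries F T) :
    MatIn (Ideal.span {C ϖ}) (frameExt A f - frameExt A' f) := by
  intro i j
  have h1 : ∀ e, ∃ u, A (coeff e f) i j - A' (coeff e f) i j = ϖ * u := by
    intro e
    exact Ideal.mem_span_singleton.mp (h (coeff e f) i j)
  choose u hu using h1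
  rw [Ideal.mem_span_singleton]
  refine ⟨mkPS u, ?_⟩
  ext e
  have h2 : ∀ v : MvPowerSeries F R, coeff e (C ϖ * v) = ϖ * coeff e v := by
    intro v
    rw [← smul_eq_C_mul, coeff_smul]
  rw [Matrix.sub_apply, map_sub, coeff_frameExt, coeff_frameExt, hu, h2, coeff_mkPS]

end Ext

section Ker

variable {m : ℕ} {σ τ : Type} [Fintype σ] [Fintype τ] {𝒪 : Type} [CommRing 𝒪] [IsLocalRing 𝒪]
  (e : Fin m ≃ σ ⊕ τ)

/-- The additive equivalence between exponents. -/
noncomputable def expEquiv : (Fin m →₀ ℕ) ≃+ (σ →₀ ℕ) × (τ →₀ ℕ) :=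
  (Finsupp.domCongr e).trans Finsupp.sumFinsuppAddEquivProdFinsupp

lemma degree_expEquiv_symm (a : σ →₀ ℕ) (b : τ →₀ ℕ) :
    degree ((expEquiv e).symm (a, b)) = degree a + degree b := by
  rw [Finsupp.degree_eq_sum, Finsupp.degree_eq_sum, Finsupp.degree_eq_sum,
    ← Fintype.sum_equiv e.symm (fun x => ((expEquiv e).symm (a, b)) (e.symm x)) _ (fun _ => rfl),
    Fintype.sum_sum_type]
  congr 1
  · refine Finset.sum_congr rfl fun i _ => ?_
    simp [expEquiv]
  · refine Finset.sum_congr rfl fun i _ => ?_
    simp [expEquiv]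

variable (J : Ideal (MvPowerSeries σ 𝒪))

/-- The map from the ring of the limit to the ring of the finite level. -/
noncomputable def levelMap : MvPowerSeries (Fin m) 𝒪 →+* MvPowerSeries τ (MvPowerSeries σ 𝒪 ⧸ J) :=
  (MvPowerSeries.map (Ideal.Quotient.mk J)).comp (cur (expEquiv e))

lemma levelMap_surjective : Function.Surjective (levelMap e J) := by
  have h1 : Function.Surjective (MvPowerSeries.map (σ := τ) (Ideal.Quotient.mk J)) := by
    intro f
    choose u hu using fun x => Ideal.Quotient.mk_surjective (I := J) (coeff x f)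
    refine ⟨mkPS u, ?_⟩
    ext x
    rw [coeff_map, coeff_mkPS]
    exact hu x
  exact h1.comp (cur_surjective _)

lemma ker_levelMap_le {k : ℕ} (hJ : J ≤ maximalIdeal (MvPowerSeries σ 𝒪) ^ k) :
    RingHom.ker (levelMap e J) ≤ maximalIdeal (MvPowerSeries (Fin m) 𝒪) ^ k := by
  intro f hf
  rw [← Fermat.Agent.UnivDef.filt_eq_pow, Fermat.Agent.UnivDef.mem_filt]
  intro x
  obtain ⟨⟨a, b⟩, rfl⟩ := (expEquiv e).symm.surjective x
  rw [degree_expEquiv_symm, ← coeff_coeff_cur]
  have h1 : coeff b (cur (expEquiv e) f) ∈ J := by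
    rw [← Ideal.Quotient.eq_zero_iff_mem, ← coeff_map]
    have : levelMap e J f = 0 := hf
    change coeff b (levelMap e J f) = 0
    rw [this, map_zero]
  have h2 := hJ h1
  rw [← Fermat.Agent.UnivDef.filt_eq_pow, Fermat.Agent.UnivDef.mem_filt] at h2
  exact Ideal.pow_le_pow_right (by omega) (h2 a)

lemma ker_levelMap_le_constantCoeff (hJ : J ≤ RingHom.ker constantCoeff) :
    RingHom.ker (levelMap e J) ≤ RingHom.ker constantCoeff := by
  intro f hf
  rw [RingHom.mem_ker, ← constantCoeff_cur (expEquiv e)]
  have h1 : constantCoeff (cur (expEquiv e) f) ∈ J := by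
    rw [← Ideal.Quotient.eq_zero_iff_mem, ← coeff_zero_eq_constantCoeff_apply, ← coeff_map]
    have : levelMap e J f = 0 := hf
    change coeff 0 (levelMap e J f) = 0
    rw [this, map_zero]
  exact hJ h1

end Ker

end Fermat.Agent.RT
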