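import Fermat.Agent.RT.LocG

set_option autoImplicit false

/-!
# Freeness over the group ring of a `p`-group
-/

open IsLocalRing

namespace Fermat.Agent.RT

section Field

variable {k : Type*} [Field k] {p : ℕ} [Fact p.Prime] [CharP k p] {D : Type*} [CommGroup D]
  {U : Type*} [AddCommGroup U] [Module k U]

/-- A `p`-group acting on a nonzero finite vector space of characteristic `p` has a nonzero fixed
vector. -/
theorem exists_fixed (hD : IsPGroup p D) [Finite U] (ρ : D →* Module.End k U)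
    (W : Submodule k U) (hW : ∀ δ, ∀ w ∈ W, ρ δ w ∈ W) (h0 : W ≠ ⊥) :
    ∃ w ∈ W, w ≠ 0 ∧ ∀ δ, ρ δ w = w := by
  letI : MulAction D W :=
    { smul := fun δ w => ⟨ρ δ w, hW δ w w.2⟩
      one_smul := fun w => Subtype.ext (by
        change ρ 1 (w : U) = w
        rw [map_one]; rfl)
      mul_smul := fun δ δ' w => Subtype.ext (by
        change ρ (δ * δ') (w : U) = ρ δ (ρ δ' (w : U))
        rw [map_mul]; rfl) }
  obtain ⟨w, hw, hw0⟩ := Submodule.ne_bot_iff W |>.mp h0
  have hp : p ∣ Nat.card W := by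
    have h1 : addOrderOf (⟨w, hw⟩ : W) = p := by
      refine addOrderOf_eq_prime ?_ fun h => hw0 (congrArg Subtype.val h)
      apply Subtype.ext
      change p • w = 0
      rw [← Nat.cast_smul_eq_nsmul k, CharP.cast_eq_zero, zero_smul]
    rw [← h1]
    exact addOrderOf_dvd_natCard _
  obtain ⟨b, hb, hb2⟩ := hD.exists_fixed_point_of_prime_dvd_card_of_fixed_point W hp
    (a := (0 : W)) (fun δ => Subtype.ext (map_zero (ρ δ)))
  exact ⟨b, b.2, fun h => hb2 (Subtype.ext h.symm), fun δ => congrArg Subtype.val (hb δ)⟩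

theorem injective_of_fixed (hD : IsPGroup p D) [Finite U] (ρ : D →* Module.End k U)
    {U' : Type*} [AddCommGroup U'] [Module k U'] (f : U →ₗ[k] U')
    (hf : ∀ δ u, f u = 0 → f (ρ δ u) = 0) (h : ∀ u, (∀ δ, ρ δ u = u) → f u = 0 → u = 0) :
    Function.Injective f := by
  rw [← LinearMap.ker_eq_bot]
  by_contra h0
  obtain ⟨w, hw, hw0, hw2⟩ := exists_fixed hD ρ (LinearMap.ker f)
    (fun δ w hw => LinearMap.mem_ker.mpr (hf δ w (LinearMap.mem_ker.mp hw))) h0
  exact hw0 (h w hw2 (LinearMap.mem_ker.mp hw))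

variable [Finite k] [Fintype D]

/-- The translation action on functions. -/
def transAct (k D : Type*) [Field k] [CommGroup D] (d : ℕ) :
    D →* Module.End k (Fin d → D → k) where
  toFun δ :=
    { toFun := fun x j γ => x j (δ⁻¹ * γ)
      map_add' := fun _ _ => rfl
      map_smul' := fun _ _ => rfl }
  map_one' := by
    refine LinearMap.ext fun x => ?_
    funext j γ
    change x j (1⁻¹ * γ) = x j γ
    rw [inv_one, one_mul]
  map_mul' δ δ' := by
    refine LinearMap.ext fun x => ?_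
    funext j γ
    change x j ((δ * δ')⁻¹ * γ) = x j (δ'⁻¹ * (δ⁻¹ * γ))
    rw [mul_inv_rev, mul_assoc]

theorem bijective_field (hD : IsPGroup p D) [Module.Finite k U] (ρ : D →* Module.End k U)
    {d : ℕ} (v : Fin d → U) (hlin : LinearIndependent k fun j => ∑ δ, ρ δ (v j))
    (hspan : ∀ u, (∀ δ, ρ δ u = u) → u ∈ Submodule.span k (Set.range fun j => ∑ δ, ρ δ (v j))) :
    Function.Bijective fun x : Fin d → D → k => ∑ j, ∑ δ, x j δ • ρ δ (v j) := by
  classical
  have hU : Finite U := Module.finite_of_finite k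
  let F : (Fin d → D → k) →ₗ[k] U :=
    { toFun := fun x => ∑ j, ∑ δ, x j δ • ρ δ (v j)
      map_add' := fun x y => by
        simp only [Pi.add_apply, add_smul, Finset.sum_add_distrib]
      map_smul' := fun c x => by
        simp only [Pi.smul_apply, smul_eq_mul, mul_smul, Finset.smul_sum, RingHom.id_apply] }
  have hF : Function.Injective F := by
    refine injective_of_fixed hD (transAct k D d) F (fun δ x hx => ?_) fun x hx hx0 => ?_
    · have h1 : F (transAct k D d δ x) = ρ δ (F x) := by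
        change ∑ j, ∑ γ, x j (δ⁻¹ * γ) • ρ γ (v j) = ρ δ (∑ j, ∑ γ, x j γ • ρ γ (v j))
        rw [map_sum]
        refine Finset.sum_congr rfl fun j _ => ?_
        rw [map_sum, ← Equiv.sum_comp (Equiv.mulLeft δ)]
        refine Finset.sum_congr rfl fun γ _ => ?_
        rw [Equiv.coe_mulLeft, inv_mul_cancel_left, map_smul, map_mul]
        rfl
      rw [h1, hx, map_zero]
    · have h1 : ∀ j γ, x j γ = x j 1 := by
        intro j γ
        have := congrFun (congrFun (hx γ⁻¹) j) 1
        change x j (γ⁻¹⁻¹ * 1) = x j 1 at this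
        rwa [inv_inv, mul_one] at this
      have h2 : ∑ j, x j 1 • ∑ δ, ρ δ (v j) = 0 := by
        rw [← hx0]
        refine Finset.sum_congr rfl fun j _ => ?_
        rw [Finset.smul_sum]
        exact Finset.sum_congr rfl fun γ _ => by rw [h1 j γ]
      have h3 := Fintype.linearIndependent_iff.mp hlin _ h2
      funext j γ
      rw [h1, h3]; rfl
  -- the other injection
  have hG : ∃ G : U →ₗ[k] (Fin d → D → k), Function.Injective G := by
    let b := Module.Basis.extend (hlin.linearIndepOn_id)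
    obtain ⟨f, hf⟩ : ∃ f : U →ₗ[k] (Fin d → k), ∀ j, f (∑ δ, ρ δ (v j)) = Pi.single j 1 := by
      let N := Submodule.span k (Set.range fun j => ∑ δ, ρ δ (v j))
      let bN := Module.Basis.span hlin
      obtain ⟨g, hg⟩ := LinearMap.exists_extend (bN.constr k fun j => (Pi.single j 1 : Fin d → k))
      refine ⟨g, fun j => ?_⟩
      have h1 : (∑ δ, ρ δ (v j)) = ((bN j : N) : U) := by
        rw [Module.Basis.span_apply]
      rw [h1]
      have h2 := LinearMap.congr_fun hg (bN j)
      rw [Module.Basis.constr_basis] at h2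
      exact h2
    refine ⟨LinearMap.pi fun j => LinearMap.pi fun δ => (LinearMap.proj j).comp (f.comp (ρ δ)),
      injective_of_fixed hD ρ _ (fun δ u hu => ?_) fun u hu hu0 => ?_⟩
    · funext j γ
      have := congrFun (congrFun hu j) (γ * δ)
      change f (ρ (γ * δ) u) j = 0 at this
      change f (ρ γ (ρ δ u)) j = 0
      rw [map_mul] at this
      exact this
    · obtain ⟨c, hc⟩ := (Submodule.mem_span_range_iff_exists_fun k).mp (hspan u hu)
      have h1 : ∀ j, c j = 0 := by
        intro j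
        have := congrFun (congrFun hu0 j) 1
        change f (ρ 1 u) j = 0 at this
        rw [map_one] at this
        change f u j = 0 at this
        rw [← hc, map_sum, Finset.sum_apply] at this
        rw [Finset.sum_eq_single j] at this
        · rwa [map_smul, hf, Pi.smul_apply, Pi.single_eq_same, smul_eq_mul, mul_one] at this
        · intro i _ hij
          rw [map_smul, hf, Pi.smul_apply, Pi.single_eq_of_ne hij.symm, smul_zero]
        · intro h; exact absurd (Finset.mem_univ j) h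
      rw [← hc]
      exact Finset.sum_eq_zero fun j _ => by rw [h1, zero_smul]
  obtain ⟨G, hG⟩ := hG
  have h1 : Nat.card (Fin d → D → k) ≤ Nat.card U := Nat.card_le_card_of_injective F hF
  have h2 : Nat.card U ≤ Nat.card (Fin d → D → k) := Nat.card_le_card_of_injective G hG
  exact (Nat.bijective_iff_injective_and_card F).mpr ⟨hF, le_antisymm h1 h2⟩

end Field

section Lift

variable {𝒪 : Type*} [CommRing 𝒪] [IsLocalRing 𝒪] {V : Type*} [AddCommGroup V] [Module 𝒪 V]
  {V' : Type*} [AddCommGroup V'] [Module 𝒪 V']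

variable (𝒪 V) in
/-- The reduction of a module -/
abbrev Rd : Type _ := V ⧸ (maximalIdeal 𝒪 • (⊤ : Submodule 𝒪 V))

variable (V) in
/-- the module structure over the residue field -/
noncomputable instance modRd : Module (ResidueField 𝒪) (Rd 𝒪 V) :=
  inferInstanceAs (Module (𝒪 ⧸ maximalIdeal 𝒪) (V ⧸ (maximalIdeal 𝒪 • (⊤ : Submodule 𝒪 V))))

variable (𝒪) in
/-- reduction -/
def rd (v : V) : Rd 𝒪 V := Submodule.Quotient.mk v

theorem rd_add (v w : V) : rd 𝒪 (v + w) = rd 𝒪 v + rd 𝒪 w := rfl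

theorem rd_sub (v w : V) : rd 𝒪 (v - w) = rd 𝒪 v - rd 𝒪 w := rfl

theorem rd_smul (a : 𝒪) (v : V) : rd 𝒪 (a • v) = residue 𝒪 a • rd 𝒪 v := rfl

theorem rd_sum {ι : Type*} (s : Finset ι) (f : ι → V) :
    rd 𝒪 (∑ i ∈ s, f i) = ∑ i ∈ s, rd 𝒪 (f i) :=
  map_sum (Submodule.mkQ (maximalIdeal 𝒪 • (⊤ : Submodule 𝒪 V))) f s

theorem rd_surjective : Function.Surjective (rd 𝒪 (V := V)) := Submodule.Quotient.mk_surjective _

theorem rd_eq_zero {v : V} : rd 𝒪 v = 0 ↔ v ∈ maximalIdeal 𝒪 • (⊤ : Submodule 𝒪 V) :=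
  Submodule.Quotient.mk_eq_zero _

theorem rd_eq {v w : V} : rd 𝒪 v = rd 𝒪 w ↔ v - w ∈ maximalIdeal 𝒪 • (⊤ : Submodule 𝒪 V) :=
  Submodule.Quotient.eq _

/-- The reduction of a linear map. -/
noncomputable def rdMap (f : V →ₗ[𝒪] V') : Rd 𝒪 V →ₗ[ResidueField 𝒪] Rd 𝒪 V' where
  toFun := Submodule.mapQ _ _ f fun _ hv => map_mem_smul_top f _ hv
  map_add' := map_add _
  map_smul' c v := by
    obtain ⟨a, rfl⟩ := IsLocalRing.residue_surjective c
    obtain ⟨v, rfl⟩ := rd_surjective v
    rw [← rd_smul]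
    change Submodule.mapQ _ _ f _ (Submodule.Quotient.mk (a • v)) = _
    rw [Submodule.mapQ_apply, map_smul]
    rfl

@[simp] theorem rdMap_rd (f : V →ₗ[𝒪] V') (v : V) : rdMap f (rd 𝒪 v) = rd 𝒪 (f v) := rfl

/-- The reduction of a representation. -/
noncomputable def rdRep {D : Type*} [Monoid D] (ρ : D →* Module.End 𝒪 V) :
    D →* Module.End (ResidueField 𝒪) (Rd 𝒪 V) where
  toFun δ := rdMap (ρ δ)
  map_one' := by
    refine LinearMap.ext fun x => ?_
    obtain ⟨v, rfl⟩ := rd_surjective x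
    rw [rdMap_rd, map_one]; rfl
  map_mul' δ δ' := by
    refine LinearMap.ext fun x => ?_
    obtain ⟨v, rfl⟩ := rd_surjective x
    rw [rdMap_rd, map_mul]; rfl

instance finite_rd [Module.Finite 𝒪 V] : Module.Finite (ResidueField 𝒪) (Rd 𝒪 V) := by
  have h : Module.Finite 𝒪 (Rd 𝒪 V) := Module.Finite.of_surjective
    (Submodule.mkQ (maximalIdeal 𝒪 • (⊤ : Submodule 𝒪 V))) (Submodule.mkQ_surjective _)
  obtain ⟨s, hs⟩ := h.fg_top
  refine ⟨⟨s, ?_⟩⟩
  rw [eq_top_iff]
  intro x _
  have hx : x ∈ Submodule.span 𝒪 (s : Set (Rd 𝒪 V)) := hs ▸ Submodule.mem_top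
  induction hx using Submodule.span_induction with
  | mem x hx => exact Submodule.subset_span hx
  | zero => exact Submodule.zero_mem _
  | add x y _ _ hx hy => exact Submodule.add_mem _ (hx trivial) (hy trivial)
  | smul a x _ hx => exact Submodule.smul_mem _ (residue 𝒪 a) (hx trivial)

end Lift

section Main

variable {𝒪 : Type*} [CommRing 𝒪] [IsDomain 𝒪] [IsDiscreteValuationRing 𝒪]
  [Finite (ResidueField 𝒪)] {p : ℕ} [Fact p.Prime] (hp : (p : 𝒪) ∈ maximalIdeal 𝒪)
  {D : Type*} [CommGroup D] [Fintype D] {V : Type*} [AddCommGroup V] [Module 𝒪 V]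
  [Module.Finite 𝒪 V] [Module.IsTorsionFree 𝒪 V]

include hp in
theorem bijective_lift (hD : IsPGroup p D) (ρ : D →* Module.End 𝒪 V) {d : ℕ} (v : Fin d → V)
    (hlin : LinearIndependent (ResidueField 𝒪) fun j => rd 𝒪 (∑ δ, ρ δ (v j)))
    (hspan : ∀ u, (∀ δ, ρ δ u - u ∈ maximalIdeal 𝒪 • (⊤ : Submodule 𝒪 V)) →
      rd 𝒪 u ∈ Submodule.span (ResidueField 𝒪)
        (Set.range fun j => rd 𝒪 (∑ δ, ρ δ (v j)))) :
    Function.Bijective fun x : Fin d → D → 𝒪 => ∑ j, ∑ δ, x j δ • ρ δ (v j) := by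
  have hchar : CharP (ResidueField 𝒪) p := by
    have h0 : ((p : ℕ) : ResidueField 𝒪) = 0 := by
      rw [← map_natCast (residue 𝒪), residue_eq_zero_iff]; exact hp
    obtain ⟨q, hq⟩ := CharP.exists (ResidueField 𝒪)
    have := (CharP.cast_eq_zero_iff (ResidueField 𝒪) q p).mp h0
    rcases (Nat.dvd_prime Fact.out).mp this with h | h
    · subst h
      exact absurd (CharP.cast_eq_zero (ResidueField 𝒪) 1) (by
        rw [Nat.cast_one]; exact one_ne_zero)
    · rwa [← h]
  have e : (fun j => ∑ δ, rdRep ρ δ (rd 𝒪 (v j))) = fun j => rd 𝒪 (∑ δ, ρ δ (v j)) :=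
    funext fun j => (rd_sum _ _).symm
  have key := bijective_field (k := ResidueField 𝒪) hD (rdRep ρ) (fun j => rd 𝒪 (v j)) (by
      rw [e]; exact hlin) (fun u hu => by
      obtain ⟨u, rfl⟩ := rd_surjective u
      rw [e]
      exact hspan u (fun δ => rd_eq.mp (hu δ)))
  let F : (Fin d → D → 𝒪) →ₗ[𝒪] V :=
    { toFun := fun x => ∑ j, ∑ δ, x j δ • ρ δ (v j)
      map_add' := fun x y => by
        simp only [Pi.add_apply, add_smul, Finset.sum_add_distrib]
      map_smul' := fun c x => by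
        simp only [Pi.smul_apply, smul_eq_mul, mul_smul, Finset.smul_sum, RingHom.id_apply] }
  have hF : ∀ x, rd 𝒪 (F x) = ∑ j, ∑ δ, residue 𝒪 (x j δ) • (rdRep ρ) δ (rd 𝒪 (v j)) := by
    intro x
    change rd 𝒪 (∑ j, ∑ δ, x j δ • ρ δ (v j)) = _
    rw [rd_sum]
    refine Finset.sum_congr rfl fun j _ => ?_
    rw [rd_sum]
    rfl
  obtain ⟨ϖ, hϖ⟩ := IsDiscreteValuationRing.exists_irreducible 𝒪
  have h𝔪 : maximalIdeal 𝒪 = Ideal.span {ϖ} := hϖ.maximalIdeal_eq
  change Function.Bijective F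
  constructor
  · rw [← LinearMap.ker_eq_bot, LinearMap.ker_eq_bot']
    intro x hx
    have h1 : ∀ n, ∃ y, x = ϖ ^ n • y := by
      intro n
      induction n with
      | zero => exact ⟨x, by simp⟩
      | succ n ih =>
        obtain ⟨y, rfl⟩ := ih
        have h2 : F y = 0 := by
          rw [map_smul] at hx
          exact (smul_eq_zero.mp hx).resolve_left (pow_ne_zero _ hϖ.ne_zero)
        have h3 := hF y
        rw [h2] at h3
        have h4 : (fun j δ => residue 𝒪 (y j δ)) = (0 : Fin d → D → ResidueField 𝒪) := by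
          apply key.1
          change ∑ j, ∑ δ, residue 𝒪 (y j δ) • (rdRep ρ) δ (rd 𝒪 (v j)) =
            ∑ j, ∑ δ, (0 : ResidueField 𝒪) • (rdRep ρ) δ (rd 𝒪 (v j))
          rw [← h3]
          simp only [zero_smul, Finset.sum_const_zero]
          rfl
        have h5 : ∀ j δ, ∃ z, y j δ = ϖ * z := by
          intro j δ
          have := congrFun (congrFun h4 j) δ
          have h6 : y j δ ∈ maximalIdeal 𝒪 := (residue_eq_zero_iff _).mp this
          rw [h𝔪, Ideal.mem_span_singleton] at h6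
          exact h6
        choose z hz using h5
        refine ⟨z, ?_⟩
        rw [pow_succ, mul_smul]
        congr 1
        funext j δ
        exact hz j δ
    refine eq_zero_of_forall_mem (𝒪 := 𝒪) fun n => ?_
    obtain ⟨y, hy⟩ := h1 n
    rw [hy]
    refine Submodule.smul_mem_smul (Ideal.pow_mem_pow ?_ n) Submodule.mem_top
    rw [h𝔪]; exact Ideal.mem_span_singleton_self _
  · rw [← LinearMap.range_eq_top, ← top_le_iff]
    refine Submodule.le_of_le_smul_of_le_jacobson_bot (I := maximalIdeal 𝒪)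
      Module.Finite.fg_top (IsLocalRing.maximalIdeal_le_jacobson _) ?_
    intro u _
    rw [Submodule.mem_sup]
    obtain ⟨x, hx⟩ := key.2 (rd 𝒪 u)
    have h1 : ∀ j δ, ∃ y, residue 𝒪 y = x j δ := fun j δ => IsLocalRing.residue_surjective _
    choose y hy using h1
    refine ⟨F y, LinearMap.mem_range_self F y, u - F y, ?_, by abel⟩
    rw [← rd_eq, ← hx, hF]
    refine Finset.sum_congr rfl fun j _ => Finset.sum_congr rfl fun δ _ => ?_
    rw [hy]

end Main

end Fermat.Agent.RT
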