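import Fermat.Agent.RT.Free

set_option autoImplicit false

/-!
# Freeness over the group ring of a `p`-group: module form and matrices
-/

open IsLocalRing

namespace Fermat.Agent.RT

section Aug

variable (𝒪 : Type*) [CommRing 𝒪] (D : Type*) [CommGroup D]

/-- The augmentation of the group ring. -/
noncomputable def augD : MonoidAlgebra 𝒪 D →ₐ[𝒪] 𝒪 := MonoidAlgebra.lift 𝒪 𝒪 D 1

variable {𝒪 D}

@[simp] theorem augD_single (δ : D) (a : 𝒪) : augD 𝒪 D (MonoidAlgebra.single δ a) = a := by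
  rw [augD, MonoidAlgebra.lift_single]; simp

variable {V : Type*} [AddCommGroup V] [Module 𝒪 V]

/-- The action of the group ring. -/
noncomputable def actD (ρ : D →* Module.End 𝒪 V) : MonoidAlgebra 𝒪 D →ₐ[𝒪] Module.End 𝒪 V :=
  MonoidAlgebra.lift 𝒪 (Module.End 𝒪 V) D ρ

@[simp] theorem actD_single (ρ : D →* Module.End 𝒪 V) (δ : D) (a : 𝒪) (v : V) :
    actD ρ (MonoidAlgebra.single δ a) v = a • ρ δ v := by
  rw [actD, MonoidAlgebra.lift_single]; rfl

theorem actD_apply [Fintype D] (ρ : D →* Module.End 𝒪 V) (x : MonoidAlgebra 𝒪 D) (v : V) :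
    actD ρ x v = ∑ δ, x.coeff δ • ρ δ v := by
  rw [actD, MonoidAlgebra.lift_apply, Finsupp.sum, LinearMap.sum_apply]
  refine Finset.sum_subset (Finset.subset_univ _) fun δ _ hδ => ?_
  rw [Finsupp.notMem_support_iff.mp hδ, zero_smul]; rfl

theorem map_actD {V' : Type*} [AddCommGroup V'] [Module 𝒪 V'] {ρ : D →* Module.End 𝒪 V}
    (f : V →ₗ[𝒪] V') (hf : ∀ δ v, f (ρ δ v) = f v) (x : MonoidAlgebra 𝒪 D) (v : V) :
    f (actD ρ x v) = augD 𝒪 D x • f v := by
  induction x using MonoidAlgebra.induction_linear with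
  | zero => simp
  | add x y hx hy => rw [map_add, map_add, LinearMap.add_apply, map_add, hx, hy, add_smul]
  | single δ a => rw [actD_single, augD_single, map_smul, hf]

end Aug

section Main

variable {𝒪 : Type*} [CommRing 𝒪] [IsDomain 𝒪] [IsDiscreteValuationRing 𝒪]
  [Finite (ResidueField 𝒪)] {p : ℕ} [Fact p.Prime] (hp : (p : 𝒪) ∈ maximalIdeal 𝒪)
  {D : Type*} [CommGroup D] [Fintype D] {V : Type*} [AddCommGroup V] [Module 𝒪 V]
  [Module.Finite 𝒪 V] [Module.IsTorsionFree 𝒪 V]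
  {W : Type*} [AddCommGroup W] [Module 𝒪 W]

include hp in
/-- **Freeness over the group ring**: every basis of the coinvariants `W` lifts. -/
theorem exists_free_equiv (hD : IsPGroup p D) (ρ : D →* Module.End 𝒪 V)
    (tr : V →ₗ[𝒪] W) (res : W →ₗ[𝒪] V) (htr : ∀ δ v, tr (ρ δ v) = tr v)
    (hres : ∀ v, res (tr v) = ∑ δ, ρ δ v) (hsurj : Function.Surjective tr)
    (hfix : ∀ v, (∀ δ, ρ δ v - v ∈ maximalIdeal 𝒪 • (⊤ : Submodule 𝒪 V)) →
      ∃ w, v - res w ∈ maximalIdeal 𝒪 • (⊤ : Submodule 𝒪 V))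
    (hinj : ∀ w, res w ∈ maximalIdeal 𝒪 • (⊤ : Submodule 𝒪 V) →
      w ∈ maximalIdeal 𝒪 • (⊤ : Submodule 𝒪 W))
    {d : ℕ} (m : Module.Basis (Fin d) 𝒪 W) :
    ∃ e : V ≃ₗ[𝒪] (Fin d → MonoidAlgebra 𝒪 D),
      (∀ x v, e (actD ρ x v) = x • e v) ∧
      (∀ v, tr v = ∑ j, augD 𝒪 D (e v j) • m j) := by
  choose v hv using fun j => hsurj (m j)
  have hN : ∀ j, rd 𝒪 (∑ δ, ρ δ (v j)) = rd 𝒪 (res (m j)) := fun j => by rw [← hres, hv]
  have hb := bijective_lift hp hD ρ v (by
    rw [funext hN]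
    rw [Fintype.linearIndependent_iff]
    intro c hc
    choose a ha using fun j => IsLocalRing.residue_surjective (c j)
    have h1 : rd 𝒪 (res (∑ j, a j • m j)) = 0 := by
      rw [map_sum, rd_sum, ← hc]
      refine Finset.sum_congr rfl fun j _ => ?_
      rw [map_smul, rd_smul, ha]
    have h2 := hinj _ (rd_eq_zero.mp h1)
    intro j
    have h3 := map_mem_smul_top (m.coord j) _ h2
    rw [map_sum] at h3
    rw [← ha, residue_eq_zero_iff]
    have h4 : ∑ i, m.coord j (a i • m i) = a j := by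
      rw [Finset.sum_eq_single j]
      · simp
      · intro i _ hij
        simp [Finsupp.single_eq_of_ne hij.symm]
      · intro h; exact absurd (Finset.mem_univ j) h
    rw [h4, smul_eq_mul, Ideal.mul_top] at h3
    exact h3) (fun u hu => by
    obtain ⟨w, hw⟩ := hfix u hu
    rw [funext hN, rd_eq.mpr hw, ← m.sum_repr w, map_sum, rd_sum]
    refine Submodule.sum_mem _ fun j _ => ?_
    rw [map_smul, rd_smul]
    exact Submodule.smul_mem _ _ (Submodule.subset_span ⟨j, rfl⟩))
  let F : (Fin d → MonoidAlgebra 𝒪 D) →ₗ[𝒪] V :=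
    { toFun := fun x => ∑ j, actD ρ (x j) (v j)
      map_add' := fun x y => by
        simp only [Pi.add_apply, map_add, LinearMap.add_apply, Finset.sum_add_distrib]
      map_smul' := fun c x => by
        simp only [Pi.smul_apply, map_smul, LinearMap.smul_apply, Finset.smul_sum,
          RingHom.id_apply] }
  have hF : Function.Bijective F := by
    have h1 : (F : (Fin d → MonoidAlgebra 𝒪 D) → V) =
        (fun x : Fin d → D → 𝒪 => ∑ j, ∑ δ, x j δ • ρ δ (v j)) ∘
          fun x j => ((x j).coeff : D → 𝒪) := by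
      funext x
      change ∑ j, actD ρ (x j) (v j) = ∑ j, ∑ δ, (x j).coeff δ • ρ δ (v j)
      exact Finset.sum_congr rfl fun j _ => actD_apply ρ _ _
    rw [h1]
    refine hb.comp ⟨fun x y hxy => ?_, fun x => ?_⟩
    · funext j
      exact MonoidAlgebra.coeff_injective (DFunLike.coe_injective (congrFun hxy j))
    · refine ⟨fun j => MonoidAlgebra.ofCoeff (Finsupp.equivFunOnFinite.symm (x j)), ?_⟩
      funext j δ
      rfl
  let e := LinearEquiv.ofBijective F hF
  have hFx : ∀ (x : MonoidAlgebra 𝒪 D) y, F (x • y) = actD ρ x (F y) := by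
    intro x y
    change ∑ j, actD ρ (x * y j) (v j) = actD ρ x (∑ j, actD ρ (y j) (v j))
    rw [map_sum]
    exact Finset.sum_congr rfl fun j _ => by rw [map_mul]; rfl
  refine ⟨e.symm, fun x u => ?_, fun u => ?_⟩
  · apply e.injective
    rw [e.apply_symm_apply]
    have := hFx x (e.symm u)
    change e (x • e.symm u) = actD ρ x (e (e.symm u)) at this
    rw [this, e.apply_symm_apply]
  · obtain ⟨y, rfl⟩ := e.surjective u
    rw [e.symm_apply_apply]
    change tr (∑ j, actD ρ (y j) (v j)) = _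
    rw [map_sum]
    exact Finset.sum_congr rfl fun j _ => by rw [map_actD tr htr, hv]

include hp in
omit [AddCommGroup V] [Module 𝒪 V] [Module.Finite 𝒪 V] [Module.IsTorsionFree 𝒪 V]
  [AddCommGroup W] [Module 𝒪 W] in
/-- The same for submodules. -/
theorem exists_free_equiv_sub {M M' : Type*} [AddCommGroup M] [Module 𝒪 M] [AddCommGroup M']
    [Module 𝒪 M'] (V : Submodule 𝒪 M) (W : Submodule 𝒪 M') (hV : Module.Finite 𝒪 V)
    (hV2 : Module.IsTorsionFree 𝒪 V) (hD : IsPGroup p D) (ρ : D →* Module.End 𝒪 V)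
    (tr : V →ₗ[𝒪] W) (res : W →ₗ[𝒪] V) (htr : ∀ δ v, tr (ρ δ v) = tr v)
    (hres : ∀ v, res (tr v) = ∑ δ, ρ δ v) (hsurj : Function.Surjective tr)
    (hfix : ∀ v, (∀ δ, ρ δ v - v ∈ maximalIdeal 𝒪 • (⊤ : Submodule 𝒪 V)) →
      ∃ w, v - res w ∈ maximalIdeal 𝒪 • (⊤ : Submodule 𝒪 V))
    (hinj : ∀ w, res w ∈ maximalIdeal 𝒪 • (⊤ : Submodule 𝒪 V) →
      w ∈ maximalIdeal 𝒪 • (⊤ : Submodule 𝒪 W))
    {d : ℕ} (m : Module.Basis (Fin d) 𝒪 W) :
    ∃ e : V ≃ₗ[𝒪] (Fin d → MonoidAlgebra 𝒪 D),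
      (∀ x v, e (actD ρ x v) = x • e v) ∧
      (∀ v, tr v = ∑ j, augD 𝒪 D (e v j) • m j) :=
  exists_free_equiv hp hD ρ tr res htr hres hsurj hfix hinj m

end Main

section Mat

variable {𝒪 : Type*} [CommRing 𝒪] {D : Type*} [CommGroup D] {V : Type*} [AddCommGroup V]
  [Module 𝒪 V] {ρ : D →* Module.End 𝒪 V} {d : ℕ}
  {e : V ≃ₗ[𝒪] (Fin d → MonoidAlgebra 𝒪 D)}

/-- The linear map over the group ring attached to an operator commuting with `D`. -/
noncomputable def linD (he : ∀ x v, e (actD ρ x v) = x • e v) (T : Module.End 𝒪 V)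
    (hT : ∀ δ, T * ρ δ = ρ δ * T) :
    (Fin d → MonoidAlgebra 𝒪 D) →ₗ[MonoidAlgebra 𝒪 D] (Fin d → MonoidAlgebra 𝒪 D) where
  toFun x := e (T (e.symm x))
  map_add' x y := by simp
  map_smul' x y := by
    have h1 : ∀ v, T (actD ρ x v) = actD ρ x (T v) := by
      intro v
      induction x using MonoidAlgebra.induction_linear with
      | zero => simp
      | add x y hx hy => rw [map_add, LinearMap.add_apply, LinearMap.add_apply, map_add, hx, hy]
      | single δ a =>
        rw [actD_single, actD_single, map_smul]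
        exact congrArg _ (LinearMap.congr_fun (hT δ) v)
    have h2 : e.symm (x • y) = actD ρ x (e.symm y) := by
      rw [LinearEquiv.symm_apply_eq, he, e.apply_symm_apply]
    rw [h2, h1, he]
    rfl

/-- **Matrices over the group ring** of an action commuting with `D`. -/
theorem exists_matAct (he : ∀ x v, e (actD ρ x v) = x • e v) {R : Type*} [Ring R]
    [Algebra 𝒪 R] (ρR : R →ₐ[𝒪] Module.End 𝒪 V) (hR : ∀ r δ, ρR r * ρ δ = ρ δ * ρR r) :
    ∃ Φ : R →ₐ[𝒪] Matrix (Fin d) (Fin d) (MonoidAlgebra 𝒪 D),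
      ∀ r v, e (ρR r v) = (Φ r).mulVec (e v) := by
  let f : R →ₐ[𝒪] Module.End (MonoidAlgebra 𝒪 D) (Fin d → MonoidAlgebra 𝒪 D) :=
    { toFun := fun r => linD he (ρR r) (hR r)
      map_one' := by
        refine LinearMap.ext fun x => ?_
        change e (ρR 1 (e.symm x)) = x
        rw [map_one]; simp
      map_mul' := fun r s => by
        refine LinearMap.ext fun x => ?_
        change e (ρR (r * s) (e.symm x)) = e (ρR r (e.symm (e (ρR s (e.symm x)))))
        rw [map_mul, e.symm_apply_apply]; rfl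
      map_zero' := by
        refine LinearMap.ext fun x => ?_
        change e (ρR 0 (e.symm x)) = 0
        rw [map_zero]; simp
      map_add' := fun r s => by
        refine LinearMap.ext fun x => ?_
        change e (ρR (r + s) (e.symm x)) = e (ρR r (e.symm x)) + e (ρR s (e.symm x))
        rw [map_add, LinearMap.add_apply, map_add]
      commutes' := fun a => by
        refine LinearMap.ext fun x => ?_
        change e (ρR (algebraMap 𝒪 R a) (e.symm x)) = a • x
        rw [AlgHom.commutes, Module.algebraMap_end_apply, map_smul, e.apply_symm_apply] }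
  refine ⟨((LinearMap.toMatrixAlgEquiv' (R := MonoidAlgebra 𝒪 D) (n := Fin d)).restrictScalars
    𝒪 : _ ≃ₐ[𝒪] _).toAlgHom.comp f, fun r v => ?_⟩
  have h1 : (LinearMap.toMatrixAlgEquiv' (R := MonoidAlgebra 𝒪 D) (n := Fin d)) (f r) =
      LinearMap.toMatrix' (f r) := rfl
  change _ = (LinearMap.toMatrix' (f r)).mulVec (e v)
  rw [LinearMap.toMatrix'_mulVec]
  change _ = e (ρR r (e.symm (e v)))
  rw [e.symm_apply_apply]

end Mat

end Fermat.Agent.RT
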