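import Fermat.Agent.RT.LocUni
import Fermat.Agent.RT.FramedSt

set_option autoImplicit false
set_option maxHeartbeats 400000
set_option linter.style.haveILetI false
set_option linter.unusedSectionVars false
set_option linter.unusedVariables false

/-!
# A representation of a given type at a place
-/

open IsLocalRing MvPowerSeries Matrix
open Fermat.Agent.GCFT Fermat.Agent.Coh Fermat.Agent.GalD Fermat.Agent.LocalCFT

noncomputable section

namespace Fermat.Agent.RT

/-- The absolute Galois group. -/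
local notation "GQ" => (AlgebraicClosure ℚ ≃ₐ[ℚ] AlgebraicClosure ℚ)

/-- The representation `ρ` over `T` is of type `τ` at the place `l`: all framed deformations have
coordinates satisfying the relations of `τ`, and the coordinates control the local
representation. -/
def LocAt {𝒪 : Type} [CommRing 𝒪] [IsLocalRing 𝒪] {c : ℕ} (τ : LocType 𝒪 c) (l : Nat.Primes)
    {T : Type} [CommRing T] [IsLocalRing T] [IsNoetherianRing T] [IsAdicComplete (maximalIdeal T) T]
    {k : Type} [Field k] (σ : 𝒪 →+* T) (π : T →+* k) (ρ : GQ →* GL (Fin 2) T) : Prop :=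
  ∀ (V : Type) [Fintype V] (v : V), ∃ (x : τ.ι → MvPowerSeries (V × Fin 3) T)
    (hx : ∀ i, x i ∈ maximalIdeal (MvPowerSeries (V × Fin 3) T)),
    (∀ r ∈ τ.Rel, evalHom (maximalIdeal (MvPowerSeries (V × Fin 3) T))
      ((C : T →+* MvPowerSeries (V × Fin 3) T).comp σ) x hx r = 0) ∧
    ∀ ψ : MvPowerSeries (V × Fin 3) T →+* DualNumber k,
      (∀ a, (ψ a).fst = π (constantCoeff a)) →
      (∀ o, ψ (C (σ o)) = TrivSqZeroExt.inl (π (σ o))) →
      (∀ i, ψ (x i) = 0) → ∀ δ : Gl l,
      ((frm T v).val * (ρ (rl l δ)).val.map C * ((frm T v)⁻¹).val).map ψ =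
        (resRep π ρ (rl l δ)).val.map TrivSqZeroExt.inl

section Uni

variable {𝒪 : Type} [CommRing 𝒪] [IsLocalRing 𝒪] {T : Type} [CommRing T] [IsLocalRing T]
  [IsNoetherianRing T] [IsAdicComplete (maximalIdeal T) T] {k : Type} [Field k] {σ : 𝒪 →+* T}
  (hσ : ∀ b ∈ maximalIdeal 𝒪, σ b ∈ maximalIdeal T)
  {π : T →+* k} (hπ : RingHom.ker π = maximalIdeal T) {q : Nat.Primes} {p : ℕ}
  (hchar : (p : k) = 0) {ρ : GQ →* GL (Fin 2) T}
  (hcont : ∃ U : Subgroup GQ, IsOpen (U : Set GQ) ∧ ∀ u ∈ U, ∀ i j,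
    (ρ u).val i j - (1 : Matrix (Fin 2) (Fin 2) T) i j ∈ maximalIdeal T ^ 2)
  (hpp : ∀ s ∈ Il (q : ℕ), ∃ n, resRep π ρ (rl q s) ^ p ^ n = 1)
  {φ₀ τ₀ : Gl q} (hφ₀ : IsFrobL φ₀) (hτ₀ : TameGen p q τ₀)
  {n : ℕ} (hrel : UnRel (ρ (rl q φ₀)).val ((ρ (rl q τ₀)).val - 1) (n : T))
  {M : Bool → Matrix (Fin 2) (Fin 2) 𝒪}
  (hM : ∀ s a b, ((if s then (ρ (rl q τ₀)).val - 1 else (ρ (rl q φ₀)).val) -
    (M s).map σ) a b ∈ maximalIdeal T)
  (h2 : (2 : 𝒪) ∉ maximalIdeal 𝒪) (hq : (n : 𝒪) ∉ maximalIdeal 𝒪)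
  (hMrel : UnRel ((M false).map (residue 𝒪)) ((M true).map (residue 𝒪)) (residue 𝒪 (n : 𝒪)))

include hσ hπ hchar hcont hpp hφ₀ hτ₀ hrel hM in
/-- Unipotent representations are of unipotent type. -/
theorem LocAt.uni : LocAt (LocType.uni M (n : 𝒪) h2 hq hMrel) q σ π ρ := by
  intro V _ v
  let A := MvPowerSeries (V × Fin 3) T
  let W : Bool → Matrix (Fin 2) (Fin 2) A := fun s =>
    if s then frMat ρ v (rl q τ₀) - 1 else frMat ρ v (rl q φ₀)
  let x : LIx → A := fun i => W i.1 i.2.1 i.2.2 - C (σ (M i.1 i.2.1 i.2.2))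
  have hx : ∀ i, x i ∈ maximalIdeal A := by
    rintro ⟨s, a, b⟩
    rw [mem_maximalIdeal_iff]
    change constantCoeff (W s a b - C (σ (M s a b))) ∈ _
    rw [map_sub, constantCoeff_C]
    have h1 := hM s a b
    cases s
    · change constantCoeff (frMat ρ v (rl q φ₀) a b) - _ ∈ _
      rw [frMat_constantCoeff]
      exact h1
    · change constantCoeff ((frMat ρ v (rl q τ₀) - 1) a b) - _ ∈ _
      rw [Matrix.sub_apply, map_sub, frMat_constantCoeff]
      have e1 : constantCoeff ((1 : Matrix (Fin 2) (Fin 2) A) a b) =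
          (1 : Matrix (Fin 2) (Fin 2) T) a b := by
        rw [Matrix.one_apply, Matrix.one_apply]
        split_ifs
        · exact map_one _
        · exact map_zero _
      rw [e1]
      exact h1
  refine ⟨x, hx, ?_, ?_⟩
  · have hmap : ∀ s, (stMat M s).map (evalHom (maximalIdeal A) ((C : T →+* A).comp σ) x hx) =
        W s := by
      intro s
      refine Matrix.ext fun a b => ?_
      rw [Matrix.map_apply, stMat, Matrix.add_apply, map_add, Matrix.map_apply, evalHom_C]
      change C (σ (M s a b)) + evalHom (maximalIdeal A) ((C : T →+* A).comp σ) x hx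
        (X (s, a, b)) = _
      rw [evalHom_X]
      change C (σ (M s a b)) + (W s a b - C (σ (M s a b))) = _
      ring
    change ∀ r ∈ uniRel M (n : 𝒪), evalHom (maximalIdeal A) ((C : T →+* A).comp σ) x hx r = 0
    rw [uniRel_iff, hmap, hmap, map_natCast, map_natCast]
    change UnRel (frMat ρ v (rl q φ₀)) (frMat ρ v (rl q τ₀) - 1) (n : A)
    have hg : (frm T v).val * ((frm T v)⁻¹).val = 1 := by
      rw [← Units.val_mul, mul_inv_cancel, Units.val_one]
    have h3 : UnRel ((ρ (rl q φ₀)).val.map (C : T →+* A))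
        (((ρ (rl q τ₀)).val - 1).map (C : T →+* A)) (n : A) := by
      refine ⟨?_, ?_, ?_, ?_⟩
      · have h4 := congrArg (C : T →+* A) hrel.tr
        rw [Matrix.trace_fin_two, map_add, map_zero] at h4
        rw [Matrix.trace_fin_two]
        exact h4
      · have h4 := congrArg (C : T →+* A) hrel.det
        rw [RingHom.map_det, map_zero] at h4
        exact h4
      · rw [← Matrix.map_mul, hrel.comm, ← Matrix.map_mul]
        ext i j
        rw [Matrix.map_apply, Matrix.smul_apply, Matrix.smul_apply, Matrix.map_apply, smul_eq_mul,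
          smul_eq_mul, map_mul, map_natCast]
      · have h4 := congrArg (C : T →+* A) hrel.detF
        rw [RingHom.map_det, map_natCast] at h4
        exact h4
    have h5 := h3.conj hg
    have h6 : (frm T v).val * (((ρ (rl q τ₀)).val - 1).map (C : T →+* A)) * ((frm T v)⁻¹).val =
        frMat ρ v (rl q τ₀) - 1 := by
      have e1 : ((ρ (rl q τ₀)).val - 1).map (C : T →+* A) =
          (ρ (rl q τ₀)).val.map (C : T →+* A) - 1 := by
        rw [← RingHom.mapMatrix_apply, map_sub, map_one]; rfl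
      rw [e1, mul_sub, sub_mul, mul_one, hg]
      rfl
    rw [h6] at h5
    exact h5
  · intro ψ hψ1 hψ2 hψ3 δ
    refine framed_st_hloc (O := 𝒪) hπ hchar hcont hpp hφ₀ hτ₀ v
      (fun s => M s + (if s then 1 else 0)) ψ hψ1 hψ2 (fun s a b => ?_) δ
    have h1 : ψ (W s a b - C (σ (M s a b))) = 0 := hψ3 (s, a, b)
    rw [← h1]
    congr 1
    cases s
    · change _ - C (σ ((M false + 0) a b)) = _
      rw [add_zero]; rfl
    · change _ - C (σ ((M true + 1) a b)) = (frMat ρ v (rl q τ₀) - 1) a b - _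
      rw [Matrix.add_apply, map_add, map_add, Matrix.sub_apply]
      have e1 : (C (σ ((1 : Matrix (Fin 2) (Fin 2) 𝒪) a b)) : A) =
          (1 : Matrix (Fin 2) (Fin 2) A) a b := by
        rw [Matrix.one_apply, Matrix.one_apply]
        split_ifs
        · rw [map_one, map_one]
        · rw [map_zero, map_zero]
      rw [e1]
      simp only [if_true]
      ring

end Uni

end Fermat.Agent.RT
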