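import Fermat.Agent.RT.TWImage

set_option autoImplicit false

/-!
# Vanishing of `H¹(ρ(G), ad⁰(1))` for representations over finite fields, by traces
-/

open Matrix
open Fermat.Agent.Coh

namespace Fermat.Agent.RT

namespace VanG

section Mat

variable {k : Type*} [Field k]

theorem inv_val {A : GL (Fin 2) k} (h : A.val.det = 1) :
    (A⁻¹ : GL (Fin 2) k).val = A.val.trace • (1 : Matrix (Fin 2) (Fin 2) k) - A.val := by
  have h1 : A.val * (A.val.trace • (1 : Matrix (Fin 2) (Fin 2) k) - A.val) = 1 := by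
    rw [det_fin_two] at h
    ext i j
    fin_cases i <;> fin_cases j <;>
      simp [Matrix.mul_apply, Fin.sum_univ_two, trace_fin_two] <;>
      first | linear_combination h | ring
  calc (A⁻¹ : GL (Fin 2) k).val = (A⁻¹ : GL (Fin 2) k).val *
        (A.val * (A.val.trace • (1 : Matrix (Fin 2) (Fin 2) k) - A.val)) := by rw [h1, mul_one]
    _ = _ := by rw [← mul_assoc, ← Units.val_mul, inv_mul_cancel, Units.val_one, one_mul]

theorem anticomm (X A : Matrix (Fin 2) (Fin 2) k) (hX : X.trace = 0) :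
    X * A + A * X - A.trace • X = (X * A).trace • (1 : Matrix (Fin 2) (Fin 2) k) := by
  rw [trace_fin_two] at hX
  have e : X 1 1 = - X 0 0 := by linear_combination hX
  ext i j
  fin_cases i <;> fin_cases j <;>
    simp [Matrix.mul_apply, Fin.sum_univ_two, trace_fin_two, e] <;> ring

theorem eq_zero_of_trace_mul {Y : Matrix (Fin 2) (Fin 2) k}
    (h : ∀ A : Matrix (Fin 2) (Fin 2) k, (Y * A).trace = 0) : Y = 0 := by
  ext i j
  have h1 := h (Matrix.single j i 1)
  rw [trace_fin_two] at h1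
  fin_cases i <;> fin_cases j <;>
    simpa [Matrix.mul_apply, Fin.sum_univ_two, Matrix.single_apply] using h1

end Mat

section Tau

variable {k : Type*} [Field k] {Γ : Type*} [Group Γ] {ρ : Γ →* GL (Fin 2) k} {χ : Γ →* kˣ}
  {c : Γ → sl2 k}

/-- the trace deformation -/
def tau (ρ : Γ →* GL (Fin 2) k) (c : Γ → sl2 k) (g : Γ) : k := ((c g).1 * (ρ g).val).trace

variable (hc : ∀ g h, c (g * h) = adRep ρ χ g (c h) + c g) (hker : ∀ t, ρ t = 1 → c t = 0)

include hc in
theorem coe_mul (g h : Γ) : (c (g * h)).1 =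
    (χ g : k) • ((ρ g).val * (c h).1 * (ρ g⁻¹).val) + (c g).1 := by
  rw [hc]; rfl

include hc hker in
theorem c_eq_of_eq {g g' : Γ} (h : ρ g = ρ g') : c g = c g' := by
  have h1 : c (g * (g⁻¹ * g')) = c g := by
    rw [hc, hker _ (by rw [map_mul, map_inv, h, inv_mul_cancel]), map_zero, zero_add]
  rw [mul_inv_cancel_left] at h1
  exact h1.symm

include hc hker in
theorem tau_eq_of_eq {g g' : Γ} (h : ρ g = ρ g') : tau ρ c g = tau ρ c g' := by
  rw [tau, tau, c_eq_of_eq hc hker h, h]

include hker in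
theorem tau_one {g : Γ} (h : ρ g = 1) : tau ρ c g = 0 := by
  rw [tau, hker g h]
  simp

include hc hker in
theorem tau_add {g h : Γ} (hg : χ g = 1) (hh : χ h = 1) (hd : (ρ h).val.det = 1) :
    tau ρ c (g * h) + tau ρ c (g * h⁻¹) =
      (ρ g).val.trace * tau ρ c h + tau ρ c g * (ρ h).val.trace := by
  have hinv : (c h⁻¹).1 = - ((ρ h⁻¹).val * (c h).1 * (ρ h).val) := by
    have h1 := coe_mul hc h⁻¹ h
    rw [inv_mul_cancel, hker 1 (map_one ρ), map_inv, hh, inv_one, Units.val_one, one_smul,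
      inv_inv] at h1
    rw [eq_neg_iff_add_eq_zero, add_comm]
    exact h1.symm
  have e1 : (c (g * h)).1 * (ρ (g * h)).val =
      (ρ g).val * (c h).1 * (ρ h).val + (c g).1 * (ρ g).val * (ρ h).val := by
    rw [coe_mul hc, hg, Units.val_one, one_smul, map_mul, Units.val_mul, add_mul]
    congr 1
    · rw [mul_assoc, ← mul_assoc (ρ g⁻¹).val, inv_mul_coe, one_mul]
    · rw [mul_assoc]
  have e2 : (c (g * h⁻¹)).1 * (ρ (g * h⁻¹)).val =
      - ((ρ g).val * (ρ h⁻¹).val * (c h).1) + (c g).1 * (ρ g).val * (ρ h⁻¹).val := by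
    rw [coe_mul hc, hg, Units.val_one, one_smul, map_mul, Units.val_mul, add_mul, hinv]
    congr 1
    · have h3 : (ρ h).val * (ρ h⁻¹).val = 1 := mul_inv_coe ρ h
      calc (ρ g).val * -((ρ h⁻¹).val * (c h).1 * (ρ h).val) * (ρ g⁻¹).val *
            ((ρ g).val * (ρ h⁻¹).val) =
            -((ρ g).val * (ρ h⁻¹).val * (c h).1 * ((ρ h).val * (((ρ g⁻¹).val * (ρ g).val) *
              (ρ h⁻¹).val))) := by noncomm_ring
        _ = _ := by rw [inv_mul_coe, one_mul, h3, mul_one]
    · rw [mul_assoc]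
  have e3 : (ρ h⁻¹).val = (ρ h).val.trace • (1 : Matrix (Fin 2) (Fin 2) k) - (ρ h).val := by
    rw [map_inv]
    exact inv_val hd
  rw [tau, tau, e1, e2, ← trace_add]
  have e4 : (ρ g).val * (c h).1 * (ρ h).val + (c g).1 * (ρ g).val * (ρ h).val +
      (-((ρ g).val * (ρ h⁻¹).val * (c h).1) + (c g).1 * (ρ g).val * (ρ h⁻¹).val) =
      (ρ g).val * ((c h).1 * (ρ h).val + (ρ h).val * (c h).1 - (ρ h).val.trace • (c h).1) +
        (ρ h).val.trace • ((c g).1 * (ρ g).val) := by
    rw [e3]
    simp only [mul_sub, sub_mul, mul_add, smul_mul_assoc, mul_smul_comm, mul_one, one_mul,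
      mul_assoc]
    abel
  rw [e4, anticomm _ _ (mem_sl2.mp (c h).2), trace_add, mul_smul_comm, mul_one, trace_smul,
    trace_smul, tau, tau, smul_eq_mul, smul_eq_mul]
  ring

include hc hker in
theorem tau_conj {t g : Γ} (hg : χ g = 1) : tau ρ c (t * g * t⁻¹) = (χ t : k) * tau ρ c g := by
  have hinv : (c t⁻¹).1 = - ((χ t⁻¹ : k) • ((ρ t⁻¹).val * (c t).1 * (ρ t).val)) := by
    have h1 := coe_mul hc t⁻¹ t
    rw [inv_mul_cancel, hker 1 (map_one ρ), inv_inv] at h1
    rw [eq_neg_iff_add_eq_zero, add_comm]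
    exact h1.symm
  have hTT : (ρ t).val * (ρ t⁻¹).val = 1 := mul_inv_coe ρ t
  have hTT' : (ρ t⁻¹).val * (ρ t).val = 1 := inv_mul_coe ρ t
  have hGG : (ρ g).val * (ρ g⁻¹).val = 1 := mul_inv_coe ρ g
  have hGG' : (ρ g⁻¹).val * (ρ g).val = 1 := inv_mul_coe ρ g
  have hχ : (χ t : k) * (χ t⁻¹ : k) = 1 := by
    rw [← Units.val_mul, ← map_mul, mul_inv_cancel, map_one, Units.val_one]
  have e0 : (ρ (t * g)⁻¹).val = (ρ g⁻¹).val * (ρ t⁻¹).val := by
    rw [_root_.mul_inv_rev, map_mul, Units.val_mul]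
  have e1 : (c (t * g * t⁻¹)).1 * (ρ (t * g * t⁻¹)).val =
      - ((ρ t).val * (ρ g).val * (ρ t⁻¹).val * (c t).1) +
        ((χ t : k) • ((ρ t).val * (c g).1 * (ρ g).val * (ρ t⁻¹).val) +
          (c t).1 * ((ρ t).val * (ρ g).val * (ρ t⁻¹).val)) := by
    have e5 : (ρ (t * g * t⁻¹)).val = (ρ t).val * (ρ g).val * (ρ t⁻¹).val := by
      rw [map_mul, map_mul, Units.val_mul, Units.val_mul]
    have e6 : (ρ (t * g)).val = (ρ t).val * (ρ g).val := by rw [map_mul, Units.val_mul]
    rw [coe_mul hc, coe_mul hc, hinv, e0, map_mul χ, hg, mul_one, e5, e6, add_mul, add_mul]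
    congr 1
    · rw [mul_neg, neg_mul, smul_neg, neg_mul, mul_smul_comm, smul_mul_assoc, smul_mul_assoc,
        smul_mul_assoc, smul_smul, hχ, one_smul]
      calc -((ρ t).val * (ρ g).val * ((ρ t⁻¹).val * (c t).1 * (ρ t).val) *
            ((ρ g⁻¹).val * (ρ t⁻¹).val) * ((ρ t).val * (ρ g).val * (ρ t⁻¹).val)) =
            -((ρ t).val * (ρ g).val * (ρ t⁻¹).val * (c t).1 * ((ρ t).val * ((ρ g⁻¹).val *
              (((ρ t⁻¹).val * (ρ t).val) * (ρ g).val) * (ρ t⁻¹).val))) := by noncomm_ring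
        _ = _ := by rw [hTT', one_mul, hGG', one_mul, hTT, mul_one]
    · congr 1
      rw [smul_mul_assoc]
      congr 1
      calc (ρ t).val * (c g).1 * (ρ t⁻¹).val * ((ρ t).val * (ρ g).val * (ρ t⁻¹).val) =
            (ρ t).val * (c g).1 * (((ρ t⁻¹).val * (ρ t).val) * (ρ g).val * (ρ t⁻¹).val) := by
              noncomm_ring
        _ = _ := by rw [hTT', one_mul]; noncomm_ring
  rw [tau, e1, trace_add, trace_add, trace_neg, trace_mul_comm ((ρ t).val * (ρ g).val * _) (c t).1,
    trace_smul, smul_eq_mul]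
  have e2 : ((ρ t).val * (c g).1 * (ρ g).val * (ρ t⁻¹).val).trace = tau ρ c g := by
    rw [trace_mul_comm, ← mul_assoc, ← mul_assoc, hTT', one_mul, tau]
  rw [e2]
  ring

include hc hker in
theorem tau_of_order {g : Γ} (hg : χ g = 1) {N : ℕ} (hN : (N : k) ≠ 0) (h : ρ g ^ N = 1) :
    tau ρ c g = 0 := by
  have h1 : ∀ i : ℕ, ((c (g ^ i)).1 * (ρ g).val).trace = i * tau ρ c g := by
    intro i
    induction i with
    | zero =>
      rw [pow_zero, hker 1 (map_one ρ)]
      simp
    | succ i ih =>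
      rw [pow_succ', coe_mul hc, hg, Units.val_one, one_smul, add_mul, trace_add, mul_assoc,
        inv_mul_coe, mul_one, trace_mul_comm, ih, tau]
      push_cast
      ring
  have h2 := h1 N
  rw [hker (g ^ N) (by rw [map_pow, h])] at h2
  have h3 : (N : k) * tau ρ c g = 0 := by
    rw [← h2]
    simp
  exact (mul_eq_zero.mp h3).resolve_left hN

end Tau

section Unip

variable {k : Type*} [Field k]

theorem nilp_prop {M X : Matrix (Fin 2) (Fin 2) k} (h2 : (2 : k) ≠ 0) (hM : M.trace = 0)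
    (hM2 : M.det = 0) (hM0 : M ≠ 0) (hX : X.trace = 0) (hX2 : X.det = 0)
    (h : (M * X).trace = 0) : ∃ l : k, X = l • M := by
  refine comm_nilp' h2 hM hM2 hM0 hX ?_
  rw [trace_fin_two] at hM hX h
  rw [det_fin_two] at hM2 hX2
  have e1 : M 1 1 = - M 0 0 := by linear_combination hM
  have e2 : X 1 1 = - X 0 0 := by linear_combination hX
  rw [e1] at hM2
  rw [e2] at hX2
  simp only [mul_apply, Fin.sum_univ_two, e1, e2] at h
  have k1 : M 0 0 * X 0 1 - M 0 1 * X 0 0 = 0 := by
    have : (M 0 0 * X 0 1 - M 0 1 * X 0 0) ^ 2 = 0 := by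
      linear_combination (-(X 0 1) ^ 2) * hM2 + (-(M 0 1) ^ 2) * hX2 - M 0 1 * X 0 1 * h
    exact pow_eq_zero_iff two_ne_zero |>.mp this
  have k2 : M 0 0 * X 1 0 - M 1 0 * X 0 0 = 0 := by
    have : (M 0 0 * X 1 0 - M 1 0 * X 0 0) ^ 2 = 0 := by
      linear_combination (-(X 1 0) ^ 2) * hM2 + (-(M 1 0) ^ 2) * hX2 - M 1 0 * X 1 0 * h
    exact pow_eq_zero_iff two_ne_zero |>.mp this
  have k3 : M 0 1 * X 1 0 - M 1 0 * X 0 1 = 0 := by
    have : (M 0 1 * X 1 0 - M 1 0 * X 0 1) ^ 2 = 0 := by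
      linear_combination (M 0 1 * X 1 0 + M 1 0 * X 0 1 - 2 * M 0 0 * X 0 0) * h +
        (4 * X 0 1 * X 1 0) * hM2 + (-4 * M 0 0 ^ 2) * hX2
    exact pow_eq_zero_iff two_ne_zero |>.mp this
  ext i j
  fin_cases i <;> fin_cases j <;>
    simp only [Fin.zero_eta, Fin.mk_one, Fin.isValue, mul_apply, Fin.sum_univ_two, e1, e2]
  · linear_combination k3
  · linear_combination 2 * k1
  · linear_combination -2 * k2
  · linear_combination -k3

theorem sandwich_aux (A E : Matrix (Fin 2) (Fin 2) k) (a : k) :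
    A * E * (a • (1 : Matrix (Fin 2) (Fin 2) k) - A) * E =
      a • (A * (E * E)) - A * (E * A * E) := by
  rw [mul_sub, sub_mul, mul_smul_comm, mul_one, smul_mul_assoc]
  noncomm_ring

theorem cubic_zero {a b d e : k} (s : Finset k) (hs : 4 ≤ s.card)
    (h : ∀ x ∈ s, a + b * x + d * x ^ 2 + e * x ^ 3 = 0) : e = 0 := by
  classical
  set P : Polynomial k := Polynomial.C a + Polynomial.C b * Polynomial.X +
    Polynomial.C d * Polynomial.X ^ 2 + Polynomial.C e * Polynomial.X ^ 3 with hP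
  have hdeg : P.natDegree < s.card := by
    refine lt_of_le_of_lt ?_ (Nat.lt_of_lt_of_le (by norm_num : 3 < 4) hs)
    rw [hP]
    compute_degree
  have h1 : P = 0 := by
    refine Polynomial.eq_zero_of_natDegree_lt_card_of_eval_eq_zero' P s (fun x hx => ?_) hdeg
    rw [hP]
    simpa using h x hx
  have h2 : P.coeff 3 = e := by
    rw [hP]
    simp
  rw [← h2, h1, Polynomial.coeff_zero]

end Unip

section TauUnip

variable {k : Type*} [Field k] {Γ : Type*} [Group Γ] {ρ : Γ →* GL (Fin 2) k} {χ : Γ →* kˣ}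
  {c : Γ → sl2 k} (hc : ∀ g h, c (g * h) = adRep ρ χ g (c h) + c g)
  (hker : ∀ t, ρ t = 1 → c t = 0)

theorem pow_val {u : Γ} (hd : (ρ u).val.det = 1) (ht : (ρ u).val.trace = 2) (n : ℕ) :
    (ρ (u ^ n)).val = 1 + (n : k) • ((ρ u).val - 1) := by
  have h1 := det_sub_one hd ht
  have h2 := nilp_sq h1.1 h1.2
  induction n with
  | zero => simp
  | succ n ih =>
    have h3 : (ρ u).val = 1 + ((ρ u).val - 1) := by abel
    rw [pow_succ, map_mul, Units.val_mul, ih]
    conv_lhs => rw [h3]
    rw [add_sub_cancel_left, add_mul, mul_add, mul_add, one_mul, one_mul, smul_mul_assoc, mul_one,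
      smul_mul_assoc, h2, smul_zero, add_zero, Nat.cast_succ, add_smul, one_smul]
    abel

theorem trace_mul_pow {g u : Γ} (hd : (ρ u).val.det = 1) (ht : (ρ u).val.trace = 2) (n : ℕ) :
    (ρ (g * u ^ n)).val.trace =
      (ρ g).val.trace + n * ((ρ g).val * ((ρ u).val - 1)).trace := by
  rw [map_mul, Units.val_mul, pow_val hd ht, mul_add, mul_one, trace_add, mul_smul_comm,
    trace_smul, smul_eq_mul]

include hc hker in
theorem tau_rec {g u : Γ} (hg : χ g = 1) (hu : χ u = 1) (hd : (ρ u).val.det = 1)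
    (ht : (ρ u).val.trace = 2) (n : ℕ) :
    tau ρ c (g * u ^ (n + 2)) + tau ρ c (g * u ^ n) =
      ((ρ g).val.trace + (n + 1) * ((ρ g).val * ((ρ u).val - 1)).trace) * tau ρ c u +
        2 * tau ρ c (g * u ^ (n + 1)) := by
  have h1 := tau_add hc hker (g := g * u ^ (n + 1)) (h := u)
    (by rw [map_mul, map_pow, hg, hu, one_pow, one_mul]) hu hd
  rw [trace_mul_pow hd ht, ht, mul_assoc, ← pow_succ, mul_assoc,
    show u ^ (n + 1) * u⁻¹ = u ^ n by rw [pow_succ, mul_inv_cancel_right]] at h1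
  rw [h1]
  push_cast
  ring

include hc hker in
theorem tau_closed {g u : Γ} (hg : χ g = 1) (hu : χ u = 1) (hd : (ρ u).val.det = 1)
    (ht : (ρ u).val.trace = 2) (n : ℕ) :
    6 * tau ρ c (g * u ^ n) = 6 * tau ρ c g +
      (6 * tau ρ c (g * u) - 6 * tau ρ c g - tau ρ c u * (3 * (ρ g).val.trace +
        ((ρ g).val * ((ρ u).val - 1)).trace)) * n +
      (3 * tau ρ c u * (ρ g).val.trace) * (n : k) ^ 2 +
      (tau ρ c u * ((ρ g).val * ((ρ u).val - 1)).trace) * (n : k) ^ 3 := by
  induction n using Nat.strong_induction_on with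
  | _ n ih =>
    match n with
    | 0 => simp
    | 1 =>
      rw [pow_one]
      push_cast
      ring
    | n + 2 =>
      have h1 := tau_rec hc hker hg hu hd ht n
      have h2 := ih n (by omega)
      have h3 := ih (n + 1) (by omega)
      have h4 : tau ρ c (g * u ^ (n + 2)) =
        ((ρ g).val.trace + (n + 1) * ((ρ g).val * ((ρ u).val - 1)).trace) * tau ρ c u +
        2 * tau ρ c (g * u ^ (n + 1)) - tau ρ c (g * u ^ n) := by rw [← h1]; ring
      rw [h4, mul_sub, mul_add, h2, show 6 * (2 * tau ρ c (g * u ^ (n + 1))) =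
        2 * (6 * tau ρ c (g * u ^ (n + 1))) by ring, h3]
      push_cast
      ring

include hc hker in
theorem tau_pow {u : Γ} (hu : χ u = 1) (hd : (ρ u).val.det = 1)
    (ht : (ρ u).val.trace = 2) (n : ℕ) : tau ρ c (u ^ n) = (n : k) ^ 2 * tau ρ c u := by
  induction n using Nat.strong_induction_on with
  | _ n ih =>
    match n with
    | 0 => rw [pow_zero, tau_one hker (map_one ρ)]; simp
    | 1 => rw [pow_one]; simp
    | n + 2 =>
      have h1 := tau_rec hc hker (g := 1) (map_one χ) hu hd ht n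
      have h2 := ih n (by omega)
      have h3 := ih (n + 1) (by omega)
      rw [one_mul, one_mul, one_mul, map_one, Units.val_one, one_mul, (det_sub_one hd ht).1,
        mul_zero, add_zero, h2, h3, trace_one, Fintype.card_fin] at h1
      rw [← add_right_cancel_iff (a := (n : k) ^ 2 * tau ρ c u), h1]
      push_cast
      ring

variable (p : ℕ) [hp : Fact p.Prime] [CharP k p]

theorem cast_ne {i j : ℕ} (hi : i < p) (hj : j < p) (hij : i ≠ j) : (i : k) ≠ (j : k) := by
  intro h
  exact hij (CharP.natCast_injOn_Iio k p hi hj h)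

theorem card_good (h2 : (2 : k) ≠ 0) {t d : k} (hd : d ≠ 0) [DecidableEq k] :
    p - 2 ≤ ((Finset.range p).filter fun n : ℕ => (t + (n : k) * d) ^ 2 ≠ 4).card := by
  have h1 : ((Finset.range p).filter fun n : ℕ => ¬ (t + (n : k) * d) ^ 2 ≠ 4).card ≤ 2 := by
    have h3 : ((Finset.range p).filter fun n : ℕ => ¬ (t + (n : k) * d) ^ 2 ≠ 4).card ≤
        ({2, -2} : Finset k).card := by
      refine Finset.card_le_card_of_injOn (fun n : ℕ => t + (n : k) * d) ?_ ?_
      · intro n hn
        have h4 := (Finset.mem_filter.mp (Finset.mem_coe.mp hn)).2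
        push Not at h4
        have h5 : (t + (n : k) * d - 2) * (t + (n : k) * d + 2) = 0 := by
          linear_combination h4
        rw [Finset.mem_coe, Finset.mem_insert, Finset.mem_singleton]
        rcases mul_eq_zero.mp h5 with h5 | h5
        · left; linear_combination h5
        · right; linear_combination h5
      · intro n hn m hm hnm
        have h4 := (Finset.mem_filter.mp (Finset.mem_coe.mp hn)).1
        have h5 := (Finset.mem_filter.mp (Finset.mem_coe.mp hm)).1
        rw [Finset.mem_range] at h4 h5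
        by_contra hne
        apply cast_ne (k := k) p h4 h5 hne
        have h6 : ((n : k) - m) * d = 0 := by
          have : t + (n : k) * d = t + (m : k) * d := hnm
          linear_combination this
        exact sub_eq_zero.mp ((mul_eq_zero.mp h6).resolve_right hd)
    exact h3.trans (Finset.card_le_two)
  have h3 := Finset.card_filter_add_card_filter_not (s := Finset.range p)
    (fun n : ℕ => (t + (n : k) * d) ^ 2 ≠ 4)
  rw [Finset.card_range] at h3
  omega

section Steps

variable {H : Subgroup Γ} (hH : ∀ h ∈ H, (ρ h).val.det = 1) (hχ : ∀ h ∈ H, χ h = 1)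
  (hss : ∀ h ∈ H, (ρ h).val.trace ^ 2 ≠ 4 → ∃ N : ℕ, (N : k) ≠ 0 ∧ ρ h ^ N = 1)
  (hspan : Submodule.span k (imgSet ρ H) = ⊤)

include hc hker hχ hss in
theorem tau_ss {h : Γ} (hh : h ∈ H) (ht : (ρ h).val.trace ^ 2 ≠ 4) : tau ρ c h = 0 := by
  obtain ⟨N, hN, h1⟩ := hss h hh ht
  exact tau_of_order hc hker (hχ h hh) hN h1

include hc hker hH hχ hss in
theorem tau_unip_ge (hp7 : 7 ≤ p) {u g : Γ} (hu : u ∈ H) (ht : (ρ u).val.trace = 2) (hg : g ∈ H)
    (hgu : ((ρ g).val * ((ρ u).val - 1)).trace ≠ 0) : tau ρ c u = 0 := by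
  classical
  have h2 : (2 : k) ≠ 0 := by
    have := cast_ne (k := k) p (i := 2) (j := 0) (by omega) (by omega) (by norm_num)
    simpa using this
  set s : Finset k := ((Finset.range p).filter fun n : ℕ => ((ρ g).val.trace +
    (n : k) * ((ρ g).val * ((ρ u).val - 1)).trace) ^ 2 ≠ 4).image (fun n : ℕ => (n : k)) with hs
  have hcard : 4 ≤ s.card := by
    rw [hs, Finset.card_image_of_injOn]
    · have := card_good (k := k) p h2 (t := (ρ g).val.trace) hgu
      omega
    · intro i hi j hj hij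
      by_contra hne
      exact cast_ne (k := k) p (Finset.mem_range.mp (Finset.mem_filter.mp (Finset.mem_coe.mp hi)).1)
        (Finset.mem_range.mp (Finset.mem_filter.mp (Finset.mem_coe.mp hj)).1) hne hij
  have h3 := cubic_zero s hcard (a := 6 * tau ρ c g)
    (b := 6 * tau ρ c (g * u) - 6 * tau ρ c g - tau ρ c u * (3 * (ρ g).val.trace +
        ((ρ g).val * ((ρ u).val - 1)).trace)) (d := 3 * tau ρ c u * (ρ g).val.trace)
    (e := tau ρ c u * ((ρ g).val * ((ρ u).val - 1)).trace) (by
      intro x hx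
      rw [hs, Finset.mem_image] at hx
      obtain ⟨n, hn, rfl⟩ := hx
      rw [Finset.mem_filter] at hn
      rw [← tau_closed hc hker (hχ g hg) (hχ u hu) (hH u hu) ht,
        tau_ss hc hker hχ hss (H.mul_mem hg (H.pow_mem hu n)) (by
          rw [trace_mul_pow (hH u hu) ht]
          exact hn.2), mul_zero])
  exact (mul_eq_zero.mp h3).resolve_right hgu

include hc hker hχ in
theorem tau_unip_three [CharP k 3] {u : Γ} (hu : u ∈ H) (hd : (ρ u).val.det = 1)
    (ht : (ρ u).val.trace = 2) : tau ρ c u = 0 := by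
  have h3 : (3 : k) = 0 := by
    have := CharP.cast_eq_zero k 3
    simpa using this
  set E := (ρ u).val - 1 with hE
  obtain ⟨hE1, hE2⟩ := det_sub_one hd ht
  rw [← hE] at hE1 hE2
  have hEE := nilp_sq hE1 hE2
  have hu1 : (ρ u).val = 1 + E := by rw [hE]; abel
  have hu2 : (ρ u⁻¹).val = 1 - E := by
    rw [map_inv, inv_val hd, ht, hu1, two_smul]
    abel
  have hu3 : ρ (u ^ 3) = 1 := by
    apply Units.ext
    rw [pow_val hd ht]
    push_cast
    rw [h3, zero_smul, add_zero]
  set X := (c u).1 with hX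
  have e1 : (c (u ^ 2)).1 = (1 + E) * X * (1 - E) + X := by
    rw [pow_two, coe_mul hc, hχ u hu, Units.val_one, one_smul, hu1, hu2]
  have e2 : (c (u ^ 3)).1 = (1 + E) * ((1 + E) * X * (1 - E) + X) * (1 - E) + X := by
    rw [pow_succ' u 2, coe_mul hc, hχ u hu, Units.val_one, one_smul, hu1, hu2, e1]
  rw [hker _ hu3] at e2
  have e3 : (1 + E) * ((1 + E) * X * (1 - E) + X) * (1 - E) + X =
      (3 : k) • X + (3 : k) • (E * X) - (3 : k) • (X * E) - (6 : k) • (E * X * E) + E * X * E +
        ((E * E) * X * (1 - E) * (1 - E) + (1 + E) * (1 + E) * X * (E * E) -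
          (E * E) * X * (E * E)) := by
    have h33 : ∀ Y : Matrix (Fin 2) (Fin 2) k, (3 : k) • Y = Y + Y + Y := by
      intro Y
      rw [show (3 : k) = 1 + 1 + 1 by norm_num, add_smul, add_smul, one_smul]
    have h66 : ∀ Y : Matrix (Fin 2) (Fin 2) k, (6 : k) • Y = Y + Y + Y + Y + Y + Y := by
      intro Y
      rw [show (6 : k) = 1 + 1 + 1 + 1 + 1 + 1 by norm_num]
      simp only [add_smul, one_smul]
    rw [h33, h33, h33, h66]
    noncomm_ring
  have h6 : (6 : k) = 0 := by
    rw [show (6 : k) = 3 * 2 by norm_num, h3, zero_mul]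
  rw [e3, h3, h6, hEE] at e2
  simp only [zero_smul, zero_mul, mul_zero, add_zero, sub_zero, zero_add, sub_self] at e2
  rw [nilp_sandwich hE1 hE2] at e2
  have e4 : (E * X).trace • E = 0 := e2.symm
  have e5 : tau ρ c u = (E * X).trace := by
    rw [tau, ← hX, hu1, mul_add, mul_one, trace_add, mem_sl2.mp (c u).2, zero_add,
      trace_mul_comm]
  rw [e5]
  rcases smul_eq_zero.mp e4 with h | h
  · exact h
  · rw [h, zero_mul, trace_zero]

omit [CharP k p] in
include hc hker hH hχ hss in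
theorem tau_pair_five [CharP k 5] {u v : Γ} (hu : u ∈ H) (hv : v ∈ H)
    (ht : (ρ u).val.trace = 2) (htv : (ρ v).val.trace = 2)
    (huv : (((ρ v).val - 1) * ((ρ u).val - 1)).trace ≠ 0) :
    tau ρ c u = 0 ∨ tau ρ c u = tau ρ c v ∨ tau ρ c u = - tau ρ c v := by
  classical
  have h5 : (5 : k) = 0 := by
    have := CharP.cast_eq_zero k 5
    simpa using this
  haveI : Fact (Nat.Prime 5) := ⟨by norm_num⟩
  set j := (((ρ v).val - 1) * ((ρ u).val - 1)).trace with hj
  -- the trace of `v ^ m * u ^ n`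
  have hj' : ∀ m : ℕ, ((ρ (v ^ m)).val * ((ρ u).val - 1)).trace = m * j := by
    intro m
    rw [pow_val (hH v hv) htv, add_mul, one_mul, trace_add, (det_sub_one (hH u hu) ht).1,
      zero_add, smul_mul_assoc, trace_smul, smul_eq_mul, hj]
  have htm : ∀ m : ℕ, (ρ (v ^ m)).val.trace = 2 := by
    intro m
    rw [pow_val (hH v hv) htv, trace_add, trace_smul, (det_sub_one (hH v hv) htv).1, smul_zero,
      add_zero, trace_one]
    simp
  have hrec := fun (m n : ℕ) => tau_rec hc hker (g := v ^ m) (u := u)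
    (by rw [map_pow, hχ v hv, one_pow]) (hχ u hu) (hH u hu) ht n
  have hz : ∀ m n : ℕ, (n : k) * (m * j) ≠ 0 → (n : k) * (m * j) ≠ 1 →
      tau ρ c (v ^ m * u ^ n) = 0 := by
    intro m n h0 h1
    refine tau_ss hc hker hχ hss (H.mul_mem (H.pow_mem hv m) (H.pow_mem hu n)) ?_
    rw [trace_mul_pow (hH u hu) ht, htm, hj']
    intro h
    have h4 : ((n : k) * (m * j)) * ((n : k) * (m * j) - 1) = 0 := by
      linear_combination h - (n : k) * (m * j) * h5
    rcases mul_eq_zero.mp h4 with h4 | h4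
    · exact h0 h4
    · exact h1 (sub_eq_zero.mp h4)
  have hne : ∀ a b : ℕ, a < 5 → b < 5 → a ≠ b → (a : k) ≠ (b : k) := fun a b ha hb hab =>
    cast_ne (k := k) 5 ha hb hab
  by_cases hcase : ∃ i : ℕ, 1 ≤ i ∧ i ≤ 4 ∧ (i : k) * j = 1
  · obtain ⟨i, hi1, hi4, hij⟩ := hcase
    have h3 := hz i 3 (by
      rw [hij, mul_one]
      simpa using hne 3 0 (by norm_num) (by norm_num) (by norm_num)) (by
      rw [hij, mul_one]
      simpa using hne 3 1 (by norm_num) (by norm_num) (by norm_num))
    have h4 := hz i 4 (by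
      rw [hij, mul_one]
      simpa using hne 4 0 (by norm_num) (by norm_num) (by norm_num)) (by
      rw [hij, mul_one]
      simpa using hne 4 1 (by norm_num) (by norm_num) (by norm_num))
    have h6 := hrec i 3
    rw [htm, hj', hij, h3, show 3 + 1 = 4 from rfl, h4] at h6
    have h7 : tau ρ c (v ^ i * u ^ (3 + 2)) = tau ρ c (v ^ i) := by
      apply tau_eq_of_eq hc hker
      rw [map_mul]
      have : ρ (u ^ (3 + 2)) = 1 := by
        apply Units.ext
        rw [pow_val (hH u hu) ht]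
        push_cast
        rw [h5, zero_smul, add_zero]
      rw [this, mul_one]
    rw [h7, tau_pow hc hker (hχ v hv) (hH v hv) htv] at h6
    push_cast at h6
    interval_cases i
    · right; left
      push_cast at h6
      linear_combination -h6 - tau ρ c u * h5
    · right; right
      push_cast at h6
      linear_combination -h6 - tau ρ c u * h5 + tau ρ c v * h5
    · right; right
      push_cast at h6
      linear_combination -h6 - tau ρ c u * h5 + 2 * tau ρ c v * h5
    · right; left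
      push_cast at h6
      linear_combination -h6 - tau ρ c u * h5 + 3 * tau ρ c v * h5
  · left
    push Not at hcase
    have hzz : ∀ n : ℕ, 1 ≤ n → n ≤ 4 → tau ρ c (v ^ 1 * u ^ n) = 0 := by
      intro n h1 h4
      refine hz 1 n ?_ ?_
      · push_cast
        rw [one_mul]
        refine mul_ne_zero ?_ huv
        simpa using hne n 0 (by omega) (by norm_num) (by omega)
      · push_cast
        rw [one_mul]
        exact hcase n h1 h4
    have h1 := hrec 1 1
    have h2 := hrec 1 2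
    rw [htm, hj', hzz (1 + 2) (by norm_num) (by norm_num), hzz 1 (by norm_num) (by norm_num),
      hzz (1 + 1) (by norm_num) (by norm_num)] at h1
    rw [htm, hj', hzz (2 + 2) (by norm_num) (by norm_num), hzz 2 (by norm_num) (by norm_num),
      hzz (2 + 1) (by norm_num) (by norm_num)] at h2
    push_cast at h1 h2
    have h3 : j * tau ρ c u = 0 := by linear_combination h1 - h2
    exact (mul_eq_zero.mp h3).resolve_left huv

omit [CharP k p] in
include hspan in
theorem exists_trace_ne {E : Matrix (Fin 2) (Fin 2) k} (hE : E ≠ 0) :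
    ∃ g ∈ H, ((ρ g).val * E).trace ≠ 0 := by
  by_contra hcon
  push Not at hcon
  apply hE
  refine eq_zero_of_trace_mul fun A => ?_
  have hA : A ∈ Submodule.span k (imgSet ρ H) := by rw [hspan]; trivial
  rw [trace_mul_comm]
  induction hA using Submodule.span_induction with
  | mem y hy =>
    obtain ⟨h, hh, rfl⟩ := hy
    exact hcon h hh
  | zero => simp
  | add x y _ _ hx hy => rw [add_mul, trace_add, hx, hy, add_zero]
  | smul a x _ hx => rw [smul_mul_assoc, trace_smul, hx, smul_zero]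

omit [CharP k p] in
include hc hker hH hχ hss hspan in
theorem tau_unip_five [CharP k 5] [hN : H.Normal] (ht5 : ∃ t : Γ, (χ t : k) = 2) {u : Γ}
    (hu : u ∈ H) (ht : (ρ u).val.trace = 2) : tau ρ c u = 0 := by
  classical
  have h5 : (5 : k) = 0 := by
    have := CharP.cast_eq_zero k 5
    simpa using this
  haveI : Fact (Nat.Prime 5) := ⟨by norm_num⟩
  have hne : ∀ a b : ℕ, a < 5 → b < 5 → a ≠ b → (a : k) ≠ (b : k) := fun a b ha hb hab =>
    cast_ne (k := k) 5 ha hb hab
  have h2 : (2 : k) ≠ 0 := by simpa using hne 2 0 (by norm_num) (by norm_num) (by norm_num)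
  have h3 : (3 : k) ≠ 0 := by simpa using hne 3 0 (by norm_num) (by norm_num) (by norm_num)
  by_contra hne0
  obtain ⟨t, ht2⟩ := ht5
  obtain ⟨hE1, hE2⟩ := det_sub_one (hH u hu) ht
  have hE0 : (ρ u).val - 1 ≠ 0 := by
    intro h
    apply hne0
    apply tau_one hker
    apply Units.ext
    rw [Units.val_one]
    exact sub_eq_zero.mp h
  -- conjugates
  have hconj : ∀ s : Γ, s * u * s⁻¹ ∈ H ∧ (ρ (s * u * s⁻¹)).val.trace = 2 ∧
      (ρ (s * u * s⁻¹)).val - 1 = (ρ s).val * ((ρ u).val - 1) * (ρ s⁻¹).val := by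
    intro s
    have e1 : (ρ (s * u * s⁻¹)).val = (ρ s).val * (ρ u).val * (ρ s⁻¹).val := by
      rw [map_mul, map_mul, Units.val_mul, Units.val_mul]
    refine ⟨hN.conj_mem u hu s, ?_, ?_⟩
    · rw [e1, trace_mul_comm, ← mul_assoc, inv_mul_coe, one_mul, ht]
    · rw [e1, mul_sub, sub_mul, mul_one, mul_inv_coe]
  obtain ⟨hv, htv, hEv⟩ := hconj t
  set v := t * u * t⁻¹ with hvdef
  have hτv : tau ρ c v = 2 * tau ρ c u := by rw [hvdef, tau_conj hc hker (hχ u hu), ht2]
  have hτv0 : tau ρ c v ≠ 0 := by rw [hτv]; exact mul_ne_zero h2 hne0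
  -- no relation between `τ v` and `± τ u`
  have hno : ∀ w : k, (w = tau ρ c u) → ¬ (tau ρ c v = 0 ∨ tau ρ c v = w ∨ tau ρ c v = -w) := by
    rintro _ rfl (h | h | h)
    · exact hτv0 h
    · apply hne0
      linear_combination h - hτv
    · apply hne0
      have : (3 : k) * tau ρ c u = 0 := by linear_combination h - hτv
      exact (mul_eq_zero.mp this).resolve_left h3
  by_cases huv : (((ρ u).val - 1) * ((ρ v).val - 1)).trace = 0
  · obtain ⟨hV1, hV2⟩ := det_sub_one (hH v hv) htv
    obtain ⟨l, hl⟩ := nilp_prop h2 hE1 hE2 hE0 hV1 hV2 huv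
    have hl0 : l ≠ 0 := by
      rintro rfl
      rw [zero_smul] at hl
      apply hτv0
      apply tau_one hker
      apply Units.ext
      rw [Units.val_one]
      exact sub_eq_zero.mp hl
    obtain ⟨g, hg, hgE⟩ := exists_trace_ne hspan hE0
    obtain ⟨hw, htw, hEw⟩ := hconj g
    set w := g * u * g⁻¹ with hwdef
    have hτw : tau ρ c w = tau ρ c u := by
      rw [hwdef, tau_conj hc hker (hχ u hu), hχ g hg, Units.val_one, one_mul]
    refine hno _ hτw (tau_pair_five hc hker hH hχ hss hv hw htv htw ?_)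
    rw [hl, hEw, map_inv, inv_val (hH g hg), mul_smul_comm, trace_smul, smul_eq_mul]
    refine mul_ne_zero hl0 ?_
    set E := (ρ u).val - 1 with hE
    rw [sandwich_aux, nilp_sq hE1 hE2, mul_zero, smul_zero, zero_sub, nilp_sandwich hE1 hE2, trace_neg,
      mul_smul_comm, trace_smul, smul_eq_mul, trace_mul_comm E (ρ g).val]
    exact neg_ne_zero.mpr (mul_ne_zero hgE hgE)
  · exact hno _ rfl (tau_pair_five hc hker hH hχ hss hv hu htv ht huv)

include hc hker hH hχ hss hspan in
theorem tau_eq_zero [hN : H.Normal] (hp2 : p ≠ 2) (ht5 : p = 5 → ∃ t : Γ, (χ t : k) = 2) {h : Γ}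
    (hh : h ∈ H) : tau ρ c h = 0 := by
  have h2 : (2 : k) ≠ 0 := by
    intro h
    have h1 : ((2 : ℕ) : k) = 0 := by exact_mod_cast h
    rw [CharP.cast_eq_zero_iff k p] at h1
    exact hp2 ((Nat.prime_dvd_prime_iff_eq hp.out Nat.prime_two).mp h1)
  -- unipotent elements
  have hu : ∀ u ∈ H, (ρ u).val.trace = 2 → tau ρ c u = 0 := by
    intro u hu ht
    by_cases hE0 : (ρ u).val - 1 = 0
    · apply tau_one hker
      apply Units.ext
      rw [Units.val_one]
      exact sub_eq_zero.mp hE0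
    have hp4 : p ≠ 4 := by
      intro h
      have := hp.out
      rw [h] at this
      revert this
      norm_num
    have hp6 : p ≠ 6 := by
      intro h
      have := hp.out
      rw [h] at this
      revert this
      norm_num
    have h1p := hp.out.two_le
    rcases (show p = 3 ∨ p = 5 ∨ 7 ≤ p by omega) with h3 | h5 | h7
    · subst h3
      exact tau_unip_three hc hker hχ hu (hH u hu) ht
    · subst h5
      exact tau_unip_five hc hker hH hχ hss hspan (ht5 rfl) hu ht
    · obtain ⟨g, hg, hgE⟩ := exists_trace_ne hspan hE0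
      exact tau_unip_ge hc hker p hH hχ hss h7 hu ht hg hgE
  by_cases h4 : (ρ h).val.trace ^ 2 = 4
  · have h5 : ((ρ h).val.trace - 2) * ((ρ h).val.trace + 2) = 0 := by linear_combination h4
    rcases mul_eq_zero.mp h5 with h5 | h5
    · exact hu h hh (sub_eq_zero.mp h5)
    · have h6 : (ρ h).val.trace = -2 := eq_neg_of_add_eq_zero_left h5
      have h7 := tau_add hc hker (hχ h hh) (hχ h hh) (hH h hh)
      rw [mul_inv_cancel, tau_one hker (map_one ρ), h6] at h7
      have h8 : (ρ (h * h)).val.trace = 2 := by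
        have h9 : (ρ h).val * (ρ h).val = (ρ h).val.trace • (ρ h).val -
            (ρ h).val.det • (1 : Matrix (Fin 2) (Fin 2) k) := by
          ext i j
          fin_cases i <;> fin_cases j <;>
            simp [Matrix.mul_apply, Fin.sum_univ_two, trace_fin_two, det_fin_two] <;> ring
        rw [map_mul, Units.val_mul, h9, hH h hh, h6, trace_sub, trace_smul, trace_smul, h6,
          trace_one]
        simp
        ring
      rw [hu _ (H.mul_mem hh hh) h8] at h7
      have h9 : (4 : k) * tau ρ c h = 0 := by linear_combination h7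
      refine (mul_eq_zero.mp h9).resolve_left ?_
      rw [show (4 : k) = 2 * 2 by norm_num]
      exact mul_ne_zero h2 h2
  · exact tau_ss hc hker hχ hss hh h4

end Steps

end TauUnip

section Inner

variable {k : Type*} [Field k] {Γ : Type*} [Group Γ] {ρ : Γ →* GL (Fin 2) k} {χ : Γ →* kˣ}
  {c : Γ → sl2 k} (hc : ∀ g h, c (g * h) = adRep ρ χ g (c h) + c g) {H : Subgroup Γ}
  (hχ : ∀ h ∈ H, χ h = 1) (hspan : Submodule.span k (imgSet ρ H) = ⊤)
  (hτ : ∀ h ∈ H, tau ρ c h = 0)

include hc hχ hspan hτ in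
theorem exists_derivation : ∃ D : Matrix (Fin 2) (Fin 2) k →ₗ[k] Matrix (Fin 2) (Fin 2) k,
    (∀ h ∈ H, D (ρ h).val = (c h).1 * (ρ h).val) ∧ ∀ A B, D (A * B) = D A * B + A * D B := by
  let Φ : (H →₀ k) →ₗ[k] Matrix (Fin 2) (Fin 2) k :=
    Finsupp.linearCombination k (fun h : H => (ρ h.1).val)
  let Ψ : (H →₀ k) →ₗ[k] Matrix (Fin 2) (Fin 2) k :=
    Finsupp.linearCombination k (fun h : H => (c h.1).1 * (ρ h.1).val)
  have hΦs : Function.Surjective Φ := by
    rw [← LinearMap.range_eq_top, Finsupp.range_linearCombination, ← hspan]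
    congr 1
    ext M
    constructor
    · rintro ⟨h, rfl⟩
      exact ⟨h.1, h.2, rfl⟩
    · rintro ⟨h, hh, rfl⟩
      exact ⟨⟨h, hh⟩, rfl⟩
  -- key relation
  have hkey : ∀ g ∈ H, ∀ h ∈ H, ((c g).1 * (ρ g).val * (ρ h).val).trace =
      - ((ρ g).val * ((c h).1 * (ρ h).val)).trace := by
    intro g hg h hh
    have h1 := hτ _ (H.mul_mem hg hh)
    rw [tau, coe_mul hc, hχ g hg, Units.val_one, one_smul, map_mul, Units.val_mul, add_mul,
      trace_add] at h1
    have h2 : (ρ g).val * (c h).1 * (ρ g⁻¹).val * ((ρ g).val * (ρ h).val) =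
        (ρ g).val * ((c h).1 * (ρ h).val) := by
      rw [mul_assoc, ← mul_assoc (ρ g⁻¹).val, inv_mul_coe, one_mul, mul_assoc]
    rw [h2, ← mul_assoc (c g).1] at h1
    linear_combination h1
  have hker : ∀ x, Φ x = 0 → Ψ x = 0 := by
    intro x hx
    -- trace against `ρ h`
    have h1 : ∀ h ∈ H, (Ψ x * (ρ h).val).trace = - (Φ x * ((c h).1 * (ρ h).val)).trace := by
      intro h hh
      change (Finsupp.linearCombination k _ x * (ρ h).val).trace =
        - (Finsupp.linearCombination k _ x * ((c h).1 * (ρ h).val)).trace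
      rw [Finsupp.linearCombination_apply, Finsupp.linearCombination_apply, Finsupp.sum,
        Finsupp.sum, Finset.sum_mul, Finset.sum_mul, trace_sum, trace_sum, ← Finset.sum_neg_distrib]
      refine Finset.sum_congr rfl fun g _ => ?_
      rw [smul_mul_assoc, trace_smul, smul_mul_assoc, trace_smul, hkey g.1 g.2 h hh, smul_neg]
    refine eq_zero_of_trace_mul fun A => ?_
    have hA : A ∈ Submodule.span k (imgSet ρ H) := by rw [hspan]; trivial
    induction hA using Submodule.span_induction with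
    | mem y hy =>
      obtain ⟨h, hh, rfl⟩ := hy
      rw [h1 h hh, hx, zero_mul, trace_zero, neg_zero]
    | zero => simp
    | add x y _ _ hx hy => rw [mul_add, trace_add, hx, hy, add_zero]
    | smul a x _ hx => rw [mul_smul_comm, trace_smul, hx, smul_zero]
  obtain ⟨s, hs⟩ := Φ.exists_rightInverse_of_surjective (LinearMap.range_eq_top.mpr hΦs)
  have hD : ∀ x, (Ψ ∘ₗ s) (Φ x) = Ψ x := by
    intro x
    rw [← sub_eq_zero, LinearMap.comp_apply, ← map_sub]
    apply hker
    rw [map_sub, sub_eq_zero]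
    exact LinearMap.congr_fun hs (Φ x)
  have hDρ : ∀ h ∈ H, (Ψ ∘ₗ s) (ρ h).val = (c h).1 * (ρ h).val := by
    intro h hh
    have h1 := hD (Finsupp.single ⟨h, hh⟩ 1)
    change (Ψ ∘ₗ s) (Finsupp.linearCombination k _ _) = Finsupp.linearCombination k _ _ at h1
    rw [Finsupp.linearCombination_single, Finsupp.linearCombination_single, one_smul, one_smul]
      at h1
    exact h1
  refine ⟨Ψ ∘ₗ s, hDρ, fun A B => ?_⟩
  set D := Ψ ∘ₗ s
  have hA : A ∈ Submodule.span k (imgSet ρ H) := by rw [hspan]; trivial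
  have hB : B ∈ Submodule.span k (imgSet ρ H) := by rw [hspan]; trivial
  induction hA using Submodule.span_induction with
  | mem y hy =>
    obtain ⟨g, hg, rfl⟩ := hy
    induction hB using Submodule.span_induction with
    | mem y hy =>
      obtain ⟨h, hh, rfl⟩ := hy
      have h1 := hDρ _ (H.mul_mem hg hh)
      rw [coe_mul hc, hχ g hg, Units.val_one, one_smul, map_mul, Units.val_mul, add_mul] at h1
      rw [h1, hDρ g hg, hDρ h hh]
      rw [mul_assoc, ← mul_assoc (ρ g⁻¹).val, inv_mul_coe, one_mul]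
      rw [add_comm]
      noncomm_ring
    | zero => simp
    | add x y _ _ hx hy => rw [mul_add, map_add, hx, hy, map_add, mul_add, mul_add]; abel
    | smul a x _ hx =>
      rw [mul_smul_comm, map_smul, hx, map_smul, mul_smul_comm, mul_smul_comm, smul_add]
  | zero => simp
  | add x y _ _ hx hy => rw [add_mul, map_add, hx, hy, map_add, add_mul, add_mul]; abel
  | smul a x _ hx =>
    rw [smul_mul_assoc, map_smul, hx, map_smul, smul_mul_assoc, smul_mul_assoc, smul_add]

theorem inner_of_derivation {D : Matrix (Fin 2) (Fin 2) k →ₗ[k] Matrix (Fin 2) (Fin 2) k}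
    (hD : ∀ A B, D (A * B) = D A * B + A * D B) :
    ∃ Y : Matrix (Fin 2) (Fin 2) k, ∀ A, D A = Y * A - A * Y := by
  set E00 : Matrix (Fin 2) (Fin 2) k := Matrix.single 0 0 1 with h00
  set E10 : Matrix (Fin 2) (Fin 2) k := Matrix.single 1 0 1 with h10
  set E01 : Matrix (Fin 2) (Fin 2) k := Matrix.single 0 1 1 with h01
  refine ⟨D E00 * E00 + D E10 * E01, fun A => ?_⟩
  have e1 : A * E00 = A 0 0 • E00 + A 1 0 • E10 := by
    ext i j
    fin_cases i <;> fin_cases j <;>
      simp [h00, h10, Matrix.mul_apply, Fin.sum_univ_two, Matrix.single_apply]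
  have e2 : A * E10 = A 0 1 • E00 + A 1 1 • E10 := by
    ext i j
    fin_cases i <;> fin_cases j <;>
      simp [h00, h10, Matrix.mul_apply, Fin.sum_univ_two, Matrix.single_apply]
  have e3 : E00 * A = A 0 0 • E00 + A 0 1 • E01 := by
    ext i j
    fin_cases i <;> fin_cases j <;>
      simp [h00, h01, Matrix.mul_apply, Fin.sum_univ_two, Matrix.single_apply]
  have e4 : E01 * A = A 1 0 • E00 + A 1 1 • E01 := by
    ext i j
    fin_cases i <;> fin_cases j <;>
      simp [h00, h01, Matrix.mul_apply, Fin.sum_univ_two, Matrix.single_apply]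
  have e5 : E00 * E00 + E10 * E01 = 1 := by
    ext i j
    fin_cases i <;> fin_cases j <;>
      simp [h00, h01, h10, Matrix.mul_apply, Fin.sum_univ_two, Matrix.single_apply]
  have e6 : A * D E00 = D (A * E00) - D A * E00 := by rw [hD]; abel
  have e7 : A * D E10 = D (A * E10) - D A * E10 := by rw [hD]; abel
  have e8 : A * (D E00 * E00 + D E10 * E01) =
      D (A * E00) * E00 + D (A * E10) * E01 - D A * (E00 * E00 + E10 * E01) := by
    rw [mul_add, ← mul_assoc, ← mul_assoc, e6, e7]
    noncomm_ring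
  rw [e8, e5, mul_one, e1, e2, add_mul (D E00 * E00), mul_assoc (D E00), e3, mul_assoc (D E10), e4]
  simp only [map_add, map_smul, mul_add, add_mul, smul_mul_assoc, mul_smul_comm]
  abel

include hc hχ hspan hτ in
theorem exists_coboundary (h2 : (2 : k) ≠ 0) : ∃ Z : sl2 k, ∀ h ∈ H, c h = adRep ρ χ h Z - Z := by
  obtain ⟨D, hD1, hD2⟩ := exists_derivation hc hχ hspan hτ
  obtain ⟨Y, hY⟩ := inner_of_derivation hD2
  refine ⟨⟨(Y.trace / 2) • (1 : Matrix (Fin 2) (Fin 2) k) - Y, ?_⟩, fun h hh => ?_⟩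
  · rw [mem_sl2, trace_sub, trace_smul, trace_one]
    simp only [Fintype.card_fin, Nat.cast_ofNat, smul_eq_mul]
    rw [div_mul_cancel₀ _ h2, sub_self]
  · apply Subtype.ext
    rw [Submodule.coe_sub, adRep_coe, hχ h hh, Units.val_one, one_smul]
    change _ = (ρ h).val * ((Y.trace / 2) • (1 : Matrix (Fin 2) (Fin 2) k) - Y) * (ρ h⁻¹).val -
      ((Y.trace / 2) • (1 : Matrix (Fin 2) (Fin 2) k) - Y)
    have h1 := hD1 h hh
    rw [hY] at h1
    have h3 : (c h).1 = (Y * (ρ h).val - (ρ h).val * Y) * (ρ h⁻¹).val := by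
      rw [h1, mul_assoc, mul_inv_coe, mul_one]
    rw [h3, sub_mul, mul_assoc, mul_inv_coe, mul_one, mul_sub, sub_mul, mul_smul_comm,
      mul_one, smul_mul_assoc, mul_inv_coe]
    abel

include hχ hspan in
theorem eq_zero_of_inv (h2 : (2 : k) ≠ 0) (X : sl2 k) (hX : ∀ h ∈ H, adRep ρ χ h X = X) :
    X = 0 := by
  have hcom : ∀ Y : Matrix (Fin 2) (Fin 2) k, Y * X.1 = X.1 * Y := by
    intro Y
    have hY : Y ∈ Submodule.span k (imgSet ρ H) := by rw [hspan]; trivial
    induction hY using Submodule.span_induction with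
    | mem y hy =>
      obtain ⟨h, hh, rfl⟩ := hy
      have e1 := congrArg Subtype.val (hX h hh)
      rw [adRep_coe, hχ h hh, Units.val_one, one_smul] at e1
      calc (ρ h).val * X.1 = (ρ h).val * X.1 * ((ρ h⁻¹).val * (ρ h).val) := by
            rw [inv_mul_coe, mul_one]
        _ = X.1 * (ρ h).val := by rw [← mul_assoc, e1]
    | zero => simp
    | add x y _ _ hx hy => rw [add_mul, mul_add, hx, hy]
    | smul a x _ hx => rw [smul_mul_assoc, mul_smul_comm, hx]
  have htr := mem_sl2.mp X.2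
  rw [trace_fin_two] at htr
  apply Subtype.ext
  have h01 := congrFun (congrFun (hcom !![0, 1; 0, 0]) 0) 0
  have h01' := congrFun (congrFun (hcom !![0, 1; 0, 0]) 0) 1
  have h10 := congrFun (congrFun (hcom !![0, 0; 1, 0]) 0) 0
  simp [mul_apply, Fin.sum_univ_two] at h01 h01' h10
  have hd : 2 * X.1 0 0 = 0 := by linear_combination htr - h01'
  have hd0 : X.1 0 0 = 0 := (mul_eq_zero.mp hd).resolve_left h2
  ext i j
  fin_cases i <;> fin_cases j
  · exact hd0
  · exact h10.symm
  · exact h01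
  · change X.1 1 1 = 0
    linear_combination htr - hd0

end Inner

section Final

variable {k : Type*} [Field k] {Γ : Type*} [Group Γ] {ρ : Γ →* GL (Fin 2) k} {χ : Γ →* kˣ}
  {c : Γ → sl2 k}

/-- **Vanishing of `H¹(ρ(G), ad⁰(1))`** over a field of odd characteristic, provided the image of
the subgroup `H` (with trivial determinant) spans. -/
theorem hvan_general (p : ℕ) [hp : Fact p.Prime] [CharP k p] (hp2 : p ≠ 2) {H : Subgroup Γ}
    [H.Normal] (hspan : Submodule.span k (imgSet ρ H) = ⊤)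
    (hH : ∀ h ∈ H, (ρ h).val.det = 1) (hχ : ∀ h ∈ H, χ h = 1)
    (ht5 : p = 5 → ∃ t : Γ, (χ t : k) = 2)
    (hss : ∀ h ∈ H, (ρ h).val.trace ^ 2 ≠ 4 → ∃ N : ℕ, (N : k) ≠ 0 ∧ ρ h ^ N = 1)
    (hc : ∀ g h, c (g * h) = adRep ρ χ g (c h) + c g) (hker : ∀ t, ρ t = 1 → c t = 0) :
    c ∈ B1 (adRep ρ χ) := by
  have h2 : (2 : k) ≠ 0 := by
    intro h
    have h1 : ((2 : ℕ) : k) = 0 := by exact_mod_cast h
    rw [CharP.cast_eq_zero_iff k p] at h1
    exact hp2 ((Nat.prime_dvd_prime_iff_eq hp.out Nat.prime_two).mp h1)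
  obtain ⟨Z, hZ⟩ := exists_coboundary hc hχ hspan
    (fun h hh => tau_eq_zero hc hker p hH hχ hss hspan hp2 ht5 hh) h2
  have : (H.subgroupOf H).FiniteIndex := by
    rw [Subgroup.subgroupOf_self]
    infer_instance
  have h3 : (fun g => c g - (adRep ρ χ g Z - Z)) ∈ B1 (adRep ρ χ) := by
    refine mem_B1_of_normal (N := H) (M := H) le_rfl ?_
      (fun X hX => eq_zero_of_inv hχ hspan h2 X hX) ?_ ?_
    · rw [Subgroup.relIndex_self]
      simp
    · intro g h
      rw [hc, map_mul, map_sub, map_sub, Module.End.mul_apply]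
      abel
    · intro h hh
      rw [hZ h hh, sub_self]
  rw [mem_B1] at h3 ⊢
  obtain ⟨W, hW⟩ := h3
  refine ⟨W + Z, fun g => ?_⟩
  have h4 := hW g
  rw [map_add]
  rw [sub_eq_iff_eq_add] at h4
  rw [h4]
  abel

/-- elements with distinct eigenvalues in a finite field have order prime to the characteristic -/
theorem exists_order [Finite k] {A : GL (Fin 2) k} {α β : k} (hαβ : α ≠ β)
    (hA : A.val.charpoly = (Polynomial.X - Polynomial.C α) * (Polynomial.X - Polynomial.C β)) :
    ∃ N : ℕ, (N : k) ≠ 0 ∧ A ^ N = 1 := by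
  classical
  have := Fintype.ofFinite k
  refine ⟨Fintype.card k - 1, ?_, ?_⟩
  · rw [Nat.cast_sub Fintype.one_lt_card.le, FiniteField.cast_card_eq_zero, Nat.cast_one, zero_sub]
    exact neg_ne_zero.mpr one_ne_zero
  · have h1 : (Polynomial.X - Polynomial.C α) * (Polynomial.X - Polynomial.C β) ∣
        (Polynomial.X ^ Fintype.card k - Polynomial.X : Polynomial k) := by
      refine IsCoprime.mul_dvd ?_ ?_ ?_
      · exact Polynomial.isCoprime_X_sub_C_of_isUnit_sub (sub_ne_zero.mpr hαβ).isUnit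
      · rw [Polynomial.dvd_iff_isRoot, Polynomial.IsRoot]
        simp [FiniteField.pow_card]
      · rw [Polynomial.dvd_iff_isRoot, Polynomial.IsRoot]
        simp [FiniteField.pow_card]
    obtain ⟨Q, hQ⟩ := h1
    have h2 : A.val ^ Fintype.card k = A.val := by
      have h3 := congrArg (Polynomial.aeval A.val) hQ
      rw [← hA, map_mul, Matrix.aeval_self_charpoly, zero_mul, map_sub, map_pow,
        Polynomial.aeval_X, sub_eq_zero] at h3
      exact h3
    have h4 : A ^ Fintype.card k = A := by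
      apply Units.ext
      rw [Units.val_pow_eq_pow_val, h2]
    have h5 : A ^ (Fintype.card k - 1) * A = A := by
      rw [← pow_succ, Nat.sub_add_cancel Fintype.one_lt_card.le, h4]
    exact mul_eq_right.mp h5

end Final

end VanG

end Fermat.Agent.RT
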