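import Fermat.Agent.PT.GW3
import Fermat.Agent.RT.TWVanG

set_option autoImplicit false
set_option linter.unusedSectionVars false
set_option linter.style.haveILetI false

/-!
# Taylor–Wiles primes: final form
-/

open Matrix

namespace Fermat.Agent.RT

open Fermat.Agent.GCFT Fermat.Agent.Coh ExtCitation

/-- The absolute Galois group. -/
local notation "GQ" => (AlgebraicClosure ℚ ≃ₐ[ℚ] AlgebraicClosure ℚ)

section Order

variable {k : Type*} [Field k]

/-- powers of a matrix are linear polynomials in it -/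
theorem exists_pow_eq_lin (A : Matrix (Fin 2) (Fin 2) k) (m : ℕ) :
    ∃ x y : k, A ^ m = x • 1 + y • A := by
  have hCH : A * A = A.trace • A - A.det • (1 : Matrix (Fin 2) (Fin 2) k) := by
    ext i j
    rw [trace_fin_two, det_fin_two]
    fin_cases i <;> fin_cases j <;> simp [Matrix.mul_apply, Fin.sum_univ_two] <;> ring
  induction m with
  | zero => exact ⟨1, 0, by rw [pow_zero, one_smul, zero_smul, add_zero]⟩
  | succ m ih =>
    obtain ⟨x, y, h⟩ := ih
    refine ⟨-(y * A.det), x + y * A.trace, ?_⟩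
    rw [pow_succ, h, add_mul, smul_mul_assoc, one_mul, smul_mul_assoc, hCH, smul_sub, smul_smul,
      smul_smul, add_smul, neg_smul]
    abel

/-- regular semisimple elements over a finite field have order prime to the characteristic -/
theorem exists_order' [Finite k] (p : ℕ) [hp : Fact p.Prime] [CharP k p] (h2 : (2 : k) ≠ 0)
    {A : GL (Fin 2) k} (h : A.val.trace ^ 2 ≠ 4 * A.val.det) :
    ∃ N : ℕ, (N : k) ≠ 0 ∧ A ^ N = 1 := by
  have hn : 0 < orderOf A := orderOf_pos A
  obtain ⟨a, m, hm, hn'⟩ := Nat.exists_eq_pow_mul_and_not_dvd hn.ne' p hp.out.ne_one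
  refine ⟨m, by rwa [Ne, CharP.cast_eq_zero_iff k p], ?_⟩
  obtain ⟨x, y, hxy⟩ := exists_pow_eq_lin A.val m
  set W : Matrix (Fin 2) (Fin 2) k := A.val ^ m - 1 with hW
  have hnil : IsNilpotent W := by
    refine ⟨p ^ a, ?_⟩
    haveI : CharP (Matrix (Fin 2) (Fin 2) k) p := inferInstance
    rw [hW, sub_pow_char_pow_of_commute p a (Commute.one_right _), one_pow, ← pow_mul, mul_comm m, ← hn',
      ← Units.val_pow_eq_pow_val, pow_orderOf_eq_one, Units.val_one, sub_self]
  have htr : W.trace = 0 := by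
    have := Matrix.isNilpotent_trace_of_isNilpotent hnil
    exact this.eq_zero
  have hdet : W.det = 0 := by
    obtain ⟨n, hn⟩ := hnil
    have h3 : W.det ^ n = 0 ∨ n = 0 := by
      rcases Nat.eq_zero_or_pos n with h0 | h0
      · exact Or.inr h0
      · left
        rw [← det_pow, hn, det_zero]
    rcases h3 with h3 | h3
    · by_contra h0
      exact pow_ne_zero n h0 h3
    · rw [h3, pow_zero] at hn
      exact absurd hn one_ne_zero
  have hWe : W = (x - 1) • 1 + y • A.val := by rw [hW, hxy, sub_smul, one_smul]; abel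
  have e1 : 2 * (x - 1) + y * A.val.trace = 0 := by
    rw [← htr, hWe, trace_add, trace_smul, trace_smul, trace_one, Fintype.card_fin]
    simp [mul_comm]
  have e2 : (x - 1) ^ 2 + (x - 1) * y * A.val.trace + y ^ 2 * A.val.det = 0 := by
    rw [← hdet, hWe, det_fin_two, det_fin_two, trace_fin_two]
    simp
    ring
  have hy : y = 0 := by
    have h3 : y ^ 2 * (A.val.trace ^ 2 - 4 * A.val.det) = 0 := by
      linear_combination (2 * (x - 1) + y * A.val.trace) * e1 - 4 * e2
    rcases mul_eq_zero.mp h3 with h4 | h4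
    · exact pow_eq_zero_iff two_ne_zero |>.mp h4
    · exact absurd (sub_eq_zero.mp h4) h
  rw [hy, zero_mul, add_zero] at e1
  have hx : x - 1 = 0 := (mul_eq_zero.mp e1).resolve_left h2
  rw [hx, hy, zero_smul, zero_smul, add_zero] at hWe
  apply Units.ext
  rw [Units.val_pow_eq_pow_val, Units.val_one]
  exact sub_eq_zero.mp hWe

end Order

/-- **Taylor–Wiles primes**, final form. -/
theorem exists_TW_final {p : ℕ} [hp : Fact p.Prime] {k : Type} [Field k] [Finite k] [CharP k p]
    (hp2 : p ≠ 2) (ρ : GQ →* GL (Fin 2) k) {χ : GQ →* kˣ}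
    (hχ : ∀ g, (χ g : k) = (ρ g).val.det)
    (f : ZMod p →+* k) (hdet : ∀ g, (ρ g).val.det = f (ESCore.cyc p g))
    {T : Finset Nat.Primes} (hT : ρ.ker ∈ famS T) (hpT : pPrime p ∈ T)
    (hspan : ∀ n, Submodule.span k (imgSet ρ (ESCore.cyc (p ^ n)).ker) = ⊤) {n : ℕ} (hn : 0 < n)
    (bad : Finset Nat.Primes) :
    ∃ Q : Finset Nat.Primes, Q.card = Module.finrank k (H1 (famS T) (adRep ρ χ)) ∧
      Disjoint Q (T ∪ bad) ∧ (∀ q ∈ Q, IsTW ρ p n q) ∧
      FiniteDimensional k (selK (T ∪ Q) (ad0 ρ) (fun v : T => v.1)) ∧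
      Module.finrank k (selK (T ∪ Q) (ad0 ρ) (fun v : T => v.1)) +
        ∑ v : T, Module.finrank k (H0 ((ad0 ρ).comp (rl v.1))) + 1 ≤
          Module.finrank k (H1 (famS T) (adRep ρ χ)) := by
  have h2 : (2 : k) ≠ 0 := by
    intro h
    have h3 : ((2 : ℕ) : k) = 0 := by exact_mod_cast h
    rw [CharP.cast_eq_zero_iff k p, Nat.prime_dvd_prime_iff_eq hp.out Nat.prime_two] at h3
    exact hp2 h3
  have hf : f = ZMod.castHom (dvd_refl p) k := Subsingleton.elim _ _
  have hcyc1 : ∀ g ∈ (ESCore.cyc (p ^ 1)).ker, ESCore.cyc p g = 1 := fun g hg =>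
    cyc_dvd (m := p) (m' := p ^ 1) (dvd_of_eq (pow_one p).symm) hg
  refine PT.GW.exists_TW hp2 ρ χ hχ (fun g => by rw [hχ, hdet, hf]) hT hpT
    (fun c hc hker => ?_) hspan hn bad
  haveI : (ESCore.cyc (p ^ 1)).ker.Normal := MonoidHom.normal_ker _
  refine VanG.hvan_general p hp2 (hspan 1) (fun h hh => ?_) (fun h hh => ?_) (fun h5 => ?_)
    (fun h hh htr => ?_) hc.2 hker
  · rw [hdet, hcyc1 h hh, Units.val_one, map_one]
  · apply Units.ext
    rw [hχ, hdet, hcyc1 h hh, Units.val_one, map_one, Units.val_one]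
  · have h20 : (2 : ZMod p) ≠ 0 := by
      intro h
      apply h2
      have := congrArg f h
      rwa [map_ofNat, map_zero] at this
    obtain ⟨t, ht⟩ := cyc_surj_general p (Units.mk0 (2 : ZMod p) h20)
    exact ⟨t, by rw [hχ, hdet, ht, Units.val_mk0, map_ofNat]⟩
  · refine exists_order' p h2 ?_
    rw [hdet, hcyc1 h hh, Units.val_one, map_one, mul_one]
    exact htr

end Fermat.Agent.RT
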