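import Fermat.Agent.RT.Levels
import Fermat.Agent.RT.LocAt
import Fermat.Agent.RT.Numer

set_option autoImplicit false
set_option maxHeartbeats 400000
set_option linter.style.haveILetI false
set_option linter.unusedSectionVars false
set_option linter.unusedVariables false

/-!
# The Galois package at a Taylor–Wiles level
-/

open IsLocalRing MvPowerSeries Matrix

noncomputable section

namespace Fermat.Agent.RT

open Fermat.Agent.GCFT Fermat.Agent.Coh Fermat.Agent.GalD Fermat.Agent.LocalCFT ExtCitation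

/-- The absolute Galois group. -/
local notation "GQ" => (AlgebraicClosure ℚ ≃ₐ[ℚ] AlgebraicClosure ℚ)

section Reindex

variable {B A : Type*} [CommRing B] [IsLocalRing B] [IsAdicComplete (maximalIdeal B) B]
  [CommRing A] {ι ι' : Type*} [Fintype ι]
  [Fintype ι'] {I : Ideal A} [IsAdicComplete I A]

/-- Surjectivity does not depend on the numbering of the variables. -/
theorem evalHom_surjective_of_reindex {φ : B →+* A} (hφ : ∀ b ∈ maximalIdeal B, φ b ∈ I)
    {F : ι → A} (hF : ∀ i, F i ∈ I) (e : ι' → ι) {F' : ι' → A} (hF' : ∀ i, F' i ∈ I)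
    (he : ∀ i, F (e i) = F' i) (h : Function.Surjective (evalHom I φ F' hF')) :
    Function.Surjective (evalHom I φ F hF) := by
  have h1 : (evalHom I φ F hF).comp (evalHom (maximalIdeal (MvPowerSeries ι B)) C
      (fun i => X (e i)) (fun i => X_mem_maximalIdeal' _)) = evalHom I φ F' hF' := by
    refine ringHom_ext_of_hausdorff (I := I) (fun b hb => ?_) (fun i => ?_) (fun b => ?_)
      (fun i => ?_)
    · rw [RingHom.comp_apply, evalHom_C, evalHom_C]
      exact hφ b hb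
    · rw [RingHom.comp_apply, evalHom_X, evalHom_X]
      exact hF _
    · rw [RingHom.comp_apply, evalHom_C, evalHom_C, evalHom_C]
    · rw [RingHom.comp_apply, evalHom_X, evalHom_X, evalHom_X, he]
  intro a
  obtain ⟨f, hf⟩ := h a
  exact ⟨_, (RingHom.congr_fun h1 f).trans hf⟩

end Reindex

section AllX

variable {𝒪 : Type} [CommRing 𝒪] [IsLocalRing 𝒪]
  {κ : Type} [Fintype κ] {c : κ → ℕ} {τ : ∀ v, LocType 𝒪 (c v)} {g : ℕ}
  {T : Type} [CommRing T] [IsLocalRing T]

/-- All the coordinates. -/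
def allXf (reg : Bool) (Φ Sg : Matrix (Fin 2) (Fin 2) T)
    (x : ∀ v, (τ v).ι → MvPowerSeries (Option κ × Fin 3) T)
    (z : Fin g → MvPowerSeries (Option κ × Fin 3) T) :
    PIx τ g ⊕ LIx → MvPowerSeries (Option κ × Fin 3) T
  | Sum.inl (Sum.inl p) => x p.1 p.2
  | Sum.inl (Sum.inr j) => z j
  | Sum.inr (s, a, b) => (framed none (if s then Sg else Φ) -
      (if s then 1 else baseM reg _) :
        Matrix (Fin 2) (Fin 2) (MvPowerSeries (Option κ × Fin 3) T)) a b

theorem framed_sub_mem' {v : Option κ} {M B : Matrix (Fin 2) (Fin 2) T}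
    (hM : ∀ i j, (M - B) i j ∈ maximalIdeal T) (i j : Fin 2) :
    (framed v M - B.map (C : T →+* MvPowerSeries (Option κ × Fin 3) T) :
      Matrix (Fin 2) (Fin 2) _) i j ∈
      maximalIdeal (MvPowerSeries (Option κ × Fin 3) T) := by
  rw [mem_maximalIdeal_iff]
  have h1 : constantCoeff ((framed v M - B.map (C : T →+* MvPowerSeries (Option κ × Fin 3) T) :
      Matrix (Fin 2) (Fin 2) _) i j) = (M - B) i j := by
    have h2 := congrFun (congrFun (constantCoeff_framed v M) i) j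
    rw [Matrix.map_apply] at h2
    rw [Matrix.sub_apply, map_sub, h2, Matrix.map_apply, constantCoeff_C, Matrix.sub_apply]
  rw [h1]
  exact hM i j

theorem allXf_mem {reg : Bool} {Φ Sg : Matrix (Fin 2) (Fin 2) T}
    (hΦ : ∀ i j, (Φ - baseM reg T) i j ∈ maximalIdeal T)
    (hSg : ∀ i j, (Sg - 1) i j ∈ maximalIdeal T)
    {x : ∀ v, (τ v).ι → MvPowerSeries (Option κ × Fin 3) T}
    (hx : ∀ v i, x v i ∈ maximalIdeal (MvPowerSeries (Option κ × Fin 3) T))
    {z : Fin g → MvPowerSeries (Option κ × Fin 3) T}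
    (hz : ∀ i, z i ∈ maximalIdeal (MvPowerSeries (Option κ × Fin 3) T)) (i) :
    allXf (τ := τ) reg Φ Sg x z i ∈ maximalIdeal (MvPowerSeries (Option κ × Fin 3) T) := by
  rcases i with (p | j) | ⟨s, a, b⟩
  · exact hx _ _
  · exact hz _
  · cases s
    · have h1 := framed_sub_mem' (v := (none : Option κ)) hΦ a b
      rw [baseM_map] at h1
      exact h1
    · have h1 := framed_sub_mem' (v := (none : Option κ)) hSg a b
      rw [Matrix.map_one _ (map_zero _) (map_one _)] at h1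
      exact h1

end AllX

section Coords

variable {𝒪 : Type} [CommRing 𝒪] [IsLocalRing 𝒪] [IsAdicComplete (maximalIdeal 𝒪) 𝒪]
  {k : Type} [Field k]
  {κ : Type} [Fintype κ] {c : κ → ℕ} {τ : ∀ v, LocType 𝒪 (c v)}
  {T : Type} [CommRing T] [IsLocalRing T] [IsNoetherianRing T] [IsAdicComplete (maximalIdeal T) T]
  {σ : 𝒪 →+* T} {π : T →+* k} {ρ : GQ →* GL (Fin 2) T}

/-- **Coordinates of the framed ring of a level.** -/
theorem exists_coords {ρb : GQ →* GL (Fin 2) k} (hρb : resRep π ρ = ρb) (h2 : (2 : k) ≠ 0)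
    (hπ : RingHom.ker π = maximalIdeal T)
    (hσ : ∀ o ∈ maximalIdeal 𝒪, σ o ∈ maximalIdeal T)
    (hres : ∀ t : T, ∃ o : 𝒪, t - σ o ∈ maximalIdeal T)
    (hdet : ∀ g, ∃ o, (ρ g).val.det = σ o) {S : Finset Nat.Primes}
    (hcont : ∃ U ∈ famS S, ∀ u ∈ U, ∀ i j,
      (ρ u).val i j - (1 : Matrix (Fin 2) (Fin 2) T) i j ∈ maximalIdeal T ^ 2)
    (hgen : ∀ t : T, ∃ s ∈ Subring.closure (Set.range σ ∪ Set.range fun g => (ρ g).val.trace),
      t - s ∈ maximalIdeal T ^ 2)
    (pl : Option κ → Nat.Primes) (hloc : ∀ v : κ, LocAt (τ v) (pl (some v)) σ π ρ)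
    {p : ℕ} (hchar : (p : k) = 0) {φ₀ τ₀ : Gl (pl none)} (hφ₀ : IsFrobL φ₀)
    (hτ₀ : TameGen p (pl none) τ₀)
    (hpp : ∀ s ∈ Il (pl none : ℕ), ∃ n, ρb (rl (pl none) s) ^ p ^ n = 1)
    {reg : Bool} {ε : 𝒪} (hε : ε ^ 2 = 1)
    (hΦ : ∀ i j, (σ ε • (ρ (rl (pl none) φ₀)).val - baseM reg T) i j ∈ maximalIdeal T)
    (hSg : ∀ i j, ((ρ (rl (pl none) τ₀)).val - 1) i j ∈ maximalIdeal T)
    [FiniteDimensional k (selK S (ad0 ρb) pl)] (g : ℕ)
    (hg : Module.finrank k (selK S (ad0 ρb) pl) +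
      ∑ v, Module.finrank k (H0 ((ad0 ρb).comp (rl (pl v)))) ≤ g) :
    ∃ (x : ∀ v, (τ v).ι → MvPowerSeries (Option κ × Fin 3) T)
      (hx : ∀ v i, x v i ∈ maximalIdeal (MvPowerSeries (Option κ × Fin 3) T))
      (z : Fin g → MvPowerSeries (Option κ × Fin 3) T)
      (hz : ∀ i, z i ∈ maximalIdeal (MvPowerSeries (Option κ × Fin 3) T)),
      (∀ v, ∀ r ∈ (τ v).Rel, evalHom (maximalIdeal (MvPowerSeries (Option κ × Fin 3) T))
        ((C : T →+* MvPowerSeries (Option κ × Fin 3) T).comp σ) (x v) (hx v) r = 0) ∧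
      Function.Surjective (evalHom (maximalIdeal (MvPowerSeries (Option κ × Fin 3) T))
        ((C : T →+* MvPowerSeries (Option κ × Fin 3) T).comp σ)
        (allXf (τ := τ) reg (σ ε • (ρ (rl (pl none) φ₀)).val) (ρ (rl (pl none) τ₀)).val x z)
        (allXf_mem hΦ hSg hx hz)) := by
  subst hρb
  classical
  choose x hx hrel hψ using fun v : κ => hloc v (Option κ) (some v)
  -- the coordinates at the special place
  let Φ : Matrix (Fin 2) (Fin 2) T := σ ε • (ρ (rl (pl none) φ₀)).val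
  let Sg : Matrix (Fin 2) (Fin 2) T := (ρ (rl (pl none) τ₀)).val
  let w : (Σ v : κ, (τ v).ι) ⊕ LIx → MvPowerSeries (Option κ × Fin 3) T := fun i => match i with
    | Sum.inl q => x q.1 q.2
    | Sum.inr (s, a, b) => (framed none (if s then Sg else Φ) - (if s then 1 else baseM reg _) :
        Matrix (Fin 2) (Fin 2) (MvPowerSeries (Option κ × Fin 3) T)) a b
  have hw : ∀ i, w i ∈ maximalIdeal (MvPowerSeries (Option κ × Fin 3) T) := by
    rintro (q | ⟨s, a, b⟩)
    · exact hx q.1 q.2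
    · exact allXf_mem (τ := τ) (g := 0) (reg := reg) hΦ hSg hx (z := Fin.elim0)
        (fun i => i.elim0) (Sum.inr (s, a, b))
  have hcont' : ∃ U : Subgroup GQ, IsOpen (U : Set GQ) ∧ ∀ u ∈ U, ∀ i j,
      (ρ u).val i j - (1 : Matrix (Fin 2) (Fin 2) T) i j ∈ maximalIdeal T ^ 2 := by
    obtain ⟨U, hU, h⟩ := hcont
    exact ⟨U, (mem_famS.mp hU).2.1, h⟩
  have hεσ : σ ε * σ ε = 1 := by rw [← map_mul, ← pow_two, hε, map_one]
  obtain ⟨z, hz, hsurj⟩ := exists_framed_generators (φ := σ) (π := π) (ρ := ρ) (S := S)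
    (V := Option κ) h2 hπ hσ hres hdet hcont hgen w hw pl (by
    intro ψ h1 h3 h4 v δ
    cases v with
    | some v => exact hψ v ψ h1 h3 (fun i => h4 (Sum.inl ⟨v, i⟩)) δ
    | none =>
      refine framed_st_hloc (O := 𝒪) hπ hchar hcont' hpp hφ₀ hτ₀ none
        (fun s => if s then 1 else ε • baseM reg 𝒪) ψ h1 h3 (fun s a b => ?_) δ
      have h5 := h4 (Sum.inr (s, a, b))
      cases s
      · change ψ (frMat ρ none (rl (pl none) φ₀) a b -
          C (σ ((ε • baseM reg 𝒪) a b))) = 0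
        have h6 : frMat ρ none (rl (pl none) φ₀) a b - C (σ ((ε • baseM reg 𝒪) a b)) =
            C (σ ε) * w (Sum.inr (false, a, b)) := by
          have e1 : framed none Φ = (C (σ ε) : MvPowerSeries (Option κ × Fin 3) T) •
              frMat ρ none (rl (pl none) φ₀) := framed_smul none _ _
          have e2 : w (Sum.inr (false, a, b)) = (framed none Φ - baseM reg _ :
            Matrix (Fin 2) (Fin 2) (MvPowerSeries (Option κ × Fin 3) T)) a b := rfl
          have e3 : (baseM reg (MvPowerSeries (Option κ × Fin 3) T)) a b =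
              C (σ (baseM reg 𝒪 a b)) := by
            have e4 := baseM_map ((C : T →+* MvPowerSeries (Option κ × Fin 3) T).comp σ) reg
            exact (congrFun (congrFun e4 a) b).symm
          have e5 : (C (σ ε) : MvPowerSeries (Option κ × Fin 3) T) * C (σ ε) = 1 := by
            rw [← map_mul, hεσ, map_one]
          rw [e2, e1, Matrix.sub_apply, Matrix.smul_apply, Matrix.smul_apply, smul_eq_mul,
            smul_eq_mul, e3, map_mul, map_mul]
          linear_combination (-(frMat ρ none (rl (pl none) φ₀) a b)) * e5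
        rw [h6, map_mul, h5, mul_zero]
      · change ψ (frMat ρ none (rl (pl none) τ₀) a b -
          C (σ ((1 : Matrix (Fin 2) (Fin 2) 𝒪) a b))) = 0
        have h6 : frMat ρ none (rl (pl none) τ₀) a b -
            C (σ ((1 : Matrix (Fin 2) (Fin 2) 𝒪) a b)) = w (Sum.inr (true, a, b)) := by
          have e2 : w (Sum.inr (true, a, b)) = (framed none Sg - 1 :
            Matrix (Fin 2) (Fin 2) (MvPowerSeries (Option κ × Fin 3) T)) a b := rfl
          have e3 : (1 : Matrix (Fin 2) (Fin 2) (MvPowerSeries (Option κ × Fin 3) T)) a b =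
              C (σ ((1 : Matrix (Fin 2) (Fin 2) 𝒪) a b)) := by
            rw [Matrix.one_apply, Matrix.one_apply]
            split_ifs
            · rw [map_one, map_one]
            · rw [map_zero, map_zero]
          rw [e2, Matrix.sub_apply, e3]
          rfl
        rw [h6, h5]) g hg
  refine ⟨x, hx, z, hz, hrel, ?_⟩
  let e : ((Σ v : κ, (τ v).ι) ⊕ LIx) ⊕ Fin g → PIx τ g ⊕ LIx := fun i => match i with
    | Sum.inl (Sum.inl q) => Sum.inl (Sum.inl q)
    | Sum.inl (Sum.inr q) => Sum.inr q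
    | Sum.inr j => Sum.inl (Sum.inr j)
  refine evalHom_surjective_of_reindex (fun b hb => C_mem_maximalIdeal (hσ b hb)) _ e _ ?_ hsurj
  rintro ((q | ⟨s, a, b⟩) | j)
  · rfl
  · rfl
  · rfl

end Coords

section Package

/-- the selmer group for two families of places with the same image -/
theorem selK_congr {k : Type*} [Field k] {V V' : Type*} {S : Finset Nat.Primes}
    {X : Type*} [AddCommGroup X] [Module k X] (τ : Representation k GQ X) {pl : V → Nat.Primes}
    {pl' : V' → Nat.Primes} (h : ∀ q, (∃ v, pl v = q) ↔ ∃ v, pl' v = q) :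
    selK S τ pl = selK S τ pl' := by
  ext x
  rw [mem_selK, mem_selK]
  constructor
  · intro h1 v
    obtain ⟨w, hw⟩ := (h (pl' v)).mpr ⟨v, rfl⟩
    rw [← hw]
    exact h1 w
  · intro h1 v
    obtain ⟨w, hw⟩ := (h (pl v)).mp ⟨v, rfl⟩
    rw [← hw]
    exact h1 w

variable {𝒪 : Type} [CommRing 𝒪] [IsDomain 𝒪] [IsDiscreteValuationRing 𝒪]
  [IsAdicComplete (maximalIdeal 𝒪) 𝒪] [Finite (ResidueField 𝒪)]

/-- **The Galois package at the Taylor–Wiles levels.** -/
theorem galois_package {p : ℕ} [hp : Fact p.Prime] [CharP (ResidueField 𝒪) p] (hp2 : p ≠ 2)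
    (ρb : GQ →* GL (Fin 2) (ResidueField 𝒪))
    (f : ZMod p →+* ResidueField 𝒪) (hdetb : ∀ g, (ρb g).val.det = f (ESCore.cyc p g))
    {S₀ : Finset Nat.Primes} (hT : ρb.ker ∈ famS S₀) (hpT : pPrime p ∈ S₀)
    (hspan : ∀ n, Submodule.span (ResidueField 𝒪) (imgSet ρb (ESCore.cyc (p ^ n)).ker) = ⊤)
    {κ : Type} [Fintype κ] {c : κ → ℕ} (τ : ∀ v, LocType 𝒪 (c v))
    (pl : Option κ → Nat.Primes) (hpl : Function.Injective pl) (himg : ∀ q, q ∈ S₀ ↔ ∃ v, pl v = q)
    {φ₀ τ₀ : Gl (pl none)} (hφ₀ : IsFrobL φ₀) (hτ₀ : TameGen p (pl none) τ₀)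
    (hpp : ∀ s ∈ Il (pl none : ℕ), ∃ n, ρb (rl (pl none) s) ^ p ^ n = 1)
    (reg : Bool) (ε : 𝒪) (hε : ε ^ 2 = 1) :
    ∃ g r : ℕ, r = g + 1 ∧ ∀ n : ℕ, 0 < n → ∀ bad : Finset Nat.Primes,
      ∃ Q : Finset Nat.Primes, Q.card = r ∧ Disjoint Q (S₀ ∪ bad) ∧ (∀ q ∈ Q, IsTW ρb p n q) ∧
      ∀ (T : Type) [CommRing T] [IsLocalRing T] [IsNoetherianRing T]
        [IsAdicComplete (maximalIdeal T) T] (σ : 𝒪 →+* T) (π : T →+* ResidueField 𝒪)
        (ρ : GQ →* GL (Fin 2) T),
        RingHom.ker π = maximalIdeal T → (∀ o, π (σ o) = residue 𝒪 o) → resRep π ρ = ρb →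
        (∀ g, ∃ o, (ρ g).val.det = σ o) →
        (∃ U ∈ famS (S₀ ∪ Q), ∀ u ∈ U, ∀ i j,
          (ρ u).val i j - (1 : Matrix (Fin 2) (Fin 2) T) i j ∈ maximalIdeal T ^ 2) →
        (∀ t : T, ∃ s ∈ Subring.closure (Set.range σ ∪ Set.range fun g => (ρ g).val.trace),
          t - s ∈ maximalIdeal T ^ 2) →
        (∀ v : κ, LocAt (τ v) (pl (some v)) σ π ρ) →
        ∀ (hΦ : ∀ i j, (σ ε • (ρ (rl (pl none) φ₀)).val - baseM reg T) i j ∈ maximalIdeal T)
          (hSg : ∀ i j, ((ρ (rl (pl none) τ₀)).val - 1) i j ∈ maximalIdeal T),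
        ∃ (x : ∀ v, (τ v).ι → MvPowerSeries (Option κ × Fin 3) T)
          (hx : ∀ v i, x v i ∈ maximalIdeal (MvPowerSeries (Option κ × Fin 3) T))
          (z : Fin g → MvPowerSeries (Option κ × Fin 3) T)
          (hz : ∀ i, z i ∈ maximalIdeal (MvPowerSeries (Option κ × Fin 3) T)),
          (∀ v, ∀ r ∈ (τ v).Rel, evalHom (maximalIdeal (MvPowerSeries (Option κ × Fin 3) T))
            ((C : T →+* MvPowerSeries (Option κ × Fin 3) T).comp σ) (x v) (hx v) r = 0) ∧
          Function.Surjective (evalHom (maximalIdeal (MvPowerSeries (Option κ × Fin 3) T))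
            ((C : T →+* MvPowerSeries (Option κ × Fin 3) T).comp σ)
            (allXf (τ := τ) reg (σ ε • (ρ (rl (pl none) φ₀)).val) (ρ (rl (pl none) τ₀)).val x z)
            (allXf_mem hΦ hSg hx hz)) := by
  classical
  have h2 : (2 : ResidueField 𝒪) ≠ 0 := by
    intro h
    have h3 : ((2 : ℕ) : ResidueField 𝒪) = 0 := by exact_mod_cast h
    rw [CharP.cast_eq_zero_iff (ResidueField 𝒪) p,
      Nat.prime_dvd_prime_iff_eq hp.out Nat.prime_two] at h3
    exact hp2 h3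
  obtain ⟨χ, hχ⟩ : ∃ χ : GQ →* (ResidueField 𝒪)ˣ, ∀ g, (χ g : ResidueField 𝒪) = (ρb g).val.det :=
    ⟨(Units.map (Matrix.detMonoidHom : Matrix (Fin 2) (Fin 2) (ResidueField 𝒪) →*
      ResidueField 𝒪)).comp ρb, fun g => rfl⟩
  obtain ⟨r, hr⟩ : ∃ r, r = Module.finrank (ResidueField 𝒪) (H1 (famS S₀) (adRep ρb χ)) :=
    ⟨_, rfl⟩
  have hTW := fun {n : ℕ} (hn : 0 < n) (bad : Finset Nat.Primes) =>
    exists_TW_final hp2 ρb hχ f hdetb hT hpT hspan hn bad
  simp only [← hr] at hTW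
  have hr1 : 1 ≤ r := by
    obtain ⟨Q, -, -, -, -, h5⟩ := hTW (n := 1) one_pos ∅
    exact le_trans (Nat.le_add_left _ _) h5
  refine ⟨r - 1, r, by omega, fun n hn bad => ?_⟩
  obtain ⟨Q, hQ1, hQ2, hQ3, hQ4, hQ5⟩ := hTW hn bad
  refine ⟨Q, hQ1, hQ2, hQ3, ?_⟩
  intro T _ _ _ _ σ π ρ hπ hπσ hρ hdet hcont hgen hloc hΦ hSg
  -- comparison of the places
  have hsel : selK (S₀ ∪ Q) (ad0 ρb) pl =
      selK (S₀ ∪ Q) (ad0 ρb) (fun v : S₀ => v.1) := by
    refine selK_congr _ fun q => ?_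
    rw [← himg]
    constructor
    · intro h
      exact ⟨⟨q, h⟩, rfl⟩
    · rintro ⟨v, rfl⟩
      exact v.2
  have hsum : ∑ v, Module.finrank (ResidueField 𝒪) (H0 ((ad0 ρb).comp (rl (pl v)))) =
      ∑ v : S₀, Module.finrank (ResidueField 𝒪) (H0 ((ad0 ρb).comp (rl v.1))) := by
    let e : Option κ ≃ S₀ := Equiv.ofBijective (fun v => ⟨pl v, (himg _).mpr ⟨v, rfl⟩⟩) ⟨
      fun v w h => hpl (congrArg Subtype.val h), fun q => by
        obtain ⟨v, hv⟩ := (himg q.1).mp q.2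
        exact ⟨v, Subtype.ext hv⟩⟩
    exact Fintype.sum_equiv e _ _ fun v => rfl
  haveI : FiniteDimensional (ResidueField 𝒪) (selK (S₀ ∪ Q) (ad0 ρb) pl) := by
    rw [hsel]
    exact hQ4
  refine exists_coords hρ h2 hπ (fun o ho => ?_) (fun t => ?_) hdet hcont hgen pl hloc
    (CharP.cast_eq_zero (ResidueField 𝒪) p) hφ₀ hτ₀ hpp hε hΦ hSg (r - 1) ?_
  · rw [← hπ, RingHom.mem_ker, hπσ]
    exact (residue_eq_zero_iff o).mpr ho
  · obtain ⟨o, ho⟩ := residue_surjective (R := 𝒪) (π t)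
    refine ⟨o, ?_⟩
    rw [← hπ, RingHom.mem_ker, map_sub, hπσ, ho, sub_self]
  · rw [hsel, hsum]
    omega

end Package

namespace TWData

variable {𝒪 : Type} [CommRing 𝒪] [IsDomain 𝒪] [IsDiscreteValuationRing 𝒪]
  [IsAdicComplete (maximalIdeal 𝒪) 𝒪] [Finite (ResidueField 𝒪)]
  {κ : Type} [Fintype κ] {c : κ → ℕ} {τ : ∀ v, LocType 𝒪 (c v)} {g r d : ℕ}
  {reg : Bool} (L : TWData 𝒪 τ g r d reg)

theorem allX_eq_allXf : L.allX = allXf (τ := τ) reg L.Φ L.Sg L.x L.z := by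
  funext i
  rcases i with (q | j) | ⟨s, a, b⟩
  · rfl
  · rfl
  · rfl

/-- the surjectivity of `L.f` in terms of `allXf` -/
theorem f_surjective_of (h : Function.Surjective
    (evalHom (maximalIdeal (MvPowerSeries (Option κ × Fin 3) L.T))
      ((C : L.T →+* MvPowerSeries (Option κ × Fin 3) L.T).comp L.σ)
      (allXf (τ := τ) reg L.Φ L.Sg L.x L.z) (allXf_mem L.hΦ L.hSg L.hx L.hz))) :
    Function.Surjective L.f := by
  have h1 : L.f = evalHom (maximalIdeal (MvPowerSeries (Option κ × Fin 3) L.T))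
      ((C : L.T →+* MvPowerSeries (Option κ × Fin 3) L.T).comp L.σ)
      (allXf (τ := τ) reg L.Φ L.Sg L.x L.z) (allXf_mem L.hΦ L.hSg L.hx L.hz) := by
    unfold TWData.f
    congr 1
    exact L.allX_eq_allXf
  rw [h1]
  exact h

end TWData

end Fermat.Agent.RT
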