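import Fermat.Agent.RT.LRFrob

set_option autoImplicit false

/-!
# Non-Eisenstein primes for an irreducible residual representation
-/

noncomputable section

open Matrix

namespace Fermat.Agent.RT.LR

open Fermat.Agent.RT Fermat.Agent.ESCore Fermat.Agent.GaloisBasics

/-- The field of algebraic numbers. -/
local notation "Kb" => AlgebraicClosure ℚ
/-- The absolute Galois group. -/
local notation "GQ" => (AlgebraicClosure ℚ ≃ₐ[ℚ] AlgebraicClosure ℚ)

section Gen

variable {K : Type*} [Field K] {p : ℕ} {ρ : GQ →* GL (Fin 2) K}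

/-- The determinant is the cyclotomic character. -/
theorem det_of_frob [hp : Fact p.Prime] [CharP K p] {L : IntermediateField ℚ Kb}
    [FiniteDimensional ℚ L] (hL : ∀ σ : GQ, (∀ x ∈ L, σ x = x) → ρ σ = 1) (T : Finset ℕ)
    (hfr : ∀ l : ℕ, l.Prime → l ∉ T → ∀ B : ValuationSubring Kb, B.LiesOverPrime l →
      ∀ σ : GQ, B.IsFrobeniusAt σ l → (ρ σ).val.det = l) (g : GQ) :
    (ρ g).val.det = ZMod.castHom (dvd_refl p) K (cyc p g : (ZMod p)ˣ) := by
  obtain ⟨ζ, hζ⟩ := exists_primitiveRoot p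
  set L' : IntermediateField ℚ Kb := L ⊔ IntermediateField.adjoin ℚ {ζ} with hL'
  haveI : FiniteDimensional ℚ (IntermediateField.adjoin ℚ {ζ}) :=
    IntermediateField.adjoin.finiteDimensional
      (FrobDensity.isAlgebraic_Qbar.isAlgebraic ζ).isIntegral
  obtain ⟨l, hl, hlT, A, hA, φ, hφ, i, j, hi, hj⟩ :=
    FrobDensity.exists_frobenius_pow L' g (insert p T)
  rw [Finset.mem_insert, not_or] at hlT
  have hζL : ζ ∈ L' := (le_sup_right : _ ≤ L') (IntermediateField.mem_adjoin_simple_self ℚ ζ)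
  have hρ : ρ g = ρ φ ^ i := by
    rw [← map_pow]
    exact (eq_of_restrict_eq' hL fun x hx => hi x ((le_sup_left : L ≤ L') hx)).symm
  have hc : cyc p g = cyc p φ ^ i := by
    have h2 : cyc p (g⁻¹ * φ ^ i) = 1 := by
      refine cyc_eq_one_of hζ ?_
      rw [AlgEquiv.mul_apply, hi ζ hζL, ← AlgEquiv.mul_apply, inv_mul_cancel, AlgEquiv.one_apply]
    rw [map_mul, map_inv, map_pow] at h2
    exact (inv_mul_eq_one.mp h2)
  have hlp : ¬ l ∣ p := fun h => hlT.1 ((Nat.prime_dvd_prime_iff_eq hl hp.out).mp h)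
  rw [hρ, hc, Units.val_pow_eq_pow_val, Matrix.det_pow, hfr l hl hlT.2 A hA φ hφ,
    Units.val_pow_eq_pow_val, map_pow, cyc_frob (m := p) hA hl hφ hlp, map_natCast]

theorem det_conj_of_frob [hp : Fact p.Prime] [CharP K p] {L : IntermediateField ℚ Kb}
    [FiniteDimensional ℚ L] (hL : ∀ σ : GQ, (∀ x ∈ L, σ x = x) → ρ σ = 1) (T : Finset ℕ)
    (hfr : ∀ l : ℕ, l.Prime → l ∉ T → ∀ B : ValuationSubring Kb, B.LiesOverPrime l →
      ∀ σ : GQ, B.IsFrobeniusAt σ l → (ρ σ).val.det = l) :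
    (ρ complexConjugation).val.det = -1 := by
  rw [det_of_frob (p := p) hL T hfr, RT.cyc_complexConjugation, map_neg, map_one]

/-- **Frobenius elements without eigenvalue `1`** -/
theorem exists_frob_trace_ne' (h2 : (2 : K) ≠ 0) (hirr : ∀ v, ¬ ComEig ρ ⊤ v)
    (hdet : (ρ complexConjugation).val.det = -1) {L : IntermediateField ℚ Kb}
    [FiniteDimensional ℚ L] (hL : ∀ σ : GQ, (∀ x ∈ L, σ x = x) → ρ σ = 1) (m : ℕ) [NeZero m]
    (T : Finset ℕ) :
    ∃ l : ℕ, l.Prime ∧ l ∉ T ∧ (m : ℤ) ∣ (l : ℤ) - 1 ∧ ∃ A : ValuationSubring Kb,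
      A.LiesOverPrime l ∧ ∃ φ : GQ, A.IsFrobeniusAt φ l ∧
        (ρ φ).val.trace ≠ 1 + (ρ φ).val.det := by
  have hcomm : commutator GQ ≤ (cyc m : GQ →* (ZMod m)ˣ).ker := Abelianization.commutator_subset_ker _
  obtain ⟨σ, hσ, hne⟩ := exists_trace_ne h2 hirr complexConjugation_mul_self
    hdet (cyc m : GQ →* (ZMod m)ˣ).ker hcomm
  obtain ⟨ζ, hζ⟩ := exists_primitiveRoot m
  set L' : IntermediateField ℚ Kb := L ⊔ IntermediateField.adjoin ℚ {ζ} with hL'
  haveI : FiniteDimensional ℚ (IntermediateField.adjoin ℚ {ζ}) :=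
    IntermediateField.adjoin.finiteDimensional
      (FrobDensity.isAlgebraic_Qbar.isAlgebraic ζ).isIntegral
  obtain ⟨l, hl, hlT, A, hA, φ, hφ, i, j, hi, hj⟩ :=
    FrobDensity.exists_frobenius_pow L' σ (T ∪ m.primeFactors)
  rw [Finset.mem_union, not_or] at hlT
  have hlm : ¬ l ∣ m := fun h => hlT.2 (Nat.mem_primeFactors.mpr ⟨hl, h, NeZero.ne m⟩)
  have hζL : ζ ∈ L' := (le_sup_right : _ ≤ L') (IntermediateField.mem_adjoin_simple_self ℚ ζ)
  have hσζ : σ ζ = ζ := by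
    have h3 := cyc_spec σ hζ.pow_eq_one
    have h4 : ζ ^ (1 % m) = ζ := by
      have h5 := pow_mod_orderOf ζ 1
      rw [← hζ.eq_orderOf, pow_one] at h5
      exact h5
    rw [MonoidHom.mem_ker.mp hσ, Units.val_one, ZMod.val_one_eq_one_mod, h4] at h3
    exact h3
  have hφζ : φ ζ = ζ := by
    rw [← hj ζ hζL]
    have : ∀ j : ℕ, (σ ^ j) ζ = ζ := by
      intro j
      induction j with
      | zero => rfl
      | succ j ih => rw [pow_succ, AlgEquiv.mul_apply, hσζ, ih]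
    exact this j
  have hcyc := cyc_frob (m := m) hA hl hφ hlm
  rw [cyc_eq_one_of hζ hφζ, Units.val_one] at hcyc
  refine ⟨l, hl, hlT.1, ?_, A, hA, φ, hφ, fun h => hne ?_⟩
  · have h4 : ((l : ℤ) : ZMod m) = ((1 : ℤ) : ZMod m) := by push_cast; exact hcyc.symm
    exact (ZMod.intCast_eq_intCast_iff_dvd_sub _ _ _).mp h4.symm
  · obtain ⟨v, hv0, hv⟩ := exists_fix_of_trace h
    have hρ : ρ σ = ρ φ ^ i := by
      rw [← map_pow]
      exact (eq_of_restrict_eq' hL fun x hx => hi x ((le_sup_left : L ≤ L') hx)).symm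
    have h5 := pow_eigen (M := (ρ φ).val) (v := v) (e := (1 : K)) (by rw [one_smul, hv]) i
    rw [one_pow] at h5
    have h6 := eigen_eq (M := (ρ σ).val) hv0 (one_mul (1 : K)) (by
      rw [hρ, Units.val_pow_eq_pow_val]; exact h5)
    rw [one_mul] at h6
    exact h6

end Gen

end Fermat.Agent.RT.LR
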