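import Fermat.Agent.RT.HPVecN
import Fermat.Agent.RT.EigAtRed
import Fermat.Agent.KL.Final

set_option autoImplicit false
set_option maxHeartbeats 400000

/-!
# Absence of new classes at the Taylor–Wiles primes
-/

open Matrix CongruenceSubgroup IsLocalRing
open scoped MatrixGroups

noncomputable section

namespace Fermat.Agent.RT.Ihara

open Fermat.Agent.RT Fermat.Agent.ESCore Fermat.Agent.ESCore.UnivG Fermat.Agent.ESCore.Gal

theorem isPseudo_map {G R R' : Type*} [Group G] [CommRing R] [CommRing R'] {t : G → R}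
    {χ : G →* Rˣ} (h : IsPseudo t χ) (f : R →+* R') :
    IsPseudo (fun σ => f (t σ)) ((Units.map (f : R →* R')).comp χ) where
  one := by
    change f (t 1) = 2
    rw [h.one, map_ofNat]
  mul g g' := by
    change f (t g) * f (t g') = f (t (g * g')) + f (χ g) * f (t (g⁻¹ * g'))
    rw [← map_mul, ← map_mul, ← map_add, h.mul]

/-- **The trace of Frobenius on the Galois representation of a new class.** -/
theorem exists_pseudo_new {N q p : ℕ} [NeZero N] [NeZero (N * q)] (hp : p.Prime) (hq : q.Prime)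
    (hqp : q ≠ p) (hqN : ¬ q ∣ N) {S : Finset ℕ} (hpS : p ∈ S)
    (hNS : ∀ l : ℕ, l.Prime → l ∣ N * q → l ∈ S)
    {O : Type} [CommRing O] [IsDomain O] [IsDiscreteValuationRing O]
    [IsAdicComplete (maximalIdeal O) O] [Finite (ResidueField O)]
    [CharZero O] (hpO : (p : O) ∈ maximalIdeal O)
    {v : LatM (N * q) (↑S : Set ℕ) →+ O} {π : CuspForm.heckeAlgebra (N * q) 2 (↑S : Set ℕ) →+* O}
    {e : ℤ} (hv : v ≠ 0) (hvT : ∀ t x, v (t • x) = π t * v x) (he : e = 1 ∨ e = -1)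
    (hU : heckeCharU hq.ne_zero (dvd_mul_left q N) (NF.oChar v) = (NF.oChar v) ^ e)
    (hW : ∀ [NeZero q] {M : ℕ} [NeZero M] (Bz : LG.Bez q M) (hK : N ∣ M) (hN : N * q = q * N),
        Bz.wChar hK hN (NF.oChar v) = (NF.oChar v) ^ (-e)) :
    ∃ (t : GQ → O) (ε : GQ →* Oˣ), IsPseudo t ε ∧
      (∀ (l : ℕ) (hl : l.Prime) (hlN : ¬ l ∣ N * q) (hlS : l ∉ (↑S : Set ℕ)),
        ∀ B : ValuationSubring Qb, B.LiesOverPrime l → ∀ σ : GQ, B.IsFrobeniusAt σ l →
          t σ = π (CuspForm.heckeAlgebra.T hl hlN hlS) ∧ (ε σ : O) = l) ∧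
      (∀ n : ℕ, ∃ L : IntermediateField ℚ Qb, FiniteDimensional ℚ L ∧
        ∀ σ : GQ, (∀ x ∈ L, σ x = x) → (∀ g, t (σ * g) - t g ∈ Ideal.span {(p : O) ^ n}) ∧
          (ε σ : O) - 1 ∈ Ideal.span {(p : O) ^ n}) ∧
      ∀ A : ValuationSubring Qb, A.LiesOverPrime q → ∀ σ : GQ, A.IsFrobeniusAt σ q →
        t σ = q + 1 ∨ t σ = -(q + 1) := by
  have hKL : ∀ l : ℕ, l.Prime → ¬ l ∣ N * q → l ≠ p → ∀ B : ValuationSubring Qb,
      B.LiesOverPrime l → ∀ n, KLProp (N * q) (p ^ n) B :=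
    fun l hl hlN hlp B hB n => Fermat.Agent.KL.klProp (pow_pos hp.pos n) hl hlN
      (fun h => hlp ((Nat.prime_dvd_prime_iff_eq hl hp).mp (hl.dvd_of_dvd_pow h))) hB
  obtain ⟨c, t, ε, hps, h1, -, h2, h3, -, -⟩ := Univ.exists_pseudo_full hp hpS hNS hKL hpO π
  refine ⟨t, ε, hps, h2, h3, fun A hA φ hφ => ?_⟩
  have hM : NeZero (auxLev q * N) := ⟨mul_ne_zero (auxLev_pos q).ne' (NeZero.ne N)⟩
  have hN' : NeZero (q * (auxLev q * N)) := ⟨mul_ne_zero hq.ne_zero hM.out⟩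
  have hqM : ¬ q ∣ auxLev q * N := by
    intro h
    rcases hq.dvd_mul.mp h with h | h
    · exact not_dvd_auxLev hq h
    · exact hqN h
  have hK : N * q = q * N := mul_comm _ _
  refine trace_frob_mult hp hpS hNS hKL (N' := q * (auxLev q * N)) ⟨auxLev q, by ring⟩ hq hqp hA hφ
    hpO hv hvT (e := e) (by rcases he with rfl | rfl <;> norm_num) (fun n ψ hψ => ?_) h1
  refine LG2Rel_of hq hA hK rfl (dvd_mul_left _ _) _ hqM (goodLev_aux q N) (pow_pos hp.pos n)
    (fun h => hqp ((Nat.prime_dvd_prime_iff_eq hq hp).mp (hq.dvd_of_dvd_pow h))) hφ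
    (parC_lat _) he ?_ ?_
  · change heckeCharU hq.ne_zero _ (ψ.comp (NF.oChar v)) = (ψ.comp (NF.oChar v)) ^ e
    rw [heckeCharU_comp, hU, NF.comp_zpow_char]
  · intro _ Bz
    change Bz.wChar _ hK (ψ.comp (NF.oChar v)) = (ψ.comp (NF.oChar v)) ^ (-e)
    have e1 : Bz.wChar (dvd_mul_left N (auxLev q)) hK (ψ.comp (NF.oChar v)) =
        ψ.comp (Bz.wChar (dvd_mul_left N (auxLev q)) hK (NF.oChar v)) := by
      rw [LG.Bez.wChar, LG.Bez.wChar, CosetSys.trans_comp]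
    rw [e1, hW Bz, NF.comp_zpow_char]

/-- **Absence of new classes.** -/
theorem noNew_of_galois {N q p : ℕ} [NeZero N] [NeZero (N * q)] {𝒪 : Type} [CommRing 𝒪]
    [IsDomain 𝒪]
    [IsDiscreteValuationRing 𝒪] [IsAdicComplete (maximalIdeal 𝒪) 𝒪] [Finite (ResidueField 𝒪)]
    [CharZero 𝒪] {I : Set ℕ} {a : ℕ → 𝒪} (hp : p.Prime) (hp𝒪 : (p : 𝒪) ∈ maximalIdeal 𝒪)
    (hq : q.Prime) (hqp : q ≠ p) (hqN : IsCoprime (N : ℤ) (q : ℤ))
    {S : Finset ℕ} (hpS : p ∈ S) (hNS : ∀ l : ℕ, l.Prime → l ∣ N * q → l ∈ S)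
    (hI : ∀ l : ℕ, l.Prime → l ∉ S → l ∈ I)
    (hNE : ∃ l ∈ I, l.Prime ∧ N * q ∣ l - 1 ∧ IsUnit (a l - (l + 1)))
    {K : Type} [Field K] [Algebra (ResidueField 𝒪) K] (ρ : GQ →* GL (Fin 2) K)
    {L' : IntermediateField ℚ Qb} [FiniteDimensional ℚ L']
    (hL' : ∀ σ : GQ, (∀ x ∈ L', σ x = x) → ρ σ = 1)
    (hρ : ∀ l : ℕ, l.Prime → l ∉ S → ∀ B : ValuationSubring Qb, B.LiesOverPrime l →
      ∀ σ : GQ, B.IsFrobeniusAt σ l → (ρ σ : Matrix (Fin 2) (Fin 2) K).det = l ∧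
        (ρ σ : Matrix (Fin 2) (Fin 2) K).trace = algebraMap (ResidueField 𝒪) K (residue 𝒪 (a l)))
    (hs : ∃ B : ValuationSubring Qb, B.LiesOverPrime q ∧ ∃ σ : GQ, B.IsFrobeniusAt σ q ∧
      (ρ σ : Matrix (Fin 2) (Fin 2) K).trace ^ 2 ≠ ((q : K) + 1) ^ 2) :
    NoNew N hq hqN I a := by
  by_contra hcon
  have hqN' : ¬ q ∣ N := by
    have := (Nat.isCoprime_iff_coprime.mp hqN)
    exact (Nat.Prime.coprime_iff_not_dvd hq).mp this.symm
  obtain ⟨O', i1, i2, i3, i4, i5, i6, i7, i9, v, π, e, hv, hvT, he, hU, hW, hπ⟩ :=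
    exists_intVec_new hq hqN hNS hNE hcon
  have hpO' : (p : O') ∈ maximalIdeal O' := by
    have h2 : algebraMap 𝒪 O' (p : 𝒪) ∈ maximalIdeal O' := by
      have h3 := hp𝒪
      rw [mem_maximalIdeal, mem_nonunits_iff] at h3 ⊢
      intro h4
      exact h3 (isUnit_of_map_unit (algebraMap 𝒪 O') _ h4)
    rwa [map_natCast] at h2
  obtain ⟨t, ε, hps, hT, hL, hqt⟩ := exists_pseudo_new hp hq hqp hqN' hpS hNS hpO' hv hvT he hU hW
  letI : Algebra (ResidueField 𝒪) (ResidueField O') :=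
    (ResidueField.map (algebraMap 𝒪 O')).toAlgebra
  haveI : Module.Finite (ResidueField 𝒪) (ResidueField O') := Module.Finite.of_finite
  let E := AlgebraicClosure K
  let j : ResidueField O' →ₐ[ResidueField 𝒪] E := IsAlgClosed.lift
  let f : O' →+* E := (j : ResidueField O' →+* E).comp (residue O')
  have hf0 : ∀ x ∈ maximalIdeal O', f x = 0 := by
    intro x hx
    change j (residue O' x) = 0
    rw [(residue_eq_zero_iff x).mpr hx, map_zero]
  have hfa : ∀ x : 𝒪, f (algebraMap 𝒪 O' x) =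
      algebraMap K E (algebraMap (ResidueField 𝒪) K (residue 𝒪 x)) := by
    intro x
    change j (residue O' (algebraMap 𝒪 O' x)) = _
    rw [← ResidueField.map_residue]
    change j (algebraMap (ResidueField 𝒪) (ResidueField O') (residue 𝒪 x)) = _
    rw [j.commutes]
    exact IsScalarTower.algebraMap_apply (ResidueField 𝒪) K E _
  obtain ⟨L, hLf, hL⟩ := hL 1
  obtain ⟨B, hB, σ, hσ, hsσ⟩ := hs
  have hps' := isPseudo_map hps f
  have key := pseudo_eq_trace hps' (L := L) (L' := L') (fun σ hσ => by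
      obtain ⟨h3, h4⟩ := hL σ hσ
      constructor
      · intro g
        have h5 := h3 g
        rw [pow_one] at h5
        have h6 : t (σ * g) - t g ∈ maximalIdeal O' :=
          (Ideal.span_singleton_le_iff_mem _).mpr hpO' h5
        change f (t (σ * g)) = f (t g)
        rw [← sub_eq_zero, ← map_sub, hf0 _ h6]
      · rw [pow_one] at h4
        have h6 : (ε σ : O') - 1 ∈ maximalIdeal O' :=
          (Ideal.span_singleton_le_iff_mem _).mpr hpO' h4
        apply Units.ext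
        change f (ε σ : O') = 1
        rw [← sub_eq_zero, ← map_one f, ← map_sub, hf0 _ h6]) ρ hL' (algebraMap K E) S
    (fun l hl hlS B hB σ hσ => by
      obtain ⟨h3, h4⟩ := hT l hl (fun h => hlS (hNS l hl h)) hlS B hB σ hσ
      obtain ⟨h5, h6⟩ := hρ l hl hlS B hB σ hσ
      constructor
      · change f (t σ) = _
        rw [h3, h6, ← hfa, ← sub_eq_zero, ← map_sub]
        exact hf0 _ (hπ l hl (fun h => hlS (hNS l hl h)) hlS (hI l hl hlS))
      · change f (ε σ : O') = _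
        rw [h4, h5, map_natCast, map_natCast]) σ
  apply hsσ
  apply (algebraMap K E).injective
  rw [map_pow, ← key, map_pow, map_add, map_natCast, map_one]
  change f (t σ) ^ 2 = _
  rcases hqt B hB σ hσ with h | h
  · rw [h, map_add, map_natCast, map_one]
  · rw [h, map_neg, neg_sq, map_add, map_natCast, map_one]

end Fermat.Agent.RT.Ihara
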