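import Fermat.Agent.RT.HPDefs
import Fermat.Agent.RT.HPFrob
import Fermat.Agent.RT.HPGal
import Fermat.Agent.RT.HPGrp

set_option autoImplicit false
set_option maxHeartbeats 400000
set_option linter.style.haveILetI false
set_option linter.unusedSectionVars false
set_option linter.unusedVariables false

/-!
# The Hecke package: consequences of the fixed hypotheses
-/

open IsLocalRing CongruenceSubgroup Matrix.SpecialLinearGroup
open scoped MatrixGroups
open Fermat.Agent.ESCore Fermat.Agent.ESCore.UnivG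
open Fermat.Agent.ESCore.Univ (Idx)

noncomputable section

namespace Fermat.Agent.RT

open Ihara

section Base

variable {𝒪 : Type} [CommRing 𝒪] [IsDomain 𝒪] [IsDiscreteValuationRing 𝒪]
  [IsAdicComplete (maximalIdeal 𝒪) 𝒪] {K : Type} [Field K] [Algebra (ResidueField 𝒪) K]
  {p M q₀ : ℕ} {S₀ : Finset ℕ} {a : ℕ → 𝒪} {ρ : GQ →* GL (Fin 2) K} {χ : GQ →* 𝒪ˣ}

variable (K) in
/-- the reduction map -/
def redK : 𝒪 →+* K := (algebraMap (ResidueField 𝒪) K).comp (residue 𝒪)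

theorem redK_eq_zero {x : 𝒪} : redK K x = 0 ↔ x ∈ maximalIdeal 𝒪 := by
  rw [redK, RingHom.comp_apply, map_eq_zero, residue_eq_zero_iff]

theorem redK_ne_zero {x : 𝒪} : redK K x ≠ 0 ↔ IsUnit x := by
  rw [Ne, redK_eq_zero, mem_maximalIdeal, mem_nonunits_iff, not_not]

theorem HBase.two (hB : HBase p M q₀ S₀ a ρ χ) : IsUnit (2 : 𝒪) := by
  have h8 := hB.h8
  rw [show (8 : 𝒪) = 2 * 4 by norm_num] at h8
  exact isUnit_of_mul_isUnit_left h8

theorem HBase.twoK (hB : HBase p M q₀ S₀ a ρ χ) : (2 : K) ≠ 0 := by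
  have h2 := (redK_ne_zero (K := K)).mpr hB.two
  rwa [map_ofNat] at h2

theorem HBase.charP (hB : HBase p M q₀ S₀ a ρ χ) : CharP K p := by
  refine (CharP.charP_iff_prime_eq_zero hB.hp).mpr ?_
  have h2 := (redK_eq_zero (K := K)).mpr hB.hp𝒪
  rwa [map_natCast] at h2

/-- **Non-Eisenstein primes.** -/
theorem HBase.exists_nonEis (hB : HBase p M q₀ S₀ a ρ χ) (m : ℕ) [NeZero m] (T : Finset ℕ) :
    ∃ l : ℕ, l.Prime ∧ l ∉ S₀ ∧ l ∉ T ∧ m ∣ l - 1 ∧ IsUnit (a l - (l + 1)) := by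
  haveI : Fact p.Prime := ⟨hB.hp⟩
  haveI := hB.charP
  obtain ⟨L, hLf, hL⟩ := hB.fin
  have hdet := LR.det_conj_of_frob (p := p) (ρ := ρ) hL S₀
    (fun l hl hlS B hB' σ hσ => (hB.frob l hl hlS B hB' σ hσ).1)
  obtain ⟨l, hl, hlT, hlm, A, hA, φ, hφ, hne⟩ := LR.exists_frob_trace_ne' hB.twoK hB.irr hdet hL m
    (S₀ ∪ T)
  rw [Finset.mem_union, not_or] at hlT
  obtain ⟨h1, h2⟩ := hB.frob l hl hlT.1 A hA φ hφ
  refine ⟨l, hl, hlT.1, hlT.2, ?_, (redK_ne_zero (K := K)).mp ?_⟩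
  · have h3 : ((l - 1 : ℕ) : ℤ) = (l : ℤ) - 1 := by
      rw [Nat.cast_sub hl.one_lt.le, Nat.cast_one]
    rw [← h3] at hlm
    exact Int.natCast_dvd_natCast.mp hlm
  · intro h3
    rw [map_sub, map_add, map_natCast, map_one] at h3
    apply hne
    change (ρ φ : Matrix (Fin 2) (Fin 2) K).trace = 1 + (ρ φ : Matrix (Fin 2) (Fin 2) K).det
    rw [h1, h2]
    change redK K (a l) = _
    linear_combination h3

end Base

end Fermat.Agent.RT
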