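import Fermat.Agent.RT.NoNewRed
import Fermat.Agent.NF.Rel

set_option autoImplicit false

/-!
# New vectors and the Atkin–Lehner operator
-/

open Matrix CongruenceSubgroup IsLocalRing
open scoped MatrixGroups

namespace Fermat.Agent.RT.Ihara

open Fermat.Agent.RT

variable {N q : ℕ}

section W

variable {O A : Type*} [CommRing O] [AddCommGroup A] [Module O A] {G : Subgroup SL(2, ℤ)}

theorem D2_none (N q : ℕ) : D2 N q none = !![1 + yq N q * N, yq N q; (q : ℤ) * N, (q : ℤ)] := by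
  ext a b
  fin_cases a <;> fin_cases b <;>
    simp [D2, rr2, dlt', up, lo, sl, Matrix.mul_apply, Fin.sum_univ_two]

/-- the square of the matrix of the Atkin–Lehner operator -/
theorem D2_none_sq (hqN : IsCoprime (N : ℤ) (q : ℤ)) :
    ∃ g ∈ Gq (Gamma0 N) q, D2 N q none * D2 N q none = (q : ℤ) • (g : Mat) := by
  have h := cq_spec hqN
  set c := cq N q with hc
  set y := yq N q with hy
  refine ⟨sl (q * c ^ 2 + N * y) (y * (c + 1)) (q * N * (c + 1)) (N * y + q) ?_, ?_, ?_⟩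
  · linear_combination ((q : ℤ) * c - N * y + 1) * h
  · rw [mem_Gq, mem_G0, sl_10]
    exact ⟨⟨q * (c + 1), by ring⟩, ⟨N * (c + 1), by ring⟩⟩
  · rw [D2_none, ← hy]
    ext a b
    fin_cases a <;> fin_cases b <;> simp [sl, Matrix.mul_apply, Fin.sum_univ_two]
    · linear_combination (-(1 + N * y) - q * c) * h
    · linear_combination (-y) * h
    · linear_combination (-(q : ℤ) * N) * h
    · ring

variable (hq : q.Prime) (hqN : IsCoprime (N : ℤ) (q : ℤ))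

/-- the Atkin–Lehner operator is an involution -/
theorem opW_opW (c : H1 O A (Gq (Gamma0 N) q)) :
    opW (Gamma1_le N) le_rfl hq hqN (opW (Gamma1_le N) le_rfl hq hqN c) = c := by
  obtain ⟨g₀, hg₀, h⟩ := D2_none_sq hqN
  apply Subtype.ext
  funext g
  obtain ⟨g, hg⟩ := g
  obtain ⟨g', hg', e'⟩ := W_act (Gamma1_le N) le_rfl hq hqN hg
  obtain ⟨g'', hg'', e''⟩ := W_act (Gamma1_le N) le_rfl hq hqN hg'
  rw [opW_apply _ _ hq hqN _ hg hg' e', opW_apply _ _ hq hqN _ hg' hg'' e'']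
  have h1 : (q : ℤ) • ((g₀ * g : SL(2, ℤ)) : Mat) = (q : ℤ) • ((g'' * g₀ : SL(2, ℤ)) : Mat) := by
    rw [sl_coe_mul, sl_coe_mul, ← Matrix.smul_mul, ← h, mul_assoc, e', ← mul_assoc, e'', mul_assoc,
      h, Matrix.mul_smul]
  have h2 : g₀ * g = g'' * g₀ := smul_coe_inj hq.ne_zero h1
  have h3 := c.2 ⟨g₀, hg₀⟩ ⟨g, hg⟩
  have h4 := c.2 ⟨g'', hg''⟩ ⟨g₀, hg₀⟩
  have h5 : (⟨g₀, hg₀⟩ : Gq (Gamma0 N) q) * ⟨g, hg⟩ = ⟨g'', hg''⟩ * ⟨g₀, hg₀⟩ := Subtype.ext h2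
  rw [h5, h4, add_comm] at h3
  exact add_left_cancel h3

end W

section Sub

variable {𝒪 : Type*} [CommRing 𝒪] [IsDomain 𝒪] [IsDiscreteValuationRing 𝒪]
variable [IsAdicComplete (maximalIdeal 𝒪) 𝒪]

/-- Stable submodules of the localised cohomology on which `U_q² = 1` and `w_q = -U_q`. -/
def NewSubW (G' : Subgroup SL(2, ℤ)) (h1 : Gamma1 (N * q) ≤ G') (h0 : G' ≤ Gamma0 (N * q))
    (I : Set ℕ) (a : ℕ → 𝒪) : Prop :=
  ∃ V : Submodule 𝒪 (H1 𝒪 𝒪 G'), V ≠ ⊥ ∧ V ≤ HM 𝒪 h1 h0 I a ∧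
    (∀ n, ∀ v ∈ V, hec h1 h0 n v ∈ V) ∧ (∀ v ∈ V, hec h1 h0 q (hec h1 h0 q v) = v) ∧
    ∀ v ∈ V, ∀ (g g' : SL(2, ℤ)) (hg : g ∈ G') (hg' : g' ∈ G'),
      D2 N q none * (g : Mat) = (g' : Mat) * D2 N q none →
      v.1 ⟨g', hg'⟩ = -(hec h1 h0 q v).1 ⟨g, hg⟩

theorem NewSubW.transport {I : Set ℕ} {a : ℕ → 𝒪} {G' G'' : Subgroup SL(2, ℤ)} (hG : G' = G'')
    {h1 : Gamma1 (N * q) ≤ G'} {h0 : G' ≤ Gamma0 (N * q)} (h : NewSubW (q := q) G' h1 h0 I a)
    (h1' : Gamma1 (N * q) ≤ G'') (h0' : G'' ≤ Gamma0 (N * q)) :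
    NewSubW (q := q) G'' h1' h0' I a := by
  subst hG
  exact h

theorem newSubW_of_not_noNew {I : Set ℕ} {a : ℕ → 𝒪} (hq : q.Prime)
    (hqN : IsCoprime (N : ℤ) (q : ℤ)) (h : ¬ NoNew N hq hqN I a) :
    NewSubW (Gq (Gamma0 N) q) (le_Gq (Gamma1_le N)) (Gq_le_Gamma0 le_rfl hqN) I a := by
  unfold NoNew at h
  push Not at h
  obtain ⟨v, hv, hv1, hv2, hv0⟩ := h
  set h1 := le_Gq (q := q) (Gamma1_le N)
  set h0 := Gq_le_Gamma0 (q := q) (le_refl (Gamma0 N)) hqN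
  set V₀ : Submodule 𝒪 (H1 𝒪 𝒪 (Gq (Gamma0 N) q)) :=
    (HM 𝒪 h1 h0 I a ⊓ LinearMap.ker (tr1 (Gamma1_le N) hq hqN)) ⊓
      LinearMap.ker (tr2 (Gamma1_le N) le_rfl hq hqN) with hV₀
  set U : Module.End 𝒪 (H1 𝒪 𝒪 (Gq (Gamma0 N) q)) := hec h1 h0 q with hU
  set w : H1 𝒪 𝒪 (Gq (Gamma0 N) q) →ₗ[𝒪] H1 𝒪 𝒪 (Gq (Gamma0 N) q) :=
    opW (Gamma1_le N) le_rfl hq hqN with hw
  have hmem : ∀ x, x ∈ V₀ ↔ (x ∈ HM 𝒪 h1 h0 I a ∧ tr1 (Gamma1_le N) hq hqN x = 0) ∧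
      tr2 (Gamma1_le N) le_rfl hq hqN x = 0 := fun x => Iff.rfl
  have hHM : ∀ n, ∀ x ∈ HM 𝒪 h1 h0 I a, hec h1 h0 n x ∈ HM 𝒪 h1 h0 I a := fun n x hx =>
    LocG.map (M := H1 𝒪 𝒪 (Gq (Gamma0 N) q)) (M' := H1 𝒪 𝒪 (Gq (Gamma0 N) q))
      (T := hecI h1 h0 I) (T' := hecI h1 h0 I) (a := fun i : I => a i)
      (hec h1 h0 n) (fun i m => LinearMap.congr_fun (hec_comm h1 h0 n i) m) hx
  have hsq : ∀ x ∈ V₀, U (U x) = x := fun x hx =>
    Uq_sq_of_new hq hqN x ((hmem x).mp hx).1.2 ((hmem x).mp hx).2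
  have hUw : ∀ x ∈ V₀, U x = -w x := fun x hx => by
    have e2 := degA_tr2 (Gamma1_le N) le_rfl hq hqN x
    rw [((hmem x).mp hx).2, map_zero] at e2
    exact eq_neg_of_add_eq_zero_left e2.symm
  have hst₀ : ∀ n, n ≠ q → ∀ x ∈ V₀, hec h1 h0 n x ∈ V₀ := by
    intro n hn x hx
    obtain ⟨⟨ha, hb⟩, hc⟩ := (hmem x).mp hx
    refine (hmem _).mpr ⟨⟨hHM n x ha, ?_⟩, ?_⟩
    · rw [hec_tr1 (Gamma1_le N) le_rfl hq hqN n hn x, hb, map_zero]
    · rw [hec_tr2 (Gamma1_le N) le_rfl hq hqN n hn x, hc, map_zero]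
  have hcomm : ∀ n x, hec h1 h0 n (U x) = U (hec h1 h0 n x) := fun n x =>
    LinearMap.congr_fun (hec_comm h1 h0 n q) x
  have hW : ∀ x ∈ V₀ ⊔ V₀.map U, w x = -U x := by
    intro x hx
    obtain ⟨y, hy, z, hz, rfl⟩ := Submodule.mem_sup.mp hx
    obtain ⟨z, hz, rfl⟩ := hz
    have e1 : w (U z) = -U (U z) := by
      rw [hsq z hz, hUw z hz, map_neg, hw, opW_opW hq hqN]
    rw [map_add, map_add, e1, neg_add]
    congr 1
    rw [hUw y hy, neg_neg]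
  refine ⟨V₀ ⊔ V₀.map U, ?_, ?_, ?_, ?_, ?_⟩
  · intro hbot
    have h2 : v ∈ V₀ ⊔ V₀.map U := Submodule.mem_sup_left ((hmem v).mpr ⟨⟨hv, hv1⟩, hv2⟩)
    rw [hbot, Submodule.mem_bot] at h2
    exact hv0 h2
  · refine sup_le (fun x hx => ((hmem x).mp hx).1.1) ?_
    rintro _ ⟨x, hx, rfl⟩
    exact hHM q x ((hmem x).mp hx).1.1
  · intro n x hx
    obtain ⟨y, hy, z, hz, rfl⟩ := Submodule.mem_sup.mp hx
    obtain ⟨z, hz, rfl⟩ := hz
    rw [map_add, hcomm]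
    by_cases hn : n = q
    · subst hn
      refine Submodule.add_mem _ (Submodule.mem_sup_right ⟨y, hy, rfl⟩) ?_
      change U (U z) ∈ _
      rw [hsq z hz]
      exact Submodule.mem_sup_left hz
    · exact Submodule.add_mem _ (Submodule.mem_sup_left (hst₀ n hn y hy))
        (Submodule.mem_sup_right ⟨_, hst₀ n hn z hz, rfl⟩)
  · intro x hx
    obtain ⟨y, hy, z, hz, rfl⟩ := Submodule.mem_sup.mp hx
    obtain ⟨z, hz, rfl⟩ := hz
    change U (U (y + U z)) = _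
    rw [map_add, map_add, hsq y hy, hsq z hz]
  · intro x hx g g' hg hg' e
    have h3 := congrFun (congrArg Subtype.val (hW x hx)) ⟨g, hg⟩
    rw [hw, opW_apply _ _ hq hqN _ hg hg' e] at h3
    exact h3

end Sub

section Eig

variable {G : Subgroup SL(2, ℤ)} {L : ℕ}

/-- **Existence of simultaneous eigenclasses** (in the span). -/
theorem exists_eigenclass_mem {O E : Type*} [CommRing O] [Field E] [Algebra O E] [IsAlgClosed E]
    (h1 : Gamma1 L ≤ G) (h0 : G ≤ Gamma0 L) [G.FiniteIndex]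
    (hinj : Function.Injective (algebraMap O E))
    (V : Submodule O (H1 O O G)) (hV : V ≠ ⊥) (hst : ∀ n, ∀ v ∈ V, hec h1 h0 n v ∈ V) :
    ∃ (c : H1 E E G) (lam : ℕ → E), c ≠ 0 ∧ c ∈ Submodule.span E (toE '' (V : Set (H1 O O G))) ∧
      ∀ n, hec h1 h0 n c = lam n • c := by
  have := finite_H1 (O := E) (A := E) (G := G)
  set W : Submodule E (H1 E E G) := Submodule.span E (toE '' (V : Set (H1 O O G))) with hW
  have hW0 : W ≠ ⊥ := by
    obtain ⟨v, hv, hv0⟩ := Submodule.exists_mem_ne_zero_of_ne_bot hV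
    intro h
    have h2 : (toE v : H1 E E G) ∈ W := Submodule.subset_span ⟨v, hv, rfl⟩
    rw [h, Submodule.mem_bot] at h2
    exact hv0 (toE_injective hinj (h2.trans (map_zero (extH (algebraMap O E).toAddMonoidHom)).symm))
  have hWst : ∀ n, ∀ w ∈ W, hec h1 h0 n w ∈ W := by
    intro n w hw
    induction hw using Submodule.span_induction with
    | mem x hx =>
      obtain ⟨v, hv, rfl⟩ := hx
      rw [hec_toE]
      exact Submodule.subset_span ⟨_, hst n v hv, rfl⟩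
    | zero => rw [map_zero]; exact W.zero_mem
    | add x y _ _ hx hy => rw [map_add]; exact W.add_mem hx hy
    | smul a x _ hx => rw [map_smul]; exact W.smul_mem a hx
  obtain ⟨c, hcW, hc0, hc⟩ := exists_common_eigenvector (L := E) (V := H1 E E G)
    (fun n : ℕ => (hec h1 h0 n : Module.End E (H1 E E G)))
    (fun n m => hec_comm h1 h0 n m) _ W rfl hW0 hWst
  choose lam hlam using hc
  exact ⟨c, lam, hc0, hcW, hlam⟩

theorem aeval_span_zero {O E : Type*} [CommRing O] [Field E] [Algebra O E]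
    {h1 : Gamma1 L ≤ G} {h0 : G ≤ Gamma0 L} {V : Submodule O (H1 O O G)} {n : ℕ} {P : Polynomial O}
    (hP : ∀ v ∈ V, Polynomial.aeval (hec h1 h0 n : Module.End O (H1 O O G)) P v = 0)
    {c : H1 E E G} (hc0 : c ≠ 0) (hc : c ∈ Submodule.span E (toE '' (V : Set (H1 O O G)))) {lam : E}
    (hlam : hec h1 h0 n c = lam • c) : Polynomial.aeval lam P = 0 := by
  have h2 : ∀ w ∈ Submodule.span E (toE '' (V : Set (H1 O O G))),
      Polynomial.aeval (hec h1 h0 n : Module.End E (H1 E E G)) (P.map (algebraMap O E)) w = 0 := by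
    intro w hw
    induction hw using Submodule.span_induction with
    | mem x hx =>
      obtain ⟨v, hv, rfl⟩ := hx
      rw [aeval_toE, hP v hv]
      exact map_zero (extH (algebraMap O E).toAddMonoidHom)
    | zero => rw [map_zero]
    | add x y _ _ hx hy => rw [map_add, hx, hy, add_zero]
    | smul a x _ hx => rw [map_smul, hx, smul_zero]
  have h3 := h2 c hc
  rw [aeval_eigen h1 h0 hlam, smul_eq_zero, or_iff_left hc0, Polynomial.eval_map] at h3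
  exact h3

variable {𝒪 : Type*} [CommRing 𝒪] [IsDomain 𝒪] [IsDiscreteValuationRing 𝒪]
variable [IsAdicComplete (maximalIdeal 𝒪) 𝒪]

/-- **New eigenclasses.** -/
theorem exists_newclass [NeZero N] {E : Type*} [Field E] [IsAlgClosed E] [Algebra 𝒪 E]
    (hinj : Function.Injective (algebraMap 𝒪 E)) {I : Set ℕ} {a : ℕ → 𝒪} (hq : q.Prime)
    (hqN : IsCoprime (N : ℤ) (q : ℤ)) (h : ¬ NoNew N hq hqN I a) :
    ∃ (c : H1 E E (Gamma0 (N * q))) (lam : ℕ → E), c ≠ 0 ∧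
      (∀ n, hec (Gamma1_le (N * q)) le_rfl n c = lam n • c) ∧ lam q * lam q = 1 ∧
      (∀ i ∈ I, ∃ (P : Polynomial 𝒪) (m : ℕ), P.map (residue 𝒪) =
        (Polynomial.X - Polynomial.C (residue 𝒪 (a i))) ^ m ∧ Polynomial.aeval (lam i) P = 0) ∧
      ∀ (g g' : SL(2, ℤ)) (hg : g ∈ Gamma0 (N * q)) (hg' : g' ∈ Gamma0 (N * q)),
        D2 N q none * (g : Mat) = (g' : Mat) * D2 N q none →
        c.1 ⟨g', hg'⟩ = -(lam q * c.1 ⟨g, hg⟩) := by
  obtain ⟨V, hV, hVM, hst, hsq, hW⟩ := (newSubW_of_not_noNew hq hqN h).transport (Gq_Gamma0 hqN)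
    (Gamma1_le _) le_rfl
  haveI : NeZero q := ⟨hq.ne_zero⟩
  obtain ⟨c, lam, hc0, hc, hlam⟩ := exists_eigenclass_mem (E := E) (Gamma1_le (N * q)) le_rfl hinj V
    hV hst
  refine ⟨c, lam, hc0, hlam, ?_, fun i hi => ?_, fun g g' hg hg' e => ?_⟩
  · have h2 := aeval_span_zero (E := E) (P := (Polynomial.X ^ 2 - 1 : Polynomial 𝒪)) (fun v hv => by
      rw [map_sub, map_pow, Polynomial.aeval_X, map_one, LinearMap.sub_apply, pow_two,
        Module.End.mul_apply, hsq v hv, Module.End.one_apply, sub_self]) hc0 hc (hlam q)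
    rw [map_sub, map_pow, Polynomial.aeval_X, map_one, sub_eq_zero, pow_two] at h2
    exact h2
  · have := finite_H1 (O := 𝒪) (A := 𝒪) (G := Gamma0 (N * q))
    obtain ⟨P, hP, m, hm⟩ := LocI_exists_poly (M := H1 𝒪 𝒪 (Gamma0 (N * q)))
      (H := hec (Gamma1_le (N * q)) le_rfl) (hec_comm (Gamma1_le (N * q)) le_rfl) I a hi
    exact ⟨P, m, hm, aeval_span_zero (fun v hv => hP v (hVM hv)) hc0 hc (hlam i)⟩
  · have h2 : ∀ w : H1 E E (Gamma0 (N * q)),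
        w ∈ Submodule.span E (toE '' (V : Set (H1 𝒪 𝒪 (Gamma0 (N * q))))) →
        w.1 ⟨g', hg'⟩ = -(hec (Gamma1_le (N * q)) le_rfl q w).1 ⟨g, hg⟩ := by
      intro w hw
      induction hw using Submodule.span_induction with
      | mem x hx =>
        obtain ⟨v, hv, rfl⟩ := hx
        rw [hec_toE]
        have h3 := congrArg (algebraMap 𝒪 E) (hW v hv g g' hg hg' e)
        rw [map_neg] at h3
        exact h3
      | zero => rw [map_zero]; exact neg_zero.symm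
      | add x y _ _ hx hy =>
        rw [map_add]
        change x.1 ⟨g', hg'⟩ + y.1 ⟨g', hg'⟩ = -(_ + _)
        rw [hx, hy, neg_add]
      | smul a x _ hx =>
        rw [map_smul]
        change a * x.1 ⟨g', hg'⟩ = -(a * _)
        rw [hx, mul_neg]
    rw [h2 c hc, hlam q]
    rfl

end Eig

end Fermat.Agent.RT.Ihara
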