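import Fermat.Agent.RT.Bridge

set_option autoImplicit false

/-!
# Hecke operators on `H¹(G, A)` and their compatibility with restriction and transfer
-/

open Matrix CongruenceSubgroup ModularForm
open scoped MatrixGroups

namespace Fermat.Agent.RT.Ihara

open Fermat.Agent.ESCore

variable {G G₁ G₂ G₃ : Subgroup SL(2, ℤ)} {N q : ℕ}
variable {O A A' : Type*} [CommRing O] [AddCommGroup A] [Module O A] [AddCommGroup A'] [Module O A']

/-- Families of matrices congruent to `(1 *; 0 *)` permuted by `Γ₀(N)`. -/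
structure GFam (N : ℕ) {ι : Type*} (D : ι → Mat) : Prop where
  gmat : ∀ x, GMat N (D x)
  corr : Corr (Gamma0 N) (Gamma0 N) D

theorem GFam.corrG {ι : Type*} {D : ι → Mat} (F : GFam N D) (h1 : Gamma1 N ≤ G)
    (h0 : G ≤ Gamma0 N) : Corr G G D where
  det := F.corr.det
  act x g hg := by
    obtain ⟨y, g', -, e⟩ := F.corr.act x g (h0 hg)
    exact ⟨y, g', GMat.mem h1 h0 (F.gmat x) (F.gmat y) hg e, e⟩
  inj x y g hg e := F.corr.inj x y g (h0 hg) e

theorem Gamma1_le (N : ℕ) : Gamma1 N ≤ Gamma0 N := by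
  intro g hg
  rw [Gamma1_mem] at hg
  rw [Gamma0_mem]
  exact hg.2.2

theorem gfam_TD {l : ℕ} (hl : l.Prime) (hN : ¬ l ∣ N) : GFam N (TD N l) :=
  ⟨TD_gmat (isCoprime_N hl hN), corr_TD (Gamma1_le N) le_rfl hl (isCoprime_N hl hN)⟩

theorem gfam_U (hq : q ≠ 0) (hN : q ∣ N) : GFam N fun j : Fin q => Mx q (some j) :=
  ⟨fun j => Mx_gmat j, corr_U hq hN (Gamma1_le N) le_rfl⟩

section Hecke

open Classical in
/-- The Hecke operators -/
noncomputable def hec (h1 : Gamma1 N ≤ G) (h0 : G ≤ Gamma0 N) (n : ℕ) :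
    Module.End O (H1 O A G) :=
  if hn : n.Prime then
    if hN : n ∣ N then opH ((gfam_U hn.ne_zero hN).corrG h1 h0)
    else opH ((gfam_TD hn hN).corrG h1 h0)
  else 0

theorem hec_T (h1 : Gamma1 N ≤ G) (h0 : G ≤ Gamma0 N) {l : ℕ} (hl : l.Prime) (hN : ¬ l ∣ N) :
    (hec h1 h0 l : Module.End O (H1 O A G)) = opH ((gfam_TD hl hN).corrG h1 h0) := by
  rw [hec, dif_pos hl, dif_neg hN]

theorem hec_U (h1 : Gamma1 N ≤ G) (h0 : G ≤ Gamma0 N) (hq : q.Prime) (hN : q ∣ N) :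
    (hec h1 h0 q : Module.End O (H1 O A G)) = opH ((gfam_U hq.ne_zero hN).corrG h1 h0) := by
  rw [hec, dif_pos hq, dif_pos hN]

theorem hec_zero (h1 : Gamma1 N ≤ G) (h0 : G ≤ Gamma0 N) {n : ℕ} (hn : ¬ n.Prime) :
    (hec h1 h0 n : Module.End O (H1 O A G)) = 0 := by
  rw [hec, dif_neg hn]

theorem heckeCharG_hec {l : ℕ} (hl : l.Prime) (hN : ¬ l ∣ N) (h1 : Gamma1 N ≤ G)
    (h0 : G ≤ Gamma0 N) (c : H1 O A G) :
    heckeCharG hl hN h1 h0 (toChar c) = toChar (hec h1 h0 l c) := by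
  rw [heckeCharG_toChar, hec_T h1 h0 hl hN]

theorem heckeCharUG_hec (hq : q.Prime) (hN : q ∣ N) (h1 : Gamma1 N ≤ G)
    (h0 : G ≤ Gamma0 N) (c : H1 O A G) :
    heckeCharUG hq.ne_zero hN h1 h0 (toChar c) = toChar (hec h1 h0 q c) := by
  rw [heckeCharUG_toChar, hec_U h1 h0 hq hN]

/-- **Hecke operators commute.** -/
theorem hec_comm (h1 : Gamma1 N ≤ G) (h0 : G ≤ Gamma0 N) (n m : ℕ) :
    (hec h1 h0 n * hec h1 h0 m : Module.End O (H1 O A G)) = hec h1 h0 m * hec h1 h0 n := by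
  by_cases hn : n.Prime
  swap
  · rw [hec_zero h1 h0 hn, zero_mul, mul_zero]
  by_cases hm : m.Prime
  swap
  · rw [hec_zero h1 h0 hm, zero_mul, mul_zero]
  refine LinearMap.ext fun c => toChar_injective ?_
  change toChar (hec h1 h0 n (hec h1 h0 m c)) = toChar (hec h1 h0 m (hec h1 h0 n c))
  by_cases hnN : n ∣ N <;> by_cases hmN : m ∣ N
  · rw [← heckeCharUG_hec hn hnN, ← heckeCharUG_hec hm hmN, ← heckeCharUG_hec hm hmN,
      ← heckeCharUG_hec hn hnN]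
    by_cases hnm : n = m
    · subst hnm; rfl
    · exact heckeCharUG_comm _ _ _ _ ((Nat.coprime_primes hn hm).mpr hnm) _ _ _
  · rw [← heckeCharUG_hec hn hnN, ← heckeCharG_hec hm hmN, ← heckeCharG_hec hm hmN,
      ← heckeCharUG_hec hn hnN]
    exact (heckeCharG_heckeCharUG_comm _ _ _ _ _ _ _).symm
  · rw [← heckeCharG_hec hn hnN, ← heckeCharUG_hec hm hmN, ← heckeCharUG_hec hm hmN,
      ← heckeCharG_hec hn hnN]
    exact heckeCharG_heckeCharUG_comm _ _ _ _ _ _ _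
  · rw [← heckeCharG_hec hn hnN, ← heckeCharG_hec hm hmN, ← heckeCharG_hec hm hmN,
      ← heckeCharG_hec hn hnN]
    exact heckeCharG_comm _ _ _ _ _ _ _

theorem hec_diaH (h1 : Gamma1 N ≤ G) (h0 : G ≤ Gamma0 N) (n : ℕ) (σ : Gamma0 N) :
    (hec h1 h0 n * diaH h1 h0 σ : Module.End O (H1 O A G)) = diaH h1 h0 σ * hec h1 h0 n := by
  by_cases hn : n.Prime
  swap
  · rw [hec_zero h1 h0 hn, zero_mul, mul_zero]
  refine LinearMap.ext fun c => toChar_injective ?_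
  change toChar (hec h1 h0 n (diaH h1 h0 σ c)) = toChar (diaH h1 h0 σ (hec h1 h0 n c))
  by_cases hnN : n ∣ N
  · rw [← heckeCharUG_hec hn hnN, ← diaChar_toChar, ← diaChar_toChar, ← heckeCharUG_hec hn hnN]
    exact heckeCharUG_diaChar _ _ _ _ _ _
  · rw [← heckeCharG_hec hn hnN, ← diaChar_toChar, ← diaChar_toChar, ← heckeCharG_hec hn hnN]
    exact heckeCharG_diaChar _ _ _ _ _ _

end Hecke

/-! ### Restriction -/

/-- Restriction to a subgroup -/
def resH (h : G₂ ≤ G₁) : H1 O A G₁ →ₗ[O] H1 O A G₂ where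
  toFun c := ⟨fun g => c.1 ⟨g, h g.2⟩, fun g g' => c.2 ⟨g, h g.2⟩ ⟨g', h g'.2⟩⟩
  map_add' _ _ := rfl
  map_smul' _ _ := rfl

theorem resH_apply (h : G₂ ≤ G₁) (c : H1 O A G₁) (g : G₂) : (resH h c).1 g = c.1 ⟨g, h g.2⟩ := rfl

theorem opH_resH {ι : Type*} [Fintype ι] {D : ι → Mat} (h : G₂ ≤ G₁) {G₁' G₂' : Subgroup SL(2, ℤ)}
    (h' : G₂' ≤ G₁') (H : Corr G₁ G₁' D) (H' : Corr G₂ G₂' D) (c : H1 O A G₁) :
    opH H' (resH h c) = resH h' (opH H c) := by
  apply Subtype.ext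
  funext g
  rw [opH_apply, resH_apply, opH_apply]
  obtain ⟨σ, γ, hγ, e⟩ := H'.exists_perm g.2
  rw [H'.opc_eq (addOn_ex _) g.2 hγ e, H.opc_eq (addOn_ex _) (h' g.2) (fun x => h (hγ x)) e]
  refine Finset.sum_congr rfl fun x _ => ?_
  rw [ex_apply _ (hγ x), ex_apply _ (h (hγ x))]
  rfl

theorem hec_resH (h1 : Gamma1 N ≤ G₂) (h : G₂ ≤ G₁) (h0 : G₁ ≤ Gamma0 N) (n : ℕ)
    (c : H1 O A G₁) :
    resH h (hec (h1.trans h) h0 n c) = hec h1 (h.trans h0) n (resH h c) := by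
  by_cases hn : n.Prime
  swap
  · rw [hec_zero _ _ hn, hec_zero _ _ hn]; rfl
  by_cases hN : n ∣ N
  · rw [hec_U _ _ hn hN, hec_U _ _ hn hN]
    exact (opH_resH h h _ _ c).symm
  · rw [hec_T _ _ hn hN, hec_T _ _ hn hN]
    exact (opH_resH h h _ _ c).symm

/-! ### Change of coefficients -/

/-- Change of coefficients -/
def mapH (f : A →ₗ[O] A') : H1 O A G →ₗ[O] H1 O A' G where
  toFun c := ⟨fun g => f (c.1 g), fun g g' => (congrArg f (c.2 g g')).trans (map_add f _ _)⟩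
  map_add' c c' := Subtype.ext (funext fun g => map_add f _ _)
  map_smul' r c := Subtype.ext (funext fun g => map_smul f _ _)

theorem mapH_apply (f : A →ₗ[O] A') (c : H1 O A G) (g : G) : (mapH f c).1 g = f (c.1 g) := rfl

theorem opH_mapH {ι : Type*} [Fintype ι] {D : ι → Mat} (H : Corr G₁ G₂ D) (f : A →ₗ[O] A')
    (c : H1 O A G₁) : opH H (mapH f c) = mapH f (opH H c) := by
  apply Subtype.ext
  funext g
  rw [opH_apply, mapH_apply, opH_apply]
  refine Eq.trans ?_ (opc_map (G₁ := G₁) f.toAddMonoidHom D (ex c.1) g)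
  refine H.opc_congr (addOn_ex _) (fun h hh => ?_) g.2
  rw [ex_apply _ hh, ex_apply _ hh]
  rfl

theorem hec_mapH (h1 : Gamma1 N ≤ G) (h0 : G ≤ Gamma0 N) (n : ℕ) (f : A →ₗ[O] A')
    (c : H1 O A G) : mapH f (hec h1 h0 n c) = hec h1 h0 n (mapH f c) := by
  by_cases hn : n.Prime
  swap
  · rw [hec_zero _ _ hn, hec_zero _ _ hn]; exact map_zero _
  by_cases hN : n ∣ N
  · rw [hec_U _ _ hn hN, hec_U _ _ hn hN, opH_mapH]
  · rw [hec_T _ _ hn hN, hec_T _ _ hn hN, opH_mapH]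

/-! ### Compositions -/

theorem opH_comm {ι κ ι' κ' : Type*} [Fintype ι] [Fintype κ] [Fintype ι'] [Fintype κ']
    {D : ι → Mat} {D' : ι' → Mat} {E : κ → Mat} {E' : κ' → Mat} {G₂' : Subgroup SL(2, ℤ)}
    (H : Corr G₁ G₂ D) (H' : Corr G₂ G₃ D') (K : Corr G₁ G₂' E) (K' : Corr G₂' G₃ E')
    (f : ι × ι' ≃ κ × κ')
    (h : ∀ p, relG G₁ (E (f p).1 * E' (f p).2) (D p.1 * D' p.2)) (c : H1 O A G₁) :
    opH H' (opH H c) = opH K' (opH K c) := by
  apply Subtype.ext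
  funext g
  rw [opH_apply, opH_apply]
  have hs := isPrim_prim (addOn_ex c)
  have a1 : opc G₂ D' (ex (opH H c).1) g = opc G₂ D' (opc G₁ D (ex c.1)) g :=
    H'.opc_congr (addOn_ex _) (fun h hh => by rw [ex_apply _ hh, opH_apply]) g.2
  have a2 : opc G₂' E' (ex (opH K c).1) g = opc G₂' E' (opc G₁ E (ex c.1)) g :=
    K'.opc_congr (addOn_ex _) (fun h hh => by rw [ex_apply _ hh, opH_apply]) g.2
  have key := sum_prim_comm (D := fun p : ι × ι' => D p.1 * D' p.2)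
    (E := fun p : κ × κ' => E p.1 * E' p.2)
    (fun p => by rw [Matrix.det_mul]; exact mul_ne_zero (H.det _) (H'.det _))
    (fun p => by rw [Matrix.det_mul]; exact mul_ne_zero (K.det _) (K'.det _)) hs f h
    (m := ((g : SL(2, ℤ)) : Mat)) (by rw [(g : SL(2, ℤ)).det_coe]; norm_num)
  rw [a1, a2, H.opc_comp H' hs g.2, K.opc_comp K' hs g.2]
  rw [Finset.sum_comm (f := fun y x => prim G₁ (ex c.1) (D x * (D' y * ((g : SL(2, ℤ)) : Mat)))),
    Finset.sum_comm (f := fun y x => prim G₁ (ex c.1) (D x * D' y)),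
    Finset.sum_comm (f := fun y x => prim G₁ (ex c.1) (E x * (E' y * ((g : SL(2, ℤ)) : Mat)))),
    Finset.sum_comm (f := fun y x => prim G₁ (ex c.1) (E x * E' y))]
  simp only [Fintype.sum_prod_type, mul_assoc] at key
  exact key

end Fermat.Agent.RT.Ihara
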