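import Fermat.Agent.ESCore.EigenChar
import Fermat.Agent.RT.Level

set_option autoImplicit false

/-!
# Residual eigenclasses of eigenforms
-/

open UpperHalfPlane hiding I
open Matrix Matrix.SpecialLinearGroup CongruenceSubgroup ModularForm ModularFormClass
open Fermat.Agent.ES Fermat.Agent.ESCore Fermat.Agent.Hecke
open scoped MatrixGroups ModularForm Manifold

noncomputable section

namespace Fermat.Agent.RT.Ihara

section Gamma0

variable {N : ℕ} {B : Type*} [CommGroup B]

theorem heckeCharG_Gamma0 {l : ℕ} (hl : l.Prime) (hN : ¬ l ∣ N) (c : Gamma0 N →* B) :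
    heckeCharG hl hN (Gamma1_le N) le_rfl c = heckeChar hl hN c := by
  change (heckeSysG hl hN (Gamma1_le N) le_rfl).trans (gamG_injective _) c =
    (heckeSys hl hN).trans (gam_injective N) c
  refine CosetSys.trans_eq_of_equiv (gam_injective N) (heckeSys hl hN)
    (heckeSysG hl hN (Gamma1_le N) le_rfl) id rfl (fun x => ⟨sigmaX N l x, rfl⟩) c

theorem heckeCharUG_Gamma0 {q : ℕ} (hq : q ≠ 0) (hN : q ∣ N) (c : Gamma0 N →* B) :
    heckeCharUG hq hN (Gamma1_le N) le_rfl c = heckeCharU hq hN c := by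
  change (heckeSysUG hq hN (Gamma1_le N) le_rfl).trans (gamG_injective _) c =
    (heckeSysU hq hN).trans (gam_injective N) c
  refine CosetSys.trans_eq_of_equiv (gam_injective N) (heckeSysU hq hN)
    (heckeSysUG hq hN (Gamma1_le N) le_rfl) id rfl (fun x => ⟨1, by rw [map_one, one_mul]; rfl⟩) c

end Gamma0

variable {N : ℕ} [NeZero N]

/-- **Support theorem**, with the values on elements of order three. -/
theorem exists_parabolic_eigenHom₃ {S : Set ℕ} {k : Type*} [Field k]
    (χ : CuspForm.heckeAlgebra N 2 S →+* k) :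
    ∃ c : Additive (Gamma0 N) →+ k, c ≠ 0 ∧
      (∀ γ : Gamma0 N, γ ^ 3 = 1 → c (Additive.ofMul γ) = 0) ∧
      ∀ (t : CuspForm.heckeAlgebra N 2 S) {ι : Type} [Fintype ι] (δ : ι → GL (Fin 2) ℝ),
        (∀ x, 0 < (δ x).det.val) →
        (∀ f : CuspForm (Gamma0 N) 2, (⇑(t.1 f) : ℍ → ℂ) = ∑ x, (⇑f : ℍ → ℂ) ∣[(2 : ℤ)] δ x) →
        ∀ (γ : Gamma0 N) (γ' : ι → Gamma0 N) (s : Equiv.Perm ι),
        (∀ x, δ x * mapGL ℝ (γ : SL(2, ℤ)) = mapGL ℝ (γ' x : SL(2, ℤ)) * δ (s x)) →
        ∑ x, c (Additive.ofMul (γ' x)) = χ t * c (Additive.ofMul γ) := by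
  obtain ⟨Λ, hΛ0, hΛ⟩ := exists_functional (LatM_faithful (N := N) S) χ
  let pr : Additive (Gamma0 N) →+ LatM N S := (perHom N).rangeRestrict
  refine ⟨Λ.comp pr, ?_, ?_, ?_⟩
  · intro h
    apply hΛ0
    refine AddMonoidHom.ext fun v => ?_
    obtain ⟨γ, hγ⟩ := AddMonoidHom.rangeRestrict_surjective (perHom N) v
    have h1 := DFunLike.congr_fun h γ
    change Λ ((perHom N).rangeRestrict γ) = 0 at h1
    have h2 : (perHom N).rangeRestrict γ = v := hγ
    rw [h2] at h1
    exact h1
  · intro γ hγ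
    have h1 : pr (Additive.ofMul γ) = 0 := by
      have h3 : (3 : ℕ) • pr (Additive.ofMul γ) = 0 := by
        rw [← map_nsmul, ← ofMul_pow, hγ, ofMul_one, map_zero]
      apply Subtype.ext
      have h4 : (3 : ℕ) • (pr (Additive.ofMul γ)).1 = 0 := by
        have := congrArg Subtype.val h3
        exact this
      have h5 : (3 : ℂ) • (pr (Additive.ofMul γ)).1 = 0 := by
        rw [← h4, ← Nat.cast_smul_eq_nsmul ℂ]
        norm_num
      exact (smul_eq_zero.mp h5).resolve_left (by norm_num)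
    rw [AddMonoidHom.comp_apply, h1, map_zero]
  · intro t ι _ δ hδ ht γ γ' s hs
    have h1 := perHom_comp_of_sum δ hδ ht γ γ' s hs
    have h2 : t • pr (Additive.ofMul γ) = ∑ x, pr (Additive.ofMul (γ' x)) := by
      apply Subtype.ext
      rw [LatM_smul_coe]
      have h3 : (∑ x, pr (Additive.ofMul (γ' x))).1 = ∑ x, (pr (Additive.ofMul (γ' x))).1 :=
        map_sum (perLat N).subtype _ _
      rw [h3]
      exact h1
    simp only [AddMonoidHom.comp_apply]
    rw [← map_sum, ← h2, hΛ]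

/-- **Residual eigenclass of an eigenform.** -/
theorem exists_eigenclass_mod {f : CuspForm (Gamma0 N) 2} (hf : f.IsNormalizedEigenform)
    {k : Type} [Field k] (φ : integralClosure ℤ ℂ →+* k) :
    ∃ c : H1 k k (Gamma0 N), c ≠ 0 ∧ (∀ g : Gamma0 N, g ^ 3 = 1 → c.1 g = 0) ∧
      ∀ l : ℕ, l.Prime → ∀ a : integralClosure ℤ ℂ, (a : ℂ) = qCoeff f l →
        hec (Gamma1_le N) le_rfl l c = φ a • c := by
  obtain ⟨c, hc0, h3, hc⟩ := exists_parabolic_eigenHom₃ (φ.comp (eigenHom hf ∅))
  set c' : H1 k k (Gamma0 N) := ofChar (mulHom c) with hc'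
  have hch : toChar c' = mulHom c := toChar_ofChar _
  have hval : ∀ g, c'.1 g = c (Additive.ofMul g) := fun g => rfl
  refine ⟨c', fun h => hc0 ?_, fun g hg => h3 g hg, fun l hl a ha => ?_⟩
  · refine AddMonoidHom.ext fun γ => ?_
    have := congrFun (congrArg Subtype.val h) γ.toMul
    exact this
  · apply toChar_injective
    by_cases hlN : l ∣ N
    · have hT : a = eigenHom hf ∅ (CuspForm.heckeAlgebra.U hl hlN (Set.notMem_empty l)) :=
        Subtype.ext (by rw [ha, eigenHom_U hf hl hlN (Set.notMem_empty l)])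
      rw [← heckeCharUG_hec hl hlN, heckeCharUG_Gamma0, hch]
      ext γ
      apply Multiplicative.toAdd.injective
      have h4 := hc (CuspForm.heckeAlgebra.U hl hlN (Set.notMem_empty l))
        (fun x : Fin l => ModularForm.heckeMatrix l x)
        (fun x => ModularForm.det_heckeMatrix_pos l _)
        (fun f => heckeU_eq_sum_fin l f) γ ((heckeSysU hl.ne_zero hlN).coc γ)
        (Equiv.ofBijective _ ((heckeSysU hl.ne_zero hlN).tgt_bijective γ))
        (fun x => (heckeSysU hl.ne_zero hlN).spec γ x)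
      change Multiplicative.toAdd (∏ x, mulHom c ((heckeSysU hl.ne_zero hlN).coc γ x)) = φ a * _
      rw [toAdd_prod, hT]
      exact h4
    · have hT : a = eigenHom hf ∅ (CuspForm.heckeAlgebra.T hl hlN (Set.notMem_empty l)) :=
        Subtype.ext (by rw [ha, eigenHom_T hf hl hlN (Set.notMem_empty l)])
      rw [← heckeCharG_hec hl hlN, heckeCharG_Gamma0, hch]
      ext γ
      apply Multiplicative.toAdd.injective
      have h4 := hc (CuspForm.heckeAlgebra.T hl hlN (Set.notMem_empty l)) (hdelta l) (hdelta_pos l)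
        (fun f => heckeT_eq_sum_hdelta l f) γ ((heckeSys hl hlN).coc γ)
        (Equiv.ofBijective _ ((heckeSys hl hlN).tgt_bijective γ))
        (fun x => (heckeSys hl hlN).spec γ x)
      change Multiplicative.toAdd (∏ x, mulHom c ((heckeSys hl hlN).coc γ x)) = φ a * _
      rw [toAdd_prod, hT]
      exact h4

end Fermat.Agent.RT.Ihara
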