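import Fermat.Agent.RT.HPLat
import Fermat.Agent.RT.HPNew
import Fermat.Agent.RT.DvrExt
import Fermat.Agent.RT.LRClass
import Fermat.Agent.ESCore.S35Final

set_option autoImplicit false
set_option maxHeartbeats 400000

/-!
# Integral functionals attached to the new eigenclasses
-/

open Matrix CongruenceSubgroup IsLocalRing
open scoped MatrixGroups

noncomputable section

namespace Fermat.Agent.RT.Ihara

open Fermat.Agent.RT Fermat.Agent.ESCore Fermat.Agent.ESCore.UnivG

section General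

/-- functionals which are eigenvectors -/
theorem exists_eigenHom {R M E : Type*} [CommRing R] [AddCommGroup M] [Module R M] [Field E]
    (v : M →+ E) (hv : v ≠ 0) (h : ∀ t : R, ∃ c : E, ∀ x, v (t • x) = c * v x) :
    ∃ π : R →+* E, ∀ t x, v (t • x) = π t * v x := by
  obtain ⟨x₀, hx₀⟩ : ∃ x, v x ≠ 0 := by
    by_contra hcon
    push Not at hcon
    exact hv (AddMonoidHom.ext hcon)
  choose π hπ using h
  have huniq : ∀ a b : E, a * v x₀ = b * v x₀ → a = b := fun a b h => mul_right_cancel₀ hx₀ h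
  exact ⟨{ toFun := π
           map_one' := huniq _ _ (by rw [← hπ, one_smul, one_mul])
           map_mul' := fun s t => huniq _ _ (by rw [← hπ, mul_smul, hπ, hπ, mul_assoc])
           map_zero' := huniq _ _ (by rw [← hπ, zero_smul, map_zero, zero_mul])
           map_add' := fun s t => huniq _ _ (by rw [← hπ, add_smul, map_add, hπ, hπ, add_mul]) },
    hπ⟩

/-- transfer of the ring of values -/
theorem exists_transfer' {B E F : Type*} [CommRing B] [IsDomain B] [Field E] [Field F] (i : B →+* E)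
    (hi : Function.Injective i) (j : B →+* F) (hj : Function.Injective j) {e₀ : E} (he : e₀ ≠ 0) :
    ∃ Ψ : E →+ F, Ψ e₀ ≠ 0 ∧ ∀ b e, Ψ (i b * e) = j b * Ψ e := by
  let K := FractionRing B
  let i' : K →+* E := IsFractionRing.lift hi
  let j' : K →+* F := IsFractionRing.lift hj
  letI : Algebra K E := i'.toAlgebra
  obtain ⟨μ, hμ⟩ : ∃ μ : Module.Dual K E, μ e₀ ≠ 0 := by
    by_contra h
    push Not at h
    exact he ((Module.forall_dual_apply_eq_zero_iff K _).mp h)
  refine ⟨j'.toAddMonoidHom.comp μ.toAddMonoidHom, fun h => hμ (j'.injective (h.trans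
    (map_zero j').symm)), fun b e => ?_⟩
  have h1 : i b * e = (algebraMap B K b) • e := by
    rw [Algebra.smul_def]
    change _ = i' (algebraMap B K b) * e
    rw [IsFractionRing.lift_algebraMap]
  change j' (μ (i b * e)) = j b * j' (μ e)
  rw [h1, map_smul, smul_eq_mul, map_mul, IsFractionRing.lift_algebraMap]

/-- clearing denominators -/
theorem exists_integral_hom {M O F : Type*} [AddCommGroup M] [Module.Finite ℤ M] [CommRing O]
    [IsDomain O] [Field F] [Algebra O F] [IsFractionRing O F] (w : M →+ F) :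
    ∃ (D : F) (v : M →+ O), D ≠ 0 ∧ (∀ x, algebraMap O F (v x) = D * w x) := by
  classical
  obtain ⟨s, hs⟩ := (Module.Finite.fg_top : (⊤ : Submodule ℤ M).FG)
  obtain ⟨D, hD⟩ := IsLocalization.exist_integer_multiples_of_finset (nonZeroDivisors O)
    (s.image w)
  have hinj := IsFractionRing.injective O F
  have hD0 : algebraMap O F D ≠ 0 := fun h =>
    nonZeroDivisors.ne_zero D.2 (hinj (by rw [h, map_zero]))
  have hint : ∀ x, ∃ a : O, algebraMap O F a = algebraMap O F D * w x := by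
    intro x
    have hx : x ∈ Submodule.span ℤ (s : Set M) := by rw [hs]; trivial
    induction hx using Submodule.span_induction with
    | mem x hx =>
      obtain ⟨a, ha⟩ := hD (w x) (Finset.mem_image_of_mem _ hx)
      refine ⟨a, ?_⟩
      rw [ha, Algebra.smul_def]
    | zero => exact ⟨0, by rw [map_zero, map_zero, mul_zero]⟩
    | add x y _ _ hx hy =>
      obtain ⟨a, ha⟩ := hx
      obtain ⟨b, hb⟩ := hy
      exact ⟨a + b, by rw [map_add, map_add, ha, hb, mul_add]⟩
    | smul n x _ hx =>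
      obtain ⟨a, ha⟩ := hx
      refine ⟨n • a, ?_⟩
      rw [map_zsmul, map_zsmul, ha, mul_smul_comm]
  choose v hv using hint
  exact ⟨algebraMap O F D, ⟨⟨v, hinj (by rw [hv, map_zero, mul_zero, map_zero])⟩, fun x y => hinj
    (by rw [hv, map_add, map_add, hv, hv, mul_add])⟩, hD0, hv⟩

end General

section WRel

variable {N q : ℕ} {A : Type*} [AddCommGroup A]

/-- comparison of the matrices of the Atkin–Lehner operators -/
theorem exists_Wm_eq (hqN : IsCoprime (N : ℤ) (q : ℤ)) {w y : ℤ} (hb : (q : ℤ) * w - N * y = 1) :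
    ∃ k ∈ Gamma0 (N * q), NF.Wm q N w y = (k : Mat) * D2 N q none := by
  have h := cq_spec hqN
  set c := cq N q with hc
  set z := yq N q with hz
  refine ⟨sl (q - y * N) (y * c - z) (q * N * (1 - w)) (q * w * c - N * z) ?_, ?_, ?_⟩
  · linear_combination (q * c - N * z) * hb + h
  · rw [mem_G0, sl_10]
    push_cast
    exact ⟨1 - w, by ring⟩
  · rw [D2_none, ← hz]
    ext a b
    fin_cases a <;> fin_cases b <;>
      simp [sl, NF.Wm, Matrix.mul_apply, Fin.sum_univ_two]
    · linear_combination (-(y * N)) * h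
    · linear_combination (-y) * h
    · linear_combination (-(q * N * w)) * h
    · linear_combination (-(q * w)) * h

/-- the relation for all the matrices -/
theorem wrel_of_D2 (hqN : IsCoprime (N : ℤ) (q : ℤ)) {c : SL(2, ℤ) → A}
    (hc : AddOn (Gamma0 (N * q)) c) {f : A → A}
    (h : ∀ g ∈ Gamma0 (N * q), ∀ g' ∈ Gamma0 (N * q),
      D2 N q none * (g : Mat) = (g' : Mat) * D2 N q none → c g' = f (c g))
    {w y : ℤ} (hb : (q : ℤ) * w - N * y = 1) {g g' : SL(2, ℤ)} (hg : g ∈ Gamma0 (N * q))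
    (hg' : g' ∈ Gamma0 (N * q))
    (e : NF.Wm q N w y * (g : Mat) = (g' : Mat) * NF.Wm q N w y) : c g' = f (c g) := by
  obtain ⟨k, hk, hkW⟩ := exists_Wm_eq hqN hb
  have h1 : D2 N q none * (g : Mat) = ((k⁻¹ * g' * k : SL(2, ℤ)) : Mat) * D2 N q none := by
    have h2 : (k : Mat) * (D2 N q none * (g : Mat)) =
        (k : Mat) * (((k⁻¹ * g' * k : SL(2, ℤ)) : Mat) * D2 N q none) := by
      rw [← mul_assoc, ← hkW, e, hkW, ← mul_assoc, ← mul_assoc, ← sl_coe_mul, ← sl_coe_mul]
      congr 2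
      group
    have h3 : ((k⁻¹ : SL(2, ℤ)) : Mat) * (k : Mat) = 1 := by
      rw [← sl_coe_mul, inv_mul_cancel]; rfl
    calc D2 N q none * (g : Mat) = ((k⁻¹ : SL(2, ℤ)) : Mat) * ((k : Mat) *
          (D2 N q none * (g : Mat))) := by rw [← mul_assoc, h3, one_mul]
      _ = _ := by rw [h2, ← mul_assoc, h3, one_mul]
  have hk' : k⁻¹ ∈ Gamma0 (N * q) := inv_mem hk
  have h2 := h g hg (k⁻¹ * g' * k) (mul_mem (mul_mem hk' hg') hk) h1
  have h3 : c (k⁻¹ * g' * k) = c g' := by
    have e1 := hc _ (mul_mem hk' hg') _ hk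
    have e2 := hc _ hk' _ hg'
    have e3 := hc _ hk' _ hk
    have e4 := hc _ (one_mem (Gamma0 (N * q))) _ (one_mem (Gamma0 (N * q)))
    rw [one_mul] at e4
    have e5 : c 1 = 0 := by
      have := e4
      exact (add_eq_left.mp this.symm)
    rw [inv_mul_cancel, e5] at e3
    rw [e1, e2, add_assoc, add_comm (c g'), ← add_assoc, ← e3, zero_add]
  rw [← h3, h2]

/-- the Atkin–Lehner operator on the characters -/
theorem wChar_of_D2 [NeZero q] {M : ℕ} [NeZero M] [NeZero (N * q)]
    (hqN : IsCoprime (N : ℤ) (q : ℤ)) (Bz : LG.Bez q M) (hK : N ∣ M)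
    (hN : N * q = q * N) (χ : Gamma0 (N * q) →* Multiplicative A) {e : ℤ}
    (h : ∀ (g g' : SL(2, ℤ)) (hg : g ∈ Gamma0 (N * q)) (hg' : g' ∈ Gamma0 (N * q)),
      D2 N q none * (g : Mat) = (g' : Mat) * D2 N q none →
      Multiplicative.toAdd (χ ⟨g', hg'⟩) = e • Multiplicative.toAdd (χ ⟨g, hg⟩)) :
    Bz.wChar hK hN χ = χ ^ e := by
  obtain ⟨r, hr⟩ := hK
  have hb : (q : ℤ) * Bz.w - N * (r * Bz.y) = 1 := by
    have hM' : (M : ℤ) = N * r := by exact_mod_cast hr
    rw [← Bz.det, hM']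
    ring
  refine MonoidHom.ext fun γ => ?_
  have hγ : (γ : SL(2, ℤ)) ∈ Gamma0 (q * N) := by rw [← hN]; exact γ.2
  obtain ⟨γ', hγ', e'⟩ := NF.exists_Wconj hb hγ
  have hγ'' : γ' ∈ Gamma0 (N * q) := by rw [hN]; exact hγ'
  have h1 := NF.toAdd_wChar Bz hr hN χ γ
  have h2 : AddOn (Gamma0 (q * N)) (NF.ofChar χ) := fun g hg g' hg' =>
    NF.addOn_ofChar χ g (by rw [hN]; exact hg) g' (by rw [hN]; exact hg')
  rw [NF.opW_eq (NeZero.ne q) hb h2 hγ hγ' e', NF.ofChar_mem χ hγ''] at h1
  have h3 := wrel_of_D2 hqN (c := NF.ofChar χ) (NF.addOn_ofChar χ) (f := fun a => e • a)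
    (fun g hg g' hg' e => by rw [NF.ofChar_mem χ hg, NF.ofChar_mem χ hg', h g g' hg hg' e])
    hb γ.2 hγ'' e'
  rw [NF.ofChar_mem χ hγ'', NF.ofChar_coe] at h3
  apply Multiplicative.toAdd.injective
  rw [h3] at h1
  exact h1

end WRel

end Fermat.Agent.RT.Ihara
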