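import Fermat.Agent.RT.HPFin

set_option autoImplicit false
set_option maxHeartbeats 400000
set_option linter.style.haveILetI false
set_option linter.unusedSectionVars false
set_option linter.unusedVariables false

/-!
# The Hecke package: one level
-/

open IsLocalRing CongruenceSubgroup Matrix.SpecialLinearGroup
open scoped MatrixGroups
open Fermat.Agent.ESCore Fermat.Agent.ESCore.UnivG
open Fermat.Agent.ESCore.Univ (Idx)
open Fermat.Agent.ESCore.Gal (dU dLift dU_dLift)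

noncomputable section

namespace Fermat.Agent.RT

open Ihara

section Core

variable {𝒪 : Type} [CommRing 𝒪] [IsDomain 𝒪] [IsDiscreteValuationRing 𝒪]
  [IsAdicComplete (maximalIdeal 𝒪) 𝒪] [CharZero 𝒪] [Finite (ResidueField 𝒪)]

theorem tnil_of_entries {d : ℕ} {B : Type} [CommRing B] [Algebra 𝒪 B]
    {X : Matrix (Fin d) (Fin d) B} (h : ∃ k, ∀ j j', ((X ^ k : Matrix (Fin d) (Fin d) B) j j') ∈
      (maximalIdeal 𝒪).map (algebraMap 𝒪 B)) : TNil 𝒪 X := by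
  obtain ⟨k, hk⟩ := h
  refine ⟨k, ?_⟩
  set Y : Matrix (Fin d) (Fin d) B := X ^ k with hY
  have h1 : ∀ (y : B), y ∈ (maximalIdeal 𝒪).map (algebraMap 𝒪 B) → ∀ j j',
      Matrix.single j j' y ∈ (maximalIdeal 𝒪) • (⊤ : Submodule 𝒪 (Matrix (Fin d) (Fin d) B)) := by
    intro y hy j j'
    have h2 : y ∈ (maximalIdeal 𝒪) • (⊤ : Submodule 𝒪 B) := by
      rw [Ideal.smul_top_eq_map]
      exact hy
    have h3 := map_mem_smul_top (Matrix.singleLinearMap 𝒪 j j' : B →ₗ[𝒪] _) (maximalIdeal 𝒪) h2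
    exact h3
  rw [Matrix.matrix_eq_sum_single Y]
  exact Submodule.sum_mem _ fun j _ => Submodule.sum_mem _ fun j' _ => h1 _ (hk j j') j j'

theorem no3_of_unit_or {N : ℕ} (h3 : IsUnit (3 : 𝒪) ∨ ∀ g : Gamma0 N, g ^ 3 = 1 → g = 1) :
    No3 𝒪 (ResidueField 𝒪) (Gamma0 N) := by
  rcases h3 with h3 | h3
  · refine no3_of fun x hx => ?_
    have h4 : (3 : ResidueField 𝒪) ≠ 0 := by
      have h5 := h3.map (residue 𝒪)
      rw [map_ofNat] at h5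
      exact h5.ne_zero
    rw [nsmul_eq_mul] at hx
    exact (mul_eq_zero.mp hx).resolve_left (by exact_mod_cast h4)
  · intro c g hg
    rw [h3 g hg]
    exact H1_one c

variable {χ : GQ →* 𝒪ˣ} {p N₀ N : ℕ} [NeZero N₀] [NeZero N]

/-- **One level.** -/
theorem exists_core (hp : p.Prime) (hp𝒪 : (p : 𝒪) ∈ maximalIdeal 𝒪) (hχ : IsCyc p χ)
    {S : Finset ℕ} (hpS : p ∈ S) (hNS : ∀ q : ℕ, q.Prime → q ∣ N → q ∈ S)
    {D : Type} [CommGroup D] [Finite D] (hodd : Odd (Nat.card D))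
    (hD : ∀ g : D, ∃ k, g ^ p ^ k = 1) (ψ : (ZMod N)ˣ →* D) (hψ : Function.Surjective ψ)
    {I₀ J E : Set ℕ} {a : ℕ → 𝒪} (hE : LevEquiv N₀ N I₀ J a E) (hNE : NonEisP N J a)
    (h8 : IsUnit (8 : 𝒪)) (h3 : IsUnit (3 : 𝒪) ∨ ∀ g : Gamma0 N, g ^ 3 = 1 → g = 1)
    {d : ℕ} (hd : 0 < d) (m : Module.Basis (Fin d) 𝒪 (HM0 N₀ I₀ a))
    (hJ : ∀ l : ℕ, l.Prime → l ∉ S → l ∈ J) (hES : ∀ l ∈ E, l ∈ S) :
    ∃ π : TG (le_GK (ψ := ψ)) GK_le S →+* Matrix (Fin d) (Fin d) (MonoidAlgebra 𝒪 D),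
      (∀ δ, π (genT le_GK GK_le S (Sum.inr δ)) = scal 𝒪 d (ψ (dU N δ))) ∧
      (∀ i, Pet.SepInt (π (genT le_GK GK_le S i))) ∧
      (∀ (i : Idx N S) j, hec (Gamma1_le N₀) le_rfl i.1 (m j).1 =
        ∑ k, aug 𝒪 D (π (genT le_GK GK_le S (Sum.inl i)) k j) • (m k).1) ∧
      ∃ (T : Type) (_ : CommRing T) (_ : Algebra 𝒪 T) (_ : Module.Finite 𝒪 T) (_ : IsLocalRing T)
        (ι : T →ₐ[𝒪] Matrix (Fin d) (Fin d) (MonoidAlgebra 𝒪 D)) (x : Idx N S → T) (t : GQ → T),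
        Function.Injective ι ∧ Algebra.adjoin 𝒪 (Set.range x) = ⊤ ∧
        (∀ i, ι (x i) = π (genT le_GK GK_le S (Sum.inl i)) *
          scal 𝒪 d ((half (ψ (dU N (sigmaD N i.1))))⁻¹)) ∧
        (∀ i, x i - algebraMap 𝒪 T (a i.1) ∈ maximalIdeal T) ∧
        (∀ y : T, ∃ b, y - algebraMap 𝒪 T b ∈ maximalIdeal T) ∧
        (∀ b, algebraMap 𝒪 T b ∈ maximalIdeal T ↔ b ∈ maximalIdeal 𝒪) ∧
        CycPs χ p {q | q ∣ N ∨ q = p} t ∧
        ∀ i : Idx N S, ∀ B : ValuationSubring Qb, B.LiesOverPrime i.1 → ∀ σ : GQ,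
          B.IsFrobeniusAt σ i.1 → t σ = x i := by
  haveI : Fact p.Prime := ⟨hp⟩
  letI : Fintype D := Fintype.ofFinite D
  have h3a : No3 𝒪 𝒪 (Gamma0 N) := no3_of fun x hx => by
    rw [nsmul_eq_mul] at hx
    exact (mul_eq_zero.mp hx).resolve_left (by norm_num)
  obtain ⟨e, Φ, he, hΦ, hnil, haug⟩ := Ihara.exists_level hψ hp𝒪 hE hD hNE.nonEis h3a
    (no3_of_unit_or h3) h8 m
  obtain ⟨π, hπ1, hπ2, hsep, -⟩ := Pet.exists_pi_sepInt hψ hΦ he hNE h8 S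
  have hπ2' : ∀ δ, π (genT le_GK GK_le S (Sum.inr δ)) = scal 𝒪 d (ψ (dU N δ)) := fun δ => hπ2 δ
  refine ⟨π, hπ2', hsep, fun i j => ?_, ?_⟩
  · rw [haug i.1 (fun h => i.2.2.2 (hES _ h)) j]
    refine Finset.sum_congr rfl fun k _ => ?_
    rw [hπ1]
    rfl
  · refine exists_hecke_rep le_GK GK_le hp hp𝒪 hχ hpS hNS hodd hD ψ hψ hd π hπ2' a fun i => ?_
    rw [hπ1]
    exact tnil_of_entries (hnil i.1 (hJ i.1 i.2.1 i.2.2.2))

end Core

end Fermat.Agent.RT
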