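import Fermat.Agent.RT.IndexTwo

set_option autoImplicit false

/-!
# Non-Eisenstein elements in the image of an odd irreducible representation
-/

open Matrix

namespace Fermat.Agent.RT.LR

open Fermat.Agent.RT

variable {F : Type*} [Field F]

/-- vectors killed by a nonzero matrix of rank one -/
theorem exists_smul_of_mulVec_eq_zero {n : Matrix (Fin 2) (Fin 2) F} (hn : n ≠ 0)
    {v w : Fin 2 → F} (hv : v ≠ 0) (hnv : n *ᵥ v = 0) (hnw : n *ᵥ w = 0) : ∃ a : F, w = a • v := by
  have hdet : v 0 * w 1 - v 1 * w 0 = 0 := by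
    by_contra hne
    apply hn
    ext i j
    have h1 := congrFun hnv i
    have h2 := congrFun hnw i
    simp only [Matrix.mulVec, dotProduct, Fin.sum_univ_two, Pi.zero_apply] at h1 h2
    have h3 : n i 0 * (v 0 * w 1 - v 1 * w 0) = 0 := by linear_combination w 1 * h1 - v 1 * h2
    have h4 : n i 1 * (v 0 * w 1 - v 1 * w 0) = 0 := by linear_combination v 0 * h2 - w 0 * h1
    fin_cases j
    · exact (mul_eq_zero.mp h3).resolve_right hne
    · exact (mul_eq_zero.mp h4).resolve_right hne
  by_cases h0 : v 0 = 0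
  · have h1 : v 1 ≠ 0 := by
      intro h1
      apply hv
      ext i
      fin_cases i
      · exact h0
      · exact h1
    refine ⟨w 1 / v 1, ?_⟩
    ext i
    fin_cases i
    · change w 0 = w 1 / v 1 * v 0
      rw [h0] at hdet ⊢
      have : v 1 * w 0 = 0 := by linear_combination -hdet
      rw [(mul_eq_zero.mp this).resolve_left h1, mul_zero]
    · change w 1 = w 1 / v 1 * v 1
      rw [div_mul_cancel₀ _ h1]
  · refine ⟨w 0 / v 0, ?_⟩
    ext i
    fin_cases i
    · change w 0 = w 0 / v 0 * v 0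
      rw [div_mul_cancel₀ _ h0]
    · change w 1 = w 0 / v 0 * v 1
      field_simp
      linear_combination hdet

/-- Cayley–Hamilton -/
theorem ch_two (M : Matrix (Fin 2) (Fin 2) F) :
    M * M = M.trace • M - M.det • (1 : Matrix (Fin 2) (Fin 2) F) := by
  ext i j
  rw [Matrix.trace_fin_two, Matrix.det_fin_two, Matrix.mul_apply, Fin.sum_univ_two]
  fin_cases i <;> fin_cases j <;> simp <;> ring

theorem pol_two {n m : Matrix (Fin 2) (Fin 2) F} (hn : n.trace = 0) (hm : m.trace = 0)
    (hnm : (n * m).trace = 0) : n * m = -(m * n) := by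
  rw [Matrix.trace_fin_two] at hn hm
  rw [Matrix.trace_fin_two, Matrix.mul_apply, Matrix.mul_apply, Fin.sum_univ_two,
    Fin.sum_univ_two] at hnm
  ext i j
  rw [Matrix.neg_apply, Matrix.mul_apply, Matrix.mul_apply, Fin.sum_univ_two, Fin.sum_univ_two]
  fin_cases i <;> fin_cases j <;> simp only [Fin.zero_eta, Fin.mk_one, Fin.isValue]
  · have e1 : n 1 1 = -n 0 0 := by linear_combination hn
    have e2 : m 1 1 = -m 0 0 := by linear_combination hm
    rw [e1, e2] at hnm
    linear_combination hnm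
  · linear_combination m 0 1 * hn + n 0 1 * hm
  · linear_combination m 1 0 * hn + n 1 0 * hm
  · have e1 : n 1 1 = -n 0 0 := by linear_combination hn
    have e2 : m 1 1 = -m 0 0 := by linear_combination hm
    rw [e1, e2] at hnm ⊢
    linear_combination hnm

variable {Γ : Type*} [Group Γ] {ρ : Γ →* GL (Fin 2) F}

/-- The set `{2, -2}`: three values in arithmetic progression. -/
theorem ap_two (h2 : (2 : F) ≠ 0) {x y : F} (h0 : x = 2 ∨ x = -2) (h1 : x + y = 2 ∨ x + y = -2)
    (h3 : x + 2 * y = 2 ∨ x + 2 * y = -2) : y = 0 := by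
  by_contra hy
  have e1 : x ≠ x + y := fun h => hy (by linear_combination -h)
  have e2 : x + y ≠ x + 2 * y := fun h => hy (by linear_combination -h)
  have e3 : x ≠ x + 2 * y := fun h => hy (by
    have : 2 * y = 0 := by linear_combination -h
    exact (mul_eq_zero.mp this).resolve_left h2)
  rcases h0 with h0 | h0 <;> rcases h1 with h1 | h1 <;> rcases h3 with h3 | h3 <;>
    first
      | exact e1 (h0.trans h1.symm)
      | exact e2 (h1.trans h3.symm)
      | exact e3 (h0.trans h3.symm)

/-- **Unipotent elements** -/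
theorem exists_comEig_of_unip (h2 : (2 : F) ≠ 0) {K : Subgroup Γ} [K.Normal]
    (hK : ∀ g ∈ K, (ρ g).val.det = 1 → (ρ g).val.trace = 2 ∨ (ρ g).val.trace = -2)
    {u : Γ} (hu : u ∈ K) (hud : (ρ u).val.det = 1) (hu1 : (ρ u).val ≠ 1) (hu2 : (ρ u).val ≠ -1) :
    ∃ v, ComEig ρ ⊤ v := by
  obtain ⟨e, he, htr⟩ : ∃ e : F, e * e = 1 ∧ (ρ u).val.trace = 2 * e := by
    rcases hK u hu hud with h | h
    · exact ⟨1, one_mul 1, by rw [h, mul_one]⟩
    · exact ⟨-1, by ring, by rw [h]; ring⟩
  set U := (ρ u).val with hU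
  set n := U - e • (1 : Matrix (Fin 2) (Fin 2) F) with hn
  have hUU : U * U = (2 * e) • U - (1 : Matrix (Fin 2) (Fin 2) F) := by
    rw [ch_two, htr, hud, one_smul]
  have hnn : n * n = 0 := by
    rw [hn, sub_mul, mul_sub, mul_sub, hUU, mul_smul_comm, smul_mul_assoc, smul_mul_assoc, mul_one,
      one_mul, one_mul, smul_smul, he, one_smul, two_mul, add_smul]
    abel
  have hn0 : n ≠ 0 := by
    intro h
    have h3 : U = e • (1 : Matrix (Fin 2) (Fin 2) F) := sub_eq_zero.mp h
    rcases mul_self_eq_one_iff.mp he with rfl | rfl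
    · exact hu1 (by rw [h3, one_smul])
    · exact hu2 (by rw [h3, neg_smul, one_smul])
  have hntr : n.trace = 0 := by
    rw [hn, Matrix.trace_sub, htr, Matrix.trace_smul, Matrix.trace_one, smul_eq_mul]
    simp only [Fintype.card_fin, Nat.cast_ofNat]
    ring
  -- the key relation
  have key : ∀ g ∈ K, (ρ g).val.det = 1 → (n * (ρ g).val).trace = 0 := by
    intro g hg hgd
    set g' := (ρ g).val with hg'
    have e1 : (U * g').trace = e * g'.trace + (n * g').trace := by
      have : U = n + e • (1 : Matrix (Fin 2) (Fin 2) F) := by rw [hn, sub_add_cancel]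
      rw [this, add_mul, Matrix.trace_add, smul_mul_assoc, one_mul, Matrix.trace_smul, smul_eq_mul,
        add_comm]
    have e2 : (U * (U * g')).trace = g'.trace + 2 * e * (n * g').trace := by
      rw [← mul_assoc, hUU, sub_mul, one_mul, smul_mul_assoc, Matrix.trace_sub, Matrix.trace_smul,
        e1, smul_eq_mul]
      linear_combination (2 * g'.trace) * he
    have k0 := hK g hg hgd
    have k1 := hK (u * g) (K.mul_mem hu hg) (by
      rw [map_mul, Units.val_mul, Matrix.det_mul, hud, hgd, mul_one])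
    have k2 := hK (u * (u * g)) (K.mul_mem hu (K.mul_mem hu hg)) (by
      rw [map_mul, map_mul, Units.val_mul, Units.val_mul, Matrix.det_mul, Matrix.det_mul, hud, hgd,
        mul_one, mul_one])
    rw [map_mul, Units.val_mul, ← hU, ← hg', e1] at k1
    rw [map_mul, map_mul, Units.val_mul, Units.val_mul, ← hU, ← hg', e2] at k2
    have he' : e = 1 ∨ e = -1 := mul_self_eq_one_iff.mp he
    have k3 : e * (n * g').trace = 0 := by
      refine ap_two h2 k0 ?_ ?_
      · rcases he' with rfl | rfl
        · rw [one_mul] at k1 ⊢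
          exact k1
        · rcases k1 with k1 | k1
          · right; linear_combination -k1
          · left; linear_combination -k1
      · rw [← mul_assoc]
        exact k2
    have he0 : e ≠ 0 := by
      rintro rfl
      rw [mul_zero] at he
      exact zero_ne_one he
    exact (mul_eq_zero.mp k3).resolve_left he0
  obtain ⟨w, hw⟩ : ∃ w, n *ᵥ w ≠ 0 := by
    by_contra hcon
    push Not at hcon
    apply hn0
    apply Matrix.ext_of_mulVec_single
    intro i
    rw [hcon, zero_mulVec]
  set v := n *ᵥ w with hv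
  have hnv : n *ᵥ v = 0 := by rw [hv, mulVec_mulVec, hnn, zero_mulVec]
  refine ⟨v, hw, fun h _ => ?_⟩
  set H := (ρ h).val with hH
  set H' := (ρ h⁻¹).val with hH'
  have hHH' : H * H' = 1 := by rw [hH, hH', ← Units.val_mul, ← map_mul, mul_inv_cancel, map_one]; rfl
  have hH'H : H' * H = 1 := by rw [hH, hH', ← Units.val_mul, ← map_mul, inv_mul_cancel, map_one]; rfl
  set m := H * n * H' with hm
  have hmtr : m.trace = 0 := by
    rw [hm, Matrix.trace_mul_cycle, hH'H, one_mul, hntr]
  have hnm : (n * m).trace = 0 := by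
    have hg : h * u * h⁻¹ ∈ K := Subgroup.Normal.conj_mem inferInstance u hu h
    have hρ : (ρ (h * u * h⁻¹)).val = m + e • (1 : Matrix (Fin 2) (Fin 2) F) := by
      have : U = n + e • (1 : Matrix (Fin 2) (Fin 2) F) := by rw [hn, sub_add_cancel]
      rw [map_mul, map_mul, Units.val_mul, Units.val_mul, ← hU, ← hH, ← hH', this, mul_add, add_mul,
        mul_smul_comm, smul_mul_assoc, mul_one, hHH']
    have h3 := key _ hg (by
      rw [map_mul, map_mul, Units.val_mul, Units.val_mul, Matrix.det_mul, Matrix.det_mul, hud,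
        mul_one, ← Matrix.det_mul, ← hH, ← hH', hHH', Matrix.det_one])
    rw [hρ, mul_add, Matrix.trace_add, mul_smul_comm, mul_one, Matrix.trace_smul, hntr, smul_zero,
      add_zero] at h3
    exact h3
  have hanti := pol_two hntr hmtr hnm
  have hmv : m *ᵥ (H *ᵥ v) = 0 := by
    rw [mulVec_mulVec, hm, mul_assoc, hH'H, mul_one, ← mulVec_mulVec, hnv, mulVec_zero]
  have hHv : H *ᵥ v ≠ 0 := mulVec_ne_zero h hw
  have hm0 : m ≠ 0 := by
    intro h0
    apply hn0
    have : n = H' * m * H := by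
      rw [hm, ← mul_assoc, ← mul_assoc, hH'H, one_mul, mul_assoc, hH'H, mul_one]
    rw [this, h0, mul_zero, zero_mul]
  have h4 : m *ᵥ (n *ᵥ (H *ᵥ v)) = 0 := by
    rw [mulVec_mulVec]
    have : m * n = -(n * m) := by rw [hanti, neg_neg]
    rw [this, neg_mulVec, ← mulVec_mulVec, hmv, mulVec_zero, neg_zero]
  obtain ⟨a, ha⟩ := exists_smul_of_mulVec_eq_zero hm0 hHv hmv h4
  have h5 : n *ᵥ (n *ᵥ (H *ᵥ v)) = 0 := by rw [mulVec_mulVec, hnn, zero_mulVec]
  have h6 : n *ᵥ (H *ᵥ v) = 0 := by
    rw [ha, mulVec_smul, ha, smul_smul] at h5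
    rcases smul_eq_zero.mp h5 with h | h
    · have : a = 0 := mul_self_eq_zero.mp h
      rw [ha, this, zero_smul]
    · exact absurd h hHv
  exact exists_smul_of_mulVec_eq_zero hn0 hw hnv h6

/-- eigenvector of an element with eigenvalue one -/
theorem exists_fix_of_trace {M : Matrix (Fin 2) (Fin 2) F} (h : M.trace = 1 + M.det) :
    ∃ v : Fin 2 → F, v ≠ 0 ∧ M *ᵥ v = v := by
  have hdet0 : (M - 1).det = 0 := by
    rw [Matrix.trace_fin_two, Matrix.det_fin_two] at h
    rw [Matrix.det_fin_two]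
    simp only [Matrix.sub_apply, Matrix.one_apply_eq, ne_eq, zero_ne_one, one_ne_zero,
      not_false_eq_true, Matrix.one_apply_ne, sub_zero]
    linear_combination -h
  obtain ⟨v, hv0, hv⟩ := Matrix.exists_mulVec_eq_zero_iff.mpr hdet0
  rw [sub_mulVec, one_mulVec] at hv
  exact ⟨v, hv0, sub_eq_zero.mp hv⟩

/-- elements of the image commuting with a non-scalar matrix having an eigenvector -/
theorem comEig_of_comm {M : Matrix (Fin 2) (Fin 2) F} {v : Fin 2 → F} (hv0 : v ≠ 0)
    (hv : M *ᵥ v = v) (hM : M ≠ 1) (hc : ∀ h : Γ, (ρ h).val * M = M * (ρ h).val) :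
    ComEig ρ ⊤ v := by
  refine ⟨hv0, fun h _ => ?_⟩
  have hn : M - 1 ≠ 0 := fun h0 => hM (sub_eq_zero.mp h0)
  refine exists_smul_of_mulVec_eq_zero hn hv0 ?_ ?_
  · rw [sub_mulVec, one_mulVec, hv, sub_self]
  · rw [sub_mulVec, one_mulVec, mulVec_mulVec, ← hc, ← mulVec_mulVec, hv, sub_self]

/-- unipotent matrices of determinant one and trace two with a fixed vector -/
theorem exists_trace_ne (h2 : (2 : F) ≠ 0) (hirr : ∀ v, ¬ ComEig ρ ⊤ v) {c : Γ}
    (hcc : c * c = 1) (hcd : (ρ c).val.det = -1) (K : Subgroup Γ) [K.Normal]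
    (hK : commutator Γ ≤ K) : ∃ g ∈ K, (ρ g).val.trace ≠ 1 + (ρ g).val.det := by
  by_contra hcon
  push Not at hcon
  -- elements of determinant one in `K` are trivial
  have h1 : ∀ g ∈ K, (ρ g).val.det = 1 → (ρ g).val = 1 := by
    intro g hg hd
    by_contra hne
    have htr : (ρ g).val.trace = 2 := by rw [hcon g hg, hd]; norm_num
    obtain ⟨v, hv⟩ := exists_comEig_of_unip h2 (K := K) (fun g hg hd => by
      left
      rw [hcon g hg, hd]; norm_num) hg hd hne (fun h => by
        rw [h, Matrix.trace_neg, Matrix.trace_one, Fintype.card_fin] at htr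
        have h4 : (2 : F) * 2 = 0 := by linear_combination (-1 : F) * htr
        exact h2 (mul_self_eq_zero.mp h4))
    exact hirr v hv
  have hmul : ∀ a b : Γ, (ρ (a * b)).val = (ρ a).val * (ρ b).val := fun a b => by
    rw [map_mul, Units.val_mul]
  have hinv : ∀ a : Γ, (ρ a).val * (ρ a⁻¹).val = 1 := fun a => by
    rw [← hmul, mul_inv_cancel, map_one]; rfl
  have hinv' : ∀ a : Γ, (ρ a⁻¹).val * (ρ a).val = 1 := fun a => by
    rw [← hmul, inv_mul_cancel, map_one]; rfl
  -- elements of `K` are central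
  have h3 : ∀ g : Γ, ∀ k ∈ K, (ρ g).val * (ρ k).val = (ρ k).val * (ρ g).val := by
    intro g k hk
    have h4 : g * k * g⁻¹ * k⁻¹ ∈ K :=
      K.mul_mem (Subgroup.Normal.conj_mem inferInstance k hk g) (K.inv_mem hk)
    have h5 := h1 _ h4 (by
      rw [hmul, hmul, hmul, Matrix.det_mul, Matrix.det_mul, Matrix.det_mul]
      have e1 := congrArg Matrix.det (hinv g)
      have e2 := congrArg Matrix.det (hinv k)
      rw [Matrix.det_mul, Matrix.det_one] at e1 e2
      linear_combination (ρ k).val.det * (ρ k⁻¹).val.det * e1 + e2)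
    rw [hmul, hmul, hmul] at h5
    have h6 : (ρ g).val * (ρ k).val * (ρ g⁻¹).val * (ρ k⁻¹).val * ((ρ k).val * (ρ g).val) =
        (ρ g).val * (ρ k).val := by
      rw [mul_assoc _ (ρ k⁻¹).val, ← mul_assoc (ρ k⁻¹).val, hinv', one_mul, mul_assoc _ (ρ g⁻¹).val,
        hinv', mul_one]
    rw [h5, one_mul] at h6
    exact h6.symm
  -- `K` is trivial
  have h4 : ∀ k ∈ K, (ρ k).val = 1 := by
    intro k hk
    by_contra hne
    obtain ⟨v, hv0, hv⟩ := exists_fix_of_trace (hcon k hk)
    exact hirr v (comEig_of_comm hv0 hv hne fun g => h3 g k hk)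
  -- the image is abelian
  have h5 : ∀ g h : Γ, (ρ g).val * (ρ h).val = (ρ h).val * (ρ g).val := by
    intro g h
    have h6 : g * h * g⁻¹ * h⁻¹ ∈ K := hK (Subgroup.commutator_mem_commutator
      (Subgroup.mem_top g) (Subgroup.mem_top h))
    have h7 := h4 _ h6
    rw [hmul, hmul, hmul] at h7
    have h8 : (ρ g).val * (ρ h).val * (ρ g⁻¹).val * (ρ h⁻¹).val * ((ρ h).val * (ρ g).val) =
        (ρ g).val * (ρ h).val := by
      rw [mul_assoc _ (ρ h⁻¹).val, ← mul_assoc (ρ h⁻¹).val, hinv', one_mul, mul_assoc _ (ρ g⁻¹).val,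
        hinv', mul_one]
    rw [h7, one_mul] at h8
    exact h8.symm
  have hC : (ρ c).val * (ρ c).val = 1 := by rw [← hmul, hcc, map_one]; rfl
  obtain ⟨v, hv0, hv⟩ := involution_eigen h2 hC hcd (one_mul (1 : F))
  rw [one_smul] at hv
  refine hirr v (comEig_of_comm hv0 hv (fun h => ?_) fun g => h5 g c)
  rw [h, Matrix.det_one] at hcd
  apply h2
  linear_combination hcd

/-- **Elements with no eigenvalue `±1`.** -/
theorem exists_trace_sq_ne (h2 : (2 : F) ≠ 0) (hirr : ∀ v, ¬ ComEig ρ ⊤ v) {c : Γ}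
    (hcc : c * c = 1) (hcd : (ρ c).val.det = -1) :
    ∃ g, (ρ g).val.trace ^ 2 ≠ (1 + (ρ g).val.det) ^ 2 := by
  by_contra hcon
  push Not at hcon
  have hpm : ∀ g, (ρ g).val.trace = 1 + (ρ g).val.det ∨ (ρ g).val.trace = -(1 + (ρ g).val.det) :=
    fun g => sq_eq_sq_iff_eq_or_eq_neg.mp (hcon g)
  -- elements of determinant one are `±1`
  have h1 : ∀ g, (ρ g).val.det = 1 → (ρ g).val = 1 ∨ (ρ g).val = -1 := by
    intro g hd
    by_contra hne
    push Not at hne
    obtain ⟨v, hv⟩ := exists_comEig_of_unip h2 (K := (⊤ : Subgroup Γ)) (fun g _ hd => by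
      have := hpm g
      rw [hd] at this
      rcases this with h | h
      · left; rw [h]; norm_num
      · right; rw [h]; norm_num) (Subgroup.mem_top g) hd hne.1 hne.2
    exact hirr v hv
  have hmul : ∀ a b : Γ, (ρ (a * b)).val = (ρ a).val * (ρ b).val := fun a b => by
    rw [map_mul, Units.val_mul]
  have hinv : ∀ a : Γ, (ρ a).val * (ρ a⁻¹).val = 1 := fun a => by
    rw [← hmul, mul_inv_cancel, map_one]; rfl
  have hinv' : ∀ a : Γ, (ρ a⁻¹).val * (ρ a).val = 1 := fun a => by
    rw [← hmul, inv_mul_cancel, map_one]; rfl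
  have hC : (ρ c).val * (ρ c).val = 1 := by rw [← hmul, hcc, map_one]; rfl
  have hone : (1 : Matrix (Fin 2) (Fin 2) F) ≠ 0 := one_ne_zero
  -- all elements commute with `c`
  have h3 : ∀ g : Γ, (ρ g).val * (ρ c).val = (ρ c).val * (ρ g).val := by
    intro g
    have hcomm : (ρ (g * c * g⁻¹ * c⁻¹)).val * ((ρ c).val * (ρ g).val) =
        (ρ g).val * (ρ c).val := by
      rw [hmul, hmul, hmul, mul_assoc _ (ρ c⁻¹).val, ← mul_assoc (ρ c⁻¹).val, hinv', one_mul,
        mul_assoc _ (ρ g⁻¹).val, hinv', mul_one]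
    have hd : (ρ (g * c * g⁻¹ * c⁻¹)).val.det = 1 := by
      rw [hmul, hmul, hmul, Matrix.det_mul, Matrix.det_mul, Matrix.det_mul]
      have e1 := congrArg Matrix.det (hinv g)
      have e2 := congrArg Matrix.det (hinv c)
      rw [Matrix.det_mul, Matrix.det_one] at e1 e2
      linear_combination (ρ c).val.det * (ρ c⁻¹).val.det * e1 + e2
    rcases h1 _ hd with h | h
    · rw [h, one_mul] at hcomm
      exact hcomm.symm
    · rw [h, neg_mul, one_mul] at hcomm
      -- the trace of `g` vanishes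
      have htr : (ρ g).val.trace = 0 := by
        have e1 : (ρ g).val = -((ρ c).val * (ρ g).val * (ρ c).val) := by
          rw [← neg_mul, hcomm, mul_assoc, hC, mul_one]
        have e2 := congrArg Matrix.trace e1
        rw [Matrix.trace_neg, Matrix.trace_mul_cycle, hC, one_mul] at e2
        have e3 : (2 : F) * (ρ g).val.trace = 0 := by linear_combination e2
        exact (mul_eq_zero.mp e3).resolve_left h2
      have hgd : (ρ g).val.det = -1 := by
        rcases hpm g with h | h <;> rw [htr] at h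
        · linear_combination -h
        · linear_combination h
      have hgc : (ρ (g * c)).val.det = 1 := by
        rw [hmul, Matrix.det_mul, hgd, hcd]
        norm_num
      have hg : (ρ g).val = (ρ (g * c)).val * (ρ c).val := by
        rw [hmul, mul_assoc, hC, mul_one]
      rcases h1 _ hgc with h | h
      · rw [hg, h, one_mul]
      · rw [hg, h, neg_mul, one_mul, neg_mul, mul_neg]
  obtain ⟨v, hv0, hv⟩ := involution_eigen h2 hC hcd (one_mul (1 : F))
  rw [one_smul] at hv
  refine hirr v (comEig_of_comm hv0 hv (fun h => ?_) fun g => h3 g)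
  rw [h, Matrix.det_one] at hcd
  apply h2
  linear_combination hcd

end Fermat.Agent.RT.LR
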