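import Fermat.Agent.RT.GroupRing

set_option autoImplicit false
set_option maxHeartbeats 400000
set_option linter.style.haveILetI false
set_option linter.unusedSectionVars false
set_option linter.unusedVariables false

/-!
# Group rings as quotients of power series rings
-/

open IsLocalRing MvPowerSeries

namespace Fermat.Agent.RT

/-- A product of cyclic groups of order `p ^ m i`, with its generators. -/
structure GenGroup (p r : ℕ) (D : Type) [CommGroup D] where
  δ : Fin r → D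
  m : Fin r → ℕ
  pow : ∀ i, δ i ^ p ^ m i = 1
  gen : Subgroup.closure (Set.range δ) = ⊤
  lift : ∀ (B : Type) [CommRing B] (u : Fin r → B), (∀ i, u i ^ p ^ m i = 1) →
    ∃ φ : D →* B, ∀ i, φ (δ i) = u i

namespace GenGroup

variable {p r : ℕ} {D : Type} [CommGroup D] (G : GenGroup p r D)

include G in
lemma exists_pow (g : D) : ∃ k, g ^ p ^ k = 1 := by
  have hg : g ∈ Subgroup.closure (Set.range G.δ) := by rw [G.gen]; trivial
  induction hg using Subgroup.closure_induction with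
  | mem x hx =>
    obtain ⟨i, rfl⟩ := hx
    exact ⟨G.m i, G.pow i⟩
  | one => exact ⟨0, by simp⟩
  | mul x y _ _ hx hy =>
    obtain ⟨a, ha⟩ := hx
    obtain ⟨b, hb⟩ := hy
    refine ⟨a + b, ?_⟩
    rw [mul_pow, pow_add, pow_mul, ha, one_pow, one_mul, mul_comm, pow_mul, hb, one_pow]
  | inv x _ hx =>
    obtain ⟨a, ha⟩ := hx
    exact ⟨a, by rw [inv_pow, ha, inv_one]⟩

lemma exists_prime_pow_eq {g : D} {k : ℕ} (h : g ^ p ^ k = 1) (hp : 0 < p) :
    g⁻¹ = g ^ (p ^ k - 1) := by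
  rw [inv_eq_iff_mul_eq_one, ← pow_succ', Nat.sub_add_cancel (Nat.one_le_pow _ _ hp), h]

/-- The subring generated by the generators contains all group elements. -/
lemma of_mem {𝒪 : Type} [CommRing 𝒪] (hp : 0 < p) (S : Subring (MonoidAlgebra 𝒪 D))
    (hS : ∀ i, MonoidAlgebra.of 𝒪 D (G.δ i) ∈ S) (g : D) : MonoidAlgebra.of 𝒪 D g ∈ S := by
  have hg : g ∈ Subgroup.closure (Set.range G.δ) := by rw [G.gen]; trivial
  induction hg using Subgroup.closure_induction with
  | mem x hx =>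
    obtain ⟨i, rfl⟩ := hx
    exact hS i
  | one => rw [map_one]; exact S.one_mem
  | mul x y _ _ hx hy => rw [map_mul]; exact S.mul_mem hx hy
  | inv x _ hx =>
    obtain ⟨a, ha⟩ := G.exists_pow x
    rw [exists_prime_pow_eq ha hp, map_pow]
    exact S.pow_mem hx _

/-- The ideal generated by the `δ i - 1` contains all the `g - 1`. -/
lemma of_sub_one_mem {𝒪 : Type} [CommRing 𝒪] (I : Ideal (MonoidAlgebra 𝒪 D))
    (hI : ∀ i, MonoidAlgebra.of 𝒪 D (G.δ i) - 1 ∈ I) (g : D) :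
    MonoidAlgebra.of 𝒪 D g - 1 ∈ I := by
  have hg : g ∈ Subgroup.closure (Set.range G.δ) := by rw [G.gen]; trivial
  induction hg using Subgroup.closure_induction with
  | mem x hx =>
    obtain ⟨i, rfl⟩ := hx
    exact hI i
  | one => rw [map_one, sub_self]; exact I.zero_mem
  | mul x y _ _ hx hy =>
    rw [map_mul]
    have : MonoidAlgebra.of 𝒪 D x * MonoidAlgebra.of 𝒪 D y - 1 =
        MonoidAlgebra.of 𝒪 D x * (MonoidAlgebra.of 𝒪 D y - 1) + (MonoidAlgebra.of 𝒪 D x - 1) := by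
      ring
    rw [this]
    exact I.add_mem (I.mul_mem_left _ hy) hx
  | inv x _ hx =>
    have : MonoidAlgebra.of 𝒪 D x⁻¹ - 1 = -(MonoidAlgebra.of 𝒪 D x⁻¹ *
        (MonoidAlgebra.of 𝒪 D x - 1)) := by
      rw [mul_sub, ← map_mul, inv_mul_cancel, map_one]; ring
    rw [this]
    exact (I.neg_mem_iff).mpr (I.mul_mem_left _ hx)

end GenGroup

section Ev

variable {𝒪 : Type} [CommRing 𝒪] [IsDomain 𝒪] [IsDiscreteValuationRing 𝒪]
  [IsAdicComplete (maximalIdeal 𝒪) 𝒪]
  {p r : ℕ} [Fact p.Prime] {D : Type} [CommGroup D] [Finite D] (G : GenGroup p r D)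
  (hp : (p : 𝒪) ∈ maximalIdeal 𝒪) [IsLocalRing (MonoidAlgebra 𝒪 D)]

lemma isAdicComplete_groupRing :
    IsAdicComplete (maximalIdeal (MonoidAlgebra 𝒪 D)) (MonoidAlgebra 𝒪 D) := by
  haveI : IsLocalHom (algebraMap 𝒪 (MonoidAlgebra 𝒪 D)) := by
    refine ⟨fun a ha => ?_⟩
    have := ha.map (aug 𝒪 D)
    rwa [AlgHom.commutes] at this
  exact IsLocalRing.isAdicComplete_of_module_finite (𝒪 := 𝒪)

lemma of_sub_one_mem_maximalIdeal (g : D) :
    MonoidAlgebra.of 𝒪 D g - 1 ∈ maximalIdeal (MonoidAlgebra 𝒪 D) := by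
  rw [mem_maximalIdeal, mem_nonunits_iff]
  intro h
  have := h.map (aug 𝒪 D)
  rw [map_sub, aug_of, map_one, sub_self] at this
  exact not_isUnit_zero this

lemma algebraMap_mem_maximalIdeal {b : 𝒪} (hb : b ∈ maximalIdeal 𝒪) :
    algebraMap 𝒪 (MonoidAlgebra 𝒪 D) b ∈ maximalIdeal (MonoidAlgebra 𝒪 D) := by
  rw [mem_maximalIdeal, mem_nonunits_iff]
  intro h
  have := h.map (aug 𝒪 D)
  rw [AlgHom.commutes] at this
  exact hb this

lemma aug_mem_maximalIdeal {x : MonoidAlgebra 𝒪 D}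
    (hx : x ∈ maximalIdeal (MonoidAlgebra 𝒪 D)) : aug 𝒪 D x ∈ maximalIdeal 𝒪 := by
  rw [mem_maximalIdeal, mem_nonunits_iff] at hx ⊢
  intro h
  apply hx
  have h1 : x = algebraMap 𝒪 _ (aug 𝒪 D x) + (x - algebraMap 𝒪 _ (aug 𝒪 D x)) := by ring
  have h2 := sub_aug_mem (fun g => of_sub_one_mem_maximalIdeal g) x
  by_contra hne
  have h3 : algebraMap 𝒪 _ (aug 𝒪 D x) ∈ maximalIdeal (MonoidAlgebra 𝒪 D) := by
    have : algebraMap 𝒪 _ (aug 𝒪 D x) = x - (x - algebraMap 𝒪 _ (aug 𝒪 D x)) := by ring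
    rw [this]
    exact Ideal.sub_mem _ hne h2
  exact h3 (h.map _)

variable [IsAdicComplete (maximalIdeal (MonoidAlgebra 𝒪 D)) (MonoidAlgebra 𝒪 D)]

/-- The evaluation of power series at the `δ i - 1`. -/
noncomputable def ev : MvPowerSeries (Fin r) 𝒪 →+* MonoidAlgebra 𝒪 D :=
  evalHom (maximalIdeal (MonoidAlgebra 𝒪 D)) (algebraMap 𝒪 _)
    (fun i => MonoidAlgebra.of 𝒪 D (G.δ i) - 1) (fun i => of_sub_one_mem_maximalIdeal _)

lemma ev_C (b : 𝒪) : ev G (C b) = algebraMap 𝒪 _ b := by rw [ev, evalHom_C]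

lemma ev_X (i : Fin r) : ev (𝒪 := 𝒪) G (X i) = MonoidAlgebra.of 𝒪 D (G.δ i) - 1 := by
  rw [ev, evalHom_X]

lemma ev_surjective : Function.Surjective (ev (𝒪 := 𝒪) G) := by
  have h1 : ∀ g : D, MonoidAlgebra.of 𝒪 D g ∈ (ev (𝒪 := 𝒪) G).range := by
    refine G.of_mem (Fact.out : p.Prime).pos _ fun i => ⟨1 + X i, ?_⟩
    rw [map_add, map_one, ev_X]; ring
  intro x
  induction x using MonoidAlgebra.induction_on with
  | of g => exact h1 g
  | add x y hx hy =>
    obtain ⟨a, rfl⟩ := hx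
    obtain ⟨b, rfl⟩ := hy
    exact ⟨a + b, map_add _ _ _⟩
  | smul c x hx =>
    obtain ⟨a, rfl⟩ := hx
    exact ⟨C c * a, by rw [map_mul, ev_C, Algebra.smul_def]⟩

lemma aug_ev (s : MvPowerSeries (Fin r) 𝒪) : aug 𝒪 D (ev G s) = constantCoeff s := by
  have : ((aug 𝒪 D : MonoidAlgebra 𝒪 D →+* 𝒪).comp (ev G)) =
      (constantCoeff : MvPowerSeries (Fin r) 𝒪 →+* 𝒪) := by
    refine ringHom_ext_of_hausdorff (I := maximalIdeal 𝒪) (fun b hb => ?_) (fun i => ?_)
      (fun b => ?_) (fun i => ?_)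
    · rw [RingHom.comp_apply, ev_C]
      change aug 𝒪 D (algebraMap _ _ b) ∈ _
      rw [AlgHom.commutes]; exact hb
    · rw [RingHom.comp_apply, ev_X]
      change aug 𝒪 D _ ∈ _
      rw [map_sub, aug_of, map_one, sub_self]; exact Ideal.zero_mem _
    · rw [RingHom.comp_apply, ev_C, constantCoeff_C]
      change aug 𝒪 D (algebraMap _ _ b) = _
      rw [AlgHom.commutes]; rfl
    · rw [RingHom.comp_apply, ev_X, constantCoeff_X]
      change aug 𝒪 D _ = _
      rw [map_sub, aug_of, map_one, sub_self]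
  exact RingHom.congr_fun this s

lemma ker_ev_le_constantCoeff : RingHom.ker (ev (𝒪 := 𝒪) G) ≤
    RingHom.ker (constantCoeff : MvPowerSeries (Fin r) 𝒪 →+* 𝒪) := by
  intro s hs
  rw [RingHom.mem_ker] at hs ⊢
  rw [← aug_ev G, hs, map_zero]

include hp in
lemma ker_ev_le {k : ℕ} (hk : ∀ i, k ≤ G.m i + 1) : RingHom.ker (ev (𝒪 := 𝒪) G) ≤
    maximalIdeal (MvPowerSeries (Fin r) 𝒪) ^ k := by
  set S := MvPowerSeries (Fin r) 𝒪
  set Q := S ⧸ maximalIdeal S ^ k
  have hpS : (p : S) ∈ maximalIdeal S := by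
    have := C_mem_maximalIdeal (σ := Fin r) hp
    rwa [map_natCast] at this
  obtain ⟨φ, hφ⟩ := G.lift Q (fun i => Ideal.Quotient.mk _ (1 + X i)) (fun i => by
    rw [← map_pow, ← map_one (Ideal.Quotient.mk _), Ideal.Quotient.eq]
    exact Ideal.pow_le_pow_right (hk i)
      (one_add_pow_prime_pow_sub_one_mem hpS (Fact.out : p.Prime).two_le
        (X_mem_maximalIdeal' i) (G.m i)))
  letI : Algebra 𝒪 Q := ((Ideal.Quotient.mk (maximalIdeal S ^ k)).comp C).toAlgebra
  let w : MonoidAlgebra 𝒪 D →ₐ[𝒪] Q := MonoidAlgebra.lift 𝒪 Q D φ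
  have hw : ∀ i, w (MonoidAlgebra.of 𝒪 D (G.δ i)) = Ideal.Quotient.mk _ (1 + X i) := by
    intro i
    rw [MonoidAlgebra.lift_of, hφ]
  have h1 : (w : MonoidAlgebra 𝒪 D →+* Q).comp (ev G) = Ideal.Quotient.mk (maximalIdeal S ^ k) := by
    haveI : IsHausdorff ((maximalIdeal S).map (Ideal.Quotient.mk (maximalIdeal S ^ k))) Q := by
      refine ⟨fun x hx => ?_⟩
      have := hx k
      rw [SModEq.zero, smul_eq_mul, Ideal.mul_top, ← Ideal.map_pow,
        Ideal.map_quotient_self] at this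
      exact this
    refine ringHom_ext_of_hausdorff
      (I := (maximalIdeal S).map (Ideal.Quotient.mk (maximalIdeal S ^ k)))
      (fun b hb => ?_) (fun i => ?_) (fun b => ?_) (fun i => ?_)
    · rw [RingHom.comp_apply, ev_C]
      change w (algebraMap _ _ b) ∈ _
      rw [AlgHom.commutes]
      exact Ideal.mem_map_of_mem _ (C_mem_maximalIdeal hb)
    · rw [RingHom.comp_apply, ev_X]
      change w _ ∈ _
      rw [map_sub, hw, map_one, map_add, map_one, add_sub_cancel_left]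
      exact Ideal.mem_map_of_mem _ (X_mem_maximalIdeal' i)
    · rw [RingHom.comp_apply, ev_C]
      change w (algebraMap _ _ b) = _
      rw [AlgHom.commutes]; rfl
    · rw [RingHom.comp_apply, ev_X]
      change w _ = _
      rw [map_sub, hw, map_one, map_add, map_one, add_sub_cancel_left]
  intro s hs
  rw [RingHom.mem_ker] at hs
  have h2 := RingHom.congr_fun h1 s
  rw [RingHom.comp_apply, hs, map_zero] at h2
  exact Ideal.Quotient.eq_zero_iff_mem.mp h2.symm

end Ev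

end Fermat.Agent.RT
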