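import Fermat.Agent.RT.HeckeRep
import Fermat.Agent.RT.HFinal
import Fermat.Agent.RT.TWGroup
import Fermat.Agent.RT.LRGrp
import Fermat.Agent.Pet.HMod

set_option autoImplicit false
set_option maxHeartbeats 400000
set_option linter.style.haveILetI false
set_option linter.unusedSectionVars false
set_option linter.unusedVariables false

/-!
# The Hecke package: definitions
-/

open IsLocalRing CongruenceSubgroup Matrix.SpecialLinearGroup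
open scoped MatrixGroups
open Fermat.Agent.ESCore Fermat.Agent.ESCore.UnivG
open Fermat.Agent.ESCore.Univ (Idx)
open Fermat.Agent.ESCore.Gal (dU dLift dU_dLift)

noncomputable section

namespace Fermat.Agent.RT

open Ihara

/-! ### The groups -/

/-- The group of a Taylor–Wiles level: the special part and the Taylor–Wiles part. -/
abbrev DG (p : ℕ) {r : ℕ} (e : Fin r → ℕ) : Type :=
  Multiplicative (ZMod p) × (∀ i : Fin r, Multiplicative (ZMod (p ^ e i)))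

section Psi

variable {N q₀ p r : ℕ} {q : Fin r → ℕ} {e : Fin r → ℕ}

/-- The character of a Taylor–Wiles level. -/
def psiN (h₀ : q₀ ∣ N) (h₁ : ∀ i, q i ∣ N) (ψ₀ : (ZMod q₀)ˣ →* Multiplicative (ZMod p))
    (ψ₁ : ∀ i, (ZMod (q i))ˣ →* Multiplicative (ZMod (p ^ e i))) : (ZMod N)ˣ →* DG p e :=
  (ψ₀.comp (ZMod.unitsMap h₀)).prod (Pi.monoidHom fun i => (ψ₁ i).comp (ZMod.unitsMap (h₁ i)))

end Psi

/-! ### The hypotheses -/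

section Base

variable {𝒪 : Type} [CommRing 𝒪] [IsDomain 𝒪] [IsDiscreteValuationRing 𝒪]
  [IsAdicComplete (maximalIdeal 𝒪) 𝒪] {K : Type} [Field K] [Algebra (ResidueField 𝒪) K]

/-- The fixed hypotheses. -/
structure HBase (p M q₀ : ℕ) (S₀ : Finset ℕ) (a : ℕ → 𝒪) (ρ : GQ →* GL (Fin 2) K)
    (χ : GQ →* 𝒪ˣ) : Prop where
  hp : p.Prime
  hp2 : p ≠ 2
  hp𝒪 : (p : 𝒪) ∈ maximalIdeal 𝒪
  h8 : IsUnit (8 : 𝒪)
  hq₀ : q₀.Prime
  hM : M ≠ 0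
  hcop : M.Coprime q₀
  hpq : p ∣ q₀ - 1
  hS₀ : ∀ l : ℕ, l.Prime → (l ∈ S₀ ↔ l ∣ M * q₀ ∨ l = p)
  /-- no problem with the elements of order three -/
  h3 : IsUnit (3 : 𝒪) ∨ ∀ g : Gamma0 (M * q₀), g ^ 3 = 1 → g = 1
  hχ : IsCyc p χ
  /-- `ρ` has finite image -/
  fin : ∃ L : IntermediateField ℚ Qb, FiniteDimensional ℚ L ∧
    ∀ σ : GQ, (∀ x ∈ L, σ x = x) → ρ σ = 1
  irr : ∀ v, ¬ ComEig ρ ⊤ v
  frob : ∀ l : ℕ, l.Prime → l ∉ S₀ → ∀ B : ValuationSubring Qb, B.LiesOverPrime l →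
    ∀ σ : GQ, B.IsFrobeniusAt σ l → (ρ σ : Matrix (Fin 2) (Fin 2) K).det = l ∧
      (ρ σ : Matrix (Fin 2) (Fin 2) K).trace = algebraMap (ResidueField 𝒪) K (residue 𝒪 (a l))

variable (p : ℕ) (χ : GQ →* 𝒪ˣ)

/-- **The Hecke algebra of level zero.** -/
structure HZero (N₀ : ℕ) [NeZero N₀] (S₀ : Finset ℕ) (a : ℕ → 𝒪) (d : ℕ) where
  /-- the primes used for the localisation; they have to be avoided later -/
  I : Finset ℕ
  hI : ∀ l ∈ I, l.Prime ∧ l ∉ S₀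
  hIa : HM0 N₀ (I : Set ℕ) a = HM0 N₀ {l : ℕ | l.Prime ∧ l ∉ S₀} a
  m : Module.Basis (Fin d) 𝒪 (HM0 N₀ (I : Set ℕ) a)
  T : Type
  [comm : CommRing T]
  [alg : Algebra 𝒪 T]
  [fin : Module.Finite 𝒪 T]
  [loc : IsLocalRing T]
  ι : T →ₐ[𝒪] Matrix (Fin d) (Fin d) 𝒪
  x : Idx N₀ S₀ → T
  t : GQ → T
  hι : Function.Injective ι
  gen : Algebra.adjoin 𝒪 (Set.range x) = ⊤
  sep : ∀ i, Pet.SepInt (x i)
  hx : ∀ i j, hec (Gamma1_le N₀) le_rfl i.1 (m j).1 = ∑ k, ι (x i) k j • (m k).1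
  hxa : ∀ i, x i - algebraMap 𝒪 T (a i.1) ∈ maximalIdeal T
  hres : ∀ y : T, ∃ b, y - algebraMap 𝒪 T b ∈ maximalIdeal T
  hm : ∀ b, algebraMap 𝒪 T b ∈ maximalIdeal T ↔ b ∈ maximalIdeal 𝒪
  ht : CycPs χ p {q | q ∣ N₀ ∨ q = p} t
  hfr : ∀ i : Idx N₀ S₀, ∀ B : ValuationSubring Qb, B.LiesOverPrime i.1 → ∀ σ : GQ,
    B.IsFrobeniusAt σ i.1 → t σ = x i

attribute [instance] HZero.comm HZero.alg HZero.fin HZero.loc

variable {p χ}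

/-- **The Hecke algebra of a Taylor–Wiles level** -/
structure HLevel {N₀ : ℕ} [NeZero N₀] {S₀ : Finset ℕ} {a : ℕ → 𝒪} {d : ℕ}
    (Z : HZero p χ N₀ S₀ a d) (N : ℕ) [NeZero N] (S : Finset ℕ) {D : Type} [CommGroup D]
    [Finite D] (ψ : (ZMod N)ˣ →* D) where
  π : TG (le_GK (ψ := ψ)) GK_le S →+* Matrix (Fin d) (Fin d) (MonoidAlgebra 𝒪 D)
  hπ : ∀ δ, π (genT le_GK GK_le S (Sum.inr δ)) = scal 𝒪 d (ψ (dU N δ))
  sep : ∀ i, Pet.SepInt (π (genT le_GK GK_le S i))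
  T : Type
  [comm : CommRing T]
  [alg : Algebra 𝒪 T]
  [fin : Module.Finite 𝒪 T]
  [loc : IsLocalRing T]
  ι : T →ₐ[𝒪] Matrix (Fin d) (Fin d) (MonoidAlgebra 𝒪 D)
  x : Idx N S → T
  t : GQ → T
  hι : Function.Injective ι
  gen : Algebra.adjoin 𝒪 (Set.range x) = ⊤
  hx : ∀ i, ι (x i) = π (genT le_GK GK_le S (Sum.inl i)) *
    scal 𝒪 d ((half (ψ (dU N (sigmaD N i.1))))⁻¹)
  hxa : ∀ i, x i - algebraMap 𝒪 T (a i.1) ∈ maximalIdeal T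
  hres : ∀ y : T, ∃ b, y - algebraMap 𝒪 T b ∈ maximalIdeal T
  hm : ∀ b, algebraMap 𝒪 T b ∈ maximalIdeal T ↔ b ∈ maximalIdeal 𝒪
  ht : CycPs χ p {q | q ∣ N ∨ q = p} t
  hfr : ∀ i : Idx N S, ∀ B : ValuationSubring Qb, B.LiesOverPrime i.1 → ∀ σ : GQ,
    B.IsFrobeniusAt σ i.1 → t σ = x i
  /-- the map to level zero -/
  pr : T →ₐ[𝒪] Z.T
  hpr : ∀ y i j, Z.ι (pr y) i j = aug 𝒪 D (ι y i j)
  hprt : ∀ σ, pr (t σ) = Z.t σ
  i₀ : Idx N S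
  hi₀ : N ∣ i₀.1 - 1
  hi₀a : IsUnit (a i₀.1 - (i₀.1 + 1))

attribute [instance] HLevel.comm HLevel.alg HLevel.fin HLevel.loc

/-- The conditions on the Taylor–Wiles primes -/
structure TWCond (p : ℕ) (S₀ I : Finset ℕ) (a : ℕ → 𝒪) {r : ℕ} (q : Fin r → ℕ) (e : Fin r → ℕ) :
    Prop where
  prime : ∀ i, (q i).Prime
  inj : Function.Injective q
  hS₀ : ∀ i, q i ∉ S₀
  hI : ∀ i, q i ∉ I
  pos : ∀ i, 0 < e i
  dvd : ∀ i, p ^ e i ∣ q i - 1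
  eig : ∀ i, ∃ α β : 𝒪, α + β - a (q i) ∈ maximalIdeal 𝒪 ∧ α * β - 1 ∈ maximalIdeal 𝒪 ∧
    IsUnit (α - β)

end Base

end Fermat.Agent.RT
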