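import Fermat.Agent.RT.HPBase

set_option autoImplicit false
set_option maxHeartbeats 400000
set_option linter.style.haveILetI false
set_option linter.unusedSectionVars false
set_option linter.unusedVariables false

/-!
# The Hecke package: change of the set of indices
-/

open IsLocalRing CongruenceSubgroup Matrix.SpecialLinearGroup
open scoped MatrixGroups
open Fermat.Agent.ESCore Fermat.Agent.ESCore.UnivG
open Fermat.Agent.ESCore.Univ (Idx)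

noncomputable section

namespace Fermat.Agent.RT.Ihara

section Nil

variable {𝒪 : Type*} [CommRing 𝒪] [IsLocalRing 𝒪] {M : Type*} [AddCommGroup M] [Module 𝒪 M]

theorem nilAt_congr {g : Module.End 𝒪 M} {s s' : 𝒪} (h : s - s' ∈ maximalIdeal 𝒪) {v : M}
    (hv : NilAt (g - s • 1) v) : NilAt (g - s' • 1) v := by
  intro j
  obtain ⟨m, hm⟩ := hv j
  refine ⟨m + j, ?_⟩
  set A := g - s • (1 : Module.End 𝒪 M) with hA
  set c := s - s' with hc
  have h1 : g - s' • (1 : Module.End 𝒪 M) = A + c • 1 := by rw [hA, hc, sub_smul]; abel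
  have hcomm : Commute A (c • (1 : Module.End 𝒪 M)) := (smul_one_commute c A).symm
  rw [h1, hcomm.add_pow, LinearMap.sum_apply]
  refine Submodule.sum_mem _ fun k hk => ?_
  have h2 : ∀ n : ℕ, (c • (1 : Module.End 𝒪 M)) ^ n = (c ^ n) • 1 := by
    intro n
    rw [smul_pow, one_pow]
  have h3 : (A ^ k * (c • (1 : Module.End 𝒪 M)) ^ (m + j - k) *
      ((m + j).choose k : Module.End 𝒪 M)) v =
      ((m + j).choose k) • (c ^ (m + j - k) • (A ^ k) v) := by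
    rw [h2, mul_smul_comm, mul_one]
    rw [smul_mul_assoc, LinearMap.smul_apply, Module.End.mul_apply, Module.End.natCast_apply,
      map_nsmul, smul_comm]
  rw [h3]
  refine nsmul_mem ?_ _
  rcases le_or_gt m k with hmk | hmk
  · refine Submodule.smul_mem _ _ ?_
    obtain ⟨i, rfl⟩ := Nat.exists_eq_add_of_le hmk
    rw [add_comm, pow_add, Module.End.mul_apply]
    exact map_mem_smul_top _ _ hm
  · refine Submodule.smul_mem_smul ?_ trivial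
    refine Ideal.pow_le_pow_right (show j ≤ m + j - k by omega) (Ideal.pow_mem_pow h _)

end Nil

section Pure

variable {𝒪 : Type*} [CommRing 𝒪] [IsDomain 𝒪] [IsDiscreteValuationRing 𝒪]
  {M : Type*} [AddCommGroup M] [Module 𝒪 M] [Module.IsTorsionFree 𝒪 M]

theorem mem_pow_smul_of {x : 𝒪} (hx : x ≠ 0) : ∃ k : ℕ, ∀ (j : ℕ) (v : M),
    x • v ∈ maximalIdeal 𝒪 ^ (j + k) • (⊤ : Submodule 𝒪 M) →
      v ∈ maximalIdeal 𝒪 ^ j • (⊤ : Submodule 𝒪 M) := by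
  obtain ⟨ϖ, hϖ⟩ := IsDiscreteValuationRing.exists_irreducible 𝒪
  obtain ⟨k, u, hu⟩ := IsDiscreteValuationRing.eq_unit_mul_pow_irreducible hx hϖ
  have h1 : ∀ (j : ℕ) (v : M), v ∈ maximalIdeal 𝒪 ^ j • (⊤ : Submodule 𝒪 M) ↔
      ∃ w : M, v = ϖ ^ j • w := by
    intro j v
    rw [hϖ.maximalIdeal_eq, Ideal.span_singleton_pow, Submodule.ideal_span_singleton_smul,
      Submodule.mem_smul_pointwise_iff_exists]
    exact ⟨fun ⟨w, _, hw⟩ => ⟨w, hw.symm⟩, fun ⟨w, hw⟩ => ⟨w, trivial, hw.symm⟩⟩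
  refine ⟨k, fun j v hv => ?_⟩
  rw [h1] at hv ⊢
  obtain ⟨w, hw⟩ := hv
  have hk : (ϖ ^ k : 𝒪) ≠ 0 := pow_ne_zero _ hϖ.ne_zero
  refine ⟨(↑u⁻¹ : 𝒪) • w, ?_⟩
  have h2 : (ϖ ^ k) • v = (ϖ ^ k) • ((ϖ ^ j) • ((↑u⁻¹ : 𝒪) • w)) := by
    have h3 : (↑u⁻¹ : 𝒪) • (x • v) = (↑u⁻¹ : 𝒪) • (ϖ ^ (j + k) • w) := by rw [hw]
    rw [hu, smul_smul, ← mul_assoc, Units.inv_mul, one_mul] at h3
    rw [h3, smul_smul, smul_smul, smul_smul]
    congr 1
    ring
  exact smul_right_injective M hk h2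

theorem nilAt_of_smul {g : Module.End 𝒪 M} {x : 𝒪} (hx : x ≠ 0) {v : M}
    (h : NilAt g (x • v)) : NilAt g v := by
  obtain ⟨k, hk⟩ := mem_pow_smul_of (M := M) hx
  intro j
  obtain ⟨n, hn⟩ := h (j + k)
  rw [map_smul] at hn
  exact ⟨n, hk j _ hn⟩

/-- Pure submodules of the same rank are equal. -/
theorem eq_of_le_of_finrank [Module.Finite 𝒪 M] {L' L : Submodule 𝒪 M} (hle : L' ≤ L)
    (hpure : ∀ (x : 𝒪) (v : M), x ≠ 0 → x • v ∈ L' → v ∈ L')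
    (hr : Module.finrank 𝒪 L ≤ Module.finrank 𝒪 L') : L' = L := by
  refine le_antisymm hle fun v hv => ?_
  set P : Submodule 𝒪 L := L'.comap L.subtype with hP
  have h1 : Module.finrank 𝒪 (L ⧸ P) + Module.finrank 𝒪 P = Module.finrank 𝒪 L :=
    Submodule.finrank_quotient_add_finrank P
  have h2 : Module.finrank 𝒪 P = Module.finrank 𝒪 L' :=
    LinearEquiv.finrank_eq (Submodule.comapSubtypeEquivOfLe hle)
  have h3 : Module.finrank 𝒪 (L ⧸ P) = 0 := by omega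
  have h4 : Module.rank 𝒪 (L ⧸ P) = 0 := by
    rw [← Module.finrank_eq_rank, h3, Nat.cast_zero]
  obtain ⟨x, hx, hx2⟩ := rank_eq_zero_iff.mp h4 (Submodule.Quotient.mk ⟨v, hv⟩)
  rw [← Submodule.Quotient.mk_smul, Submodule.Quotient.mk_eq_zero] at hx2
  exact hpure x v hx hx2

end Pure

section HM

variable {N : ℕ} {𝒪 : Type*} [CommRing 𝒪] [IsDomain 𝒪] [IsDiscreteValuationRing 𝒪]
  [IsAdicComplete (maximalIdeal 𝒪) 𝒪]

theorem mem_HM0 {I : Set ℕ} {a : ℕ → 𝒪} {v : H1 𝒪 𝒪 (Gamma0 N)} : v ∈ HM0 N I a ↔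
    ∀ i ∈ I, NilAt (hec (Gamma1_le N) le_rfl i - a i • (1 : Module.End 𝒪 (H1 𝒪 𝒪 (Gamma0 N)))) v :=
  ⟨fun h i hi => h ⟨i, hi⟩, fun h i => h i i.2⟩

theorem HM0_anti {I I' : Set ℕ} {a : ℕ → 𝒪} (h : I ⊆ I') : HM0 N I' a ≤ HM0 N I a :=
  fun _ hv => mem_HM0.mpr fun i hi => mem_HM0.mp hv i (h hi)

theorem HM0_congr {I : Set ℕ} {a a' : ℕ → 𝒪} (h : ∀ i ∈ I, a i - a' i ∈ maximalIdeal 𝒪) :
    HM0 N I a = HM0 N I a' := by
  have key : ∀ b b' : ℕ → 𝒪, (∀ i ∈ I, b i - b' i ∈ maximalIdeal 𝒪) → HM0 N I b ≤ HM0 N I b' :=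
    fun b b' h v hv => mem_HM0.mpr fun i hi => nilAt_congr (M := H1 𝒪 𝒪 (Gamma0 N)) (h i hi)
      (mem_HM0.mp hv i hi)
  exact le_antisymm (key a a' h) (key a' a fun i hi => by
    rw [← neg_sub]
    exact neg_mem (h i hi))

/-- **A finite set of indices is enough.** -/
theorem exists_finite_I [NeZero N] (J : Set ℕ) (a : ℕ → 𝒪) :
    ∃ I : Finset ℕ, (I : Set ℕ) ⊆ J ∧ HM0 N (I : Set ℕ) a = HM0 N J a := by
  classical
  have := finite_H1 (O := 𝒪) (A := 𝒪) (G := Gamma0 N)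
  have hex : ∃ n : ℕ, ∃ I : Finset ℕ, (I : Set ℕ) ⊆ J ∧
      Module.finrank 𝒪 (HM0 N (I : Set ℕ) a) = n :=
    ⟨_, ∅, by simp, rfl⟩
  obtain ⟨I, hI, hn⟩ := Nat.find_spec hex
  refine ⟨I, hI, le_antisymm (fun v hv => mem_HM0.mpr fun j hj => ?_) (HM0_anti hI)⟩
  have h1 : ((insert j I : Finset ℕ) : Set ℕ) ⊆ J := by
    rw [Finset.coe_insert]
    exact Set.insert_subset hj hI
  have h2 := Nat.find_min' hex ⟨insert j I, h1, rfl⟩
  have h3 : HM0 N ((insert j I : Finset ℕ) : Set ℕ) a = HM0 N (I : Set ℕ) a := by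
    refine eq_of_le_of_finrank (M := H1 𝒪 𝒪 (Gamma0 N)) (HM0_anti (by simp)) ?_ ?_
    · intro x v hx hv
      exact mem_HM0.mpr fun i hi => nilAt_of_smul (M := H1 𝒪 𝒪 (Gamma0 N)) hx (mem_HM0.mp hv i hi)
    · rw [hn]
      exact h2
  rw [← h3] at hv
  exact mem_HM0.mp hv j (by simp)

end HM

end Fermat.Agent.RT.Ihara
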