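import Fermat.Agent.ESG.Pair
import Fermat.Agent.ESCore.Univ
import Fermat.Agent.ESCore.TowerPar
import Fermat.Agent.RT.EigU

set_option autoImplicit false
set_option linter.unusedSectionVars false

/-!
# Parabolic homomorphisms and the period lattice
-/

open UpperHalfPlane hiding I
open Filter Complex Matrix.SpecialLinearGroup CongruenceSubgroup ModularForm Module
open Fermat.Agent.ES Fermat.Agent.ESCore Fermat.Agent.ESCore.UnivG Fermat.Agent.ESCore.Gal
open ModularCurve.Period
open scoped MatrixGroups Manifold ModularForm Topology ComplexConjugate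

noncomputable section

namespace Fermat.Agent.ESG

variable {N : ℕ} {G : Subgroup SL(2, ℤ)} (h1 : Gamma1 N ≤ G) (h0 : G ≤ Gamma0 N)

/-- complex conjugation on homomorphisms -/
def conjA : (Additive G →+ ℂ) →ₗ[ℝ] (Additive G →+ ℂ) where
  toFun c := (starRingEnd ℂ).toAddMonoidHom.comp c
  map_add' _ _ := by
    refine AddMonoidHom.ext fun γ => ?_
    exact map_add (starRingEnd ℂ) _ _
  map_smul' r c := by
    refine AddMonoidHom.ext fun γ => ?_
    change conj ((r : ℝ) • c γ) = (r : ℝ) • conj (c γ)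
    rw [Complex.real_smul, map_mul, Complex.conj_ofReal, Complex.real_smul]

theorem conjA_apply (c : Additive G →+ ℂ) (γ : Additive G) : conjA c γ = conj (c γ) := rfl

theorem conjA_mem {c : Additive G →+ ℂ} (hc : c ∈ parabolicHoms ℂ G ℂ) :
    conjA c ∈ parabolicHoms ℂ G ℂ := by
  intro γ hγ
  rw [conjA_apply, hc γ hγ, map_zero]

/-- the holomorphic and antiholomorphic periods -/
def hodge (hN : 0 < N) : (S2 G × S2 G) →ₗ[ℝ] (Additive G →+ ℂ) :=
  ((perA h1 hN).restrictScalars ℝ).comp (LinearMap.fst ℝ _ _) +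
    (conjA.comp ((perA h1 hN).restrictScalars ℝ)).comp (LinearMap.snd ℝ _ _)

theorem hodge_apply (hN : 0 < N) (f g : S2 G) (γ : Additive G) :
    hodge h1 hN (f, g) γ = perA h1 hN f γ + conj (perA h1 hN g γ) := rfl

theorem hodge_mem (hN : 0 < N) (x : S2 G × S2 G) : hodge h1 hN x ∈ parabolicHoms ℂ G ℂ :=
  add_mem (perA_mem h1 hN _) (conjA_mem (perA_mem h1 hN _))

theorem hodge_injective (hN : 0 < N) : Function.Injective (hodge (G := G) h1 hN) := by
  rw [injective_iff_map_eq_zero]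
  rintro ⟨p, q⟩ h
  have hN' : (0 : ℝ) < N := by exact_mod_cast hN
  have : NeZero N := ⟨hN.ne'⟩
  have : G.FiniteIndex := Subgroup.finiteIndex_of_le h1
  obtain ⟨P, hP, hPc⟩ := S2_primitive hN h1 p.2
  obtain ⟨Q, hQ, hQc⟩ := S2_primitive hN h1 q.2
  have key : ∀ (γ : G) (z : ℍ), (P ((γ : SL(2, ℤ)) • z) - P z) +
      conj (Q ((γ : SL(2, ℤ)) • z) - Q z) = 0 := by
    intro γ z
    have h2 := DFunLike.congr_fun h (Additive.ofMul γ)
    rw [hodge_apply, perA_apply h1 hN p hP γ z, perA_apply h1 hN q hQ γ z] at h2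
    exact h2
  have hK1 : ∃ c, ∀ z, (P + Q) z = c := by
    refine const_of_re_invariant hN' (hPc.add hQc) (Γ := G) fun γ hγ z => ?_
    have h1 := congrArg Complex.re (key ⟨γ, hγ⟩ z)
    simp only [Complex.add_re, Complex.sub_re, Complex.conj_re, Complex.zero_re] at h1
    simp only [Pi.add_apply, Complex.add_re]
    linarith
  have hK2 : ∃ c, ∀ z, ((-I) • (P + (-1 : ℂ) • Q)) z = c := by
    refine const_of_re_invariant hN' ((hPc.add (hQc.smul (-1))).smul (-I)) (Γ := G)
      fun γ hγ z => ?_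
    have h1 := congrArg Complex.im (key ⟨γ, hγ⟩ z)
    simp only [Complex.add_im, Complex.sub_im, Complex.conj_im, Complex.zero_im] at h1
    simp only [Pi.smul_apply, Pi.add_apply, smul_eq_mul, Complex.mul_re, Complex.neg_re,
      Complex.neg_im, Complex.I_re, Complex.I_im, Complex.add_im, Complex.mul_im, Complex.one_re,
      Complex.one_im]
    linarith
  obtain ⟨c₁, h₁⟩ := hK1
  obtain ⟨c₂, h₂⟩ := hK2
  have hPconst : ∀ z, P z = (c₁ + I * c₂) / 2 := by
    intro z
    have e1 := h₁ z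
    have e2 := h₂ z
    simp only [Pi.smul_apply, Pi.add_apply, smul_eq_mul] at e1 e2
    rw [← e1, ← e2]
    have hI := Complex.I_mul_I
    linear_combination ((P z - Q z) / 2) * hI
  have hQconst : ∀ z, Q z = (c₁ - I * c₂) / 2 := by
    intro z
    have e1 := h₁ z
    simp only [Pi.add_apply] at e1
    linear_combination e1 - hPconst z
  refine Prod.ext ?_ ?_
  · exact Subtype.ext (hP.eq_zero_of_const hPconst)
  · exact Subtype.ext (hQ.eq_zero_of_const hQconst)

include h0 in
/-- **Hodge decomposition.** -/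
theorem exists_hodge [NeZero N] (hN : 0 < N) {c : Additive G →+ ℂ}
    (hc : c ∈ parabolicHoms ℂ G ℂ) : ∃ x, hodge h1 hN x = c := by
  have : G.FiniteIndex := Subgroup.finiteIndex_of_le h1
  have e : (S2 G × S2 G) ≃ₗ[ℂ] parabolicHoms ℂ G ℂ :=
    (LinearEquiv.ofInjective _ (pairA_injective h1 h0 hN)).trans
      (LinearEquiv.ofEq _ _ (range_pairA h1 h0 hN))
  let T : (S2 G × S2 G) →ₗ[ℝ] parabolicHoms ℂ G ℂ :=
    { toFun := fun x => ⟨hodge h1 hN x, hodge_mem h1 hN x⟩
      map_add' := fun x y => Subtype.ext (map_add _ x y)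
      map_smul' := fun r x => Subtype.ext (map_smul _ r x) }
  have hT : Function.Injective T := fun x y h => hodge_injective h1 hN (congrArg Subtype.val h)
  have hfin0 : Module.Finite ℂ (S2 G) := finite_S2
  have hfin : FiniteDimensional ℂ (S2 G × S2 G) := inferInstance
  have hfin' : FiniteDimensional ℝ (S2 G × S2 G) := FiniteDimensional.trans ℝ ℂ _
  have hsurj : Function.Surjective T := by
    have h2 : Function.Injective ((e.symm.restrictScalars ℝ).toLinearMap.comp T) :=
      (e.symm.injective).comp hT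
    have h3 := LinearMap.injective_iff_surjective.mp h2
    intro y
    obtain ⟨x, hx⟩ := h3 (e.symm y)
    exact ⟨x, e.symm.injective hx⟩
  obtain ⟨x, hx⟩ := hsurj ⟨c, hc⟩
  exact ⟨x, congrArg Subtype.val hx⟩

section Lat

open Univ

variable {L : ℕ} [NeZero L] {S : Finset ℕ}

theorem perA_eq_pml (f : S2 (Gamma0 L)) (γ : Gamma0 L) :
    perA (Gamma1_in_Gamma0 L) (Nat.pos_of_ne_zero (NeZero.ne L)) f (Additive.ofMul γ) =
      pml L (toCusp f.2.1 f.2.2) (Additive.ofMul γ) := by
  obtain ⟨F, hF, -⟩ := S2_primitive (Nat.pos_of_ne_zero (NeZero.ne L)) (Gamma1_in_Gamma0 L) f.2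
  rw [perA_apply _ _ f hF γ UpperHalfPlane.I]
  exact (periodMap_apply (f := toCusp f.2.1 f.2.2) hF γ UpperHalfPlane.I).symm

/-- Parabolic homomorphisms vanish on the elements with trivial periods. -/
theorem eq_zero_of_perHom {γ : Gamma0 L} (h : perHom L (Additive.ofMul γ) = 0)
    {c : Additive (Gamma0 L) →+ ℂ} (hc : c ∈ parabolicHoms ℂ (Gamma0 L) ℂ) :
    c (Additive.ofMul γ) = 0 := by
  obtain ⟨⟨f, g⟩, rfl⟩ := exists_hodge (Gamma1_in_Gamma0 L) le_rfl
    (Nat.pos_of_ne_zero (NeZero.ne L)) hc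
  have h2 : ∀ f : S2 (Gamma0 L), perA (Gamma1_in_Gamma0 L)
      (Nat.pos_of_ne_zero (NeZero.ne L)) f (Additive.ofMul γ) = 0 := by
    intro f
    rw [perA_eq_pml]
    exact LinearMap.congr_fun h _
  rw [hodge_apply, h2, h2, map_zero, add_zero]

/-- **Parabolic homomorphisms factor through the period lattice.** -/
theorem exists_latHom {E : Type*} [Field E] [CharZero E] (χ : Gamma0 L →* Multiplicative E)
    (hpar : ∀ γ : Gamma0 L, ((γ : SL(2, ℤ)) : Matrix (Fin 2) (Fin 2) ℤ).trace ^ 2 = 4 →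
      χ γ = 1) : ∃ v : LatM L (↑S : Set ℕ) →+ E, ∀ γ,
        v (Multiplicative.toAdd (perM L S γ)) = Multiplicative.toAdd (χ γ) := by
  let χ' : Additive (Gamma0 L) →+ E := MonoidHom.toAdditiveLeft χ
  have hker : ((perHom L).rangeRestrict).ker ≤ χ'.ker := by
    intro γ hγ
    rw [AddMonoidHom.mem_ker] at hγ ⊢
    by_contra hne
    obtain ⟨ψ, hψ⟩ : ∃ ψ : Module.Dual ℚ E, ψ (χ' γ) ≠ 0 := by
      by_contra h
      push Not at h
      exact hne ((Module.forall_dual_apply_eq_zero_iff ℚ _).mp h)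
    let c : Additive (Gamma0 L) →+ ℂ :=
      ((algebraMap ℚ ℂ).toAddMonoidHom.comp ψ.toAddMonoidHom).comp χ'
    have hc : c ∈ parabolicHoms ℂ (Gamma0 L) ℂ := by
      intro δ hδ
      have h3 : χ' (Additive.ofMul δ) = 0 := congrArg Multiplicative.toAdd (hpar δ hδ)
      change algebraMap ℚ ℂ (ψ (χ' (Additive.ofMul δ))) = 0
      rw [h3, map_zero, map_zero]
    have h4 := eq_zero_of_perHom (γ := γ.toMul) (congrArg Subtype.val hγ) hc
    have h5 : algebraMap ℚ ℂ (ψ (χ' γ)) = 0 := h4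
    exact hψ ((algebraMap ℚ ℂ).injective (h5.trans (map_zero _).symm))
  let v := AddMonoidHom.liftOfSurjective (perHom L).rangeRestrict
    (AddMonoidHom.rangeRestrict_surjective _) ⟨χ', hker⟩
  refine ⟨v, fun γ => ?_⟩
  exact AddMonoidHom.liftOfRightInverse_comp_apply _ _ _ ⟨χ', hker⟩ (Additive.ofMul γ)

end Lat

end Fermat.Agent.ESG
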