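import Fermat.Agent.RT.HPChar

set_option autoImplicit false
set_option maxHeartbeats 400000

/-!
# Integral functionals attached to the new eigenclasses: main statement
-/

open Matrix CongruenceSubgroup IsLocalRing
open scoped MatrixGroups

noncomputable section

namespace Fermat.Agent.RT.Ihara

open Fermat.Agent.RT Fermat.Agent.ESCore Fermat.Agent.ESCore.UnivG

section Aux

variable {L : ℕ} [NeZero L] {S : Finset ℕ} {E : Type} [Field E] [CharZero E]

theorem finite_LatM (S : Set ℕ) : Module.Finite ℤ (LatM L S) := by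
  have h2 : AddGroup.FG (perLat L) := (AddGroup.fg_iff_addSubgroup_fg _).mpr perLat_fg
  have h3 : Module.Finite ℤ (perLat L) := Module.Finite.iff_addGroup_fg.mpr h2
  exact h3

/-- **The functional attached to an eigenclass.** -/
theorem exists_latEig (hNS : ∀ l : ℕ, l.Prime → l ∣ L → l ∈ S) {c : H1 E E (Gamma0 L)}
    {lam : ℕ → E} (hc0 : c ≠ 0) (hlam : ∀ n, hec (Gamma1_le L) le_rfl n c = lam n • c)
    (hpar : ∀ γ : Gamma0 L, ((γ : SL(2, ℤ)) : Mat).trace ^ 2 = 4 → toChar c γ = 1) :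
    ∃ (v : LatM L (↑S : Set ℕ) →+ E) (π : CuspForm.heckeAlgebra L 2 (↑S : Set ℕ) →+* E),
      v ≠ 0 ∧ (∀ γ, v (Multiplicative.toAdd (Univ.perM L S γ)) = c.1 γ) ∧
      (∀ t x, v (t • x) = π t * v x) ∧
      ∀ (l : ℕ) (hl : l.Prime) (hlN : ¬ l ∣ L) (hlS : l ∉ (↑S : Set ℕ)),
        π (CuspForm.heckeAlgebra.T hl hlN hlS) = lam l := by
  obtain ⟨v, hv⟩ := ESG.exists_latHom (S := S) (toChar c) hpar
  have hv' : ∀ γ, v (Multiplicative.toAdd (Univ.perM L S γ)) = c.1 γ := hv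
  have hv0 : v ≠ 0 := by
    intro h
    apply hc0
    apply Subtype.ext
    funext γ
    rw [← hv', h]
    rfl
  have hT : ∀ (l : ℕ) (hl : l.Prime) (hlN : ¬ l ∣ L) (hlS : l ∉ (↑S : Set ℕ)) (x),
      v ((CuspForm.heckeAlgebra.T hl hlN hlS : CuspForm.heckeAlgebra L 2 (↑S : Set ℕ)) • x) =
        lam l * v x := by
    intro l hl hlN hlS x
    obtain ⟨γ, hγ⟩ := Univ.perM_surjective (N := L) (S := S) (Multiplicative.ofAdd x)
    have hx : x = Multiplicative.toAdd (Univ.perM L S γ) := by rw [hγ]; rfl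
    have h1 := Univ.heckeChar_perM (N := L) (S := S) ⟨l, hl, hlN, hlS⟩ γ
    have h2 : (AddMonoidHom.toMultiplicative v).comp (Univ.perM L S) = toChar c :=
      MonoidHom.ext fun γ => congrArg Multiplicative.ofAdd (hv' γ)
    have h3 := heckeChar_comp hl hlN (AddMonoidHom.toMultiplicative v) (Univ.perM L S)
    rw [h2, ← heckeCharG_Gamma0 hl hlN, heckeCharG_hec, hlam] at h3
    have h4 := congrArg Multiplicative.toAdd (DFunLike.congr_fun h3 γ)
    rw [MonoidHom.comp_apply, h1] at h4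
    rw [hx, hv']
    exact h4.symm
  obtain ⟨π, hπ⟩ := exists_eigenHom (R := CuspForm.heckeAlgebra L 2 (↑S : Set ℕ)) v hv0 (by
    rintro ⟨t, ht⟩
    induction ht using Algebra.adjoin_induction with
    | mem x hx =>
      rcases hx with ⟨l, hl, hlN, hlS, rfl⟩ | ⟨q, hqN, hq, hqS, rfl⟩
      · exact ⟨lam l, hT l hl hlN hlS⟩
      · exact absurd (hNS q hq hqN) hqS
    | algebraMap r =>
      refine ⟨r, fun x => ?_⟩
      have h1 : (⟨algebraMap ℤ _ r, Subalgebra.algebraMap_mem _ r⟩ :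
        CuspForm.heckeAlgebra L 2 (↑S : Set ℕ)) = algebraMap ℤ _ r := rfl
      rw [h1, eq_intCast, Int.cast_smul_eq_zsmul, map_zsmul, zsmul_eq_mul]
    | add x y hx hy h1 h2 =>
      obtain ⟨a, ha⟩ := h1
      obtain ⟨b, hb⟩ := h2
      refine ⟨a + b, fun z => ?_⟩
      change v (((⟨x, hx⟩ : CuspForm.heckeAlgebra L 2 (↑S : Set ℕ)) + ⟨y, hy⟩) • z) = _
      rw [add_smul, map_add, ha, hb, add_mul]
    | mul x y hx hy h1 h2 =>
      obtain ⟨a, ha⟩ := h1
      obtain ⟨b, hb⟩ := h2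
      refine ⟨a * b, fun z => ?_⟩
      change v (((⟨x, hx⟩ : CuspForm.heckeAlgebra L 2 (↑S : Set ℕ)) * ⟨y, hy⟩) • z) = _
      rw [mul_smul, ha, hb, mul_assoc])
  refine ⟨v, π, hv0, hv', hπ, fun l hl hlN hlS => ?_⟩
  obtain ⟨x₀, hx₀⟩ : ∃ x, v x ≠ 0 := by
    by_contra hcon
    push Not at hcon
    exact hv0 (AddMonoidHom.ext hcon)
  exact mul_right_cancel₀ hx₀ (by rw [← hπ, hT])

end Aux

end Fermat.Agent.RT.Ihara
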