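import Fermat.Agent.RT.HPVec
import Fermat.Agent.RT.HFinal

set_option autoImplicit false
set_option maxHeartbeats 400000

/-!
# Integral functionals attached to the new eigenclasses: main statement
-/

open Matrix CongruenceSubgroup IsLocalRing
open scoped MatrixGroups

noncomputable section

namespace Fermat.Agent.RT.Ihara

open Fermat.Agent.RT Fermat.Agent.ESCore Fermat.Agent.ESCore.UnivG

theorem toChar_neg' {E : Type*} [CommRing E] {G : Subgroup SL(2, ℤ)} (c : H1 E E G) (e : ℤ) :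
    toChar ((e : E) • c) = (toChar c) ^ e := by
  refine MonoidHom.ext fun γ => ?_
  apply Multiplicative.toAdd.injective
  change (e : E) * c.1 γ = e • c.1 γ
  rw [zsmul_eq_mul]

/-- **Integral functionals attached to new classes.** -/
theorem exists_intVec_new {N q : ℕ} [NeZero N] {𝒪 : Type} [CommRing 𝒪] [IsDomain 𝒪]
    [IsDiscreteValuationRing 𝒪] [IsAdicComplete (maximalIdeal 𝒪) 𝒪] [Finite (ResidueField 𝒪)]
    [CharZero 𝒪] {I : Set ℕ} {a : ℕ → 𝒪} (hq : q.Prime) (hqN : IsCoprime (N : ℤ) (q : ℤ))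
    [NeZero (N * q)]
    {S : Finset ℕ} (hNS : ∀ l : ℕ, l.Prime → l ∣ N * q → l ∈ S)
    (hNE : ∃ l ∈ I, l.Prime ∧ N * q ∣ l - 1 ∧ IsUnit (a l - (l + 1)))
    (h : ¬ NoNew N hq hqN I a) :
    ∃ (O' : Type) (_ : CommRing O') (_ : IsDomain O') (_ : IsDiscreteValuationRing O')
      (_ : IsAdicComplete (maximalIdeal O') O') (_ : Finite (ResidueField O')) (_ : CharZero O')
      (_ : Algebra 𝒪 O') (_ : IsLocalHom (algebraMap 𝒪 O'))
      (v : LatM (N * q) (↑S : Set ℕ) →+ O') (π : CuspForm.heckeAlgebra (N * q) 2 (↑S : Set ℕ) →+* O')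
      (e : ℤ), v ≠ 0 ∧ (∀ t x, v (t • x) = π t * v x) ∧ (e = 1 ∨ e = -1) ∧
      heckeCharU hq.ne_zero (dvd_mul_left q N) (NF.oChar v) = (NF.oChar v) ^ e ∧
      (∀ [NeZero q] {M : ℕ} [NeZero M] (Bz : LG.Bez q M) (hK : N ∣ M) (hN : N * q = q * N),
        Bz.wChar hK hN (NF.oChar v) = (NF.oChar v) ^ (-e)) ∧
      ∀ (l : ℕ) (hl : l.Prime) (hlN : ¬ l ∣ N * q) (hlS : l ∉ (↑S : Set ℕ)), l ∈ I →
        π (CuspForm.heckeAlgebra.T hl hlN hlS) - algebraMap 𝒪 O' (a l) ∈ maximalIdeal O' := by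
  classical
  let E := AlgebraicClosure (FractionRing 𝒪)
  have hinj : Function.Injective (algebraMap 𝒪 E) := by
    rw [IsScalarTower.algebraMap_eq 𝒪 (FractionRing 𝒪) E]
    exact (algebraMap (FractionRing 𝒪) E).injective.comp
      (IsFractionRing.injective 𝒪 (FractionRing 𝒪))
  haveI : CharZero E := charZero_of_injective_algebraMap hinj
  obtain ⟨c, lam, hc0, hlam, hq2, hP, hW⟩ := exists_newclass (E := E) hinj hq hqN h
  have hpar : ∀ γ : Gamma0 (N * q), ((γ : SL(2, ℤ)) : Mat).trace ^ 2 = 4 → toChar c γ = 1 := by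
    obtain ⟨l, hlI, hl, hl1, hu⟩ := hNE
    have hlN : ¬ l ∣ N * q := by
      have h2 : ((N * q : ℕ) : ℤ) ∣ (l : ℤ) - 1 := by
        have := Int.natCast_dvd_natCast.mpr hl1
        rwa [Nat.cast_sub hl.one_lt.le, Nat.cast_one] at this
      exact not_dvd_of_dvd_sub_one hl h2
    intro γ hγ
    refine ESG.parabolic_of_eigen' (Gamma1_le (N * q)) le_rfl hl hlN hl1 (a := lam l)
      (fun γ => ?_) ?_ γ hγ
    · rw [heckeCharG_hec, hlam]
      rfl
    · intro h3
      obtain ⟨P, m, hm, hP0⟩ := hP l hlI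
      have h4 : Polynomial.aeval ((l : 𝒪) + 1) P = 0 := by
        apply hinj
        rw [map_zero, ← Polynomial.aeval_algebraMap_apply, map_add, map_natCast, map_one, ← h3]
        exact hP0
      have h5 := phi_eq (L := ResidueField 𝒪) (φ := residue 𝒪) (fun a => rfl) hm h4
      have h6 : a l - (l + 1) ∈ maximalIdeal 𝒪 := by
        rw [← residue_eq_zero_iff, map_sub, h5]
        exact sub_self _
      exact (mem_nonunits_iff.mp ((mem_maximalIdeal _).mp h6)) hu
  obtain ⟨v₀, π₀, hv0, hvc, hvT, hπT⟩ := exists_latEig (S := S) hNS hc0 hlam hpar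
  -- the finite extension
  have hfin : Module.Finite ℤ (CuspForm.heckeAlgebra (N * q) 2 (↑S : Set ℕ)) :=
    ES.moduleFinite_heckeAlgebra 2 _
  obtain ⟨s, hs⟩ := (Module.Finite.fg_top :
    (⊤ : Submodule ℤ (CuspForm.heckeAlgebra (N * q) 2 (↑S : Set ℕ))).FG)
  let B := Algebra.adjoin 𝒪 (π₀ '' (s : Set (CuspForm.heckeAlgebra (N * q) 2 (↑S : Set ℕ))))
  have hBfin : Module.Finite 𝒪 B := by
    refine Module.Finite.iff_fg.mpr (fg_adjoin_of_finite (s.finite_toSet.image _) ?_)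
    rintro _ ⟨t, -, rfl⟩
    obtain ⟨P, hPm, hP0⟩ : IsIntegral ℤ t := Algebra.IsIntegral.isIntegral t
    refine ⟨P.map (algebraMap ℤ 𝒪), hPm.map _, ?_⟩
    have h2 := congrArg π₀ hP0
    rw [map_zero, Polynomial.hom_eval₂] at h2
    rw [Polynomial.eval₂_map, ← h2]
    congr 1
    exact RingHom.ext_int _ _
  have hBmem : ∀ t, π₀ t ∈ B := by
    intro t
    have ht : t ∈ Submodule.span ℤ (s : Set (CuspForm.heckeAlgebra (N * q) 2 (↑S : Set ℕ))) := by
      rw [hs]; trivial
    induction ht using Submodule.span_induction with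
    | mem x hx => exact Algebra.subset_adjoin ⟨x, hx, rfl⟩
    | zero => rw [map_zero]; exact zero_mem _
    | add x y _ _ hx hy => rw [map_add]; exact add_mem hx hy
    | smul n x _ hx => rw [map_zsmul]; exact zsmul_mem hx n
  let πB : CuspForm.heckeAlgebra (N * q) 2 (↑S : Set ℕ) →+* B := π₀.codRestrict B hBmem
  have hBinj : Function.Injective (algebraMap 𝒪 B) := fun x y hxy =>
    hinj (congrArg Subtype.val hxy)
  obtain ⟨O', i1, i2, i3, i4, i5, i6, i7, i8, i9, hO'inj, f, hf⟩ := exists_dvr_ext B hBinj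
  obtain ⟨x₀, hx₀⟩ : ∃ x, v₀ x ≠ 0 := by
    by_contra hcon
    push Not at hcon
    exact hv0 (AddMonoidHom.ext hcon)
  obtain ⟨Ψ, hΨ0, hΨ⟩ := exists_transfer' (B := B) (E := E) (F := FractionRing O')
    (algebraMap B E) (fun x y hxy => Subtype.ext hxy)
    ((algebraMap O' (FractionRing O')).comp f.toRingHom)
    ((IsFractionRing.injective O' (FractionRing O')).comp hf) hx₀
  haveI : Module.Finite ℤ (LatM (N * q) (↑S : Set ℕ)) := finite_LatM _
  obtain ⟨D, v, hD, hv⟩ := exists_integral_hom (O := O') (F := FractionRing O') (Ψ.comp v₀)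
  have hF := IsFractionRing.injective O' (FractionRing O')
  obtain ⟨e, he, heq⟩ : ∃ e : ℤ, (e = 1 ∨ e = -1) ∧ lam q = (e : E) := by
    rcases mul_self_eq_one_iff.mp hq2 with h2 | h2
    · exact ⟨1, Or.inl rfl, by rw [h2, Int.cast_one]⟩
    · exact ⟨-1, Or.inr rfl, by rw [h2, Int.cast_neg, Int.cast_one]⟩
  let mD : E →+ FractionRing O' := (AddMonoidHom.mulLeft D).comp Ψ
  let g₁ : Multiplicative E →* Multiplicative (FractionRing O') := AddMonoidHom.toMultiplicative mD
  let h₁ : Multiplicative O' →* Multiplicative (FractionRing O') :=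
    AddMonoidHom.toMultiplicative (algebraMap O' (FractionRing O')).toAddMonoidHom
  have hh₁ : Function.Injective h₁ := fun x y hxy => hF hxy
  have hinjc : ∀ χ₁ χ₂ : Gamma0 (N * q) →* Multiplicative O', h₁.comp χ₁ = h₁.comp χ₂ → χ₁ = χ₂ :=
    fun χ₁ χ₂ h2 => MonoidHom.ext fun γ => hh₁ (DFunLike.congr_fun h2 γ)
  have hkey : h₁.comp (NF.oChar v) = g₁.comp (toChar c) := by
    refine MonoidHom.ext fun γ => ?_
    apply Multiplicative.toAdd.injective
    change algebraMap O' _ (v (Multiplicative.toAdd (Univ.perM (N * q) S γ))) = D * Ψ (c.1 γ)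
    rw [hv, ← hvc]
    rfl
  refine ⟨O', i1, i2, i3, i4, i5, i6, i7, i9, v, f.toRingHom.comp πB, e, ?_, ?_, he, ?_, ?_, ?_⟩
  · intro h2
    have h3 := hv x₀
    rw [h2, AddMonoidHom.zero_apply, map_zero] at h3
    exact mul_ne_zero hD hΨ0 h3.symm
  · intro t x
    apply hF
    rw [hv, map_mul, hv]
    have h2 := hΨ (πB t) (v₀ x)
    change Ψ (π₀ t * v₀ x) = algebraMap O' _ (f (πB t)) * Ψ (v₀ x) at h2
    change D * Ψ (v₀ (t • x)) = algebraMap O' _ (f (πB t)) * (D * Ψ (v₀ x))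
    rw [hvT, h2]
    ring
  · apply hinjc
    have h2 : heckeCharU hq.ne_zero (dvd_mul_left q N) (toChar c) = (toChar c) ^ e := by
      rw [← heckeCharUG_Gamma0, heckeCharUG_hec hq, hlam, heq, toChar_neg']
    rw [← heckeCharU_comp, hkey, heckeCharU_comp, h2, ← NF.comp_zpow_char, ← hkey,
      NF.comp_zpow_char]
  · intro _ M _ Bz hK hN
    apply hinjc
    have e1 : ∀ {A B : Type} [CommGroup A] [CommGroup B] (ψ : A →* B)
        (χ : Gamma0 (N * q) →* A), Bz.wChar hK hN (ψ.comp χ) =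
          ψ.comp (Bz.wChar hK hN χ) := by
      intro A B _ _ ψ χ
      rw [LG.Bez.wChar, LG.Bez.wChar, CosetSys.trans_comp]
    have h2 : Bz.wChar hK hN (toChar c) = (toChar c) ^ (-e) := by
      refine wChar_of_D2 hqN Bz hK hN (toChar c) fun g g' hg hg' h3 => ?_
      change c.1 ⟨g', hg'⟩ = (-e) • c.1 ⟨g, hg⟩
      rw [hW g g' hg hg' h3, heq, neg_smul, zsmul_eq_mul]
    rw [← e1, hkey, e1, h2, ← NF.comp_zpow_char, ← hkey, NF.comp_zpow_char]
  · intro l hl hlN hlS hlI
    obtain ⟨P, m, hm, hP0⟩ := hP l hlI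
    rw [← residue_eq_zero_iff, map_sub, sub_eq_zero]
    letI : Algebra (ResidueField 𝒪) (ResidueField O') :=
      (ResidueField.map (algebraMap 𝒪 O')).toAlgebra
    have h2 : Polynomial.aeval (f (πB (CuspForm.heckeAlgebra.T hl hlN hlS))) P = 0 := by
      have h3 : Polynomial.aeval (πB (CuspForm.heckeAlgebra.T hl hlN hlS)) P = 0 := by
        apply Subtype.ext
        change _ = (0 : E)
        rw [← hP0, ← hπT l hl hlN hlS]
        exact (Polynomial.aeval_algebraMap_apply E (πB (CuspForm.heckeAlgebra.T hl hlN hlS)) P).symm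
      rw [Polynomial.aeval_algHom_apply, h3, map_zero]
    have h4 := phi_eq (L := ResidueField O') (φ := residue O') (B := O')
      (fun a => (ResidueField.map_residue (algebraMap 𝒪 O') a).symm) hm h2
    refine h4.trans ?_
    exact ResidueField.map_residue (algebraMap 𝒪 O') (a l)

end Fermat.Agent.RT.Ihara
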