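import Fermat.Agent.RT.HPCore

set_option autoImplicit false
set_option maxHeartbeats 400000
set_option linter.style.haveILetI false
set_option linter.unusedSectionVars false
set_option linter.unusedVariables false

/-!
# The Hecke package
-/

open IsLocalRing CongruenceSubgroup Matrix.SpecialLinearGroup
open scoped MatrixGroups
open Fermat.Agent.ESCore Fermat.Agent.ESCore.UnivG
open Fermat.Agent.ESCore.Univ (Idx)
open Fermat.Agent.ESCore.Gal (dU dLift dU_dLift)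

noncomputable section

namespace Fermat.Agent.RT

open Ihara

section Zero

variable {𝒪 : Type} [CommRing 𝒪] [IsDomain 𝒪] [IsDiscreteValuationRing 𝒪]
  [IsAdicComplete (maximalIdeal 𝒪) 𝒪] [CharZero 𝒪] [Finite (ResidueField 𝒪)]
  {K : Type} [Field K] [Algebra (ResidueField 𝒪) K]
  {p M q₀ : ℕ} {S₀ : Finset ℕ} {a : ℕ → 𝒪} {ρ : GQ →* GL (Fin 2) K} {χ : GQ →* 𝒪ˣ}

theorem exists_basis_submodule {M : Type*} [AddCommGroup M] [Module 𝒪 M] [Module.Finite 𝒪 M]
    [Module.IsTorsionFree 𝒪 M] (W : Submodule 𝒪 M) (hW : W ≠ ⊥) :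
    ∃ d, 0 < d ∧ Nonempty (Module.Basis (Fin d) 𝒪 W) := by
  haveI : Nontrivial W := Submodule.nontrivial_iff_ne_bot.mpr hW
  exact ⟨Module.finrank 𝒪 W, Module.finrank_pos, ⟨Module.finBasis 𝒪 W⟩⟩

theorem aug_unit_injective : Function.Injective (aug 𝒪 Unit) := by
  have h1 : ∀ z : MonoidAlgebra 𝒪 Unit, ∃ c, z = MonoidAlgebra.single 1 c := by
    intro z
    refine ⟨z.coeff 1, ?_⟩
    ext
    simp
  intro x y h
  obtain ⟨c, rfl⟩ := h1 x
  obtain ⟨c', rfl⟩ := h1 y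
  change augD 𝒪 Unit _ = augD 𝒪 Unit _ at h
  rw [augD_single, augD_single] at h
  rw [h]

/-- **The Hecke algebra of level zero.** -/
theorem exists_hZero [NeZero (M * q₀)] (hB : HBase p M q₀ S₀ a ρ χ)
    (hne : HM0 (M * q₀) {l : ℕ | l.Prime ∧ l ∉ S₀} a ≠ ⊥) :
    ∃ d, 0 < d ∧ Nonempty (HZero p χ (M * q₀) S₀ a d) := by
  set N₀ := M * q₀ with hN₀
  set J : Set ℕ := {l : ℕ | l.Prime ∧ l ∉ S₀} with hJ
  obtain ⟨I, hI, hIa⟩ := exists_finite_I (N := N₀) J a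
  have := finite_H1 (O := 𝒪) (A := 𝒪) (G := Gamma0 N₀)
  obtain ⟨d, hd, ⟨m₀⟩⟩ := exists_basis_submodule (M := H1 𝒪 𝒪 (Gamma0 N₀)) (HM0 N₀ J a) hne
  obtain ⟨l, hl, hlS, -, hl1, hu⟩ := hB.exists_nonEis N₀ ∅
  have hNE : NonEisP N₀ J a := by
    refine ⟨l, ⟨hl, hlS⟩, hl, ?_, hu⟩
    have := Int.natCast_dvd_natCast.mpr hl1
    rwa [Nat.cast_sub hl.one_lt.le, Nat.cast_one] at this
  obtain ⟨π, hπ, hsep, hxm, T, i1, i2, i3, i4, ι, x, t, hι, hgen, hx, hxa, hres, hmm, ht, hfr⟩ :=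
    exists_core (N₀ := N₀) (N := N₀) hB.hp hB.hp𝒪 hB.hχ (S := S₀)
      ((hB.hS₀ p hB.hp).mpr (Or.inr rfl)) (fun q hq hqN => (hB.hS₀ q hq).mpr (Or.inl hqN))
      (D := Unit) (by simp) (fun g => ⟨0, rfl⟩) 1 (fun u => ⟨1, rfl⟩) (LevEquiv.refl N₀ J a ∅) hNE
      hB.h8 hB.h3 hd m₀ (fun l hl hlS => ⟨hl, hlS⟩) (fun l hl => hl.elim)
  have hscal : ∀ g : Unit, scal 𝒪 d g = 1 := fun g => scal_one
  have hιx : ∀ i, ι (x i) = π (genT le_GK GK_le S₀ (Sum.inl i)) := fun i => by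
    rw [hx, hscal, mul_one]
  refine ⟨_, hd, ⟨
    { I := I
      hI := fun l hl => hI hl
      hIa := hIa
      m := m₀.map (LinearEquiv.ofEq _ _ hIa.symm)
      T := T
      ι := ((aug 𝒪 Unit).mapMatrix).comp ι
      x := x
      t := t
      hι := ?_
      gen := hgen
      sep := fun i => Pet.SepInt.of_injective ι.toRingHom hι (by
        change Pet.SepInt (ι (x i))
        rw [hιx]
        exact hsep _)
      hx := fun i j => ?_
      hxa := hxa
      hres := hres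
      hm := hmm
      ht := ht
      hfr := hfr }⟩⟩
  · intro u v huv
    apply hι
    exact Matrix.ext fun i j => aug_unit_injective (congrFun (congrFun huv i) j)
  · have h2 := hxm i j
    rw [← hιx] at h2
    exact h2

end Zero

end Fermat.Agent.RT
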