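import Fermat.Agent.RT.HPack

set_option autoImplicit false
set_option maxHeartbeats 400000
set_option linter.style.haveILetI false
set_option linter.unusedSectionVars false
set_option linter.unusedVariables false

/-!
# The Hecke package: the Taylor–Wiles levels
-/

open IsLocalRing CongruenceSubgroup Matrix.SpecialLinearGroup
open scoped MatrixGroups
open Fermat.Agent.ESCore Fermat.Agent.ESCore.UnivG
open Fermat.Agent.ESCore.Univ (Idx)
open Fermat.Agent.ESCore.Gal (dU dLift dU_dLift)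

noncomputable section

namespace Fermat.Agent.RT

open Ihara

section Level

variable {𝒪 : Type} [CommRing 𝒪] [IsDomain 𝒪] [IsDiscreteValuationRing 𝒪]
  [IsAdicComplete (maximalIdeal 𝒪) 𝒪] [CharZero 𝒪] [Finite (ResidueField 𝒪)]
  {K : Type} [Field K] [Algebra (ResidueField 𝒪) K]
  {p M q₀ : ℕ} {S₀ : Finset ℕ} {a : ℕ → 𝒪} {ρ : GQ →* GL (Fin 2) K} {χ : GQ →* 𝒪ˣ}
  {r d : ℕ} {q e : Fin r → ℕ}

theorem cast_sub_one_mem (hp𝒪 : (p : 𝒪) ∈ maximalIdeal 𝒪) {n : ℕ} (hn : 1 ≤ n) (h : p ∣ n - 1) :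
    (n : 𝒪) - 1 ∈ maximalIdeal 𝒪 := by
  obtain ⟨c, hc⟩ := h
  have h1 : (n : 𝒪) - 1 = p * c := by
    have h2 : n = p * c + 1 := by omega
    rw [h2]
    push_cast
    ring
  rw [h1]
  exact Ideal.mul_mem_right _ _ hp𝒪

/-- The equivalence of the levels. -/
theorem exists_levEquiv [NeZero (M * q₀)] (hB : HBase p M q₀ S₀ a ρ χ)
    (Z : HZero p χ (M * q₀) S₀ a d) (hQ : TWCond p S₀ Z.I a q e)
    {α β : Fin r → 𝒪} (hαβ : ∀ i, α i + β i - a (q i) ∈ maximalIdeal 𝒪)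
    (hαβ1 : ∀ i, α i * β i - 1 ∈ maximalIdeal 𝒪) (hu : ∀ i, IsUnit (α i - β i))
    {aQ bQ : ℕ → 𝒪} (haQ : ∀ i, aQ (q i) = α i) (hbQ : ∀ i, bQ (q i) = β i)
    (haQ' : ∀ n ∉ Finset.univ.image q, aQ n = a n) {I₁ : Set ℕ}
    (hI₁ : I₁ = {l : ℕ | l.Prime ∧ l ∉ S₀ ∪ Finset.univ.image q}) :
    HM0 (M * q₀) I₁ aQ = HM0 (M * q₀) (Z.I : Set ℕ) a ∧
    LevEquiv (M * q₀) (M * q₀ * ∏ x ∈ Finset.univ.image q, x) I₁ (I₁ ∪ (Finset.univ.image q : Finset ℕ))
      aQ ((Finset.univ.image q : Finset ℕ) : Set ℕ) := by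
  classical
  set N₀ := M * q₀ with hN₀
  set Q : Finset ℕ := Finset.univ.image q with hQd
  have hmemQ : ∀ x, x ∈ Q ↔ ∃ i, q i = x := by
    intro x
    rw [hQd, Finset.mem_image]
    exact ⟨fun ⟨i, _, h⟩ => ⟨i, h⟩, fun ⟨i, h⟩ => ⟨i, Finset.mem_univ i, h⟩⟩
  have hmem1 : ∀ l, l ∈ I₁ ↔ l.Prime ∧ l ∉ S₀ ∧ l ∉ Q := by
    intro l
    rw [hI₁, Set.mem_setOf_eq, Finset.mem_union, not_or]
  have hHM : HM0 N₀ I₁ aQ = HM0 N₀ (Z.I : Set ℕ) a := by
    have h1 : HM0 N₀ I₁ aQ = HM0 N₀ I₁ a := HM0_congr fun l hl => by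
      rw [haQ' l ((hmem1 l).mp hl).2.2, sub_self]
      exact zero_mem _
    rw [h1]
    refine le_antisymm (HM0_anti fun l hl => (hmem1 l).mpr ⟨(Z.hI l hl).1, (Z.hI l hl).2, ?_⟩) ?_
    · intro h2
      obtain ⟨i, rfl⟩ := (hmemQ l).mp h2
      exact hQ.hI i hl
    · rw [Z.hIa]
      exact HM0_anti fun l hl => ⟨((hmem1 l).mp hl).1, ((hmem1 l).mp hl).2.1⟩
  refine ⟨hHM, ?_⟩
  -- congruences
  have hq1 : ∀ i, ((q i : ℕ) : 𝒪) - 1 ∈ maximalIdeal 𝒪 := fun i =>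
    cast_sub_one_mem hB.hp𝒪 (hQ.prime i).one_lt.le
      ((dvd_pow_self p (hQ.pos i).ne').trans (hQ.dvd i))
  have hunit : ∀ {x y : 𝒪}, IsUnit y → x - y ∈ maximalIdeal 𝒪 → IsUnit x := by
    intro x y hy hxy
    by_contra hx
    have h2 : x ∈ maximalIdeal 𝒪 := (mem_maximalIdeal _).mpr (mem_nonunits_iff.mpr hx)
    have h3 : y ∈ maximalIdeal 𝒪 := by
      have := sub_mem h2 hxy
      rwa [sub_sub_cancel] at this
    exact (mem_nonunits_iff.mp ((mem_maximalIdeal _).mp h3)) hy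
  have hdisc : ∀ i, (α i + β i) * (α i + β i) - 4 - (α i - β i) * (α i - β i) ∈ maximalIdeal 𝒪 := by
    intro i
    have h2 : (α i + β i) * (α i + β i) - 4 - (α i - β i) * (α i - β i) =
        4 * (α i * β i - 1) := by ring
    rw [h2]
    exact Ideal.mul_mem_left _ _ (hαβ1 i)
  have hq2 : ∀ i, (((q i : ℕ) : 𝒪) + 1) * ((q i : ℕ) + 1) - 4 ∈ maximalIdeal 𝒪 := by
    intro i
    have h2 : (((q i : ℕ) : 𝒪) + 1) * ((q i : ℕ) + 1) - 4 =
        (((q i : ℕ) : 𝒪) - 1) * ((q i : ℕ) + 3) := by ring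
    rw [h2]
    exact Ideal.mul_mem_right _ _ (hq1 i)
  have hN₀q : ∀ x ∈ Q, ¬ x ∣ N₀ := by
    intro x hx h2
    obtain ⟨i, rfl⟩ := (hmemQ x).mp hx
    exact hQ.hS₀ i ((hB.hS₀ _ (hQ.prime i)).mpr (Or.inl h2))
  have hprime : ∀ x ∈ Q, x.Prime := by
    intro x hx
    obtain ⟨i, rfl⟩ := (hmemQ x).mp hx
    exact hQ.prime i
  refine tw_all Q hprime hN₀q (fun x hx h2 => ((hmem1 x).mp h2).2.2 hx) ?_ ?_ ?_ ?_ ?_ ?_ (b := bQ)
  · -- no new classes
    intro Q' hQ' x hx hxQ' hxp hcop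
    obtain ⟨i, rfl⟩ := (hmemQ x).mp hx
    have hprod0 : (∏ x ∈ Q', x) ≠ 0 :=
      Finset.prod_ne_zero_iff.mpr fun x hx => (hprime x (hQ' hx)).ne_zero
    haveI : NeZero (N₀ * ∏ x ∈ Q', x) := ⟨mul_ne_zero (NeZero.ne N₀) hprod0⟩
    haveI : NeZero (N₀ * (∏ x ∈ Q', x) * q i) := ⟨mul_ne_zero (NeZero.ne _) hxp.ne_zero⟩
    obtain ⟨L, hLf, hL⟩ := hB.fin
    have hqp : q i ≠ p := fun h => hQ.hS₀ i ((hB.hS₀ _ (hQ.prime i)).mpr (Or.inr h))
    refine noNew_of_galois (S := S₀ ∪ Q) hB.hp hB.hp𝒪 hxp hqp hcop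
      (Finset.mem_union_left _ ((hB.hS₀ p hB.hp).mpr (Or.inr rfl))) ?_ ?_ ?_ ρ (L' := L) hL ?_ ?_
    · intro l hl hlN
      rcases (Nat.Prime.dvd_mul hl).mp hlN with h2 | h2
      · rcases (Nat.Prime.dvd_mul hl).mp h2 with h3 | h3
        · exact Finset.mem_union_left _ ((hB.hS₀ l hl).mpr (Or.inl h3))
        · obtain ⟨y, hy, hly⟩ := (Prime.dvd_finset_prod_iff hl.prime _).mp h3
          have h4 : l = y := (Nat.prime_dvd_prime_iff_eq hl (hprime y (hQ' hy))).mp hly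
          exact Finset.mem_union_right _ (h4 ▸ hQ' hy)
      · have h4 : l = q i := (Nat.prime_dvd_prime_iff_eq hl hxp).mp h2
        exact Finset.mem_union_right _ (h4 ▸ hx)
    · intro l hl hlS
      rw [Finset.mem_union, not_or] at hlS
      exact Or.inl ((hmem1 l).mpr ⟨hl, hlS.1, hlS.2⟩)
    · obtain ⟨l, hl, hlS, hlQ, hl1, hlu⟩ := hB.exists_nonEis (N₀ * (∏ x ∈ Q', x) * q i) Q
      refine ⟨l, Or.inl ((hmem1 l).mpr ⟨hl, hlS, hlQ⟩), hl, hl1, ?_⟩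
      rw [haQ' l hlQ]
      exact hlu
    · intro l hl hlS B hB' σ hσ
      rw [Finset.mem_union, not_or] at hlS
      rw [haQ' l hlS.2]
      exact hB.frob l hl hlS.1 B hB' σ hσ
    · obtain ⟨B, hB'⟩ := GaloisBasics.exists_liesOverPrime hxp
      obtain ⟨σ, hσ⟩ := GaloisBasics.exists_isFrobeniusAt hxp B hB'
      refine ⟨B, hB', σ, hσ, fun h => ?_⟩
      rw [(hB.frob (q i) hxp (hQ.hS₀ i) B hB' σ hσ).2] at h
      change redK K (a (q i)) ^ 2 = _ at h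
      have h2 : redK K (a (q i)) = redK K (α i + β i) := by
        rw [← sub_eq_zero, ← map_sub, redK_eq_zero, ← neg_sub]
        exact neg_mem (hαβ i)
      have h3 : IsUnit ((α i - β i) * (α i - β i)) := (hu i).mul (hu i)
      refine (redK_ne_zero (K := K)).mpr h3 ?_
      rw [h2] at h
      have h4 := (redK_eq_zero (K := K)).mpr (hdisc i)
      have h5 := (redK_eq_zero (K := K)).mpr (hq2 i)
      simp only [map_sub, map_mul, map_add, map_natCast, map_one, map_ofNat] at h h4 h5 ⊢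
      linear_combination -h4 + h + h5
  · intro x hx
    obtain ⟨i, rfl⟩ := (hmemQ x).mp hx
    intro v hv
    have hv' : v ∈ HM0 N₀ I₁ aQ := hv
    rw [hHM, Z.hIa] at hv'
    refine nilAt_congr (M := H1 𝒪 𝒪 (Gamma0 N₀)) ?_ (mem_HM0.mp hv' (q i) ⟨hQ.prime i, hQ.hS₀ i⟩)
    rw [haQ, hbQ, ← neg_sub]
    exact neg_mem (hαβ i)
  · intro x hx
    obtain ⟨i, rfl⟩ := (hmemQ x).mp hx
    rw [haQ, hbQ]
    have h2 : α i * β i - (q i : 𝒪) = (α i * β i - 1) - ((q i : 𝒪) - 1) := by ring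
    rw [h2]
    exact sub_mem (hαβ1 i) (hq1 i)
  · intro x hx
    obtain ⟨i, rfl⟩ := (hmemQ x).mp hx
    rw [haQ, hbQ]
    exact hu i
  · intro x hx
    obtain ⟨i, rfl⟩ := (hmemQ x).mp hx
    rw [haQ, hbQ]
    refine hunit (y := -(α i - β i)) (hu i).neg ?_
    have h2 : β i - (q i : 𝒪) * α i - -(α i - β i) = -(((q i : 𝒪) - 1) * α i) := by ring
    rw [h2]
    exact neg_mem (Ideal.mul_mem_right _ _ (hq1 i))
  · intro x hx
    obtain ⟨i, rfl⟩ := (hmemQ x).mp hx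
    rw [haQ, hbQ]
    refine hunit (y := -((α i - β i) * (α i - β i))) ((hu i).mul (hu i)).neg ?_
    have h2 : ((q i : 𝒪) + 1) * ((q i : 𝒪) + 1) - (α i + β i) * (α i + β i) -
        -((α i - β i) * (α i - β i)) = (((q i : 𝒪) + 1) * ((q i : 𝒪) + 1) - 4) -
        ((α i + β i) * (α i + β i) - 4 - (α i - β i) * (α i - β i)) := by ring
    rw [h2]
    exact sub_mem (hq2 i) (hdisc i)

theorem aug_mapMatrix_scal {D : Type} [CommGroup D] (g : D) :
    (aug 𝒪 D).mapMatrix (scal 𝒪 d g) = 1 := by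
  ext i j
  rw [AlgHom.mapMatrix_apply, Matrix.map_apply, scal, Matrix.scalar_apply]
  rcases eq_or_ne i j with h | h
  · subst h
    rw [Matrix.diagonal_apply_eq, aug_of, Matrix.one_apply_eq]
  · rw [Matrix.diagonal_apply_ne _ h, map_zero, Matrix.one_apply_ne h]

/-- **The Hecke algebra of a Taylor–Wiles level.** -/
theorem exists_hLevel [Fact p.Prime] [NeZero (M * q₀)] (hB : HBase p M q₀ S₀ a ρ χ)
    (Z : HZero p χ (M * q₀) S₀ a d) (hd : 0 < d) (hQ : TWCond p S₀ Z.I a q e) (N : ℕ) [NeZero N]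
    (hN : N = M * (q₀ * ∏ i, q i)) (h₀ : q₀ ∣ N) (h₁ : ∀ i, q i ∣ N)
    (ψ₀ : (ZMod q₀)ˣ →* Multiplicative (ZMod p)) (hψ₀ : Function.Surjective ψ₀)
    (ψ₁ : ∀ i, (ZMod (q i))ˣ →* Multiplicative (ZMod (p ^ e i)))
    (hψ₁ : ∀ i, Function.Surjective (ψ₁ i)) :
    Nonempty (HLevel Z N (S₀ ∪ Finset.univ.image q) (psiN h₀ h₁ ψ₀ ψ₁)) := by
  classical
  choose α β hαβ hαβ1 hu using hQ.eig
  let aQ : ℕ → 𝒪 := fun n => if h : ∃ i, q i = n then α h.choose else a n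
  let bQ : ℕ → 𝒪 := fun n => if h : ∃ i, q i = n then β h.choose else 0
  have hch : ∀ i, ∀ h : ∃ j, q j = q i, h.choose = i := fun i h => hQ.inj h.choose_spec
  have haQ : ∀ i, aQ (q i) = α i := by
    intro i
    have h : ∃ j, q j = q i := ⟨i, rfl⟩
    change (if h : ∃ j, q j = q i then α h.choose else a (q i)) = _
    rw [dif_pos h, hch i h]
  have hbQ : ∀ i, bQ (q i) = β i := by
    intro i
    have h : ∃ j, q j = q i := ⟨i, rfl⟩
    change (if h : ∃ j, q j = q i then β h.choose else 0) = _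
    rw [dif_pos h, hch i h]
  have haQ' : ∀ n ∉ Finset.univ.image q, aQ n = a n := by
    intro n hn
    have h : ¬ ∃ i, q i = n := by
      rintro ⟨i, rfl⟩
      exact hn (Finset.mem_image_of_mem _ (Finset.mem_univ i))
    change (if h : ∃ i, q i = n then α h.choose else a n) = _
    rw [dif_neg h]
  obtain ⟨hHM, hE⟩ := exists_levEquiv hB Z hQ hαβ hαβ1 hu haQ hbQ haQ'
    (I₁ := {l : ℕ | l.Prime ∧ l ∉ S₀ ∪ Finset.univ.image q}) rfl
  have hprod : ∏ x ∈ Finset.univ.image q, x = ∏ i, q i :=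
    Finset.prod_image (fun i _ j _ h => hQ.inj h)
  have hN' : M * q₀ * ∏ x ∈ Finset.univ.image q, x = N := by
    rw [hprod, hN]
    ring
  rw [hN'] at hE
  set S : Finset ℕ := S₀ ∪ Finset.univ.image q with hS
  set ψ := psiN h₀ h₁ ψ₀ ψ₁ with hψd
  have hψ : Function.Surjective ψ := psiN_surjective h₀ h₁ ψ₀ ψ₁ hB.hq₀ hQ.prime hQ.inj
    (fun i h => hQ.hS₀ i ((hB.hS₀ _ (hQ.prime i)).mpr (Or.inl (h ▸ dvd_mul_left _ _)))) hψ₀ hψ₁
  have hNS : ∀ l : ℕ, l.Prime → l ∣ N → l ∈ S := by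
    intro l hl hlN
    rw [← hN'] at hlN
    rcases (Nat.Prime.dvd_mul hl).mp hlN with h2 | h2
    · exact Finset.mem_union_left _ ((hB.hS₀ l hl).mpr (Or.inl h2))
    · obtain ⟨y, hy, hly⟩ := (Prime.dvd_finset_prod_iff hl.prime _).mp h2
      obtain ⟨i, -, rfl⟩ := Finset.mem_image.mp hy
      have h4 : l = q i := (Nat.prime_dvd_prime_iff_eq hl (hQ.prime i)).mp hly
      exact Finset.mem_union_right _ (h4 ▸ hy)
  have hpS : p ∈ S := Finset.mem_union_left _ ((hB.hS₀ p hB.hp).mpr (Or.inr rfl))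
  obtain ⟨l, hl, hlS, hlQ, hl1, hlu⟩ := hB.exists_nonEis N (Finset.univ.image q)
  have hlN : ¬ l ∣ N := by
    refine not_dvd_of_dvd_sub_one hl ?_
    have := Int.natCast_dvd_natCast.mpr hl1
    rwa [Nat.cast_sub hl.one_lt.le, Nat.cast_one] at this
  have hlS' : l ∉ S := by
    rw [hS, Finset.mem_union, not_or]
    exact ⟨hlS, hlQ⟩
  have hNE : NonEisP N ({l : ℕ | l.Prime ∧ l ∉ S} ∪ ((Finset.univ.image q : Finset ℕ) : Set ℕ))
      aQ := by
    refine ⟨l, Or.inl ⟨hl, hlS'⟩, hl, ?_, ?_⟩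
    · have := Int.natCast_dvd_natCast.mpr hl1
      rwa [Nat.cast_sub hl.one_lt.le, Nat.cast_one] at this
    · rw [haQ' l hlQ]
      exact hlu
  have h3 : IsUnit (3 : 𝒪) ∨ ∀ g : Gamma0 N, g ^ 3 = 1 → g = 1 := by
    rcases hB.h3 with h3 | h3
    · exact Or.inl h3
    · refine Or.inr fun g hg => ?_
      have hle : (g : SL(2, ℤ)) ∈ Gamma0 (M * q₀) := by
        have h5 := g.2
        rw [mem_G0] at h5 ⊢
        refine dvd_trans ?_ h5
        rw [← hN']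
        push_cast
        exact dvd_mul_right _ _
      have h6 := h3 ⟨g, hle⟩ (Subtype.ext (by
        have := congrArg Subtype.val hg
        exact this))
      have h7 : (g : SL(2, ℤ)) = 1 := congrArg (fun z : Gamma0 (M * q₀) => (z : SL(2, ℤ))) h6
      exact Subtype.ext h7
  obtain ⟨π, hπ, hsep, hxm, T, i1, i2, i3, i4, ι, x, t, hι, hgen, hx, hxa, hres, hmm, ht, hfr⟩ :=
    exists_core (N₀ := M * q₀) (N := N) hB.hp hB.hp𝒪 hB.hχ (S := S) hpS hNS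
      (D := DG p e) (odd_card_DG hB.hp2) (fun g => exists_pow_DG g) ψ hψ hE hNE hB.h8 h3 hd
      (Z.m.map (LinearEquiv.ofEq _ _ hHM.symm)) (fun l hl hlS => Or.inl ⟨hl, hlS⟩)
      (fun l hl => Finset.mem_union_right _ hl)
  -- comparison with level zero
  have hidx : ∀ i : Idx N S, ¬ i.1 ∣ M * q₀ ∧ i.1 ∉ S₀ := by
    intro i
    have h2 : i.1 ∉ S₀ := fun h => i.2.2.2 (Finset.mem_union_left _ h)
    exact ⟨fun h => h2 ((hB.hS₀ _ i.2.1).mpr (Or.inl h)), h2⟩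
  let up : Idx N S → Idx (M * q₀) S₀ := fun i => ⟨i.1, i.2.1, (hidx i).1, (hidx i).2⟩
  have hZx : ∀ i : Idx N S, Z.ι (Z.x (up i)) = (aug 𝒪 (DG p e)).mapMatrix (ι (x i)) := by
    intro i
    rw [hx, map_mul, aug_mapMatrix_scal, mul_one]
    ext k j
    have h2 : ∑ k, (Z.ι (Z.x (up i)) k j) • (Z.m k).1 =
        ∑ k, (aug 𝒪 (DG p e) (π (genT le_GK GK_le S (Sum.inl i)) k j)) • (Z.m k).1 := by
      rw [← Z.hx (up i) j]
      exact hxm i j
    have h3 : ∑ k, (Z.ι (Z.x (up i)) k j) • Z.m k =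
        ∑ k, (aug 𝒪 (DG p e) (π (genT le_GK GK_le S (Sum.inl i)) k j)) • Z.m k := by
      apply Subtype.ext
      rw [AddSubmonoidClass.coe_finset_sum, AddSubmonoidClass.coe_finset_sum]
      exact h2
    have h4 := congrArg (fun v => Z.m.repr v k) h3
    simp only [Module.Basis.repr_sum_self] at h4
    exact h4
  obtain ⟨pr, hpr⟩ := exists_adjoin_map ι Z.ι Z.hι x hgen (aug 𝒪 (DG p e)).mapMatrix
    (fun i => ⟨Z.x (up i), hZx i⟩)
  have hprx : ∀ i, pr (x i) = Z.x (up i) := fun i => Z.hι (by rw [hpr, hZx])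
  have hpT : (p : Z.T) ∈ maximalIdeal Z.T := by
    have h2 := (Z.hm (p : 𝒪)).mpr hB.hp𝒪
    rwa [map_natCast] at h2
  haveI : IsNoetherianRing Z.T := IsNoetherianRing.of_finite 𝒪 Z.T
  have hprt : (fun σ => pr (t σ)) = Z.t := by
    refine CycPs.ext ?_ (ht.map pr) Z.ht S fun l hl hlS A hA σ hσ => ?_
    · intro y hy
      have h2 : y ∈ ⨅ n : ℕ, maximalIdeal Z.T ^ n := by
        rw [Submodule.mem_iInf]
        intro n
        have h3 := hy n
        rw [← Ideal.span_singleton_pow] at h3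
        exact Ideal.pow_right_mono ((Ideal.span_singleton_le_iff_mem _).mpr hpT) n h3
      rw [Ideal.iInf_pow_eq_bot_of_isLocalRing _ (IsLocalRing.maximalIdeal.isMaximal _).ne_top]
        at h2
      exact h2
    · let i : Idx N S := ⟨l, hl, fun h => hlS (hNS l hl h), hlS⟩
      rw [hfr i A hA σ hσ, hprx, Z.hfr (up i) A hA σ hσ]
  exact ⟨
    { π := π
      hπ := hπ
      sep := hsep
      T := T
      ι := ι
      x := x
      t := t
      hι := hι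
      gen := hgen
      hx := hx
      hxa := fun i => by
        have h2 := hxa i
        rwa [haQ' i.1 (fun h => i.2.2.2 (Finset.mem_union_right _ h))] at h2
      hres := hres
      hm := hmm
      ht := ht
      hfr := hfr
      pr := pr
      hpr := fun y i j => by rw [hpr]; rfl
      hprt := fun σ => congrFun hprt σ
      i₀ := ⟨l, hl, hlN, hlS'⟩
      hi₀ := hl1
      hi₀a := hlu }⟩

end Level

end Fermat.Agent.RT
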