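import Fermat.Agent.RT.Corr

set_option autoImplicit false

/-!
# The Hecke correspondence `T_l` on `Hom(G, A)`, `Γ₁(N) ≤ G ≤ Γ₀(N)`
-/

open Matrix CongruenceSubgroup
open scoped MatrixGroups

namespace Fermat.Agent.RT.Ihara

variable {A : Type*} [AddCommGroup A] {G G₁ G₂ G₃ : Subgroup SL(2, ℤ)} {N : ℕ}

/-- change of representatives -/
theorem Corr.of_equiv {ι κ : Type*} {D : κ → Mat} {E : ι → Mat} (H : Corr G₁ G₂ D) (f : ι ≃ κ)
    (h : ∀ x, ∃ g ∈ G₁, E x = (g : Mat) * D (f x)) : Corr G₁ G₂ E := by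
  choose γ hγ e using h
  refine ⟨fun x => ?_, fun x g hg => ?_, fun x y g hg e' => ?_⟩
  · rw [e, Matrix.det_mul, (γ x).det_coe, one_mul]; exact H.det _
  · obtain ⟨y, g', hg', e'⟩ := H.act (f x) g hg
    refine ⟨f.symm y, γ x * g' * (γ (f.symm y))⁻¹, mul_mem (mul_mem (hγ x) hg')
      (inv_mem (hγ _)), ?_⟩
    have h1 : ((γ (f.symm y))⁻¹ : SL(2, ℤ)) * γ (f.symm y) = 1 := inv_mul_cancel _
    have h2 : E (f.symm y) = (γ (f.symm y) : Mat) * D y := by
      rw [e]; congr 2; exact f.apply_symm_apply y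
    rw [h2, sl_coe_mul, mul_assoc, ← mul_assoc (((γ (f.symm y))⁻¹ : SL(2, ℤ)) : Mat), ← sl_coe_mul,
      h1, e, mul_assoc, e', sl_coe_mul]
    simp only [mul_assoc]
    congr 2
    exact (one_mul _).symm
  · refine f.injective (H.inj _ _ ((γ x)⁻¹ * g * γ y) (mul_mem (mul_mem (inv_mem (hγ x)) hg)
      (hγ y)) ?_)
    have h1 : ((γ x)⁻¹ : SL(2, ℤ)) * γ x = 1 := inv_mul_cancel _
    have h3 : D (f x) = (((γ x)⁻¹ : SL(2, ℤ)) : Mat) * ((γ x : Mat) * D (f x)) := by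
      rw [← mul_assoc, ← sl_coe_mul, h1]; exact (one_mul _).symm
    rw [h3, ← e, e', e, sl_coe_mul, sl_coe_mul]
    simp only [mul_assoc]

/-- matrices congruent to `(1 *; 0 *)` modulo `N` -/
structure GMat (N : ℕ) (D : Mat) : Prop where
  d10 : (N : ℤ) ∣ D 1 0
  d00 : (N : ℤ) ∣ D 0 0 - 1

theorem GMat.mem {D D' : Mat} (h1 : Gamma1 N ≤ G) (h0 : G ≤ Gamma0 N) (hD : GMat N D)
    (hD' : GMat N D') {g h : SL(2, ℤ)} (hg : g ∈ G) (e : D * (g : Mat) = (h : Mat) * D') :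
    h ∈ G := by
  obtain ⟨a, ha⟩ := hD.d10
  obtain ⟨b, hb⟩ := hD.d00
  obtain ⟨a', ha'⟩ := hD'.d10
  obtain ⟨b', hb'⟩ := hD'.d00
  obtain ⟨k, hk⟩ := mem_G0.mp (h0 hg)
  have e10 := congrFun (congrFun e 1) 0
  have e00 := congrFun (congrFun e 0) 0
  simp only [Matrix.mul_apply, Fin.sum_univ_two] at e10 e00
  refine mem_of_congr' h1 hg (mem_G0.mp (h0 hg)) ⟨a * g 0 0 + D 1 1 * k - h 1 0 * b' -
    h 1 1 * a', ?_⟩ ⟨b * g 0 0 + D 0 1 * k - h 0 0 * b' - h 0 1 * a', ?_⟩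
  · rw [ha, hk, ha'] at e10
    linear_combination -e10 - h 1 0 * hb'
  · rw [hk, ha'] at e00
    linear_combination -e00 - h 0 0 * hb' + g 0 0 * hb

theorem Mx_gmat {l : ℕ} (j : Fin l) : GMat N (Mx l (some j)) :=
  ⟨by simp [Mx], by simp [Mx]⟩

theorem Mx_det_ne {l : ℕ} (hl : l ≠ 0) (x : Option (Fin l)) : (Mx l x).det ≠ 0 := by
  rw [Mx_det]; exact_mod_cast hl

/-- a unimodular matrix with given first column -/
theorem exists_sl_col {a c : ℤ} (h : IsCoprime a c) : ∃ g : SL(2, ℤ), g 0 0 = a ∧ g 1 0 = c := by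
  obtain ⟨u, v, huv⟩ := h
  exact ⟨sl a (-v) c u (by linear_combination huv), rfl, rfl⟩

/-- reduction to upper triangular form -/
theorem exists_upper (M : Mat) (hM : M.det ≠ 0) : ∃ (h : SL(2, ℤ)) (a b d : ℤ), 0 < a ∧
    M = (h : Mat) * !![a, b; 0, d] ∧ a * d = M.det := by
  have hne : M 0 0 ≠ 0 ∨ M 1 0 ≠ 0 := by
    by_contra hcon
    push Not at hcon
    apply hM
    rw [Matrix.det_fin_two, hcon.1, hcon.2]; ring
  have hg : 0 < Int.gcd (M 0 0) (M 1 0) := Int.gcd_pos_iff.mpr hne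
  obtain ⟨a', c', hco, ha, hc⟩ := Int.exists_gcd_one hg
  set n : ℤ := (Int.gcd (M 0 0) (M 1 0) : ℤ) with hn
  have hn0 : 0 < n := by rw [hn]; exact_mod_cast hg
  have hco' : IsCoprime a' c' := Int.isCoprime_iff_gcd_eq_one.mpr hco
  obtain ⟨g, hg0, hg1⟩ := exists_sl_col hco'
  have hdet := det2 g
  rw [hg0, hg1] at hdet
  have key : M = (g : Mat) * !![n, g 1 1 * M 0 1 - g 0 1 * M 1 1; 0, a' * M 1 1 - c' * M 0 1] := by
    ext i j
    fin_cases i <;> fin_cases j <;>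
      simp [Matrix.mul_apply, Fin.sum_univ_two, hg0, hg1]
    · rw [ha]
    · linear_combination (-M 0 1) * hdet
    · rw [hc]
    · linear_combination (-M 1 1) * hdet
  refine ⟨g, n, _, _, hn0, key, ?_⟩
  rw [Matrix.det_fin_two, ha, hc]
  ring

/-- Hermite form of matrices of prime determinant -/
theorem exists_herm {l : ℕ} (hl : l.Prime) (M : Mat) (hM : M.det = l) :
    ∃ (x : Option (Fin l)) (h : SL(2, ℤ)), M = (h : Mat) * Mx l x := by
  have hl0 : (l : ℤ) ≠ 0 := by exact_mod_cast hl.ne_zero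
  obtain ⟨h, a, b, d, ha, e, had⟩ := exists_upper M (by rw [hM]; exact hl0)
  rw [hM] at had
  have hd : 0 < d := by
    have : 0 < a * d := by rw [had]; exact_mod_cast hl.pos
    exact (pos_iff_pos_of_mul_pos this).mp ha
  have hdvd : a ∣ (l : ℤ) := Dvd.intro _ had
  lift a to ℕ using ha.le
  have h2 := (Nat.dvd_prime hl).mp (Int.natCast_dvd_natCast.mp hdvd)
  rcases h2 with rfl | rfl
  · simp only [Nat.cast_one, one_mul] at had
    subst had
    refine ⟨some ⟨(b % l).toNat, ?_⟩, h * up (b / l), ?_⟩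
    · have h3 := Int.emod_lt_of_pos b (by exact_mod_cast hl.pos : (0 : ℤ) < l)
      have h4 := Int.emod_nonneg b hl0
      omega
    · have h4 := Int.emod_nonneg b hl0
      have h5 : (((b % l).toNat : ℕ) : ℤ) = b % l := Int.toNat_of_nonneg h4
      rw [e, sl_coe_mul, mul_assoc]
      congr 1
      ext i j
      fin_cases i <;> fin_cases j <;> simp [up, sl, Mx, Matrix.mul_apply, Fin.sum_univ_two, h5]
      rw [mul_comm]
      exact (Int.emod_add_mul_ediv b l).symm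
  · have hd1 : d = 1 := by
      have : (a : ℤ) * d = a * 1 := by rw [had, mul_one]
      exact mul_left_cancel₀ hl0 this
    subst hd1
    refine ⟨none, h * up b, ?_⟩
    rw [e, sl_coe_mul, mul_assoc]
    congr 1
    ext i j
    fin_cases i <;> fin_cases j <;> simp [up, sl, Mx, Matrix.mul_apply, Fin.sum_univ_two]

/-- uniqueness of the Hermite form -/
theorem herm_unique {l : ℕ} (hl : l.Prime) {x y : Option (Fin l)} {h : SL(2, ℤ)}
    (e : Mx l x = (h : Mat) * Mx l y) : x = y := by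
  have hl1 := hl.one_lt
  have e00 := congrFun (congrFun e 0) 0
  have e01 := congrFun (congrFun e 0) 1
  have e10 := congrFun (congrFun e 1) 0
  have e11 := congrFun (congrFun e 1) 1
  have hdet := det2 h
  rcases x with _ | i <;> rcases y with _ | j <;>
    simp [Mx, Matrix.mul_apply, Fin.sum_univ_two] at e00 e01 e10 e11
  · rfl
  · rw [← e00, ← e10] at hdet
    rw [← e10] at e11
    have h5 : ((l : ℤ)) ∣ 1 := ⟨h 1 1, by linarith⟩
    have := Int.le_of_dvd one_pos h5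
    omega
  · have h3 : h 1 0 = 0 := e10.resolve_right (by omega)
    have h5 : ((l : ℤ)) ∣ 1 := ⟨h 0 0, by linarith⟩
    have := Int.le_of_dvd one_pos h5
    omega
  · rw [← e00, ← e10] at hdet
    have h3 : h 1 1 = 1 := by linarith
    rw [← e00] at e01
    have h4 : (l : ℤ) ∣ (i : ℤ) - j := ⟨h 0 1, by rw [e01]; ring⟩
    have h5 : ((i : ℕ) : ZMod l) = ((j : ℕ) : ZMod l) := by
      have := (ZMod.intCast_zmod_eq_zero_iff_dvd _ _).mpr h4
      push_cast at this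
      exact sub_eq_zero.mp this
    rw [ZMod.natCast_eq_natCast_iff', Nat.mod_eq_of_lt i.2, Nat.mod_eq_of_lt j.2] at h5
    exact congrArg some (Fin.ext h5)

open Classical in
/-- an element of `Γ₀(N)` with lower right entry congruent to `l` -/
noncomputable def diaEl (N l : ℕ) : SL(2, ℤ) :=
  if h : ∃ σ ∈ Gamma0 N, (N : ℤ) ∣ σ 1 1 - l then h.choose else 1

theorem exists_diaEl {N l : ℕ} (h : IsCoprime (N : ℤ) (l : ℤ)) :
    ∃ σ ∈ Gamma0 N, (N : ℤ) ∣ σ 1 1 - l := by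
  obtain ⟨u, v, huv⟩ := h
  refine ⟨sl v (-u) N l (by linear_combination huv), ?_, ?_⟩
  · rw [mem_G0, sl_10]
  · rw [sl_11, sub_self]; exact dvd_zero _

theorem diaEl_mem (N l : ℕ) : diaEl N l ∈ Gamma0 N := by
  rw [diaEl]
  split_ifs with h
  · exact h.choose_spec.1
  · exact one_mem _

theorem diaEl_11 {N l : ℕ} (h : IsCoprime (N : ℤ) (l : ℤ)) : (N : ℤ) ∣ diaEl N l 1 1 - l := by
  rw [diaEl, dif_pos (exists_diaEl h)]
  exact (exists_diaEl h).choose_spec.2

theorem diaEl_00 {N l : ℕ} (h : IsCoprime (N : ℤ) (l : ℤ)) : (N : ℤ) ∣ diaEl N l 0 0 * l - 1 := by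
  obtain ⟨a, ha⟩ := diaEl_11 h
  obtain ⟨b, hb⟩ := mem_G0.mp (diaEl_mem N l)
  have hdet := det2 (diaEl N l)
  rw [hb] at hdet
  exact ⟨diaEl N l 0 1 * b - diaEl N l 0 0 * a, by
    linear_combination hdet - diaEl N l 0 0 * ha⟩

/-- the twisting elements -/
noncomputable def twEl (N l : ℕ) : Option (Fin l) → SL(2, ℤ)
  | some _ => 1
  | none => diaEl N l

/-- the representatives of `T_l` for `G` -/
noncomputable def TD (N l : ℕ) (x : Option (Fin l)) : Mat := (twEl N l x : Mat) * Mx l x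

theorem TD_det (N l : ℕ) (x : Option (Fin l)) : (TD N l x).det = l := by
  rw [TD, Matrix.det_mul, (twEl N l x).det_coe, one_mul, Mx_det]

theorem TD_gmat {l : ℕ} (h : IsCoprime (N : ℤ) (l : ℤ)) (x : Option (Fin l)) :
    GMat N (TD N l x) := by
  rcases x with _ | j
  · constructor
    · have h1 : TD N l none 1 0 = diaEl N l 1 0 * l := by
        simp [TD, twEl, Mx, Matrix.mul_apply, Fin.sum_univ_two]
      rw [h1]
      exact (mem_G0.mp (diaEl_mem N l)).mul_right _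
    · have h1 : TD N l none 0 0 = diaEl N l 0 0 * l := by
        simp [TD, twEl, Mx, Matrix.mul_apply, Fin.sum_univ_two]
      rw [h1]
      exact diaEl_00 h
  · have : TD N l (some j) = Mx l (some j) := by simp [TD, twEl]
    rw [this]
    exact Mx_gmat j

theorem exists_TD {l : ℕ} (hl : l.Prime) (M : Mat) (hM : M.det = l) :
    ∃ (x : Option (Fin l)) (h : SL(2, ℤ)), M = (h : Mat) * TD N l x := by
  obtain ⟨x, h, e⟩ := exists_herm hl M hM
  refine ⟨x, h * (twEl N l x)⁻¹, ?_⟩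
  rw [TD, sl_coe_mul, mul_assoc, ← mul_assoc _ (twEl N l x : Mat), ← sl_coe_mul, inv_mul_cancel, e]
  congr 1
  exact (one_mul _).symm

theorem TD_unique {l : ℕ} (hl : l.Prime) {x y : Option (Fin l)} {h : SL(2, ℤ)}
    (e : TD N l x = (h : Mat) * TD N l y) : x = y := by
  refine herm_unique hl (h := (twEl N l x)⁻¹ * h * twEl N l y) ?_
  have h1 : ((twEl N l x)⁻¹ : SL(2, ℤ)) * twEl N l x = 1 := inv_mul_cancel _
  have h3 : Mx l x = (((twEl N l x)⁻¹ : SL(2, ℤ)) : Mat) * TD N l x := by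
    rw [TD, ← mul_assoc, ← sl_coe_mul, h1]; exact (one_mul _).symm
  rw [h3, e, TD, sl_coe_mul, sl_coe_mul]
  simp only [mul_assoc]

/-- families of matrices of prime determinant congruent to `(1 *; 0 *)` -/
theorem corr_TD {l : ℕ} (h1 : Gamma1 N ≤ G) (h0 : G ≤ Gamma0 N) (hl : l.Prime)
    (hNl : IsCoprime (N : ℤ) (l : ℤ)) : Corr G G (TD N l) where
  det x := by rw [TD_det]; exact_mod_cast hl.ne_zero
  act x g hg := by
    obtain ⟨y, h, e⟩ := exists_TD (N := N) hl (TD N l x * (g : Mat))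
      (by rw [Matrix.det_mul, TD_det, g.det_coe, mul_one])
    exact ⟨y, h, GMat.mem h1 h0 (TD_gmat hNl x) (TD_gmat hNl y) hg e, e⟩
  inj x y g hg e := TD_unique hl e

/-- any injective family of such matrices is equivalent to `TD` -/
theorem exists_equiv_TD {l : ℕ} (h1 : Gamma1 N ≤ G) (h0 : G ≤ Gamma0 N) (hl : l.Prime)
    (hNl : IsCoprime (N : ℤ) (l : ℤ)) {P : Option (Fin l) → Mat} (hP : ∀ x, GMat N (P x))
    (hdet : ∀ x, (P x).det = l) (hinj : ∀ x y, ∀ g : SL(2, ℤ), P x = (g : Mat) * P y → x = y) :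
    ∃ f : Option (Fin l) ≃ Option (Fin l), ∀ x, ∃ g ∈ G, P x = (g : Mat) * TD N l (f x) := by
  choose f γ e using fun x => exists_TD (N := N) hl (P x) (hdet x)
  have hf : Function.Injective f := by
    intro x y hxy
    refine hinj x y (γ x * (γ y)⁻¹) ?_
    have h3 : TD N l (f y) = (((γ y)⁻¹ : SL(2, ℤ)) : Mat) * P y := by
      rw [e y, ← mul_assoc, ← sl_coe_mul, inv_mul_cancel]; exact (one_mul _).symm
    rw [e x, hxy, h3, sl_coe_mul, mul_assoc]
  refine ⟨Equiv.ofBijective f (Finite.injective_iff_bijective.mp hf), fun x => ⟨γ x, ?_, e x⟩⟩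
  refine GMat.mem h1 h0 (hP x) (TD_gmat hNl (f x)) (one_mem _) ?_
  rw [← e x]
  exact mul_one _

variable {R : Type*} [CommRing R] [Module R A]

/-- the eigenvalue equation needed in `Hyp.ihara` -/
theorem hT_of_opc {l : ℕ} (h1 : Gamma1 N ≤ G) (h0 : G ≤ Gamma0 N) (hl : l.Prime)
    (hNl : IsCoprime (N : ℤ) (l : ℤ)) {c : SL(2, ℤ) → A} (hc : AddOn G c)
    (hconj : ∀ g ∈ G, ∀ h ∈ Gamma0 N, h * g * h⁻¹ ∈ G)
    (dia : ∀ g ∈ G, ∀ h ∈ Gamma0 N, c (h * g * h⁻¹) = c g) {lam : R}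
    (hT : ∀ g ∈ G, opc G (TD N l) c g = lam • c g) :
    ∀ g ∈ G, ∀ γ' : Option (Fin l) → SL(2, ℤ), (∀ x, γ' x ∈ G) →
      (∀ x, Mx l x * (g : Mat) = (γ' x : Mat) * Mx l x) → ∑ x, c (γ' x) = lam • c g := by
  intro g hg γ' hγ' e
  rw [← hT g hg]
  have htw : ∀ x, twEl N l x ∈ Gamma0 N := by
    rintro (_ | j)
    · exact diaEl_mem N l
    · exact one_mem _
  rw [(corr_TD h1 h0 hl hNl).opc_eq hc hg (γ := fun x => twEl N l x * γ' x * (twEl N l x)⁻¹)
    (σ := id) (fun x => hconj _ (hγ' x) _ (htw x))]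
  · exact Finset.sum_congr rfl fun x _ => (dia _ (hγ' x) _ (htw x)).symm
  · intro x
    have h2 : ((twEl N l x)⁻¹ : SL(2, ℤ)) * twEl N l x = 1 := inv_mul_cancel _
    rw [TD, mul_assoc, e, id, TD, sl_coe_mul, sl_coe_mul]
    simp only [mul_assoc]
    congr 2
    rw [← mul_assoc _ (twEl N l x : Mat), ← sl_coe_mul, h2]
    exact (one_mul _).symm

/-! ### Parabolic elements -/

theorem up_add (s t : ℤ) : up (s + t) = up s * up t := by
  apply sl_ext
  · rw [sl_mul_00]; simp [up]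
  · rw [sl_mul_01]; simp [up]; ring
  · rw [sl_mul_10]; simp [up]
  · rw [sl_mul_11]; simp [up]

theorem up_zero : up 0 = 1 := by
  apply sl_ext <;> simp [up]

theorem up_zpow (s n : ℤ) : up s ^ n = up (n * s) := by
  have h1 : ∀ n : ℕ, up s ^ n = up (n * s) := by
    intro n
    induction n with
    | zero => simp [up_zero]
    | succ n ih => rw [pow_succ, ih, ← up_add]; congr 1; push_cast; ring
  rcases n with n | n
  · rw [Int.ofNat_eq_natCast, zpow_natCast, h1]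
  · rw [zpow_negSucc, h1, Int.negSucc_eq, inv_eq_iff_mul_eq_one, ← up_add, ← up_zero]
    congr 1; push_cast; ring

theorem conj_up_zpow (h : SL(2, ℤ)) (s n : ℤ) :
    (h * up s * h⁻¹) ^ n = h * up (n * s) * h⁻¹ := by
  rw [← up_zpow, conj_zpow]

/-- conjugates of `up (N u)` are in `Γ₁(N)` -/
theorem conj_up_mem (h : SL(2, ℤ)) {s : ℤ} (hs : (N : ℤ) ∣ s) : h * up s * h⁻¹ ∈ Gamma1 N := by
  obtain ⟨u, rfl⟩ := hs
  have i00 : (h⁻¹) 0 0 = h 1 1 := by simp [adjugate_fin_two]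
  have i01 : (h⁻¹) 0 1 = -h 0 1 := by simp [adjugate_fin_two]
  have i10 : (h⁻¹) 1 0 = -h 1 0 := by simp [adjugate_fin_two]
  have i11 : (h⁻¹) 1 1 = h 0 0 := by simp [adjugate_fin_two]
  have hdet := det2 h
  have e00 : (h * up (N * u) * h⁻¹) 0 0 = 1 + N * (-(h 0 0 * u * h 1 0)) := by
    rw [sl_mul_00, sl_mul_00, sl_mul_01, i00, i10]
    simp only [up, sl_00, sl_01, sl_10, sl_11]
    linear_combination hdet
  have e10 : (h * up (N * u) * h⁻¹) 1 0 = N * (-(h 1 0 * u * h 1 0)) := by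
    rw [sl_mul_10, sl_mul_10, sl_mul_11, i00, i10]
    simp only [up, sl_00, sl_01, sl_10, sl_11]
    ring
  have e11 : (h * up (N * u) * h⁻¹) 1 1 = 1 + N * (h 1 0 * u * h 0 0) := by
    rw [sl_mul_11, sl_mul_10, sl_mul_11, i01, i11]
    simp only [up, sl_00, sl_01, sl_10, sl_11]
    linear_combination hdet
  rw [Gamma1_mem, e00, e10, e11]
  simp

/-- the representatives adapted to a cusp -/
noncomputable def PD (N l : ℕ) (h : SL(2, ℤ)) : Option (Fin l) → Mat
  | some j => (h : Mat) * !![1, (N : ℤ) * ((j : ℕ) : ℤ); 0, l] * ((h⁻¹ : SL(2, ℤ)) : Mat)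
  | none => (h : Mat) * !![(l : ℤ), 0; 0, 1] * ((h⁻¹ : SL(2, ℤ)) : Mat)

theorem gmat_conj {l : ℕ} (hl1 : (N : ℤ) ∣ (l : ℤ) - 1) (h : SL(2, ℤ)) {a b d : ℤ}
    (ha : (N : ℤ) ∣ a - 1) (hb : (N : ℤ) ∣ b) (hd : (N : ℤ) ∣ d - 1) :
    GMat N ((h : Mat) * !![a, b; 0, d] * ((h⁻¹ : SL(2, ℤ)) : Mat)) := by
  obtain ⟨a', ha⟩ := ha
  obtain ⟨b', rfl⟩ := hb
  obtain ⟨d', hd⟩ := hd
  have i00 : (h⁻¹) 0 0 = h 1 1 := by simp [adjugate_fin_two]
  have i10 : (h⁻¹) 1 0 = -h 1 0 := by simp [adjugate_fin_two]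
  have hdet := det2 h
  constructor
  · refine ⟨h 1 0 * a' * h 1 1 - (h 1 0 * b' + h 1 1 * d') * h 1 0, ?_⟩
    simp only [Matrix.mul_apply, Fin.sum_univ_two, Matrix.of_apply, Matrix.cons_val',
      Matrix.cons_val_zero, Matrix.cons_val_one, Matrix.cons_val_fin_one, i00, i10]
    linear_combination h 1 0 * h 1 1 * ha - h 1 1 * h 1 0 * hd
  · refine ⟨h 0 0 * a' * h 1 1 - (h 0 0 * b' + h 0 1 * d') * h 1 0, ?_⟩
    simp only [Matrix.mul_apply, Fin.sum_univ_two, Matrix.of_apply, Matrix.cons_val',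
      Matrix.cons_val_zero, Matrix.cons_val_one, Matrix.cons_val_fin_one, i00, i10]
    linear_combination h 0 0 * h 1 1 * ha - h 0 1 * h 1 0 * hd + hdet

theorem PD_gmat {l : ℕ} (hl1 : (N : ℤ) ∣ (l : ℤ) - 1) (h : SL(2, ℤ)) (x : Option (Fin l)) :
    GMat N (PD N l h x) := by
  rcases x with _ | j
  · exact gmat_conj hl1 h hl1 (dvd_zero _) (by simp)
  · exact gmat_conj hl1 h (by simp) (dvd_mul_right _ _) hl1

theorem PD_det (N l : ℕ) (h : SL(2, ℤ)) (x : Option (Fin l)) : (PD N l h x).det = l := by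
  rcases x with _ | j
  · rw [PD, Matrix.det_mul, Matrix.det_mul, h.det_coe, (h⁻¹).det_coe, Matrix.det_fin_two]
    simp
  · rw [PD, Matrix.det_mul, Matrix.det_mul, h.det_coe, (h⁻¹).det_coe, Matrix.det_fin_two]
    simp

theorem PD_inj {l : ℕ} (hl : l.Prime) (hNl : IsCoprime (N : ℤ) (l : ℤ)) (h : SL(2, ℤ))
    (x y : Option (Fin l)) (g : SL(2, ℤ)) (e : PD N l h x = (g : Mat) * PD N l h y) : x = y := by
  have hl0 : (l : ℤ) ≠ 0 := by exact_mod_cast hl.ne_zero
  have hlp : Prime (l : ℤ) := Nat.prime_iff_prime_int.mp hl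
  have hunit : ¬ (l : ℤ) ∣ 1 := fun h => by
    have := Int.le_of_dvd one_pos h
    have := hl.one_lt
    omega
  -- reduce to `h = 1`
  have key : ∀ X Y : Mat, (h : Mat) * X * ((h⁻¹ : SL(2, ℤ)) : Mat) =
      (g : Mat) * ((h : Mat) * Y * ((h⁻¹ : SL(2, ℤ)) : Mat)) →
      X = ((h⁻¹ * g * h : SL(2, ℤ)) : Mat) * Y := by
    intro X Y e
    have hd : ((h⁻¹ : SL(2, ℤ)) : Mat).det ≠ 0 := by rw [(h⁻¹).det_coe]; norm_num
    have hd' : ((h : SL(2, ℤ)) : Mat).det ≠ 0 := by rw [(h).det_coe]; norm_num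
    refine mat_cancel_left hd' (mat_cancel_right hd ?_)
    rw [e, ← mul_assoc (h : Mat), ← sl_coe_mul]
    have h1 : h * (h⁻¹ * g * h) = g * h := by group
    rw [h1, sl_coe_mul]
    simp only [mul_assoc]
  set g' := h⁻¹ * g * h with hg'
  have hdet := det2 g'
  rcases x with _ | i <;> rcases y with _ | j
  · rfl
  · have e' := key _ _ e
    have e00 := congrFun (congrFun e' 0) 0
    have e10 := congrFun (congrFun e' 1) 0
    have e11 := congrFun (congrFun e' 1) 1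
    simp [Matrix.mul_apply, Fin.sum_univ_two] at e00 e10 e11
    rw [← e10] at e11
    exact absurd ⟨g' 1 1, by linarith⟩ hunit
  · have e' := key _ _ e
    have e00 := congrFun (congrFun e' 0) 0
    simp [Matrix.mul_apply, Fin.sum_univ_two] at e00
    exact absurd ⟨g' 0 0, by linarith⟩ hunit
  · have e' := key _ _ e
    have e00 := congrFun (congrFun e' 0) 0
    have e01 := congrFun (congrFun e' 0) 1
    simp [Matrix.mul_apply, Fin.sum_univ_two] at e00 e01
    rw [← e00] at e01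
    have h4 : (l : ℤ) ∣ N * ((i : ℤ) - j) := ⟨g' 0 1, by linear_combination e01⟩
    have h4 : (l : ℤ) ∣ (i : ℤ) - j := hNl.symm.dvd_of_dvd_mul_left h4
    have h5 : ((i : ℕ) : ZMod l) = ((j : ℕ) : ZMod l) := by
      have := (ZMod.intCast_zmod_eq_zero_iff_dvd _ _).mpr h4
      push_cast at this
      exact sub_eq_zero.mp this
    rw [ZMod.natCast_eq_natCast_iff', Nat.mod_eq_of_lt i.2, Nat.mod_eq_of_lt j.2] at h5
    exact congrArg some (Fin.ext h5)

theorem exists_fin_repr {l : ℕ} (hl : l.Prime) (hNl : IsCoprime (N : ℤ) (l : ℤ)) (z : ℤ) :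
    ∃ (j : Fin l) (t : ℤ), z = N * ((j : ℕ) : ℤ) + l * t := by
  have hl0 : (l : ℤ) ≠ 0 := by exact_mod_cast hl.ne_zero
  obtain ⟨u, v, huv⟩ := hNl
  have h3 := Int.emod_lt_of_pos (z * u) (by exact_mod_cast hl.pos : (0 : ℤ) < l)
  have h4 := Int.emod_nonneg (z * u) hl0
  have h5 : ((((z * u) % l).toNat : ℕ) : ℤ) = (z * u) % l := Int.toNat_of_nonneg h4
  refine ⟨⟨((z * u) % l).toNat, by omega⟩, z * v + N * (z * u / l), ?_⟩
  have h6 := Int.emod_add_mul_ediv (z * u) l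
  simp only [h5]
  linear_combination (-z) * huv - N * h6

/-- **`T_l = l + 1` on parabolic elements**, for primes `l ≡ 1 mod N`. -/
theorem opc_parabolic {l : ℕ} (h1 : Gamma1 N ≤ G) (h0 : G ≤ Gamma0 N) (hl : l.Prime)
    (hNl : IsCoprime (N : ℤ) (l : ℤ)) (hl1 : (N : ℤ) ∣ (l : ℤ) - 1) {c : SL(2, ℤ) → A}
    (hc : AddOn G c) (h : SL(2, ℤ)) (t : ℤ) (hg : h * up t * h⁻¹ ∈ G) :
    opc G (TD N l) c (h * up t * h⁻¹) = (l + 1) • c (h * up t * h⁻¹) := by
  have hl0 : (l : ℤ) ≠ 0 := by exact_mod_cast hl.ne_zero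
  obtain ⟨f, hf⟩ := exists_equiv_TD h1 h0 hl hNl (PD_gmat hl1 h) (PD_det N l h)
    (fun x y g => PD_inj hl hNl h x y g)
  have HT := corr_TD h1 h0 hl hNl
  have HP : Corr G G (PD N l h) := HT.of_equiv f hf
  have hrel : ∀ x, relG G (TD N l (f x)) (PD N l h x) := by
    intro x
    obtain ⟨g, hg, e⟩ := hf x
    exact ⟨1, 1, one_pos, one_pos, g, hg, by rw [e]⟩
  rw [← opc_eq_of_equiv HP HT hc f hrel hg]
  -- the permutation of the representatives
  choose σ t' e using fun j : Fin l => exists_fin_repr hl hNl (t + N * ((j : ℕ) : ℤ))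
  have hσ : Function.Injective σ := by
    intro i j hij
    have e1 := e i
    have e2 := e j
    rw [hij] at e1
    have h4 : (l : ℤ) ∣ N * (((i : ℕ) : ℤ) - ((j : ℕ) : ℤ)) :=
      ⟨t' i - t' j, by linear_combination e1 - e2⟩
    have h4 : (l : ℤ) ∣ ((i : ℕ) : ℤ) - ((j : ℕ) : ℤ) := hNl.symm.dvd_of_dvd_mul_left h4
    have h5 : ((i : ℕ) : ZMod l) = ((j : ℕ) : ZMod l) := by
      have := (ZMod.intCast_zmod_eq_zero_iff_dvd _ _).mpr h4
      push_cast at this
      exact sub_eq_zero.mp this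
    rw [ZMod.natCast_eq_natCast_iff', Nat.mod_eq_of_lt i.2, Nat.mod_eq_of_lt j.2] at h5
    exact Fin.ext h5
  obtain ⟨u, hu⟩ := hl1
  -- `t' ≡ t mod N`
  have ht' : ∀ j, t' j = t + N * (((j : ℕ) : ℤ) - ((σ j : ℕ) : ℤ) - u * t' j) := by
    intro j
    linear_combination -(e j) - t' j * hu
  set r : Fin l → ℤ := fun j => ((j : ℕ) : ℤ) - ((σ j : ℕ) : ℤ) - u * t' j with hr
  have hN1 : h * up N * h⁻¹ ∈ G := h1 (conj_up_mem h dvd_rfl)
  have hNr : ∀ n : ℤ, h * up (n * N) * h⁻¹ ∈ G := fun n =>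
    h1 (conj_up_mem h (dvd_mul_left _ _))
  have hψ : ∀ j, h * up (t' j) * h⁻¹ = (h * up t * h⁻¹) * (h * up (r j * N) * h⁻¹) := by
    intro j
    have : h * up t * h⁻¹ * (h * up (r j * N) * h⁻¹) = h * (up t * up (r j * N)) * h⁻¹ := by group
    rw [this, ← up_add]
    congr 2
    rw [ht' j]
    congr 1
    rw [hr]; ring
  have hmem : ∀ j, h * up (t' j) * h⁻¹ ∈ G := fun j => by
    rw [hψ j]; exact mul_mem hg (hNr _)
  have hmeml : h * up (l * t) * h⁻¹ ∈ G := by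
    rw [← conj_up_zpow]; exact zpow_mem hg _
  have hval : ∀ j, c (h * up (t' j) * h⁻¹) = c (h * up t * h⁻¹) + r j • c (h * up N * h⁻¹) := by
    intro j
    rw [hψ j, hc _ hg _ (hNr _), ← conj_up_zpow, hc.zpow hN1]
  -- the value at `N u t`
  have hut : (u * t) • c (h * up N * h⁻¹) = ((l : ℤ) - 1) • c (h * up t * h⁻¹) := by
    rw [← hc.zpow hN1, ← hc.zpow hg, conj_up_zpow, conj_up_zpow, hu]
    congr 3
    congr 1
    ring
  have hsumr : ∑ j, r j = -(u * t) := by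
    have hN0 : (N : ℤ) = 0 ∨ (N : ℤ) ≠ 0 := em _
    have s1 : ∑ j : Fin l, ((j : ℕ) : ℤ) - ∑ j : Fin l, ((σ j : ℕ) : ℤ) = 0 := by
      have := Equiv.sum_comp (Equiv.ofBijective σ (Finite.injective_iff_bijective.mp hσ))
        (fun j : Fin l => ((j : ℕ) : ℤ))
      simp only [Equiv.ofBijective_apply] at this
      rw [this, sub_self]
    have s2 : (l : ℤ) * ∑ j, t' j = l * t := by
      rw [Finset.mul_sum]
      have : ∀ j, (l : ℤ) * t' j = t + N * (((j : ℕ) : ℤ) - ((σ j : ℕ) : ℤ)) := by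
        intro j
        linear_combination -(e j)
      rw [Finset.sum_congr rfl fun j _ => this j, Finset.sum_add_distrib, ← Finset.mul_sum,
        Finset.sum_sub_distrib, s1]
      simp
    have s3 := mul_left_cancel₀ hl0 s2
    rw [hr]
    simp only [Finset.sum_sub_distrib, ← Finset.mul_sum, s1, s3]
    ring
  rw [HP.opc_eq hc hg (γ := fun x => match x with
    | some j => h * up (t' j) * h⁻¹
    | none => h * up (l * t) * h⁻¹) (σ := fun x => match x with
    | some j => some (σ j)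
    | none => none)]
  · rw [Fintype.sum_option]
    simp only [hval]
    rw [Finset.sum_add_distrib, ← Finset.sum_smul, hsumr, neg_smul, hut, ← conj_up_zpow,
      hc.zpow hg, Finset.sum_const, Finset.card_univ, Fintype.card_fin, sub_smul, one_smul,
      natCast_zsmul, add_smul, one_smul]
    abel
  · rintro (_ | j)
    · exact hmeml
    · exact hmem j
  · have hhh : ((h⁻¹ : SL(2, ℤ)) : Mat) * (h : Mat) = 1 := by
      rw [← sl_coe_mul, inv_mul_cancel]; rfl
    have conv : ∀ (X : Mat) (s : ℤ), (h : Mat) * X * ((h⁻¹ : SL(2, ℤ)) : Mat) *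
        ((h * up s * h⁻¹ : SL(2, ℤ)) : Mat) =
        (h : Mat) * (X * (up s : Mat)) * ((h⁻¹ : SL(2, ℤ)) : Mat) := by
      intro X s
      rw [sl_coe_mul, sl_coe_mul]
      calc (h : Mat) * X * ((h⁻¹ : SL(2, ℤ)) : Mat) * ((h : Mat) * (up s : Mat) *
            ((h⁻¹ : SL(2, ℤ)) : Mat)) =
          (h : Mat) * X * (((h⁻¹ : SL(2, ℤ)) : Mat) * (h : Mat)) * (up s : Mat) *
            ((h⁻¹ : SL(2, ℤ)) : Mat) := by simp only [mul_assoc]
        _ = _ := by rw [hhh, mul_one]; simp only [mul_assoc]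
    have conv' : ∀ (X : Mat) (s : ℤ), ((h * up s * h⁻¹ : SL(2, ℤ)) : Mat) *
        ((h : Mat) * X * ((h⁻¹ : SL(2, ℤ)) : Mat)) =
        (h : Mat) * ((up s : Mat) * X) * ((h⁻¹ : SL(2, ℤ)) : Mat) := by
      intro X s
      rw [sl_coe_mul, sl_coe_mul]
      calc (h : Mat) * (up s : Mat) * ((h⁻¹ : SL(2, ℤ)) : Mat) * ((h : Mat) * X *
            ((h⁻¹ : SL(2, ℤ)) : Mat)) =
          (h : Mat) * (up s : Mat) * (((h⁻¹ : SL(2, ℤ)) : Mat) * (h : Mat)) * X *
            ((h⁻¹ : SL(2, ℤ)) : Mat) := by simp only [mul_assoc]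
        _ = _ := by rw [hhh, mul_one]; simp only [mul_assoc]
    rintro (_ | j)
    · simp only [PD]
      rw [conv, conv']
      congr 2
      ext i k
      fin_cases i <;> fin_cases k <;> simp [up, sl, Matrix.mul_apply, Fin.sum_univ_two]
    · simp only [PD]
      rw [conv, conv']
      congr 2
      ext i k
      fin_cases i <;> fin_cases k <;> simp [up, sl, Matrix.mul_apply, Fin.sum_univ_two]
      linear_combination e j

theorem opc_neg_one {l : ℕ} (h1 : Gamma1 N ≤ G) (h0 : G ≤ Gamma0 N) (hl : l.Prime)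
    (hNl : IsCoprime (N : ℤ) (l : ℤ)) {c : SL(2, ℤ) → A}
    (hc : AddOn G c) (hneg : -1 ∈ G) :
    opc G (TD N l) c (-1) = (l + 1) • c (-1) := by
  rw [(corr_TD h1 h0 hl hNl).opc_eq hc hneg (γ := fun _ => -1) (σ := id) (fun _ => hneg)]
  · rw [Finset.sum_const, Finset.card_univ, Fintype.card_option, Fintype.card_fin]
  · intro x
    simp

/-- normal form of parabolic elements -/
theorem exists_parabolic (g : SL(2, ℤ)) (hg : g 0 0 + g 1 1 = 2) :
    ∃ (h : SL(2, ℤ)) (t : ℤ), g = h * up t * h⁻¹ := by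
  have hdet := det2 g
  by_cases hc : g 1 0 = 0
  · refine ⟨1, g 0 1, ?_⟩
    rw [hc, mul_zero, sub_zero] at hdet
    have h2 : (g 0 0 - 1) ^ 2 = 0 := by
      have : g 1 1 = 2 - g 0 0 := by linarith
      rw [this] at hdet
      linear_combination -hdet
    have h3 : g 0 0 = 1 := by
      have := pow_eq_zero_iff (two_ne_zero) |>.mp h2
      linarith
    have h4 : g 1 1 = 1 := by linarith
    have h5 : 1 * up (g 0 1) * (1 : SL(2, ℤ))⁻¹ = up (g 0 1) := by group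
    rw [h5]
    apply sl_ext <;> simp [up, h3, h4, hc]
  · have hgp : 0 < Int.gcd (g 0 0 - 1) (g 1 0) := Int.gcd_pos_iff.mpr (Or.inr hc)
    obtain ⟨a', c', hco, ha, hc'⟩ := Int.exists_gcd_one hgp
    set n : ℤ := (Int.gcd (g 0 0 - 1) (g 1 0) : ℤ) with hn
    have hn0 : n ≠ 0 := by
      have : 0 < n := by rw [hn]; exact_mod_cast hgp
      exact this.ne'
    have hco' : IsCoprime a' c' := Int.isCoprime_iff_gcd_eq_one.mpr hco
    obtain ⟨h, hh0, hh1⟩ := exists_sl_col hco'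
    have hd := det2 h
    rw [hh0, hh1] at hd
    -- `g` fixes the vector `(a', c')`
    have f0 : g 0 0 * a' + g 0 1 * c' = a' := by
      apply mul_right_cancel₀ hn0
      have : g 1 1 = 2 - g 0 0 := by linarith
      rw [this] at hdet
      have e1 : (g 0 0 - 1) * (g 0 0 - 1) + g 0 1 * g 1 0 = 0 := by linear_combination -hdet
      calc (g 0 0 * a' + g 0 1 * c') * n = g 0 0 * (a' * n) + g 0 1 * (c' * n) := by ring
        _ = g 0 0 * (g 0 0 - 1) + g 0 1 * g 1 0 := by rw [← ha, ← hc']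
        _ = a' * n := by rw [← ha]; linear_combination e1
    have f1 : g 1 0 * a' + g 1 1 * c' = c' := by
      apply mul_right_cancel₀ hn0
      calc (g 1 0 * a' + g 1 1 * c') * n = g 1 0 * (a' * n) + g 1 1 * (c' * n) := by ring
        _ = g 1 0 * (g 0 0 - 1) + g 1 1 * g 1 0 := by rw [← ha, ← hc']
        _ = c' * n := by rw [← hc']; linear_combination g 1 0 * hg
    have i00 : (h⁻¹) 0 0 = h 1 1 := by simp [adjugate_fin_two]
    have i01 : (h⁻¹) 0 1 = -h 0 1 := by simp [adjugate_fin_two]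
    have i10 : (h⁻¹) 1 0 = -h 1 0 := by simp [adjugate_fin_two]
    have i11 : (h⁻¹) 1 1 = h 0 0 := by simp [adjugate_fin_two]
    have k00 : (h⁻¹ * g * h) 0 0 = 1 := by
      rw [sl_mul_00, sl_mul_00, sl_mul_01, i00, i01, hh0, hh1]
      linear_combination h 1 1 * f0 - h 0 1 * f1 + hd
    have k10 : (h⁻¹ * g * h) 1 0 = 0 := by
      rw [sl_mul_10, sl_mul_10, sl_mul_11, i10, i11, hh0, hh1]
      linear_combination (-c') * f0 + a' * f1
    have kd := det2 (h⁻¹ * g * h)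
    rw [k00, k10, mul_zero, sub_zero, one_mul] at kd
    refine ⟨h, (h⁻¹ * g * h) 0 1, ?_⟩
    have : up ((h⁻¹ * g * h) 0 1) = h⁻¹ * g * h := by
      apply sl_ext
      · rw [k00]; simp [up]
      · simp only [up, sl_01]
      · rw [k10]; simp [up]
      · rw [kd]; simp [up]
    rw [this]
    group

/-- **An eigenvector of `T_l`, `l ≡ 1 mod N`, with eigenvalue `≢ l + 1` is parabolic.** -/
theorem parabolic_of_eigen {l : ℕ} (h1 : Gamma1 N ≤ G) (h0 : G ≤ Gamma0 N) (hneg : -1 ∈ G)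
    (hl : l.Prime) (hNl : IsCoprime (N : ℤ) (l : ℤ)) (hl1 : (N : ℤ) ∣ (l : ℤ) - 1)
    {c : SL(2, ℤ) → A} (hc : AddOn G c) {lam : R} (hT : ∀ g ∈ G, opc G (TD N l) c g = lam • c g)
    (hu : IsUnit (lam - ((l : R) + 1))) : ∀ g ∈ G, (g 0 0 + g 1 1) ^ 2 = 4 → c g = 0 := by
  have hcast : ∀ a : A, (l + 1) • a = ((l : R) + 1) • a := by
    intro a
    rw [add_smul, one_smul, add_smul, one_smul, Nat.cast_smul_eq_nsmul]
  have hkill : ∀ a : A, lam • a = (l + 1) • a → a = 0 := by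
    intro a ha
    rw [hcast, ← sub_eq_zero, ← sub_smul] at ha
    obtain ⟨u, hu⟩ := hu
    rw [← hu] at ha
    have h2 := congrArg (fun y => ((u⁻¹ : Rˣ) : R) • y) ha
    simpa [smul_smul] using h2
  have hn1 : c (-1) = 0 := hkill _ (by rw [← hT _ hneg, opc_neg_one h1 h0 hl hNl hc hneg])
  have hpos : ∀ g ∈ G, g 0 0 + g 1 1 = 2 → c g = 0 := by
    intro g hg ht
    obtain ⟨h, t, e⟩ := exists_parabolic g ht
    subst e
    exact hkill _ (by rw [← hT _ hg, opc_parabolic h1 h0 hl hNl hl1 hc h t hg])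
  intro g hg h4
  have h5 : (g 0 0 + g 1 1 - 2) * (g 0 0 + g 1 1 + 2) = 0 := by linear_combination h4
  rcases mul_eq_zero.mp h5 with h6 | h6
  · exact hpos g hg (by linarith)
  · have e1 : g = (-1) * (-g) := by simp
    have hng : -g ∈ G := by rw [neg_sl]; exact mul_mem hneg hg
    rw [e1, hc _ hneg _ hng, hn1, zero_add]
    refine hpos _ hng ?_
    have a1 : (-g) 0 0 = -(g 0 0) := by simp
    have a2 : (-g) 1 1 = -(g 1 1) := by simp
    rw [a1, a2]
    linarith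

end Fermat.Agent.RT.Ihara
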