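import Fermat.Agent.RT.IharaKey2

set_option autoImplicit false

/-!
# Ihara's lemma: invariance on deep congruence subgroups and Hecke eigenvalues
-/

open Matrix CongruenceSubgroup
open scoped MatrixGroups

namespace Fermat.Agent.RT.Ihara

variable {A : Type*} [AddCommGroup A] {N q : ℕ} {c : SL(2, ℤ) → A} {G : Subgroup SL(2, ℤ)}

/-- elements of `G` congruent to `1` modulo `l ^ n` -/
structure Deep (G : Subgroup SL(2, ℤ)) (l : ℤ) (n : ℕ) (g : SL(2, ℤ)) : Prop where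
  mem : g ∈ G
  d00 : l ^ n ∣ g 0 0 - 1
  d01 : l ^ n ∣ g 0 1
  d10 : l ^ n ∣ g 1 0
  d11 : l ^ n ∣ g 1 1 - 1

theorem Deep.mono {l : ℤ} {m n : ℕ} {g : SL(2, ℤ)} (h : Deep G l n g) (hmn : m ≤ n) :
    Deep G l m g :=
  ⟨h.mem, (pow_dvd_pow l hmn).trans h.d00, (pow_dvd_pow l hmn).trans h.d01,
    (pow_dvd_pow l hmn).trans h.d10, (pow_dvd_pow l hmn).trans h.d11⟩

theorem Deep.eq {l : ℤ} {n : ℕ} {g : SL(2, ℤ)} (h : Deep G l n g) :
    ∃ M : Mat, (g : Mat) = 1 + l ^ n • M := by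
  obtain ⟨a, ha⟩ := h.d00
  obtain ⟨b, hb⟩ := h.d01
  obtain ⟨c, hc⟩ := h.d10
  obtain ⟨d, hd⟩ := h.d11
  refine ⟨!![a, b; c, d], ?_⟩
  ext i j
  fin_cases i <;> fin_cases j <;> simp
  · linear_combination ha
  · exact hb
  · exact hc
  · linear_combination hd

theorem deep_of_eq {l : ℤ} {n : ℕ} {g : SL(2, ℤ)} (hg : g ∈ G) {M : Mat}
    (h : (g : Mat) = 1 + l ^ n • M) : Deep G l n g := by
  have h' : ∀ i j, g i j = (1 + l ^ n • M : Mat) i j := fun i j => by rw [← h]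
  refine ⟨hg, ⟨M 0 0, ?_⟩, ⟨M 0 1, ?_⟩, ⟨M 1 0, ?_⟩, ⟨M 1 1, ?_⟩⟩ <;> rw [h'] <;>
    simp [-zsmul_eq_mul]

theorem exists_conj (h1' : Gamma1 N ≤ G) (h0' : G ≤ Gamma0 N) {l : ℤ}
    (hNl : IsCoprime (N : ℤ) l) (hl : l ≠ 0) {v : ℕ} {X : Mat}
    (hX : X.det = l ^ v)
    (hX10 : (N : ℤ) ∣ X 1 0) {n : ℕ} {g : SL(2, ℤ)} (hg : Deep G l (n + v) g) :
    ∃ g', Deep G l n g' ∧ X * (g : Mat) = (g' : Mat) * X := by
  obtain ⟨M, hM⟩ := hg.eq
  set G' : Mat := 1 + l ^ n • (X * M * adjugate X) with hG'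
  have h1 : X * (g : Mat) = G' * X := by
    rw [hM, hG', add_mul, mul_add, mul_one, one_mul, Matrix.smul_mul, mul_assoc (X * M),
      adjugate_mul, hX, Matrix.mul_smul, Matrix.mul_smul, mul_one, pow_add, smul_smul]
  have hdet : G'.det = 1 := by
    have h2 := congrArg Matrix.det h1
    rw [Matrix.det_mul, Matrix.det_mul, g.det_coe, mul_one, hX] at h2
    exact mul_right_cancel₀ (pow_ne_zero v hl) (h2.symm.trans (one_mul _).symm)
  have hM10 : (N : ℤ) ∣ M 1 0 := by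
    have h3 : (g : Mat) 1 0 = l ^ (n + v) * M 1 0 := by rw [hM]; simp [-zsmul_eq_mul]
    have h4 := mem_G0.mp (h0' hg.mem)
    rw [h3] at h4
    exact hNl.pow_right.dvd_of_dvd_mul_left h4
  have h10 : (N : ℤ) ∣ G' 1 0 := by
    have h5 : G' 1 0 = l ^ n * ((X 1 0 * M 0 0 + X 1 1 * M 1 0) * X 1 1 -
        (X 1 0 * M 0 1 + X 1 1 * M 1 1) * X 1 0) := by
      rw [hG', adjugate_fin_two]
      simp only [Matrix.add_apply, Matrix.smul_apply, Matrix.mul_apply, Fin.sum_univ_two,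
        Matrix.of_apply, Matrix.cons_val', Matrix.cons_val_zero, Matrix.cons_val_one,
        Matrix.cons_val_fin_one, smul_eq_mul, Matrix.one_apply_ne (by decide : (1 : Fin 2) ≠ 0)]
      ring
    rw [h5]
    refine Dvd.dvd.mul_left (dvd_sub (Dvd.dvd.mul_right (dvd_add (Dvd.dvd.mul_right hX10 _)
      (Dvd.dvd.mul_left hM10 _)) _) (Dvd.dvd.mul_left hX10 _)) _
  have h00 : (N : ℤ) ∣ G' 0 0 - g 0 0 := by
    obtain ⟨x, hx⟩ := hX10
    obtain ⟨y, hy⟩ := hM10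
    have hX' := hX
    rw [Matrix.det_fin_two, hx] at hX'
    have h6 : (g : Mat) 0 0 = 1 + l ^ (n + v) * M 0 0 := by rw [hM]; simp [-zsmul_eq_mul]
    have h7 : G' 0 0 = 1 + l ^ n * ((X 0 0 * M 0 0 + X 0 1 * M 1 0) * X 1 1 -
        (X 0 0 * M 0 1 + X 0 1 * M 1 1) * X 1 0) := by
      rw [hG', adjugate_fin_two]
      simp only [Matrix.add_apply, Matrix.smul_apply, Matrix.mul_apply, Fin.sum_univ_two,
        Matrix.of_apply, Matrix.cons_val', Matrix.cons_val_zero, Matrix.cons_val_one,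
        Matrix.cons_val_fin_one, smul_eq_mul, Matrix.one_apply_eq]
      ring
    rw [h7, h6, hx, hy]
    refine ⟨l ^ n * (X 0 1 * y * X 1 1 - (X 0 0 * M 0 1 + X 0 1 * M 1 1) * x +
      X 0 1 * x * M 0 0), ?_⟩
    rw [pow_add]
    linear_combination (l ^ n * M 0 0) * hX'
  refine ⟨⟨G', hdet⟩, deep_of_eq ?_ (M := X * M * adjugate X) hG', h1⟩
  exact mem_of_congr' h1' hg.mem (mem_G0.mp (h0' hg.mem)) h10 h00

theorem Hyp.deep_conj (H : Hyp G N q c) {l : ℤ} {n : ℕ} {g k : SL(2, ℤ)} (h : Deep G l n g)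
    (hk : k ∈ Gamma0 N) : Deep G l n (k⁻¹ * g * k) := by
  obtain ⟨M, hM⟩ := h.eq
  have hk' : k⁻¹ * g * k ∈ G := by
    have := H.conj_mem h.mem (inv_mem hk)
    rwa [inv_inv] at this
  refine deep_of_eq hk' (M := (k⁻¹ : SL(2, ℤ)) * M * k) ?_
  rw [sl_coe_mul, sl_coe_mul, hM]
  have h1 : ((k⁻¹ : SL(2, ℤ)) : Mat) * (k : Mat) = 1 := by
    rw [← sl_coe_mul, inv_mul_cancel]; rfl
  rw [mul_add, mul_one, add_mul, h1, Matrix.mul_smul, Matrix.smul_mul]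

theorem mat_cancel_left {X : Mat} (hX : X.det ≠ 0) {Y Z : Mat} (h : X * Y = X * Z) : Y = Z := by
  have h1 := congrArg (fun W => adjugate X * W) h
  simp only [← mul_assoc, adjugate_mul, Matrix.smul_mul, one_mul] at h1
  ext i j
  have h2 := congrFun (congrFun h1 i) j
  simp only [Matrix.smul_apply, smul_eq_mul] at h2
  exact mul_left_cancel₀ hX h2

theorem mat_cancel_right {X : Mat} (hX : X.det ≠ 0) {Y Z : Mat} (h : Y * X = Z * X) : Y = Z := by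
  have h1 := congrArg (fun W => W * adjugate X) h
  simp only [mul_assoc, mul_adjugate, Matrix.mul_smul, mul_one] at h1
  ext i j
  have h2 := congrFun (congrFun h1 i) j
  simp only [Matrix.smul_apply, smul_eq_mul] at h2
  exact mul_left_cancel₀ hX h2

theorem E_det (l j : ℤ) : (E l j).det = l ^ 2 := by
  rw [E, Matrix.det_fin_two]; simp; ring

theorem E_mul_E (l a b : ℤ) : E l a * E l b = l • E l (a + b) := by
  ext i j
  fin_cases i <;> fin_cases j <;> simp [E, Matrix.mul_apply, Fin.sum_univ_two] ; ring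

theorem E_comm (l a b : ℤ) : E l a * E l b = E l b * E l a := by
  rw [E_mul_E, E_mul_E, add_comm]

theorem E_zero (l : ℤ) : E l 0 = l • (1 : Mat) := by
  ext i j
  fin_cases i <;> fin_cases j <;> simp [E]

theorem smul_cancel {l : ℤ} (hl : l ≠ 0) {X Y : Mat} (h : l • X = l • Y) : X = Y := by
  ext i j
  have h2 := congrFun (congrFun h i) j
  simp only [Matrix.smul_apply, smul_eq_mul] at h2
  exact mul_left_cancel₀ hl h2

/-- inversion of the conjugation relation -/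
theorem E_swap {l j : ℤ} (hl : l ≠ 0) {g g' : SL(2, ℤ)}
    (h : E l j * (g' : Mat) = (g : Mat) * E l j) : E l (-j) * (g : Mat) = (g' : Mat) * E l (-j) := by
  have hd : (E l j).det ≠ 0 := by rw [E_det]; positivity
  refine mat_cancel_left hd (mat_cancel_right hd ?_)
  have e1 : E l j * E l (-j) = (l * l) • (1 : Mat) := by
    rw [E_mul_E, add_neg_cancel, E_zero, smul_smul]
  have e2 : E l (-j) * E l j = (l * l) • (1 : Mat) := by rw [E_comm, e1]
  rw [← mul_assoc, e1, Matrix.smul_mul, one_mul, Matrix.smul_mul, mul_assoc (E l j),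
    mul_assoc (g' : Mat), e2, Matrix.mul_smul, mul_one, Matrix.mul_smul, h]

theorem Deep.gp (h0' : G ≤ Gamma0 N) {l : ℤ} (hNl : IsCoprime (N : ℤ) l) {g : SL(2, ℤ)}
    (h : Deep G l 3 g) : Gp G N l g :=
  ⟨h.mem, hNl.pow_right.mul_dvd (mem_G0.mp (h0' h.mem)) ((pow_dvd_pow l (by norm_num)).trans h.d10),
    Or.inl ((dvd_pow_self l (by norm_num)).trans h.d00)⟩

/-- **Invariance under `e_{i/l}` on deep congruence subgroups.** -/
theorem Hyp.deep_E (H : Hyp G N q c) {l : ℕ} (hl : l.Prime) (hq : q ≠ 0)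
    (hqN : IsCoprime (N : ℤ) (q : ℤ)) (hlq : IsCoprime (l : ℤ) (q : ℤ))
    (hNl : IsCoprime (N : ℤ) (l : ℤ)) (hlq2 : IsCoprime (l : ℤ) ((q : ℤ) ^ 2 - 1)) {g : SL(2, ℤ)}
    (hg : Deep G l 3 g) (i : ℤ) : cj G c l i g = c g := by
  have hl0 : (l : ℤ) ≠ 0 := by exact_mod_cast hl.ne_zero
  obtain ⟨u, v, huv⟩ := hlq2
  -- `i = (q² - 1) j + l k`
  set j : ℤ := v * i with hj
  have hi : i = ((q : ℤ) ^ 2 - 1) * j + l * (u * i) := by rw [hj]; linear_combination (-i) * huv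
  rw [hi, H.cj_add hl0 (hg.gp H.h0 hNl)]
  obtain ⟨gt, hgt, e1⟩ := (hg.gp H.h0 hNl).exists_cnj H.h1 hl0 (-j)
  have e2 : E l j * (g : Mat) = (gt : Mat) * E l j := by
    have := E_swap hl0 e1
    rwa [neg_neg] at this
  have hgtp : Gp G N l gt := by
    have e3 := e1
    rw [E_mul_eq_iff] at e3
    obtain ⟨a1, a2, a3, a4⟩ := e3
    have h10 : gt 1 0 = g 1 0 := mul_left_cancel₀ hl0 a3
    refine ⟨hgt, by rw [h10]; exact (hg.gp H.h0 hNl).dvd, Or.inl ?_⟩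
    obtain ⟨r, hr⟩ := hg.d10
    obtain ⟨s, hs⟩ := (dvd_pow_self (l : ℤ) (by norm_num : 3 ≠ 0)).trans hg.d00
    refine ⟨s + j * l * r, ?_⟩
    apply mul_left_cancel₀ hl0
    rw [h10] at a1
    linear_combination a1 + l * hs + j * hr
  obtain ⟨h, hh, e4⟩ := (hg.gp H.h0 hNl).exists_cnj H.h1 hl0 (((q : ℤ) ^ 2 - 1) * j)
  have e5 : E l (q ^ 2 * j) * (h : Mat) = (gt : Mat) * E l (q ^ 2 * j) := by
    apply smul_cancel hl0
    have hE : (l : ℤ) • E l (q ^ 2 * j) = E l j * E l (((q : ℤ) ^ 2 - 1) * j) := by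
      rw [E_mul_E]; congr 2; ring
    rw [← Matrix.smul_mul, ← Matrix.mul_smul, hE, mul_assoc, e4, ← mul_assoc, e2, mul_assoc]
  rw [cj_eq hl0 hh e4]
  have k1 := H.key hl hq hqN hlq hgtp j
  rw [cj_eq hl0 hh e5, cj_eq hl0 hg.mem e2] at k1
  exact k1

/-- the matrix `l D_l`, `D_l = diag(l, 1/l)` -/
def Dm (l : ℤ) : Mat := !![l ^ 2, 0; 0, 1]

theorem Dm_det (l : ℤ) : (Dm l).det = l ^ 2 := by
  rw [Dm, Matrix.det_fin_two]; simp

/-- `l D_l = γ · l e_{1/l} · k⁻¹` with `γ, k ∈ Γ₀(N)` -/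
theorem exists_decomp {l : ℤ} (hNl : IsCoprime (N : ℤ) l) :
    ∃ γ ∈ Gamma0 N, ∃ k ∈ Gamma0 N, Dm l * (k : Mat) = (γ : Mat) * E l 1 := by
  obtain ⟨u, v, huv⟩ := hNl
  set α : ℤ := 1 - N * u * (1 - u) with hα
  set β : ℤ := -(u * (2 - u - N * u * (1 - u))) with hβ
  have h1 : (l * α) * v - β * N = 1 := by
    rw [hα, hβ]; linear_combination (1 - N * u * (1 - u)) * huv
  have h2 : α + β = l * ((1 - u) ^ 2 * v) := by
    rw [hα, hβ]; linear_combination (-(1 - u) ^ 2) * huv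
  have h3 : α * (N + l * v) - ((1 - u) ^ 2 * v) * (l * N) = 1 := by
    linear_combination h1 + N * h2
  refine ⟨sl _ _ _ _ h1, ?_, sl _ _ _ _ h3, ?_, ?_⟩
  · rw [mem_G0]; simp
  · rw [mem_G0]; simp
  · ext i j
    fin_cases i <;> fin_cases j <;>
      simp [Dm, E, sl, Matrix.mul_apply, Fin.sum_univ_two]
    · ring
    · linear_combination (-l) * h2
    · ring
    · ring

/-- **Invariance under `D_l` on deep congruence subgroups.** -/
theorem Hyp.deep_D (H : Hyp G N q c) {l : ℕ} (hl : l.Prime) (hq : q ≠ 0)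
    (hqN : IsCoprime (N : ℤ) (q : ℤ)) (hlq : IsCoprime (l : ℤ) (q : ℤ))
    (hNl : IsCoprime (N : ℤ) (l : ℤ)) (hlq2 : IsCoprime (l : ℤ) ((q : ℤ) ^ 2 - 1)) {g g' : SL(2, ℤ)}
    (hg : Deep G l 3 g) (hg' : g' ∈ G) (h : Dm l * (g : Mat) = (g' : Mat) * Dm l) :
    c g' = c g := by
  have hl0 : (l : ℤ) ≠ 0 := by exact_mod_cast hl.ne_zero
  obtain ⟨γ, hγ, k, hk, e⟩ := exists_decomp (N := N) (l := (l : ℤ)) hNl
  have hd : Deep G l 3 (k⁻¹ * g * k) := H.deep_conj hg hk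
  have e1 : E l 1 * ((k⁻¹ * g * k : SL(2, ℤ)) : Mat) =
      ((γ⁻¹ * g' * γ : SL(2, ℤ)) : Mat) * E l 1 := by
    have hγd : (γ : Mat).det ≠ 0 := by rw [γ.det_coe]; norm_num
    refine mat_cancel_left hγd ?_
    rw [← mul_assoc, ← e, mul_assoc, ← sl_coe_mul]
    have h1 : k * (k⁻¹ * g * k) = g * k := by group
    rw [h1, sl_coe_mul, ← mul_assoc, h, mul_assoc, e, ← mul_assoc, ← mul_assoc (γ : Mat),
      ← sl_coe_mul, ← sl_coe_mul]
    congr 2
    group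
  have hu : γ⁻¹ * g' * γ ∈ G := by
    have := H.conj_mem hg' (inv_mem hγ)
    rwa [inv_inv] at this
  have e2 := E_swap hl0 (g := k⁻¹ * g * k) (g' := γ⁻¹ * g' * γ) (j := -1) (l := l) (by
    have := E_swap hl0 e1
    exact this)
  have e3 := E_swap hl0 e1
  have k1 := H.deep_E hl hq hqN hlq hNl hlq2 hd (-1)
  rw [cj_eq hl0 hu e3] at k1
  have k2 : c (γ⁻¹ * g' * γ) = c g' := by
    have := H.dia g' hg' _ (inv_mem hγ)
    rwa [inv_inv] at this
  have k3 : c (k⁻¹ * g * k) = c g := by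
    have := H.dia g hg.mem _ (inv_mem hk)
    rwa [inv_inv] at this
  rw [k2, k3] at k1
  exact k1

/-- the representatives of the Hecke operator `T_l` -/
def Mx (l : ℕ) : Option (Fin l) → Mat
  | some j => !![1, ((j : ℕ) : ℤ); 0, l]
  | none => !![(l : ℤ), 0; 0, 1]

theorem Mx_det (l : ℕ) (x : Option (Fin l)) : (Mx l x).det = l := by
  rcases x with _ | j <;> simp [Mx, Matrix.det_fin_two]

theorem Mx_10 (l : ℕ) (x : Option (Fin l)) : (Mx l x) 1 0 = 0 := by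
  rcases x with _ | j <;> simp [Mx]

variable {R : Type*} [CommRing R] [Module R A]

/-- **Hecke eigenvalues on deep congruence subgroups.** -/
theorem Hyp.deep_T (H : Hyp G N q c) {l : ℕ} (hl : l.Prime) (hq : q ≠ 0)
    (hqN : IsCoprime (N : ℤ) (q : ℤ)) (hlq : IsCoprime (l : ℤ) (q : ℤ))
    (hNl : IsCoprime (N : ℤ) (l : ℤ)) (hlq2 : IsCoprime (l : ℤ) ((q : ℤ) ^ 2 - 1)) {lam : R}
    (hT : ∀ g ∈ G, ∀ γ' : Option (Fin l) → SL(2, ℤ), (∀ x, γ' x ∈ G) →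
      (∀ x, Mx l x * (g : Mat) = (γ' x : Mat) * Mx l x) → ∑ x, c (γ' x) = lam • c g)
    {n : ℕ} (hn : 3 ≤ n) {g : SL(2, ℤ)} (hg : Deep G l (n + 1) g) :
    ∃ g₀, Deep G l n g₀ ∧ !![1, 0; 0, (l : ℤ)] * (g : Mat) = (g₀ : Mat) * !![1, 0; 0, (l : ℤ)] ∧
      lam • c g = ((l : R) + 1) • c g₀ := by
  have hl0 : (l : ℤ) ≠ 0 := by exact_mod_cast hl.ne_zero
  set M₀ : Mat := !![1, 0; 0, (l : ℤ)] with hM₀
  have hM₀d : M₀.det = (l : ℤ) ^ 1 := by rw [hM₀, Matrix.det_fin_two]; simp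
  obtain ⟨g₀, hg₀, e₀⟩ := exists_conj H.h1 H.h0 hNl hl0 hM₀d (by rw [hM₀]; simp) hg
  have hex : ∀ x, ∃ g', Deep G l n g' ∧ Mx l x * (g : Mat) = (g' : Mat) * Mx l x := fun x =>
    exists_conj H.h1 H.h0 hNl hl0 (by rw [Mx_det, pow_one]) (by rw [Mx_10]; exact dvd_zero _) hg
  choose γ' hγ' e' using hex
  have hc : ∀ x, c (γ' x) = c g₀ := by
    intro x
    have hMd : M₀.det ≠ 0 := by rw [hM₀d]; exact pow_ne_zero _ hl0
    rcases x with _ | j
    · have h1 : Dm l * (g₀ : Mat) = (γ' none : Mat) * Dm l := by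
        have h2 : (l : ℤ) • Mx l none = Dm l * M₀ := by
          ext a b
          fin_cases a <;> fin_cases b <;>
            simp [Mx, Dm, hM₀, Matrix.mul_apply, Fin.sum_univ_two, -zsmul_eq_mul]
          ring
        refine mat_cancel_right hMd ?_
        rw [mul_assoc, ← e₀, ← mul_assoc, ← h2, Matrix.smul_mul, e' none, mul_assoc, ← h2,
          Matrix.mul_smul]
      exact H.deep_D hl hq hqN hlq hNl hlq2 (hg₀.mono hn) (hγ' none).mem h1
    · have h1 : E l ((j : ℕ) : ℤ) * (g₀ : Mat) = (γ' (some j) : Mat) * E l ((j : ℕ) : ℤ) := by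
        have h2 : (l : ℤ) • Mx l (some j) = E l ((j : ℕ) : ℤ) * M₀ := by
          ext a b
          fin_cases a <;> fin_cases b <;>
            simp [Mx, E, hM₀, Matrix.mul_apply, Fin.sum_univ_two, -zsmul_eq_mul]
          ring
        refine mat_cancel_right hMd ?_
        rw [mul_assoc, ← e₀, ← mul_assoc, ← h2, Matrix.smul_mul, e' (some j), mul_assoc, ← h2,
          Matrix.mul_smul]
      have h3 := E_swap hl0 h1
      rw [← H.deep_E hl hq hqN hlq hNl hlq2 (hg₀.mono hn) (-((j : ℕ) : ℤ)),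
        cj_eq hl0 (hγ' (some j)).mem h3]
  refine ⟨g₀, hg₀, e₀, ?_⟩
  rw [← hT g hg.mem γ' (fun x => (hγ' x).mem) e', Finset.sum_congr rfl fun x _ => hc x,
    Finset.sum_const, Finset.card_univ, Fintype.card_option, Fintype.card_fin, add_smul, one_smul,
    add_smul, one_smul, Nat.cast_smul_eq_nsmul]

theorem Hyp.deep_TT (H : Hyp G N q c) {l : ℕ} (hl : l.Prime) (hq : q ≠ 0)
    (hqN : IsCoprime (N : ℤ) (q : ℤ)) (hlq : IsCoprime (l : ℤ) (q : ℤ))
    (hNl : IsCoprime (N : ℤ) (l : ℤ)) (hlq2 : IsCoprime (l : ℤ) ((q : ℤ) ^ 2 - 1)) {lam : R}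
    (hT : ∀ g ∈ G, ∀ γ' : Option (Fin l) → SL(2, ℤ), (∀ x, γ' x ∈ G) →
      (∀ x, Mx l x * (g : Mat) = (γ' x : Mat) * Mx l x) → ∑ x, c (γ' x) = lam • c g)
    {g : SL(2, ℤ)} (hg : Deep G l 5 g) : (lam ^ 2 - ((l : R) + 1) ^ 2) • c g = 0 := by
  have hl0 : (l : ℤ) ≠ 0 := by exact_mod_cast hl.ne_zero
  obtain ⟨g₀, hg₀, e₀, h₀⟩ := H.deep_T hl hq hqN hlq hNl hlq2 hT (n := 4) (by norm_num) hg
  obtain ⟨g₁, hg₁, e₁, h₁⟩ := H.deep_T hl hq hqN hlq hNl hlq2 hT (n := 3) (by norm_num) hg₀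
  set M₀ : Mat := !![1, 0; 0, (l : ℤ)] with hM₀
  have hM₀d : M₀.det ≠ 0 := by rw [hM₀, Matrix.det_fin_two]; simpa using hl0
  have h2 : Dm l * (g₁ : Mat) = (g : Mat) * Dm l := by
    have h3 : Dm l * M₀ * M₀ = ((l : ℤ) ^ 2) • (1 : Mat) := by
      ext a b
      fin_cases a <;> fin_cases b <;>
        simp [Dm, hM₀, Matrix.mul_apply, Fin.sum_univ_two, -zsmul_eq_mul]
      ring
    refine mat_cancel_right hM₀d (mat_cancel_right hM₀d ?_)
    calc Dm l * (g₁ : Mat) * M₀ * M₀ = Dm l * M₀ * M₀ * (g : Mat) := by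
          rw [mul_assoc (Dm l), ← e₁, ← mul_assoc, mul_assoc (Dm l * M₀), ← e₀, ← mul_assoc]
      _ = (g : Mat) * (Dm l * M₀ * M₀) := by
          rw [h3, Matrix.smul_mul, one_mul, Matrix.mul_smul, mul_one]
      _ = _ := by simp only [mul_assoc]
  have h4 := H.deep_D hl hq hqN hlq hNl hlq2 hg₁ hg.mem h2
  rw [sub_smul, sub_eq_zero, pow_two, mul_smul, h₀, smul_comm, h₁, ← h4, smul_smul, pow_two]

/-- **Ihara's lemma** (eigenvector form): the eigenvalue of `T_l` on `c` is Eisenstein. -/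
theorem Hyp.ihara (H : Hyp G N q c) {l : ℕ} (hl : l.Prime) (hq : q ≠ 0)
    (hqN : IsCoprime (N : ℤ) (q : ℤ)) (hlq : IsCoprime (l : ℤ) (q : ℤ))
    (hNl : IsCoprime (N : ℤ) (l : ℤ)) (hlq2 : IsCoprime (l : ℤ) ((q : ℤ) ^ 2 - 1)) {lam : R}
    (hT : ∀ g ∈ G, ∀ γ' : Option (Fin l) → SL(2, ℤ), (∀ x, γ' x ∈ G) →
      (∀ x, Mx l x * (g : Mat) = (γ' x : Mat) * Mx l x) → ∑ x, c (γ' x) = lam • c g)
    (hu : IsUnit (lam ^ 2 - ((l : R) + 1) ^ 2)) {g : SL(2, ℤ)} (hg : g ∈ G) : c g = 0 := by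
  have hl0 : (l : ℤ) ≠ 0 := by exact_mod_cast hl.ne_zero
  have hlp : Prime (l : ℤ) := Nat.prime_iff_prime_int.mp hl
  have hdeep : ∀ g, Deep G l 5 g → c g = 0 := by
    intro g hg
    have h1 := H.deep_TT hl hq hqN hlq hNl hlq2 hT hg
    obtain ⟨u, hu⟩ := hu
    rw [← hu] at h1
    have h2 := congrArg (fun y => ((u⁻¹ : Rˣ) : R) • y) h1
    simpa [smul_smul] using h2
  have upm : ∀ x, up x ∈ G := fun x => H.h1 (up_mem N x)
  have lom : ∀ x, (N : ℤ) ∣ x → lo x ∈ G := fun x hx => H.h1 (lo_mem hx)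
  have hup : ∀ x, c (up x) = 0 := fun x => H.par _ (upm x) (by simp [up])
  have hlo : ∀ x, (N : ℤ) ∣ x → c (lo x) = 0 := fun x hx => H.par _ (lom x hx) (by simp [lo])
  -- the case where the lower left entry is prime to `l`
  have main : ∀ g ∈ G, ¬ (l : ℤ) ∣ g 1 0 → c g = 0 := by
    intro g hg hC
    have hco : IsCoprime (g 1 0) ((l : ℤ) ^ 5) :=
      ((hlp.coprime_iff_not_dvd.mpr hC).symm).pow_right
    obtain ⟨u, v, huv⟩ := hco
    set x := u * (g 0 0 - 1) with hx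
    set z := u * (g 1 1 - 1) with hz
    set w := up x * lo (g 1 0) * up z with hw
    have hwm : w ∈ G := mul_mem (mul_mem (upm x) (lom _ (H.dvd hg))) (upm z)
    have hcw : c w = 0 := by
      rw [hw, H.mul _ (mul_mem (upm x) (lom _ (H.dvd hg))) _ (upm z),
        H.mul _ (upm x) _ (lom _ (H.dvd hg)), hup, hlo _ (H.dvd hg), hup]
      simp
    have w00 : w 0 0 = 1 + x * g 1 0 := by
      rw [hw, sl_mul_00, sl_mul_00, sl_mul_01]; simp [up, lo]
    have w01 : w 0 1 = (1 + x * g 1 0) * z + x := by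
      rw [hw, sl_mul_01, sl_mul_00, sl_mul_01]; simp [up, lo]
    have w10 : w 1 0 = g 1 0 := by
      rw [hw, sl_mul_10, sl_mul_10, sl_mul_11]; simp [up, lo]
    have w11 : w 1 1 = g 1 0 * z + 1 := by
      rw [hw, sl_mul_11, sl_mul_10, sl_mul_11]; simp [up, lo]
    have hdet := det2 g
    have i00 : (w⁻¹) 0 0 = w 1 1 := by simp [adjugate_fin_two]
    have i01 : (w⁻¹) 0 1 = -w 0 1 := by simp [adjugate_fin_two]
    have i10 : (w⁻¹) 1 0 = -w 1 0 := by simp [adjugate_fin_two]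
    have i11 : (w⁻¹) 1 1 = w 0 0 := by simp [adjugate_fin_two]
    have hD : Deep G l 5 (w⁻¹ * g) := by
      refine ⟨mul_mem (inv_mem hwm) hg, ?_, ?_, ?_, ?_⟩
      · rw [sl_mul_00, i00, i01, w11, w01]
        refine ⟨(g 1 0 * z + 1) * (g 0 0 - 1) * v, ?_⟩
        rw [hx, hz]
        linear_combination (-(g 1 0 * (u * (g 1 1 - 1)) + 1) * (g 0 0 - 1)) * huv
      · rw [sl_mul_01, i00, i01, w11, w01]
        refine ⟨v * ((g 1 0 * z + 1) * g 0 1 - ((1 + x * g 1 0) * z + x) * g 1 1) + u * v *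
          ((g 0 0 * g 1 1 - 1) + g 1 1 * (g 0 0 - 1) * (g 1 1 - 1) * (u * g 1 0)), ?_⟩
        rw [hx, hz]
        linear_combination (-((g 1 0 * (u * (g 1 1 - 1)) + 1) * g 0 1 -
          ((1 + (u * (g 0 0 - 1)) * g 1 0) * (u * (g 1 1 - 1)) + (u * (g 0 0 - 1))) * g 1 1) -
          u * ((g 0 0 * g 1 1 - 1) + g 1 1 * (g 0 0 - 1) * (g 1 1 - 1) * (u * g 1 0))) * huv -
          u * (g 1 0 * (u * (g 1 1 - 1)) + 1) * hdet
      · rw [sl_mul_10, i10, i11, w10, w00]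
        refine ⟨-(g 1 0 * (g 0 0 - 1) * v), ?_⟩
        rw [hx]
        linear_combination (g 1 0 * (g 0 0 - 1)) * huv
      · rw [sl_mul_11, i10, i11, w10, w00]
        refine ⟨-(g 1 1 * (g 0 0 - 1) * v), ?_⟩
        rw [hx]
        linear_combination hdet + (g 1 1 * (g 0 0 - 1)) * huv
    have h1 : g = w * (w⁻¹ * g) := by group
    rw [h1, H.mul _ hwm _ hD.mem, hcw, hdeep _ hD, add_zero]
  by_cases hC : (l : ℤ) ∣ g 1 0
  · have hN : (N : ℤ) ∣ N := dvd_rfl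
    have h1 := main (lo N * g) (mul_mem (lom _ hN) hg) (by
      rw [sl_mul_10]
      simp only [lo, sl_10, sl_11, one_mul]
      intro h
      have h2 := (dvd_add_left hC).mp h
      rcases hlp.dvd_or_dvd h2 with h3 | h3
      · exact hlp.not_unit (hNl.isUnit_of_dvd' h3 dvd_rfl)
      · refine hlp.not_unit (isUnit_of_dvd_one ?_)
        rw [← det2 g]
        exact dvd_sub (Dvd.dvd.mul_right h3 _) (Dvd.dvd.mul_left hC _))
    rw [H.mul _ (lom _ hN) _ hg, hlo _ hN, zero_add] at h1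
    exact h1
  · exact main g hg hC

end Fermat.Agent.RT.Ihara
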