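import Mathlib

set_option autoImplicit false

/-!
# Ihara's lemma: the key invariance

`c` is a homomorphism from `Γ₀(N)` to an abelian group which vanishes on parabolic elements and is
invariant under conjugation by `diag(q², 1)` (where this makes sense). For a prime `l ∤ Nq` we
consider the homomorphisms `c_j (g) = c (e_{-j/l} g e_{j/l})`, `e_x = (1 x; 0 1)`, and show that
`c_{q² j} = c_j`. The proof is elementary; it uses the unit `q` and Dirichlet's theorem.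
-/

open Matrix CongruenceSubgroup
open scoped MatrixGroups

namespace Fermat.Agent.RT.Ihara

/-- integral matrices -/
abbrev Mat := Matrix (Fin 2) (Fin 2) ℤ

theorem mem_G0 {N : ℕ} {g : SL(2, ℤ)} : g ∈ Gamma0 N ↔ (N : ℤ) ∣ g 1 0 := by
  rw [Gamma0_mem, ZMod.intCast_zmod_eq_zero_iff_dvd]

theorem det2 (g : SL(2, ℤ)) : g 0 0 * g 1 1 - g 0 1 * g 1 0 = 1 := by
  have := g.det_coe
  rwa [Matrix.det_fin_two] at this

/-- the element of `SL(2,ℤ)` with given entries -/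
def sl (a b c d : ℤ) (h : a * d - b * c = 1) : SL(2, ℤ) :=
  ⟨!![a, b; c, d], by rw [Matrix.det_fin_two]; simpa using h⟩

section sl
variable {a b c d : ℤ} {h : a * d - b * c = 1}

@[simp] theorem sl_00 : sl a b c d h 0 0 = a := rfl
@[simp] theorem sl_01 : sl a b c d h 0 1 = b := rfl
@[simp] theorem sl_10 : sl a b c d h 1 0 = c := rfl
@[simp] theorem sl_11 : sl a b c d h 1 1 = d := rfl

end sl

theorem sl_ext {g h : SL(2, ℤ)} (h00 : g 0 0 = h 0 0) (h01 : g 0 1 = h 0 1)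
    (h10 : g 1 0 = h 1 0) (h11 : g 1 1 = h 1 1) : g = h := by
  ext i j
  fin_cases i <;> fin_cases j <;> assumption

theorem sl_coe_mul (g h : SL(2, ℤ)) : ((g * h : SL(2, ℤ)) : Mat) = (g : Mat) * (h : Mat) := rfl

theorem sl_mul_00 (g h : SL(2, ℤ)) : (g * h) 0 0 = g 0 0 * h 0 0 + g 0 1 * h 1 0 := by
  simp [Matrix.mul_apply, Fin.sum_univ_two]
theorem sl_mul_01 (g h : SL(2, ℤ)) : (g * h) 0 1 = g 0 0 * h 0 1 + g 0 1 * h 1 1 := by
  simp [Matrix.mul_apply, Fin.sum_univ_two]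
theorem sl_mul_10 (g h : SL(2, ℤ)) : (g * h) 1 0 = g 1 0 * h 0 0 + g 1 1 * h 1 0 := by
  simp [Matrix.mul_apply, Fin.sum_univ_two]
theorem sl_mul_11 (g h : SL(2, ℤ)) : (g * h) 1 1 = g 1 0 * h 0 1 + g 1 1 * h 1 1 := by
  simp [Matrix.mul_apply, Fin.sum_univ_two]

/-- upper unipotent elements -/
def up (x : ℤ) : SL(2, ℤ) := sl 1 x 0 1 (by ring)

/-- lower unipotent elements -/
def lo (x : ℤ) : SL(2, ℤ) := sl 1 0 x 1 (by ring)

theorem up_mem (N : ℕ) (x : ℤ) : up x ∈ Gamma1 N := by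
  rw [Gamma1_mem]; simp [up]

theorem lo_mem {N : ℕ} {x : ℤ} (h : (N : ℤ) ∣ x) : lo x ∈ Gamma1 N := by
  obtain ⟨y, rfl⟩ := h
  rw [Gamma1_mem]; simp [lo]

theorem neg_sl (g : SL(2, ℤ)) : -g = (-1) * g := by simp

/-- two elements with the same first column differ by a unipotent element -/
theorem eq_mul_up {g h : SL(2, ℤ)} (h0 : g 0 0 = h 0 0) (h1 : g 1 0 = h 1 0) :
    ∃ y, h = g * up y := by
  refine ⟨g 1 1 * h 0 1 - g 0 1 * h 1 1, ?_⟩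
  have e1 := det2 g
  have e2 := det2 h
  apply sl_ext
  · rw [sl_mul_00]; simp [up, h0]
  · rw [sl_mul_01]
    simp only [up, sl_01, sl_11]
    rw [← h0, ← h1] at e2
    linear_combination (-h 0 1) * e1 + g 0 1 * e2
  · rw [sl_mul_10]; simp [up, h1]
  · rw [sl_mul_11]
    simp only [up, sl_01, sl_11]
    rw [← h0, ← h1] at e2
    linear_combination (-h 1 1) * e1 + g 1 1 * e2

variable {A : Type*} [AddCommGroup A]

/-- elements of `Γ₀(N)` with the same upper left entry modulo `N` as an element of `G` -/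
theorem mem_of_congr' {N : ℕ} {G : Subgroup SL(2, ℤ)} (h1 : Gamma1 N ≤ G) {g g' : SL(2, ℤ)}
    (hg : g ∈ G) (h : (N : ℤ) ∣ g 1 0) (h' : (N : ℤ) ∣ g' 1 0) (hd : (N : ℤ) ∣ g' 0 0 - g 0 0) :
    g' ∈ G := by
  have e : g' = (g' * g⁻¹) * g := by group
  rw [e]
  refine G.mul_mem (h1 ?_) hg
  obtain ⟨x, hx⟩ := h
  obtain ⟨x', hx'⟩ := h'
  obtain ⟨y, hy⟩ := hd
  have hdet := det2 g
  have i00 : (g⁻¹) 0 0 = g 1 1 := by simp [adjugate_fin_two]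
  have i01 : (g⁻¹) 0 1 = -g 0 1 := by simp [adjugate_fin_two]
  have i10 : (g⁻¹) 1 0 = -g 1 0 := by simp [adjugate_fin_two]
  have i11 : (g⁻¹) 1 1 = g 0 0 := by simp [adjugate_fin_two]
  have e00 : (g' * g⁻¹) 0 0 = 1 + N * (y * g 1 1 + g 0 1 * x - g' 0 1 * x) := by
    rw [sl_mul_00, i00, i10]
    rw [hx] at hdet ⊢
    linear_combination g 1 1 * hy + hdet
  have e10 : (g' * g⁻¹) 1 0 = N * (x' * g 1 1 - g' 1 1 * x) := by
    rw [sl_mul_10, i00, i10, hx, hx']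
    ring
  have hdet' := det2 (g' * g⁻¹)
  have e11 : (g' * g⁻¹) 1 1 = 1 + N * ((g' * g⁻¹) 0 1 * (x' * g 1 1 - g' 1 1 * x) -
      (y * g 1 1 + g 0 1 * x - g' 0 1 * x) * (g' * g⁻¹) 1 1) := by
    rw [e00, e10] at hdet'
    linear_combination hdet'
  rw [Gamma1_mem]
  refine ⟨?_, ?_, ?_⟩
  · rw [e00]; simp
  · rw [e11]; simp
  · rw [e10]; simp

/-- a homomorphism `G → A`, `Γ₁(N) ≤ G ≤ Γ₀(N)`, given as a function on `SL(2,ℤ)`, which vanishes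
on parabolic elements, and is invariant under diamond operators and under conjugation by
`diag(q², 1)` -/
structure Hyp (G : Subgroup SL(2, ℤ)) (N q : ℕ) (c : SL(2, ℤ) → A) : Prop where
  h1 : Gamma1 N ≤ G
  h0 : G ≤ Gamma0 N
  neg : -1 ∈ G
  mul : ∀ g ∈ G, ∀ h ∈ G, c (g * h) = c g + c h
  par : ∀ g ∈ G, (g 0 0 + g 1 1) ^ 2 = 4 → c g = 0
  dia : ∀ g ∈ G, ∀ h ∈ Gamma0 N, c (h * g * h⁻¹) = c g
  dil : ∀ g ∈ G, ∀ g' ∈ G, g' 0 0 = g 0 0 → g' 0 1 = q ^ 2 * g 0 1 →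
    g 1 0 = q ^ 2 * g' 1 0 → g' 1 1 = g 1 1 → c g' = c g

/-- the matrix `l e_{j/l}` -/
def E (l j : ℤ) : Mat := !![l, j; 0, l]

theorem E_mul_eq_iff (l j : ℤ) (g g' : SL(2, ℤ)) : E l j * (g' : Mat) = (g : Mat) * E l j ↔
    l * g' 0 0 + j * g' 1 0 = l * g 0 0 ∧ l * g' 0 1 + j * g' 1 1 = j * g 0 0 + l * g 0 1 ∧
    l * g' 1 0 = l * g 1 0 ∧ l * g' 1 1 = j * g 1 0 + l * g 1 1 := by
  constructor
  · intro h
    have h00 := congrFun (congrFun h 0) 0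
    have h01 := congrFun (congrFun h 0) 1
    have h10 := congrFun (congrFun h 1) 0
    have h11 := congrFun (congrFun h 1) 1
    simp only [E, Matrix.mul_apply, Fin.sum_univ_two, Matrix.of_apply, Matrix.cons_val', Matrix.cons_val_zero,
      Matrix.cons_val_one, Matrix.cons_val_fin_one] at h00 h01 h10 h11
    refine ⟨?_, ?_, ?_, ?_⟩
    · linear_combination h00
    · linear_combination h01
    · linear_combination h10
    · linear_combination h11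
  · rintro ⟨h00, h01, h10, h11⟩
    ext i k
    fin_cases i <;> fin_cases k <;>
    simp only [E, Matrix.mul_apply, Fin.sum_univ_two, Matrix.of_apply, Matrix.cons_val', Matrix.cons_val_zero,
      Matrix.cons_val_one, Matrix.cons_val_fin_one, Fin.zero_eta, Fin.mk_one, Fin.isValue]
    · linear_combination h00
    · linear_combination h01
    · linear_combination h10
    · linear_combination h11

theorem E_unique {l j : ℤ} (hl : l ≠ 0) {g g₁ g₂ : SL(2, ℤ)}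
    (h₁ : E l j * (g₁ : Mat) = (g : Mat) * E l j) (h₂ : E l j * (g₂ : Mat) = (g : Mat) * E l j) :
    g₁ = g₂ := by
  rw [E_mul_eq_iff] at h₁ h₂
  obtain ⟨a1, a2, a3, a4⟩ := h₁
  obtain ⟨b1, b2, b3, b4⟩ := h₂
  have e3 : g₁ 1 0 = g₂ 1 0 := mul_left_cancel₀ hl (a3.trans b3.symm)
  have e4 : g₁ 1 1 = g₂ 1 1 := mul_left_cancel₀ hl (a4.trans b4.symm)
  have e1 : g₁ 0 0 = g₂ 0 0 := by
    apply mul_left_cancel₀ hl
    rw [e3] at a1
    linear_combination a1 - b1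
  have e2 : g₁ 0 1 = g₂ 0 1 := by
    apply mul_left_cancel₀ hl
    rw [e4] at a2
    linear_combination a2 - b2
  exact sl_ext e1 e2 e3 e4

open Classical in
/-- the conjugate `c_j` -/
noncomputable def cj (G : Subgroup SL(2, ℤ)) (c : SL(2, ℤ) → A) (l j : ℤ) (g : SL(2, ℤ)) : A :=
  if h : ∃ g' ∈ G, E l j * (g' : Mat) = (g : Mat) * E l j then c h.choose else 0

theorem cj_eq {G : Subgroup SL(2, ℤ)} {c : SL(2, ℤ) → A} {l j : ℤ} (hl : l ≠ 0) {g g' : SL(2, ℤ)}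
    (hg' : g' ∈ G) (h : E l j * (g' : Mat) = (g : Mat) * E l j) : cj G c l j g = c g' := by
  have hex : ∃ g' ∈ G, E l j * (g' : Mat) = (g : Mat) * E l j := ⟨g', hg', h⟩
  rw [cj, dif_pos hex, E_unique hl hex.choose_spec.2 h]

/-- the domain of the homomorphisms `c_j` -/
structure Gp (G : Subgroup SL(2, ℤ)) (N : ℕ) (l : ℤ) (g : SL(2, ℤ)) : Prop where
  mem : g ∈ G
  dvd : (N : ℤ) * l ^ 2 ∣ g 1 0
  pm : l ∣ g 0 0 - 1 ∨ l ∣ g 0 0 + 1

variable {G : Subgroup SL(2, ℤ)}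

theorem Gp.sub {N : ℕ} {l : ℤ} {g : SL(2, ℤ)} (h : Gp G N l g) : l ∣ g 0 0 - g 1 1 := by
  have h1 : l ∣ g 1 0 := ((dvd_mul_left (l ^ 2) (N : ℤ)).trans h.dvd) |> (dvd_pow_self l two_ne_zero).trans
  have h2 := det2 g
  obtain ⟨k, hk⟩ := h1
  rcases h.pm with ⟨r, hr⟩ | ⟨r, hr⟩
  · refine ⟨r + r * g 1 1 - g 0 1 * k, ?_⟩
    linear_combination (1 + g 1 1) * hr - h2 - g 0 1 * hk
  · refine ⟨r - r * g 1 1 + g 0 1 * k, ?_⟩
    linear_combination (1 - g 1 1) * hr + h2 + g 0 1 * hk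

theorem Gp.dvdN {N : ℕ} {l : ℤ} {g : SL(2, ℤ)} (h : Gp G N l g) : (N : ℤ) ∣ g 1 0 :=
  (dvd_mul_right _ _).trans h.dvd

theorem Gp.exists_cnj {N : ℕ} {l : ℤ} {g : SL(2, ℤ)} (h1 : Gamma1 N ≤ G) (hl : l ≠ 0)
    (h : Gp G N l g) (j : ℤ) : ∃ g' ∈ G, E l j * (g' : Mat) = (g : Mat) * E l j := by
  obtain ⟨r, hr⟩ := h.sub
  obtain ⟨k, hk⟩ := h.dvd
  have hdet := det2 g
  have e : (g 0 0 - j * (N * l * k)) * (g 1 1 + j * (N * l * k)) -
      (g 0 1 + j * r - j ^ 2 * (N * k)) * g 1 0 = 1 := by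
    rw [hk] at hdet ⊢
    linear_combination hdet + j * (N * l * k) * hr
  refine ⟨sl (g 0 0 - j * (N * l * k)) (g 0 1 + j * r - j ^ 2 * (N * k)) (g 1 0)
    (g 1 1 + j * (N * l * k)) e, ?_, ?_⟩
  · refine mem_of_congr' h1 h.mem h.dvdN h.dvdN ⟨-(j * (l * k)), ?_⟩
    rw [sl_00]
    ring
  · rw [E_mul_eq_iff]
    simp only [sl_00, sl_01, sl_10, sl_11]
    refine ⟨?_, ?_, ?_, ?_⟩
    · rw [hk]; ring
    · linear_combination (-j) * hr
    · trivial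
    · rw [hk]; ring

theorem Gp.mul {N : ℕ} {l : ℤ} {g h : SL(2, ℤ)} (hg : Gp G N l g) (hh : Gp G N l h) :
    Gp G N l (g * h) := by
  refine ⟨mul_mem hg.mem hh.mem, ?_, ?_⟩
  · rw [sl_mul_10]
    exact dvd_add (Dvd.dvd.mul_right hg.dvd _) (Dvd.dvd.mul_left hh.dvd _)
  · rw [sl_mul_00]
    have h1 : l ∣ h 1 0 := ((dvd_mul_left (l ^ 2) (N : ℤ)).trans hh.dvd) |> (dvd_pow_self l two_ne_zero).trans
    obtain ⟨k, hk⟩ := h1
    rcases hg.pm with ⟨r, hr⟩ | ⟨r, hr⟩ <;> rcases hh.pm with ⟨s, hs⟩ | ⟨s, hs⟩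
    · left
      exact ⟨r * h 0 0 + s + g 0 1 * k, by linear_combination h 0 0 * hr + hs + g 0 1 * hk⟩
    · right
      exact ⟨r * h 0 0 + s + g 0 1 * k, by linear_combination h 0 0 * hr + hs + g 0 1 * hk⟩
    · right
      exact ⟨r * h 0 0 - s + g 0 1 * k, by linear_combination h 0 0 * hr - hs + g 0 1 * hk⟩
    · left
      exact ⟨r * h 0 0 - s + g 0 1 * k, by linear_combination h 0 0 * hr - hs + g 0 1 * hk⟩

theorem Gp.up {N : ℕ} (h1 : Gamma1 N ≤ G) (l x : ℤ) : Gp G N l (up x) :=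
  ⟨h1 (up_mem N x), by simp [Ihara.up], Or.inl (by simp [Ihara.up])⟩

theorem Gp.lo {N : ℕ} (h1 : Gamma1 N ≤ G) {l x : ℤ} (h : (N : ℤ) * l ^ 2 ∣ x) : Gp G N l (lo x) :=
  ⟨h1 (lo_mem ((dvd_mul_right _ _).trans h)), by simpa [Ihara.lo] using h,
    Or.inl (by simp [Ihara.lo])⟩

variable {N q : ℕ} {c : SL(2, ℤ) → A}

theorem Hyp.dvd (H : Hyp G N q c) {g : SL(2, ℤ)} (hg : g ∈ G) : (N : ℤ) ∣ g 1 0 :=
  mem_G0.mp (H.h0 hg)

theorem Hyp.one (H : Hyp G N q c) : c 1 = 0 := by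
  have := H.mul 1 (one_mem _) 1 (one_mem _)
  rw [mul_one] at this
  simpa using this

theorem Hyp.inv (H : Hyp G N q c) {g : SL(2, ℤ)} (hg : g ∈ G) : c g⁻¹ = - c g := by
  have := H.mul g hg g⁻¹ (inv_mem hg)
  rw [mul_inv_cancel, H.one] at this
  exact (neg_eq_of_add_eq_zero_right this.symm).symm

theorem Hyp.conj (H : Hyp G N q c) {g h : SL(2, ℤ)} (hg : g ∈ G) (hh : h ∈ G) :
    c (h * g * h⁻¹) = c g := H.dia g hg h (H.h0 hh)

theorem Hyp.conj_mem (H : Hyp G N q c) {g h : SL(2, ℤ)} (hg : g ∈ G) (hh : h ∈ Gamma0 N) :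
    h * g * h⁻¹ ∈ G := by
  have hg0 := H.h0 hg
  have hm : h * g * h⁻¹ ∈ Gamma0 N := mul_mem (mul_mem hh hg0) (inv_mem hh)
  refine mem_of_congr' H.h1 hg (H.dvd hg) (mem_G0.mp hm) ?_
  obtain ⟨x, hx⟩ := mem_G0.mp hh
  obtain ⟨y, hy⟩ := mem_G0.mp hg0
  have hdet := det2 h
  have i00 : (h⁻¹) 0 0 = h 1 1 := by simp [adjugate_fin_two]
  have i10 : (h⁻¹) 1 0 = -h 1 0 := by simp [adjugate_fin_two]
  refine ⟨g 0 0 * (h 0 1 * x) + h 0 1 * y * h 1 1 - (h 0 0 * g 0 1 + h 0 1 * g 1 1) * x, ?_⟩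
  rw [sl_mul_00, sl_mul_00, sl_mul_01, i00, i10]
  rw [hx] at hdet ⊢
  rw [hy]
  linear_combination g 0 0 * hdet

theorem Hyp.cj_mul (H : Hyp G N q c) {l : ℤ} (hl : l ≠ 0) (j : ℤ) {g h : SL(2, ℤ)}
    (hg : Gp G N l g) (hh : Gp G N l h) : cj G c l j (g * h) = cj G c l j g + cj G c l j h := by
  obtain ⟨g', hg', e1⟩ := hg.exists_cnj H.h1 hl j
  obtain ⟨h', hh', e2⟩ := hh.exists_cnj H.h1 hl j
  have e3 : E l j * ((g' * h' : SL(2, ℤ)) : Mat) = ((g * h : SL(2, ℤ)) : Mat) * E l j := by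
    rw [sl_coe_mul, sl_coe_mul, ← mul_assoc, e1, mul_assoc, e2, mul_assoc]
  rw [cj_eq hl hg' e1, cj_eq hl hh' e2, cj_eq hl (mul_mem hg' hh') e3, H.mul _ hg' _ hh']

theorem trace_cnj {l j : ℤ} (hl : l ≠ 0) {g g' : SL(2, ℤ)}
    (h : E l j * (g' : Mat) = (g : Mat) * E l j) : g' 0 0 + g' 1 1 = g 0 0 + g 1 1 := by
  rw [E_mul_eq_iff] at h
  obtain ⟨a1, a2, a3, a4⟩ := h
  have e3 : g' 1 0 = g 1 0 := mul_left_cancel₀ hl a3
  apply mul_left_cancel₀ hl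
  rw [e3] at a1
  linear_combination a1 + a4

theorem Hyp.cj_par (H : Hyp G N q c) {l : ℤ} (hl : l ≠ 0) (j : ℤ) {g : SL(2, ℤ)} (hg : Gp G N l g)
    (h4 : (g 0 0 + g 1 1) ^ 2 = 4) : cj G c l j g = 0 := by
  obtain ⟨g', hg', e1⟩ := hg.exists_cnj H.h1 hl j
  rw [cj_eq hl hg' e1]
  exact H.par g' hg' (by rw [trace_cnj hl e1, h4])

theorem Hyp.cj_up_mul (H : Hyp G N q c) {l : ℤ} (hl : l ≠ 0) (j : ℤ) {g : SL(2, ℤ)}
    (hg : Gp G N l g) (y : ℤ) : cj G c l j (up y * g) = cj G c l j g := by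
  rw [H.cj_mul hl j (Gp.up H.h1 l y) hg, H.cj_par hl j (Gp.up H.h1 l y) (by simp [Ihara.up]),
    zero_add]

theorem Hyp.cj_mul_up (H : Hyp G N q c) {l : ℤ} (hl : l ≠ 0) (j : ℤ) {g : SL(2, ℤ)}
    (hg : Gp G N l g) (y : ℤ) : cj G c l j (g * up y) = cj G c l j g := by
  rw [H.cj_mul hl j hg (Gp.up H.h1 l y), H.cj_par hl j (Gp.up H.h1 l y) (by simp [Ihara.up]),
    add_zero]

theorem Hyp.cj_lo_mul (H : Hyp G N q c) {l : ℤ} (hl : l ≠ 0) (j : ℤ) {g : SL(2, ℤ)}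
    (hg : Gp G N l g) {y : ℤ} (hy : (N : ℤ) * l ^ 2 ∣ y) :
    cj G c l j (lo y * g) = cj G c l j g := by
  rw [H.cj_mul hl j (Gp.lo H.h1 hy) hg, H.cj_par hl j (Gp.lo H.h1 hy) (by simp [Ihara.lo]),
    zero_add]

/-- `c_j` only depends on the first column -/
theorem Hyp.cj_col (H : Hyp G N q c) {l : ℤ} (hl : l ≠ 0) (j : ℤ) {g h : SL(2, ℤ)}
    (hg : Gp G N l g) (h0 : g 0 0 = h 0 0) (h1 : g 1 0 = h 1 0) :
    cj G c l j h = cj G c l j g := by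
  obtain ⟨y, rfl⟩ := eq_mul_up h0 h1
  exact H.cj_mul_up hl j hg y

/-- iterated dilation -/
theorem Hyp.dil_pow (H : Hyp G N q c) (m : ℕ) :
    ∀ g ∈ G, ∀ g' ∈ G, g' 0 0 = g 0 0 → g' 0 1 = q ^ (2 * m) * g 0 1 →
    g 1 0 = q ^ (2 * m) * g' 1 0 → g' 1 1 = g 1 1 → c g' = c g := by
  induction m with
  | zero =>
    intro g _ g' _ h1 h2 h3 h4
    rw [mul_zero, pow_zero, one_mul] at h2 h3
    rw [sl_ext h1 h2 h3.symm h4]
  | succ m ih =>
    intro g hg g' hg' h1 h2 h3 h4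
    have hdet := det2 g'
    have hg1 : (g' 0 0) * (g' 1 1) - (q ^ (2 * m) * g 0 1) * (q ^ 2 * g' 1 0) = 1 := by
      rw [h2] at hdet
      linear_combination hdet
    have hmem : sl _ _ _ _ hg1 ∈ G := by
      refine mem_of_congr' H.h1 hg' (H.dvd hg') ?_ (by rw [sl_00, sub_self]; exact dvd_zero _)
      rw [sl_10]
      exact Dvd.dvd.mul_left (H.dvd hg') _
    have e1 := H.dil (sl _ _ _ _ hg1) hmem g' hg' (by simp) (by simp [h2]; ring) (by simp)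
      (by simp)
    have e2 := ih g hg (sl _ _ _ _ hg1) hmem (by simp [h1]) (by simp) (by simp [h3]; ring)
      (by simp [h4])
    rw [e1, e2]

end Fermat.Agent.RT.Ihara
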