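import Fermat.Agent.RT.IharaKey

set_option autoImplicit false

/-!
# Ihara's lemma: the key invariance (continued)
-/

open Matrix CongruenceSubgroup
open scoped MatrixGroups

namespace Fermat.Agent.RT.Ihara

variable {A : Type*} [AddCommGroup A] {N q : ℕ} {c : SL(2, ℤ) → A} {G : Subgroup SL(2, ℤ)}

theorem Gp.congr (hG : Gamma1 N ≤ G) {l : ℤ} {g h : SL(2, ℤ)} (hg : Gp G N l g)
    (h0 : h 0 0 = g 0 0) (h1 : (N : ℤ) * l ^ 2 ∣ h 1 0) : Gp G N l h :=
  ⟨mem_of_congr' hG hg.mem hg.dvdN ((dvd_mul_right _ _).trans h1)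
    (by rw [h0, sub_self]; exact dvd_zero _), h1, by rw [h0]; exact hg.pm⟩

theorem Hyp.step (H : Hyp G N q c) {l : ℤ} (hl : l ≠ 0)
    (hqN : IsCoprime (N : ℤ) (q : ℤ)) (hlq : IsCoprime l (q : ℤ)) (m : ℕ) {g : SL(2, ℤ)}
    (hg : Gp G N l g) (ha : g 0 0 ∣ (q : ℤ) ^ (2 * m) - 1) (j : ℤ) :
    cj G c l (q ^ (2 * m) * j) g = cj G c l j g := by
  obtain ⟨w, hw⟩ := ha
  have hco : IsCoprime ((N : ℤ) * l ^ 2 * g 0 0) ((q : ℤ) ^ (2 * m)) := by
    refine IsCoprime.mul_left ((IsCoprime.mul_left hqN (hlq.pow_left)).pow_right) ?_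
    exact ⟨-w, 1, by linear_combination hw⟩
  obtain ⟨u, v, huv⟩ := hco
  have hz : (N : ℤ) * l ^ 2 ∣ -((N : ℤ) * l ^ 2 * (u * g 1 0)) :=
    (dvd_mul_right _ _).neg_right
  set g₁ := lo (-((N : ℤ) * l ^ 2 * (u * g 1 0))) * g with hg₁
  have hg₁p : Gp G N l g₁ := (Gp.lo H.h1 hz).mul hg
  have a00 : g₁ 0 0 = g 0 0 := by rw [hg₁, sl_mul_00]; simp [lo]
  have a10 : g₁ 1 0 = q ^ (2 * m) * (v * g 1 0) := by
    rw [hg₁, sl_mul_10]
    simp only [lo, sl_10, sl_11]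
    linear_combination (-g 1 0) * huv
  have hk : (N : ℤ) * l ^ 2 ∣ v * g 1 0 := Dvd.dvd.mul_left hg.dvd _
  set k := v * g 1 0 with hkdef
  have hdet := det2 g₁
  have hdet2 : g₁ 0 0 * g₁ 1 1 - (q ^ (2 * m) * g₁ 0 1) * k = 1 := by
    rw [a10] at hdet
    linear_combination hdet
  set g₂ := sl _ _ _ _ hdet2 with hg₂
  have hg₂p : Gp G N l g₂ := hg₁p.congr H.h1 (by rw [hg₂, sl_00]) (by rw [hg₂, sl_10]; exact hk)
  -- the values at `g₂` and `g₁` agree
  have key1 : ∀ i, cj G c l i g₂ = cj G c l i g₁ := by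
    intro i
    have h1 : (N : ℤ) * l ^ 2 ∣ -(k * w) := (Dvd.dvd.mul_right hk _).neg_right
    rw [← H.cj_lo_mul hl i hg₁p h1]
    refine H.cj_col hl i ((Gp.lo H.h1 h1).mul hg₁p) ?_ ?_
    · rw [sl_mul_00, hg₂]; simp [lo]
    · rw [sl_mul_10, hg₂]
      simp only [lo, sl_10, sl_11]
      rw [a10, a00]
      linear_combination k * hw
  have key2 : cj G c l (q ^ (2 * m) * j) g₂ = cj G c l j g₁ := by
    obtain ⟨h, hh, e1⟩ := hg₁p.exists_cnj H.h1 hl j
    obtain ⟨h', hh', e2⟩ := hg₂p.exists_cnj H.h1 hl (q ^ (2 * m) * j)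
    rw [cj_eq hl hh' e2, cj_eq hl hh e1]
    rw [E_mul_eq_iff] at e1 e2
    obtain ⟨p1, p2, p3, p4⟩ := e1
    obtain ⟨r1, r2, r3, r4⟩ := e2
    simp only [hg₂, sl_00, sl_01, sl_10, sl_11] at r1 r2 r3 r4
    have t3 : h 1 0 = g₁ 1 0 := mul_left_cancel₀ hl p3
    have s3 : h' 1 0 = k := mul_left_cancel₀ hl r3
    rw [a10] at p4 t3
    have s1 : h' 0 0 = h 0 0 := by
      apply mul_left_cancel₀ hl
      rw [t3] at p1
      rw [s3] at r1
      linear_combination r1 - p1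
    have s4 : h' 1 1 = h 1 1 := by
      apply mul_left_cancel₀ hl
      linear_combination r4 - p4
    have s2 : h' 0 1 = q ^ (2 * m) * h 0 1 := by
      apply mul_left_cancel₀ hl
      rw [s4] at r2
      linear_combination r2 - q ^ (2 * m) * p2
    exact H.dil_pow m h hh h' hh' s1 s2 (by rw [t3, s3]) s4
  rw [← H.cj_lo_mul hl _ hg hz, ← H.cj_lo_mul hl j hg hz, ← hg₁, ← key2, key1]

theorem Hyp.cj_neg (H : Hyp G N q c) {l : ℤ} (hl : l ≠ 0) (j : ℤ) {g : SL(2, ℤ)} (hg : Gp G N l g) :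
    Gp G N l (-g) ∧ cj G c l j (-g) = cj G c l j g := by
  have h1 : Gp G N l (-1) := ⟨H.neg, by simp, Or.inr (by simp)⟩
  have h2 : -g = (-1) * g := by simp
  rw [h2]
  refine ⟨h1.mul hg, ?_⟩
  rw [H.cj_mul hl j h1 hg, H.cj_par hl j h1 (by simp), zero_add]

theorem exists_prime_aux (q : ℕ) (hq : q ≠ 0) (s : ℕ) (hs : s.Prime) : ∃ t : ℕ, 3 ≤ t ∧ ∀ a : ℕ, a.Prime →
    q + 2 < a → (a : ZMod t) ≠ 1 → ∃ m : ℕ, ¬ s ∣ m ∧ (a : ℤ) ∣ (q : ℤ) ^ (2 * m) - 1 := by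
  have fermat : ∀ a : ℕ, a.Prime → q + 2 < a → (a : ℤ) ∣ (q : ℤ) ^ (a - 1) - 1 := by
    intro a ha hqa
    have : Fact a.Prime := ⟨ha⟩
    rw [← ZMod.intCast_zmod_eq_zero_iff_dvd]
    push_cast
    rw [ZMod.pow_card_sub_one_eq_one, sub_self]
    intro h
    rw [ZMod.natCast_eq_zero_iff] at h
    have := Nat.le_of_dvd (Nat.pos_of_ne_zero hq) h
    omega
  by_cases h2 : s = 2
  · subst h2
    refine ⟨4, by norm_num, fun a ha hqa h1 => ?_⟩
    have hodd : a % 2 = 1 := (ha.eq_two_or_odd).resolve_left (by omega)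
    have h4 : a % 4 ≠ 1 := by
      intro h
      apply h1
      have := (ZMod.natCast_eq_natCast_iff a 1 4).mpr (by simpa [Nat.ModEq] using h)
      simpa using this
    refine ⟨(a - 1) / 2, by omega, ?_⟩
    have : 2 * ((a - 1) / 2) = a - 1 := by omega
    rw [this]
    exact fermat a ha hqa
  · refine ⟨s, by have := hs.two_le; omega, fun a ha hqa h1 => ⟨a - 1, ?_, ?_⟩⟩
    · intro h
      apply h1
      have h3 : a = (a - 1) + 1 := by omega
      rw [h3, Nat.cast_add, (ZMod.natCast_eq_zero_iff _ _).mpr h]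
      simp
    · rw [mul_comm, pow_mul]
      have := fermat a ha hqa
      exact this.trans (sub_one_dvd_pow_sub_one _ _)

/-- Dirichlet's theorem, in the form needed here -/
theorem exists_prime_class (a C : ℤ) (hC : C ≠ 0) (ha : IsCoprime a C) (t : ℕ) (ht : 3 ≤ t)
    (n : ℕ) : ∃ p : ℕ, p.Prime ∧ n < p ∧ (p : ZMod t) ≠ 1 ∧
      ∃ e : ℤ, (e = 1 ∨ e = -1) ∧ C ∣ (p : ℤ) - e * a := by
  have hC' : C.natAbs ≠ 0 := Int.natAbs_ne_zero.mpr hC
  have : NeZero (C.natAbs * t) := ⟨Nat.mul_ne_zero hC' (by omega)⟩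
  have : NeZero C.natAbs := ⟨hC'⟩
  have hd1 : C.natAbs ∣ C.natAbs * t := dvd_mul_right _ _
  have hd2 : t ∣ C.natAbs * t := dvd_mul_left _ _
  have hu : IsUnit ((a : ℤ) : ZMod C.natAbs) := by
    rw [ZMod.coe_int_isUnit_iff_isCoprime]
    rcases Int.natAbs_eq C with h | h
    · rw [← h]; exact ha.symm
    · have h1 : ((C.natAbs : ℕ) : ℤ) = -C := by omega
      rw [h1]; exact ha.symm.neg_left
  obtain ⟨u, hu⟩ := hu
  obtain ⟨r, hr⟩ := ZMod.unitsMap_surjective hd1 u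
  have hr1 : ZMod.castHom hd1 (ZMod C.natAbs) (r : ZMod (C.natAbs * t)) = (a : ZMod C.natAbs) := by
    rw [← hu, ← hr]; rfl
  have main : ∀ (x : ZMod (C.natAbs * t)) (e : ℤ), IsUnit x → (e = 1 ∨ e = -1) →
      ZMod.castHom hd1 (ZMod C.natAbs) x = ((e * a : ℤ) : ZMod C.natAbs) →
      ZMod.castHom hd2 (ZMod t) x ≠ 1 → ∃ p : ℕ, p.Prime ∧ n < p ∧ (p : ZMod t) ≠ 1 ∧
      ∃ e : ℤ, (e = 1 ∨ e = -1) ∧ C ∣ (p : ℤ) - e * a := by
    intro x e hx he h1 h2
    obtain ⟨p, hp1, hp2, hp3⟩ := Nat.forall_exists_prime_gt_and_eq_mod hx n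
    refine ⟨p, hp2, hp1, ?_, e, he, ?_⟩
    · rw [← hp3, map_natCast] at h2
      exact h2
    · rw [← hp3, map_natCast] at h1
      rw [← Int.natAbs_dvd, ← ZMod.intCast_zmod_eq_zero_iff_dvd]
      push_cast at h1 ⊢
      rw [h1, sub_self]
  by_cases h : ZMod.castHom hd2 (ZMod t) (r : ZMod (C.natAbs * t)) = 1
  · refine main (-(r : ZMod (C.natAbs * t))) (-1) r.isUnit.neg (Or.inr rfl) ?_ ?_
    · rw [map_neg, hr1]; push_cast; ring
    · rw [map_neg, h]
      intro h3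
      have h4 : ((2 : ℕ) : ZMod t) = 0 := by
        push_cast
        linear_combination -h3
      rw [ZMod.natCast_eq_zero_iff] at h4
      have := Nat.le_of_dvd (by norm_num) h4
      omega
  · exact main _ 1 r.isUnit (Or.inl rfl) (by rw [hr1, one_mul]) h

theorem Hyp.exists_step (H : Hyp G N q c) {l : ℤ} (hl : l ≠ 0) (hq : q ≠ 0)
    (hqN : IsCoprime (N : ℤ) (q : ℤ)) (hlq : IsCoprime l (q : ℤ)) {g : SL(2, ℤ)}
    (hg : Gp G N l g) (s : ℕ) (hs : s.Prime) :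
    ∃ m : ℕ, ¬ s ∣ m ∧ ∀ j, cj G c l (q ^ (2 * m) * j) g = cj G c l j g := by
  by_cases hC : g 1 0 = 0
  · have hdet := det2 g
    rw [hC, mul_zero, sub_zero] at hdet
    have h4 : (g 0 0 + g 1 1) ^ 2 = 4 := by
      rcases Int.eq_one_or_neg_one_of_mul_eq_one' hdet with ⟨h1, h2⟩ | ⟨h1, h2⟩ <;> rw [h1, h2] <;>
        norm_num
    refine ⟨1, fun h => ?_, fun j => ?_⟩
    · have := Nat.le_of_dvd one_pos h
      have := hs.two_le
      omega
    · rw [H.cj_par hl _ hg h4, H.cj_par hl _ hg h4]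
  · obtain ⟨t, ht, Ht⟩ := exists_prime_aux q hq s hs
    have hco : IsCoprime (g 0 0) (g 1 0) := ⟨g 1 1, -g 0 1, by linear_combination det2 g⟩
    obtain ⟨p, hp, hpn, hpt, e, he, k, hk⟩ := exists_prime_class (g 0 0) (g 1 0) hC hco t ht (q + 2)
    obtain ⟨m, hm, hdvd⟩ := Ht p hp hpn hpt
    refine ⟨m, hm, fun j => ?_⟩
    rcases he with rfl | rfl
    · have hg1 : Gp G N l (up k * g) := (Gp.up H.h1 l k).mul hg
      have h00 : (up k * g) 0 0 = p := by
        rw [sl_mul_00]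
        simp only [up, sl_00, sl_01]
        linear_combination -hk
      have := H.step hl hqN hlq m hg1 (by rw [h00]; exact hdvd) j
      rwa [H.cj_up_mul hl _ hg, H.cj_up_mul hl _ hg] at this
    · have hng := (H.cj_neg hl j hg).1
      have hg1 : Gp G N l (up (-k) * -g) := (Gp.up H.h1 l (-k)).mul hng
      have h00 : (up (-k) * -g) 0 0 = p := by
        rw [sl_mul_00]
        simp only [up, sl_00, sl_01, SpecialLinearGroup.coe_neg, Matrix.neg_apply]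
        linear_combination -hk
      have := H.step hl hqN hlq m hg1 (by rw [h00]; exact hdvd) j
      rwa [H.cj_up_mul hl _ hng, H.cj_up_mul hl _ hng, (H.cj_neg hl _ hg).2,
        (H.cj_neg hl _ hg).2] at this

theorem Hyp.cj_add (H : Hyp G N q c) {l : ℤ} (hl : l ≠ 0) {g : SL(2, ℤ)} (hg : Gp G N l g) (j k : ℤ) :
    cj G c l (j + l * k) g = cj G c l j g := by
  obtain ⟨h, hh, e1⟩ := hg.exists_cnj H.h1 hl j
  have hup : up k ∈ G := H.h1 (up_mem N k)
  have hmem : (up k)⁻¹ * h * (up k)⁻¹⁻¹ ∈ G :=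
    mul_mem (mul_mem (inv_mem hup) hh) (inv_mem (inv_mem hup))
  have hE : E l (j + l * k) = E l j * (up k : Mat) := by
    ext a b
    fin_cases a <;> fin_cases b <;> simp [E, up, sl, Matrix.mul_apply, Fin.sum_univ_two] <;> ring
  have e2 : E l (j + l * k) * (((up k)⁻¹ * h * (up k)⁻¹⁻¹ : SL(2, ℤ)) : Mat) =
      (g : Mat) * E l (j + l * k) := by
    rw [hE, mul_assoc (E l j), ← sl_coe_mul, ← mul_assoc (g : Mat), ← e1, mul_assoc (E l j),
      ← sl_coe_mul]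
    congr 2
    group
  rw [cj_eq hl hmem e2, cj_eq hl hh e1, H.conj hh (inv_mem hup)]

/-- **The key invariance.** -/
theorem Hyp.key (H : Hyp G N q c) {l : ℕ} (hl : l.Prime) (hq : q ≠ 0)
    (hqN : IsCoprime (N : ℤ) (q : ℤ)) (hlq : IsCoprime (l : ℤ) (q : ℤ)) {g : SL(2, ℤ)}
    (hg : Gp G N l g) (j : ℤ) : cj G c l (q ^ 2 * j) g = cj G c l j g := by
  have hl0 : (l : ℤ) ≠ 0 := by exact_mod_cast hl.ne_zero
  set P : ℕ → Prop := fun m => ∀ j, cj G c l (q ^ (2 * m) * j) g = cj G c l j g with hP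
  have hP0 : P (l - 1) := by
    intro j
    have : (l : ℤ) ∣ q ^ (2 * (l - 1)) - 1 := by
      have : Fact l.Prime := ⟨hl⟩
      rw [mul_comm, pow_mul]
      refine dvd_trans ?_ (sub_one_dvd_pow_sub_one _ _)
      rw [← ZMod.intCast_zmod_eq_zero_iff_dvd]
      push_cast
      rw [ZMod.pow_card_sub_one_eq_one, sub_self]
      intro h
      have h1 : (l : ℤ) ∣ (q : ℤ) := by
        rw [← ZMod.intCast_zmod_eq_zero_iff_dvd]; exact_mod_cast h
      have := hlq.isUnit_of_dvd' dvd_rfl h1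
      rw [Int.isUnit_iff] at this
      have := hl.two_le
      omega
    obtain ⟨k, hk⟩ := this
    have h2 : (q : ℤ) ^ (2 * (l - 1)) * j = j + l * (k * j) := by linear_combination j * hk
    rw [h2, H.cj_add hl0 hg]
  have hadd : ∀ m n, P m → P n → P (m + n) := by
    intro m n hm hn j
    rw [mul_add, pow_add, mul_assoc, hm, hn]
  have hsub : ∀ m n, P m → P (m + n) → P n := by
    intro m n hm hmn j
    have := hmn j
    rw [mul_add, pow_add, mul_assoc, hm] at this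
    exact this
  have hmul : ∀ m k, P m → P (m * k) := by
    intro m k hm
    induction k with
    | zero => intro j; simp
    | succ k ih => rw [mul_add, mul_one]; exact hadd _ _ ih hm
  suffices h1 : P 1 by
    have := h1 j
    rwa [mul_one] at this
  classical
  by_cases hl2 : l = 2
  · rw [hl2] at hP0; exact hP0
  have hex : ∃ d, 0 < d ∧ P d := ⟨l - 1, by have := hl.two_le; omega, hP0⟩
  set d := Nat.find hex with hd
  obtain ⟨hd0, hPd⟩ := Nat.find_spec hex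
  rw [← hd] at hd0 hPd
  have hdvd : ∀ m, P m → d ∣ m := by
    intro m hm
    by_contra hcon
    have h2 : 0 < m % d := Nat.pos_of_ne_zero fun h => hcon (Nat.dvd_of_mod_eq_zero h)
    have h3 : P (m % d) := hsub (d * (m / d)) _ (hmul _ _ hPd) (by rw [Nat.div_add_mod]; exact hm)
    exact Nat.find_min hex (Nat.mod_lt m hd0) ⟨h2, h3⟩
  by_cases hd1 : d = 1
  · rw [hd1] at hPd; exact hPd
  obtain ⟨s, hs, hsd⟩ := Nat.exists_prime_and_dvd hd1
  obtain ⟨m, hm, hPm⟩ := H.exists_step hl0 hq hqN hlq hg s hs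
  exact absurd (hsd.trans (hdvd m hPm)) hm

end Fermat.Agent.RT.Ihara
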