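import Fermat.Agent.RT.HeckeG

set_option autoImplicit false

/-!
# Ihara's lemma: injectivity of `Hom(G,A)² → Hom(G ∩ Γ₀(q), A)` on non-Eisenstein eigenvectors
-/

open Matrix CongruenceSubgroup
open scoped MatrixGroups

namespace Fermat.Agent.RT.Ihara

variable {A : Type*} [AddCommGroup A] {G G₁ G₂ G₃ : Subgroup SL(2, ℤ)} {N q : ℕ}

/-- `g' = δ g δ⁻¹` with `δ = diag(q, 1)` -/
structure Del (q : ℕ) (g g' : SL(2, ℤ)) : Prop where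
  h00 : g' 0 0 = g 0 0
  h01 : g' 0 1 = q * g 0 1
  h10 : g 1 0 = q * g' 1 0
  h11 : g' 1 1 = g 1 1

theorem conj_mem_G (h1 : Gamma1 N ≤ G) (h0 : G ≤ Gamma0 N) {g h : SL(2, ℤ)} (hg : g ∈ G)
    (hh : h ∈ Gamma0 N) : h * g * h⁻¹ ∈ G := by
  have hg0 := h0 hg
  have hm : h * g * h⁻¹ ∈ Gamma0 N := mul_mem (mul_mem hh hg0) (inv_mem hh)
  refine mem_of_congr' h1 hg (mem_G0.mp (h0 hg)) (mem_G0.mp hm) ?_
  obtain ⟨x, hx⟩ := mem_G0.mp hh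
  obtain ⟨y, hy⟩ := mem_G0.mp hg0
  have hdet := det2 h
  have i00 : (h⁻¹) 0 0 = h 1 1 := by simp [adjugate_fin_two]
  have i10 : (h⁻¹) 1 0 = -h 1 0 := by simp [adjugate_fin_two]
  refine ⟨g 0 0 * (h 0 1 * x) + h 0 1 * y * h 1 1 - (h 0 0 * g 0 1 + h 0 1 * g 1 1) * x, ?_⟩
  rw [sl_mul_00, sl_mul_00, sl_mul_01, i00, i10]
  rw [hx] at hdet ⊢
  rw [hy]
  linear_combination g 0 0 * hdet

/-- the dilate of an element of `G ∩ Γ₀(Nq)` -/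
theorem exists_del (h1 : Gamma1 N ≤ G) {g : SL(2, ℤ)} (hg : g ∈ G)
    (hgq : (N * q : ℤ) ∣ g 1 0) : ∃ g' ∈ G, Del q g g' := by
  obtain ⟨k, hk⟩ := hgq
  have hdet := det2 g
  have e : g 0 0 * g 1 1 - (q * g 0 1) * (N * k) = 1 := by
    rw [hk] at hdet
    linear_combination hdet
  refine ⟨sl (g 0 0) (q * g 0 1) (N * k) (g 1 1) e, ?_, ⟨rfl, rfl, ?_, rfl⟩⟩
  · refine mem_of_congr' h1 hg ?_ ⟨k, rfl⟩ (by rw [sl_00, sub_self]; exact dvd_zero _)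
    rw [hk]
    exact ⟨q * k, by ring⟩
  · rw [sl_10, hk]; ring

/-- the symmetric form of the kernel condition -/
theorem pair_symm (h1 : Gamma1 N ≤ G) (h0 : G ≤ Gamma0 N) (hqN : IsCoprime (N : ℤ) (q : ℤ))
    {x y : SL(2, ℤ) → A} (diax : ∀ g ∈ G, ∀ h ∈ Gamma0 N, x (h * g * h⁻¹) = x g)
    (diay : ∀ g ∈ G, ∀ h ∈ Gamma0 N, y (h * g * h⁻¹) = y g)
    (hα : ∀ g ∈ G, ∀ g' ∈ G, Del q g g' → x g + y g' = 0) :
    ∀ g ∈ G, ∀ g' ∈ G, Del q g g' → x g' + y g = 0 := by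
  intro g hg g' hg' hd
  obtain ⟨u, v, huv⟩ := hqN
  -- `γ₀ = (1 -u; N vq)`, `γ₀' = (q -u; N v)`
  have e0 : (1 : ℤ) * (q * v) - (-u) * N = 1 := by linear_combination huv
  have e0' : (q : ℤ) * v - (-u) * N = 1 := by linear_combination huv
  set γ₀ := sl 1 (-u) N (q * v) e0 with hγ₀
  set γ₀' := sl q (-u) N v e0' with hγ₀'
  have hm : γ₀ ∈ Gamma0 N := by rw [mem_G0, hγ₀, sl_10]
  have hm' : γ₀' ∈ Gamma0 N := by rw [mem_G0, hγ₀', sl_10]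
  have key := hα (γ₀ * g' * γ₀⁻¹) (conj_mem_G h1 h0 hg' hm) (γ₀' * g * γ₀'⁻¹)
    (conj_mem_G h1 h0 hg hm') ?_
  · rw [diax _ hg' _ hm, diay _ hg _ hm'] at key
    exact key
  · obtain ⟨d00, d01, d10, d11⟩ := hd
    have a00 : γ₀⁻¹ 0 0 = q * v := by simp [hγ₀, sl, adjugate_fin_two]
    have a01 : γ₀⁻¹ 0 1 = u := by simp [hγ₀, sl, adjugate_fin_two]
    have a10 : γ₀⁻¹ 1 0 = -N := by simp [hγ₀, sl, adjugate_fin_two]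
    have a11 : γ₀⁻¹ 1 1 = 1 := by simp [hγ₀, sl, adjugate_fin_two]
    have b00 : γ₀'⁻¹ 0 0 = v := by simp [hγ₀', sl, adjugate_fin_two]
    have b01 : γ₀'⁻¹ 0 1 = u := by simp [hγ₀', sl, adjugate_fin_two]
    have b10 : γ₀'⁻¹ 1 0 = -N := by simp [hγ₀', sl, adjugate_fin_two]
    have b11 : γ₀'⁻¹ 1 1 = q := by simp [hγ₀', sl, adjugate_fin_two]
    have c00 : γ₀ 0 0 = 1 := rfl
    have c01 : γ₀ 0 1 = -u := rfl
    have c10 : γ₀ 1 0 = N := rfl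
    have c11 : γ₀ 1 1 = q * v := rfl
    have f00 : γ₀' 0 0 = q := rfl
    have f01 : γ₀' 0 1 = -u := rfl
    have f10 : γ₀' 1 0 = N := rfl
    have f11 : γ₀' 1 1 = v := rfl
    clear_value γ₀ γ₀'
    constructor
    · simp only [sl_mul_00, sl_mul_01, sl_mul_10, sl_mul_11, a00, a01, a10, a11, b00, b01, b10,
        b11, c00, c01, c10, c11, f00, f01, f10, f11, d00, d01, d10, d11]
      ring
    · simp only [sl_mul_00, sl_mul_01, sl_mul_10, sl_mul_11, a00, a01, a10, a11, b00, b01, b10,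
        b11, c00, c01, c10, c11, f00, f01, f10, f11, d00, d01, d10, d11]
      ring
    · simp only [sl_mul_00, sl_mul_01, sl_mul_10, sl_mul_11, a00, a01, a10, a11, b00, b01, b10,
        b11, c00, c01, c10, c11, f00, f01, f10, f11, d00, d01, d10, d11]
      ring
    · simp only [sl_mul_00, sl_mul_01, sl_mul_10, sl_mul_11, a00, a01, a10, a11, b00, b01, b10,
        b11, c00, c01, c10, c11, f00, f01, f10, f11, d00, d01, d10, d11]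
      ring

/-- invariance under `diag(q², 1)` -/
theorem pair_dil (h1 : Gamma1 N ≤ G) (h0 : G ≤ Gamma0 N) (hq : q ≠ 0)
    (hqN : IsCoprime (N : ℤ) (q : ℤ))
    {x y : SL(2, ℤ) → A} (diax : ∀ g ∈ G, ∀ h ∈ Gamma0 N, x (h * g * h⁻¹) = x g)
    (diay : ∀ g ∈ G, ∀ h ∈ Gamma0 N, y (h * g * h⁻¹) = y g)
    (hα : ∀ g ∈ G, ∀ g' ∈ G, Del q g g' → x g + y g' = 0) :
    (∀ g ∈ G, ∀ g' ∈ G, g' 0 0 = g 0 0 → g' 0 1 = q ^ 2 * g 0 1 →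
    g 1 0 = q ^ 2 * g' 1 0 → g' 1 1 = g 1 1 → x g' = x g) ∧
    (∀ g ∈ G, ∀ g' ∈ G, g' 0 0 = g 0 0 → g' 0 1 = q ^ 2 * g 0 1 →
    g 1 0 = q ^ 2 * g' 1 0 → g' 1 1 = g 1 1 → y g' = y g) := by
  have hs := pair_symm h1 h0 hqN diax diay hα
  have hex : ∀ g ∈ G, ∀ g' ∈ G, g' 0 0 = g 0 0 → g' 0 1 = q ^ 2 * g 0 1 →
      g 1 0 = q ^ 2 * g' 1 0 → g' 1 1 = g 1 1 → ∃ g₁ ∈ G, Del q g g₁ ∧ Del q g₁ g' := by
    intro g hg g' hg' e00 e01 e10 e11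
    obtain ⟨k, hk⟩ := mem_G0.mp (h0 hg')
    obtain ⟨g₁, hg₁, hd⟩ := exists_del (q := q) h1 hg ⟨q * k, by rw [e10, hk]; ring⟩
    refine ⟨g₁, hg₁, hd, ⟨?_, ?_, ?_, ?_⟩⟩
    · rw [e00, hd.h00]
    · rw [e01, hd.h01]; ring
    · have hq0 : (q : ℤ) ≠ 0 := by exact_mod_cast hq
      apply mul_left_cancel₀ hq0
      rw [← hd.h10, e10]; ring
    · rw [e11, hd.h11]
  refine ⟨fun g hg g' hg' e00 e01 e10 e11 => ?_, fun g hg g' hg' e00 e01 e10 e11 => ?_⟩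
  · obtain ⟨g₁, hg₁, d1, d2⟩ := hex g hg g' hg' e00 e01 e10 e11
    have k1 := hα g hg g₁ hg₁ d1
    have k2 := hs g₁ hg₁ g' hg' d2
    rw [← k2] at k1
    exact (add_right_cancel k1).symm
  · obtain ⟨g₁, hg₁, d1, d2⟩ := hex g hg g' hg' e00 e01 e10 e11
    have k1 := hs g hg g₁ hg₁ d1
    have k2 := hα g₁ hg₁ g' hg' d2
    rw [← k2] at k1
    exact (add_left_cancel k1).symm

variable {R : Type*} [CommRing R] [Module R A]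

/-- **Ihara's lemma** (injectivity, on eigenvectors): let `x, y ∈ Hom(G, A)` be invariant under
diamond operators with `x + y ∘ (δ · δ⁻¹) = 0` on `G ∩ Γ₀(q)`. If the eigenvalues of `x` and `y`
are not Eisenstein then `x = y = 0`. -/
theorem ihara_pair (h1 : Gamma1 N ≤ G) (h0 : G ≤ Gamma0 N) (hneg : -1 ∈ G) (hq : q ≠ 0)
    (hqN : IsCoprime (N : ℤ) (q : ℤ)) {x y : SL(2, ℤ) → A} (hx : AddOn G x) (hy : AddOn G y)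
    (diax : ∀ g ∈ G, ∀ h ∈ Gamma0 N, x (h * g * h⁻¹) = x g)
    (diay : ∀ g ∈ G, ∀ h ∈ Gamma0 N, y (h * g * h⁻¹) = y g)
    (hα : ∀ g ∈ G, ∀ g' ∈ G, Del q g g' → x g + y g' = 0)
    {l₁ : ℕ} (hl₁ : l₁.Prime) (hNl₁ : IsCoprime (N : ℤ) (l₁ : ℤ)) (hl11 : (N : ℤ) ∣ (l₁ : ℤ) - 1)
    {lam₁ : R} (hTx₁ : ∀ g ∈ G, opc G (TD N l₁) x g = lam₁ • x g)
    (hTy₁ : ∀ g ∈ G, opc G (TD N l₁) y g = lam₁ • y g) (hu₁ : IsUnit (lam₁ - ((l₁ : R) + 1)))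
    {l₂ : ℕ} (hl₂ : l₂.Prime) (hNl₂ : IsCoprime (N : ℤ) (l₂ : ℤ))
    (hlq : IsCoprime (l₂ : ℤ) (q : ℤ)) (hlq2 : IsCoprime (l₂ : ℤ) ((q : ℤ) ^ 2 - 1))
    {lam₂ : R} (hTx₂ : ∀ g ∈ G, opc G (TD N l₂) x g = lam₂ • x g)
    (hTy₂ : ∀ g ∈ G, opc G (TD N l₂) y g = lam₂ • y g)
    (hu₂ : IsUnit (lam₂ ^ 2 - ((l₂ : R) + 1) ^ 2)) : ∀ g ∈ G, x g = 0 ∧ y g = 0 := by
  obtain ⟨dx, dy⟩ := pair_dil h1 h0 hq hqN diax diay hα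
  have Hx : Hyp G N q x := ⟨h1, h0, hneg, hx,
    parabolic_of_eigen h1 h0 hneg hl₁ hNl₁ hl11 hx hTx₁ hu₁, diax, dx⟩
  have Hy : Hyp G N q y := ⟨h1, h0, hneg, hy,
    parabolic_of_eigen h1 h0 hneg hl₁ hNl₁ hl11 hy hTy₁ hu₁, diay, dy⟩
  intro g hg
  exact ⟨Hx.ihara hl₂ hq hqN hlq hNl₂ hlq2 (hT_of_opc h1 h0 hl₂ hNl₂ hx
      (fun g hg h hh => conj_mem_G h1 h0 hg hh) diax hTx₂) hu₂ hg,
    Hy.ihara hl₂ hq hqN hlq hNl₂ hlq2 (hT_of_opc h1 h0 hl₂ hNl₂ hy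
      (fun g hg h hh => conj_mem_G h1 h0 hg hh) diay hTy₂) hu₂ hg⟩

end Fermat.Agent.RT.Ihara
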