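import Fermat.Agent.RT.TWVan
import Fermat.Agent.RT.TWPrimes
import Fermat.Agent.Inertia.Minkowski
import Fermat.Prelude.Def_GaloisRep_ComplexConjugation

set_option autoImplicit false

/-!
# Absolute irreducibility over quadratic fields
-/

open Matrix
open scoped Pointwise

namespace Fermat.Agent.RT

open Fermat.Agent.GCFT Fermat.Agent.Coh Fermat.Agent.ESCore Fermat.Agent.GaloisBasics

/-- The field of algebraic numbers. -/
local notation "Qb" => AlgebraicClosure ℚ
/-- The absolute Galois group. -/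
local notation "GQ" => (AlgebraicClosure ℚ ≃ₐ[ℚ] AlgebraicClosure ℚ)

theorem cyc_surj' (q : ℕ) [hq : Fact q.Prime] (b : (ZMod q)ˣ) : ∃ σ : GQ, cyc q σ = b := by
  obtain ⟨l, hl, hlp, hlb⟩ := Nat.forall_exists_prime_gt_and_eq_mod b.isUnit q
  obtain ⟨A, hA⟩ := exists_liesOverPrime hlp
  obtain ⟨φ, hφ⟩ := exists_isFrobeniusAt hlp A hA
  refine ⟨φ, Units.ext ?_⟩
  rw [cyc_frob hA hlp hφ (fun h ↦ hl.ne' ((Nat.prime_dvd_prime_iff_eq hlp hq.out).mp h)), hlb]

theorem cyc_complexConjugation (p : ℕ) [hp : Fact p.Prime] :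
    ((cyc p complexConjugation : (ZMod p)ˣ) : ZMod p) = -1 := by
  obtain ⟨ζ, hζ⟩ := exists_primitiveRoot p
  have h1 : complexConjugation ζ = ζ ^ (p - 1) := by
    apply complexEmbedding.toRingHom.injective
    change complexEmbedding (complexConjugation ζ) = complexEmbedding (ζ ^ (p - 1))
    rw [complexEmbedding_complexConjugation, map_pow]
    set z := complexEmbedding ζ with hz
    have hzp : z ^ p = 1 := by rw [hz, ← map_pow, hζ.pow_eq_one, map_one]
    have hz1 : ‖z‖ = 1 := Complex.norm_eq_one_of_pow_eq_one hzp hp.out.ne_zero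
    have h2 : starRingEnd ℂ z = z⁻¹ := by
      rw [Complex.inv_def, Complex.normSq_eq_norm_sq, hz1]
      simp
    have hz0 : z ≠ 0 := by
      intro h
      rw [h, zero_pow hp.out.ne_zero] at hzp
      exact zero_ne_one hzp
    rw [h2]
    apply mul_left_cancel₀ hz0
    rw [mul_inv_cancel₀ hz0, ← pow_succ', Nat.sub_add_cancel hp.out.one_le, hzp]
  rw [cyc_eq_of hζ h1, Nat.cast_sub hp.out.one_le]
  simp

section Abs

variable {p : ℕ} [hp : Fact p.Prime] {ρ₀ : GQ →* GL (Fin 2) (ZMod p)}

theorem two_ne_zero_zmod (hp2 : p ≠ 2) : (2 : ZMod p) ≠ 0 := by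
  intro h
  have h1 : ((2 : ℕ) : ZMod p) = 0 := by exact_mod_cast h
  rw [ZMod.natCast_eq_zero_iff] at h1
  exact hp2 ((Nat.prime_dvd_prime_iff_eq hp.out Nat.prime_two).mp h1)

/-- an involution of determinant `-1` has an eigenvector for the eigenvalue `e = ±1`, and the
eigenspace over any extension is generated by it -/
theorem involution_eigen {F : Type*} [Field F] (h2 : (2 : F) ≠ 0) {C : Matrix (Fin 2) (Fin 2) F}
    (hC : C * C = 1) (hdet : C.det = -1) {e : F} (he : e * e = 1) :
    ∃ v : Fin 2 → F, v ≠ 0 ∧ C *ᵥ v = e • v := by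
  have htr : C.trace = 0 := by
    -- Cayley-Hamilton
    have h00 := congrFun (congrFun hC 0) 0
    have h11 := congrFun (congrFun hC 1) 1
    have h01 := congrFun (congrFun hC 0) 1
    have h10 := congrFun (congrFun hC 1) 0
    rw [det_fin_two] at hdet
    simp [Matrix.mul_apply, Fin.sum_univ_two] at h00 h11 h01 h10
    rw [trace_fin_two]
    by_contra htr
    have hb : C 0 1 = 0 := by
      have : (C 0 0 + C 1 1) * C 0 1 = 0 := by linear_combination h01
      exact (mul_eq_zero.mp this).resolve_left htr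
    have hc : C 1 0 = 0 := by
      have : (C 0 0 + C 1 1) * C 1 0 = 0 := by linear_combination h10
      exact (mul_eq_zero.mp this).resolve_left htr
    rw [hb] at h00 hdet h11
    apply htr
    -- `a² = 1`, `d² = 1`, `a d = -1`
    have ha : C 0 0 * C 0 0 = 1 := by linear_combination h00
    have had : C 0 0 * C 1 1 = -1 := by linear_combination hdet
    have : C 0 0 * (C 0 0 + C 1 1) = 0 := by linear_combination ha + had
    rcases mul_eq_zero.mp this with h | h
    · rw [h, zero_mul] at ha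
      exact absurd ha zero_ne_one
    · exact h
  have hdet0 : (C - e • (1 : Matrix (Fin 2) (Fin 2) F)).det = 0 := by
    rw [det_fin_two] at hdet ⊢
    rw [trace_fin_two] at htr
    simp [Matrix.sub_apply, Matrix.smul_apply]
    linear_combination hdet + he - e * htr
  obtain ⟨v, hv0, hv⟩ := Matrix.exists_mulVec_eq_zero_iff.mpr hdet0
  refine ⟨v, hv0, ?_⟩
  rw [sub_mulVec, smul_mulVec, one_mulVec] at hv
  exact sub_eq_zero.mp hv

variable {K : Type*} [Field K] [Algebra (ZMod p) K]

/-- the extension of a vector -/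
def extV (K : Type*) [Field K] [Algebra (ZMod p) K] (v : Fin 2 → ZMod p) : Fin 2 → K :=
  fun i => algebraMap (ZMod p) K (v i)

theorem extV_mulVec (M : Matrix (Fin 2) (Fin 2) (ZMod p)) (v : Fin 2 → ZMod p) :
    M.map (algebraMap (ZMod p) K) *ᵥ extV K v = extV K (M *ᵥ v) := by
  ext i
  simp [extV, Matrix.mulVec, dotProduct, Fin.sum_univ_two]

theorem extV_ne_zero {v : Fin 2 → ZMod p} (hv : v ≠ 0) : extV K v ≠ 0 := by
  intro h
  apply hv
  ext i
  have := congrFun h i
  exact (map_eq_zero _).mp this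

/-- vectors of the base field which are proportional over the extension -/
theorem prop_of_extV {v w : Fin 2 → ZMod p} (hv : v ≠ 0) {a : K} (h : extV K w = a • extV K v) :
    ∃ b : ZMod p, w = b • v := by
  obtain ⟨i, hi⟩ : ∃ i, v i ≠ 0 := by
    by_contra hcon
    push Not at hcon
    exact hv (funext hcon)
  refine ⟨w i / v i, ?_⟩
  have hvi : algebraMap (ZMod p) K (v i) ≠ 0 := (map_ne_zero _).mpr hi
  have ha : a = algebraMap (ZMod p) K (w i / v i) := by
    have h1 := congrFun h i
    change algebraMap (ZMod p) K (w i) = a * algebraMap (ZMod p) K (v i) at h1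
    rw [map_div₀, h1, mul_div_cancel_right₀ _ hvi]
  ext j
  apply (algebraMap (ZMod p) K).injective
  have h2 := congrFun h j
  change algebraMap (ZMod p) K (w j) = a * algebraMap (ZMod p) K (v j) at h2
  rw [h2, ha, ← map_mul]
  rfl

/-- **Absolute irreducibility** of an odd irreducible representation. -/
theorem abs_irr_of_odd (hp2 : p ≠ 2) (hirr : ∀ v, ¬ ComEig ρ₀ ⊤ v)
    (hdet : ∀ g, (ρ₀ g).val.det = (cyc p g : (ZMod p)ˣ)) (v : Fin 2 → K) :
    ¬ ComEig (bc K ρ₀) ⊤ v := by
  intro hv
  have h2 := two_ne_zero_zmod hp2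
  have h2K : (2 : K) ≠ 0 := by
    have h3 := (map_ne_zero (algebraMap (ZMod p) K)).mpr h2
    rwa [map_ofNat] at h3
  set c : GQ := complexConjugation with hc
  set C : Matrix (Fin 2) (Fin 2) (ZMod p) := (ρ₀ c).val with hCdef
  have hCC : C * C = 1 := by
    rw [hCdef, ← Units.val_mul, ← map_mul, complexConjugation_mul_self, map_one, Units.val_one]
  have hCdet : C.det = -1 := by rw [hCdef, hdet, cyc_complexConjugation]
  obtain ⟨e, he⟩ := hv.2 c trivial
  have hee : e * e = 1 := by
    have h3 : (bc K ρ₀ c).val *ᵥ ((bc K ρ₀ c).val *ᵥ v) = v := by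
      rw [mulVec_mulVec, ← Units.val_mul, ← map_mul, complexConjugation_mul_self, map_one,
        Units.val_one, one_mulVec]
    rw [he, mulVec_smul, he, smul_smul] at h3
    obtain ⟨i, hi⟩ : ∃ i, v i ≠ 0 := by
      by_contra hcon
      push Not at hcon
      exact hv.1 (funext hcon)
    have h4 := congrFun h3 i
    rw [Pi.smul_apply, smul_eq_mul] at h4
    exact mul_right_cancel₀ hi (by rw [h4, one_mul])
  -- `e` is `±1`
  have he' : e = 1 ∨ e = -1 := mul_self_eq_one_iff.mp hee
  obtain ⟨e₀, he₀, he₀e⟩ : ∃ e₀ : ZMod p, e₀ * e₀ = 1 ∧ algebraMap (ZMod p) K e₀ = e := by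
    rcases he' with rfl | rfl
    · exact ⟨1, one_mul 1, map_one _⟩
    · exact ⟨-1, by ring, by rw [map_neg, map_one]⟩
  obtain ⟨v₀, hv₀, hCv₀⟩ := involution_eigen h2 hCC hCdet he₀
  obtain ⟨w₀, hw₀, hCw₀⟩ := involution_eigen h2 hCC hCdet (e := -e₀) (by rw [neg_mul_neg, he₀])
  -- decompose `v` in the eigenbasis
  have he₀0 : e₀ ≠ 0 := by
    rintro rfl
    rw [zero_mul] at he₀
    exact zero_ne_one he₀
  have hli : LinearIndependent K ![extV K v₀, extV K w₀] := by
    rw [LinearIndependent.pair_iff' (extV_ne_zero hv₀)]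
    intro a ha
    obtain ⟨b, hb⟩ := prop_of_extV hv₀ ha.symm
    rw [hb, mulVec_smul, hCv₀, smul_smul, smul_smul] at hCw₀
    have hb0 : b ≠ 0 := by
      rintro rfl
      rw [zero_smul] at hb
      exact hw₀ hb
    obtain ⟨i, hi⟩ : ∃ i, v₀ i ≠ 0 := by
      by_contra hcon
      push Not at hcon
      exact hv₀ (funext hcon)
    have h3 := congrFun hCw₀ i
    rw [Pi.smul_apply, Pi.smul_apply, smul_eq_mul, smul_eq_mul] at h3
    have h4 := mul_right_cancel₀ hi h3
    have h5 : (2 * b) * e₀ = 0 := by linear_combination h4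
    rcases mul_eq_zero.mp h5 with h | h
    · exact mul_ne_zero h2 hb0 h
    · exact he₀0 h
  obtain ⟨a, b, hab⟩ : ∃ a b : K, v = a • extV K v₀ + b • extV K w₀ := by
    have h1 : Submodule.span K (Set.range ![extV K v₀, extV K w₀]) = ⊤ :=
      hli.span_eq_top_of_card_eq_finrank' (by simp)
    have h2 : v ∈ Submodule.span K (Set.range ![extV K v₀, extV K w₀]) := by rw [h1]; trivial
    rw [Matrix.range_cons, Matrix.range_cons, Matrix.range_empty, Set.union_empty,
      Set.singleton_union, Submodule.mem_span_pair] at h2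
    obtain ⟨a, b, h⟩ := h2
    exact ⟨a, b, h.symm⟩
  have hb0 : b = 0 := by
    have h3 : (bc K ρ₀ c).val *ᵥ v = e • v := he
    rw [hab, mulVec_add, mulVec_smul, mulVec_smul, bc_coe, extV_mulVec, extV_mulVec] at h3
    rw [← hCdef, hCv₀, hCw₀] at h3
    have h4 : extV K (e₀ • v₀) = e • extV K v₀ := by
      ext i
      simp [extV, he₀e]
    have h5 : extV K (-e₀ • w₀) = -(e • extV K w₀) := by
      ext i
      simp [extV, he₀e]
    rw [h4, h5, smul_add, smul_neg, smul_comm a e, smul_comm b e] at h3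
    have h6 : (0 : K) • extV K v₀ + (2 * e * b) • extV K w₀ = 0 := by
      have h7 : e • b • extV K w₀ = -(e • b • extV K w₀) := by
        have := congrArg (fun z => z - e • a • extV K v₀) h3
        simp only [add_sub_cancel_left] at this
        exact this.symm
      rw [zero_smul, zero_add, mul_assoc, mul_smul, two_smul, mul_smul]
      nth_rewrite 2 [h7]
      rw [add_neg_cancel]
    have h8 := (LinearIndependent.pair_iff.mp hli _ _ h6).2
    have he0 : e ≠ 0 := by
      rintro rfl
      rw [zero_mul] at hee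
      exact zero_ne_one hee
    rcases mul_eq_zero.mp h8 with h | h
    · exact absurd h (mul_ne_zero h2K he0)
    · exact h
  rw [hb0, zero_smul, add_zero] at hab
  have ha0 : a ≠ 0 := by
    rintro rfl
    rw [zero_smul] at hab
    exact hv.1 hab
  refine hirr v₀ ⟨hv₀, fun g _ => ?_⟩
  obtain ⟨f, hf⟩ := hv.2 g trivial
  rw [hab, mulVec_smul, smul_comm, bc_coe, extV_mulVec] at hf
  have h9 := smul_right_injective _ ha0 hf
  exact prop_of_extV hv₀ h9

end Abs

end Fermat.Agent.RT
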