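import Fermat.Agent.RT.IndexTwo
import Fermat.Agent.RT.TWKill

set_option autoImplicit false

/-!
# Absolute irreducibility over quadratic fields, II
-/

open Matrix
open scoped Pointwise

namespace Fermat.Agent.RT

open Fermat.Agent.GCFT Fermat.Agent.Coh Fermat.Agent.ESCore Fermat.Agent.GaloisBasics

/-- The field of algebraic numbers. -/
local notation "Qb" => AlgebraicClosure ℚ
/-- The absolute Galois group. -/
local notation "GQ" => (AlgebraicClosure ℚ ≃ₐ[ℚ] AlgebraicClosure ℚ)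

section Lines

variable {F : Type*} [Field F] {Γ : Type*} [Group Γ] {ρ : Γ →* GL (Fin 2) F}

/-- the stabiliser of the line of a vector -/
def lineStab (ρ : Γ →* GL (Fin 2) F) {v : Fin 2 → F} (hv : v ≠ 0) : Subgroup Γ where
  carrier := {g | ∃ a : F, (ρ g : Matrix (Fin 2) (Fin 2) F) *ᵥ v = a • v}
  mul_mem' := by
    rintro g h ⟨a, ha⟩ ⟨b, hb⟩
    exact ⟨b * a, by rw [mulVec_mul, hb, mulVec_smul, ha, smul_smul]⟩
  one_mem' := ⟨1, by rw [map_one, Units.val_one, one_mulVec, one_smul]⟩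
  inv_mem' := by
    rintro g ⟨a, ha⟩
    have ha0 : a ≠ 0 := by
      rintro rfl
      rw [zero_smul] at ha
      exact mulVec_ne_zero g hv ha
    refine ⟨a⁻¹, ?_⟩
    have h1 := mulVec_inv (w := a • v) ha
    rw [mulVec_smul] at h1
    rw [← h1, smul_smul, inv_mul_cancel₀ ha0, one_smul, h1]

theorem mem_lineStab {v : Fin 2 → F} {hv : v ≠ 0} {g : Γ} : g ∈ lineStab ρ hv ↔
    ∃ a : F, (ρ g : Matrix (Fin 2) (Fin 2) F) *ᵥ v = a • v := Iff.rfl

/-- If the orbit of a line consists of two lines then its stabiliser has index two. -/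
theorem index_lineStab {v w : Fin 2 → F} (hv : v ≠ 0)
    (htwo : ∀ g, (∃ a : F, (ρ g).val *ᵥ v = a • v) ∨ ∃ b : F, (ρ g).val *ᵥ v = b • w)
    (hne : lineStab ρ hv ≠ ⊤) : (lineStab ρ hv).index = 2 := by
  obtain ⟨g₀, hg₀⟩ : ∃ g₀, g₀ ∉ lineStab ρ hv := by
    by_contra hcon
    push Not at hcon
    exact hne ((Subgroup.eq_top_iff' _).mpr hcon)
  obtain ⟨c, hc⟩ := (htwo g₀).resolve_left hg₀
  have hc0 : c ≠ 0 := by
    rintro rfl
    rw [zero_smul] at hc
    exact mulVec_ne_zero g₀ hv hc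
  have hw : (ρ g₀⁻¹).val *ᵥ w = c⁻¹ • v := by
    have h1 := mulVec_inv (ρ := ρ) (w := c • w) hc
    rw [mulVec_smul] at h1
    rw [← h1, smul_smul, inv_mul_cancel₀ hc0, one_smul]
  have hnot : ∀ g, g ∉ lineStab ρ hv → ∃ b : F, (ρ g).val *ᵥ v = b • w :=
    fun g hg => (htwo g).resolve_left hg
  have key : ∀ g, g ∉ lineStab ρ hv → g₀⁻¹ * g ∈ lineStab ρ hv := by
    intro g hg
    obtain ⟨b, hb⟩ := hnot g hg
    exact ⟨b * c⁻¹, by rw [mulVec_mul, hb, mulVec_smul, hw, smul_smul]⟩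
  have hinv : ∀ g, g⁻¹ ∉ lineStab ρ hv ↔ g ∉ lineStab ρ hv := fun g => by
    rw [(lineStab ρ hv).inv_mem_iff]
  rw [Subgroup.index_eq_two_iff]
  refine ⟨g₀⁻¹, fun g => ?_⟩
  by_cases hg : g ∈ lineStab ρ hv
  · refine Or.inr ⟨hg, fun h => hg₀ ?_⟩
    have h1 := (lineStab ρ hv).mul_mem ((lineStab ρ hv).inv_mem hg) h
    rw [inv_mul_cancel_left] at h1
    exact ((lineStab ρ hv).inv_mem_iff).mp h1
  · refine Or.inl ⟨?_, hg⟩
    have h1 := key g⁻¹ ((hinv g).mpr hg)
    have h2 := (lineStab ρ hv).inv_mem h1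
    rw [_root_.mul_inv_rev, inv_inv, inv_inv] at h2
    have h3 := key g₀⁻¹ ((hinv g₀).mpr hg₀)
    have h4 := (lineStab ρ hv).mul_mem h2 h3
    have h5 : g * g₀ * (g₀⁻¹ * g₀⁻¹) = g * g₀⁻¹ := by group
    rwa [h5] at h4

end Lines

section Tame

/-- wild elements -/
def IsWild (A : ValuationSubring Qb) (σ : GQ) : Prop :=
  ∀ x : Qb, x ≠ 0 → A.valuation (σ x / x - 1) < 1

theorem inertia_unit {A : ValuationSubring Qb} {σ : GQ} (hσ : σ ∈ A.inertiaSubgroupIn ℚ) {u : Qb}
    (hu : A.valuation u = 1) : A.valuation (σ u / u - 1) < 1 := by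
  have hu0 : u ≠ 0 := by
    rintro rfl
    rw [map_zero] at hu
    exact zero_ne_one hu
  have h1 := inertia_val hσ (x := u) ((A.valuation_le_one_iff u).mp hu.le)
  have h2 : σ u / u - 1 = (σ u - u) / u := by field_simp
  rw [h2, map_div₀, hu, div_one]
  exact h1

theorem inertia_iso {A : ValuationSubring Qb} {σ : GQ} (hσ : σ ∈ A.inertiaSubgroupIn ℚ) (x : Qb) :
    A.valuation (σ x) = A.valuation x := by
  by_cases hx : x = 0
  · rw [hx, map_zero]
  have hd : σ ∈ A.decompositionSubgroup ℚ := inertia_le_decomposition A hσ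
  -- `σ A = A`
  have hmem : ∀ (τ : GQ), τ ∈ A.decompositionSubgroup ℚ → ∀ y : Qb, y ∈ A → τ y ∈ A := by
    intro τ hτ y hy
    have h1 : τ • A = A := hτ
    rw [← h1]
    exact ⟨y, hy, rfl⟩
  have hle : ∀ (τ : GQ), τ ∈ A.decompositionSubgroup ℚ → ∀ y z : Qb, z ≠ 0 →
      A.valuation y ≤ A.valuation z → A.valuation (τ y) ≤ A.valuation (τ z) := by
    intro τ hτ y z hz h
    have hz' : A.valuation z ≠ 0 := (Valuation.ne_zero_iff _).mpr hz
    have h1 : A.valuation (y / z) ≤ 1 := by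
      rw [map_div₀]
      exact div_le_one_of_le₀ h zero_le
    have h2 := hmem τ hτ _ ((A.valuation_le_one_iff _).mp h1)
    have h3 := (A.valuation_le_one_iff _).mpr h2
    rw [map_div₀, map_div₀] at h3
    have hτz : 0 < A.valuation (τ z) :=
      zero_lt_iff.mpr ((Valuation.ne_zero_iff _).mpr ((map_ne_zero τ).mpr hz))
    rwa [div_le_one₀ hτz] at h3
  -- the orbit is finite, and the order is total
  obtain ⟨n, hn, hnx⟩ : ∃ n : ℕ, 0 < n ∧ (σ ^ n) x = x := by
    have hfin : Set.Finite (Set.range fun n : ℕ => (σ ^ n) x) := by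
      have hint : IsAlgebraic ℚ x := Algebra.IsAlgebraic.isAlgebraic x
      obtain ⟨f, hf0, hf⟩ := hint
      refine ((f.map (algebraMap ℚ Qb)).roots.toFinset.finite_toSet).subset ?_
      rintro _ ⟨n, rfl⟩
      rw [Finset.mem_coe, Multiset.mem_toFinset, Polynomial.mem_roots
        ((Polynomial.map_ne_zero_iff (algebraMap ℚ Qb).injective).mpr hf0),
        Polynomial.IsRoot.def, Polynomial.eval_map_algebraMap]
      have h1 := congrArg (σ ^ n) hf
      rw [map_zero] at h1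
      have h2 : (σ ^ n) (Polynomial.aeval x f) = Polynomial.aeval ((σ ^ n) x) f :=
        (Polynomial.aeval_algHom_apply ((σ ^ n) : GQ) x f).symm
      rw [← h2]
      exact h1
    obtain ⟨a, b, hab, h⟩ : ∃ a b : ℕ, a ≠ b ∧ (σ ^ a) x = (σ ^ b) x := by
      by_contra hcon
      push Not at hcon
      refine Set.infinite_range_of_injective (f := fun n : ℕ => (σ ^ n) x) ?_ hfin
      intro a b h
      by_contra hab
      exact hcon a b hab h
    wlog hlt : a < b generalizing a b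
    · exact this b a hab.symm h.symm (lt_of_le_of_ne (not_lt.mp hlt) hab.symm)
    refine ⟨b - a, Nat.sub_pos_of_lt hlt, ?_⟩
    apply (σ ^ a).injective
    rw [← AlgEquiv.mul_apply, ← pow_add, Nat.add_sub_cancel' hlt.le]
    exact h.symm
  have hpow : ∀ n : ℕ, σ ^ n ∈ A.decompositionSubgroup ℚ := fun n => Subgroup.pow_mem _ hd n
  rcases le_total (A.valuation (σ x)) (A.valuation x) with h | h
  · refine le_antisymm h ?_
    have hchain : ∀ m : ℕ, A.valuation ((σ ^ (m + 1)) x) ≤ A.valuation (σ x) := by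
      intro m
      induction m with
      | zero => rw [pow_one]
      | succ m ih =>
        refine le_trans ?_ ih
        have := hle (σ ^ (m + 1)) (hpow _) (σ x) x hx h
        rwa [← AlgEquiv.mul_apply, ← pow_succ] at this
    obtain ⟨m, rfl⟩ : ∃ m, n = m + 1 := ⟨n - 1, by omega⟩
    have := hchain m
    rwa [hnx] at this
  · refine le_antisymm ?_ h
    have hσx : σ x ≠ 0 := (map_ne_zero σ).mpr hx
    have hchain : ∀ m : ℕ, A.valuation (σ x) ≤ A.valuation ((σ ^ (m + 1)) x) := by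
      intro m
      induction m with
      | zero => rw [pow_one]
      | succ m ih =>
        refine le_trans ih ?_
        have := hle (σ ^ (m + 1)) (hpow _) x (σ x) hσx h
        rwa [← AlgEquiv.mul_apply, ← pow_succ] at this
    obtain ⟨m, rfl⟩ : ∃ m, n = m + 1 := ⟨n - 1, by omega⟩
    have := hchain m
    rwa [hnx] at this

theorem val_div_self {A : ValuationSubring Qb} {σ : GQ} (hσ : σ ∈ A.inertiaSubgroupIn ℚ) {x : Qb}
    (hx : x ≠ 0) : A.valuation (σ x / x) = 1 := by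
  rw [map_div₀, inertia_iso hσ, div_self ((Valuation.ne_zero_iff _).mpr hx)]

theorem one_unit_div {A : ValuationSubring Qb} {a b : Qb} (ha : A.valuation (a - 1) < 1)
    (hb : A.valuation (b - 1) < 1) : A.valuation (a / b - 1) < 1 := by
  have hb1 : A.valuation b = 1 := by
    have := Valuation.map_one_add_of_lt A.valuation hb
    rwa [add_sub_cancel] at this
  have hb0 : b ≠ 0 := by
    rintro rfl
    rw [map_zero] at hb1
    exact zero_ne_one hb1
  have h1 : a / b - 1 = ((a - 1) - (b - 1)) / b := by field_simp; ring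
  rw [h1, map_div₀, hb1, div_one]
  exact (Valuation.map_sub _ _ _).trans_lt (max_lt ha hb)

/-- commutators of inertia are wild -/
theorem isWild_commutator {A : ValuationSubring Qb} {σ τ : GQ} (hσ : σ ∈ A.inertiaSubgroupIn ℚ)
    (hτ : τ ∈ A.inertiaSubgroupIn ℚ) : IsWild A (σ * τ * σ⁻¹ * τ⁻¹) := by
  intro y hy
  set x := (τ * σ)⁻¹ y with hx
  have hyx : y = τ (σ x) := by
    rw [hx, ← AlgEquiv.mul_apply, ← AlgEquiv.mul_apply, mul_inv_cancel, AlgEquiv.one_apply]
  have hx0 : x ≠ 0 := by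
    rw [hx]
    exact (map_ne_zero _).mpr hy
  have h1 : (σ * τ * σ⁻¹ * τ⁻¹) y = σ (τ x) := by
    rw [hyx]
    have : (σ * τ * σ⁻¹ * τ⁻¹) (τ (σ x)) = ((σ * τ * σ⁻¹ * τ⁻¹) * (τ * σ)) x := rfl
    rw [this]
    have h2 : (σ * τ * σ⁻¹ * τ⁻¹) * (τ * σ) = σ * τ := by group
    rw [h2]
    rfl
  rw [h1, hyx]
  set u := τ x / x with hu
  set w := σ x / x with hw
  have hτx : τ x = u * x := by rw [hu, div_mul_cancel₀ _ hx0]
  have hσx : σ x = w * x := by rw [hw, div_mul_cancel₀ _ hx0]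
  have hu0 : u ≠ 0 := div_ne_zero ((map_ne_zero _).mpr hx0) hx0
  have hw0 : w ≠ 0 := div_ne_zero ((map_ne_zero _).mpr hx0) hx0
  have h3 : σ (τ x) / τ (σ x) = (σ u / u) / (τ w / w) := by
    rw [hτx, hσx, map_mul, map_mul, hτx, hσx]
    have hσu : σ u ≠ 0 := (map_ne_zero _).mpr hu0
    have hτw : τ w ≠ 0 := (map_ne_zero _).mpr hw0
    field_simp
  rw [h3]
  exact one_unit_div (inertia_unit hσ (val_div_self hτ hx0))
    (inertia_unit hτ (val_div_self hσ hx0))

theorem IsWild.mul {A : ValuationSubring Qb} {σ τ : GQ} (hσ : IsWild A σ) (hτ : IsWild A τ) :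
    IsWild A (σ * τ) := by
  intro x hx
  have hτx : τ x ≠ 0 := (map_ne_zero _).mpr hx
  have h1 := hσ (τ x) hτx
  have h2 := hτ x hx
  have h3 : A.valuation (τ x / x) = 1 := by
    have := Valuation.map_one_add_of_lt A.valuation h2
    rwa [add_sub_cancel] at this
  have h4 : (σ * τ) x / x - 1 = (σ (τ x) / τ x - 1) * (τ x / x) + (τ x / x - 1) := by
    rw [AlgEquiv.mul_apply]
    field_simp
    ring
  rw [h4]
  refine (A.valuation.map_add _ _).trans_lt (max_lt ?_ h2)
  rw [map_mul, h3, mul_one]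
  exact h1

theorem IsWild.pow {A : ValuationSubring Qb} {σ : GQ} (hσ : IsWild A σ) (n : ℕ) :
    IsWild A (σ ^ n) := by
  induction n with
  | zero =>
    intro x hx
    rw [pow_zero, AlgEquiv.one_apply, div_self hx, sub_self, map_zero]
    exact zero_lt_one
  | succ n ih => rw [pow_succ]; exact ih.mul hσ

/-- Wild elements die in quotients of order prime to `p`. -/
theorem wild_trivial {p : ℕ} (hp : p.Prime) {A : ValuationSubring Qb} (hA : A.LiesOverPrime p)
    {U : Subgroup GQ} (hU : IsOpen (U : Set GQ)) {σ : GQ} (hσ : IsWild A σ) {m : ℕ}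
    (hm : ¬ p ∣ m) (hσm : σ ^ m ∈ U) : σ ∈ U := by
  apply mem_of_fixes hU
  intro x hx
  by_contra hne
  set y := σ x - x with hy
  have hy0 : y ≠ 0 := sub_ne_zero.mpr hne
  have hsum : ∑ i ∈ Finset.range m, (σ ^ i) y = 0 := by
    have h1 : ∀ i, (σ ^ i) y = (σ ^ (i + 1)) x - (σ ^ i) x := by
      intro i
      rw [hy, map_sub, pow_succ, AlgEquiv.mul_apply]
    simp only [h1]
    rw [Finset.sum_range_sub (fun i => (σ ^ i) x), pow_zero, AlgEquiv.one_apply, hx _ hσm, sub_self]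
  have h2 : ∑ i ∈ Finset.range m, ((σ ^ i) y / y - 1) + (m : Qb) = 0 := by
    have h3 : ∑ i ∈ Finset.range m, ((σ ^ i) y / y - 1) =
        (∑ i ∈ Finset.range m, (σ ^ i) y) / y - m := by
      rw [Finset.sum_sub_distrib, Finset.sum_div, Finset.sum_const, Finset.card_range, nsmul_one]
    rw [h3, hsum, zero_div]
    ring
  have h4 : A.valuation (∑ i ∈ Finset.range m, ((σ ^ i) y / y - 1)) < 1 :=
    Valuation.map_sum_lt _ one_ne_zero fun i _ => hσ.pow i y hy0
  have h5 : A.valuation (m : Qb) = 1 := by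
    by_contra hlt
    have h6 : A.valuation (m : Qb) < 1 := lt_of_le_of_ne
      ((A.valuation_le_one_iff _).mpr (natCast_mem A m)) hlt
    have hpv : A.valuation (p : Qb) < 1 := hA
    have hcop : IsCoprime (p : ℤ) (m : ℤ) := by
      rw [Nat.isCoprime_iff_coprime]
      exact (Nat.Prime.coprime_iff_not_dvd hp).mpr hm
    obtain ⟨a, b, hab⟩ := hcop
    have h7 : (a : Qb) * (p : Qb) + (b : Qb) * (m : Qb) = 1 := by exact_mod_cast hab
    have h8 : A.valuation ((a : Qb) * (p : Qb) + (b : Qb) * (m : Qb)) < 1 := by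
      refine (A.valuation.map_add _ _).trans_lt (max_lt ?_ ?_)
      · rw [map_mul]
        exact (mul_le_of_le_one_left' ((A.valuation_le_one_iff _).mpr
          (intCast_mem A a))).trans_lt hpv
      · rw [map_mul]
        exact (mul_le_of_le_one_left' ((A.valuation_le_one_iff _).mpr
          (intCast_mem A b))).trans_lt h6
    rw [h7, map_one] at h8
    exact lt_irrefl _ h8
  have h9 : (m : Qb) = - ∑ i ∈ Finset.range m, ((σ ^ i) y / y - 1) :=
    eq_neg_of_add_eq_zero_right h2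
  rw [h9, Valuation.map_neg] at h5
  exact h4.ne h5

end Tame

end Fermat.Agent.RT
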