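import Fermat.Agent.RT.IndexTwo2

set_option autoImplicit false

/-!
# Absolute irreducibility over quadratic fields, III
-/

open Matrix
open scoped Pointwise

namespace Fermat.Agent.RT

open Fermat.Agent.GCFT Fermat.Agent.Coh Fermat.Agent.ESCore Fermat.Agent.GaloisBasics

/-- The field of algebraic numbers. -/
local notation "Qb" => AlgebraicClosure ℚ
/-- The absolute Galois group. -/
local notation "GQ" => (AlgebraicClosure ℚ ≃ₐ[ℚ] AlgebraicClosure ℚ)

variable {p : ℕ} [hp : Fact p.Prime] {ρ₀ : GQ →* GL (Fin 2) (ZMod p)}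

/-- the order of the image is prime to `p` when there are no elements of order `p` -/
theorem exists_coprime_exponent (hnop : ∀ g, ρ₀ g ^ p = 1 → ρ₀ g = 1) :
    ∃ m : ℕ, ¬ p ∣ m ∧ m ≠ 0 ∧ ∀ g, ρ₀ g ^ m = 1 := by
  refine ⟨Nat.card ρ₀.range, ?_, Nat.card_pos.ne', fun g => ?_⟩
  · intro hdvd
    obtain ⟨x, hx⟩ := exists_prime_orderOf_dvd_card' p hdvd
    obtain ⟨n, hn⟩ := x.2
    have h0 : x ^ p = 1 := orderOf_dvd_iff_pow_eq_one.mp (dvd_of_eq hx)
    have h1 : ρ₀ n ^ p = 1 := by rw [hn, ← Subgroup.coe_pow, h0, Subgroup.coe_one]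
    have h3 : x = 1 := Subtype.ext (by rw [← hn, hnop n h1, Subgroup.coe_one])
    rw [h3, orderOf_one] at hx
    exact hp.out.one_lt.ne hx
  · have h1 : (⟨ρ₀ g, g, rfl⟩ : ρ₀.range) ^ Nat.card ρ₀.range = 1 := pow_card_eq_one'
    exact congrArg Subtype.val h1

/-- the image of inertia is abelian -/
theorem inertia_comm (hopen : IsOpen (ρ₀.ker : Set GQ)) (hnop : ∀ g, ρ₀ g ^ p = 1 → ρ₀ g = 1)
    {A : ValuationSubring Qb} (hA : A.LiesOverPrime p) {σ τ : GQ}
    (hσ : σ ∈ A.inertiaSubgroupIn ℚ) (hτ : τ ∈ A.inertiaSubgroupIn ℚ) :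
    ρ₀ σ * ρ₀ τ = ρ₀ τ * ρ₀ σ := by
  obtain ⟨m, hm, -, h⟩ := exists_coprime_exponent hnop
  have h1 : σ * τ * σ⁻¹ * τ⁻¹ ∈ ρ₀.ker := by
    refine wild_trivial hp.out hA hopen (isWild_commutator hσ hτ) hm ?_
    rw [MonoidHom.mem_ker, map_pow, h]
  rw [MonoidHom.mem_ker, map_mul, map_mul, map_mul, map_inv, map_inv, mul_inv_eq_one,
    mul_inv_eq_iff_eq_mul] at h1
  exact h1

/-- unipotent elements of order prime to `p` are trivial -/
theorem eq_one_of_unip (hnop : ∀ g, ρ₀ g ^ p = 1 → ρ₀ g = 1) {g : GQ}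
    (h : ((ρ₀ g).val - 1) * ((ρ₀ g).val - 1) = 0) : ρ₀ g = 1 := by
  apply hnop
  apply Units.ext
  rw [Units.val_pow_eq_pow_val, Units.val_one]
  have h1 : (ρ₀ g).val = 1 + ((ρ₀ g).val - 1) := by abel
  have h2 : ((ρ₀ g).val - 1) ^ p = 0 :=
    pow_eq_zero_of_le hp.out.two_le (by rw [pow_two, h])
  rw [h1, add_pow_char_of_commute _ (Commute.one_left _), one_pow, h2, add_zero]

/-- Minkowski -/
theorem exists_inertia_notMem
    (hunip : ∀ q : ℕ, q.Prime → q ≠ p → ∃ A : ValuationSubring Qb, A.LiesOverPrime q ∧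
      ∀ σ ∈ A.inertiaSubgroupIn ℚ, ((ρ₀ σ).val - 1) * ((ρ₀ σ).val - 1) = 0)
    (hnop : ∀ g, ρ₀ g ^ p = 1 → ρ₀ g = 1) {A : ValuationSubring Qb} (hA : A.LiesOverPrime p)
    (hopen : IsOpen (ρ₀.ker : Set GQ))
    {H : Subgroup GQ} (hker : ρ₀.ker ≤ H) (hn : H.Normal) (hne : H ≠ ⊤) :
    ∃ σ ∈ A.inertiaSubgroupIn ℚ, σ ∉ H := by
  by_contra hcon
  push Not at hcon
  apply hne
  refine Inertia.eq_top_of_inertia_le H (Subgroup.isOpen_mono hker hopen) hn fun q hq => ?_
  by_cases hqp : q = p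
  · subst hqp
    exact ⟨A, hA, hcon⟩
  · obtain ⟨A', hA', h⟩ := hunip q hq hqp
    exact ⟨A', hA', fun σ hσ => hker (eq_one_of_unip hnop (h σ hσ))⟩

/-- Uniqueness of the quadratic field. -/
theorem index_two_unique
    (hunip : ∀ q : ℕ, q.Prime → q ≠ p → ∃ A : ValuationSubring Qb, A.LiesOverPrime q ∧
      ∀ σ ∈ A.inertiaSubgroupIn ℚ, ((ρ₀ σ).val - 1) * ((ρ₀ σ).val - 1) = 0)
    (hnop : ∀ g, ρ₀ g ^ p = 1 → ρ₀ g = 1) {A : ValuationSubring Qb} (hA : A.LiesOverPrime p)
    (hopen : IsOpen (ρ₀.ker : Set GQ))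
    (hI : ∀ σ ∈ A.inertiaSubgroupIn ℚ, ∀ τ ∈ A.inertiaSubgroupIn ℚ, ρ₀ σ ≠ 1 → ρ₀ τ ≠ 1 →
      ρ₀ (σ * τ⁻¹) = 1)
    {H₁ H₂ : Subgroup GQ} (h1 : H₁.index = 2) (h2 : H₂.index = 2) (hk1 : ρ₀.ker ≤ H₁)
    (hk2 : ρ₀.ker ≤ H₂) : H₁ = H₂ := by
  by_contra hne
  have hn1 : H₁.Normal := Subgroup.normal_of_index_eq_two h1
  have hn2 : H₂.Normal := Subgroup.normal_of_index_eq_two h2
  -- the third subgroup
  let H₃ : Subgroup GQ :=
    { carrier := {g | g ∈ H₁ ↔ g ∈ H₂}
      mul_mem' := by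
        intro a b ha hb
        change a * b ∈ H₁ ↔ a * b ∈ H₂
        rw [Subgroup.mul_mem_iff_of_index_two h1, Subgroup.mul_mem_iff_of_index_two h2]
        exact iff_congr ha hb
      one_mem' := ⟨fun _ => H₂.one_mem, fun _ => H₁.one_mem⟩
      inv_mem' := by
        intro a ha
        change a⁻¹ ∈ H₁ ↔ a⁻¹ ∈ H₂
        rw [H₁.inv_mem_iff, H₂.inv_mem_iff]
        exact ha }
  have hmem3 : ∀ g, g ∈ H₃ ↔ (g ∈ H₁ ↔ g ∈ H₂) := fun g => Iff.rfl
  have hk3 : ρ₀.ker ≤ H₃ := fun g hg => ⟨fun _ => hk2 hg, fun _ => hk1 hg⟩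
  have hn3 : H₃.Normal := ⟨fun n hn g => by
    rw [hmem3] at hn ⊢
    rw [← hn1.mem_comm_iff, inv_mul_cancel_left, ← hn2.mem_comm_iff, inv_mul_cancel_left]
    exact hn⟩
  have hne3 : H₃ ≠ ⊤ := by
    intro h
    apply hne
    ext g
    have : g ∈ H₃ := by rw [h]; trivial
    exact this
  have hne1 : H₁ ≠ ⊤ := by
    rintro rfl
    rw [Subgroup.index_top] at h1
    omega
  have hne2 : H₂ ≠ ⊤ := by
    rintro rfl
    rw [Subgroup.index_top] at h2
    omega
  obtain ⟨σ, hσ, hσ3⟩ := exists_inertia_notMem hunip hnop hA hopen hk3 hn3 hne3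
  obtain ⟨τ₁, hτ₁, hτ₁'⟩ := exists_inertia_notMem hunip hnop hA hopen hk1 hn1 hne1
  obtain ⟨τ₂, hτ₂, hτ₂'⟩ := exists_inertia_notMem hunip hnop hA hopen hk2 hn2 hne2
  have hσ1 : ρ₀ σ ≠ 1 := fun h => hσ3 (hk3 h)
  have hτ₁1 : ρ₀ τ₁ ≠ 1 := fun h => hτ₁' (hk1 h)
  have hτ₂1 : ρ₀ τ₂ ≠ 1 := fun h => hτ₂' (hk2 h)
  have e1 : σ * τ₁⁻¹ ∈ H₁ := hk1 (hI σ hσ τ₁ hτ₁ hσ1 hτ₁1)
  have e2 : σ * τ₂⁻¹ ∈ H₂ := hk2 (hI σ hσ τ₂ hτ₂ hσ1 hτ₂1)
  rw [Subgroup.mul_mem_iff_of_index_two h1, H₁.inv_mem_iff] at e1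
  rw [Subgroup.mul_mem_iff_of_index_two h2, H₂.inv_mem_iff] at e2
  apply hσ3
  rw [hmem3]
  exact ⟨fun h => absurd (e1.mp h) hτ₁', fun h => absurd (e2.mp h) hτ₂'⟩

/-- Cayley–Hamilton -/
theorem cayley2 {F : Type*} [CommRing F] (M : Matrix (Fin 2) (Fin 2) F) :
    M * M = M.trace • M - M.det • (1 : Matrix (Fin 2) (Fin 2) F) := by
  ext i j
  rw [trace_fin_two, det_fin_two]
  fin_cases i <;> fin_cases j <;> simp [Matrix.mul_apply, Fin.sum_univ_two] <;> ring

section Three

variable {ρ₀ : GQ →* GL (Fin 2) (ZMod 3)}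

theorem zmod3_cases (a : ZMod 3) (h : a ≠ 0) : a = 1 ∨ a = -1 := by
  revert a
  decide

/-- The case `p = 3`, ordinary. -/
theorem three_ord (hirr : ∀ v, ¬ ComEig ρ₀ ⊤ v)
    (hdet : ∀ g, (ρ₀ g).val.det = (cyc 3 g : (ZMod 3)ˣ)) (hopen : IsOpen (ρ₀.ker : Set GQ))
    (hunip : ∀ q : ℕ, q.Prime → q ≠ 3 → ∃ A : ValuationSubring Qb, A.LiesOverPrime q ∧
      ∀ σ ∈ A.inertiaSubgroupIn ℚ, ((ρ₀ σ).val - 1) * ((ρ₀ σ).val - 1) = 0)
    (hnop : ∀ g, ρ₀ g ^ 3 = 1 → ρ₀ g = 1)
    {A : ValuationSubring Qb} (hA : A.LiesOverPrime 3)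
    (hord : ∀ σ ∈ A.inertiaSubgroupIn ℚ, (ρ₀ σ).val.trace = 1 + (ρ₀ σ).val.det)
    {G : Subgroup GQ} (hG : G.index = 2) (hker : ρ₀.ker ≤ G)
    (htr0 : ∀ g, g ∉ G → (ρ₀ g).val.trace = 0) : False := by
  have h1det : ∀ σ ∈ A.inertiaSubgroupIn ℚ, (ρ₀ σ).val.det = 1 → ρ₀ σ = 1 := by
    intro σ hσ h1
    apply eq_one_of_unip hnop
    have h2 : (ρ₀ σ).val * (ρ₀ σ).val = (2 : ZMod 3) • (ρ₀ σ).val - 1 := by
      rw [cayley2, hord σ hσ, h1, one_smul]
      norm_num
    rw [sub_mul, mul_sub, h2, one_mul, mul_one, two_smul]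
    abel
  have hcase : ∀ g, (ρ₀ g).val.det = 1 ∨ (ρ₀ g).val.det = -1 := by
    intro g
    apply zmod3_cases
    rw [hdet]
    exact Units.ne_zero _
  have hI : ∀ σ ∈ A.inertiaSubgroupIn ℚ, ∀ τ ∈ A.inertiaSubgroupIn ℚ, ρ₀ σ ≠ 1 → ρ₀ τ ≠ 1 →
      ρ₀ (σ * τ⁻¹) = 1 := by
    intro σ hσ τ hτ hσ1 hτ1
    have d1 := (hcase σ).resolve_left fun h => hσ1 (h1det σ hσ h)
    have d2 := (hcase τ).resolve_left fun h => hτ1 (h1det τ hτ h)
    apply h1det _ ((A.inertiaSubgroupIn ℚ).mul_mem hσ ((A.inertiaSubgroupIn ℚ).inv_mem hτ))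
    have d3 : (ρ₀ τ⁻¹).val.det = -1 := by
      have h3 : (ρ₀ τ).val.det * (ρ₀ τ⁻¹).val.det = 1 := by
        rw [← det_mul, mul_inv_coe, det_one]
      rw [d2] at h3
      linear_combination -h3
    rw [map_mul, Units.val_mul, det_mul, d1, d3]
    ring
  set c : GQ := complexConjugation with hc
  have hcdet : (ρ₀ c).val.det = -1 := by rw [hdet, cyc_complexConjugation]
  have hcc : c * c = 1 := complexConjugation_mul_self
  have hneg : (-1 : ZMod 3) ≠ 1 := by decide
  -- the kernel of the cyclotomic character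
  have hHc : (cyc 3).ker.index = 2 := by
    rw [Subgroup.index_eq_two_iff]
    refine ⟨c, fun g => ?_⟩
    have hiff : ∀ g, g ∈ (cyc 3).ker ↔ (ρ₀ g).val.det = 1 := by
      intro g
      rw [MonoidHom.mem_ker, hdet, Units.val_eq_one]
    rw [hiff, hiff, map_mul, Units.val_mul, det_mul, hcdet]
    rcases hcase g with h | h
    · refine Or.inr ⟨h, ?_⟩
      rw [h, one_mul]
      exact hneg
    · refine Or.inl ⟨by rw [h]; ring, ?_⟩
      rw [h]
      exact hneg
  have hkc : ρ₀.ker ≤ (cyc 3).ker := by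
    intro g hg
    rw [MonoidHom.mem_ker, ← Units.val_eq_one, ← hdet, MonoidHom.mem_ker.mp hg, Units.val_one,
      det_one]
  have hGc : G = (cyc 3).ker := index_two_unique hunip hnop hA hopen hI hG hHc hker hkc
  have hmemG : ∀ g, g ∈ G ↔ (ρ₀ g).val.det = 1 := by
    intro g
    rw [hGc, MonoidHom.mem_ker, hdet, Units.val_eq_one]
  have hcG : c ∉ G := by
    rw [hmemG, hcdet]
    exact hneg
  -- involutions
  have hinvol : ∀ g, g ∉ G → (ρ₀ g).val * (ρ₀ g).val = 1 := by
    intro g hg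
    have h1 : (ρ₀ g).val.det = -1 := (hcase g).resolve_left fun h => hg ((hmemG g).mpr h)
    rw [cayley2, htr0 g hg, h1, zero_smul, zero_sub, neg_smul, one_smul, neg_neg]
  have h2 : (2 : ZMod 3) ≠ 0 := by decide
  obtain ⟨v, hv0, hv⟩ := involution_eigen h2 (hinvol c hcG) hcdet (e := 1) (one_mul 1)
  obtain ⟨w, hw0, hw⟩ := involution_eigen h2 (hinvol c hcG) hcdet (e := -1) (by ring)
  rw [one_smul] at hv
  rw [neg_smul, one_smul] at hw
  have hli : LinearIndependent (ZMod 3) ![v, w] := by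
    rw [LinearIndependent.pair_iff' hv0]
    intro a ha
    rw [← ha, mulVec_smul, hv] at hw
    have h3 : (2 * a) • v = 0 := by
      rw [mul_smul, two_smul]
      nth_rewrite 1 [hw]
      rw [neg_add_cancel]
    have h4 := (smul_eq_zero.mp h3).resolve_right hv0
    rcases mul_eq_zero.mp h4 with h | h
    · exact h2 h
    · rw [h, zero_smul] at ha
      exact hw0 ha.symm
  have hcoef : ∀ {a b a' b' : ZMod 3}, a • v + b • w = a' • v + b' • w → a = a' ∧ b = b' := by
    intro a b a' b' h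
    have h1 : (a - a') • v + (b - b') • w = 0 := by
      rw [sub_smul, sub_smul]
      calc a • v - a' • v + (b • w - b' • w) = (a • v + b • w) - (a' • v + b' • w) := by abel
        _ = 0 := by rw [h, sub_self]
    have h2 := (LinearIndependent.pair_iff.mp hli) _ _ h1
    exact ⟨sub_eq_zero.mp h2.1, sub_eq_zero.mp h2.2⟩
  have hspan : ∀ u : Fin 2 → ZMod 3, ∃ a b : ZMod 3, u = a • v + b • w := by
    intro u
    have h1 : Submodule.span (ZMod 3) (Set.range ![v, w]) = ⊤ :=
      hli.span_eq_top_of_card_eq_finrank' (by simp)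
    have h2 : u ∈ Submodule.span (ZMod 3) (Set.range ![v, w]) := by rw [h1]; trivial
    rw [Matrix.range_cons, Matrix.range_cons, Matrix.range_empty, Set.union_empty,
      Set.singleton_union, Submodule.mem_span_pair] at h2
    obtain ⟨a, b, h⟩ := h2
    exact ⟨a, b, h.symm⟩
  set C := (ρ₀ c).val with hC
  -- elements of `G` preserve or exchange the eigenlines
  have key : ∀ h ∈ G, (∃ a : ZMod 3, (ρ₀ h).val *ᵥ v = a • v) ∨
      ∃ b : ZMod 3, (ρ₀ h).val *ᵥ v = b • w := by
    intro h hh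
    set M := (ρ₀ h).val with hM
    obtain ⟨a, d, hMv⟩ := hspan (M *ᵥ v)
    obtain ⟨b, e, hMw⟩ := hspan (M *ᵥ w)
    have hchG : c * h ∉ G := by
      rw [Subgroup.mul_mem_iff_of_index_two hG]
      exact fun h' => hcG (h'.mpr hh)
    have hinv := hinvol _ hchG
    rw [map_mul, Units.val_mul, ← hC, ← hM] at hinv
    have e1 : (C * M * (C * M)) *ᵥ v = v := by rw [hinv, one_mulVec]
    have hcalc : (C * M * (C * M)) *ᵥ v =
        (a * a - d * b) • v + (-(a * d - d * e)) • w := by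
      rw [← mulVec_mulVec, ← mulVec_mulVec, ← mulVec_mulVec, hMv, mulVec_add, mulVec_smul,
        mulVec_smul, hv, hw, mulVec_add, mulVec_smul, mulVec_smul, mulVec_neg, hMv, hMw,
        mulVec_add, mulVec_smul, mulVec_smul, mulVec_neg, mulVec_add, mulVec_add, mulVec_smul,
        mulVec_smul, mulVec_smul, mulVec_smul, hv, hw]
      module
    have e2 : (a * a - d * b) • v + (-(a * d - d * e)) • w = (1 : ZMod 3) • v + (0 : ZMod 3) • w := by
      rw [← hcalc, e1, one_smul, zero_smul, add_zero]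
    obtain ⟨f1, f2⟩ := hcoef e2
    by_cases ha : a = 0
    · right
      exact ⟨d, by rw [hMv, ha, zero_smul, zero_add]⟩
    by_cases hd : d = 0
    · left
      exact ⟨a, by rw [hMv, hd, zero_smul, add_zero]⟩
    exfalso
    have hae : a = e := by
      have : d * (a - e) = 0 := by linear_combination -f2
      exact sub_eq_zero.mp ((mul_eq_zero.mp this).resolve_left hd)
    have haa : a * a = 1 := by
      rcases zmod3_cases a ha with h | h <;> rw [h] <;> ring
    have hb : b = 0 := by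
      have : d * b = 0 := by linear_combination haa - f1
      exact (mul_eq_zero.mp this).resolve_left hd
    rw [hb, zero_smul, zero_add, ← hae] at hMw
    have hM2v : (M * M) *ᵥ v = v + (2 * a * d) • w := by
      rw [← mulVec_mulVec, hMv, mulVec_add, mulVec_smul, mulVec_smul, hMv, hMw, smul_add,
        smul_smul, haa, one_smul]
      module
    have hM2w : (M * M) *ᵥ w = w := by
      rw [← mulVec_mulVec, hMw, mulVec_smul, hMw, smul_smul, haa, one_smul]
    have hun : ρ₀ (h * h) = 1 := by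
      apply eq_one_of_unip hnop
      rw [map_mul, Units.val_mul, ← hM]
      apply Matrix.ext_of_mulVec_single
      intro i
      obtain ⟨x, y, hxy⟩ := hspan (Pi.single i 1)
      have i1 : (M * M - 1) *ᵥ (x • v + y • w) = (x * (2 * a * d)) • w := by
        simp only [sub_mulVec, one_mulVec, mulVec_add, mulVec_smul, hM2v, hM2w]
        module
      have i2 : (M * M - 1) *ᵥ w = 0 := by
        rw [sub_mulVec, one_mulVec, hM2w, sub_self]
      rw [hxy, ← mulVec_mulVec, i1, mulVec_smul, i2, smul_zero, zero_mulVec]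
    have h3 : (M * M) *ᵥ v = v := by
      rw [hM, ← Units.val_mul, ← map_mul, hun, Units.val_one, one_mulVec]
    rw [hM2v] at h3
    have h4 : (2 * a * d) • w = 0 := by
      have := congrArg (fun z => z - v) h3
      simpa using this
    have h5 := (smul_eq_zero.mp h4).resolve_right hw0
    exact mul_ne_zero (mul_ne_zero h2 ha) hd h5
  have htwo : ∀ g, (∃ a : ZMod 3, (ρ₀ g).val *ᵥ v = a • v) ∨
      ∃ b : ZMod 3, (ρ₀ g).val *ᵥ v = b • w := by
    intro g
    by_cases hg : g ∈ G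
    · exact key g hg
    · have h3 : c * g ∈ G := by
        rw [Subgroup.mul_mem_iff_of_index_two hG]
        exact ⟨fun h => absurd h hcG, fun h => absurd h hg⟩
      have h4 : g = c * (c * g) := by rw [← mul_assoc, hcc, one_mul]
      rcases key _ h3 with ⟨a, ha⟩ | ⟨b, hb⟩
      · left
        refine ⟨a, ?_⟩
        rw [h4, mulVec_mul, ha, mulVec_smul, ← hC, hv]
      · right
        refine ⟨-b, ?_⟩
        rw [h4, mulVec_mul, hb, mulVec_smul, ← hC, hw, smul_neg, neg_smul]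
  have hLne : lineStab ρ₀ hv0 ≠ ⊤ := by
    intro htop
    refine hirr v ⟨hv0, fun g _ => ?_⟩
    have : g ∈ lineStab ρ₀ hv0 := by rw [htop]; trivial
    exact this
  have hLi := index_lineStab hv0 htwo hLne
  have hLk : ρ₀.ker ≤ lineStab ρ₀ hv0 := by
    intro g hg
    refine ⟨1, ?_⟩
    rw [MonoidHom.mem_ker.mp hg, Units.val_one, one_mulVec, one_smul]
  have hLc := index_two_unique hunip hnop hA hopen hI hLi hHc hLk hkc
  have h5 : c ∈ lineStab ρ₀ hv0 := ⟨1, by rw [← hC, hv, one_smul]⟩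
  rw [hLc, ← hGc] at h5
  exact hcG h5

end Three

variable {K : Type*} [Field K] [Algebra (ZMod p) K]

/-- **Absolute irreducibility over quadratic fields.** -/
theorem not_comEig_index_two (hp2 : p ≠ 2) (hirr : ∀ v, ¬ ComEig ρ₀ ⊤ v)
    (hdet : ∀ g, (ρ₀ g).val.det = (cyc p g : (ZMod p)ˣ)) (hopen : IsOpen (ρ₀.ker : Set GQ))
    (hunip : ∀ q : ℕ, q.Prime → q ≠ p → ∃ A : ValuationSubring Qb, A.LiesOverPrime q ∧
      ∀ σ ∈ A.inertiaSubgroupIn ℚ, ((ρ₀ σ).val - 1) * ((ρ₀ σ).val - 1) = 0)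
    {A : ValuationSubring Qb} (hA : A.LiesOverPrime p)
    (hloc : (∀ σ ∈ A.inertiaSubgroupIn ℚ, (ρ₀ σ).val.trace = 1 + (ρ₀ σ).val.det) ∨
      ∀ v w : Fin 2 → ZMod p, v ≠ 0 → w ≠ 0 → ∃ σ ∈ A.inertiaSubgroupIn ℚ,
        (ρ₀ σ).val *ᵥ v = w ∨ (ρ₀ σ).val *ᵥ v = -w)
    {G : Subgroup GQ} (hG : G.index = 2) (v : Fin 2 → K) : ¬ ComEig (bc K ρ₀) G v := by
  intro hv
  have h2 := two_ne_zero_zmod hp2
  have hnG : G.Normal := Subgroup.normal_of_index_eq_two hG
  have habs := abs_irr_of_odd (K := K) hp2 hirr hdet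
  obtain ⟨g₀, hg₀⟩ : ∃ g₀ : GQ, ∀ a : K, (bc K ρ₀ g₀).val *ᵥ v ≠ a • v := by
    by_contra hcon
    push Not at hcon
    exact habs v ⟨hv.1, fun g _ => hcon g⟩
  have hg₀G : g₀ ∉ G := fun h => by
    obtain ⟨a, ha⟩ := hv.2 g₀ h
    exact hg₀ a ha
  set w := (bc K ρ₀ g₀).val *ᵥ v with hw
  have hwG : ComEig (bc K ρ₀) G w := hv.conj g₀
  have hli : LinearIndependent K ![v, w] := by
    rw [LinearIndependent.pair_iff' hv.1]
    intro a h
    exact hg₀ a h.symm
  have hcoef : ∀ {a b a' b' : K}, a • v + b • w = a' • v + b' • w → a = a' ∧ b = b' := by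
    intro a b a' b' h
    have h1 : (a - a') • v + (b - b') • w = 0 := by
      rw [sub_smul, sub_smul]
      calc a • v - a' • v + (b • w - b' • w) = (a • v + b • w) - (a' • v + b' • w) := by abel
        _ = 0 := by rw [h, sub_self]
    have h2 := (LinearIndependent.pair_iff.mp hli) _ _ h1
    exact ⟨sub_eq_zero.mp h2.1, sub_eq_zero.mp h2.2⟩
  have hspan : ∀ u : Fin 2 → K, ∃ a b : K, u = a • v + b • w := by
    intro u
    have h1 : Submodule.span K (Set.range ![v, w]) = ⊤ :=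
      hli.span_eq_top_of_card_eq_finrank' (by simp)
    have h2 : u ∈ Submodule.span K (Set.range ![v, w]) := by rw [h1]; trivial
    rw [Matrix.range_cons, Matrix.range_cons, Matrix.range_empty, Set.union_empty,
      Set.singleton_union, Submodule.mem_span_pair] at h2
    obtain ⟨a, b, h⟩ := h2
    exact ⟨a, b, h.symm⟩
  -- elements outside `G` exchange the two lines
  have hout : ∀ g, g ∉ G → (∃ a : K, (bc K ρ₀ g).val *ᵥ v = a • w) ∧
      ∃ b : K, (bc K ρ₀ g).val *ᵥ w = b • v := by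
    intro g hg
    constructor
    · have h1 : g₀⁻¹ * g ∈ G := by
        rw [Subgroup.mul_mem_iff_of_index_two hG, G.inv_mem_iff]
        exact ⟨fun h => absurd h hg₀G, fun h => absurd h hg⟩
      obtain ⟨a, ha⟩ := hv.2 _ h1
      refine ⟨a, ?_⟩
      have h3 : g = g₀ * (g₀⁻¹ * g) := by group
      rw [h3, mulVec_mul, ha, mulVec_smul]
    · have h1 : g * g₀ ∈ G := by
        rw [Subgroup.mul_mem_iff_of_index_two hG]
        exact ⟨fun h => absurd h hg, fun h => absurd h hg₀G⟩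
      obtain ⟨a, ha⟩ := hv.2 _ h1
      exact ⟨a, by rw [hw, ← mulVec_mul, ha]⟩
  -- trace zero outside `G`
  have htr0 : ∀ g, g ∉ G → (ρ₀ g).val.trace = 0 := by
    intro g hg
    obtain ⟨⟨a, ha⟩, ⟨b, hb⟩⟩ := hout g hg
    set M := (bc K ρ₀ g).val with hM
    -- `M²` is scalar
    have hMM : ∀ u, M *ᵥ (M *ᵥ u) = (a * b) • u := by
      intro u
      obtain ⟨x, y, rfl⟩ := hspan u
      simp only [mulVec_add, mulVec_smul, ha, hb, smul_add, smul_smul]
      congr 2 <;> ring
    have hMM' : M * M = (a * b) • (1 : Matrix (Fin 2) (Fin 2) K) := by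
      apply Matrix.ext_of_mulVec_single
      intro i
      rw [← mulVec_mulVec, hMM, smul_mulVec, one_mulVec]
    have hCH : M * M = M.trace • M - M.det • (1 : Matrix (Fin 2) (Fin 2) K) := by
      ext i j
      rw [trace_fin_two, det_fin_two]
      fin_cases i <;> fin_cases j <;> simp [Matrix.mul_apply, Fin.sum_univ_two] <;> ring
    have h3 : M.trace = 0 := by
      by_contra htr
      -- then `M` is scalar
      have h4 : ∀ u, M.trace • (M *ᵥ u) = (a * b + M.det) • u := by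
        intro u
        have h5 := hMM u
        rw [mulVec_mulVec, hCH, sub_mulVec, smul_mulVec, smul_mulVec, one_mulVec,
          sub_eq_iff_eq_add] at h5
        rw [h5, add_smul]
      have h6 := h4 v
      rw [ha, smul_smul] at h6
      have h7 : (0 : K) • v + (M.trace * a) • w = (a * b + M.det) • v + (0 : K) • w := by
        rw [zero_smul, zero_smul, zero_add, add_zero, h6]
      obtain ⟨-, h8⟩ := hcoef h7
      have ha0 : a = 0 := (mul_eq_zero.mp h8).resolve_left htr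
      rw [ha0, zero_smul] at ha
      exact mulVec_ne_zero g hv.1 ha
    have h9 : algebraMap (ZMod p) K (ρ₀ g).val.trace = M.trace := by
      rw [hM, bc_coe, trace_fin_two, trace_fin_two, map_add, Matrix.map_apply, Matrix.map_apply]
    rw [h3] at h9
    exact (map_eq_zero _).mp h9
  have hker : ρ₀.ker ≤ G := by
    intro g hg
    by_contra hgG
    have h3 := htr0 g hgG
    rw [MonoidHom.mem_ker.mp hg, Units.val_one, trace_one, Fintype.card_fin] at h3
    exact h2 (by exact_mod_cast h3)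
  have : CharP K p := charP_of_algebra
  -- no elements of order `p`
  have hnop : ∀ g, ρ₀ g ^ p = 1 → ρ₀ g = 1 := by
    intro g hgp
    by_cases hg : g ∈ G
    · obtain ⟨α, hα⟩ := hv.2 g hg
      obtain ⟨β, hβ⟩ := hwG.2 g hg
      have hpow : ∀ (u : Fin 2 → K) (γ : K), (bc K ρ₀ g).val *ᵥ u = γ • u → u ≠ 0 → γ = 1 := by
        intro u γ hu hu0
        have h3 : ∀ n : ℕ, (bc K ρ₀ (g ^ n)).val *ᵥ u = γ ^ n • u := by
          intro n
          induction n with
          | zero => rw [pow_zero, map_one, Units.val_one, one_mulVec, pow_zero, one_smul]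
          | succ n ih => rw [pow_succ, mulVec_mul, hu, mulVec_smul, ih, smul_smul, pow_succ,
              mul_comm]
        have h4 := h3 p
        rw [bc_eq_one_iff.mpr (by rw [map_pow, hgp] : ρ₀ (g ^ p) = 1), Units.val_one,
          one_mulVec] at h4
        obtain ⟨i, hi⟩ : ∃ i, u i ≠ 0 := by
          by_contra hcon
          push Not at hcon
          exact hu0 (funext hcon)
        have h5 := congrFun h4 i
        rw [Pi.smul_apply, smul_eq_mul] at h5
        have h6 : γ ^ p = 1 := mul_right_cancel₀ hi (by rw [← h5, one_mul])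
        have h7 : (γ - 1) ^ p = 0 := by
          rw [sub_pow_char, h6, one_pow, sub_self]
        exact sub_eq_zero.mp (pow_eq_zero_iff hp.out.ne_zero |>.mp h7)
      rw [hpow v α hα hv.1] at hα
      rw [hpow w β hβ hwG.1] at hβ
      apply bc_eq_one_iff (k := K).mp
      apply Units.ext
      apply Matrix.ext_of_mulVec_single
      intro i
      obtain ⟨x, y, hxy⟩ := hspan (Pi.single i 1)
      rw [hxy, Units.val_one, one_mulVec, mulVec_add, mulVec_smul, mulVec_smul, hα, hβ, one_smul,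
        one_smul]
    · exfalso
      have h3 : ((ρ₀ g).val - 1) ^ p = 0 := by
        rw [sub_pow_char_of_commute _ (Commute.one_right _), one_pow,
          ← Units.val_pow_eq_pow_val, hgp, Units.val_one, sub_self]
      have h4 := (sq_zero_of_pow_zero h3).1
      rw [trace_sub, htr0 g hg, trace_one, Fintype.card_fin, zero_sub, neg_eq_zero] at h4
      exact h2 (by exact_mod_cast h4)
  have hGtop : G ≠ ⊤ := by
    rintro rfl
    rw [Subgroup.index_top] at hG
    omega
  obtain ⟨σ₀, hσ₀, hσ₀G⟩ := exists_inertia_notMem hunip hnop hA hopen hker hnG hGtop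
  rcases hloc with hord | hss
  · -- ordinary case: `p = 3`
    have hdetI : ∀ τ ∈ A.inertiaSubgroupIn ℚ, τ ∉ G → (ρ₀ τ).val.det = -1 := by
      intro τ hτ hτG
      have h3 := hord τ hτ
      rw [htr0 τ hτG] at h3
      linear_combination -h3
    have hdetI' : ∀ τ ∈ A.inertiaSubgroupIn ℚ, τ ∈ G → (ρ₀ τ).val.det = 1 := by
      intro τ hτ hτG
      have h3 : σ₀ * τ ∉ G := by
        rw [Subgroup.mul_mem_iff_of_index_two hG]
        exact fun h => hσ₀G (h.mpr hτG)
      have h4 := hdetI _ ((A.inertiaSubgroupIn ℚ).mul_mem hσ₀ hτ) h3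
      rw [map_mul, Units.val_mul, det_mul, hdetI σ₀ hσ₀ hσ₀G] at h4
      linear_combination -h4
    -- the cyclotomic character has values `±1`
    let H : Subgroup GQ :=
      { carrier := {g | (ρ₀ g).val.det = 1 ∨ (ρ₀ g).val.det = -1}
        mul_mem' := by
          rintro a b ha hb
          change (ρ₀ (a * b)).val.det = 1 ∨ (ρ₀ (a * b)).val.det = -1
          rw [map_mul, Units.val_mul, det_mul]
          rcases ha with ha | ha <;> rcases hb with hb | hb <;> rw [ha, hb] <;> simp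
        one_mem' := by
          left
          rw [map_one, Units.val_one, det_one]
        inv_mem' := by
          intro a ha
          change (ρ₀ a⁻¹).val.det = 1 ∨ (ρ₀ a⁻¹).val.det = -1
          have h3 : (ρ₀ a).val.det * (ρ₀ a⁻¹).val.det = 1 := by
            rw [← det_mul, mul_inv_coe, det_one]
          rcases ha with ha | ha
          · left
            rw [ha, one_mul] at h3
            exact h3
          · right
            rw [ha] at h3
            linear_combination -h3 }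
    have hmemH : ∀ g, g ∈ H ↔ (ρ₀ g).val.det = 1 ∨ (ρ₀ g).val.det = -1 := fun g => Iff.rfl
    have hHn : H.Normal := ⟨fun n hn g => by
      rw [hmemH] at hn ⊢
      have h3 : (ρ₀ g⁻¹).val * (ρ₀ g).val = 1 := inv_mul_coe ρ₀ g
      rw [map_mul, map_mul, Units.val_mul, Units.val_mul, det_mul_comm, ← mul_assoc, h3, one_mul]
      exact hn⟩
    have hHk : ρ₀.ker ≤ H := by
      intro g hg
      rw [hmemH, MonoidHom.mem_ker.mp hg, Units.val_one, det_one]
      exact Or.inl rfl
    have hHtop : H = ⊤ := by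
      by_contra hne
      obtain ⟨σ, hσ, hσH⟩ := exists_inertia_notMem hunip hnop hA hopen hHk hHn hne
      apply hσH
      rw [hmemH]
      by_cases hσG : σ ∈ G
      · exact Or.inl (hdetI' σ hσ hσG)
      · exact Or.inr (hdetI σ hσ hσG)
    have hp3 : p = 3 := by
      obtain ⟨σ, hσ⟩ := cyc_surj' p (Units.mk0 (2 : ZMod p) h2)
      have h3 : σ ∈ H := by rw [hHtop]; trivial
      rw [hmemH, hdet, hσ, Units.val_mk0] at h3
      rcases h3 with h3 | h3
      · exfalso
        have : (1 : ZMod p) = 0 := by linear_combination h3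
        exact one_ne_zero this
      · have h4 : ((3 : ℕ) : ZMod p) = 0 := by
          push_cast
          linear_combination h3
        rw [ZMod.natCast_eq_zero_iff] at h4
        exact (Nat.prime_dvd_prime_iff_eq hp.out Nat.prime_three).mp h4
    subst hp3
    exact three_ord hirr hdet hopen hunip hnop hA hord hG hker htr0
  · -- supersingular case
    have hscal : ∀ h ∈ A.inertiaSubgroupIn ℚ, h ∈ G → ∀ u : Fin 2 → ZMod p, ∃ a : ZMod p,
        (ρ₀ h).val *ᵥ u = a • u := by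
      intro h hh hhG u
      obtain ⟨α, hα⟩ := hv.2 h hhG
      obtain ⟨β, hβ⟩ := hwG.2 h hhG
      obtain ⟨a, ha⟩ := (hout σ₀ hσ₀G).1
      have ha0 : a ≠ 0 := by
        rintro rfl
        rw [zero_smul] at ha
        exact mulVec_ne_zero σ₀ hv.1 ha
      have hc : bc K ρ₀ (σ₀ * h) = bc K ρ₀ (h * σ₀) := by
        apply Units.ext
        rw [bc_coe, bc_coe, map_mul, map_mul, inertia_comm hopen hnop hA hσ₀ hh]
      have h3 : (bc K ρ₀ (σ₀ * h)).val *ᵥ v = (bc K ρ₀ (h * σ₀)).val *ᵥ v := by rw [hc]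
      rw [mulVec_mul, mulVec_mul, hα, mulVec_smul, ha, mulVec_smul, hβ, smul_smul, smul_smul] at h3
      have h4 : (0 : K) • v + (α * a) • w = (0 : K) • v + (a * β) • w := by rw [h3]
      have hαβ : α = β := by
        have := (hcoef h4).2
        exact mul_right_cancel₀ ha0 (by rw [this, mul_comm])
      by_cases hu : u = 0
      · exact ⟨0, by rw [hu, mulVec_zero, smul_zero]⟩
      · apply prop_of_extV (K := K) hu (a := α)
        rw [← extV_mulVec, ← bc_coe]
        obtain ⟨x, y, hxy⟩ := hspan (extV K u)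
        rw [hxy, mulVec_add, mulVec_smul, mulVec_smul, hα, hβ, ← hαβ, smul_add, smul_comm x,
          smul_comm y]
    -- every vector lies on one of two lines
    have hex : (![1, 0] : Fin 2 → ZMod p) ≠ 0 := by
      intro h
      have := congrFun h 0
      simp at this
    set e := (![1, 0] : Fin 2 → ZMod p) with he
    set f := (ρ₀ σ₀).val *ᵥ e with hf
    have htwo : ∀ u : Fin 2 → ZMod p, u ≠ 0 → (∃ a : ZMod p, u = a • e) ∨
        ∃ a : ZMod p, u = a • f := by
      intro u hu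
      obtain ⟨σ, hσ, hσu⟩ := hss e u hex hu
      have hcase : (∃ a : ZMod p, (ρ₀ σ).val *ᵥ e = a • e) ∨
          ∃ a : ZMod p, (ρ₀ σ).val *ᵥ e = a • f := by
        by_cases hσG : σ ∈ G
        · exact Or.inl (hscal σ hσ hσG e)
        · right
          have h3 : σ * σ₀⁻¹ ∈ G := by
            rw [Subgroup.mul_mem_iff_of_index_two hG, G.inv_mem_iff]
            exact ⟨fun h => absurd h hσG, fun h => absurd h hσ₀G⟩
          obtain ⟨a, ha⟩ := hscal _ ((A.inertiaSubgroupIn ℚ).mul_mem hσ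
            ((A.inertiaSubgroupIn ℚ).inv_mem hσ₀)) h3 f
          refine ⟨a, ?_⟩
          have h4 : σ = (σ * σ₀⁻¹) * σ₀ := by group
          conv_lhs => rw [h4]
          rw [mulVec_mul, ← hf, ha]
      rcases hcase with ⟨a, ha⟩ | ⟨a, ha⟩
      · left
        rcases hσu with h | h
        · exact ⟨a, by rw [← h, ha]⟩
        · exact ⟨-a, by rw [neg_smul, ← ha, h, neg_neg]⟩
      · right
        rcases hσu with h | h
        · exact ⟨a, by rw [← h, ha]⟩
        · exact ⟨-a, by rw [neg_smul, ← ha, h, neg_neg]⟩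
    -- but three vectors are pairwise independent
    have t1 := htwo ![0, 1] (by
      intro h
      have := congrFun h 1
      simp at this)
    have t2 := htwo ![1, 1] (by
      intro h
      have := congrFun h 1
      simp at this)
    have t3 := htwo ![1, -1] (by
      intro h
      have := congrFun h 1
      simp at this)
    have no1 : ¬ ∃ a : ZMod p, (![0, 1] : Fin 2 → ZMod p) = a • e := by
      rintro ⟨a, ha⟩
      have := congrFun ha 1
      simp [he] at this
    have no2 : ¬ ∃ a : ZMod p, (![1, 1] : Fin 2 → ZMod p) = a • e := by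
      rintro ⟨a, ha⟩
      have := congrFun ha 1
      simp [he] at this
    have no3 : ¬ ∃ a : ZMod p, (![1, -1] : Fin 2 → ZMod p) = a • e := by
      rintro ⟨a, ha⟩
      have := congrFun ha 1
      simp [he] at this
    obtain ⟨a, ha⟩ := t1.resolve_left no1
    obtain ⟨b, hb⟩ := t2.resolve_left no2
    have ha0 := congrFun ha 0
    have ha1 := congrFun ha 1
    have hb0 := congrFun hb 0
    have hb1 := congrFun hb 1
    simp at ha0 ha1 hb0 hb1
    rcases ha0 with h | h
    · rw [h, zero_mul] at ha1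
      exact absurd ha1 one_ne_zero
    · rw [h, mul_zero] at hb0
      exact absurd hb0 one_ne_zero

end Fermat.Agent.RT
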