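import Fermat.Agent.RT.IharaPair

set_option autoImplicit false

/-!
# Intersection numbers

For an integral matrix `m = (u | v)` of nonzero determinant we consider the geodesic from the cusp
`u` to the cusp `v`; for a subgroup `G` of `SL(2,ℤ)` the intersection numbers of a path from `i` to
`γ i` with the `G`-translates of this geodesic define a homomorphism `J G m : G → ℤ`. Everything is
expressed through signs of scalar products.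
-/

open Matrix CongruenceSubgroup
open scoped MatrixGroups

namespace Fermat.Agent.RT.Ihara

/-- scalar product of the columns -/
def ip (M : Mat) : ℤ := M 0 0 * M 0 1 + M 1 0 * M 1 1

/-- on which side of the geodesic attached to `m` is the point `P⁻¹ i`? -/
def sj (m P : Mat) : ℤ := m.det.sign * (ip (P * m)).sign

theorem ip_smul (n : ℤ) (M : Mat) : ip (n • M) = n ^ 2 * ip M := by
  simp only [ip, Matrix.smul_apply, smul_eq_mul]; ring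

theorem sj_smul {n : ℤ} (hn : n ≠ 0) (m P : Mat) : sj m (n • P) = sj m P := by
  have h1 : (n ^ 2).sign = 1 := Int.sign_eq_one_of_pos (by positivity)
  rw [sj, sj, Matrix.smul_mul, ip_smul, Int.sign_mul, h1, one_mul]

theorem sj_mul {D : Mat} (hD : 0 < D.det) (m P : Mat) : sj (D * m) P = sj m (P * D) := by
  rw [sj, sj, Matrix.det_mul, Int.sign_mul, Int.sign_eq_one_of_pos hD, one_mul, mul_assoc]

theorem sj_of_det {m : Mat} (hm : m.det = 0) (P : Mat) : sj m P = 0 := by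
  rw [sj, hm, Int.sign_zero, zero_mul]

theorem sj_smul_left {n : ℤ} (hn : n ≠ 0) (m P : Mat) : sj (n • m) P = sj m P := by
  have h1 : (n ^ 2).sign = 1 := Int.sign_eq_one_of_pos (by positivity)
  rw [sj, sj, Matrix.mul_smul, ip_smul, smul_det, Int.sign_mul, Int.sign_mul, h1, one_mul,
    one_mul]

/-- the fundamental bound -/
theorem form_bound {a b c a' b' c' K p r x0 x1 y0 y1 : ℤ} (hK : 0 ≤ K) (hp : 0 ≤ p) (hr : 0 ≤ r)
    (hpr : 0 < p + r) (ha : a ≤ K) (hc : c ≤ K) (ha' : a' ≤ K) (hc' : c' ≤ K) (hc0 : 0 ≤ c)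
    (hc0' : 0 ≤ c')
    (hx : x0 ^ 2 + x1 ^ 2 ≤ K * (a * x0 ^ 2 + 2 * b * x0 * x1 + c * x1 ^ 2))
    (hy : y0 ^ 2 + y1 ^ 2 ≤ K * (a * y0 ^ 2 + 2 * b * y0 * y1 + c * y1 ^ 2))
    (hx' : x0 ^ 2 + x1 ^ 2 ≤ K * (a' * x0 ^ 2 + 2 * b' * x0 * x1 + c' * x1 ^ 2))
    (hy' : y0 ^ 2 + y1 ^ 2 ≤ K * (a' * y0 ^ 2 + 2 * b' * y0 * y1 + c' * y1 ^ 2))
    (h0 : p * (a * x0 * y0 + b * (x0 * y1 + x1 * y0) + c * x1 * y1) +
      r * (a' * x0 * y0 + b' * (x0 * y1 + x1 * y0) + c' * x1 * y1) = 0) :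
    (x0 ^ 2 + x1 ^ 2) * (y0 ^ 2 + y1 ^ 2) ≤ K ^ 4 * (x0 * y1 - x1 * y0) ^ 2 := by
  set A := p * a + r * a' with hA
  set B := p * b + r * b' with hB
  set C := p * c + r * c' with hC
  set Sx := A * x0 ^ 2 + 2 * B * x0 * x1 + C * x1 ^ 2 with hSx
  set Sy := A * y0 ^ 2 + 2 * B * y0 * y1 + C * y1 ^ 2 with hSy
  have hSxy : A * x0 * y0 + B * (x0 * y1 + x1 * y0) + C * x1 * y1 = 0 := by
    rw [hA, hB, hC]; linear_combination h0
  have hlag : Sx * Sy = (A * C - B ^ 2) * (x0 * y1 - x1 * y0) ^ 2 := by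
    rw [hSx, hSy]
    linear_combination (A * x0 * y0 + B * (x0 * y1 + x1 * y0) + C * x1 * y1) * hSxy
  have e1 : (p + r) * (x0 ^ 2 + x1 ^ 2) ≤ K * Sx := by
    have h1 := mul_le_mul_of_nonneg_left hx hp
    have h2 := mul_le_mul_of_nonneg_left hx' hr
    have : K * Sx = p * (K * (a * x0 ^ 2 + 2 * b * x0 * x1 + c * x1 ^ 2)) +
        r * (K * (a' * x0 ^ 2 + 2 * b' * x0 * x1 + c' * x1 ^ 2)) := by
      rw [hSx, hA, hB, hC]; ring
    rw [this]; linarith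
  have e2 : (p + r) * (y0 ^ 2 + y1 ^ 2) ≤ K * Sy := by
    have h1 := mul_le_mul_of_nonneg_left hy hp
    have h2 := mul_le_mul_of_nonneg_left hy' hr
    have : K * Sy = p * (K * (a * y0 ^ 2 + 2 * b * y0 * y1 + c * y1 ^ 2)) +
        r * (K * (a' * y0 ^ 2 + 2 * b' * y0 * y1 + c' * y1 ^ 2)) := by
      rw [hSy, hA, hB, hC]; ring
    rw [this]; linarith
  have e3 : A ≤ (p + r) * K := by
    rw [hA]; nlinarith [mul_le_mul_of_nonneg_left ha hp, mul_le_mul_of_nonneg_left ha' hr]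
  have e4 : C ≤ (p + r) * K := by
    rw [hC]; nlinarith [mul_le_mul_of_nonneg_left hc hp, mul_le_mul_of_nonneg_left hc' hr]
  have e5 : 0 ≤ C := by rw [hC]; positivity
  have e6 : A * C - B ^ 2 ≤ (p + r) ^ 2 * K ^ 2 := by
    have h1 : A * C ≤ ((p + r) * K) * C := mul_le_mul_of_nonneg_right e3 e5
    have h2 : ((p + r) * K) * C ≤ ((p + r) * K) * ((p + r) * K) :=
      mul_le_mul_of_nonneg_left e4 (by positivity)
    nlinarith [sq_nonneg B]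
  have hnx : 0 ≤ x0 ^ 2 + x1 ^ 2 := by positivity
  have hny : 0 ≤ y0 ^ 2 + y1 ^ 2 := by positivity
  have e7 : ((p + r) * (x0 ^ 2 + x1 ^ 2)) * ((p + r) * (y0 ^ 2 + y1 ^ 2)) ≤
      (K * Sx) * (K * Sy) := mul_le_mul e1 e2 (by positivity) (le_trans (by positivity) e1)
  have e8 : (K * Sx) * (K * Sy) ≤ (p + r) ^ 2 * (K ^ 4 * (x0 * y1 - x1 * y0) ^ 2) := by
    have : (K * Sx) * (K * Sy) = K ^ 2 * (x0 * y1 - x1 * y0) ^ 2 * (A * C - B ^ 2) := by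
      rw [← mul_comm (A * C - B ^ 2)]
      calc (K * Sx) * (K * Sy) = K ^ 2 * (Sx * Sy) := by ring
        _ = _ := by rw [hlag]; ring
    rw [this]
    calc K ^ 2 * (x0 * y1 - x1 * y0) ^ 2 * (A * C - B ^ 2)
        ≤ K ^ 2 * (x0 * y1 - x1 * y0) ^ 2 * ((p + r) ^ 2 * K ^ 2) :=
          mul_le_mul_of_nonneg_left e6 (by positivity)
      _ = _ := by ring
  have e9 : (p + r) ^ 2 * ((x0 ^ 2 + x1 ^ 2) * (y0 ^ 2 + y1 ^ 2)) ≤
      (p + r) ^ 2 * (K ^ 4 * (x0 * y1 - x1 * y0) ^ 2) := by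
    calc (p + r) ^ 2 * ((x0 ^ 2 + x1 ^ 2) * (y0 ^ 2 + y1 ^ 2)) =
        ((p + r) * (x0 ^ 2 + x1 ^ 2)) * ((p + r) * (y0 ^ 2 + y1 ^ 2)) := by ring
      _ ≤ _ := e7.trans e8
  exact le_of_mul_le_mul_left e9 (by positivity)

/-- squared norm of a matrix -/
def nrm (P : Mat) : ℤ := P 0 0 ^ 2 + P 0 1 ^ 2 + P 1 0 ^ 2 + P 1 1 ^ 2

theorem nrm_bound {P : Mat} (hP : P.det ≠ 0) (x0 x1 : ℤ) : x0 ^ 2 + x1 ^ 2 ≤
    nrm P * ((P 0 0 ^ 2 + P 1 0 ^ 2) * x0 ^ 2 + 2 * (P 0 0 * P 0 1 + P 1 0 * P 1 1) * x0 * x1 +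
      (P 0 1 ^ 2 + P 1 1 ^ 2) * x1 ^ 2) := by
  set z0 := P 0 0 * x0 + P 0 1 * x1 with hz0
  set z1 := P 1 0 * x0 + P 1 1 * x1 with hz1
  have h1 : (P 0 0 ^ 2 + P 1 0 ^ 2) * x0 ^ 2 + 2 * (P 0 0 * P 0 1 + P 1 0 * P 1 1) * x0 * x1 +
      (P 0 1 ^ 2 + P 1 1 ^ 2) * x1 ^ 2 = z0 ^ 2 + z1 ^ 2 := by rw [hz0, hz1]; ring
  rw [h1]
  have hd : 1 ≤ P.det ^ 2 := by
    have : 0 < P.det ^ 2 := by positivity
    omega
  have e0 : P.det * x0 = P 1 1 * z0 - P 0 1 * z1 := by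
    rw [Matrix.det_fin_two, hz0, hz1]; ring
  have e1 : P.det * x1 = P 0 0 * z1 - P 1 0 * z0 := by
    rw [Matrix.det_fin_two, hz0, hz1]; ring
  have e2 : P.det ^ 2 * (x0 ^ 2 + x1 ^ 2) ≤ nrm P * (z0 ^ 2 + z1 ^ 2) := by
    have : P.det ^ 2 * (x0 ^ 2 + x1 ^ 2) = (P 1 1 * z0 - P 0 1 * z1) ^ 2 +
        (P 0 0 * z1 - P 1 0 * z0) ^ 2 := by rw [← e0, ← e1]; ring
    rw [this, nrm]
    nlinarith [sq_nonneg (P 1 1 * z1 + P 0 1 * z0), sq_nonneg (P 0 0 * z0 + P 1 0 * z1)]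
  nlinarith [sq_nonneg x0, sq_nonneg x1]

/-- integer matrices with bounded entries -/
theorem finite_bounded (B : ℤ) : {M : Mat | ∀ i j, |M i j| ≤ B}.Finite := by
  have h1 : {M : Mat | ∀ i j, |M i j| ≤ B} = Set.pi Set.univ (fun _ : Fin 2 =>
      Set.pi Set.univ (fun _ : Fin 2 => Set.Icc (-B) B)) := by
    ext M
    simp only [Set.mem_setOf_eq, abs_le]
    exact ⟨fun h i _ j _ => h i j, fun h i j => h i trivial j trivial⟩
  rw [h1]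
  exact Set.Finite.pi fun _ => Set.Finite.pi fun _ => Set.finite_Icc _ _

theorem finite_sl_bounded {m : Mat} (hm : m.det ≠ 0) (B : ℤ) :
    {h : SL(2, ℤ) | ∀ i j, |((h : Mat) * m) i j| ≤ B}.Finite := by
  refine Set.Finite.of_finite_image (f := fun h : SL(2, ℤ) => (h : Mat) * m)
    ((finite_bounded B).subset ?_) ?_
  · rintro _ ⟨h, hh, rfl⟩
    exact hh
  · intro h _ h' _ e
    exact Subtype.ext (mat_cancel_right hm e)

theorem sq_pos_col {m : Mat} (hm : m.det ≠ 0) : 1 ≤ m 0 0 ^ 2 + m 1 0 ^ 2 ∧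
    1 ≤ m 0 1 ^ 2 + m 1 1 ^ 2 := by
  rw [Matrix.det_fin_two] at hm
  constructor
  · by_contra hcon
    have h1 : m 0 0 = 0 := by nlinarith [sq_nonneg (m 0 0), sq_nonneg (m 1 0)]
    have h2 : m 1 0 = 0 := by nlinarith [sq_nonneg (m 0 0), sq_nonneg (m 1 0)]
    rw [h1, h2] at hm
    simp at hm
  · by_contra hcon
    have h1 : m 0 1 = 0 := by nlinarith [sq_nonneg (m 0 1), sq_nonneg (m 1 1)]
    have h2 : m 1 1 = 0 := by nlinarith [sq_nonneg (m 0 1), sq_nonneg (m 1 1)]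
    rw [h1, h2] at hm
    simp at hm

theorem abs_le_of_sq {x B : ℤ} (h : x ^ 2 ≤ B) : |x| ≤ B := by
  rw [abs_le]
  constructor <;> nlinarith [sq_nonneg x, sq_nonneg (x + 1), sq_nonneg (x - 1)]

/-- **Finiteness.** -/
theorem finite_sj {m P Q : Mat} (hP : P.det ≠ 0) (hQ : Q.det ≠ 0) :
    {h : SL(2, ℤ) | sj m (P * h) ≠ sj m (Q * h)}.Finite := by
  by_cases hm : m.det = 0
  · convert Set.finite_empty
    ext h
    simp [sj_of_det hm]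
  set K := nrm P + nrm Q with hK
  have hP0 : 0 ≤ nrm P := by rw [nrm]; positivity
  have hQ0 : 0 ≤ nrm Q := by rw [nrm]; positivity
  refine (finite_sl_bounded hm (K ^ 4 * m.det ^ 2)).subset ?_
  intro h hh
  rw [Set.mem_setOf_eq] at hh
  set M : Mat := (h : Mat) * m with hM
  have hMd : M.det = m.det := by rw [hM, Matrix.det_mul, h.det_coe, one_mul]
  have hMd0 : M.det ≠ 0 := by rw [hMd]; exact hm
  set α := ip (P * M) with hα
  set β := ip (Q * M) with hβ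
  have hsign : α.sign ≠ β.sign := by
    intro e
    apply hh
    rw [sj, sj, mul_assoc, mul_assoc, ← hM, ← hα, ← hβ, e]
  have eα : α = (P 0 0 ^ 2 + P 1 0 ^ 2) * M 0 0 * M 0 1 + (P 0 0 * P 0 1 + P 1 0 * P 1 1) *
      (M 0 0 * M 1 1 + M 1 0 * M 0 1) + (P 0 1 ^ 2 + P 1 1 ^ 2) * M 1 0 * M 1 1 := by
    rw [hα, ip]; simp only [Matrix.mul_apply, Fin.sum_univ_two]; ring
  have eβ : β = (Q 0 0 ^ 2 + Q 1 0 ^ 2) * M 0 0 * M 0 1 + (Q 0 0 * Q 0 1 + Q 1 0 * Q 1 1) *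
      (M 0 0 * M 1 1 + M 1 0 * M 0 1) + (Q 0 1 ^ 2 + Q 1 1 ^ 2) * M 1 0 * M 1 1 := by
    rw [hβ, ip]; simp only [Matrix.mul_apply, Fin.sum_univ_two]; ring
  have hzero : |β| * α + |α| * β = 0 := by
    rcases lt_trichotomy α 0 with h1 | h1 | h1 <;> rcases lt_trichotomy β 0 with h2 | h2 | h2
    · rw [Int.sign_eq_neg_one_of_neg h1, Int.sign_eq_neg_one_of_neg h2] at hsign
      exact absurd rfl hsign
    · rw [h2]; simp
    · rw [abs_of_neg h1, abs_of_pos h2]; ring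
    · rw [h1]; simp
    · rw [h1, h2] at hsign; exact absurd rfl hsign
    · rw [h1]; simp
    · rw [abs_of_pos h1, abs_of_neg h2]; ring
    · rw [h2]; simp
    · rw [Int.sign_eq_one_of_pos h1, Int.sign_eq_one_of_pos h2] at hsign
      exact absurd rfl hsign
  have hpr : 0 < |β| + |α| := by
    by_contra hcon
    have h1 : |β| = 0 := by have := abs_nonneg β; have := abs_nonneg α; omega
    have h2 : |α| = 0 := by have := abs_nonneg β; have := abs_nonneg α; omega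
    rw [abs_eq_zero] at h1 h2
    rw [h1, h2] at hsign
    exact hsign rfl
  have hKP : ∀ x0 x1 : ℤ, x0 ^ 2 + x1 ^ 2 ≤ K * ((P 0 0 ^ 2 + P 1 0 ^ 2) * x0 ^ 2 +
      2 * (P 0 0 * P 0 1 + P 1 0 * P 1 1) * x0 * x1 + (P 0 1 ^ 2 + P 1 1 ^ 2) * x1 ^ 2) := by
    intro x0 x1
    refine (nrm_bound hP x0 x1).trans (mul_le_mul_of_nonneg_right (by rw [hK]; linarith) ?_)
    have : (P 0 0 ^ 2 + P 1 0 ^ 2) * x0 ^ 2 + 2 * (P 0 0 * P 0 1 + P 1 0 * P 1 1) * x0 * x1 +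
      (P 0 1 ^ 2 + P 1 1 ^ 2) * x1 ^ 2 = (P 0 0 * x0 + P 0 1 * x1) ^ 2 +
        (P 1 0 * x0 + P 1 1 * x1) ^ 2 := by ring
    rw [this]; positivity
  have hKQ : ∀ x0 x1 : ℤ, x0 ^ 2 + x1 ^ 2 ≤ K * ((Q 0 0 ^ 2 + Q 1 0 ^ 2) * x0 ^ 2 +
      2 * (Q 0 0 * Q 0 1 + Q 1 0 * Q 1 1) * x0 * x1 + (Q 0 1 ^ 2 + Q 1 1 ^ 2) * x1 ^ 2) := by
    intro x0 x1
    refine (nrm_bound hQ x0 x1).trans (mul_le_mul_of_nonneg_right (by rw [hK]; linarith) ?_)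
    have : (Q 0 0 ^ 2 + Q 1 0 ^ 2) * x0 ^ 2 + 2 * (Q 0 0 * Q 0 1 + Q 1 0 * Q 1 1) * x0 * x1 +
      (Q 0 1 ^ 2 + Q 1 1 ^ 2) * x1 ^ 2 = (Q 0 0 * x0 + Q 0 1 * x1) ^ 2 +
        (Q 1 0 * x0 + Q 1 1 * x1) ^ 2 := by ring
    rw [this]; positivity
  have hbound := form_bound (K := K) (by rw [hK]; positivity) (abs_nonneg β) (abs_nonneg α) hpr
    (a := P 0 0 ^ 2 + P 1 0 ^ 2) (b := P 0 0 * P 0 1 + P 1 0 * P 1 1)
    (c := P 0 1 ^ 2 + P 1 1 ^ 2) (a' := Q 0 0 ^ 2 + Q 1 0 ^ 2)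
    (b' := Q 0 0 * Q 0 1 + Q 1 0 * Q 1 1) (c' := Q 0 1 ^ 2 + Q 1 1 ^ 2)
    (x0 := M 0 0) (x1 := M 1 0) (y0 := M 0 1) (y1 := M 1 1)
    (by rw [hK, nrm, nrm]; nlinarith [sq_nonneg (P 0 1), sq_nonneg (P 1 1), sq_nonneg (Q 0 0),
      sq_nonneg (Q 0 1), sq_nonneg (Q 1 0), sq_nonneg (Q 1 1)])
    (by rw [hK, nrm, nrm]; nlinarith [sq_nonneg (P 0 0), sq_nonneg (P 1 0), sq_nonneg (Q 0 0),
      sq_nonneg (Q 0 1), sq_nonneg (Q 1 0), sq_nonneg (Q 1 1)])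
    (by rw [hK, nrm, nrm]; nlinarith [sq_nonneg (Q 0 1), sq_nonneg (Q 1 1), sq_nonneg (P 0 0),
      sq_nonneg (P 0 1), sq_nonneg (P 1 0), sq_nonneg (P 1 1)])
    (by rw [hK, nrm, nrm]; nlinarith [sq_nonneg (Q 0 0), sq_nonneg (Q 1 0), sq_nonneg (P 0 0),
      sq_nonneg (P 0 1), sq_nonneg (P 1 0), sq_nonneg (P 1 1)])
    (by positivity) (by positivity) (hKP _ _) (hKP _ _) (hKQ _ _) (hKQ _ _)
    (by rw [← eα, ← eβ]; exact hzero)
  have hdet : (M 0 0 * M 1 1 - M 1 0 * M 0 1) ^ 2 = m.det ^ 2 := by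
    rw [← hMd, Matrix.det_fin_two]; ring
  rw [hdet] at hbound
  obtain ⟨hc0, hc1⟩ := sq_pos_col hMd0
  rw [Set.mem_setOf_eq]
  intro i j
  apply abs_le_of_sq
  fin_cases i <;> fin_cases j <;> simp only [Fin.zero_eta, Fin.mk_one, Fin.isValue] <;>
    nlinarith [sq_nonneg (M 0 0), sq_nonneg (M 0 1), sq_nonneg (M 1 0), sq_nonneg (M 1 1)]

end Fermat.Agent.RT.Ihara
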