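import Fermat.Agent.RT.Inter

set_option autoImplicit false

/-!
# The homomorphisms `J G m`
-/

open Matrix CongruenceSubgroup
open scoped MatrixGroups

namespace Fermat.Agent.RT.Ihara

variable {G G₁ G₂ : Subgroup SL(2, ℤ)}

/-- the canonical primitive of `Jm G m` -/
noncomputable def Sfun (G : Subgroup SL(2, ℤ)) (m g : Mat) : ℤ :=
  ∑ᶠ h : G, (sj m (adjugate g * ((h : SL(2, ℤ)) : Mat)) - sj m ((h : SL(2, ℤ)) : Mat))

/-- the intersection homomorphism -/
noncomputable def Jm (G : Subgroup SL(2, ℤ)) (m : Mat) (g : SL(2, ℤ)) : ℤ := Sfun G m g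

theorem adj_det_ne {g : Mat} (hg : g.det ≠ 0) : (adjugate g).det ≠ 0 := by
  rw [Matrix.det_adjugate]; simpa using hg

theorem finite_supp {g g' : Mat} (hg : g.det ≠ 0) (hg' : g'.det ≠ 0) (m : Mat) :
    (Function.support fun h : G => sj m (g * ((h : SL(2, ℤ)) : Mat)) -
      sj m (g' * ((h : SL(2, ℤ)) : Mat))).Finite := by
  refine Set.Finite.subset (s := (fun h : G => (h : SL(2, ℤ))) ⁻¹'
    {h : SL(2, ℤ) | sj m (g * h) ≠ sj m (g' * h)}) ?_ ?_
  · exact (finite_sj hg hg').preimage (Subtype.val_injective.injOn)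
  · intro h hh
    rw [Function.mem_support] at hh
    rw [Set.mem_preimage, Set.mem_setOf_eq]
    intro e
    exact hh (by rw [e, sub_self])

theorem finite_supp_one {g : Mat} (hg : g.det ≠ 0) (m : Mat) :
    (Function.support fun h : G => sj m (g * ((h : SL(2, ℤ)) : Mat)) -
      sj m ((h : SL(2, ℤ)) : Mat)).Finite := by
  have := finite_supp (G := G) hg (g' := 1) (by simp) m
  simpa only [one_mul] using this

theorem adj_coe (g : SL(2, ℤ)) : adjugate (g : Mat) = ((g⁻¹ : SL(2, ℤ)) : Mat) := rfl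

theorem adj_coe_mul (g h : SL(2, ℤ)) : adjugate (g : Mat) * (h : Mat) =
    ((g⁻¹ * h : SL(2, ℤ)) : Mat) := by rw [adj_coe, sl_coe_mul]

theorem isPrim_J (G : Subgroup SL(2, ℤ)) (m : Mat) : IsPrim G (Jm G m) (Sfun G m) where
  mul := by
    intro γ hγ M hM
    have h1 : ∀ h : G, sj m (adjugate ((γ : Mat) * M) * ((h : SL(2, ℤ)) : Mat)) -
        sj m ((h : SL(2, ℤ)) : Mat) =
        (sj m (adjugate (γ : Mat) * ((h : SL(2, ℤ)) : Mat)) - sj m ((h : SL(2, ℤ)) : Mat)) +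
        (sj m (adjugate M * (((⟨γ⁻¹, inv_mem hγ⟩ * h : G) : SL(2, ℤ)) : Mat)) -
          sj m ((((⟨γ⁻¹, inv_mem hγ⟩ * h : G) : SL(2, ℤ))) : Mat)) := by
      intro h
      have e1 : (((⟨γ⁻¹, inv_mem hγ⟩ * h : G) : SL(2, ℤ)) : Mat) =
          adjugate (γ : Mat) * ((h : SL(2, ℤ)) : Mat) := by
        rw [adj_coe_mul]; rfl
      rw [e1, Matrix.adjugate_mul_distrib, mul_assoc]
      ring
    rw [Sfun, finsum_congr h1, finsum_add_distrib]
    · congr 1
      exact finsum_comp_equiv (Equiv.mulLeft (⟨γ⁻¹, inv_mem hγ⟩ : G))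
        (f := fun h : G => sj m (adjugate M * ((h : SL(2, ℤ)) : Mat)) -
          sj m ((h : SL(2, ℤ)) : Mat))
    · exact finite_supp_one (adj_det_ne (by rw [γ.det_coe]; norm_num)) m
    · refine Set.Finite.preimage (f := fun h : G => (⟨γ⁻¹, inv_mem hγ⟩ : G) * h)
        (s := Function.support fun h : G => sj m (adjugate M * ((h : SL(2, ℤ)) : Mat)) -
          sj m ((h : SL(2, ℤ)) : Mat)) (mul_right_injective _).injOn ?_
      exact finite_supp_one (adj_det_ne hM) m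
  scal := by
    intro n hn M hM
    rw [Sfun, Sfun]
    refine finsum_congr fun h => ?_
    rw [Matrix.adjugate_smul, Fintype.card_fin, show 2 - 1 = 1 from rfl, pow_one,
      Matrix.smul_mul, sj_smul hn.ne']

theorem addOn_J (G : Subgroup SL(2, ℤ)) (m : Mat) : AddOn G (Jm G m) := (isPrim_J G m).addOn

/-- **Correspondences on intersection homomorphisms.** -/
theorem opc_J {ι κ : Type*} [Fintype ι] [Fintype κ] {D : ι → Mat} {D' : κ → Mat}
    (H : Corr G₁ G₂ D) (hD' : ∀ j, 0 < (D' j).det)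
    (act1 : ∀ i, ∀ h ∈ G₁, ∃ j, ∃ h' ∈ G₂, adjugate (D i) * (h : Mat) = (h' : Mat) * D' j)
    (act2 : ∀ j, ∀ h' ∈ G₂, ∃ i, ∃ h ∈ G₁, (h' : Mat) * D' j = adjugate (D i) * (h : Mat))
    (inj' : ∀ i j, ∀ h ∈ G₂, D' i = (h : Mat) * D' j → i = j) (m : Mat) {g : SL(2, ℤ)}
    (hg : g ∈ G₂) : opc G₁ D (Jm G₁ m) g = ∑ j, Jm G₂ (D' j * m) g := by
  set F : Mat → ℤ := fun M => sj m (adjugate (g : Mat) * M) - sj m M with hF
  have hgd : (g : Mat).det ≠ 0 := by rw [g.det_coe]; norm_num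
  have hfin1 : ∀ i, (Function.support fun h : G₁ =>
      F (adjugate (D i) * ((h : SL(2, ℤ)) : Mat))).Finite := by
    intro i
    have := finite_supp (G := G₁) (g := adjugate (g : Mat) * adjugate (D i))
      (g' := adjugate (D i)) ?_ (adj_det_ne (H.det i)) m
    · simpa only [hF, mul_assoc] using this
    · rw [Matrix.det_mul]; exact mul_ne_zero (adj_det_ne hgd) (adj_det_ne (H.det i))
  have hL : opc G₁ D (Jm G₁ m) g = ∑ i, ∑ᶠ h : G₁, F (adjugate (D i) * ((h : SL(2, ℤ)) : Mat)) := by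
    rw [H.opc_eq_prim (isPrim_J G₁ m) hg]
    refine Finset.sum_congr rfl fun i _ => ?_
    have hd1 : (D i * (g : Mat)).det ≠ 0 := by
      rw [Matrix.det_mul]; exact mul_ne_zero (H.det i) hgd
    rw [Sfun, Sfun, ← finsum_sub_distrib (finite_supp_one (adj_det_ne hd1) m)
      (finite_supp_one (adj_det_ne (H.det i)) m)]
    refine finsum_congr fun h => ?_
    rw [hF, Matrix.adjugate_mul_distrib]
    simp only [mul_assoc]
    ring
  have hR : ∑ j, Jm G₂ (D' j * m) g = ∑ j, ∑ᶠ h : G₂, F (((h : SL(2, ℤ)) : Mat) * D' j) := by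
    refine Finset.sum_congr rfl fun j _ => ?_
    rw [Jm, Sfun]
    refine finsum_congr fun h => ?_
    rw [hF, sj_mul (hD' j), sj_mul (hD' j)]
    simp only [mul_assoc]
  rw [hL, hR]
  -- the bijection
  choose e1 e2 he2 he using fun p : ι × G₁ => act1 p.1 p.2 p.2.2
  set f : ι × G₁ → κ × G₂ := fun p => (e1 p, ⟨e2 p, he2 p⟩) with hf
  have hfspec : ∀ p, adjugate (D p.1) * ((p.2 : SL(2, ℤ)) : Mat) =
      (((f p).2 : SL(2, ℤ)) : Mat) * D' (f p).1 := he
  have hinj : Function.Injective f := by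
    rintro ⟨i, h⟩ ⟨i', h'⟩ e
    have a1 := hfspec (i, h)
    have a2 := hfspec (i', h')
    rw [e, ← a2] at a1
    simp only at a1
    have a3 := congrArg adjugate a1
    rw [Matrix.adjugate_mul_distrib, Matrix.adjugate_mul_distrib, adj_coe, adj_coe,
      Matrix.adjugate_adjugate (D i) (by simp), Matrix.adjugate_adjugate (D i') (by simp)] at a3
    simp only [Fintype.card_fin, tsub_self, pow_zero, one_smul] at a3
    have a4 : D i = (((h : SL(2, ℤ)) * (h' : SL(2, ℤ))⁻¹ : SL(2, ℤ)) : Mat) * D i' := by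
      rw [sl_coe_mul, mul_assoc, ← a3, ← mul_assoc, ← sl_coe_mul, mul_inv_cancel]
      exact (one_mul _).symm
    have a5 := H.inj i i' _ (mul_mem h.2 (inv_mem h'.2)) a4
    subst a5
    have a6 := mat_cancel_left (adj_det_ne (H.det i)) a1
    rw [Prod.mk.injEq]
    exact ⟨rfl, Subtype.ext (Subtype.ext a6)⟩
  have hsurj : Function.Surjective f := by
    rintro ⟨j, h'⟩
    obtain ⟨i, h, hh, e⟩ := act2 j h' h'.2
    refine ⟨(i, ⟨h, hh⟩), ?_⟩
    have a1 := hfspec (i, ⟨h, hh⟩)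
    simp only at a1
    rw [← e] at a1
    have hd : (D' (f (i, ⟨h, hh⟩)).1).det ≠ 0 := (hD' _).ne'
    set y := f (i, ⟨h, hh⟩) with hy
    have a2 : D' j = (((h' : SL(2, ℤ))⁻¹ * (y.2 : SL(2, ℤ)) : SL(2, ℤ)) : Mat) * D' y.1 := by
      rw [sl_coe_mul, mul_assoc, ← a1, ← mul_assoc, ← sl_coe_mul, inv_mul_cancel]
      exact (one_mul _).symm
    have a3 := inj' j y.1 _ (mul_mem (inv_mem h'.2) y.2.2) a2
    rw [a3] at a1
    have a4 := mat_cancel_right hd a1
    refine Prod.ext a3.symm (Subtype.ext (Subtype.ext a4.symm))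
  have hfin : (Function.support fun p : ι × G₁ =>
      F (adjugate (D p.1) * ((p.2 : SL(2, ℤ)) : Mat))).Finite := by
    have : (Function.support fun p : ι × G₁ =>
        F (adjugate (D p.1) * ((p.2 : SL(2, ℤ)) : Mat))) ⊆
        ⋃ i : ι, (fun h : G₁ => (i, h)) '' (Function.support fun h : G₁ =>
          F (adjugate (D i) * ((h : SL(2, ℤ)) : Mat))) := by
      rintro ⟨i, h⟩ hp
      rw [Set.mem_iUnion]
      exact ⟨i, h, hp, rfl⟩
    exact (Set.finite_iUnion fun i => (hfin1 i).image _).subset this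
  have hfin' : (Function.support fun p : κ × G₂ =>
      F (((p.2 : SL(2, ℤ)) : Mat) * D' p.1)).Finite := by
    refine (hfin.image f).subset ?_
    intro p hp
    obtain ⟨x, rfl⟩ := hsurj p
    refine ⟨x, ?_, rfl⟩
    rw [Function.mem_support] at hp ⊢
    rw [hfspec]
    exact hp
  have k1 := finsum_curry _ hfin
  have k2 := finsum_curry _ hfin'
  rw [← finsum_eq_sum_of_fintype (fun i => ∑ᶠ h : G₁, F (adjugate (D i) * ((h : SL(2, ℤ)) : Mat))),
    ← finsum_eq_sum_of_fintype (fun j => ∑ᶠ h : G₂, F (((h : SL(2, ℤ)) : Mat) * D' j))]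
  refine k1.symm.trans (Eq.trans ?_ k2)
  exact finsum_eq_of_bijective f ⟨hinj, hsurj⟩ fun p => by rw [hfspec]

/-- twisting by normalizing elements -/
theorem J_conj {σ : SL(2, ℤ)} (hσ : ∀ g, g ∈ G ↔ σ * g * σ⁻¹ ∈ G) (m : Mat) {g : SL(2, ℤ)}
    (hg : g ∈ G) : Jm G ((σ : Mat) * m) g = Jm G m (σ⁻¹ * g * σ) := by
  have hdet : 0 < (σ : Mat).det := by rw [σ.det_coe]; norm_num
  have hmem : σ⁻¹ * g * σ ∈ G := by
    rw [hσ]
    have : σ * (σ⁻¹ * g * σ) * σ⁻¹ = g := by group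
    rwa [this]
  -- the bijection `h ↦ σ h σ⁻¹`
  set e : G → G := fun h => ⟨σ * h * σ⁻¹, (hσ h).mp h.2⟩ with he
  have hbij : Function.Bijective e := by
    constructor
    · intro a b hab
      have := congrArg (fun x : G => σ⁻¹ * (x : SL(2, ℤ)) * σ) hab
      simp only [he] at this
      apply Subtype.ext
      have h1 : ∀ x : SL(2, ℤ), σ⁻¹ * (σ * x * σ⁻¹) * σ = x := fun x => by group
      rwa [h1, h1] at this
    · intro a
      have h1 : σ * (σ⁻¹ * (a : SL(2, ℤ)) * σ) * σ⁻¹ = a := by group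
      refine ⟨⟨σ⁻¹ * a * σ, (hσ _).mpr ?_⟩, Subtype.ext h1⟩
      rw [h1]; exact a.2
  have h1 : Jm G ((σ : Mat) * m) g = ∑ᶠ h : G,
      (sj m (((σ * (σ⁻¹ * g * σ)⁻¹ * h : SL(2, ℤ))) : Mat) - sj m ((σ * h : SL(2, ℤ)) : Mat)) := by
    rw [Jm, Sfun]
    symm
    refine finsum_eq_of_bijective e hbij fun h => ?_
    rw [sj_mul hdet, sj_mul hdet]
    congr 2
    · simp only [he]
      rw [adj_coe, ← sl_coe_mul, ← sl_coe_mul]
      congr 1
      group
    · simp only [he]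
      rw [← sl_coe_mul]
      congr 1
      group
  have hval := (isPrim_J G m).mul (σ⁻¹ * g * σ) hmem ((σ⁻¹ : SL(2, ℤ)) : Mat)
    (by rw [(σ⁻¹).det_coe]; norm_num)
  have h2 : Sfun G m (((σ⁻¹ * g * σ : SL(2, ℤ)) : Mat) * ((σ⁻¹ : SL(2, ℤ)) : Mat)) -
      Sfun G m ((σ⁻¹ : SL(2, ℤ)) : Mat) = ∑ᶠ h : G,
      (sj m (((σ * (σ⁻¹ * g * σ)⁻¹ * h : SL(2, ℤ))) : Mat) - sj m ((σ * h : SL(2, ℤ)) : Mat)) := by
    rw [← sl_coe_mul, Sfun, Sfun, ← finsum_sub_distrib]
    · refine finsum_congr fun h => ?_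
      rw [adj_coe_mul, adj_coe_mul]
      have a1 : (σ⁻¹ * g * σ * σ⁻¹)⁻¹ * (h : SL(2, ℤ)) = σ * (σ⁻¹ * g * σ)⁻¹ * h := by group
      have a2 : (σ⁻¹)⁻¹ * (h : SL(2, ℤ)) = σ * h := by group
      rw [a1, a2]
      ring
    · exact finite_supp_one (adj_det_ne (by
        have := (σ⁻¹ * g * σ * σ⁻¹).det_coe
        rw [this]; norm_num)) m
    · exact finite_supp_one (adj_det_ne (by rw [(σ⁻¹).det_coe]; norm_num)) m
  rw [h1, ← h2, hval]
  ring

/-! ### Additivity -/

/-- the matrix with columns `u`, `v` -/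
def cm (u v : ℤ × ℤ) : Mat := !![u.1, v.1; u.2, v.2]

theorem cm_det (u v : ℤ × ℤ) : (cm u v).det = u.1 * v.2 - v.1 * u.2 := by
  rw [cm, Matrix.det_fin_two]; simp

theorem sj_cm_smul {r s : ℤ} (hr : r ≠ 0) (hs : s ≠ 0) (u v : ℤ × ℤ) (P : Mat) :
    sj (cm (r • u) (s • v)) P = sj (cm u v) P := by
  have hrs : r * s ≠ 0 := mul_ne_zero hr hs
  have h1 : (cm (r • u) (s • v)).det = (r * s) * (cm u v).det := by
    rw [cm_det, cm_det]; simp; ring
  have h2 : ip (P * cm (r • u) (s • v)) = (r * s) * ip (P * cm u v) := by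
    simp [ip, cm, Matrix.mul_apply, Fin.sum_univ_two]; ring
  have h3 : (r * s).sign * (r * s).sign = 1 := by
    rw [← Int.sign_mul]; exact Int.sign_eq_one_of_pos (mul_self_pos.mpr hrs)
  rw [sj, sj, h1, h2, Int.sign_mul (r * s), Int.sign_mul (r * s)]
  linear_combination ((cm u v).det.sign * (ip (P * cm u v)).sign) * h3

theorem sj_cm_swap (u v : ℤ × ℤ) (P : Mat) : sj (cm v u) P = -sj (cm u v) P := by
  have h1 : (cm v u).det = -(cm u v).det := by rw [cm_det, cm_det]; ring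
  have h2 : ip (P * cm v u) = ip (P * cm u v) := by
    simp [ip, cm, Matrix.mul_apply, Fin.sum_univ_two]; ring
  rw [sj, sj, h1, h2, Int.sign_neg]
  ring

theorem J_cm_smul {r s : ℤ} (hr : r ≠ 0) (hs : s ≠ 0) (u v : ℤ × ℤ) :
    Jm G (cm (r • u) (s • v)) = Jm G (cm u v) := by
  ext g
  rw [Jm, Jm, Sfun, Sfun]
  exact finsum_congr fun h => by rw [sj_cm_smul hr hs, sj_cm_smul hr hs]

theorem J_cm_swap (u v : ℤ × ℤ) : Jm G (cm v u) = -Jm G (cm u v) := by
  ext g
  rw [Pi.neg_apply, Jm, Jm, Sfun, Sfun, ← finsum_neg_distrib]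
  exact finsum_congr fun h => by rw [sj_cm_swap u v, sj_cm_swap u v]; ring

theorem J_of_det {m : Mat} (hm : m.det = 0) : Jm G m = 0 := by
  ext g
  rw [Jm, Sfun, Pi.zero_apply]
  rw [finsum_congr fun h => by rw [sj_of_det hm, sj_of_det hm, sub_self]]
  exact finsum_zero

theorem sign_ternary {p r s : ℤ} (h1 : p + r < 0) (h2 : r + s < 0) (h3 : p + s < 0) :
    (p ≤ 0 ∧ r ≤ 0 ∧ s ≤ 0) ∨ p.sign + r.sign + s.sign + 1 = 0 := by
  rcases le_or_gt p 0 with hp | hp
  · rcases le_or_gt r 0 with hr | hr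
    · rcases le_or_gt s 0 with hs | hs
      · exact Or.inl ⟨hp, hr, hs⟩
      · right
        rw [Int.sign_eq_one_of_pos hs, Int.sign_eq_neg_one_of_neg (by linarith : p < 0),
          Int.sign_eq_neg_one_of_neg (by linarith : r < 0)]
        norm_num
    · right
      rw [Int.sign_eq_one_of_pos hr, Int.sign_eq_neg_one_of_neg (by linarith : p < 0),
          Int.sign_eq_neg_one_of_neg (by linarith : s < 0)]
      norm_num
  · right
    rw [Int.sign_eq_one_of_pos hp, Int.sign_eq_neg_one_of_neg (by linarith : r < 0),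
          Int.sign_eq_neg_one_of_neg (by linarith : s < 0)]
    norm_num

/-- the finitely supported defect function of a triangle -/
theorem finite_triangle {u v w : ℤ × ℤ} (h0 : u + v + w = 0) (hD : (cm u v).det ≠ 0) :
    {h : SL(2, ℤ) | sj (cm u v) h + sj (cm v w) h + sj (cm w u) h + (cm u v).det.sign ≠ 0}.Finite := by
  have hw1 : w.1 = -u.1 - v.1 := by
    have := congrArg Prod.fst h0
    simp only [Prod.fst_add, Prod.fst_zero] at this
    linarith
  have hw2 : w.2 = -u.2 - v.2 := by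
    have := congrArg Prod.snd h0
    simp only [Prod.snd_add, Prod.snd_zero] at this
    linarith
  have hd2 : (cm v w).det = (cm u v).det := by rw [cm_det, cm_det, hw1, hw2]; ring
  have hd3 : (cm w u).det = (cm u v).det := by rw [cm_det, cm_det, hw1, hw2]; ring
  refine (finite_sl_bounded hD (2 * (cm u v).det ^ 2)).subset ?_
  intro h hh
  rw [Set.mem_setOf_eq] at hh
  set M : Mat := (h : Mat) * cm u v with hM
  have hMd : M.det = (cm u v).det := by rw [hM, Matrix.det_mul, h.det_coe, one_mul]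
  have hMd0 : M.det ≠ 0 := by rw [hMd]; exact hD
  set p := ip M with hp
  have hr : ip ((h : Mat) * cm v w) = -(p + (M 0 1 ^ 2 + M 1 1 ^ 2)) := by
    rw [hp, hM]
    simp only [ip, cm, Matrix.mul_apply, Fin.sum_univ_two, Matrix.of_apply, Matrix.cons_val',
      Matrix.cons_val_zero, Matrix.cons_val_one, Matrix.cons_val_fin_one, hw1, hw2]
    ring
  have hs : ip ((h : Mat) * cm w u) = -(p + (M 0 0 ^ 2 + M 1 0 ^ 2)) := by
    rw [hp, hM]
    simp only [ip, cm, Matrix.mul_apply, Fin.sum_univ_two, Matrix.of_apply, Matrix.cons_val',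
      Matrix.cons_val_zero, Matrix.cons_val_one, Matrix.cons_val_fin_one, hw1, hw2]
    ring
  set r := ip ((h : Mat) * cm v w) with hrdef
  set s := ip ((h : Mat) * cm w u) with hsdef
  obtain ⟨hc0, hc1⟩ := sq_pos_col hMd0
  have hdet2 : p * r + r * s + s * p = (cm u v).det ^ 2 := by
    rw [hr, hs, ← hMd, Matrix.det_fin_two, hp, ip]
    ring
  have hsum : 1 ≤ -(r + s) := by
    -- `|w|² ≥ 1`
    have hM3 : ((h : Mat) * cm w u).det ≠ 0 := by
      rw [Matrix.det_mul, h.det_coe, one_mul, hd3]; exact hD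
    have := (sq_pos_col hM3).1
    have e : -(r + s) = (((h : Mat) * cm w u) 0 0) ^ 2 + (((h : Mat) * cm w u) 1 0) ^ 2 := by
      rw [hr, hs, hp, hM]
      simp only [ip, cm, Matrix.mul_apply, Fin.sum_univ_two, Matrix.of_apply, Matrix.cons_val',
        Matrix.cons_val_zero, Matrix.cons_val_one, Matrix.cons_val_fin_one, hw1, hw2]
      ring
    rw [e]; exact this
  have hcase := sign_ternary (p := p) (r := r) (s := s) (by linarith) (by linarith) (by linarith)
  have hneg : p ≤ 0 ∧ r ≤ 0 ∧ s ≤ 0 := by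
    refine hcase.resolve_right fun e => hh ?_
    rw [sj, sj, sj, hd2, hd3, ← hM, ← hp, ← hrdef, ← hsdef]
    linear_combination (cm u v).det.sign * e
  obtain ⟨n1, n2, n3⟩ := hneg
  have hP : -p ≤ (cm u v).det ^ 2 := by
    have : (-p) * 1 ≤ (-p) * (-(r + s)) := mul_le_mul_of_nonneg_left hsum (by linarith)
    nlinarith [mul_nonneg (neg_nonneg.mpr n2) (neg_nonneg.mpr n3)]
  have hR : -r ≤ (cm u v).det ^ 2 := by
    have h5 : 1 ≤ -(p + s) := by rw [hs]; linarith
    have : (-r) * 1 ≤ (-r) * (-(p + s)) := mul_le_mul_of_nonneg_left h5 (by linarith)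
    nlinarith [mul_nonneg (neg_nonneg.mpr n1) (neg_nonneg.mpr n3)]
  have hS : -s ≤ (cm u v).det ^ 2 := by
    have h5 : 1 ≤ -(p + r) := by rw [hr]; linarith
    have : (-s) * 1 ≤ (-s) * (-(p + r)) := mul_le_mul_of_nonneg_left h5 (by linarith)
    nlinarith [mul_nonneg (neg_nonneg.mpr n1) (neg_nonneg.mpr n2)]
  have b0 : M 0 0 ^ 2 + M 1 0 ^ 2 ≤ 2 * (cm u v).det ^ 2 := by linarith
  have b1 : M 0 1 ^ 2 + M 1 1 ^ 2 ≤ 2 * (cm u v).det ^ 2 := by linarith
  rw [Set.mem_setOf_eq]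
  intro i j
  apply abs_le_of_sq
  fin_cases i <;> fin_cases j <;> simp only [Fin.zero_eta, Fin.mk_one, Fin.isValue] <;>
    nlinarith [sq_nonneg (M 0 0), sq_nonneg (M 0 1), sq_nonneg (M 1 0), sq_nonneg (M 1 1)]

theorem J_triangle {u v w : ℤ × ℤ} (h0 : u + v + w = 0) (hD : (cm u v).det ≠ 0) {g : SL(2, ℤ)}
    (hg : g ∈ G) : Jm G (cm u v) g + Jm G (cm v w) g + Jm G (cm w u) g = 0 := by
  set R : G → ℤ := fun h => sj (cm u v) ((h : SL(2, ℤ)) : Mat) +
    sj (cm v w) ((h : SL(2, ℤ)) : Mat) + sj (cm w u) ((h : SL(2, ℤ)) : Mat) +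
    (cm u v).det.sign with hR
  have hRfin : (Function.support R).Finite :=
    (finite_triangle h0 hD).preimage (Subtype.val_injective.injOn)
  have hgd : (g : Mat).det ≠ 0 := by rw [g.det_coe]; norm_num
  have hRfin' : (Function.support fun h : G => R ((⟨g⁻¹, inv_mem hg⟩ : G) * h)).Finite :=
    hRfin.preimage (mul_right_injective (⟨g⁻¹, inv_mem hg⟩ : G)).injOn
  have f1 := finite_supp_one (G := G) (adj_det_ne hgd) (cm u v)
  have f2 := finite_supp_one (G := G) (adj_det_ne hgd) (cm v w)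
  have f3 := finite_supp_one (G := G) (adj_det_ne hgd) (cm w u)
  rw [Jm, Jm, Jm, Sfun, Sfun, Sfun, ← finsum_add_distrib f1 f2, ← finsum_add_distrib
    ((f1.union f2).subset (Function.support_add _ _)) f3]
  rw [finsum_congr (g := fun h : G => R ((⟨g⁻¹, inv_mem hg⟩ : G) * h) - R h)]
  · rw [finsum_sub_distrib hRfin' hRfin]
    have := finsum_comp_equiv (Equiv.mulLeft (⟨g⁻¹, inv_mem hg⟩ : G)) (f := R)
    simp only [Equiv.coe_mulLeft] at this
    rw [this, sub_self]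
  · intro h
    rw [hR]
    have e1 : (((⟨g⁻¹, inv_mem hg⟩ * h : G) : SL(2, ℤ)) : Mat) =
        adjugate (g : Mat) * ((h : SL(2, ℤ)) : Mat) := by
      rw [adj_coe_mul]; rfl
    simp only [e1]
    ring

/-- **Additivity in the cusps.** -/
theorem J_cocycle {u v w : ℤ × ℤ} (hu : u ≠ 0) (hv : v ≠ 0) (hw : w ≠ 0) {g : SL(2, ℤ)}
    (hg : g ∈ G) : Jm G (cm u v) g + Jm G (cm v w) g = Jm G (cm u w) g := by
  -- parallel vectors
  have hpar : ∀ {a b : ℤ × ℤ}, a ≠ 0 → b ≠ 0 → (cm a b).det = 0 →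
      ∃ r s : ℤ, r ≠ 0 ∧ s ≠ 0 ∧ r • a = s • b := by
    intro a b ha hb hd
    rw [cm_det] at hd
    by_cases h1 : a.1 = 0
    · have h2 : a.2 ≠ 0 := fun h => ha (Prod.ext h1 h)
      rw [h1, zero_mul, zero_sub, neg_eq_zero] at hd
      have h3 : b.1 = 0 := (mul_eq_zero.mp hd).resolve_right h2
      have h4 : b.2 ≠ 0 := fun h => hb (Prod.ext h3 h)
      refine ⟨b.2, a.2, h4, h2, Prod.ext ?_ ?_⟩
      · simp [h1, h3]
      · simp [mul_comm]
    · have h3 : b.1 ≠ 0 := by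
        intro h3
        rw [h3, zero_mul, sub_zero] at hd
        have h4 := (mul_eq_zero.mp hd).resolve_left h1
        exact hb (Prod.ext h3 h4)
      refine ⟨b.1, a.1, h3, h1, Prod.ext ?_ ?_⟩
      · simp [mul_comm]
      · simp only [Prod.smul_snd, smul_eq_mul]
        linear_combination -hd
  have hswap : ∀ a b : ℤ × ℤ, Jm G (cm b a) g = -Jm G (cm a b) g := fun a b => by
    rw [J_cm_swap]; rfl
  by_cases h1 : (cm u v).det = 0
  · obtain ⟨r, s, hr, hs, e⟩ := hpar hu hv h1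
    rw [J_of_det h1, Pi.zero_apply, zero_add]
    rw [← J_cm_smul hs one_ne_zero v w, ← J_cm_smul hr one_ne_zero u w, e]
  by_cases h2 : (cm v w).det = 0
  · obtain ⟨r, s, hr, hs, e⟩ := hpar hv hw h2
    rw [J_of_det h2, Pi.zero_apply, add_zero]
    rw [← J_cm_smul one_ne_zero hr u v, ← J_cm_smul one_ne_zero hs u w, e]
  by_cases h3 : (cm u w).det = 0
  · obtain ⟨r, s, hr, hs, e⟩ := hpar hu hw h3
    rw [J_of_det h3, Pi.zero_apply, hswap w v]
    rw [← J_cm_smul hr one_ne_zero u v, ← J_cm_smul hs one_ne_zero w v, e]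
    ring
  -- the general case
  set a := (cm v w).det with ha
  set b := (cm w u).det with hb
  set c := (cm u v).det with hc
  have hb' : b ≠ 0 := by
    intro h
    apply h3
    rw [cm_det]
    rw [hb, cm_det] at h
    linear_combination -h
  have hsum : a • u + b • v + c • w = 0 := by
    rw [ha, hb, hc, cm_det, cm_det, cm_det]
    apply Prod.ext
    · simp; ring
    · simp; ring
  have hd : (cm (a • u) (b • v)).det ≠ 0 := by
    have : (cm (a • u) (b • v)).det = (a * b) * c := by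
      rw [hc, cm_det, cm_det]; simp; ring
    rw [this]
    exact mul_ne_zero (mul_ne_zero h2 hb') h1
  have key := J_triangle hsum hd hg
  rw [J_cm_smul h2 hb', J_cm_smul hb' h1, J_cm_smul h1 h2, hswap u w] at key
  linarith

end Fermat.Agent.RT.Ihara
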