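import Fermat.Agent.RT.Inter2

set_option autoImplicit false

/-!
# The intersection homomorphisms generate

For a homomorphism `χ : G → A` which vanishes on elements of order three we write `8 χ` as a
combination of the homomorphisms `J G m`, `m ∈ SL(2,ℤ)`.
-/

open Matrix CongruenceSubgroup
open scoped MatrixGroups

namespace Fermat.Agent.RT.Ihara

variable {A : Type*} [AddCommGroup A] {G : Subgroup SL(2, ℤ)}

/-- element of order three -/
def Uel : SL(2, ℤ) := sl 0 (-1) 1 (-1) (by ring)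

/-- element of order four -/
def Sel : SL(2, ℤ) := sl 0 (-1) 1 0 (by ring)

theorem Uel_cube : Uel ^ 3 = 1 := by decide

theorem Uel_ne : Uel ≠ 1 := by decide

theorem Usq_ne : Uel * Uel ≠ 1 := by decide

/-- orbit sums -/
theorem sum_orbit {f : SL(2, ℤ) → A} (hf : ∀ g, f g + f (g * Uel) + f (g * Uel * Uel) = 0) :
    ∀ (n : ℕ) (s : Finset SL(2, ℤ)), s.card = n → (∀ g ∈ s, g * Uel ∈ s) → ∑ g ∈ s, f g = 0 := by
  classical
  have hU3 : ∀ g : SL(2, ℤ), g * Uel * Uel * Uel = g := by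
    intro g
    rw [mul_assoc, mul_assoc, ← pow_two, ← pow_succ']
    have : Uel ^ (2 + 1) = 1 := Uel_cube
    rw [this, mul_one]
  intro n
  induction n using Nat.strong_induction_on with
  | _ n ih =>
    intro s hs hst
    rcases s.eq_empty_or_nonempty with rfl | ⟨g, hg⟩
    · simp
    · have hg1 := hst g hg
      have hg2 := hst _ hg1
      have d1 : g ≠ g * Uel := fun h => Uel_ne (mul_left_cancel (a := g) (by rw [mul_one]; exact h.symm))
      have d2 : g ≠ g * Uel * Uel := fun h => Usq_ne (mul_left_cancel (a := g)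
        (by rw [mul_one, ← mul_assoc]; exact h.symm))
      have d3 : g * Uel ≠ g * Uel * Uel := fun h => Uel_ne (mul_left_cancel (a := g * Uel)
        (by rw [mul_one]; exact h.symm))
      set t : Finset SL(2, ℤ) := {g, g * Uel, g * Uel * Uel} with ht
      have hts : t ⊆ s := by
        intro x hx
        rw [ht, Finset.mem_insert, Finset.mem_insert, Finset.mem_singleton] at hx
        rcases hx with rfl | rfl | rfl
        · exact hg
        · exact hg1
        · exact hg2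
      have hsum : ∑ x ∈ t, f x = 0 := by
        rw [ht, Finset.sum_insert, Finset.sum_insert, Finset.sum_singleton, ← add_assoc]
        · exact hf g
        · rw [Finset.mem_singleton]; exact d3
        · rw [Finset.mem_insert, Finset.mem_singleton]
          rintro (h | h)
          · exact d1 h
          · exact d2 h
      rw [← Finset.sum_sdiff hts, hsum, add_zero]
      refine ih (s \ t).card ?_ _ rfl ?_
      · rw [← hs]
        exact Finset.card_lt_card (Finset.sdiff_ssubset hts ⟨g, by rw [ht]; simp⟩)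
      · intro x hx
        rw [Finset.mem_sdiff] at hx ⊢
        refine ⟨hst x hx.1, fun hxt => hx.2 ?_⟩
        rw [ht, Finset.mem_insert, Finset.mem_insert, Finset.mem_singleton] at hxt ⊢
        rcases hxt with h | h | h
        · right; right
          rw [← hU3 x, h]
        · left
          exact mul_right_cancel h
        · right; left
          exact mul_right_cancel h

theorem finsum_orbit {f : SL(2, ℤ) → A} (hfin : (Function.support f).Finite)
    (hf : ∀ g, f g + f (g * Uel) + f (g * Uel * Uel) = 0) : ∑ᶠ g, f g = 0 := by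
  classical
  set s := hfin.toFinset with hs
  set s' : Finset SL(2, ℤ) := s ∪ s.image (· * Uel) ∪ s.image (· * Uel * Uel) with hs'
  have hU3 : ∀ g : SL(2, ℤ), g * Uel * Uel * Uel = g := by
    intro g
    rw [mul_assoc, mul_assoc, ← pow_two, ← pow_succ']
    have : Uel ^ (2 + 1) = 1 := Uel_cube
    rw [this, mul_one]
  rw [finsum_eq_sum_of_support_subset (s := s')]
  · refine sum_orbit hf _ s' rfl ?_
    intro g hg
    rw [hs', Finset.mem_union, Finset.mem_union, Finset.mem_image, Finset.mem_image] at hg ⊢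
    rcases hg with (hg | ⟨x, hx, rfl⟩) | ⟨x, hx, rfl⟩
    · exact Or.inl (Or.inr ⟨g, hg, rfl⟩)
    · exact Or.inr ⟨x, hx, rfl⟩
    · refine Or.inl (Or.inl ?_)
      rw [hU3]; exact hx
  · intro g hg
    rw [hs']
    simp only [Finset.coe_union, Set.mem_union, Finset.mem_coe]
    left; left
    rw [hs, Set.Finite.mem_toFinset]
    exact hg

/-- sign of the scalar product -/
def sgn (g : SL(2, ℤ)) : ℤ := (ip (g : Mat)).sign

/-- the indicator function of orthogonality -/
def zf (g : SL(2, ℤ)) : ℤ := if ip (g : Mat) = 0 then 1 else 0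

theorem sgn_U (g : SL(2, ℤ)) : sgn g + sgn (g * Uel) + sgn (g * Uel * Uel) + 1 + zf g +
    zf (g * Uel) + zf (g * Uel * Uel) = 0 := by
  have hdet := det2 g
  set p := ip (g : Mat) with hp
  have hr : ip ((g * Uel : SL(2, ℤ)) : Mat) = -(p + (g 0 1 ^ 2 + g 1 1 ^ 2)) := by
    rw [hp, sl_coe_mul]
    simp [ip, Uel, sl, Matrix.mul_apply, Fin.sum_univ_two]
    ring
  have hs : ip ((g * Uel * Uel : SL(2, ℤ)) : Mat) = -(p + (g 0 0 ^ 2 + g 1 0 ^ 2)) := by
    rw [hp, sl_coe_mul, sl_coe_mul]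
    simp [ip, Uel, sl, Matrix.mul_apply, Fin.sum_univ_two]
    ring
  obtain ⟨hc0, hc1⟩ := sq_pos_col (m := (g : Mat)) (by rw [g.det_coe]; norm_num)
  obtain ⟨hc2, _⟩ := sq_pos_col (m := ((g * Uel * Uel : SL(2, ℤ)) : Mat))
    (by rw [(g * Uel * Uel).det_coe]; norm_num)
  set r := ip ((g * Uel : SL(2, ℤ)) : Mat) with hrd
  set s := ip ((g * Uel * Uel : SL(2, ℤ)) : Mat) with hsd
  have hdet2 : p * r + r * s + s * p = 1 := by
    have h1 : (g 0 0 * g 1 1 - g 0 1 * g 1 0) ^ 2 = 1 := by rw [hdet]; norm_num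
    rw [hr, hs, hp, ip]
    linear_combination h1
  have hrs : r + s < 0 := by
    have e : -(r + s) = ((g * Uel * Uel : SL(2, ℤ)) : Mat) 0 0 ^ 2 +
        ((g * Uel * Uel : SL(2, ℤ)) : Mat) 1 0 ^ 2 := by
      rw [hr, hs, hp, sl_coe_mul, sl_coe_mul]
      simp [ip, Uel, sl, Matrix.mul_apply, Fin.sum_univ_two]
      ring
    linarith
  have hpr : p + r < 0 := by rw [hr]; linarith
  have hps : p + s < 0 := by rw [hs]; linarith
  have g1 : sgn g = p.sign := rfl
  have g2 : sgn (g * Uel) = r.sign := rfl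
  have g3 : sgn (g * Uel * Uel) = s.sign := rfl
  have z1 : zf g = if p = 0 then 1 else 0 := rfl
  have z2 : zf (g * Uel) = if r = 0 then 1 else 0 := rfl
  have z3 : zf (g * Uel * Uel) = if s = 0 then 1 else 0 := rfl
  rw [g1, g2, g3, z1, z2, z3]
  clear_value p r s
  clear g1 g2 g3 z1 z2 z3
  rcases lt_trichotomy p 0 with h1 | h1 | h1
  · rcases lt_trichotomy r 0 with h2 | h2 | h2
    · rcases lt_trichotomy s 0 with h3 | h3 | h3
      · exfalso
        nlinarith [mul_pos_of_neg_of_neg h1 h2, mul_pos_of_neg_of_neg h2 h3,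
          mul_pos_of_neg_of_neg h3 h1]
      · rw [Int.sign_eq_neg_one_of_neg h1, Int.sign_eq_neg_one_of_neg h2, h3, if_neg h1.ne,
          if_neg h2.ne, if_pos rfl]
        norm_num
      · rw [Int.sign_eq_neg_one_of_neg h1, Int.sign_eq_neg_one_of_neg h2,
          Int.sign_eq_one_of_pos h3, if_neg h1.ne, if_neg h2.ne, if_neg h3.ne']
        norm_num
    · have h3 : s < 0 := by linarith
      rw [Int.sign_eq_neg_one_of_neg h1, h2, Int.sign_eq_neg_one_of_neg h3, if_neg h1.ne,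
          if_pos rfl, if_neg h3.ne]
      norm_num
    · have h3 : s < 0 := by linarith
      rw [Int.sign_eq_neg_one_of_neg h1, Int.sign_eq_one_of_pos h2,
        Int.sign_eq_neg_one_of_neg h3, if_neg h1.ne, if_neg h2.ne', if_neg h3.ne]
      norm_num
  · have h2 : r < 0 := by linarith
    have h3 : s < 0 := by linarith
    rw [h1, Int.sign_eq_neg_one_of_neg h2, Int.sign_eq_neg_one_of_neg h3, if_pos rfl,
      if_neg h2.ne, if_neg h3.ne]
    norm_num
  · have h2 : r < 0 := by linarith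
    have h3 : s < 0 := by linarith
    rw [Int.sign_eq_one_of_pos h1, Int.sign_eq_neg_one_of_neg h2,
      Int.sign_eq_neg_one_of_neg h3, if_neg h1.ne', if_neg h2.ne, if_neg h3.ne]
    norm_num

theorem sgn_S (g : SL(2, ℤ)) : sgn (g * Sel⁻¹) = -sgn g := by
  have : ip ((g * Sel⁻¹ : SL(2, ℤ)) : Mat) = -ip (g : Mat) := by
    rw [sl_coe_mul]
    simp [ip, Sel, sl, Matrix.mul_apply, Fin.sum_univ_two, Matrix.adjugate_fin_two]
    ring
  rw [sgn, this, Int.sign_neg, sgn]

theorem zf_eq (g : SL(2, ℤ)) : zf g ≠ 0 ↔ g ∈ ({1, -1, Sel, -Sel} : Finset SL(2, ℤ)) := by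
  constructor
  · intro h
    have h0 : ip (g : Mat) = 0 := by
      by_contra hcon
      exact h (by rw [zf, if_neg hcon])
    have hdet := det2 g
    rw [ip] at h0
    have hnorm : (g 0 0 ^ 2 + g 1 0 ^ 2) * (g 0 1 ^ 2 + g 1 1 ^ 2) = 1 := by
      linear_combination (g 0 0 * g 0 1 + g 1 0 * g 1 1) * h0 +
        (g 0 0 * g 1 1 - g 0 1 * g 1 0 + 1) * hdet
    have hu : g 0 0 ^ 2 + g 1 0 ^ 2 = 1 := by
      rcases Int.eq_one_or_neg_one_of_mul_eq_one hnorm with h | h
      · exact h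
      · nlinarith [sq_nonneg (g 0 0), sq_nonneg (g 1 0)]
    have hv : g 0 1 ^ 2 + g 1 1 ^ 2 = 1 := by rw [hu, one_mul] at hnorm; exact hnorm
    have h1 : g 1 1 = g 0 0 := by
      linear_combination -(g 1 1) * hu + g 0 0 * hdet + g 1 0 * h0
    have h2 : g 0 1 = -g 1 0 := by
      linear_combination -(g 0 1) * hu - g 1 0 * hdet + g 0 0 * h0
    have ha : g 0 0 = 0 ∨ g 0 0 = 1 ∨ g 0 0 = -1 := by
      have : g 0 0 ^ 2 ≤ 1 := by nlinarith [sq_nonneg (g 1 0)]
      have b1 : g 0 0 ≤ 1 := by nlinarith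
      have b2 : -1 ≤ g 0 0 := by nlinarith
      omega
    simp only [Finset.mem_insert, Finset.mem_singleton]
    rcases ha with ha | ha | ha
    · have hc : g 1 0 = 1 ∨ g 1 0 = -1 := by
        rw [ha] at hu
        have : (g 1 0 - 1) * (g 1 0 + 1) = 0 := by linear_combination hu
        rcases mul_eq_zero.mp this with h | h
        · left; linarith
        · right; linarith
      rcases hc with hc | hc
      · right; right; left
        apply sl_ext <;> simp [Sel, ha, hc, h1, h2]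
      · right; right; right
        apply sl_ext <;> simp [Sel, ha, hc, h1, h2]
    · have hc : g 1 0 = 0 := by
        rw [ha] at hu
        have : g 1 0 ^ 2 = 0 := by linear_combination hu
        exact pow_eq_zero_iff two_ne_zero |>.mp this
      left
      apply sl_ext <;> simp [ha, hc, h1, h2]
    · have hc : g 1 0 = 0 := by
        rw [ha] at hu
        have : g 1 0 ^ 2 = 0 := by linear_combination hu
        exact pow_eq_zero_iff two_ne_zero |>.mp this
      right; left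
      apply sl_ext <;> simp [ha, hc, h1, h2]
  · intro h
    simp only [Finset.mem_insert, Finset.mem_singleton] at h
    rcases h with rfl | rfl | rfl | rfl <;> simp [zf, ip, Sel]

theorem zf_eq_one {g : SL(2, ℤ)} (h : zf g ≠ 0) : zf g = 1 := by
  rw [zf] at h ⊢
  split_ifs at h ⊢
  · rfl
  · exact absurd rfl h

theorem zf_supp : (Function.support zf).Finite :=
  (({1, -1, Sel, -Sel} : Finset SL(2, ℤ)).finite_toSet).subset fun g hg =>
    Finset.mem_coe.mpr ((zf_eq g).mp hg)

theorem finsum_zf (a : A) : ∑ᶠ g : SL(2, ℤ), zf g • a = (4 : ℕ) • a := by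
  rw [finsum_eq_sum_of_support_subset (s := ({1, -1, Sel, -Sel} : Finset SL(2, ℤ)))]
  · have h1 : ∀ g ∈ ({1, -1, Sel, -Sel} : Finset SL(2, ℤ)), zf g • a = a := by
      intro g hg
      rw [zf_eq_one ((zf_eq g).mpr hg), one_smul]
    rw [Finset.sum_congr rfl h1, Finset.sum_const]
    have : ({1, -1, Sel, -Sel} : Finset SL(2, ℤ)).card = 4 := by decide
    rw [this]
  · intro g hg
    rw [Function.mem_support] at hg
    exact Finset.mem_coe.mpr ((zf_eq g).mp fun h => hg (by rw [h, zero_smul]))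

/-- the relation `g' ∈ G g ⟨U⟩` -/
def relU (G : Subgroup SL(2, ℤ)) (g g' : SL(2, ℤ)) : Prop := ∃ γ ∈ G, ∃ k : ℤ, γ * g * Uel ^ k = g'

theorem relU_equiv (G : Subgroup SL(2, ℤ)) : Equivalence (relU G) where
  refl g := ⟨1, one_mem _, 0, by simp⟩
  symm := by
    rintro g g' ⟨γ, hγ, k, rfl⟩
    refine ⟨γ⁻¹, inv_mem hγ, -k, ?_⟩
    rw [_root_.zpow_neg]
    group
  trans := by
    rintro g g' g'' ⟨γ, hγ, k, rfl⟩ ⟨γ', hγ', k', rfl⟩
    refine ⟨γ' * γ, mul_mem hγ' hγ, k + k', ?_⟩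
    rw [_root_.zpow_add]
    group

/-- a `U`-invariant primitive -/
theorem exists_prim_U {χ : SL(2, ℤ) → A} (hχ : AddOn G χ)
    (h3 : ∀ g ∈ G, g ^ 3 = 1 → χ g = 0) :
    ∃ c : SL(2, ℤ) → A, (∀ γ ∈ G, ∀ g, c (γ * g) = χ γ + c g) ∧ ∀ g, c (g * Uel) = c g := by
  classical
  let st : Setoid SL(2, ℤ) := ⟨relU G, relU_equiv G⟩
  let rep : SL(2, ℤ) → SL(2, ℤ) := fun g => (Quotient.mk st g).out
  have hrep : ∀ g, relU G (rep g) g := fun g => Quotient.exact (Quotient.out_eq (Quotient.mk st g))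
  have hrepeq : ∀ {g g'}, relU G g g' → rep g = rep g' := by
    intro g g' h
    have : Quotient.mk st g = Quotient.mk st g' := Quotient.sound h
    show (Quotient.mk st g).out = (Quotient.mk st g').out
    rw [this]
  choose γ hγ k hk using hrep
  have huniq : ∀ {r : SL(2, ℤ)} {γ₁ γ₂ : SL(2, ℤ)} (_ : γ₁ ∈ G) (_ : γ₂ ∈ G) {k₁ k₂ : ℤ},
      γ₁ * r * Uel ^ k₁ = γ₂ * r * Uel ^ k₂ → χ γ₁ = χ γ₂ := by
    intro r γ₁ γ₂ h₁ h₂ k₁ k₂ e
    have e1 : γ₂⁻¹ * γ₁ = r * Uel ^ (k₂ - k₁) * r⁻¹ := by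
      have : γ₁ = γ₂ * r * Uel ^ k₂ * (Uel ^ k₁)⁻¹ * r⁻¹ := by
        rw [← e]; group
      rw [this, _root_.zpow_sub]
      group
    have e2 : (γ₂⁻¹ * γ₁) ^ 3 = 1 := by
      rw [e1, conj_pow]
      have : (Uel ^ (k₂ - k₁)) ^ 3 = 1 := by
        rw [← zpow_natCast, ← _root_.zpow_mul, mul_comm, _root_.zpow_mul]
        have h : Uel ^ ((3 : ℕ) : ℤ) = 1 := by rw [zpow_natCast]; exact Uel_cube
        rw [h, _root_.one_zpow]
      rw [this]; group
    have e3 := h3 _ (mul_mem (inv_mem h₂) h₁) e2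
    rw [hχ _ (inv_mem h₂) _ h₁, hχ.inv h₂] at e3
    exact (neg_add_eq_zero.mp e3).symm
  refine ⟨fun g => χ (γ g), fun δ hδ g => ?_, fun g => ?_⟩
  · have hr : rep g = rep (δ * g) := hrepeq ⟨δ, hδ, 0, by simp⟩
    have e1 := hk (δ * g)
    rw [← hr] at e1
    have e2 : (δ * γ g) * rep g * Uel ^ k g = δ * g := by
      conv_rhs => rw [← hk g]
      group
    rw [← hχ _ hδ _ (hγ g)]
    exact huniq (hγ _) (mul_mem hδ (hγ g)) (e1.trans e2.symm)
  · have hr : rep g = rep (g * Uel) := hrepeq ⟨1, one_mem _, 1, by simp⟩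
    have e1 := hk (g * Uel)
    rw [← hr] at e1
    have e2 : γ g * rep g * Uel ^ (k g + 1) = g * Uel := by
      rw [_root_.zpow_add, zpow_one, ← mul_assoc, hk g]
    exact huniq (hγ _) (hγ g) (e1.trans e2.symm)

theorem finite_sgn (γ : SL(2, ℤ)) :
    (Function.support fun g : SL(2, ℤ) => sgn (γ⁻¹ * g) - sgn g).Finite := by
  refine (finite_sj (m := 1) (P := ((γ⁻¹ : SL(2, ℤ)) : Mat)) (Q := 1)
    (by rw [(γ⁻¹).det_coe]; norm_num) (by simp)).subset ?_
  intro g hg
  rw [Function.mem_support] at hg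
  intro e
  apply hg
  simp only [sj, Matrix.det_one, Int.sign_one, one_mul, mul_one] at e
  rw [sgn, sgn, sl_coe_mul, e, sub_self]

/-- **Generation by intersection homomorphisms.** -/
theorem exists_J_decomp [G.FiniteIndex] {χ : SL(2, ℤ) → A} (hχ : AddOn G χ)
    (h3 : ∀ g ∈ G, g ^ 3 = 1 → χ g = 0) :
    ∃ (ι : Type) (_ : Fintype ι) (m : ι → SL(2, ℤ)) (w : ι → A), ∀ γ ∈ G,
      (8 : ℕ) • χ γ = ∑ x, Jm G (m x : Mat) γ • w x := by
  obtain ⟨c, hc, hcU⟩ := exists_prim_U hχ h3
  refine ⟨SL(2, ℤ) ⧸ G, Fintype.ofFinite _, fun x => x.out⁻¹,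
    fun x => c (x.out⁻¹ * Sel) - c x.out⁻¹, fun γ hγ => ?_⟩
  set F : SL(2, ℤ) → ℤ := fun g => sgn (γ⁻¹ * g) - sgn g with hF
  have hFfin : (Function.support F).Finite := finite_sgn γ
  have hz : (Function.support fun g => zf (γ⁻¹ * g)).Finite :=
    zf_supp.preimage (mul_right_injective (γ⁻¹)).injOn
  have suppl : ∀ {f : SL(2, ℤ) → ℤ} (_ : (Function.support f).Finite) (d : SL(2, ℤ) → A),
      (Function.support fun g => f g • d g).Finite := by
    intro f hf d
    refine hf.subset fun g hg => ?_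
    rw [Function.mem_support] at hg ⊢
    intro h
    exact hg (by rw [h, zero_smul])
  -- step 1
  have s1 : ∑ᶠ g, F g • c g = -((4 : ℕ) • χ γ) := by
    have e1 : ∑ᶠ g, (F g + (zf (γ⁻¹ * g) - zf g)) • c g = 0 := by
      refine finsum_orbit (suppl ?_ _) fun g => ?_
      · exact (hFfin.union ((hz.union zf_supp).subset (Function.support_sub _ _))).subset
          (Function.support_add _ _)
      · rw [hcU (g * Uel), hcU g, ← add_smul, ← add_smul]
        have k1 := sgn_U g
        have k2 := sgn_U (γ⁻¹ * g)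
        have : F g + (zf (γ⁻¹ * g) - zf g) + (F (g * Uel) + (zf (γ⁻¹ * (g * Uel)) - zf (g * Uel))) +
            (F (g * Uel * Uel) + (zf (γ⁻¹ * (g * Uel * Uel)) - zf (g * Uel * Uel))) = 0 := by
          simp only [hF, ← mul_assoc] at k2 ⊢
          linear_combination k2 - k1
        rw [this, zero_smul]
    have e2 : ∑ᶠ g, (F g + (zf (γ⁻¹ * g) - zf g)) • c g =
        ∑ᶠ g, F g • c g + (∑ᶠ g, zf (γ⁻¹ * g) • c g - ∑ᶠ g, zf g • c g) := by
      rw [← finsum_sub_distrib (suppl hz _) (suppl zf_supp _), ← finsum_add_distrib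
        (suppl hFfin _) (((suppl hz _).union (suppl zf_supp _)).subset (Function.support_sub _ _))]
      refine finsum_congr fun g => ?_
      rw [add_smul, sub_smul (zf _)]
    have e3 : ∑ᶠ g, zf (γ⁻¹ * g) • c g = ∑ᶠ g, zf g • c (γ * g) := by
      rw [← finsum_comp_equiv (Equiv.mulLeft γ)]
      refine finsum_congr fun g => ?_
      simp
    have e4 : ∑ᶠ g, zf g • c (γ * g) - ∑ᶠ g, zf g • c g = (4 : ℕ) • χ γ := by
      rw [← finsum_sub_distrib (suppl zf_supp _) (suppl zf_supp _), ← finsum_zf]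
      refine finsum_congr fun g => ?_
      rw [hc γ hγ, ← smul_sub, add_sub_cancel_right]
    rw [e1, e3, e4] at e2
    exact eq_neg_of_add_eq_zero_left e2.symm
  -- step 2
  have s2 : ∑ᶠ g, F g • c (g * Sel) = (4 : ℕ) • χ γ := by
    rw [← finsum_comp_equiv (Equiv.mulRight Sel⁻¹)]
    have : ∀ g, F (Equiv.mulRight Sel⁻¹ g) • c (Equiv.mulRight Sel⁻¹ g * Sel) = -(F g • c g) := by
      intro g
      simp only [Equiv.coe_mulRight, inv_mul_cancel_right, hF]
      rw [← mul_assoc, sgn_S, sgn_S, ← neg_smul]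
      congr 1
      ring
    rw [finsum_congr this, finsum_neg_distrib, s1, neg_neg]
  -- step 3
  have s3 : (8 : ℕ) • χ γ = ∑ᶠ g, F g • (c (g * Sel) - c g) := by
    have : ∑ᶠ g, F g • (c (g * Sel) - c g) = ∑ᶠ g, F g • c (g * Sel) - ∑ᶠ g, F g • c g := by
      rw [← finsum_sub_distrib (suppl hFfin _) (suppl hFfin _)]
      exact finsum_congr fun g => smul_sub _ _ _
    rw [this, s1, s2, sub_neg_eq_add, ← add_smul]
  -- step 4: regroup
  set f : (SL(2, ℤ) ⧸ G) × G → SL(2, ℤ) := fun p => (p.2 : SL(2, ℤ)) * p.1.out⁻¹ with hf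
  have hbij : Function.Bijective f := by
    constructor
    · rintro ⟨x, h⟩ ⟨y, h'⟩ e
      simp only [hf] at e
      have e1 : y.out = x.out * ((h : SL(2, ℤ))⁻¹ * h') := by
        have := congrArg (fun z => x.out * (h : SL(2, ℤ))⁻¹ * z * y.out) e
        have k1 : x.out * (h : SL(2, ℤ))⁻¹ * ((h : SL(2, ℤ)) * x.out⁻¹) * y.out = y.out := by group
        have k2 : x.out * (h : SL(2, ℤ))⁻¹ * ((h' : SL(2, ℤ)) * y.out⁻¹) * y.out =
            x.out * ((h : SL(2, ℤ))⁻¹ * h') := by group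
        rw [k1, k2] at this
        exact this
      have e2 : x = y := by
        rw [← QuotientGroup.out_eq' x, ← QuotientGroup.out_eq' y, QuotientGroup.eq, e1]
        rw [inv_mul_cancel_left]
        exact mul_mem (inv_mem h.2) h'.2
      subst e2
      have e3 := mul_right_cancel e
      exact Prod.ext rfl (Subtype.ext e3)
    · intro g
      have h1 : (g⁻¹)⁻¹ * ((g⁻¹ : SL(2, ℤ)) : SL(2, ℤ) ⧸ G).out ∈ G := by
        rw [← QuotientGroup.eq, QuotientGroup.out_eq']
      rw [inv_inv] at h1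
      refine ⟨(((g⁻¹ : SL(2, ℤ)) : SL(2, ℤ) ⧸ G), ⟨_, h1⟩), ?_⟩
      simp only [hf]
      group
  rw [s3]
  have s4 : ∑ᶠ g, F g • (c (g * Sel) - c g) =
      ∑ᶠ p : (SL(2, ℤ) ⧸ G) × G, F (f p) • (c (f p * Sel) - c (f p)) :=
    (finsum_comp f hbij).symm
  have hfinp : (Function.support fun p : (SL(2, ℤ) ⧸ G) × G =>
      F (f p) • (c (f p * Sel) - c (f p))).Finite :=
    (suppl hFfin (fun g => c (g * Sel) - c g)).preimage hbij.injective.injOn
  letI : Fintype (SL(2, ℤ) ⧸ G) := Fintype.ofFinite _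
  rw [s4, finsum_curry _ hfinp, finsum_eq_sum_of_fintype]
  refine Finset.sum_congr rfl fun x _ => ?_
  have hw : ∀ h : G, c (f (x, h) * Sel) - c (f (x, h)) = c (x.out⁻¹ * Sel) - c x.out⁻¹ := by
    intro h
    simp only [hf]
    rw [mul_assoc, hc _ h.2, hc _ h.2]
    abel
  have hJ : Jm G ((x.out⁻¹ : SL(2, ℤ)) : Mat) γ = ∑ᶠ h : G, F (f (x, h)) := by
    rw [Jm, Sfun]
    refine finsum_congr fun h => ?_
    have hd : ((x.out⁻¹ : SL(2, ℤ)) : Mat).det = 1 := (x.out⁻¹).det_coe
    simp only [hF, hf, sgn, sj]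
    rw [hd, Int.sign_one, one_mul, one_mul, adj_coe_mul, ← sl_coe_mul, ← sl_coe_mul, mul_assoc]
  have hfx : (Function.support fun h : G => F (f (x, h))).Finite :=
    hFfin.preimage ((hbij.injective.comp (Prod.mk_right_injective x)).injOn)
  rw [hJ, finsum_smul' hfx]
  exact finsum_congr fun h => by rw [hw]

end Fermat.Agent.RT.Ihara
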