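import Fermat.Agent.RT.CycPs

set_option autoImplicit false
set_option maxHeartbeats 400000
set_option linter.style.haveILetI false
set_option linter.unusedSectionVars false
set_option linter.unusedVariables false

/-!
# Involutions of the absolute Galois group
-/

open IsLocalRing
open Fermat.Agent.ESCore

noncomputable section

namespace Fermat.Agent.RT

section Inv

variable {K : Type*} [Field K] [IsAlgClosed K] [CharZero K] {c : K →+* K} (hc : ∀ x, c (c x) = x)
  {w : K} (hw : c w ≠ w)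

include hc hw in
/-- Square roots of `-1` are not fixed. -/
lemma inv_sq_ne {i : K} (hi : i ^ 2 = -1) : c i ≠ i := by
  intro hci
  set d := w - c w with hd
  have hd0 : d ≠ 0 := fun h => hw (sub_eq_zero.mp h).symm
  have hcd : c d = -d := by rw [hd, map_sub, hc]; ring
  obtain ⟨β, hβ⟩ := IsAlgClosed.exists_pow_nat_eq d (n := 2) (by norm_num)
  have h1 : (β * c β) ^ 2 = -d ^ 2 := by
    have : c β ^ 2 = -d := by rw [← map_pow, hβ, hcd]
    rw [mul_pow, hβ, this]; ring
  have h2 : (β * c β - i * d) * (β * c β + i * d) = 0 := by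
    linear_combination h1 - d ^ 2 * hi
  have h3 : c (β * c β) = β * c β := by rw [map_mul, hc, mul_comm]
  have hi0 : i ≠ 0 := by
    rintro rfl
    norm_num at hi
  have h4 : β * c β = i * d → False := by
    intro h
    have h5 := congrArg c h
    rw [h3, h, map_mul, hci, hcd] at h5
    have h6 : 2 * (i * d) = 0 := by linear_combination h5
    rcases mul_eq_zero.mp h6 with h7 | h7
    · norm_num at h7
    · exact (mul_ne_zero hi0 hd0) h7
  have h4' : β * c β = -(i * d) → False := by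
    intro h
    have h5 := congrArg c h
    rw [h3, h, map_neg, map_mul, hci, hcd] at h5
    have h6 : 2 * (i * d) = 0 := by linear_combination -h5
    rcases mul_eq_zero.mp h6 with h7 | h7
    · norm_num at h7
    · exact (mul_ne_zero hi0 hd0) h7
  rcases mul_eq_zero.mp h2 with h | h
  · exact h4 (sub_eq_zero.mp h)
  · exact h4' (eq_neg_of_add_eq_zero_left h)

include hc hw in
/-- The sum of two squares of fixed elements is the square of a fixed element. -/
lemma inv_sum_sq {x y : K} (hx : c x = x) (hy : c y = y) : ∃ z, c z = z ∧ x ^ 2 + y ^ 2 = z ^ 2 := by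
  obtain ⟨i, hi⟩ := IsAlgClosed.exists_pow_nat_eq (-1 : K) (n := 2) (by norm_num)
  have h1 : c i = -i := by
    have h2 : (c i - i) * (c i + i) = 0 := by
      have : c i ^ 2 = -1 := by rw [← map_pow, hi, map_neg, map_one]
      linear_combination this - hi
    rcases mul_eq_zero.mp h2 with h | h
    · exact absurd (sub_eq_zero.mp h) (inv_sq_ne hc hw hi)
    · exact eq_neg_of_add_eq_zero_left h
  obtain ⟨β, hβ⟩ := IsAlgClosed.exists_pow_nat_eq (x + i * y) (n := 2) (by norm_num)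
  refine ⟨β * c β, by rw [map_mul, hc, mul_comm], ?_⟩
  have h3 : c β ^ 2 = x - i * y := by
    rw [← map_pow, hβ, map_add, map_mul, hx, hy, h1]; ring
  rw [mul_pow, hβ, h3]
  linear_combination y ^ 2 * hi

include hc hw in
/-- Sums of squares. -/
lemma inv_sum_sq' (f : ℕ → K) (hf : ∀ n, c (f n) = f n) (n : ℕ) :
    ∃ z, c z = z ∧ ∑ j ∈ Finset.range n, f j ^ 2 = z ^ 2 := by
  induction n with
  | zero => exact ⟨0, map_zero _, by simp⟩
  | succ n ih =>
    obtain ⟨z, hz, hz2⟩ := ih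
    obtain ⟨z', hz', h⟩ := inv_sum_sq hc hw hz (hf n)
    exact ⟨z', hz', by rw [Finset.sum_range_succ, hz2, h]⟩

include hc hw in
/-- **Involutions invert the roots of unity.** -/
theorem inv_root {ζ : K} {m : ℕ} (hm : 0 < m) (hζ : ζ ^ m = 1) : c ζ = ζ⁻¹ := by
  obtain ⟨β, hβ⟩ := IsAlgClosed.exists_pow_nat_eq ζ (n := 2) (by norm_num)
  set s := β * c β with hs
  have hcs : c s = s := by rw [hs, map_mul, hc, mul_comm]
  have hs2 : s ^ 2 = ζ * c ζ := by rw [hs, mul_pow, ← map_pow, hβ]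
  have hζ0 : ζ ≠ 0 := by
    rintro rfl
    rw [zero_pow hm.ne'] at hζ
    exact zero_ne_one hζ
  have h1 : (s ^ 2) ^ m = 1 := by rw [hs2, mul_pow, ← map_pow, hζ, map_one, one_mul]
  have h2 : s ^ 2 = 1 := by
    by_contra hne
    have h3 : ∑ j ∈ Finset.range m, (s ^ 2) ^ j = 0 := by
      have h4 := geom_sum_mul (s ^ 2) m
      rw [h1, sub_self] at h4
      exact (mul_eq_zero.mp h4).resolve_right (sub_ne_zero.mpr hne)
    obtain ⟨m', rfl⟩ : ∃ m', m = m' + 1 := ⟨m - 1, (Nat.sub_add_cancel hm).symm⟩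
    rw [Finset.sum_range_succ', pow_zero] at h3
    obtain ⟨z, hz, hz2⟩ := inv_sum_sq' hc hw (fun j => s ^ (j + 1))
      (fun j => by rw [map_pow, hcs]) m'
    have h5 : z ^ 2 = -1 := by
      rw [← hz2, eq_neg_iff_add_eq_zero, ← h3]
      congr 1
      exact Finset.sum_congr rfl fun j _ => by rw [← pow_mul, ← pow_mul, mul_comm]
    exact inv_sq_ne hc hw h5 hz
  rw [h2] at hs2
  exact eq_inv_of_mul_eq_one_right hs2.symm

end Inv

theorem IsCyc.inv {𝒪 : Type} [CommRing 𝒪] [IsLocalRing 𝒪] [IsNoetherianRing 𝒪] {p : ℕ}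
    {χ : GQ →* 𝒪ˣ} (hχ : IsCyc p χ) (hp : p.Prime) (hp𝒪 : (p : 𝒪) ∈ maximalIdeal 𝒪) {c : GQ}
    (hc : c * c = 1) (hc1 : c ≠ 1) : (χ c : 𝒪) = -1 := by
  obtain ⟨w, hw⟩ : ∃ w, c w ≠ w := by
    by_contra h
    push Not at h
    exact hc1 (AlgEquiv.ext h)
  have hcc : ∀ x, (c : Qb →+* Qb) ((c : Qb →+* Qb) x) = x := fun x => by
    have := congrArg (fun g : GQ => g x) hc
    exact this
  rw [eq_neg_iff_add_eq_zero]
  refine eq_zero_of_pow hp𝒪 fun n => ?_
  have hpn : p ^ n ≠ 0 := (pow_pos hp.pos n).ne'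
  have h1 := hχ n c (p ^ n - 1) fun ζ hζ => by
    have h2 : c ζ = ζ⁻¹ := inv_root (c := (c : Qb →+* Qb)) hcc hw (pow_pos hp.pos n) hζ
    rw [h2]
    refine inv_eq_of_mul_eq_one_left ?_
    rw [← pow_succ, Nat.sub_add_cancel (Nat.pos_of_ne_zero hpn), hζ]
  rw [Nat.cast_sub (Nat.pos_of_ne_zero hpn), Nat.cast_one, Nat.cast_pow] at h1
  have h2 : (χ c : 𝒪) + 1 = ((χ c : 𝒪) - ((p : 𝒪) ^ n - 1)) + (p : 𝒪) ^ n := by ring
  rw [h2]
  exact Ideal.add_mem _ h1 (Ideal.mem_span_singleton_self _)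

end Fermat.Agent.RT
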