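import Fermat.Agent.RT.IndexTwoTW
import Fermat.Agent.RT.LRFrob
import Fermat.Agent.RT.TWVanG
import Fermat.Agent.GCFT.Mod

/-!
# Comparison of the mod `p` representation of a curve with another representation
-/

set_option autoImplicit false
set_option linter.unusedSectionVars false

noncomputable section

open Matrix
open WeierstrassCurve WeierstrassCurve.Affine WeierstrassCurve.Affine.Point

namespace Fermat.Agent.RT

open Fermat.Agent.EC Fermat.Agent.ESCore Fermat.Agent.GaloisBasics Fermat.Agent.GCFT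
  Fermat.Agent.Coh

/-- The field of algebraic numbers. -/
local notation "Kb" => AlgebraicClosure ℚ
/-- The absolute Galois group. -/
local notation "GQ" => (AlgebraicClosure ℚ ≃ₐ[ℚ] AlgebraicClosure ℚ)

section Pow

variable {F K : Type*} [Field F] [Field K] (j : F →+* K)

theorem trace_sq (M : Matrix (Fin 2) (Fin 2) F) (n : ℕ) :
    (M ^ (n + 2)).trace = M.trace * (M ^ (n + 1)).trace - M.det * (M ^ n).trace := by
  have hCH : M * M = M.trace • M - M.det • (1 : Matrix (Fin 2) (Fin 2) F) := by
    ext i j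
    rw [trace_fin_two, det_fin_two]
    fin_cases i <;> fin_cases j <;> simp [Matrix.mul_apply, Fin.sum_univ_two] <;> ring
  have h1 : M ^ (n + 2) = M.trace • M ^ (n + 1) - M.det • M ^ n := by
    rw [pow_add, pow_two, hCH, mul_sub, mul_smul_comm, mul_smul_comm, mul_one, ← pow_succ]
  rw [h1, trace_sub, trace_smul, trace_smul, smul_eq_mul, smul_eq_mul]

theorem trace_pow_congr {M : Matrix (Fin 2) (Fin 2) F} {M' : Matrix (Fin 2) (Fin 2) K}
    (ht : M'.trace = j M.trace) (hd : M'.det = j M.det) (n : ℕ) :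
    (M' ^ n).trace = j (M ^ n).trace := by
  have h : ∀ n, (M' ^ n).trace = j (M ^ n).trace ∧
      (M' ^ (n + 1)).trace = j (M ^ (n + 1)).trace := by
    intro n
    induction n with
    | zero =>
      refine ⟨?_, by rw [zero_add, pow_one, pow_one, ht]⟩
      rw [pow_zero, pow_zero, trace_one, trace_one]
      simp only [Fintype.card_fin, Nat.cast_ofNat]
      exact (map_ofNat j 2).symm
    | succ n ih =>
      refine ⟨ih.2, ?_⟩
      rw [trace_sq, trace_sq, map_sub, map_mul, map_mul, ih.1, ih.2, ht, hd]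
  exact (h n).1

end Pow

section Compare

variable {F K : Type*} [Field F] [Field K] (j : F →+* K)

/-- Two representations whose Frobenius elements have the same characteristic polynomials have the
same characteristic polynomials. -/
theorem trace_eq_of_frob {ρ : GQ →* GL (Fin 2) F} {ρ' : GQ →* Matrix (Fin 2) (Fin 2) K}
    {L L' : IntermediateField ℚ Kb} [FiniteDimensional ℚ L] [FiniteDimensional ℚ L']
    (hL : ∀ σ : GQ, (∀ x ∈ L, σ x = x) → ρ σ = 1)
    (hL' : ∀ σ : GQ, (∀ x ∈ L', σ x = x) → ρ' σ = 1) (T : Finset ℕ)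
    (h : ∀ l : ℕ, l.Prime → l ∉ T → ∀ A : ValuationSubring Kb, A.LiesOverPrime l →
      ∀ φ : GQ, A.IsFrobeniusAt φ l →
        (ρ' φ).trace = j (ρ φ).val.trace ∧ (ρ' φ).det = j (ρ φ).val.det) (σ : GQ) :
    (ρ' σ).trace = j (ρ σ).val.trace ∧ (ρ' σ).det = j (ρ σ).val.det := by
  obtain ⟨l, hl, hlT, A, hA, φ, hφ, i, i', hi, -⟩ :=
    FrobDensity.exists_frobenius_pow (L ⊔ L') σ T
  obtain ⟨h1, h2⟩ := h l hl hlT A hA φ hφ
  have e1 : ρ σ = ρ φ ^ i := by
    rw [← map_pow]
    exact (eq_of_restrict_eq' hL fun x hx => hi x ((le_sup_left : L ≤ L ⊔ L') hx)).symm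
  have e2 : ρ' σ = ρ' φ ^ i := by
    rw [← map_pow]
    exact (eq_of_restrict_eq' hL' fun x hx => hi x ((le_sup_right : L' ≤ L ⊔ L') hx)).symm
  rw [e1, e2, Units.val_pow_eq_pow_val]
  refine ⟨trace_pow_congr j h1 h2 i, ?_⟩
  rw [det_pow, det_pow, h2, map_pow]

/-- An element acting trivially for the second representation acts trivially for the first one. -/
theorem eq_one_of_trace_eq {ρ : GQ →* GL (Fin 2) F} {ρ' : GQ →* Matrix (Fin 2) (Fin 2) K}
    {H : Subgroup GQ} (hspan : Submodule.span F (imgSet ρ H) = ⊤)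
    (htr : ∀ σ, (ρ' σ).trace = j (ρ σ).val.trace) {σ : GQ} (hσ : ρ' σ = 1) : ρ σ = 1 := by
  by_contra hne
  have hE : (ρ σ).val - 1 ≠ 0 := fun h => hne (Units.ext (sub_eq_zero.mp h))
  have key : ∀ A : Matrix (Fin 2) (Fin 2) F, (((ρ σ).val - 1) * A).trace = 0 := by
    intro A
    have hA : A ∈ Submodule.span F (imgSet ρ H) := by rw [hspan]; trivial
    induction hA using Submodule.span_induction with
    | mem y hy =>
      obtain ⟨g, -, rfl⟩ := hy
      rw [sub_mul, one_mul, trace_sub, ← Units.val_mul, ← map_mul]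
      apply j.injective
      rw [map_sub, ← htr, ← htr, map_mul, hσ, one_mul, sub_self, _root_.map_zero]
    | zero => simp
    | add x y _ _ hx hy => rw [mul_add, trace_add, hx, hy, add_zero]
    | smul a x _ hx => rw [mul_smul_comm, trace_smul, hx, smul_zero]
  exact hE (VanG.eq_zero_of_trace_mul key)

end Compare

section Irr

variable {k : Type*} [Field k] {Γ : Type*} [Group Γ]

/-- A representation whose image spans the matrix algebra has no common eigenvector. -/
theorem not_comEig_of_span {ρ : Γ →* GL (Fin 2) k} {H : Subgroup Γ}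
    (hspan : Submodule.span k (imgSet ρ H) = ⊤) (v : Fin 2 → k) : ¬ ComEig ρ H v := by
  rintro ⟨hv0, hv⟩
  have key : ∀ A : Matrix (Fin 2) (Fin 2) k, ∃ a : k, A *ᵥ v = a • v := by
    intro A
    have hA : A ∈ Submodule.span k (imgSet ρ H) := by rw [hspan]; trivial
    induction hA using Submodule.span_induction with
    | mem y hy =>
      obtain ⟨g, hg, rfl⟩ := hy
      exact hv g hg
    | zero => exact ⟨0, by rw [zero_mulVec, zero_smul]⟩
    | add x y _ _ hx hy =>
      obtain ⟨a, ha⟩ := hx
      obtain ⟨b, hb⟩ := hy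
      exact ⟨a + b, by rw [add_mulVec, ha, hb, add_smul]⟩
    | smul a x _ hx =>
      obtain ⟨b, hb⟩ := hx
      exact ⟨a * b, by rw [smul_mulVec, hb, smul_smul]⟩
  obtain ⟨a, ha⟩ := key !![0, 1; 0, 0]
  obtain ⟨b, hb⟩ := key !![0, 0; 1, 0]
  have a0 := congrFun ha 0
  have a1 := congrFun ha 1
  have b0 := congrFun hb 0
  have b1 := congrFun hb 1
  simp [Matrix.mulVec, dotProduct, Fin.sum_univ_two] at a0 a1 b0 b1
  apply hv0
  funext i
  rcases a1 with h | h
  · rw [h, zero_mul] at a0
    rcases b0 with h' | h'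
    · rw [h', zero_mul] at b1
      fin_cases i
      · exact b1
      · exact a0
    · fin_cases i
      · exact h'
      · exact a0
  · rcases b0 with h' | h'
    · rw [h', zero_mul] at b1
      fin_cases i
      · exact b1
      · exact h
    · fin_cases i
      · exact h'
      · exact h

end Irr

theorem ker_bc {Γ : Type*} [Group Γ] {k₀ : Type*} [Field k₀] {k : Type*} [Field k] [Algebra k₀ k]
    (ρ : Γ →* GL (Fin 2) k₀) : (bc k ρ).ker = ρ.ker := by
  ext σ
  constructor
  · intro h
    have h1 := congrArg Units.val (MonoidHom.mem_ker.mp h)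
    rw [bc_coe, Units.val_one] at h1
    refine MonoidHom.mem_ker.mpr (Units.ext ?_)
    rw [Units.val_one]
    ext i j
    have h2 := congrFun (congrFun h1 i) j
    rw [Matrix.map_apply] at h2
    apply (algebraMap k₀ k).injective
    rw [h2]
    by_cases hij : i = j
    · subst hij
      rw [one_apply_eq, one_apply_eq, map_one]
    · rw [one_apply_ne hij, one_apply_ne hij, _root_.map_zero]
  · intro h
    refine MonoidHom.mem_ker.mpr (Units.ext ?_)
    rw [bc_coe, MonoidHom.mem_ker.mp h, Units.val_one, Units.val_one]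
    exact Matrix.map_one _ (_root_.map_zero _) (map_one _)

section Curve

variable {W : WeierstrassCurve ℤ} {p : ℕ} [hp : Fact p.Prime]

/-- The kernel of the mod `p` representation is in the family `famS T`. -/
theorem ker_mem_famS (hΔ : W.Δ ≠ 0) {k : Type*} [Field k] [Algebra (ZMod p) k]
    {T : Finset Nat.Primes}
    (h : ∀ l : Nat.Primes, l ∉ T → ∀ A : ValuationSubring Kb, A.LiesOverPrime (l : ℕ) →
      ∀ σ ∈ A.inertiaSubgroupIn ℚ, modRep (torsBasis p W hΔ) σ = 1) :
    (bc k (modRep (torsBasis p W hΔ))).ker ∈ famS T := by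
  have := isElliptic_map hΔ
  rw [ker_bc]
  refine mem_famS.mpr ⟨MonoidHom.normal_ker _, modRep_ker_isOpen _, fun q hq A hA σ hσ => ?_⟩
  exact h q hq A hA σ hσ

theorem exists_level_modRep (hΔ : W.Δ ≠ 0) : ∃ L : IntermediateField ℚ Kb,
    FiniteDimensional ℚ L ∧
      ∀ σ : GQ, (∀ x ∈ L, σ x = x) → modRep (torsBasis p W hΔ) σ = 1 := by
  have := isElliptic_map hΔ
  obtain ⟨L, hLf, -, hL⟩ := EFrob.exists_level (W.map (Int.castRingHom ℚ)) hp.out ∅
  refine ⟨L, hLf, fun σ hσ => ?_⟩
  rw [modRep_eq_one_iff]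
  intro x
  have := hL σ 1 (fun x hx => hσ x hx) x
  rwa [one_smul] at this

end Curve

end Fermat.Agent.RT
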