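import Fermat.Agent.RT.LGcAlg
import Fermat.Agent.LG.R36c
import Fermat.Agent.RT.SetT

set_option autoImplicit false
set_option linter.unusedVariables false

/-!
# Representations whose trace is scalar
-/

noncomputable section

namespace Fermat.Agent.RT

open Fermat.Agent.LG

section Scal

variable {F E G : Type*} [Field F] [Ring E] [Algebra F E] [Group G]

/-- `P` satisfies the relations of `ρ`, with determinant `c`. -/
structure ScalRep (P : G →* E) (c : G →* F) (ρ : G →* Matrix (Fin 2) (Fin 2) F) : Prop where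
  tr : ∀ g, algebraMap F E (ρ g).trace = P g + algebraMap F E (c g) * P g⁻¹

variable {P : G →* E} {c : G →* F} {ρ : G →* Matrix (Fin 2) (Fin 2) F}

/-- the Cayley–Hamilton data -/
theorem ScalRep.ch (h : ScalRep P c ρ) : CHData P ((algebraMap F E : F →* E).comp c)
    (fun g => algebraMap F E (ρ g).trace) where
  T_eq := h.tr
  X_comm g e := Algebra.commutes _ _
  T_comm g k := Algebra.commutes _ _

theorem smul_eq_zero_of_ne {d : F} (hd : d ≠ 0) {x : E} (h : algebraMap F E d * x = 0) : x = 0 := by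
  have h1 : algebraMap F E d⁻¹ * (algebraMap F E d * x) = x := by
    rw [← mul_assoc, ← map_mul, inv_mul_cancel₀ hd, map_one, one_mul]
  rw [← h1, h, mul_zero]

/-- The elements of the kernel of `ρ` act trivially. -/
theorem ScalRep.eq_one (h : ScalRep P c ρ) (hspan : Submodule.span F (Set.range ρ) = ⊤) {σ : G}
    (hσ : ρ σ = 1) : P σ = 1 := by
  obtain ⟨a, b, k, a', b', hD⟩ := exists_comm_trace ρ hspan
  have CH := h.ch
  set D : F := (ρ (a * b * k * (a' * b'))).trace - (ρ (a * b * k * (b' * a'))).trace -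
      (ρ (b * a * k * (a' * b'))).trace + (ρ (b * a * k * (b' * a'))).trace with hDdef
  have hkey : ∀ u : E, algebraMap F E (ρ (a * b * k * (a' * b'))).trace * u -
      algebraMap F E (ρ (a * b * k * (b' * a'))).trace * u -
      algebraMap F E (ρ (b * a * k * (a' * b'))).trace * u +
      algebraMap F E (ρ (b * a * k * (b' * a'))).trace * u = algebraMap F E D * u := by
    intro u
    rw [hDdef, map_add, map_sub, map_sub]
    noncomm_ring
  have hfix : ∀ τ, P τ * (P σ - 1) = P σ - 1 := by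
    intro τ
    have hgood : Good (fun g => algebraMap F E (ρ g).trace) σ τ (1 : E) := by
      intro g
      have e1 : ρ (τ * σ * g) = ρ (τ * g) := by rw [map_mul, map_mul, hσ, mul_one, ← map_mul]
      have e2 : ρ (σ * g) = ρ g := by rw [map_mul, hσ, one_mul]
      simp only [e1, e2, sub_self, zero_sub, neg_add_cancel]
    have h1 := CH.kill hgood a b k a' b'
    have h2 := hkey (rEl P σ τ * 1)
    have h3 : algebraMap F E D * (rEl P σ τ * 1) = 0 := h2.symm.trans h1
    have h4 := smul_eq_zero_of_ne hD h3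
    rw [mul_one, rEl] at h4
    rw [mul_sub, mul_one, sub_eq_iff_eq_add, ← sub_eq_zero, ← h4]
    noncomm_ring
  have h5 := kill_fixed CH (u := P σ - 1) hfix a b k a' b'
  have h6 : algebraMap F E D * (P σ - 1) = 0 := (hkey (P σ - 1)).symm.trans h5
  exact sub_eq_zero.mp (smul_eq_zero_of_ne hD h6)

/-- An element acting by a central operator of square `c ^ 2`. -/
theorem ScalRep.false_of_central [Nontrivial E] (h : ScalRep P c ρ)
    (hspan : Submodule.span F (Set.range ρ) = ⊤) {φ : G} (hφ : c φ ≠ 1)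
    (hcomm : ∀ g, P φ * P g = P g * P φ)
    (hsq : P φ * P φ = algebraMap F E (c φ * c φ)) : False := by
  obtain ⟨a, b, k, a', b', hD⟩ := exists_comm_trace ρ hspan
  have hc0 : c φ ≠ 0 := by
    intro h0
    have h1 : c φ * c φ⁻¹ = 1 := by rw [← map_mul, mul_inv_cancel, map_one]
    rw [h0, zero_mul] at h1
    exact zero_ne_one h1
  set Z := P φ⁻¹ with hZ
  have hZφ : Z * P φ = 1 := by rw [hZ, ← map_mul, inv_mul_cancel, map_one]
  have hφZ : P φ * Z = 1 := by rw [hZ, ← map_mul, mul_inv_cancel, map_one]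
  have hZc : ∀ g, Z * P g = P g * Z := by
    intro g
    calc Z * P g = Z * P g * (P φ * Z) := by rw [hφZ, mul_one]
      _ = Z * (P g * P φ) * Z := by noncomm_ring
      _ = Z * (P φ * P g) * Z := by rw [hcomm]
      _ = (Z * P φ) * P g * Z := by noncomm_ring
      _ = P g * Z := by rw [hZφ, one_mul]
  have hZZ : (c φ * c φ) • (Z * Z) = (1 : E) := by
    rw [Algebra.smul_def, ← hsq]
    calc P φ * P φ * (Z * Z) = P φ * (P φ * Z) * Z := by noncomm_ring
      _ = 1 := by rw [hφZ, mul_one, hφZ]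
  have key : ∀ g, (c φ - 1) • P g = (c φ * (ρ (φ * g)).trace) • Z - (ρ g).trace • (1 : E) := by
    intro g
    have h1 := h.tr (φ * g)
    have h2 := h.tr g
    rw [mul_inv_rev, map_mul P, map_mul P, map_mul c, ← hZ, ← Algebra.smul_def] at h1
    rw [← Algebra.smul_def] at h2
    have h3 : (c φ * (ρ (φ * g)).trace) • Z = c φ • P g + c g • P g⁻¹ := by
      have e1 : (c φ * (ρ (φ * g)).trace) • Z =
          c φ • (Z * algebraMap F E (ρ (φ * g)).trace) := by
        rw [mul_smul, Algebra.smul_def (ρ (φ * g)).trace, Algebra.commutes]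
      have e2 : Z * (P g⁻¹ * Z) = P g⁻¹ * (Z * Z) := by rw [← mul_assoc, hZc, mul_assoc]
      have e3 : c φ * (c φ * c g) = c g * (c φ * c φ) := by ring
      rw [e1, h1, mul_add, ← mul_assoc, hZφ, one_mul, mul_smul_comm, smul_add, smul_smul, e2, e3,
        mul_smul (c g), ← mul_smul_comm (c φ * c φ), hZZ, mul_one]
    rw [h3, ← Algebra.algebraMap_eq_smul_one, h2, sub_smul, one_smul]
    abel
  have hc1 : c φ - 1 ≠ 0 := sub_ne_zero.mpr hφ
  have hPP : ∀ g l, P g * P l = P l * P g := by
    intro g l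
    have h1 : (c φ - 1) • (P g * P l) = (c φ - 1) • (P l * P g) := by
      rw [← smul_mul_assoc, ← mul_smul_comm, key g, sub_mul, mul_sub, smul_mul_assoc,
        mul_smul_comm, hZc, smul_mul_assoc, mul_smul_comm, one_mul, mul_one]
    rw [← inv_smul_smul₀ hc1 (P g * P l), h1, inv_smul_smul₀ hc1]
  have hcc : ∀ x y, c (x * y) = c (y * x) := fun x y => by rw [map_mul, map_mul, mul_comm]
  have htr : ∀ x y y' : G, P y = P y' → P y⁻¹ = P y'⁻¹ → c y = c y' →
      algebraMap F E (ρ y).trace = algebraMap F E (ρ y').trace := by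
    intro x y y' h1 h2 h3
    rw [h.tr, h.tr, h1, h2, h3]
  have e1 : algebraMap F E (ρ (a * b * k * (a' * b'))).trace =
      algebraMap F E (ρ (a * b * k * (b' * a'))).trace := by
    refine htr 1 _ _ ?_ ?_ ?_
    · rw [map_mul P, map_mul P a', hPP a', ← map_mul, ← map_mul]
    · rw [mul_inv_rev, mul_inv_rev, mul_inv_rev (a * b * k), mul_inv_rev b' a', map_mul P,
        map_mul P b'⁻¹, hPP b'⁻¹, ← map_mul, ← map_mul]
    · rw [map_mul c, hcc a', ← map_mul]
  have e2 : algebraMap F E (ρ (b * a * k * (a' * b'))).trace =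
      algebraMap F E (ρ (b * a * k * (b' * a'))).trace := by
    refine htr 1 _ _ ?_ ?_ ?_
    · rw [map_mul P, map_mul P a', hPP a', ← map_mul, ← map_mul]
    · rw [mul_inv_rev, mul_inv_rev, mul_inv_rev (b * a * k), mul_inv_rev b' a', map_mul P,
        map_mul P b'⁻¹, hPP b'⁻¹, ← map_mul, ← map_mul]
    · rw [map_mul c, hcc a', ← map_mul]
  apply hD
  apply (algebraMap F E).injective
  rw [map_add, map_sub, map_sub, e1, e2, map_zero]
  abel

/-- powers -/
theorem scalRep_pow (P : G →* E) (c : G →* F) {M : Matrix (Fin 2) (Fin 2) F} {φ : G}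
    (h1 : algebraMap F E M.trace = P φ + algebraMap F E (c φ) * P φ⁻¹) (h2 : M.det = c φ) (n : ℕ) :
    algebraMap F E (M ^ n).trace = P (φ ^ n) + algebraMap F E (c (φ ^ n)) * P (φ ^ n)⁻¹ := by
  have key : ∀ n, algebraMap F E (M ^ n).trace =
      P (φ ^ n) + algebraMap F E (c (φ ^ n)) * P (φ ^ n)⁻¹ ∧
      algebraMap F E (M ^ (n + 1)).trace =
      P (φ ^ (n + 1)) + algebraMap F E (c (φ ^ (n + 1))) * P (φ ^ (n + 1))⁻¹ := by
    intro n
    induction n with
    | zero =>
      refine ⟨?_, by rw [zero_add, pow_one, pow_one, h1]⟩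
      rw [pow_zero, pow_zero, Matrix.trace_one, map_one, inv_one, map_one, map_one, one_mul]
      simp only [Fintype.card_fin, Nat.cast_ofNat, map_ofNat]
      norm_num
    | succ n ih =>
      refine ⟨ih.2, ?_⟩
      obtain ⟨ih1, ih2⟩ := ih
      rw [trace_sq, map_sub, map_mul, map_mul, ih1, ih2, h1, h2]
      set x := P φ with hx
      set y := P φ⁻¹ with hy
      have hxy : x * y = 1 := by rw [hx, hy, ← map_mul, mul_inv_cancel, map_one]
      have hyx : y * x = 1 := by rw [hx, hy, ← map_mul, inv_mul_cancel, map_one]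
      have e0 : P (φ ^ n) = y * P (φ ^ (n + 1)) := by
        rw [hy, ← map_mul, pow_succ' φ n, inv_mul_cancel_left]
      have e0' : P (φ ^ n)⁻¹ = x * P (φ ^ (n + 1))⁻¹ := by
        rw [hx, ← map_mul, pow_succ φ n, mul_inv_rev, mul_inv_cancel_left]
      have e2 : P (φ ^ (n + 1 + 1)) = x * P (φ ^ (n + 1)) := by
        rw [hx, ← map_mul, ← pow_succ']
      have e2' : P (φ ^ (n + 1 + 1))⁻¹ = y * P (φ ^ (n + 1))⁻¹ := by
        rw [hy, ← map_mul, pow_succ φ (n + 1), mul_inv_rev]
      have c0 : c (φ ^ (n + 1)) = c φ * c (φ ^ n) := by rw [← map_mul, ← pow_succ']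
      have c1 : c (φ ^ (n + 1 + 1)) = c φ * c (φ ^ (n + 1)) := by rw [← map_mul, ← pow_succ']
      rw [e0, e0', e2, e2', c1]
      simp only [← Algebra.smul_def]
      set X := P (φ ^ (n + 1)) with hX
      set Y := P (φ ^ (n + 1))⁻¹ with hY
      have s1 : c φ • (y * X + c (φ ^ n) • (x * Y)) = c φ • (y * X) + c (φ ^ (n + 1)) • (x * Y) := by
        rw [smul_add, smul_smul, c0]
      rw [s1, add_mul, mul_add, smul_mul_assoc, mul_add, mul_smul_comm, mul_smul_comm, smul_add,
        smul_smul]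
      abel
  exact (key n).1

end Scal

end Fermat.Agent.RT
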