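import Fermat.Agent.RT.SetH
import Fermat.Agent.RT.SetE
import Fermat.Agent.RT.EigAtRed
import Fermat.Agent.LG.ArStar

set_option autoImplicit false
set_option linter.unusedSectionVars false
set_option linter.unusedVariables false
set_option linter.style.haveILetI false

/-!
# Characters with values in the `p`-th roots of unity and classes modulo `p`
-/

open Matrix CongruenceSubgroup IsLocalRing
open scoped MatrixGroups

noncomputable section

namespace Fermat.Agent.RT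

open Fermat.Agent.RT.Ihara Fermat.Agent.ESCore Fermat.Agent.ESCore.ModP Fermat.Agent.LG

section Dict

variable {N p : ℕ} [hp : Fact p.Prime]

/-- the character attached to a class -/
def zChar (c : H1 (ZMod p) (ZMod p) (Gamma0 N)) : Gamma0 N →* ℂˣ :=
  haveI : NeZero p := ⟨hp.out.ne_zero⟩
  (zHom p).comp (toChar c)

theorem zHom_inj' : Function.Injective (haveI : NeZero p := ⟨hp.out.ne_zero⟩; zHom p) :=
  haveI : NeZero p := ⟨hp.out.ne_zero⟩
  zHom_injective p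

theorem zChar_apply (c : H1 (ZMod p) (ZMod p) (Gamma0 N)) (g : Gamma0 N) :
    zChar c g = (haveI : NeZero p := ⟨hp.out.ne_zero⟩; zHom p) (Multiplicative.ofAdd (c.1 g)) := rfl

theorem zChar_injective : Function.Injective (zChar : H1 (ZMod p) (ZMod p) (Gamma0 N) → _) := by
  intro c c' h
  apply Subtype.ext
  funext g
  have h1 := DFunLike.congr_fun h g
  rw [zChar_apply, zChar_apply] at h1
  exact Multiplicative.ofAdd.injective (zHom_inj' h1)

theorem zChar_eq_one_iff {c : H1 (ZMod p) (ZMod p) (Gamma0 N)} {g : Gamma0 N} :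
    zChar c g = 1 ↔ c.1 g = 0 := by
  constructor
  · intro h
    rw [zChar_apply, ← map_one (haveI : NeZero p := ⟨hp.out.ne_zero⟩; zHom p)] at h
    exact Multiplicative.ofAdd.injective (zHom_inj' h)
  · intro h
    rw [zChar_apply, h, ofAdd_zero, map_one]

theorem zChar_pow (c : H1 (ZMod p) (ZMod p) (Gamma0 N)) (n : ℤ) :
    zChar ((n : ZMod p) • c) = zChar c ^ n := by
  ext1 g
  change zChar ((n : ZMod p) • c) g = zChar c g ^ n
  rw [zChar_apply, zChar_apply, ← map_zpow, ← ofAdd_zsmul]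
  congr 2
  change (n : ZMod p) * c.1 g = n • c.1 g
  rw [zsmul_eq_mul]

theorem zChar_pow_p (c : H1 (ZMod p) (ZMod p) (Gamma0 N)) : zChar c ^ p = 1 := by
  ext1 g
  rw [MonoidHom.pow_apply, zChar_apply, ← map_pow, ← ofAdd_nsmul, nsmul_eq_mul,
    CharP.cast_eq_zero, zero_mul, ofAdd_zero, map_one, MonoidHom.one_apply]

theorem heckeChar_zChar {l : ℕ} (hl : l.Prime) (hlN : ¬ l ∣ N)
    (c : H1 (ZMod p) (ZMod p) (Gamma0 N)) :
    heckeChar hl hlN (zChar c) = zChar (hec (Gamma1_le N) le_rfl l c) := by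
  rw [zChar, heckeChar_comp, ← heckeCharG_Gamma0 hl hlN (toChar c),
    heckeCharG_hec hl hlN (Gamma1_le N) le_rfl c]
  rfl

/-- Every character of order dividing `p` comes from a class. -/
theorem exists_class {χ : Gamma0 N →* ℂˣ} (hχ : χ ^ p = 1) :
    ∃ c : H1 (ZMod p) (ZMod p) (Gamma0 N), zChar c = χ := by
  haveI : NeZero p := ⟨hp.out.ne_zero⟩
  have hprim : IsPrimitiveRoot (zHom p (Multiplicative.ofAdd 1)) p := by
    refine ⟨?_, fun l hl => ?_⟩
    · rw [← map_pow, ← ofAdd_nsmul, nsmul_eq_mul, CharP.cast_eq_zero, zero_mul, ofAdd_zero, map_one]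
    · rw [← map_pow, ← ofAdd_nsmul, ← map_one (zHom p)] at hl
      have h1 := Multiplicative.ofAdd.injective (zHom_injective p hl)
      rw [nsmul_eq_mul, mul_one] at h1
      exact (ZMod.natCast_eq_zero_iff l p).mp h1
  have h1 : ∀ g, ∃ i : ZMod p, χ g = zHom p (Multiplicative.ofAdd i) := by
    intro g
    have h2 : (χ g) ^ p = 1 := DFunLike.congr_fun hχ g
    obtain ⟨i, -, hi⟩ := (IsPrimitiveRoot.coe_units_iff.mpr hprim).eq_pow_of_pow_eq_one
      (ξ := ((χ g : ℂˣ) : ℂ)) (by rw [← Units.val_pow_eq_pow_val, h2, Units.val_one])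
    refine ⟨(i : ZMod p), Units.ext ?_⟩
    rw [← hi, ← Units.val_pow_eq_pow_val, ← map_pow, ← ofAdd_nsmul, nsmul_eq_mul, mul_one]
  choose c hc using h1
  refine ⟨⟨c, fun g h => ?_⟩, ?_⟩
  · have h2 := hc (g * h)
    rw [map_mul, hc g, hc h, ← map_mul, ← ofAdd_add] at h2
    exact (Multiplicative.ofAdd.injective (zHom_injective p h2)).symm
  · ext1 g
    exact (hc g).symm

/-- eigenclasses are parabolic -/
theorem class_par (hp2 : p ≠ 2) {c : H1 (ZMod p) (ZMod p) (Gamma0 N)} {l : ℕ} (hl : l.Prime)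
    (hl1 : (N : ℤ) ∣ (l : ℤ) - 1) {a : ZMod p}
    (hc : hec (Gamma1_le N) le_rfl l c = a • c) (hne : a ≠ l + 1) (γ : Gamma0 N)
    (hγ : LG.trS (γ : SL(2, ℤ)) ^ 2 = 4) : c.1 γ = 0 := by
  have h2 : (2 : ZMod p) ≠ 0 := by
    intro h
    have h3 : ((2 : ℕ) : ZMod p) = 0 := by exact_mod_cast h
    rw [ZMod.natCast_eq_zero_iff] at h3
    exact hp2 ((Nat.prime_dvd_prime_iff_eq hp.out Nat.prime_two).mp h3)
  have key : ∀ g : Gamma0 N, (g : SL(2, ℤ)) 0 0 + (g : SL(2, ℤ)) 1 1 = 2 → c.1 g = 0 := by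
    rintro ⟨g, hgG⟩ hg
    obtain ⟨h, t, rfl⟩ := exists_parabolic g hg
    have hlN := not_dvd_of_dvd_sub_one hl hl1
    have h3 : (hec (Gamma1_le N) le_rfl l c).1 ⟨h * up t * h⁻¹, hgG⟩ =
        (l + 1) • c.1 ⟨h * up t * h⁻¹, hgG⟩ := by
      rw [hec_T (Gamma1_le N) le_rfl hl hlN, opH_apply, opc_parabolic (Gamma1_le N) le_rfl hl
        (isCoprime_N hl hlN) hl1 (addOn_ex c) h t hgG, ex_apply _ hgG]
    rw [hc] at h3
    have h4 : (a - (l + 1)) * c.1 ⟨h * up t * h⁻¹, hgG⟩ = 0 := by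
      change a * c.1 ⟨h * up t * h⁻¹, hgG⟩ = _ at h3
      rw [sub_mul, h3, nsmul_eq_mul]
      push_cast
      ring
    exact (mul_eq_zero.mp h4).resolve_left (sub_ne_zero.mpr hne)
  have h3 : c.1 (γ * γ) = 0 := by
    refine key _ ?_
    have hdet := (γ : SL(2, ℤ)).det_coe
    rw [Matrix.det_fin_two] at hdet
    have e0 : ((γ * γ : Gamma0 N) : SL(2, ℤ)) 0 0 = (γ : SL(2, ℤ)) 0 0 * (γ : SL(2, ℤ)) 0 0 +
        (γ : SL(2, ℤ)) 0 1 * (γ : SL(2, ℤ)) 1 0 := by
      have : (((γ : SL(2, ℤ)) * (γ : SL(2, ℤ)) : SL(2, ℤ)) : Mat) 0 0 = _ :=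
        congrFun (congrFun (sl_coe_mul (γ : SL(2, ℤ)) γ) 0) 0
      rw [Matrix.mul_apply, Fin.sum_univ_two] at this
      exact this
    have e1 : ((γ * γ : Gamma0 N) : SL(2, ℤ)) 1 1 = (γ : SL(2, ℤ)) 1 0 * (γ : SL(2, ℤ)) 0 1 +
        (γ : SL(2, ℤ)) 1 1 * (γ : SL(2, ℤ)) 1 1 := by
      have : (((γ : SL(2, ℤ)) * (γ : SL(2, ℤ)) : SL(2, ℤ)) : Mat) 1 1 = _ :=
        congrFun (congrFun (sl_coe_mul (γ : SL(2, ℤ)) γ) 1) 1
      rw [Matrix.mul_apply, Fin.sum_univ_two] at this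
      exact this
    rw [e0, e1]
    rw [LG.trS] at hγ
    linear_combination hγ - 2 * hdet
  rw [c.2, ← two_mul] at h3
  exact (mul_eq_zero.mp h3).resolve_left h2

/-- eigencharacters are parabolic -/
theorem isPar_of_eigen (hp2 : p ≠ 2) {χ : XG N p} {l : ℕ} (hl : l.Prime) (hlN : ¬ l ∣ N)
    (hl1 : (N : ℤ) ∣ (l : ℤ) - 1) {a : ℤ} (hχ : heckeX hl hlN p χ = χ ^ a)
    (hne : (a : ZMod p) ≠ l + 1) : IsPar χ.1 := by
  obtain ⟨c, hc⟩ := exists_class χ.2.1
  have h1 : hec (Gamma1_le N) le_rfl l c = (a : ZMod p) • c := by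
    apply zChar_injective
    rw [← heckeChar_zChar hl hlN, zChar_pow, hc]
    exact congrArg Subtype.val hχ
  intro γ hγ
  rw [← hc, zChar_eq_one_iff]
  exact class_par hp2 hl hl1 h1 hne γ hγ

/-- the character attached to a parabolic class -/
theorem zChar_mem {c : H1 (ZMod p) (ZMod p) (Gamma0 N)}
    (hc : ∀ γ : Gamma0 N, LG.trS (γ : SL(2, ℤ)) ^ 2 = 4 → c.1 γ = 0) : zChar c ∈ XG N p :=
  IsPar.mem_XG (fun γ hγ => zChar_eq_one_iff.mpr (hc γ hγ)) (zChar_pow_p c)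

end Dict

end Fermat.Agent.RT
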