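import Fermat.Agent.RT.LGbChar
import Fermat.Agent.RT.EigLift

set_option autoImplicit false
set_option linter.unusedSectionVars false
set_option linter.unusedVariables false
set_option linter.style.haveILetI false

/-!
# From characters modulo `p` to eigenforms
-/

open Matrix CongruenceSubgroup IsLocalRing
open scoped MatrixGroups

noncomputable section

namespace Fermat.Agent.RT

open Fermat.Agent.RT.Ihara Fermat.Agent.ESCore Fermat.Agent.ESCore.ModP Fermat.Agent.LG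
  Fermat.Agent.RT.LR Fermat.Agent.GaloisBasics Fermat.Agent.EC
open ModularFormClass
open WeierstrassCurve WeierstrassCurve.Affine WeierstrassCurve.Affine.Point

local notation "Kb" => AlgebraicClosure ℚ

/-- A residual eigenclass lifts to the localised cohomology. -/
theorem HM0_ne_bot_of_class {N : ℕ} [NeZero N]
    {𝒪 : Type} [CommRing 𝒪] [IsDomain 𝒪] [IsDiscreteValuationRing 𝒪]
    [IsAdicComplete (maximalIdeal 𝒪) 𝒪]
    (h8 : IsUnit (8 : 𝒪)) (I : Set ℕ) (n : ℕ → ℤ) (cb : H1 𝒪 (ResidueField 𝒪) (Gamma0 N))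
    (hcb0 : cb ≠ 0) (hcb3 : ∀ g : Gamma0 N, g ^ 3 = 1 → cb.1 g = 0)
    (hcbI : ∀ i ∈ I, hec (Gamma1_le N) le_rfl i cb = (n i : 𝒪) • cb) :
    HM0 N I (fun l => (n l : 𝒪)) ≠ ⊥ := by
  have := finite_H1 (O := 𝒪) (A := 𝒪) (G := Gamma0 N)
  have := finite_H1 (O := 𝒪) (A := ResidueField 𝒪) (G := Gamma0 N)
  obtain ⟨c₀, hc₀⟩ := exists_mapH_lift h8 (resL 𝒪) resL_surjective cb hcb3
  have hcloc : cb ∈ HM (ResidueField 𝒪) (Gamma1_le N) le_rfl I (fun l => (n l : 𝒪)) := by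
    rintro i j
    refine ⟨1, ?_⟩
    rw [pow_one, LinearMap.sub_apply, LinearMap.smul_apply, Module.End.one_apply]
    have : hecI (Gamma1_le N) le_rfl I i cb = (n i : 𝒪) • cb := hcbI i i.2
    rw [this, sub_self]
    exact Submodule.zero_mem _
  obtain ⟨c₁, hc₁, hc₁c⟩ : ∃ c₁ ∈ HM 𝒪 (Gamma1_le N) le_rfl I (fun l => (n l : 𝒪)),
      mapH (resL 𝒪) c₁ = cb := by
    have h1 := LocG.exists_preimage (M := H1 𝒪 𝒪 (Gamma0 N))
      (M' := H1 𝒪 (ResidueField 𝒪) (Gamma0 N)) (T := hecI (Gamma1_le N) le_rfl I)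
      (T' := hecI (Gamma1_le N) le_rfl I) (a := fun i : I => (n i : 𝒪))
      (hecI_comm _ _ I) (hecI_comm _ _ I) (mapH (resL 𝒪)) (fun i m => hecI_mapH _ _ i m) (m := c₀)
      (by rw [hc₀]; exact hcloc)
    obtain ⟨c₁, h2, h3⟩ := h1
    exact ⟨c₁, h2, h3.trans hc₀⟩
  intro hbot
  apply hcb0
  have h1 : c₁ = 0 := by
    have h2 : c₁ ∈ (⊥ : Submodule 𝒪 (H1 𝒪 𝒪 (Gamma0 N))) := by
      rw [← hbot]
      exact hc₁
    exact (Submodule.mem_bot _).mp h2
  rw [← hc₁c, h1, _root_.map_zero]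

section Curve

variable {W : WeierstrassCurve ℤ} {p : ℕ} [hp : Fact p.Prime]

/-- **A non-trivial eigencharacter gives an eigenform.** -/
theorem residuallyModular_of_char (hΔ : W.Δ ≠ 0) (hp5 : 5 ≤ p) (hirr : W.ModRepIsIrreducible p)
    {M : ℕ} [NeZero M] (S : Finset ℕ) (χ : XG M p) (hχ1 : χ ≠ 1)
    (hχ : ∀ (l : ℕ) (hl : l.Prime) (hlM : ¬ l ∣ M), l ∉ S →
      heckeX hl hlM p χ = χ ^ (W.apOfModel l)) :
    W.IsResiduallyModularOfLevel p M := by
  haveI := charP_residue_padic (p := p)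
  have hp2 : p ≠ 2 := by omega
  have hnz : ∀ m : ℕ, 0 < m → m < p → (m : ZMod p) ≠ 0 := by
    intro m hm hmp h0
    rw [ZMod.natCast_eq_zero_iff] at h0
    exact absurd (Nat.le_of_dvd hm h0) (not_le.mpr hmp)
  have h8 : IsUnit (8 : ℤ_[p]) := by
    have h1 := isUnit_int (p := p) (n := 8) (by
      have h2 : ((8 : ℤ) : ZMod p) = ((2 : ℕ) : ZMod p) ^ 3 := by norm_num
      rw [h2]
      exact pow_ne_zero _ (hnz 2 (by norm_num) (by omega)))
    exact_mod_cast h1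
  obtain ⟨c', hc'⟩ := exists_class χ.2.1
  set I : Set ℕ := {l | l.Prime ∧ W.IsGoodPrimeFor l ∧ ¬ l ∣ M ∧ l ≠ p ∧ l ∉ S} with hI
  obtain ⟨l₁, hl₁, hl₁S, hl₁g, hl₁p, hl₁m, hne₁⟩ := exists_l1 hp2 hΔ hirr M S
  have hl₁M : ¬ l₁ ∣ M := not_dvd_of_dvd_sub_one hl₁ hl₁m
  have hl₁I : l₁ ∈ I := ⟨hl₁, hl₁g, hl₁M, hl₁p, hl₁S⟩
  have hcc : ∀ l ∈ I, hec (Gamma1_le M) le_rfl l c' = ((W.apOfModel l : ℤ) : ZMod p) • c' := by
    rintro l ⟨hl, hlg, hlM, hlp, hlS⟩
    apply zChar_injective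
    rw [← heckeChar_zChar hl hlM, zChar_pow, hc']
    exact congrArg Subtype.val (hχ l hl hlM hlS)
  have hc0 : c' ≠ 0 := by
    rintro rfl
    apply hχ1
    apply Subtype.ext
    rw [← hc']
    ext1 g
    exact zChar_eq_one_iff.mpr rfl
  have hc3 : ∀ g : Gamma0 M, g ^ 3 = 1 → c'.1 g = 0 := by
    intro g hg
    have h1 : zChar c' g ^ 3 = 1 := by rw [← map_pow, hg, map_one]
    have h2 : zChar c' g ^ p = 1 := by rw [← MonoidHom.pow_apply, zChar_pow_p, MonoidHom.one_apply]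
    have h3 : Nat.Coprime 3 p := by
      rw [Nat.coprime_primes Nat.prime_three hp.out]
      omega
    rw [← zChar_eq_one_iff]
    have h4 : orderOf (zChar c' g) ∣ 1 := by
      rw [← h3]
      exact Nat.dvd_gcd (orderOf_dvd_of_pow_eq_one h1) (orderOf_dvd_of_pow_eq_one h2)
    exact orderOf_eq_one_iff.mp (Nat.dvd_one.mp h4)
  let lam : ZMod p →+ ResidueField ℤ_[p] :=
    (PadicInt.residueField (p := p)).symm.toRingHom.toAddMonoidHom
  have hlam : Function.Injective lam := (PadicInt.residueField (p := p)).symm.injective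
  set cb : H1 ℤ_[p] (ResidueField ℤ_[p]) (Gamma0 M) := extH lam c' with hcb
  have hcb0 : cb ≠ 0 := by
    intro h
    apply hc0
    apply Subtype.ext
    funext g
    have h1 : lam (c'.1 g) = 0 := congrFun (congrArg Subtype.val h) g
    rw [← _root_.map_zero lam] at h1
    exact hlam h1
  have hcb3 : ∀ g : Gamma0 M, g ^ 3 = 1 → cb.1 g = 0 := fun g hg => by
    change lam (c'.1 g) = 0
    rw [hc3 g hg, _root_.map_zero]
  have hcbI : ∀ i ∈ I, hec (Gamma1_le M) le_rfl i cb = ((W.apOfModel i : ℤ) : ℤ_[p]) • cb :=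
    fun l hl => extH_hec (𝒪 := ℤ_[p]) lam (hcc l hl)
  have hbot := HM0_ne_bot_of_class h8 I (fun l => W.apOfModel l) cb hcb0 hcb3 hcbI
  obtain ⟨F, φ, hF, hφ, -⟩ := exists_eigenform_of_HM (𝒪 := ℤ_[p]) (N := M) (I := I)
    (a := fun l => ((W.apOfModel l : ℤ) : ℤ_[p])) ⟨l₁, hl₁I, hl₁, hl₁m, by
      have h1 : ((W.apOfModel l₁ : ℤ) : ℤ_[p]) - ((l₁ : ℤ_[p]) + 1) =
          ((W.apOfModel l₁ - (l₁ + 1) : ℤ) : ℤ_[p]) := by
        push_cast; ring
      rw [h1]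
      apply isUnit_int
      push_cast
      exact sub_ne_zero.mpr hne₁⟩ _ hbot le_rfl (fun n v hv => hec_mem_HM0 n ⟨v, hv⟩)
  haveI : CharP (AlgebraicClosure (ResidueField ℤ_[p])) p := inferInstance
  have hpk : (p : integralClosure ℤ ℂ) ∈ RingHom.ker φ := by
    rw [RingHom.mem_ker, map_natCast, CharP.cast_eq_zero]
  -- comparison of the representations
  obtain ⟨ρ', L', hLf', hL', hunr, hfr⟩ := exists_matRep hF hp.out φ
  let j : ZMod p →+* AlgebraicClosure (ResidueField ℤ_[p]) := ZMod.castHom dvd_rfl _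
  obtain ⟨L, hLf, hL⟩ := exists_level_modRep (p := p) hΔ
  have hcmp := trace_eq_of_frob j hL hL'
    (((W.Δ.natAbs.primeFactors ∪ M.primeFactors) ∪ {p}) ∪ S) (fun l hl hlT A hA φ' hφ' => by
      simp only [Finset.mem_union, Finset.mem_singleton, not_or, Nat.mem_primeFactors,
        not_and] at hlT
      obtain ⟨⟨⟨h1, h2⟩, h3⟩, hS⟩ := hlT
      have hgood : W.IsGoodPrimeFor l := by
        intro hd
        exact h1 hl (by rwa [← Int.natCast_dvd]) (Int.natAbs_ne_zero.mpr hΔ)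
      have hlM : ¬ l ∣ M := fun h => h2 hl h (NeZero.ne M)
      obtain ⟨a, ha, ht, hd⟩ := hfr l hl hlM h3 A hA φ' hφ'
      obtain ⟨a', ha', hφa⟩ := hφ l ⟨hl, hgood, hlM, h3, hS⟩ hl
      have haa : a = a' := Subtype.ext (ha.trans ha'.symm)
      obtain ⟨h4, h5⟩ := modRep_frob hΔ hl hgood h3 hA hφ'
      rw [ht, hd, h4, h5, haa, hφa, map_intCast, map_natCast, map_intCast, map_intCast]
      exact ⟨rfl, rfl⟩)
  refine ⟨F, RingHom.ker φ, hF, ker_isMaximal hp.out φ, hpk, fun l hl hlg hlM hlp => ?_⟩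
  obtain ⟨B, hB⟩ := exists_liesOverPrime hl
  obtain ⟨σ, hσ⟩ := exists_isFrobeniusAt hl B hB
  obtain ⟨a, ha, ht, -⟩ := hfr l hl hlM hlp B hB σ hσ
  refine ⟨a, ha, ?_⟩
  rw [RingHom.mem_ker, map_sub, ← ht, (hcmp σ).1, (modRep_frob hΔ hl hlg hlp hB hσ).1,
    map_intCast, map_intCast, sub_self]

end Curve

end Fermat.Agent.RT
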