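import Fermat.Agent.RT.LGbAlg
import Fermat.Agent.RT.LGbW
import Fermat.Agent.RT.LGbForm
import Fermat.Agent.RT.CycPs

set_option autoImplicit false
set_option linter.unusedSectionVars false
set_option linter.unusedVariables false
set_option linter.style.haveILetI false

/-!
# The Galois action on the eigencharacters modulo `p`
-/

open Matrix CongruenceSubgroup IsLocalRing
open scoped MatrixGroups

noncomputable section

namespace Fermat.Agent.RT

open Fermat.Agent.ESCore Fermat.Agent.ESCore.ModP Fermat.Agent.ESCore.Univ Fermat.Agent.LG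
  Fermat.Agent.EC
open WeierstrassCurve WeierstrassCurve.Affine WeierstrassCurve.Affine.Point

section Density

variable {F E : Type*} [Field F] [Ring E] [Algebra F E]

/-- The relations hold everywhere if they hold for the Frobenius elements. -/
theorem scalRep_of_frob {P : GQ →* E} {c : GQ →* F} {ρ : GQ →* Matrix (Fin 2) (Fin 2) F}
    {L : IntermediateField ℚ Qb} [FiniteDimensional ℚ L]
    (hL : ∀ σ : GQ, (∀ x ∈ L, σ x = x) → P σ = 1 ∧ c σ = 1 ∧ ρ σ = 1) (T : Finset ℕ)
    (h : ∀ l : ℕ, l.Prime → l ∉ T → ∀ A : ValuationSubring Qb, A.LiesOverPrime l →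
      ∀ φ : GQ, A.IsFrobeniusAt φ l →
        algebraMap F E (ρ φ).trace = P φ + algebraMap F E (c φ) * P φ⁻¹ ∧ (ρ φ).det = c φ) :
    ScalRep P c ρ := by
  refine ⟨fun g => ?_⟩
  obtain ⟨l, hl, hlT, A, hA, φ, hφ, i, u, hu, huL⟩ := exists_frob_pow_mul L g T
  obtain ⟨h1, h2⟩ := h l hl hlT A hA φ hφ
  obtain ⟨u1, u2, u3⟩ := hL u huL
  have u1' : P u⁻¹ = 1 := by
    have h3 : P u⁻¹ * P u = 1 := by rw [← map_mul, inv_mul_cancel, map_one]
    rwa [u1, mul_one] at h3
  have h3 := scalRep_pow P c h1 h2 i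
  rw [hu, map_mul, map_mul, map_mul, _root_.mul_inv_rev, map_mul P (φ ^ i)⁻¹, u1, u2, u3, u1', one_mul,
    one_mul, one_mul, mul_one, map_pow]
  exact h3

end Density

section EndGen

variable {V : Type*} [AddCommGroup V]

theorem end_rel {P Q : AddMonoid.End V} {n : ℤ} {m : ℕ} (h : ∀ x, n • x = P x + m • Q x) :
    (n : AddMonoid.End V) = P + (m : AddMonoid.End V) * Q := by
  ext1 x
  have e1 : (n : AddMonoid.End V) x = n • x := AddMonoid.End.intCast_apply _ _
  rw [e1, h]
  change P x + m • Q x = P x + (m : AddMonoid.End V) (Q x)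
  rw [AddMonoid.End.natCast_apply]

theorem end_natCast {m : ℕ} (h : ∀ x : V, m • x = 0) : (m : AddMonoid.End V) = 0 := by
  ext1 x
  rw [AddMonoid.End.natCast_apply, h]
  rfl

theorem end_eq_one {P : AddMonoid.End V} (h : ∀ x, P x = x) : P = 1 := by
  ext1 x
  exact h x

theorem end_comm {P Q : AddMonoid.End V} (h : ∀ x, P (Q x) = Q (P x)) : P * Q = Q * P := by
  ext1 x
  exact h x

theorem end_sq {P : AddMonoid.End V} {m : ℕ} (h : ∀ x, P (P x) = m • x) :
    P * P = (m : AddMonoid.End V) := by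
  ext1 x
  rw [AddMonoid.End.natCast_apply]
  exact h x

theorem end_nontrivial {x : V} (h : x ≠ 0) : Nontrivial (AddMonoid.End V) :=
  ⟨1, 0, fun h1 => h (DFunLike.congr_fun h1 x)⟩

end EndGen

section Act

variable {N p : ℕ} [NeZero N] [hp : Fact p.Prime]

/-- the eigencharacters -/
def eigV (N p : ℕ) (S : Finset ℕ) (a : ℕ → ℤ) : AddSubgroup (Additive (XG N p)) where
  carrier := {x | ∀ (l : ℕ) (hl : l.Prime) (hlN : ¬ l ∣ N), l ∉ S → heckeXL hl hlN p x = a l • x}
  add_mem' := fun {x y} hx hy l hl hlN hlS => by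
    rw [map_add, hx l hl hlN hlS, hy l hl hlN hlS, smul_add]
  zero_mem' := fun l hl hlN hlS => by rw [_root_.map_zero, smul_zero]
  neg_mem' := fun {x} hx l hl hlN hlS => by
    rw [map_neg, hx l hl hlN hlS, smul_neg]

variable {S : Finset ℕ} {a : ℕ → ℤ}

theorem mem_eigV {x : Additive (XG N p)} : x ∈ eigV N p S a ↔
    ∀ (l : ℕ) (hl : l.Prime) (hlN : ¬ l ∣ N), l ∉ S →
      heckeX hl hlN p x.toMul = x.toMul ^ (a l) := Iff.rfl

theorem galDataP : GalData N p (galX N hp.out.pos) :=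
  galData_galX hp.out.pos fun _ hl hlN hlm _ hB =>
    Fermat.Agent.KL.klProp hp.out.pos hl hlN hlm hB

theorem galX_mul_apply (σ τ : GQ) (x : XG N p) :
    galX N hp.out.pos (σ * τ) x = galX N hp.out.pos σ (galX N hp.out.pos τ x) := by
  rw [map_mul (galX N hp.out.pos) σ τ]
  rfl

theorem galX_one_apply (x : XG N p) : galX N hp.out.pos 1 x = x := by
  rw [map_one (galX N hp.out.pos)]
  rfl

theorem galX_inv_apply (σ : GQ) (x : XG N p) :
    galX N hp.out.pos σ (galX N hp.out.pos σ⁻¹ x) = x := by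
  rw [← galX_mul_apply, mul_inv_cancel, galX_one_apply]

theorem gal_mem_eigV (σ : GQ) {x : Additive (XG N p)} (hx : x ∈ eigV N p S a) :
    Additive.ofMul (galX N hp.out.pos σ x.toMul) ∈ eigV N p S a := by
  intro l hl hlN hlS
  have h1 := galDataP.comm l hl hlN σ x.toMul
  have h2 : heckeX hl hlN p x.toMul = x.toMul ^ (a l) := hx l hl hlN hlS
  rw [h2, map_zpow (galX N hp.out.pos σ)] at h1
  exact h1

/-- the action of an element -/
def galVf (σ : GQ) : eigV N p S a →+ eigV N p S a where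
  toFun := fun x => ⟨Additive.ofMul (galX N hp.out.pos σ x.1.toMul), gal_mem_eigV σ x.2⟩
  map_zero' := Subtype.ext (congrArg Additive.ofMul (map_one (galX N hp.out.pos σ)))
  map_add' := fun x y => Subtype.ext (congrArg Additive.ofMul
    (map_mul (galX N hp.out.pos σ) x.1.toMul y.1.toMul))

variable (N p S a) in
/-- the Galois action on the eigencharacters -/
def galV : GQ →* AddMonoid.End (eigV N p S a) where
  toFun σ := galVf σ
  map_one' := by
    ext1 x
    apply Subtype.ext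
    exact congrArg Additive.ofMul (galX_one_apply x.1.toMul)
  map_mul' σ τ := by
    ext1 x
    apply Subtype.ext
    exact congrArg Additive.ofMul (galX_mul_apply σ τ x.1.toMul)

theorem galV_coe (σ : GQ) (x : eigV N p S a) :
    (galV N p S a σ x : Additive (XG N p)) = Additive.ofMul (galX N hp.out.pos σ x.1.toMul) := rfl

theorem natCast_eigV : ((p : ℕ) : AddMonoid.End (eigV N p S a)) = 0 := by
  refine end_natCast fun x => Subtype.ext ?_
  change p • x.1 = 0
  apply Additive.toMul.injective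
  apply Subtype.ext
  rw [toMul_nsmul, Subgroup.coe_pow]
  exact x.1.toMul.2.1

variable (N p S a) in
/-- scalars -/
@[reducible] def algV : Algebra (ZMod p) (AddMonoid.End (eigV N p S a)) :=
  (zEnd p natCast_eigV).toAlgebra' fun c x => by
    haveI : NeZero p := ⟨hp.out.ne_zero⟩
    rw [zEnd_val]
    exact Nat.cast_comm _ _

theorem es_eigV {l : ℕ} (hl : l.Prime) (hlN : ¬ l ∣ N) (hlp : l ≠ p) (hlS : l ∉ S)
    {A : ValuationSubring Qb} (hA : A.LiesOverPrime l) {φ : GQ} (hφ : A.IsFrobeniusAt φ l)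
    (x : eigV N p S a) :
    a l • x = galV N p S a φ x + l • galV N p S a φ⁻¹ x := by
  apply Subtype.ext
  have hlp' : ¬ l ∣ p := fun h => hlp ((Nat.prime_dvd_prime_iff_eq hl hp.out).mp h)
  have h6 := galDataP.es l hl hlN hlp' A hA φ hφ (galX N hp.out.pos φ⁻¹ x.1.toMul)
  have h7 : heckeX hl hlN p x.1.toMul = x.1.toMul ^ (a l) := x.2 l hl hlN hlS
  rw [galX_mul_apply, galX_inv_apply, h7] at h6
  exact congrArg Additive.ofMul h6

theorem rel_eigV {l : ℕ} (hl : l.Prime) (hlN : ¬ l ∣ N) (hlp : l ≠ p) (hlS : l ∉ S)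
    {A : ValuationSubring Qb} (hA : A.LiesOverPrime l) {φ : GQ} (hφ : A.IsFrobeniusAt φ l) :
    ((a l : ℤ) : AddMonoid.End (eigV N p S a)) =
      galV N p S a φ + ((l : ℕ) : AddMonoid.End (eigV N p S a)) * galV N p S a φ⁻¹ := by
  exact end_rel (es_eigV hl hlN hlp hlS hA hφ)

theorem galV_eq_one {σ : GQ} (h : galX N hp.out.pos (m := p) σ = 1) : galV N p S a σ = 1 := by
  refine end_eq_one fun x => Subtype.ext ?_
  rw [galV_coe, h]
  rfl

end Act

section Curve

variable {N p : ℕ} [NeZero N] [hp : Fact p.Prime] {W : WeierstrassCurve ℤ}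

/-- the matrix representation -/
def rhoW (p : ℕ) [hp : Fact p.Prime] (hΔ : W.Δ ≠ 0) : GQ →* Matrix (Fin 2) (Fin 2) (ZMod p) :=
  (Units.coeHom _).comp (modRep (torsBasis p W hΔ))

theorem rhoW_apply (hΔ : W.Δ ≠ 0) (σ : GQ) :
    rhoW p hΔ σ = (modRep (torsBasis p W hΔ) σ).val := rfl

/-- its determinant -/
def detW (p : ℕ) [hp : Fact p.Prime] (hΔ : W.Δ ≠ 0) : GQ →* ZMod p :=
  (Matrix.detMonoidHom (n := Fin 2) (R := ZMod p)).comp (rhoW p hΔ)

theorem detW_apply (hΔ : W.Δ ≠ 0) (σ : GQ) : detW p hΔ σ = (rhoW p hΔ σ).det := rfl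

theorem span_rhoW (hΔ : W.Δ ≠ 0) (hp2 : p ≠ 2) (hirr : W.ModRepIsIrreducible p) :
    Submodule.span (ZMod p) (Set.range (rhoW p hΔ)) = ⊤ := by
  have h1 : Submodule.span (ZMod p) (imgSet (modRep (torsBasis p W hΔ)) ⊤) = ⊤ :=
    span_imgSet_eq_top (AlgebraicClosure (ZMod p))
      (abs_irr_of_odd hp2 (modRep_irr (torsBasis p W hΔ) hirr)
        (fun g => by rw [modRep_det, ss_det hΔ]))
  rw [← h1]
  congr 1
  ext M
  constructor
  · rintro ⟨g, rfl⟩
    exact ⟨g, trivial, rfl⟩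
  · rintro ⟨g, -, rfl⟩
    exact ⟨g, rfl⟩

theorem scalRep_eigV (hΔ : W.Δ ≠ 0) (S : Finset ℕ) :
    letI := algV N p S W.apOfModel
    ScalRep (galV N p S W.apOfModel) (detW p hΔ) (rhoW p hΔ) := by
  letI := algV N p S W.apOfModel
  obtain ⟨L, hLf, hL⟩ := galX_continuous (N := N) hp.out.pos
  obtain ⟨L', hLf', hL'⟩ := exists_level_modRep (p := p) hΔ
  haveI := hLf
  haveI := hLf'
  refine scalRep_of_frob (L := L ⊔ L') (fun σ hσ => ?_)
    (((W.Δ.natAbs.primeFactors ∪ N.primeFactors) ∪ {p}) ∪ S) (fun l hl hlT A hA φ hφ => ?_)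
  · have h1 := hL σ fun x hx => hσ x ((le_sup_left : L ≤ L ⊔ L') hx)
    have h2 := hL' σ fun x hx => hσ x ((le_sup_right : L' ≤ L ⊔ L') hx)
    have h3 : rhoW p hΔ σ = 1 := by rw [rhoW_apply, h2, Units.val_one]
    exact ⟨galV_eq_one h1, by rw [detW_apply, h3, det_one], h3⟩
  · simp only [Finset.mem_union, Finset.mem_singleton, not_or, Nat.mem_primeFactors,
      not_and] at hlT
    obtain ⟨⟨⟨h1, h2⟩, h3⟩, hS⟩ := hlT
    have hgood : W.IsGoodPrimeFor l := by
      intro hd
      exact h1 hl (by rwa [← Int.natCast_dvd]) (Int.natAbs_ne_zero.mpr hΔ)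
    have hlN : ¬ l ∣ N := fun h => h2 hl h (NeZero.ne N)
    have h45 := modRep_frob hΔ hl hgood h3 hA hφ
    have h4' : (rhoW p hΔ φ).trace = ((W.apOfModel l : ℤ) : ZMod p) := h45.1
    have h5' : detW p hΔ φ = ((l : ℕ) : ZMod p) := h45.2
    refine ⟨?_, rfl⟩
    have e1 : algebraMap (ZMod p) (AddMonoid.End (eigV N p S W.apOfModel)) (rhoW p hΔ φ).trace =
        ((W.apOfModel l : ℤ) : AddMonoid.End (eigV N p S W.apOfModel)) := by
      rw [h4']
      exact map_intCast _ _
    have e2 : algebraMap (ZMod p) (AddMonoid.End (eigV N p S W.apOfModel)) (detW p hΔ φ) =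
        ((l : ℕ) : AddMonoid.End (eigV N p S W.apOfModel)) := by
      rw [h5']
      exact map_natCast _ _
    exact e1.trans ((rel_eigV hl hlN h3 hS hA hφ).trans (congrArg (fun y =>
      galV N p S W.apOfModel φ + y * galV N p S W.apOfModel φ⁻¹) e2.symm))

end Curve

end Fermat.Agent.RT
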