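import Fermat.Agent.LG.PsVec

set_option autoImplicit false

/-!
# Vectors on which an element acts as a scalar
-/

namespace Fermat.Agent.RT

open Fermat.Agent.LG

section Alg

variable {G E V : Type*} [Group G] [Ring E] [AddCommGroup V] [Module E V]
  {P X : G →* E} {T : G → E}

theorem chX_comm (h : CHData P X T) (a b : G) : X (a * b) = X (b * a) := by
  rw [map_mul, map_mul, h.X_comm]

theorem chT_smul (h : CHData P X T) (g : G) (z : V) : T g • z = P g • z + X g • P g⁻¹ • z := by
  rw [h.T_eq, add_smul, mul_smul]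

/-- the trace acts on fixed vectors through the character only -/
theorem chT_smul_fixed (h : CHData P X T) {u : V} (hu : ∀ g, P g • u = u) (g : G) :
    T g • u = u + X g • u := by
  rw [chT_smul h, hu, hu]

/-- commutator traces kill fixed vectors -/
theorem kill_fixed (h : CHData P X T) {u : V} (hu : ∀ g, P g • u = u) (a b k a' b' : G) :
    T (a * b * k * (a' * b')) • u - T (a * b * k * (b' * a')) • u -
      T (b * a * k * (a' * b')) • u + T (b * a * k * (b' * a')) • u = 0 := by
  have e1 : X (a * b * k * (a' * b')) = X (a * b * k * (b' * a')) := by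
    rw [map_mul X (a * b * k), map_mul X (a * b * k), chX_comm h a' b']
  have e2 : X (b * a * k * (a' * b')) = X (b * a * k * (b' * a')) := by
    rw [map_mul X (b * a * k), map_mul X (b * a * k), chX_comm h a' b']
  rw [chT_smul_fixed h hu, chT_smul_fixed h hu, chT_smul_fixed h hu, chT_smul_fixed h hu, e1, e2]
  abel

section Scalar

variable (h : CHData P X T) {φ : G} {c : ℤ} {y : V} (hX : ∀ z : V, X φ • z = c • z)
  (hy : ∀ g, P φ • P g • y = c • P g • y)

include h hX hy

theorem scalar_step (g l : G) : (c - 1) • P g • P l • y = T (φ * g) • P l • y - T g • P l • y := by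
  have e1 : P (φ * g) • P l • y = c • P g • P l • y := by
    rw [map_mul, mul_smul, ← mul_smul (P g), ← map_mul, hy, map_mul, mul_smul]
  have e2 : X (φ * g) • P (φ * g)⁻¹ • P l • y = X g • P g⁻¹ • P l • y := by
    rw [map_mul, mul_smul, mul_inv_rev, map_mul, mul_smul, hX]
    have e3 : c • P φ⁻¹ • P l • y = P l • y := by
      have e4 : P φ⁻¹ • P φ • P l • y = P l • y := by
        rw [← mul_smul, ← map_mul, inv_mul_cancel, map_one, one_smul]
      rw [hy, smul_comm (P φ⁻¹) c] at e4
      exact e4
    rw [← smul_comm (X g) c, ← smul_comm (P g⁻¹) c, e3]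
  rw [chT_smul h, chT_smul h g, e1, e2, sub_smul, one_smul]
  abel

theorem scalar_comm (g g' l : G) :
    (c - 1) • P g • P g' • P l • y = (c - 1) • P g' • P g • P l • y := by
  have h1 := scalar_step h hX hy g (g' * l)
  rw [map_mul, mul_smul] at h1
  have h2 := scalar_step h hX hy g l
  have e1 : ∀ x, T x • P g' • P l • y = P g' • T x • P l • y := fun x => by
    rw [← mul_smul, h.T_comm, mul_smul]
  rw [h1, e1, e1, ← smul_sub, ← h2, smul_comm (P g') (c - 1)]

theorem scalar_two (x a' b' : G) :
    (c - 1) • (T (x * (a' * b')) • y - T (x * (b' * a')) • y) = 0 := by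
  have e1 := scalar_comm h hX hy a' b' 1
  rw [map_one, one_smul] at e1
  have e2 := scalar_comm h hX hy b'⁻¹ a'⁻¹ x⁻¹
  have e3 : X (x * (a' * b')) = X (x * (b' * a')) := by
    rw [map_mul X x, map_mul X x, chX_comm h a' b']
  rw [chT_smul h, chT_smul h (x * (b' * a')), e3]
  have f1 : P (x * (a' * b')) • y = P x • P a' • P b' • y := by
    rw [map_mul, map_mul, mul_smul, mul_smul]
  have f2 : P (x * (b' * a')) • y = P x • P b' • P a' • y := by
    rw [map_mul, map_mul, mul_smul, mul_smul]
  have f3 : P (x * (a' * b'))⁻¹ • y = P b'⁻¹ • P a'⁻¹ • P x⁻¹ • y := by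
    rw [mul_inv_rev, mul_inv_rev, map_mul, map_mul, mul_smul, mul_smul]
  have f4 : P (x * (b' * a'))⁻¹ • y = P a'⁻¹ • P b'⁻¹ • P x⁻¹ • y := by
    rw [mul_inv_rev, mul_inv_rev, map_mul, map_mul, mul_smul, mul_smul]
  rw [f1, f2, f3, f4, add_sub_add_comm, smul_add, ← smul_sub, ← smul_sub,
    smul_comm (c - 1) (P x), smul_comm (c - 1) (X _), smul_sub (c - 1), smul_sub (c - 1), e1, e2,
    sub_self, sub_self, smul_zero, smul_zero, add_zero]

/-- **commutator traces kill the vectors on which `φ` acts as a scalar** -/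
theorem kill_scalar (a b k a' b' : G) :
    (c - 1) • (T (a * b * k * (a' * b')) • y - T (a * b * k * (b' * a')) • y -
      T (b * a * k * (a' * b')) • y + T (b * a * k * (b' * a')) • y) = 0 := by
  have h1 := scalar_two h hX hy (a * b * k) a' b'
  have h2 := scalar_two h hX hy (b * a * k) a' b'
  have e1 : T (a * b * k * (a' * b')) • y - T (a * b * k * (b' * a')) • y -
      T (b * a * k * (a' * b')) • y + T (b * a * k * (b' * a')) • y =
      (T (a * b * k * (a' * b')) • y - T (a * b * k * (b' * a')) • y) -
      (T (b * a * k * (a' * b')) • y - T (b * a * k * (b' * a')) • y) := by abel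
  rw [e1, smul_sub, h1, h2, sub_zero]

end Scalar

end Alg

end Fermat.Agent.RT
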