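import Fermat.Agent.RT.LGcAlg
import Fermat.Agent.LG.R36

set_option autoImplicit false
set_option linter.unusedVariables false

/-!
# The contradiction from the action of the square of Frobenius
-/

open IsLocalRing CongruenceSubgroup Matrix.SpecialLinearGroup Polynomial
open scoped MatrixGroups

noncomputable section

namespace Fermat.Agent.RT

open ESCore ESCore.ModP ESCore.Tower ESCore.Univ UnivDef LG

section

variable {N : ℕ} [NeZero N] {S : Finset ℕ} {p : ℕ}

theorem psiMul_psiMul {O : Type} [CommRing O] (ψ : Multiplicative O →* ℂˣ) (D D' : O) :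
    psiMul (psiMul ψ D) D' = psiMul ψ (D * D') := by
  refine MonoidHom.ext fun x => ?_
  change ψ (Multiplicative.ofAdd (D * (D' * _))) = ψ (Multiplicative.ofAdd (D * D' * _))
  rw [mul_assoc]

/-- the vectors attached to the characters of `O` -/
def xv {O : Type} [CommRing O] (v : LatM N (↑S : Set ℕ) →+ O) {m : ℕ}
    (ψ : Multiplicative O →* ℂˣ) (hψ : ψ ^ (p ^ m) = 1) : Additive (XG N (p ^ m)) :=
  Additive.ofMul ⟨vChar v ψ, vChar_mem v hψ⟩

set_option maxHeartbeats 1000000 in
/-- the characters multiplied by `D²` are fixed by the elements acting trivially -/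
theorem fixed_char (hp : p.Prime) (hpS : p ∈ S) (hNS : ∀ q : ℕ, q.Prime → q ∣ N → q ∈ S)
    (hKL : ∀ l : ℕ, l.Prime → ¬ l ∣ N → l ≠ p → ∀ B : ValuationSubring Qb,
      B.LiesOverPrime l → ∀ n, KLProp N (p ^ n) B)
    {O : Type} [CommRing O]
    {π : CuspForm.heckeAlgebra N 2 (↑S : Set ℕ) →+* O} {v : LatM N (↑S : Set ℕ) →+ O}
    (hvT : ∀ (f : CuspForm.heckeAlgebra N 2 (↑S : Set ℕ)) x, v (f • x) = π f * v x)
    {t : GQ → O} {m k : ℕ} {f : GQ → TR N S p}
    (hf : ∀ g, f g ∈ algP (TxS N S p) (TtS N S))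
    (hfm : ∀ g, (f g).1 m = trS (rhoT N hp.pos m) (chiT N hp.pos m) g)
    (h1 : ∀ g, t g - π (f g).2 ∈ Ideal.span {(k : O)}) (htc : ∀ g h, t (g * h) = t (h * g))
    {σ : GQ} (hU : ∀ g, t (σ * g) = t g) (a b k' a' b' : GQ) {D : O}
    (hD : t (a * b * k' * (a' * b')) - t (a * b * k' * (b' * a')) -
      t (b * a * k' * (a' * b')) + t (b * a * k' * (b' * a')) = D)
    {ψ : Multiplicative O →* ℂˣ} (hψk : ψ ^ k = 1) (hψ : ψ ^ (p ^ m) = 1)
    (hψ' : (psiMul (psiMul ψ D) D) ^ (p ^ m) = 1) :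
    rhoT N hp.pos m σ • xv v (psiMul (psiMul ψ D) D) hψ' = xv v (psiMul (psiMul ψ D) D) hψ' := by
  have CH := chData hp hpS hNS hKL m hf hfm
  set x : Additive (XG N (p ^ m)) := xv v (psiMul ψ D) (psiMul_pow D hψ) with hx
  set u : Additive (XG N (p ^ m)) := rhoT N hp.pos m σ • x - x with hu
  -- `u` is fixed by all elements
  have hfix : ∀ τ, rhoT N hp.pos m τ • u = u := by
    intro τ
    have h2 := rEl_char hp hpS hNS hKL hvT hf hfm h1 (σ := σ) (τ := τ) (fun g => by
      have e1 : t (τ * σ * g) = t (τ * g) := by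
        rw [mul_assoc, htc τ, mul_assoc, hU, htc g]
      rw [e1, hU]
      ring) a b k' a' b' hψk hψ
    simp only [hD] at h2
    have h3 : rEl (rhoT N hp.pos m) σ τ • x = 0 := h2
    rw [rEl, add_smul, sub_smul, sub_smul, mul_smul, one_smul] at h3
    rw [hu, smul_sub]
    rw [sub_eq_iff_eq_add]
    have h4 : rhoT N hp.pos m τ • rhoT N hp.pos m σ • x =
        rhoT N hp.pos m τ • x + rhoT N hp.pos m σ • x - x := by
      rw [eq_sub_iff_add_eq, ← sub_eq_zero, ← h3]
      abel
    rw [h4]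
    abel
  have hk := kill_fixed CH hfix a b k' a' b'
  have hFD : f (a * b * k' * (a' * b')) - f (a * b * k' * (b' * a')) -
      f (b * a * k' * (a' * b')) + f (b * a * k' * (b' * a')) ∈
      algP (TxS N S p) (TtS N S) :=
    add_mem (sub_mem (sub_mem (hf _) (hf _)) (hf _)) (hf _)
  set FD := f (a * b * k' * (a' * b')) - f (a * b * k' * (b' * a')) -
      f (b * a * k' * (a' * b')) + f (b * a * k' * (b' * a')) with hFDdef
  have hxy := act_char hvT hFD (y := D) (k := k) (by
    have e2 : π FD.2 = π (f (a * b * k' * (a' * b'))).2 - π (f (a * b * k' * (b' * a'))).2 -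
        π (f (b * a * k' * (a' * b'))).2 + π (f (b * a * k' * (b' * a'))).2 := by
      rw [← map_sub, ← map_sub, ← map_add]
      rfl
    have e1 : D - π FD.2 =
        (t (a * b * k' * (a' * b')) - π (f (a * b * k' * (a' * b'))).2) -
        (t (a * b * k' * (b' * a')) - π (f (a * b * k' * (b' * a'))).2) -
        (t (b * a * k' * (a' * b')) - π (f (b * a * k' * (a' * b'))).2) +
        (t (b * a * k' * (b' * a')) - π (f (b * a * k' * (b' * a'))).2) := by
      rw [e2, ← hD]
      ring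
    rw [e1]
    exact add_mem (sub_mem (sub_mem (h1 _) (h1 _)) (h1 _)) (h1 _)) (psiMul_pow D hψk)
      (psiMul_pow D hψ)
  have h5 : FD.1 m = (f (a * b * k' * (a' * b'))).1 m - (f (a * b * k' * (b' * a'))).1 m -
      (f (b * a * k' * (a' * b'))).1 m + (f (b * a * k' * (b' * a'))).1 m := rfl
  have h6 : FD.1 m • u = 0 := by
    rw [h5, add_smul, sub_smul, sub_smul]
    exact hk
  have hcomm : Commute (FD.1 m) (rhoT N hp.pos m σ) :=
    algP_commute (fun i => (galTower (N := N) hp hpS hNS hKL).ρcomm i m σ) hFD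
  have h7 : FD.1 m • x = xv v (psiMul (psiMul ψ D) D) hψ' := hxy
  rw [hu, smul_sub, ← mul_smul, hcomm.eq, mul_smul, h7, sub_eq_zero] at h6
  exact h6

/-- the Hecke operators act on the vectors attached to the characters -/
theorem xv_hecke {O : Type} [CommRing O]
    {π : CuspForm.heckeAlgebra N 2 (↑S : Set ℕ) →+* O} {v : LatM N (↑S : Set ℕ) →+ O}
    (hvT : ∀ (f : CuspForm.heckeAlgebra N 2 (↑S : Set ℕ)) x, v (f • x) = π f * v x) {m : ℕ}
    (i : Idx N S) {ψ : Multiplicative O →* ℂˣ} (hψ : ψ ^ (p ^ m) = 1) :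
    TxS N S p i m • xv v ψ hψ = xv v (psiMul ψ (π (TtS N S i))) (psiMul_pow _ hψ) := by
  have hF : ((fun n => TxS N S p i n, TtS N S i) : TR N S p) ∈ algP (TxS N S p) (TtS N S) :=
    Algebra.subset_adjoin ⟨i, rfl⟩
  exact act_char hvT hF (y := π (TtS N S i)) (k := p ^ m) (by
    rw [sub_self]; exact Ideal.zero_mem _) hψ hψ

theorem xv_sub {O : Type} [CommRing O] {v : LatM N (↑S : Set ℕ) →+ O} {m : ℕ}
    {ψ : Multiplicative O →* ℂˣ} (hψ : ψ ^ (p ^ m) = 1) (D : O) (l : ℕ) :
    xv v (psiMul ψ D) (psiMul_pow D hψ) - (l + 1) • xv v ψ hψ =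
      xv v (psiMul ψ (D - (l + 1))) (psiMul_pow _ hψ) := by
  apply Additive.toMul.injective
  apply Subtype.ext
  refine MonoidHom.ext fun γ => ?_
  change ψ (Multiplicative.ofAdd (D * (v (Multiplicative.toAdd (perM N S γ))))) /
    (ψ (Multiplicative.ofAdd (v (Multiplicative.toAdd (perM N S γ))))) ^ (l + 1) =
    ψ (Multiplicative.ofAdd ((D - (l + 1)) * (v (Multiplicative.toAdd (perM N S γ)))))
  rw [← map_pow, ← _root_.map_div]
  congr 1
  change Multiplicative.ofAdd (D * (v (Multiplicative.toAdd (perM N S γ))) -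
    (l + 1) • (v (Multiplicative.toAdd (perM N S γ)))) = _
  rw [nsmul_eq_mul]
  congr 1
  push_cast
  ring

set_option maxHeartbeats 1000000 in
/-- **The contradiction.** -/
theorem false_of_scalar (hp : p.Prime) (hpS : p ∈ S) (hNS : ∀ q : ℕ, q.Prime → q ∣ N → q ∈ S)
    (hKL : ∀ l : ℕ, l.Prime → ¬ l ∣ N → l ≠ p → ∀ B : ValuationSubring Qb,
      B.LiesOverPrime l → ∀ n, KLProp N (p ^ n) B)
    {O : Type} [CommRing O] [IsDomain O] [IsDiscreteValuationRing O] [Finite (ResidueField O)]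
    [CharZero O] (hpO : (p : O) ∈ maximalIdeal O)
    {π : CuspForm.heckeAlgebra N 2 (↑S : Set ℕ) →+* O} {v : LatM N (↑S : Set ℕ) →+ O}
    (hv : v ≠ 0) (hvT : ∀ (f : CuspForm.heckeAlgebra N 2 (↑S : Set ℕ)) x, v (f • x) = π f * v x)
    {c : ℕ} {t : GQ → O}
    (ht : ∀ σ, ∀ f ∈ algP (TxS N S p) (TtS N S), ∀ n m, n + c ≤ m →
        f.1 m = trS (rhoT N hp.pos m) (chiT N hp.pos m) σ →
        t σ - π f.2 ∈ Ideal.span {(p : O) ^ n})
    (htc : ∀ g h, t (g * h) = t (h * g)) {I : Set GQ} (hU : ∀ σ ∈ I, ∀ g, t (σ * g) = t g)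
    (hIn : ∀ σ ∈ I, ∀ g, g⁻¹ * σ * g ∈ I)
    {a b k a' b' : GQ} (hD : t (a * b * k * (a' * b')) - t (a * b * k * (b' * a')) -
      t (b * a * k * (a' * b')) + t (b * a * k * (b' * a')) ≠ 0)
    {φ : GQ} {q : ℤ} (hcyc : ∀ m (z : Additive (XG N (p ^ m))), chiT N hp.pos m φ • z = q • z)
    (hq1 : q ≠ 1) {E : ℕ} (hE : E ≠ 0) (i : Idx N S) (hi : π (TtS N S i) - (i.1 + 1) ≠ 0)
    (hMZ : ∀ m (z : Additive (XG N (p ^ m))),
      (∃ (ψ : Multiplicative O →* ℂˣ) (hψ : ψ ^ (p ^ m) = 1), z = xv v ψ hψ) →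
      (∀ g, ∀ σ ∈ I, rhoT N hp.pos m σ • rhoT N hp.pos m g • z = rhoT N hp.pos m g • z) →
      ∀ g, rhoT N hp.pos m φ • rhoT N hp.pos m g • E • (TxS N S p i m • z - (i.1 + 1) • z) =
        q • rhoT N hp.pos m g • E • (TxS N S p i m • z - (i.1 + 1) • z)) :
    False := by
  obtain ⟨x₀, hx₀⟩ : ∃ x, v x ≠ 0 := by
    by_contra hcon
    push Not at hcon
    exact hv (AddMonoidHom.ext hcon)
  generalize hDdef : t (a * b * k * (a' * b')) - t (a * b * k * (b' * a')) -
      t (b * a * k * (a' * b')) + t (b * a * k * (b' * a')) = D at hD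
  -- the main congruence
  obtain ⟨D', hD'⟩ : ∃ D', D' = π (TtS N S i) - (i.1 + 1) := ⟨_, rfl⟩
  rw [← hD'] at hi
  have hmain : ∀ n : ℕ, (((q - 1) * E : ℤ) : O) * (D * D * D' * D * v x₀) ∈
      Ideal.span {(p : O) ^ n} := by
    intro n
    have hnm : p ^ n ∣ p ^ (n + c) := pow_dvd_pow _ (by omega)
    generalize hm : n + c = m at hnm
    choose f hf hfm using fun g => trS_mem (galTower (N := N) hp hpS hNS hKL) m g
    have h1 : ∀ g, t g - π (f g).2 ∈ Ideal.span {((p ^ n : ℕ) : O)} := fun g => by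
      rw [Nat.cast_pow]
      exact ht g (f g) (hf g) n m hm.le (hfm g)
    have hfin : Finite (O ⧸ Ideal.span {((p ^ n : ℕ) : O)}) :=
      finite_quotient_of_mem (Nat.cast_ne_zero.mpr (pow_ne_zero _ hp.ne_zero))
    have hgoal : (((q - 1) * E : ℤ) : O) * (D * D * D' * D * v x₀) ∈
        Ideal.span {((p ^ n : ℕ) : O)} := by
      refine mem_span_of_forall_char fun ψ hψ => ?_
      have hψm : ψ ^ (p ^ m) = 1 := char_pow_dvd hnm hψ
      have hψ2 : (psiMul (psiMul ψ D) D) ^ (p ^ m) = 1 := psiMul_pow D (psiMul_pow D hψm)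
      set z : Additive (XG N (p ^ m)) := xv v (psiMul (psiMul ψ D) D) hψ2 with hz
      have hfix : ∀ g, ∀ σ ∈ I, rhoT N hp.pos m σ • rhoT N hp.pos m g • z =
          rhoT N hp.pos m g • z := by
        intro g σ hσ
        have h2 := fixed_char hp hpS hNS hKL hvT hf hfm h1 htc (hU _ (hIn σ hσ g)) a b k a' b'
          hDdef hψ hψm hψ2
        rw [← hz] at h2
        have h3 : rhoT N hp.pos m σ • rhoT N hp.pos m g • z =
            rhoT N hp.pos m g • rhoT N hp.pos m (g⁻¹ * σ * g) • z := by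
          rw [← mul_smul, ← mul_smul, ← map_mul, ← map_mul]
          congr 2
          group
        rw [h3, h2]
      have h4 := hMZ m z ⟨_, hψ2, rfl⟩ hfix
      obtain ⟨y, hy⟩ : ∃ y, y = TxS N S p i m • z - (i.1 + 1) • z := ⟨_, rfl⟩
      rw [← hy] at h4
      have hψ3 := psiMul_pow D' hψ2
      have hyx : y = xv v (psiMul (psiMul (psiMul ψ D) D) D') hψ3 := by
        have e1 : TxS N S p i m • z = xv v (psiMul (psiMul (psiMul ψ D) D) (π (TtS N S i)))
            (psiMul_pow _ hψ2) := xv_hecke hvT i hψ2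
        subst hD'
        rw [hy, e1]
        exact xv_sub hψ2 _ i.1
      have CH := chData hp hpS hNS hKL m hf hfm
      have h5 := kill_scalar CH (hcyc m) h4 a b k a' b'
      have hFD : f (a * b * k * (a' * b')) - f (a * b * k * (b' * a')) -
          f (b * a * k * (a' * b')) + f (b * a * k * (b' * a')) ∈
          algP (TxS N S p) (TtS N S) :=
        add_mem (sub_mem (sub_mem (hf _) (hf _)) (hf _)) (hf _)
      set FD := f (a * b * k * (a' * b')) - f (a * b * k * (b' * a')) -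
          f (b * a * k * (a' * b')) + f (b * a * k * (b' * a')) with hFDdef
      have hxy := act_char hvT hFD (y := D) (k := p ^ n) (by
        have e2 : π FD.2 = π (f (a * b * k * (a' * b'))).2 - π (f (a * b * k * (b' * a'))).2 -
            π (f (b * a * k * (a' * b'))).2 + π (f (b * a * k * (b' * a'))).2 := by
          rw [← map_sub, ← map_sub, ← map_add]
          rfl
        have e1 : D - π FD.2 =
            (t (a * b * k * (a' * b')) - π (f (a * b * k * (a' * b'))).2) -
            (t (a * b * k * (b' * a')) - π (f (a * b * k * (b' * a'))).2) -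
            (t (b * a * k * (a' * b')) - π (f (b * a * k * (a' * b'))).2) +
            (t (b * a * k * (b' * a')) - π (f (b * a * k * (b' * a'))).2) := by
          rw [e2, ← hDdef]
          ring
        rw [e1]
        exact add_mem (sub_mem (sub_mem (h1 _) (h1 _)) (h1 _)) (h1 _))
          (psiMul_pow D' (psiMul_pow D (psiMul_pow D hψ))) hψ3
      have h6 : FD.1 m = (f (a * b * k * (a' * b'))).1 m - (f (a * b * k * (b' * a'))).1 m -
          (f (b * a * k * (a' * b'))).1 m + (f (b * a * k * (b' * a'))).1 m := rfl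
      have e3 : FD.1 m • E • y = (f (a * b * k * (a' * b'))).1 m • E • y -
          (f (a * b * k * (b' * a'))).1 m • E • y - (f (b * a * k * (a' * b'))).1 m • E • y +
          (f (b * a * k * (b' * a'))).1 m • E • y := by
        rw [h6, add_smul, sub_smul, sub_smul]
      have h7 : (q - 1) • FD.1 m • E • y = 0 := by
        rw [e3]
        exact h5
      have h8 : FD.1 m • y =
          xv v (psiMul (psiMul (psiMul (psiMul ψ D) D) D') D) (psiMul_pow D hψ3) := by
        rw [hyx]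
        exact hxy
      rw [smul_comm (FD.1 m) E, h8, ← natCast_zsmul, smul_smul] at h7
      -- evaluation
      obtain ⟨γ, hγ⟩ := perM_surjective (N := N) (S := S) (Multiplicative.ofAdd x₀)
      have h9 := DFunLike.congr_fun (congrArg Subtype.val (congrArg Additive.toMul h7)) γ
      have e1 : (ψ (Multiplicative.ofAdd (D * (D * (D' * (D * v (Multiplicative.toAdd
          (perM N S γ)))))))) ^ ((q - 1) * (E : ℤ)) = 1 := by
        exact h9
      rw [hγ, ← map_zpow] at e1
      rw [← e1]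
      congr 1
      change _ = Multiplicative.ofAdd (((q - 1) * (E : ℤ)) • (D * (D * (D' * (D * v x₀)))))
      rw [zsmul_eq_mul]
      congr 1
      ring
    rwa [Nat.cast_pow] at hgoal
  have h0 := eq_zero_of_forall_pow hpO hmain
  have h2 : (((q - 1) * E : ℤ) : O) ≠ 0 :=
    Int.cast_ne_zero.mpr (mul_ne_zero (sub_ne_zero.mpr hq1) (Nat.cast_ne_zero.mpr hE))
  rcases mul_eq_zero.mp h0 with h3 | h3
  · exact h2 h3
  · rcases mul_eq_zero.mp h3 with h4 | h4
    · exact mul_ne_zero (mul_ne_zero (mul_ne_zero hD hD) hi) hD h4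
    · exact hx₀ h4

end

end Fermat.Agent.RT
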