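import Fermat.Agent.RT.LRFrob
import Fermat.Agent.EC.VarChange

set_option autoImplicit false

/-!
# Transport of irreducibility; non-Eisenstein primes for curves
-/

noncomputable section

open Matrix
open WeierstrassCurve WeierstrassCurve.Affine WeierstrassCurve.Affine.Point

namespace Fermat.Agent.RT.LR

open Fermat.Agent.RT Fermat.Agent.EC Fermat.Agent.ESCore Fermat.Agent.GaloisBasics

/-- The field of algebraic numbers. -/
local notation "Kb" => AlgebraicClosure ℚ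
/-- The absolute Galois group. -/
local notation "GQ" => (AlgebraicClosure ℚ ≃ₐ[ℚ] AlgebraicClosure ℚ)

section Transport

variable {E E' : WeierstrassCurve ℚ} {p : ℕ}

/-- the induced map on torsion -/
def torsMap (e : (E'⁄Kb).Point ≃+ (E⁄Kb).Point) : TorsP E' p →+ TorsP E p where
  toFun x := ⟨e x.1, by
    have h := x.2
    rw [Submodule.mem_torsionBy_iff] at h ⊢
    rw [← map_zsmul, h, _root_.map_zero]⟩
  map_zero' := Subtype.ext (_root_.map_zero e)
  map_add' x y := Subtype.ext (map_add e _ _)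

theorem irr_of_equiv (e : (E'⁄Kb).Point ≃+ (E⁄Kb).Point)
    (he : ∀ (σ : GQ) (P : (E'⁄Kb).Point), e (σ • P) = σ • e P)
    (h : GaloisRepIsIrreducible (K := Kb) ℚ E p) :
    GaloisRepIsIrreducible (K := Kb) ℚ E' p := by
  set f : TorsP E' p →ₗ[ZMod p] TorsP E p := (torsMap e).toZModLinearMap p with hf
  have hfc : ∀ x : TorsP E' p, ((f x : TorsP E p) : (E⁄Kb).Point) = e x.1 := fun x => rfl
  have hinj : Function.Injective f := by
    intro x y hxy
    apply Subtype.ext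
    apply e.injective
    rw [← hfc, ← hfc, hxy]
  have hsurj : Function.Surjective f := by
    intro y
    refine ⟨⟨e.symm y.1, ?_⟩, Subtype.ext ?_⟩
    · have h := y.2
      rw [Submodule.mem_torsionBy_iff] at h ⊢
      rw [← map_zsmul, h, _root_.map_zero]
    · rw [hfc]
      exact e.apply_symm_apply _
  have hfs : ∀ (σ : GQ) (x : TorsP E' p), f (σ • x) = σ • f x := by
    intro σ x
    apply Subtype.ext
    rw [hfc]
    exact he σ x.1
  refine ⟨?_, fun N hN => ?_⟩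
  · obtain ⟨x, y, hxy⟩ := h.1
    obtain ⟨x, rfl⟩ := hsurj x
    obtain ⟨y, rfl⟩ := hsurj y
    exact ⟨x, y, fun h => hxy (by rw [h])⟩
  · have hst : IsGaloisStable ℚ (N.map f) := by
      rintro σ _ ⟨x, hx, rfl⟩
      exact ⟨σ • x, hN σ x hx, hfs σ x⟩
    rcases h.2 _ hst with h1 | h1
    · left
      rw [eq_bot_iff]
      intro x hx
      have h2 : f x ∈ N.map f := Submodule.mem_map_of_mem hx
      rw [h1, Submodule.mem_bot] at h2
      exact (Submodule.mem_bot _).mpr (hinj (by rw [h2, _root_.map_zero]))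
    · right
      rw [eq_top_iff]
      intro x _
      have h2 : f x ∈ N.map f := by rw [h1]; exact Submodule.mem_top
      obtain ⟨y, hy, hxy⟩ := h2
      rw [← hinj hxy]
      exact hy

theorem exists_e (X Y : WeierstrassCurve Kb) (C : VariableChange Kb) (h : X = C • Y) :
    ∃ e : X.toAffine.Point ≃+ Y.toAffine.Point, ∀ x y hn, ∃ hn',
      e (.some x y hn) = .some (vcX C x) (vcY C x y) hn' := by
  subst h
  exact ⟨pointEquiv Y C, fun x y hn => ⟨(vc_nonsingular_iff Y C x y).mpr hn, rfl⟩⟩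

/-- The isomorphism of points given by a change of variables. -/
theorem exists_equiv_of_variableChange {C : VariableChange ℚ} (hC : C • E = E') :
    ∃ e : (E'⁄Kb).Point ≃+ (E⁄Kb).Point, ∀ (σ : GQ) (P : (E'⁄Kb).Point), e (σ • P) = σ • e P := by
  have hb : (E'⁄Kb) = (C.map (algebraMap ℚ Kb)) • (E⁄Kb) := by
    rw [← hC]
    exact (map_variableChange E C (algebraMap ℚ Kb)).symm
  obtain ⟨e, he⟩ := exists_e (E'⁄Kb) (E⁄Kb) _ hb
  refine ⟨e, fun σ P => ?_⟩
  rcases P with _ | ⟨x, y, hn⟩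
  · change e (0 : (E'⁄Kb).Point) = σ • e (0 : (E'⁄Kb).Point)
    rw [_root_.map_zero]
    rfl
  · obtain ⟨hn1, h1⟩ := he x y hn
    have hσ : σ • (.some x y hn : (E'⁄Kb).Point) = Point.map (W' := E') σ.toAlgHom (.some x y hn) :=
      rfl
    rw [hσ, Point.map_some]
    obtain ⟨hn2, h2⟩ := he (σ x) (σ y)
      ((baseChange_nonsingular E' (f := σ.toAlgHom) σ.injective x y).mpr hn)
    have h3 : σ • (.some (vcX (C.map (algebraMap ℚ Kb)) x) (vcY (C.map (algebraMap ℚ Kb)) x y) hn1 :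
        (E⁄Kb).Point) = Point.map (W' := E) σ.toAlgHom (.some (vcX (C.map (algebraMap ℚ Kb)) x)
          (vcY (C.map (algebraMap ℚ Kb)) x y) hn1) := rfl
    rw [h1, h3, Point.map_some]
    refine h2.trans ?_
    rw [Point.some.injEq]
    have hfix : ∀ q : ℚ, σ (algebraMap ℚ Kb q) = algebraMap ℚ Kb q := fun q => σ.commutes q
    constructor
    · change ((C.map (algebraMap ℚ Kb)).u : Kb) ^ 2 * σ x + (C.map (algebraMap ℚ Kb)).r =
        σ (((C.map (algebraMap ℚ Kb)).u : Kb) ^ 2 * x + (C.map (algebraMap ℚ Kb)).r)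
      change (algebraMap ℚ Kb C.u) ^ 2 * σ x + algebraMap ℚ Kb C.r =
        σ ((algebraMap ℚ Kb C.u) ^ 2 * x + algebraMap ℚ Kb C.r)
      rw [map_add, map_mul, map_pow, hfix, hfix]
    · unfold vcY
      change (algebraMap ℚ Kb C.u) ^ 3 * σ y + (algebraMap ℚ Kb C.u) ^ 2 * algebraMap ℚ Kb C.s * σ x +
        algebraMap ℚ Kb C.t = σ ((algebraMap ℚ Kb C.u) ^ 3 * y +
          (algebraMap ℚ Kb C.u) ^ 2 * algebraMap ℚ Kb C.s * x + algebraMap ℚ Kb C.t)
      rw [map_add, map_add, map_mul, map_mul, map_mul, map_pow, map_pow, hfix, hfix, hfix]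

end Transport

variable {W : WeierstrassCurve ℤ} {E : WeierstrassCurve ℚ} {p : ℕ}

theorem Δ_ne_zero [E.IsElliptic] (hW : W.IsIntegralModelOf E) : W.Δ ≠ 0 := by
  obtain ⟨C, hC⟩ := hW
  intro h
  have h1 : (C • E).Δ = 0 := by
    rw [hC, map_Δ, h, _root_.map_zero]
  rw [variableChange_Δ] at h1
  have h2 : E.Δ ≠ 0 := E.isUnit_Δ.ne_zero
  exact mul_ne_zero (pow_ne_zero _ (Units.ne_zero _)) h2 h1

theorem modRepIsIrreducible (hW : W.IsIntegralModelOf E)
    (h : GaloisRepIsIrreducible (K := Kb) ℚ E p) : W.ModRepIsIrreducible p := by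
  obtain ⟨C, hC⟩ := hW
  obtain ⟨e, he⟩ := exists_equiv_of_variableChange hC
  exact irr_of_equiv e he h

/-- **Non-Eisenstein primes** `l ≡ 1 mod m`. -/
theorem exists_l1 [hp : Fact p.Prime] (hp2 : p ≠ 2) (hΔ : W.Δ ≠ 0) (h : W.ModRepIsIrreducible p)
    (m : ℕ) [NeZero m] (T : Finset ℕ) :
    ∃ l : ℕ, l.Prime ∧ l ∉ T ∧ W.IsGoodPrimeFor l ∧ l ≠ p ∧ (m : ℤ) ∣ (l : ℤ) - 1 ∧
      (W.apOfModel l : ZMod p) ≠ l + 1 := by
  have := isElliptic_map hΔ
  obtain ⟨L, hLf, -, hL⟩ := EFrob.exists_level (W.map (Int.castRingHom ℚ)) hp.out ∅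
  obtain ⟨l, hl, hlT, hlm, A, hA, φ, hφ, hne⟩ := exists_frob_trace_ne
    (ρ := modRep (torsBasis p W hΔ)) hp2 (modRep_irr _ h)
    (fun g => by rw [modRep_det, ss_det hΔ]) (L := L) (fun σ hσ => by
      rw [modRep_eq_one_iff]
      intro x
      have := hL σ 1 (fun x hx => hσ x hx) x
      rwa [one_smul] at this) m (insert p (T ∪ W.Δ.natAbs.primeFactors))
  rw [Finset.mem_insert, Finset.mem_union, not_or, not_or] at hlT
  have hgood : W.IsGoodPrimeFor l := by
    intro h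
    exact hlT.2.2 (Nat.mem_primeFactors.mpr ⟨hl, Int.natCast_dvd.mp h, Int.natAbs_ne_zero.mpr hΔ⟩)
  have hlf : Fact l.Prime := ⟨hl⟩
  obtain ⟨h1, h2⟩ := EFrob.trace_det_frobenius (p := p) hgood (fun h => hlT.1 h.symm) hA hφ
  refine ⟨l, hl, hlT.2.1, hgood, hlT.1, hlm, fun h3 => hne ?_⟩
  rw [modRep_det, modRep_trace]
  exact (h1.trans h3).trans (by rw [add_comm]; exact congrArg (1 + ·) h2.symm)

/-- **Non-Eisenstein primes** (strong form). -/
theorem exists_l2 [hp : Fact p.Prime] (hp2 : p ≠ 2) (hΔ : W.Δ ≠ 0) (h : W.ModRepIsIrreducible p)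
    (T : Finset ℕ) :
    ∃ l : ℕ, l.Prime ∧ l ∉ T ∧ W.IsGoodPrimeFor l ∧ l ≠ p ∧
      (W.apOfModel l : ZMod p) ^ 2 ≠ (l + 1) ^ 2 := by
  have := isElliptic_map hΔ
  obtain ⟨L, hLf, -, hL⟩ := EFrob.exists_level (W.map (Int.castRingHom ℚ)) hp.out ∅
  obtain ⟨l, hl, hlT, A, hA, φ, hφ, hne⟩ := exists_frob_trace_sq_ne
    (ρ := modRep (torsBasis p W hΔ)) hp2 (modRep_irr _ h)
    (fun g => by rw [modRep_det, ss_det hΔ]) (L := L) (fun σ hσ => by
      rw [modRep_eq_one_iff]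
      intro x
      have := hL σ 1 (fun x hx => hσ x hx) x
      rwa [one_smul] at this) (insert p (T ∪ W.Δ.natAbs.primeFactors))
  rw [Finset.mem_insert, Finset.mem_union, not_or, not_or] at hlT
  have hgood : W.IsGoodPrimeFor l := by
    intro h
    exact hlT.2.2 (Nat.mem_primeFactors.mpr ⟨hl, Int.natCast_dvd.mp h, Int.natAbs_ne_zero.mpr hΔ⟩)
  have hlf : Fact l.Prime := ⟨hl⟩
  obtain ⟨h1, h2⟩ := EFrob.trace_det_frobenius (p := p) hgood (fun h => hlT.1 h.symm) hA hφ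
  refine ⟨l, hl, hlT.2.1, hgood, hlT.1, fun h3 => hne ?_⟩
  rw [modRep_det, modRep_trace, add_comm 1]
  refine (congrArg (· ^ 2) h1).trans (h3.trans ?_)
  exact (congrArg (fun x => (x + 1) ^ 2) h2.symm)

end Fermat.Agent.RT.LR
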