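import Fermat.Agent.RT.LRMain
import Fermat.Agent.RT.LRClass
import Fermat.Agent.RT.LRCurve
import Fermat.Agent.RT.HFinal
import Mathlib.NumberTheory.Padics.RingHoms
import Fermat.Prelude.Def_FreyPackage_LevelRaising

set_option autoImplicit false

/-!
# Level raising for eigenforms congruent to an elliptic curve
-/

open Matrix CongruenceSubgroup IsLocalRing
open scoped MatrixGroups

noncomputable section

namespace Fermat.Agent.RT.LR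

open Fermat.Agent.RT Fermat.Agent.RT.Ihara ModularFormClass

section Padic

variable {p : ℕ} [hp : Fact p.Prime]

theorem isUnit_int {n : ℤ} (h : (n : ZMod p) ≠ 0) : IsUnit (n : ℤ_[p]) := by
  rw [PadicInt.isUnit_iff]
  refine le_antisymm (PadicInt.norm_le_one _) ?_
  by_contra hlt
  rw [not_le, PadicInt.norm_int_lt_one_iff_dvd] at hlt
  exact h ((ZMod.intCast_zmod_eq_zero_iff_dvd n p).mpr hlt)

theorem charP_residue_padic : CharP (ResidueField ℤ_[p]) p := by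
  have e : ResidueField ℤ_[p] ≃+* ZMod p := PadicInt.residueField
  exact charP_of_injective_ringHom (f := e.symm.toRingHom) e.symm.injective p

end Padic

section Ext

variable {N : ℕ} {𝒪 k : Type*} [CommRing 𝒪] [IsLocalRing 𝒪] [Field k]

theorem extH_hec (lam : k →+ ResidueField 𝒪) {c : H1 k k (Gamma0 N)} {l : ℕ} {n : ℤ}
    (h : hec (Gamma1_le N) le_rfl l c = (n : k) • c) :
    hec (Gamma1_le N) le_rfl l (extH lam c : H1 𝒪 (ResidueField 𝒪) (Gamma0 N)) =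
      (n : 𝒪) • (extH lam c : H1 𝒪 (ResidueField 𝒪) (Gamma0 N)) := by
  rw [hec_extH, h]
  apply Subtype.ext
  funext g
  change lam ((n : k) * c.1 g) = (n : 𝒪) • lam (c.1 g)
  rw [← zsmul_eq_mul, map_zsmul, Int.cast_smul_eq_zsmul]

end Ext

section Final

variable {W : WeierstrassCurve ℤ} {p N q : ℕ}

/-- **Level raising.** -/
theorem level_raising (hp : p.Prime) (hp2 : p ≠ 2) (hΔ : W.Δ ≠ 0) (hirr : W.ModRepIsIrreducible p)
    (hN : 0 < N) (hq : q.Prime) (hqN : ¬ q ∣ N)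
    (f : CuspForm (Gamma0 N) 2) (𝔪 : Ideal (integralClosure ℤ ℂ))
    (hf : f.IsNormalizedEigenform) (hmax : 𝔪.IsMaximal) (hpm : (p : integralClosure ℤ ℂ) ∈ 𝔪)
    (hcong : ∀ ℓ : ℕ, ℓ.Prime → W.IsGoodPrimeFor ℓ → ¬ ℓ ∣ N → ℓ ≠ p →
      ∃ a : integralClosure ℤ ℂ, (a : ℂ) = ModularFormClass.qCoeff f ℓ ∧
        a - ((W.apOfModel ℓ : ℤ) : integralClosure ℤ ℂ) ∈ 𝔪)
    (hLR : ∃ a : integralClosure ℤ ℂ, (a : ℂ) = ModularFormClass.qCoeff f q ∧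
      a ^ 2 - ((q : integralClosure ℤ ℂ) + 1) ^ 2 ∈ 𝔪) :
    ∃ (g : CuspForm (Gamma0 (N * q)) 2) (𝔪' : Ideal (integralClosure ℤ ℂ)),
      g.IsNormalizedEigenform ∧ 𝔪'.IsMaximal ∧ (p : integralClosure ℤ ℂ) ∈ 𝔪' ∧
      (∀ ℓ : ℕ, ℓ.Prime → W.IsGoodPrimeFor ℓ → ¬ ℓ ∣ N * q → ℓ ≠ p →
        ∃ a : integralClosure ℤ ℂ, (a : ℂ) = ModularFormClass.qCoeff g ℓ ∧
          a - ((W.apOfModel ℓ : ℤ) : integralClosure ℤ ℂ) ∈ 𝔪') ∧
      ModularFormClass.qCoeff g q ^ 2 = 1 := by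
  haveI : Fact p.Prime := ⟨hp⟩
  haveI : NeZero N := ⟨hN.ne'⟩
  haveI : NeZero q := ⟨hq.ne_zero⟩
  haveI := charP_residue_padic (p := p)
  have hqN' : IsCoprime (N : ℤ) (q : ℤ) := isCoprime_N hq hqN
  set I : Set ℕ := {l | l.Prime ∧ W.IsGoodPrimeFor l ∧ ¬ l ∣ N * q ∧ l ≠ p} with hI
  set a : ℕ → ℤ_[p] := fun l => ((W.apOfModel l : ℤ) : ℤ_[p]) with ha
  have hqI : q ∉ I := fun h => h.2.2.1 (dvd_mul_left q N)
  -- the primes
  obtain ⟨l₁, hl₁, -, hl₁g, hl₁p, hl₁m, hne₁⟩ := exists_l1 hp2 hΔ hirr (N * q) ∅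
  have hl₁Nq : ¬ l₁ ∣ N * q := not_dvd_of_dvd_sub_one hl₁ hl₁m
  have hl₁N : ¬ l₁ ∣ N := fun h => hl₁Nq (h.mul_right q)
  have hl₁I : l₁ ∈ I := ⟨hl₁, hl₁g, hl₁Nq, hl₁p⟩
  have hl11 : (N : ℤ) ∣ (l₁ : ℤ) - 1 := by
    refine dvd_trans ?_ hl₁m
    push_cast
    exact dvd_mul_right _ _
  obtain ⟨l₂, hl₂, hl₂T, hl₂g, hl₂p, hne₂⟩ := exists_l2 hp2 hΔ hirr
    ((N * q).primeFactors ∪ (q ^ 2 - 1).primeFactors)
  rw [Finset.mem_union, not_or] at hl₂T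
  have hNq0 : N * q ≠ 0 := mul_ne_zero hN.ne' hq.ne_zero
  have hl₂Nq : ¬ l₂ ∣ N * q := fun h => hl₂T.1 (Nat.mem_primeFactors.mpr ⟨hl₂, h, hNq0⟩)
  have hl₂N : ¬ l₂ ∣ N := fun h => hl₂Nq (h.mul_right q)
  have hl₂I : l₂ ∈ I := ⟨hl₂, hl₂g, hl₂Nq, hl₂p⟩
  have hq2 : 4 ≤ q ^ 2 := by nlinarith [hq.two_le]
  have hl₂q2 : ¬ l₂ ∣ q ^ 2 - 1 := fun h => hl₂T.2 (Nat.mem_primeFactors.mpr ⟨hl₂, h, by omega⟩)
  have hlq2 : IsCoprime (l₂ : ℤ) ((q : ℤ) ^ 2 - 1) := by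
    have h1 := Nat.isCoprime_iff_coprime.mpr ((Nat.Prime.coprime_iff_not_dvd hl₂).mpr hl₂q2)
    rw [Nat.cast_sub (by omega)] at h1
    push_cast at h1
    exact h1
  have hu₁ : IsUnit (a l₁ - ((l₁ : ℤ_[p]) + 1)) := by
    have h1 : a l₁ - ((l₁ : ℤ_[p]) + 1) = ((W.apOfModel l₁ - (l₁ + 1) : ℤ) : ℤ_[p]) := by
      rw [ha]; push_cast; ring
    rw [h1]
    apply isUnit_int
    push_cast
    exact sub_ne_zero.mpr hne₁
  have hu₂ : IsUnit (a l₂ ^ 2 - ((l₂ : ℤ_[p]) + 1) ^ 2) := by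
    have h1 : a l₂ ^ 2 - ((l₂ : ℤ_[p]) + 1) ^ 2 =
        ((W.apOfModel l₂ ^ 2 - (l₂ + 1) ^ 2 : ℤ) : ℤ_[p]) := by
      rw [ha]; push_cast; ring
    rw [h1]
    apply isUnit_int
    push_cast
    exact sub_ne_zero.mpr hne₂
  have h8 : IsUnit (8 : ℤ_[p]) := by
    have h1 := isUnit_int (p := p) (n := 8) (by
      have h2 := two_ne_zero_zmod (p := p) hp2
      have h3 : ((8 : ℤ) : ZMod p) = 2 ^ 3 := by norm_num
      rw [h3]
      exact pow_ne_zero _ h2)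
    exact_mod_cast h1
  -- the residual class
  obtain ⟨k, _, φ₀, hφ₀⟩ : ∃ (k : Type) (_ : Field k) (φ₀ : integralClosure ℤ ℂ →+* k),
      RingHom.ker φ₀ = 𝔪 :=
    ⟨_, Ideal.Quotient.field 𝔪, Ideal.Quotient.mk 𝔪, Ideal.mk_ker⟩
  have hφ₀' : ∀ x y : integralClosure ℤ ℂ, x - y ∈ 𝔪 → φ₀ x = φ₀ y := fun x y h => by
    rw [← hφ₀, RingHom.mem_ker, map_sub, sub_eq_zero] at h
    exact h
  haveI hkp : CharP k p := by
    have h1 : (p : k) = 0 := by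
      have := hφ₀' p 0 (by rwa [sub_zero])
      rwa [map_natCast, map_zero] at this
    exact (CharP.charP_iff_prime_eq_zero hp).mpr h1
  letI algk : Algebra (ResidueField ℤ_[p]) k :=
    ((ZMod.castHom (dvd_refl p) k).comp (PadicInt.residueField (p := p)).toRingHom).toAlgebra
  obtain ⟨c, hc0, hc3, hc⟩ := exists_eigenclass_mod hf φ₀
  obtain ⟨g₀, hg₀⟩ : ∃ g, c.1 g ≠ 0 := by
    by_contra hcon
    push Not at hcon
    exact hc0 (Subtype.ext (funext hcon))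
  obtain ⟨lam, hlam⟩ : ∃ lam : Module.Dual (ResidueField ℤ_[p]) k, lam (c.1 g₀) ≠ 0 := by
    by_contra hcon
    push Not at hcon
    exact hg₀ ((Module.forall_dual_apply_eq_zero_iff (ResidueField ℤ_[p]) (c.1 g₀)).mp hcon)
  set cb : H1 ℤ_[p] (ResidueField ℤ_[p]) (Gamma0 N) := extH lam.toAddMonoidHom c with hcb
  have hcb0 : cb ≠ 0 := fun h => hlam (congrFun (congrArg Subtype.val h) g₀)
  have hcb3 : ∀ g : Gamma0 N, g ^ 3 = 1 → cb.1 g = 0 := fun g hg => by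
    change lam (c.1 g) = 0
    rw [hc3 g hg, map_zero]
  have hcbI : ∀ i ∈ I, hec (Gamma1_le N) le_rfl i cb = a i • cb := by
    rintro l ⟨hl, hlg, hlN, hlp⟩
    obtain ⟨b, hb, hbm⟩ := hcong l hl hlg (fun h => hlN (h.mul_right q)) hlp
    refine extH_hec (𝒪 := ℤ_[p]) lam.toAddMonoidHom (n := W.apOfModel l) ?_
    rw [hc l hl b hb]
    congr 1
    have h1 := hφ₀' _ _ hbm
    rw [map_intCast] at h1
    exact h1
  obtain ⟨e, he, hcbq⟩ : ∃ e : ℤ_[p], e * e = 1 ∧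
      hec (Gamma1_le N) le_rfl q cb = (e * ((q : ℤ_[p]) + 1)) • cb := by
    obtain ⟨b, hb, hbm⟩ := hLR
    have h1 : (φ₀ b) ^ 2 = ((q : k) + 1) ^ 2 := by
      have h2 := hφ₀' _ _ hbm
      rw [map_pow, map_pow, map_add, map_natCast, map_one] at h2
      exact h2
    obtain ⟨s, hs, hsb⟩ : ∃ s : ℤ, s * s = 1 ∧ φ₀ b = ((s * (q + 1) : ℤ) : k) := by
      rcases sq_eq_sq_iff_eq_or_eq_neg.mp h1 with h | h
      · exact ⟨1, one_mul 1, by rw [h]; push_cast; ring⟩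
      · exact ⟨-1, by norm_num, by rw [h]; push_cast; ring⟩
    refine ⟨(s : ℤ_[p]), by exact_mod_cast congrArg (Int.cast : ℤ → ℤ_[p]) hs, ?_⟩
    have h3 := extH_hec (𝒪 := ℤ_[p]) lam.toAddMonoidHom (n := s * (q + 1)) (c := c) (l := q) (by
      rw [hc q hq b hb, hsb])
    rw [← hcb] at h3
    rw [h3]
    congr 1
    push_cast
    ring
  have hnot := not_noNew_of_class hq hqN' h8 hqI hl₁I hl₁ hl₁N hl11 hu₁ hl₂I hl₂ hl₂N hlq2 hu₂ cb
    hcb0 hcb3 hcbI he hcbq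
  by_contra hcon
  apply hnot
  refine noNew_of_forall hq hqN' ⟨l₁, hl₁I, hl₁, hl₁m, hu₁⟩ fun F φ hF hFq hFi => hcon ?_
  haveI : CharP (AlgebraicClosure (ResidueField ℤ_[p])) p := inferInstance
  have hpk : (p : integralClosure ℤ ℂ) ∈ RingHom.ker φ := by
    rw [RingHom.mem_ker, map_natCast, CharP.cast_eq_zero]
  refine ⟨F, RingHom.ker φ, hF, ?_, hpk, fun l hl hlg hlN hlp => ?_, hFq⟩
  · haveI : (RingHom.ker φ).IsPrime := RingHom.ker_isPrime φ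
    refine Ideal.isMaximal_of_isIntegral_of_isMaximal_comap (R := ℤ) _ ?_
    have h1 : (Ideal.span {(p : ℤ)}).IsMaximal := by
      refine PrincipalIdealRing.isMaximal_of_irreducible ?_
      exact (Nat.prime_iff_prime_int.mp hp).irreducible
    have h2 : Ideal.span {(p : ℤ)} ≤ (RingHom.ker φ).comap (algebraMap ℤ (integralClosure ℤ ℂ)) := by
      rw [Ideal.span_singleton_le_iff_mem, Ideal.mem_comap]
      simpa using hpk
    have h3 : (RingHom.ker φ).comap (algebraMap ℤ (integralClosure ℤ ℂ)) ≠ ⊤ :=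
      Ideal.comap_ne_top _ (Ideal.IsPrime.ne_top inferInstance)
    rw [← h1.eq_of_le h3 h2]
    exact h1
  · obtain ⟨b, hb, hφb⟩ := hFi l ⟨hl, hlg, hlN, hlp⟩ hl
    refine ⟨b, hb, ?_⟩
    rw [RingHom.mem_ker, map_sub, hφb, map_intCast, map_intCast, map_intCast, sub_self]

end Final

end Fermat.Agent.RT.LR
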