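import Fermat.Agent.RT.LocG

set_option autoImplicit false

/-!
# Eigenfunctionals on localised modules
-/

open IsLocalRing

namespace Fermat.Agent.RT

section

variable {𝒪 : Type*} [CommRing 𝒪] [IsLocalRing 𝒪] [IsNoetherianRing 𝒪]
  {σ : Type*}

/-- A proper submodule is contained in the kernel of a residual functional. -/
theorem exists_residual_functional {Q : Type*} [AddCommGroup Q] [Module 𝒪 Q] [Module.Finite 𝒪 Q]
    {Z : Submodule 𝒪 Q} (hZ : Z ≠ ⊤) : ∃ lam : Q →ₗ[𝒪] ResidueField 𝒪, lam ≠ 0 ∧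
      ∀ z ∈ Z, lam z = 0 := by
  obtain ⟨Z', hZ', hle⟩ := (eq_top_or_exists_le_coatom Z).resolve_left hZ
  have hs : IsSimpleModule 𝒪 (Q ⧸ Z') := isSimpleModule_iff_isCoatom.mpr hZ'
  obtain ⟨I, hI, ⟨e⟩⟩ := isSimpleModule_iff_quot_maximal.mp hs
  have hI' : I = maximalIdeal 𝒪 := IsLocalRing.eq_maximalIdeal hI
  subst hI'
  let e' : (Q ⧸ Z') →ₗ[𝒪] ResidueField 𝒪 := e.toLinearMap
  refine ⟨e' ∘ₗ Z'.mkQ, fun h => ?_, fun z hz => ?_⟩
  · obtain ⟨z, hz⟩ : ∃ z, z ∉ Z' := by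
      by_contra hcon
      push Not at hcon
      exact hZ'.1 (eq_top_iff.mpr fun z _ => hcon z)
    have h1 : e (Z'.mkQ z) = 0 := LinearMap.congr_fun h z
    rw [LinearEquiv.map_eq_zero_iff] at h1
    exact hz ((Submodule.Quotient.mk_eq_zero Z').mp h1)
  · rw [LinearMap.comp_apply]
    have h1 : Z'.mkQ z = 0 := (Submodule.Quotient.mk_eq_zero Z').mpr (hle hz)
    rw [h1, map_zero]

/-- **Eigenfunctionals.** -/
theorem exists_eigenfunctional {Q : Type*} [AddCommGroup Q] [Module 𝒪 Q] [Module.Finite 𝒪 Q]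
    (T : σ → Module.End 𝒪 Q) (hT : ∀ i j, T i * T j = T j * T i) (a : σ → 𝒪) {x : Q}
    (hx : x ∈ LocG T a) (hx0 : x ≠ 0) :
    ∃ lam : Q →ₗ[𝒪] ResidueField 𝒪, lam ≠ 0 ∧ ∀ i z, lam (T i z) = a i • lam z := by
  letI : Module (MvPolynomial σ 𝒪) Q := Module.compHom Q (polyAct T hT).toRingHom
  have hsm : ∀ (r : MvPolynomial σ 𝒪) (z : Q), r • z = polyAct T hT r z := fun r z => rfl
  haveI : IsScalarTower 𝒪 (MvPolynomial σ 𝒪) Q := ⟨fun c r z => by
    rw [hsm, hsm, map_smul]; rfl⟩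
  haveI : Module.Finite (MvPolynomial σ 𝒪) Q := Module.Finite.of_restrictScalars_finite 𝒪 _ _
  by_cases htop : evI a • (⊤ : Submodule (MvPolynomial σ 𝒪) Q) = ⊤
  · exfalso
    obtain ⟨r, hr, hr0⟩ := Submodule.exists_sub_one_mem_and_smul_eq_zero_of_fg_of_le_smul (evI a)
      (⊤ : Submodule (MvPolynomial σ 𝒪) Q) Module.Finite.fg_top (by rw [htop])
    have h1 : (polyAct T hT (1 - r)) x = x := by
      rw [map_sub, map_one, LinearMap.sub_apply, Module.End.one_apply]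
      have := hr0 x Submodule.mem_top
      rw [hsm] at this
      rw [this, sub_zero]
    have h2 : ∀ n, (polyAct T hT (1 - r) ^ n) x = x := by
      intro n
      induction n with
      | zero => rfl
      | succ n ih => rw [pow_succ, Module.End.mul_apply, h1, ih]
    apply hx0
    refine eq_zero_of_forall_mem (𝒪 := 𝒪) fun j => ?_
    rw [LocG_eq T hT] at hx
    have h3 : (1 - r) ∈ evI a := by
      have := (evI a).neg_mem hr
      rwa [neg_sub] at this
    obtain ⟨n, hn⟩ := mem_Loc.mp hx j _ h3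
    rwa [h2] at hn
  · set Z : Submodule 𝒪 Q := (evI a • (⊤ : Submodule (MvPolynomial σ 𝒪) Q)).restrictScalars 𝒪
      with hZ
    have hZtop : Z ≠ ⊤ := by
      intro h
      apply htop
      rw [eq_top_iff]
      intro z _
      have : z ∈ Z := by rw [h]; exact Submodule.mem_top
      exact this
    obtain ⟨lam, hlam, h0⟩ := exists_residual_functional hZtop
    refine ⟨lam, hlam, fun i z => ?_⟩
    have h1 : (MvPolynomial.X i - MvPolynomial.C (a i)) • z ∈
        evI a • (⊤ : Submodule (MvPolynomial σ 𝒪) Q) :=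
      Submodule.smul_mem_smul (X_sub_C_mem_evI a i) Submodule.mem_top
    have h2 := h0 _ h1
    have h3 : (MvPolynomial.X i - MvPolynomial.C (a i)) • z = T i z - a i • z := by
      rw [sub_smul, hsm, hsm, polyAct_X]
      congr 1
      have h4 : (MvPolynomial.C (a i) : MvPolynomial σ 𝒪) = algebraMap 𝒪 _ (a i) := rfl
      rw [h4, AlgHom.commutes, Module.algebraMap_end_apply]
    rw [h3, map_sub, map_smul, sub_eq_zero] at h2
    exact h2

/-- **Eigenfunctionals vanishing on a stable submodule.** -/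
theorem exists_eigenfunctional_of_notMem {X : Type*} [AddCommGroup X] [Module 𝒪 X]
    [Module.Finite 𝒪 X] (T : σ → Module.End 𝒪 X) (hT : ∀ i j, T i * T j = T j * T i) (a : σ → 𝒪)
    {Y : Submodule 𝒪 X} (hY : ∀ i, ∀ y ∈ Y, T i y ∈ Y) {x : X} (hx : x ∈ LocG T a) (hxY : x ∉ Y) :
    ∃ lam : X →ₗ[𝒪] ResidueField 𝒪, lam ≠ 0 ∧ (∀ y ∈ Y, lam y = 0) ∧
      ∀ i z, lam (T i z) = a i • lam z := by
  set T' : σ → Module.End 𝒪 (X ⧸ Y) := fun i => Y.mapQ Y (T i) (fun y hy => hY i y hy) with hT'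
  have h1 : ∀ i z, Y.mkQ (T i z) = T' i (Y.mkQ z) := fun i z => rfl
  have hcomm : ∀ i j, T' i * T' j = T' j * T' i := by
    intro i j
    refine LinearMap.ext fun z => ?_
    obtain ⟨z, rfl⟩ := Y.mkQ_surjective z
    rw [Module.End.mul_apply, Module.End.mul_apply, ← h1, ← h1, ← h1, ← h1]
    exact congrArg Y.mkQ (LinearMap.congr_fun (hT i j) z)
  have hx' : Y.mkQ x ∈ LocG T' a := LocG.map Y.mkQ h1 hx
  have hx0 : Y.mkQ x ≠ 0 := fun h => hxY ((Submodule.Quotient.mk_eq_zero Y).mp h)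
  obtain ⟨lam, hlam, h2⟩ := exists_eigenfunctional T' hcomm a hx' hx0
  refine ⟨lam ∘ₗ Y.mkQ, fun h => hlam ?_, fun y hy => ?_, fun i z => ?_⟩
  · refine LinearMap.ext fun z => ?_
    obtain ⟨z, rfl⟩ := Y.mkQ_surjective z
    exact LinearMap.congr_fun h z
  · rw [LinearMap.comp_apply]
    have h3 : Y.mkQ y = 0 := (Submodule.Quotient.mk_eq_zero Y).mpr hy
    rw [h3, map_zero]
  · rw [LinearMap.comp_apply, h1, h2]
    rfl

end

end Fermat.Agent.RT
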