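import Fermat.Agent.RT.EigLift

set_option autoImplicit false

/-!
# Absence of new vectors and eigenforms
-/

open Matrix CongruenceSubgroup IsLocalRing
open scoped MatrixGroups

namespace Fermat.Agent.RT.Ihara

open Fermat.Agent.RT ModularFormClass

variable {N q : ℕ}
variable {𝒪 : Type*} [CommRing 𝒪] [IsDomain 𝒪] [IsDiscreteValuationRing 𝒪]
variable [IsAdicComplete (maximalIdeal 𝒪) 𝒪]

/-- Stable submodules of the localised cohomology on which `U_q² = 1`. -/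
def NewSub (G' : Subgroup SL(2, ℤ)) (h1 : Gamma1 (N * q) ≤ G') (h0 : G' ≤ Gamma0 (N * q))
    (I : Set ℕ) (a : ℕ → 𝒪) : Prop :=
  ∃ V : Submodule 𝒪 (H1 𝒪 𝒪 G'), V ≠ ⊥ ∧ V ≤ HM 𝒪 h1 h0 I a ∧
    (∀ n, ∀ v ∈ V, hec h1 h0 n v ∈ V) ∧ ∀ v ∈ V, hec h1 h0 q (hec h1 h0 q v) = v

theorem newSub_of_not_noNew {I : Set ℕ} {a : ℕ → 𝒪} (hq : q.Prime)
    (hqN : IsCoprime (N : ℤ) (q : ℤ)) (h : ¬ NoNew N hq hqN I a) :
    NewSub (Gq (Gamma0 N) q) (le_Gq (Gamma1_le N)) (Gq_le_Gamma0 le_rfl hqN) I a := by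
  unfold NoNew at h
  push Not at h
  obtain ⟨v, hv, hv1, hv2, hv0⟩ := h
  set h1 := le_Gq (q := q) (Gamma1_le N)
  set h0 := Gq_le_Gamma0 (q := q) (le_refl (Gamma0 N)) hqN
  set V₀ : Submodule 𝒪 (H1 𝒪 𝒪 (Gq (Gamma0 N) q)) :=
    (HM 𝒪 h1 h0 I a ⊓ LinearMap.ker (tr1 (Gamma1_le N) hq hqN)) ⊓
      LinearMap.ker (tr2 (Gamma1_le N) le_rfl hq hqN) with hV₀
  set U : Module.End 𝒪 (H1 𝒪 𝒪 (Gq (Gamma0 N) q)) := hec h1 h0 q with hU
  have hmem : ∀ x, x ∈ V₀ ↔ (x ∈ HM 𝒪 h1 h0 I a ∧ tr1 (Gamma1_le N) hq hqN x = 0) ∧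
      tr2 (Gamma1_le N) le_rfl hq hqN x = 0 := fun x => Iff.rfl
  have hHM : ∀ n, ∀ x ∈ HM 𝒪 h1 h0 I a, hec h1 h0 n x ∈ HM 𝒪 h1 h0 I a := fun n x hx =>
    LocG.map (M := H1 𝒪 𝒪 (Gq (Gamma0 N) q)) (M' := H1 𝒪 𝒪 (Gq (Gamma0 N) q))
      (T := hecI h1 h0 I) (T' := hecI h1 h0 I) (a := fun i : I => a i)
      (hec h1 h0 n) (fun i m => LinearMap.congr_fun (hec_comm h1 h0 n i) m) hx
  have hsq : ∀ x ∈ V₀, U (U x) = x := fun x hx =>
    Uq_sq_of_new hq hqN x ((hmem x).mp hx).1.2 ((hmem x).mp hx).2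
  have hst₀ : ∀ n, n ≠ q → ∀ x ∈ V₀, hec h1 h0 n x ∈ V₀ := by
    intro n hn x hx
    obtain ⟨⟨ha, hb⟩, hc⟩ := (hmem x).mp hx
    refine (hmem _).mpr ⟨⟨hHM n x ha, ?_⟩, ?_⟩
    · rw [hec_tr1 (Gamma1_le N) le_rfl hq hqN n hn x, hb, map_zero]
    · rw [hec_tr2 (Gamma1_le N) le_rfl hq hqN n hn x, hc, map_zero]
  have hcomm : ∀ n x, hec h1 h0 n (U x) = U (hec h1 h0 n x) := fun n x =>
    LinearMap.congr_fun (hec_comm h1 h0 n q) x
  refine ⟨V₀ ⊔ V₀.map U, ?_, ?_, ?_, ?_⟩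
  · intro hbot
    have h2 : v ∈ V₀ ⊔ V₀.map U := Submodule.mem_sup_left ((hmem v).mpr ⟨⟨hv, hv1⟩, hv2⟩)
    rw [hbot, Submodule.mem_bot] at h2
    exact hv0 h2
  · refine sup_le (fun x hx => ((hmem x).mp hx).1.1) ?_
    rintro _ ⟨x, hx, rfl⟩
    exact hHM q x ((hmem x).mp hx).1.1
  · intro n x hx
    obtain ⟨y, hy, z, hz, rfl⟩ := Submodule.mem_sup.mp hx
    obtain ⟨z, hz, rfl⟩ := hz
    rw [map_add, hcomm]
    by_cases hn : n = q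
    · subst hn
      refine Submodule.add_mem _ (Submodule.mem_sup_right ⟨y, hy, rfl⟩) ?_
      change U (U z) ∈ _
      rw [hsq z hz]
      exact Submodule.mem_sup_left hz
    · exact Submodule.add_mem _ (Submodule.mem_sup_left (hst₀ n hn y hy))
        (Submodule.mem_sup_right ⟨_, hst₀ n hn z hz, rfl⟩)
  · intro x hx
    obtain ⟨y, hy, z, hz, rfl⟩ := Submodule.mem_sup.mp hx
    obtain ⟨z, hz, rfl⟩ := hz
    change U (U (y + U z)) = _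
    rw [map_add, map_add, hsq y hy, hsq z hz]

theorem NewSub.transport {I : Set ℕ} {a : ℕ → 𝒪} {G' G'' : Subgroup SL(2, ℤ)} (hG : G' = G'')
    {h1 : Gamma1 (N * q) ≤ G'} {h0 : G' ≤ Gamma0 (N * q)} (h : NewSub (q := q) G' h1 h0 I a)
    (h1' : Gamma1 (N * q) ≤ G'') (h0' : G'' ≤ Gamma0 (N * q)) : NewSub (q := q) G'' h1' h0' I a := by
  subst hG
  exact h

/-- **Reduction of the absence of new vectors to a statement on eigenforms.** -/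
theorem noNew_of_forall [NeZero N] [CharZero 𝒪] {I : Set ℕ} {a : ℕ → 𝒪} (hq : q.Prime)
    (hqN : IsCoprime (N : ℤ) (q : ℤ))
    (hNE : ∃ l ∈ I, l.Prime ∧ ((N * q : ℕ) : ℤ) ∣ (l : ℤ) - 1 ∧ IsUnit (a l - (l + 1)))
    (h : ∀ (F : CuspForm (Gamma0 (N * q)) 2)
      (φ : integralClosure ℤ ℂ →+* AlgebraicClosure (ResidueField 𝒪)),
      F.IsNormalizedEigenform → qCoeff F q ^ 2 = 1 →
      (∀ i ∈ I, i.Prime → ∃ b : integralClosure ℤ ℂ, (b : ℂ) = qCoeff F i ∧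
        φ b = algebraMap (ResidueField 𝒪) (AlgebraicClosure (ResidueField 𝒪)) (residue 𝒪 (a i))) →
      False) : NoNew N hq hqN I a := by
  by_contra hcon
  obtain ⟨V, hV, hVM, hst, hsq⟩ := (newSub_of_not_noNew hq hqN hcon).transport (Gq_Gamma0 hqN)
    (Gamma1_le _) le_rfl
  haveI : NeZero q := ⟨hq.ne_zero⟩
  obtain ⟨F, φ, hF, hφ, hrel⟩ := exists_eigenform_of_HM hNE V hV hVM hst
  refine h F φ hF ?_ hφ
  have h2 := hrel q hq (Polynomial.X ^ 2 - 1) (fun v hv => by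
    rw [Polynomial.map_sub, Polynomial.map_pow, Polynomial.map_X, Polynomial.map_one, map_sub,
      map_pow, Polynomial.aeval_X, map_one, LinearMap.sub_apply, pow_two, Module.End.mul_apply,
      hsq v hv, Module.End.one_apply, sub_self])
  rw [map_sub, map_pow, Polynomial.aeval_X, map_one] at h2
  exact sub_eq_zero.mp h2

end Fermat.Agent.RT.Ihara
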