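import Fermat.Agent.RT.LRFun
import Fermat.Agent.RT.NoNewRed

set_option autoImplicit false

/-!
# Ihara's lemma and its dual for the localised cohomology of `Γ₀(N)`
-/

open Matrix CongruenceSubgroup IsLocalRing
open scoped MatrixGroups

namespace Fermat.Agent.RT.Ihara

open Fermat.Agent.RT

variable {N q : ℕ}

section Inj

variable {R A : Type*} [CommRing R] [AddCommGroup A] [Module R A]

theorem ex_conj (x : H1 R A (Gamma0 N)) {g h : SL(2, ℤ)} (hg : g ∈ Gamma0 N) (hh : h ∈ Gamma0 N) :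
    ex x.1 (h * g * h⁻¹) = ex x.1 g := by
  have H := addOn_ex x
  have hi := inv_mem hh
  rw [H _ (mul_mem hh hg) _ hi, H _ hh _ hg]
  have h1 := H _ hh _ hi
  rw [mul_inv_cancel, H.one] at h1
  rw [add_right_comm, ← h1, zero_add]

theorem opc_of_hec {l : ℕ} (hl : l.Prime) (hlN : ¬ l ∣ N) {θ : R} {x : H1 R A (Gamma0 N)}
    (h : hec (Gamma1_le N) le_rfl l x = θ • x) (g : SL(2, ℤ)) (hg : g ∈ Gamma0 N) :
    opc (Gamma0 N) (TD N l) (ex x.1) g = θ • ex x.1 g := by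
  rw [hec_T _ _ hl hlN] at h
  have h2 := congrFun (congrArg Subtype.val h) ⟨g, hg⟩
  rw [opH_apply] at h2
  rw [ex_apply _ hg]
  exact h2

/-- **Ihara's lemma** on eigenclasses. -/
theorem ihara_inj (hq : q.Prime) (hqN : IsCoprime (N : ℤ) (q : ℤ)) {x y : H1 R A (Gamma0 N)}
    (h : resH Gq_le x + degB (Gamma1_le N) le_rfl hq hqN y = 0)
    {l₁ : ℕ} (hl₁ : l₁.Prime) (hl11 : (N : ℤ) ∣ (l₁ : ℤ) - 1) {θ₁ : R}
    (hx₁ : hec (Gamma1_le N) le_rfl l₁ x = θ₁ • x) (hy₁ : hec (Gamma1_le N) le_rfl l₁ y = θ₁ • y)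
    (hu₁ : IsUnit (θ₁ - ((l₁ : R) + 1)))
    {l₂ : ℕ} (hl₂ : l₂.Prime) (hl₂N : ¬ l₂ ∣ N) (hlq : l₂ ≠ q)
    (hlq2 : IsCoprime (l₂ : ℤ) ((q : ℤ) ^ 2 - 1)) {θ₂ : R}
    (hx₂ : hec (Gamma1_le N) le_rfl l₂ x = θ₂ • x) (hy₂ : hec (Gamma1_le N) le_rfl l₂ y = θ₂ • y)
    (hu₂ : IsUnit (θ₂ ^ 2 - ((l₂ : R) + 1) ^ 2)) : x = 0 ∧ y = 0 := by
  have hlN₁ : ¬ l₁ ∣ N := by
    intro h2
    have h3 : (l₁ : ℤ) ∣ (l₁ : ℤ) - 1 := (Int.natCast_dvd_natCast.mpr h2).trans hl11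
    have h4 : (l₁ : ℤ) ∣ 1 := by
      have := Int.dvd_sub (dvd_refl (l₁ : ℤ)) h3
      simpa using this
    have h5 := Int.natCast_dvd_natCast.mp (by exact_mod_cast h4 : (l₁ : ℤ) ∣ ((1 : ℕ) : ℤ))
    exact hl₁.one_lt.ne' (Nat.dvd_one.mp h5)
  have key := ihara_pair (R := R) (Gamma1_le N) (le_refl (Gamma0 N)) (by
      rw [mem_G0]; simp) hq.ne_zero hqN (addOn_ex x) (addOn_ex y)
    (fun g hg h hh => ex_conj x hg hh) (fun g hg h hh => ex_conj y hg hh)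
    (fun g hg g' hg' hd => by
      have hgq : g ∈ Gq (Gamma0 N) q := by
        rw [mem_Gq]
        exact ⟨hg, ⟨_, hd.h10⟩⟩
      have h2 := congrFun (congrArg Subtype.val h) ⟨g, hgq⟩
      rw [ex_apply _ hg, ex_apply _ hg']
      rw [← degB_apply (Gamma1_le N) le_rfl hq hqN y hgq hg' hd]
      exact h2)
    hl₁ (isCoprime_N hl₁ hlN₁) hl11 (opc_of_hec hl₁ hlN₁ hx₁) (opc_of_hec hl₁ hlN₁ hy₁) hu₁
    hl₂ (isCoprime_N hl₂ hl₂N) (isCoprime_of_ne hl₂ hq hlq) hlq2 (opc_of_hec hl₂ hl₂N hx₂)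
    (opc_of_hec hl₂ hl₂N hy₂) hu₂
  constructor
  · apply Subtype.ext
    funext g
    rw [← ex_apply x.1 g.2]
    exact (key g g.2).1
  · apply Subtype.ext
    funext g
    rw [← ex_apply y.1 g.2]
    exact (key g g.2).2

end Inj

section DualGen

variable {𝒪 : Type*} [CommRing 𝒪] [IsLocalRing 𝒪] [IsNoetherianRing 𝒪]
  [IsAdicComplete (maximalIdeal 𝒪) 𝒪] {σ : Type*} {M M' : Type*} [AddCommGroup M] [Module 𝒪 M]
  [Module.Finite 𝒪 M] [AddCommGroup M'] [Module 𝒪 M'] [Module.Finite 𝒪 M']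

/-- Surjectivity on localisations from the absence of eigenfunctionals. -/
theorem exists_preimage_pair (T : σ → Module.End 𝒪 M) (hT : ∀ i j, T i * T j = T j * T i)
    (T' : σ → Module.End 𝒪 M') (hT' : ∀ i j, T' i * T' j = T' j * T' i) (a : σ → 𝒪)
    (t₁ t₂ : M' →ₗ[𝒪] M) (h1 : ∀ i x, t₁ (T' i x) = T i (t₁ x))
    (h2 : ∀ i x, t₂ (T' i x) = T i (t₂ x))
    (hno : ∀ lam₁ lam₂ : M →ₗ[𝒪] ResidueField 𝒪, (∀ z, lam₁ (t₁ z) + lam₂ (t₂ z) = 0) →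
      (∀ i z, lam₁ (T i z) = a i • lam₁ z) → (∀ i z, lam₂ (T i z) = a i • lam₂ z) →
      lam₁ = 0 ∧ lam₂ = 0) {v₁ v₂ : M} (hv₁ : v₁ ∈ LocG T a) (hv₂ : v₂ ∈ LocG T a) :
    ∃ w ∈ LocG T' a, t₁ w = v₁ ∧ t₂ w = v₂ := by
  set J : M' →ₗ[𝒪] M × M := t₁.prod t₂ with hJ
  set TT : σ → Module.End 𝒪 (M × M) := fun i => (T i).prodMap (T i) with hTT
  have hTTc : ∀ i j, TT i * TT j = TT j * TT i := by
    intro i j
    refine LinearMap.ext fun z => Prod.ext ?_ ?_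
    · exact LinearMap.congr_fun (hT i j) z.1
    · exact LinearMap.congr_fun (hT i j) z.2
  have hJT : ∀ i z, J (T' i z) = TT i (J z) := fun i z => Prod.ext (h1 i z) (h2 i z)
  have hx : (v₁, v₂) ∈ LocG TT a := by
    have e1 : ((v₁, v₂) : M × M) = LinearMap.inl 𝒪 M M v₁ + LinearMap.inr 𝒪 M M v₂ := by
      simp
    rw [e1]
    refine Submodule.add_mem _ ?_ ?_
    · exact LocG.map (LinearMap.inl 𝒪 M M) (fun i m => by simp [hTT]) hv₁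
    · exact LocG.map (LinearMap.inr 𝒪 M M) (fun i m => by simp [hTT]) hv₂
  have hxY : ((v₁, v₂) : M × M) ∈ LinearMap.range J := by
    by_contra hcon
    obtain ⟨lam, hlam, h3, h4⟩ := exists_eigenfunctional_of_notMem TT hTTc a
      (Y := LinearMap.range J) (by
        rintro i _ ⟨w, rfl⟩
        exact ⟨T' i w, hJT i w⟩) hx hcon
    obtain ⟨h5, h6⟩ := hno (lam ∘ₗ LinearMap.inl 𝒪 M M) (lam ∘ₗ LinearMap.inr 𝒪 M M)
      (fun z => by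
        rw [LinearMap.comp_apply, LinearMap.comp_apply, ← map_add]
        have : LinearMap.inl 𝒪 M M (t₁ z) + LinearMap.inr 𝒪 M M (t₂ z) = J z := by
          simp [hJ]
        rw [this]
        exact h3 _ ⟨z, rfl⟩)
      (fun i z => by
        rw [LinearMap.comp_apply, LinearMap.comp_apply, ← h4]
        congr 1
        simp [hTT])
      (fun i z => by
        rw [LinearMap.comp_apply, LinearMap.comp_apply, ← h4]
        congr 1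
        simp [hTT])
    apply hlam
    refine LinearMap.ext fun z => ?_
    have e1 : z = LinearMap.inl 𝒪 M M z.1 + LinearMap.inr 𝒪 M M z.2 := by simp
    rw [e1, map_add]
    have e2 := LinearMap.congr_fun h5 z.1
    have e3 := LinearMap.congr_fun h6 z.2
    rw [LinearMap.comp_apply] at e2 e3
    rw [e2, e3]
    simp
  obtain ⟨w, hw, hwx⟩ := LocG.exists_of_mem (a := a) hT' hTTc J hJT hx hxY
  exact ⟨w, hw, congrArg Prod.fst hwx, congrArg Prod.snd hwx⟩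

end DualGen

section Dual

variable {𝒪 : Type*} [CommRing 𝒪] [IsDomain 𝒪] [IsDiscreteValuationRing 𝒪]
variable [IsAdicComplete (maximalIdeal 𝒪) 𝒪] [CharZero 𝒪] [NeZero N]

/-- **Dual form of Ihara's lemma**: surjectivity of the transfers. -/
theorem dual_ihara_surj (hq : q.Prime) (hqN : IsCoprime (N : ℤ) (q : ℤ)) {I : Set ℕ} {a : ℕ → 𝒪}
    (h8 : IsUnit (8 : 𝒪)) (hqI : q ∉ I)
    {l₁ : ℕ} (hl₁I : l₁ ∈ I) (hl₁ : l₁.Prime) (hl₁N : ¬ l₁ ∣ N) (hl11 : (N : ℤ) ∣ (l₁ : ℤ) - 1)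
    (hu₁ : IsUnit (a l₁ - ((l₁ : 𝒪) + 1)))
    {l₂ : ℕ} (hl₂I : l₂ ∈ I) (hl₂ : l₂.Prime) (hl₂N : ¬ l₂ ∣ N)
    (hlq2 : IsCoprime (l₂ : ℤ) ((q : ℤ) ^ 2 - 1))
    (hu₂ : IsUnit (a l₂ ^ 2 - ((l₂ : 𝒪) + 1) ^ 2)) {v₁ v₂ : H1 𝒪 𝒪 (Gamma0 N)}
    (hv₁ : v₁ ∈ HM 𝒪 (Gamma1_le N) le_rfl I a) (hv₂ : v₂ ∈ HM 𝒪 (Gamma1_le N) le_rfl I a) :
    ∃ w ∈ HM 𝒪 (le_Gq (q := q) (Gamma1_le N)) (Gq_le_Gamma0 le_rfl hqN) I a,
      tr1 (Gamma1_le N) hq hqN w = v₁ ∧ tr2 (Gamma1_le N) le_rfl hq hqN w = v₂ := by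
  have hneq : ∀ i : I, (i : ℕ) ≠ q := fun i h => hqI (h ▸ i.2)
  have : NeZero q := ⟨hq.ne_zero⟩
  have : (Gq (Gamma0 N) q).FiniteIndex := Subgroup.finiteIndex_of_le (le_Gq (Gamma1_le N))
  have := finite_H1 (O := 𝒪) (A := 𝒪) (G := Gamma0 N)
  have := finite_H1 (O := 𝒪) (A := 𝒪) (G := Gq (Gamma0 N) q)
  refine exists_preimage_pair (M := H1 𝒪 𝒪 (Gamma0 N)) (M' := H1 𝒪 𝒪 (Gq (Gamma0 N) q))
    (fun i : I => hec (Gamma1_le N) le_rfl i) (fun i j => hec_comm _ _ _ _)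
    (fun i : I => hec (le_Gq (Gamma1_le N)) (Gq_le_Gamma0 le_rfl hqN) i)
    (fun i j => hec_comm _ _ _ _) (fun i : I => a i) _ _
    (fun i x => hec_tr1 (Gamma1_le N) le_rfl hq hqN i (hneq i) x)
    (fun i x => hec_tr2 (Gamma1_le N) le_rfl hq hqN i (hneq i) x) ?_ hv₁ hv₂
  intro lam₁ lam₂ hker hT₁ hT₂
  have hdia : ∀ σ : Gamma0 N, ∀ c : H1 𝒪 𝒪 (Gamma0 N), diaH (Gamma1_le N) le_rfl σ c = c :=
    fun σ c => by rw [diaH_of_mem (Gamma1_le N) le_rfl (σ := σ) σ.2, LinearMap.id_apply]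
  have hlq : l₂ ≠ q := fun h => hqI (h ▸ hl₂I)
  refine dual_ihara (Gamma1_le N) (le_refl (Gamma0 N)) (by rw [mem_G0]; simp) hq hqN ?_ ?_ lam₁ lam₂
    (fun σ c => by rw [hdia]) (fun σ c => by rw [hdia]) hker hl₁ (isCoprime_N hl₁ hl₁N) hl11
    (fun c => ?_) (fun c => ?_) hu₁ hl₂ (isCoprime_N hl₂ hl₂N) (isCoprime_of_ne hl₂ hq hlq) hlq2
    (fun c => ?_) (fun c => ?_) hu₂
  · exact no3_of (fun x hx => by
      rw [nsmul_eq_mul] at hx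
      exact (mul_eq_zero.mp hx).resolve_left (by norm_num))
  · intro v hv
    obtain ⟨u, hu⟩ := h8
    have h1 : (8 : 𝒪) • v = 0 := by
      rw [← hv, ← Nat.cast_smul_eq_nsmul 𝒪]
      norm_num
    rw [← hu] at h1
    have h2 := congrArg (fun z => (↑u⁻¹ : 𝒪) • z) h1
    simpa [smul_smul] using h2
  · rw [← hT₁ ⟨l₁, hl₁I⟩ c, hec_T _ _ hl₁ hl₁N]
  · rw [← hT₂ ⟨l₁, hl₁I⟩ c, hec_T _ _ hl₁ hl₁N]
  · rw [← hT₁ ⟨l₂, hl₂I⟩ c, hec_T _ _ hl₂ hl₂N]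
  · rw [← hT₂ ⟨l₂, hl₂I⟩ c, hec_T _ _ hl₂ hl₂N]

end Dual

end Fermat.Agent.RT.Ihara
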