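import Fermat.Agent.RT.LRIhara

set_option autoImplicit false

/-!
# Level raising
-/

open Matrix CongruenceSubgroup IsLocalRing
open scoped MatrixGroups

namespace Fermat.Agent.RT.Ihara

open Fermat.Agent.RT

section Lift

variable {G : Subgroup SL(2, ℤ)} {O A : Type*} [CommRing O] [AddCommGroup A] [Module O A]

/-- classes vanishing on elements of order three can be lifted -/
theorem exists_mapH_lift [G.FiniteIndex] (h8 : IsUnit (8 : O)) (f : O →ₗ[O] A)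
    (hf : Function.Surjective f) (c : H1 O A G) (h3 : ∀ g : G, g ^ 3 = 1 → c.1 g = 0) :
    ∃ c₀ : H1 O O G, mapH f c₀ = c := by
  obtain ⟨ι, i, m, w, hw⟩ := exists_J_decomp (addOn_ex c) (fun g hg hg3 => by
    rw [ex_apply _ hg]
    exact h3 ⟨g, hg⟩ (Subtype.ext hg3))
  have hw' : ∀ g : G, (8 : ℕ) • c.1 g = ∑ x, Jm G (m x : Mat) g • w x := fun g => by
    have h5 := hw g g.2
    rwa [ex_apply _ g.2] at h5
  choose w' hw'' using fun x => hf (w x)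
  obtain ⟨u, hu⟩ := h8
  refine ⟨∑ x, ((↑u⁻¹ : O) * w' x) • JH O G (m x : Mat), ?_⟩
  apply Subtype.ext
  funext g
  rw [mapH_apply, AddSubmonoidClass.coe_finset_sum, Finset.sum_apply, map_sum]
  have h1 : (↑u⁻¹ : O) • ((8 : ℕ) • c.1 g) = c.1 g := by
    rw [← Nat.cast_smul_eq_nsmul O, smul_smul, Nat.cast_ofNat, ← hu, Units.inv_mul, one_smul]
  rw [← h1, hw' g, Finset.smul_sum]
  refine Finset.sum_congr rfl fun x _ => ?_
  change f (((↑u⁻¹ : O) * w' x) • ((Jm G (m x) g : ℤ) : O)) = _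
  rw [← hw'', ← Int.cast_smul_eq_zsmul O, smul_smul, ← map_smul]
  congr 1
  rw [smul_eq_mul, smul_eq_mul]; ring

end Lift

variable {N q : ℕ} {𝒪 : Type*} [CommRing 𝒪] [IsDomain 𝒪] [IsDiscreteValuationRing 𝒪]
variable [IsAdicComplete (maximalIdeal 𝒪) 𝒪]

theorem exists_smul_of_mem {M : Type*} [AddCommGroup M] [Module 𝒪 M] {W : Submodule 𝒪 M}
    {ϖ : 𝒪} (hϖ : maximalIdeal 𝒪 = Ideal.span {ϖ}) {z : W}
    (hz : z ∈ maximalIdeal 𝒪 • (⊤ : Submodule 𝒪 W)) : ∃ y ∈ W, (z : M) = ϖ • y := by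
  rw [hϖ, Submodule.ideal_span_singleton_smul] at hz
  obtain ⟨y, -, hy⟩ := hz
  exact ⟨y, y.2, (congrArg Subtype.val hy).symm⟩

/-- **Level raising**: a residual eigenclass with `T_q = ±(q + 1)` gives new classes. -/
theorem not_noNew_of_class [CharZero 𝒪] [NeZero N] (hq : q.Prime)
    (hqN : IsCoprime (N : ℤ) (q : ℤ)) {I : Set ℕ} {a : ℕ → 𝒪}
    (h8 : IsUnit (8 : 𝒪)) (hqI : q ∉ I)
    {l₁ : ℕ} (hl₁I : l₁ ∈ I) (hl₁ : l₁.Prime) (hl₁N : ¬ l₁ ∣ N) (hl11 : (N : ℤ) ∣ (l₁ : ℤ) - 1)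
    (hu₁ : IsUnit (a l₁ - ((l₁ : 𝒪) + 1)))
    {l₂ : ℕ} (hl₂I : l₂ ∈ I) (hl₂ : l₂.Prime) (hl₂N : ¬ l₂ ∣ N)
    (hlq2 : IsCoprime (l₂ : ℤ) ((q : ℤ) ^ 2 - 1))
    (hu₂ : IsUnit (a l₂ ^ 2 - ((l₂ : 𝒪) + 1) ^ 2))
    (c : H1 𝒪 (ResidueField 𝒪) (Gamma0 N)) (hc0 : c ≠ 0) (hc3 : ∀ g : Gamma0 N, g ^ 3 = 1 → c.1 g = 0)
    (hc : ∀ i ∈ I, hec (Gamma1_le N) le_rfl i c = a i • c) {e : 𝒪} (he : e * e = 1)
    (hcq : hec (Gamma1_le N) le_rfl q c = (e * ((q : 𝒪) + 1)) • c) :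
    ¬ NoNew N hq hqN I a := by
  intro hnew
  have hneq : ∀ i : I, (i : ℕ) ≠ q := fun i h => hqI (h ▸ i.2)
  have : NeZero q := ⟨hq.ne_zero⟩
  have : (Gq (Gamma0 N) q).FiniteIndex := Subgroup.finiteIndex_of_le (le_Gq (Gamma1_le N))
  have := finite_H1 (O := 𝒪) (A := 𝒪) (G := Gamma0 N)
  have := finite_H1 (O := 𝒪) (A := ResidueField 𝒪) (G := Gamma0 N)
  have := finite_H1 (O := 𝒪) (A := 𝒪) (G := Gq (Gamma0 N) q)
  obtain ⟨ϖ, hϖ⟩ := IsDiscreteValuationRing.exists_irreducible 𝒪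
  have h𝔪 : maximalIdeal 𝒪 = Ideal.span {ϖ} := hϖ.maximalIdeal_eq
  -- a lift in the localisation
  obtain ⟨c₀, hc₀⟩ := exists_mapH_lift h8 (resL 𝒪) resL_surjective c hc3
  have hcloc : c ∈ HM (ResidueField 𝒪) (Gamma1_le N) le_rfl I a := by
    rintro i j
    refine ⟨1, ?_⟩
    rw [pow_one, LinearMap.sub_apply, LinearMap.smul_apply, Module.End.one_apply]
    have : hecI (Gamma1_le N) le_rfl I i c = a i • c := hc i i.2
    rw [this, sub_self]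
    exact Submodule.zero_mem _
  obtain ⟨c₁, hc₁, hc₁c⟩ : ∃ c₁ ∈ HM 𝒪 (Gamma1_le N) le_rfl I a, mapH (resL 𝒪) c₁ = c := by
    have h1 := LocG.exists_preimage (M := H1 𝒪 𝒪 (Gamma0 N))
      (M' := H1 𝒪 (ResidueField 𝒪) (Gamma0 N)) (T := hecI (Gamma1_le N) le_rfl I)
      (T' := hecI (Gamma1_le N) le_rfl I) (a := fun i : I => a i)
      (hecI_comm _ _ I) (hecI_comm _ _ I) (mapH (resL 𝒪)) (fun i m => hecI_mapH _ _ i m) (m := c₀)
      (by rw [hc₀]; exact hcloc)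
    obtain ⟨c₁, h2, h3⟩ := h1
    exact ⟨c₁, h2, h3.trans hc₀⟩
  -- the reduction of the transfers
  have hdiv : ∀ z ∈ HM 𝒪 (Gamma1_le N) le_rfl I a, mapH (resL 𝒪) z = 0 →
      ∃ y ∈ HM 𝒪 (Gamma1_le N) le_rfl I a, z = ϖ • y := by
    intro z hz hz0
    have h1 := LocG.mem_smul (M := H1 𝒪 𝒪 (Gamma0 N)) (T := hecI (Gamma1_le N) le_rfl I)
      (a := fun i : I => a i) (hecI_comm _ _ I) hz (mem_of_mapH_eq_zero hz0)
    exact exists_smul_of_mem (M := H1 𝒪 𝒪 (Gamma0 N)) h𝔪 h1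
  have hst : ∀ z ∈ HM 𝒪 (Gamma1_le N) le_rfl I a, ∀ n,
      hec (Gamma1_le N) le_rfl n z ∈ HM 𝒪 (Gamma1_le N) le_rfl I a := fun z hz n =>
    LocG.map (M := H1 𝒪 𝒪 (Gamma0 N)) (M' := H1 𝒪 𝒪 (Gamma0 N))
      (T := hecI (Gamma1_le N) le_rfl I) (T' := hecI (Gamma1_le N) le_rfl I)
      (a := fun i : I => a i) (hec (Gamma1_le N) le_rfl n)
      (fun i m => LinearMap.congr_fun (hec_comm (Gamma1_le N) le_rfl n i) m) hz
  set Tc := hec (Gamma1_le N) le_rfl q c₁ with hTc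
  have hTc' : mapH (resL 𝒪) Tc = (e * ((q : 𝒪) + 1)) • c := by
    rw [hTc, hec_mapH, hc₁c, hcq]
  obtain ⟨z₁, hz₁, e₁⟩ := hdiv (((q : 𝒪) + 1) • c₁ - e • Tc)
    (Submodule.sub_mem _ (Submodule.smul_mem _ _ hc₁) (Submodule.smul_mem _ _ (hst c₁ hc₁ q)))
    (by rw [map_sub, map_smul, map_smul, hTc', hc₁c, smul_smul, ← mul_assoc, he, one_mul, sub_self])
  obtain ⟨z₂, hz₂, e₂⟩ := hdiv (Tc - (e * ((q : 𝒪) + 1)) • c₁)
    (Submodule.sub_mem _ (hst c₁ hc₁ q) (Submodule.smul_mem _ _ hc₁))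
    (by rw [map_sub, map_smul, hTc', hc₁c, sub_self])
  obtain ⟨w, hw, hw1, hw2⟩ := dual_ihara_surj hq hqN h8 hqI hl₁I hl₁ hl₁N hl11 hu₁ hl₂I hl₂ hl₂N
    hlq2 hu₂ hz₁ hz₂
  -- the new class
  set y := resH (Gq_le (G := Gamma0 N) (q := q)) c₁ - e • degB (Gamma1_le N) le_rfl hq hqN c₁ with hy
  have hyM : y ∈ HM 𝒪 (le_Gq (q := q) (Gamma1_le N)) (Gq_le_Gamma0 le_rfl hqN) I a := by
    refine Submodule.sub_mem _ ?_ (Submodule.smul_mem _ _ ?_)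
    · exact LocG.map (M := H1 𝒪 𝒪 (Gamma0 N)) (M' := H1 𝒪 𝒪 (Gq (Gamma0 N) q))
        (T := hecI (Gamma1_le N) le_rfl I)
        (T' := hecI (le_Gq (Gamma1_le N)) (Gq_le_Gamma0 le_rfl hqN) I)
        (a := fun i : I => a i) (resH Gq_le)
        (fun i m => hec_degA (Gamma1_le N) le_rfl hq hqN i (hneq i) m) hc₁
    · exact LocG.map (M := H1 𝒪 𝒪 (Gamma0 N)) (M' := H1 𝒪 𝒪 (Gq (Gamma0 N) q))
        (T := hecI (Gamma1_le N) le_rfl I)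
        (T' := hecI (le_Gq (Gamma1_le N)) (Gq_le_Gamma0 le_rfl hqN) I)
        (a := fun i : I => a i) (degB (Gamma1_le N) le_rfl hq hqN)
        (fun i m => hec_degB (Gamma1_le N) le_rfl hq hqN i (hneq i) m) hc₁
  have hcast : ∀ z : H1 𝒪 𝒪 (Gamma0 N), (q + 1 : ℕ) • z = ((q : 𝒪) + 1) • z := fun z => by
    rw [← Nat.cast_smul_eq_nsmul 𝒪]; push_cast; rfl
  have htr1B : tr1 (Gamma1_le N) hq hqN (degB (Gamma1_le N) le_rfl hq hqN c₁) = Tc := by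
    have h1 := tr1_degB (Gamma1_le N) le_rfl hq hqN c₁
    rwa [diaH_of_mem (Gamma1_le N) le_rfl (σ := sq N q) (sq N q).2, LinearMap.id_apply] at h1
  have hy1 : tr1 (Gamma1_le N) hq hqN y = ϖ • z₁ := by
    rw [hy, map_sub, map_smul, tr1_degA (Gamma1_le N) le_rfl hq hqN c₁, hcast, htr1B, ← e₁]
  have hy2 : tr2 (Gamma1_le N) le_rfl hq hqN y = ϖ • z₂ := by
    rw [hy, map_sub, map_smul, tr2_degA (Gamma1_le N) le_rfl hq hqN c₁, tr2_degB, hcast, ← e₂, hTc,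
      smul_smul]
  have hv := hnew (y - ϖ • w) (Submodule.sub_mem _ hyM (Submodule.smul_mem _ _ hw))
    (by rw [map_sub, map_smul, hy1, hw1, sub_self]) (by rw [map_sub, map_smul, hy2, hw2, sub_self])
  -- reduction
  have hred : mapH (resL 𝒪) y = 0 := by
    rw [sub_eq_zero.mp hv]
    apply mapH_of_mem
    refine Submodule.smul_mem_smul ?_ Submodule.mem_top
    rw [h𝔪]; exact Ideal.mem_span_singleton_self _
  have hred2 : resH (Gq_le (G := Gamma0 N) (q := q)) c +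
      degB (Gamma1_le N) le_rfl hq hqN (-(e • c)) = 0 := by
    have h1 : degB (Gamma1_le N) le_rfl hq hqN c =
        mapH (resL 𝒪) (degB (Gamma1_le N) le_rfl hq hqN c₁) := by
      rw [← hc₁c]
      exact opH_mapH _ _ _
    rw [map_neg, map_smul, ← sub_eq_add_neg, ← hred, hy, map_sub, map_smul, h1, ← hc₁c]
    rfl
  obtain ⟨hfin, -⟩ := ihara_inj hq hqN hred2 hl₁ hl11 (hc l₁ hl₁I)
    (by rw [map_neg, map_smul, hc l₁ hl₁I, smul_neg, smul_comm]) hu₁ hl₂ hl₂N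
    (fun h => hqI (h ▸ hl₂I)) hlq2 (hc l₂ hl₂I)
    (by rw [map_neg, map_smul, hc l₂ hl₂I, smul_neg, smul_comm]) hu₂
  exact hc0 hfin

end Fermat.Agent.RT.Ihara
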