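import Fermat.Agent.RT.LevelLoc

set_option autoImplicit false

/-!
# Freeness of the localised cohomology over the group ring of the diamond operators
-/

open Matrix CongruenceSubgroup IsLocalRing
open scoped MatrixGroups

namespace Fermat.Agent.RT.Ihara

open Fermat.Agent.RT

variable {G G₁ G₂ : Subgroup SL(2, ℤ)} {N : ℕ}
variable {𝒪 : Type*} [CommRing 𝒪] [IsDomain 𝒪] [IsDiscreteValuationRing 𝒪]
variable [IsAdicComplete (maximalIdeal 𝒪) 𝒪]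
variable [NeZero N] {D : Type*} [CommGroup D] [Fintype D] {ψ : (ZMod N)ˣ →* D}
  (hψ : Function.Surjective ψ) {I : Set ℕ} {a : ℕ → 𝒪}

section

variable {A : Type*} [AddCommGroup A] [Module 𝒪 A]

theorem actM_coe (δ : D) (v : HM A (le_GK (ψ := ψ)) GK_le I a) :
    (actM hψ I a A δ v : H1 𝒪 A (GK ψ)) = actDia hψ δ v := rfl

theorem trM_coe (v : HM A (le_GK (ψ := ψ)) GK_le I a) :
    (trM hψ I a A v : H1 𝒪 A (Gamma0 N)) = trD hψ v := rfl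

theorem resM_coe (v : HM A (Gamma1_le N) le_rfl I a) :
    (resM (ψ := ψ) I a A v : H1 𝒪 A (GK ψ)) = resH GK_le v.1 := rfl

theorem hecI_mapH (h1 : Gamma1 N ≤ G) (h0 : G ≤ Gamma0 N) (i : I) (c : H1 𝒪 𝒪 G) :
    mapH (resL 𝒪) (hecI h1 h0 I i c) = hecI h1 h0 I i (mapH (resL 𝒪) c) :=
  hec_mapH h1 h0 i (resL 𝒪) c

omit [NeZero N] in
theorem hecI_resH (i : I) (c : H1 𝒪 A (Gamma0 N)) :
    resH (GK_le (ψ := ψ)) (hecI (Gamma1_le N) le_rfl I i c) =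
      hecI le_GK GK_le I i (resH (GK_le (ψ := ψ)) c) := hec_resH le_GK GK_le le_rfl i c

theorem mapH_HM (h1 : Gamma1 N ≤ G) (h0 : G ≤ Gamma0 N) {c : H1 𝒪 𝒪 G}
    (hc : c ∈ HM 𝒪 h1 h0 I a) : mapH (resL 𝒪) c ∈ HM (ResidueField 𝒪) h1 h0 I a :=
  LocG.map (M := H1 𝒪 𝒪 G) (M' := H1 𝒪 (ResidueField 𝒪) G) (T := hecI h1 h0 I)
    (T' := hecI h1 h0 I) (a := fun i : I => a i) (mapH (resL 𝒪)) (hecI_mapH h1 h0) hc

theorem actDia_HM {c : H1 𝒪 A (GK ψ)} (hc : c ∈ HM A (le_GK (ψ := ψ)) GK_le I a) (δ : D) :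
    actDia hψ δ c ∈ HM A (le_GK (ψ := ψ)) GK_le I a :=
  LocG.map (M := H1 𝒪 A (GK ψ)) (M' := H1 𝒪 A (GK ψ)) (T := hecI le_GK GK_le I)
    (T' := hecI le_GK GK_le I) (a := fun i : I => a i) (actDia hψ δ)
    (fun i m => LinearMap.congr_fun (actDia_hecI hψ I δ i) m) hc

theorem exists_resH_HM [Module.Finite 𝒪 A] {c : H1 𝒪 A (Gamma0 N)}
    (hc : resH (GK_le (ψ := ψ)) c ∈ HM A (le_GK (ψ := ψ)) GK_le I a) :
    ∃ c' ∈ HM A (Gamma1_le N) le_rfl I a, resH (GK_le (ψ := ψ)) c' = resH GK_le c := by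
  have := finite_H1 (O := 𝒪) (A := A) (G := Gamma0 N)
  have := finite_H1 (O := 𝒪) (A := A) (G := GK ψ)
  exact LocG.exists_preimage (M := H1 𝒪 A (Gamma0 N)) (M' := H1 𝒪 A (GK ψ))
    (T := hecI (Gamma1_le N) le_rfl I) (T' := hecI le_GK GK_le I) (a := fun i : I => a i)
    (hecI_comm (Gamma1_le N) le_rfl I) (hecI_comm le_GK GK_le I) (resH (GK_le (ψ := ψ)))
    hecI_resH hc

theorem exists_mapH_HM (h1 : Gamma1 N ≤ G) (h0 : G ≤ Gamma0 N) [G.FiniteIndex]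
    (h3 : No3 𝒪 (ResidueField 𝒪) G) (h8 : IsUnit (8 : 𝒪)) {c : H1 𝒪 (ResidueField 𝒪) G}
    (hc : c ∈ HM (ResidueField 𝒪) h1 h0 I a) :
    ∃ c' ∈ HM 𝒪 h1 h0 I a, mapH (resL 𝒪) c' = c := by
  have := finite_H1 (O := 𝒪) (A := 𝒪) (G := G)
  have := finite_H1 (O := 𝒪) (A := ResidueField 𝒪) (G := G)
  exact LocG.exists_of_mem (M := H1 𝒪 𝒪 G) (M' := H1 𝒪 (ResidueField 𝒪) G)
    (T := hecI h1 h0 I) (T' := hecI h1 h0 I) (a := fun i : I => a i)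
    (hecI_comm h1 h0 I) (hecI_comm h1 h0 I) (mapH (resL 𝒪)) (hecI_mapH h1 h0) hc
    (mapH_surjective h3 h8 (resL 𝒪) resL_surjective c)

theorem mem_smul_HM (h1 : Gamma1 N ≤ G) (h0 : G ≤ Gamma0 N) [G.FiniteIndex]
    (c : HM 𝒪 h1 h0 I a) (h : mapH (resL 𝒪) c.1 = 0) :
    c ∈ maximalIdeal 𝒪 • (⊤ : Submodule 𝒪 (HM 𝒪 h1 h0 I a)) := by
  have := finite_H1 (O := 𝒪) (A := 𝒪) (G := G)
  exact LocG.mem_smul (hecI_comm h1 h0 I) c.2 (mem_of_mapH_eq_zero h)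

theorem mapH_eq_zero_of_mem (h1 : Gamma1 N ≤ G) (h0 : G ≤ Gamma0 N)
    {c : HM 𝒪 h1 h0 I a} (h : c ∈ maximalIdeal 𝒪 • (⊤ : Submodule 𝒪 (HM 𝒪 h1 h0 I a))) :
    mapH (resL 𝒪) c.1 = 0 :=
  mapH_of_mem (map_mem_smul_top (M := HM 𝒪 h1 h0 I a) (M' := H1 𝒪 𝒪 G)
    (Submodule.subtype (HM 𝒪 h1 h0 I a)) (maximalIdeal 𝒪) h)

end

theorem resM_fix (hNE : NonEis N I a) (h3 : No3 𝒪 (ResidueField 𝒪) (Gamma0 N))
    (h8 : IsUnit (8 : 𝒪)) (v : HM 𝒪 (le_GK (ψ := ψ)) GK_le I a)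
    (hv : ∀ δ, actM hψ I a 𝒪 δ v - v ∈
      maximalIdeal 𝒪 • (⊤ : Submodule 𝒪 (HM 𝒪 (le_GK (ψ := ψ)) GK_le I a))) :
    ∃ w, v - resM (ψ := ψ) I a 𝒪 w ∈
      maximalIdeal 𝒪 • (⊤ : Submodule 𝒪 (HM 𝒪 (le_GK (ψ := ψ)) GK_le I a)) := by
  obtain ⟨l, hl, hlp, hlN, hu⟩ := hNE
  have hvbL := mapH_HM (le_GK (ψ := ψ)) GK_le v.2
  have hinv : ∀ δ, actDia hψ δ (mapH (resL 𝒪) v.1) = mapH (resL 𝒪) v.1 := by
    intro δ
    have h2 := mapH_eq_zero_of_mem le_GK GK_le (hv δ)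
    rw [Submodule.coe_sub, actM_coe, map_sub, sub_eq_zero] at h2
    exact h2
  obtain ⟨u, huL, hu2⟩ := NonEis.exists le_GK GK_le hl hu hvbL
  have huinv : ∀ δ, actDia hψ δ u = u := by
    intro δ
    rw [← sub_eq_zero]
    refine NonEis.zero le_GK GK_le hl hu
      (Submodule.sub_mem _ (actDia_HM hψ huL δ) huL) ?_
    have h1 : hec le_GK GK_le l (actDia hψ δ u) = actDia hψ δ (hec le_GK GK_le l u) :=
      LinearMap.congr_fun (hec_diaH le_GK GK_le l (rep hψ δ)) u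
    have h2 := hinv δ
    rw [← hu2, map_sub, map_smul] at h2
    rw [map_sub, smul_sub, h1]
    rw [← sub_eq_zero] at h2 ⊢
    rw [← h2]; abel
  obtain ⟨c', hc'⟩ := exists_extension hψ (gfam_TD hlp hlN) huinv
  have hc'2 : resH GK_le c' = mapH (resL 𝒪) v.1 := by
    rw [hc', ← hu2, hec_T _ _ hlp hlN, Fintype.card_option, Fintype.card_fin,
      Nat.cast_smul_eq_nsmul]
  obtain ⟨c, hc, hc2⟩ := exists_resH_HM (ψ := ψ) (c := c') (I := I) (a := a)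
    (by rw [hc'2]; exact hvbL)
  obtain ⟨w, hw, hw2⟩ := exists_mapH_HM (Gamma1_le N) le_rfl h3 h8 hc
  refine ⟨⟨w, hw⟩, mem_smul_HM le_GK GK_le _ ?_⟩
  rw [Submodule.coe_sub, resM_coe, map_sub, sub_eq_zero, ← hc'2, ← hc2, ← hw2]
  rfl

theorem resM_inj (hNE : NonEis N I a) (w : HM 𝒪 (Gamma1_le N) le_rfl I a)
    (hw : resM (ψ := ψ) I a 𝒪 w ∈
      maximalIdeal 𝒪 • (⊤ : Submodule 𝒪 (HM 𝒪 (le_GK (ψ := ψ)) GK_le I a))) :
    w ∈ maximalIdeal 𝒪 • (⊤ : Submodule 𝒪 (HM 𝒪 (Gamma1_le N) le_rfl I a)) := by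
  obtain ⟨l, hl, hlp, hlN, hu⟩ := hNE
  have h1 := mapH_eq_zero_of_mem le_GK GK_le hw
  have h2 : resH (GK_le (ψ := ψ)) (mapH (resL 𝒪) w.1) = 0 := h1
  have h3 := opH_of_resH (gfam_TD hlp hlN) h2
  have h4 := NonEis.zero (Gamma1_le N) le_rfl hl hu (mapH_HM (Gamma1_le N) le_rfl w.2) (by
      rw [hec_T _ _ hlp hlN, h3, Fintype.card_option, Fintype.card_fin, Nat.cast_smul_eq_nsmul])
  exact mem_smul_HM (Gamma1_le N) le_rfl w h4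

variable [Finite (ResidueField 𝒪)] {p : ℕ} [Fact p.Prime] (hp : (p : 𝒪) ∈ maximalIdeal 𝒪)

include hp in
/-- **Freeness of the localised cohomology** over the group ring of the diamond operators, with
coinvariants the localised cohomology of `Γ₀(N)`. -/
theorem exists_free_level (hD : IsPGroup p D) (hNE : NonEis N I a)
    (h3 : No3 𝒪 𝒪 (Gamma0 N)) (h3' : No3 𝒪 (ResidueField 𝒪) (Gamma0 N)) (h8 : IsUnit (8 : 𝒪))
    {d : ℕ} (m : Module.Basis (Fin d) 𝒪 (HM 𝒪 (Gamma1_le N) le_rfl I a)) :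
    ∃ e : HM 𝒪 (le_GK (ψ := ψ)) GK_le I a ≃ₗ[𝒪] (Fin d → MonoidAlgebra 𝒪 D),
      (∀ x v, e (actD (actM hψ I a 𝒪) x v) = x • e v) ∧
      (∀ v, trM hψ I a 𝒪 v = ∑ j, augD 𝒪 D (e v j) • m j) := by
  have := finite_H1 (O := 𝒪) (A := 𝒪) (G := GK ψ)
  have h4 : ∀ δ v, trM hψ I a 𝒪 (actM hψ I a 𝒪 δ v) = trM hψ I a 𝒪 v :=
    fun δ v => Subtype.ext (by rw [trM_coe, trM_coe, actM_coe, trD_actDia])
  have h5 : ∀ v, resM (ψ := ψ) I a 𝒪 (trM hψ I a 𝒪 v) = ∑ δ, actM hψ I a 𝒪 δ v := fun v => by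
    apply Subtype.ext
    rw [resM_coe, trM_coe, resH_trD, AddSubmonoidClass.coe_finset_sum]
    exact Finset.sum_congr rfl fun δ _ => (actM_coe hψ δ v).symm
  have h6 : Function.Surjective (trM hψ I a 𝒪) := trM_surjective hψ h3 h8
  have h7 := resM_fix hψ hNE h3' h8
  have h8 := resM_inj (ψ := ψ) hNE
  exact exists_free_equiv_sub hp (HM 𝒪 (le_GK (ψ := ψ)) GK_le I a)
    (HM 𝒪 (Gamma1_le N) le_rfl I a) inferInstance inferInstance hD (actM hψ I a 𝒪)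
    (trM hψ I a 𝒪) (resM (ψ := ψ) I a 𝒪) h4 h5 h6 h7 h8 m

end Fermat.Agent.RT.Ihara
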