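import Fermat.Agent.RT.Diam
import Fermat.Agent.RT.Free2

set_option autoImplicit false

/-!
# Freeness of the localised cohomology over the group ring of the diamond operators
-/

open Matrix CongruenceSubgroup IsLocalRing
open scoped MatrixGroups

namespace Fermat.Agent.RT.Ihara

open Fermat.Agent.RT

variable {G G₁ G₂ : Subgroup SL(2, ℤ)} {N : ℕ}

section Finite

variable {O A : Type*} [CommRing O] [AddCommGroup A] [Module O A]

theorem H1_one (c : H1 O A G) : c.1 1 = 0 := by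
  have := c.2 1 1
  rw [mul_one] at this
  simpa using this

theorem H1_inv (c : H1 O A G) (g : G) : c.1 g⁻¹ = - c.1 g := by
  have := c.2 g g⁻¹
  rw [mul_inv_cancel, H1_one] at this
  exact (neg_eq_of_add_eq_zero_right this.symm).symm

theorem finite_H1 [G.FiniteIndex] [IsNoetherianRing O] [Module.Finite O A] :
    Module.Finite O (H1 O A G) := by
  have hG : Group.FG SL(2, ℤ) := by
    rw [Group.fg_iff]
    exact ⟨{ModularGroup.S, ModularGroup.T}, SpecialLinearGroup.SL2Z_generators, by simp⟩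
  have hfg : Group.FG G := inferInstance
  obtain ⟨S, hS, hfin⟩ := Group.fg_iff.mp hfg
  have := hfin.to_subtype
  let f : H1 O A G →ₗ[O] (S → A) :=
    { toFun := fun c s => c.1 s
      map_add' := fun _ _ => rfl
      map_smul' := fun _ _ => rfl }
  refine Module.Finite.of_injective f fun c c' h => ?_
  apply Subtype.ext
  funext g
  have hg : g ∈ Subgroup.closure S := by rw [hS]; exact Subgroup.mem_top g
  induction hg using Subgroup.closure_induction with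
  | mem x hx => exact congrFun h ⟨x, hx⟩
  | one => rw [H1_one, H1_one]
  | mul x y _ _ hx hy => rw [c.2, c'.2, hx, hy]
  | inv x _ hx => rw [H1_inv, H1_inv, hx]

end Finite

section Maps

variable {𝒪 : Type*} [CommRing 𝒪] [IsLocalRing 𝒪] {M : Type*} [AddCommGroup M] [Module 𝒪 M]
  {M' : Type*} [AddCommGroup M'] [Module 𝒪 M'] {σ : Type*}

/-- An equivariant map on the localisations -/
def LocG.mapL {T : σ → Module.End 𝒪 M} {T' : σ → Module.End 𝒪 M'} {a : σ → 𝒪}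
    (f : M →ₗ[𝒪] M') (hf : ∀ i m, f (T i m) = T' i (f m)) : LocG T a →ₗ[𝒪] LocG T' a :=
  f.restrict fun _ hm => LocG.map f hf hm

@[simp] theorem LocG.mapL_apply {T : σ → Module.End 𝒪 M} {T' : σ → Module.End 𝒪 M'} {a : σ → 𝒪}
    (f : M →ₗ[𝒪] M') (hf : ∀ i m, f (T i m) = T' i (f m)) (x : LocG T a) :
    (LocG.mapL (a := a) f hf x : M') = f x := rfl

end Maps

section DVR

variable {𝒪 : Type*} [CommRing 𝒪] [IsDomain 𝒪] [IsDiscreteValuationRing 𝒪]

variable (𝒪) in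
/-- the residue map -/
noncomputable def resL : 𝒪 →ₗ[𝒪] ResidueField 𝒪 := Algebra.linearMap 𝒪 (ResidueField 𝒪)

theorem resL_surjective : Function.Surjective (resL 𝒪) := IsLocalRing.residue_surjective

theorem resL_eq_zero {x : 𝒪} : resL 𝒪 x = 0 ↔ x ∈ maximalIdeal 𝒪 := residue_eq_zero_iff x

instance finite_residue : Module.Finite 𝒪 (ResidueField 𝒪) :=
  Module.Finite.of_surjective (resL 𝒪) resL_surjective

theorem mem_of_mapH_eq_zero {c : H1 𝒪 𝒪 G} (hc : mapH (resL 𝒪) c = 0) :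
    c ∈ maximalIdeal 𝒪 • (⊤ : Submodule 𝒪 (H1 𝒪 𝒪 G)) := by
  obtain ⟨ϖ, hϖ⟩ := IsDiscreteValuationRing.exists_irreducible 𝒪
  have h𝔪 : maximalIdeal 𝒪 = Ideal.span {ϖ} := hϖ.maximalIdeal_eq
  have h1 : ∀ g : G, ∃ y, c.1 g = ϖ * y := by
    intro g
    have h2 : resL 𝒪 (c.1 g) = 0 := congrFun (congrArg Subtype.val hc) g
    rw [resL_eq_zero, h𝔪, Ideal.mem_span_singleton] at h2
    exact h2
  choose y hy using h1
  have h2 : c = ϖ • (⟨y, fun g h => by
      apply mul_left_cancel₀ hϖ.ne_zero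
      rw [mul_add, ← hy, ← hy, ← hy, c.2]⟩ : H1 𝒪 𝒪 G) := by
    apply Subtype.ext
    funext g
    exact hy g
  rw [h2]
  refine Submodule.smul_mem_smul ?_ Submodule.mem_top
  rw [h𝔪]; exact Ideal.mem_span_singleton_self _

theorem mapH_of_mem {c : H1 𝒪 𝒪 G} (hc : c ∈ maximalIdeal 𝒪 • (⊤ : Submodule 𝒪 (H1 𝒪 𝒪 G))) :
    mapH (resL 𝒪) c = 0 := by
  induction hc using Submodule.smul_induction_on' with
  | smul a ha x _ =>
    rw [map_smul]
    apply Subtype.ext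
    funext g
    change a • resL 𝒪 (x.1 g) = 0
    rw [← map_smul, resL_eq_zero]
    exact Ideal.mul_mem_right _ _ ha
  | add x _ y _ hx hy => rw [map_add, hx, hy, add_zero]

variable [IsAdicComplete (maximalIdeal 𝒪) 𝒪]

/-- The Hecke operators indexed by a set -/
noncomputable def hecI {A : Type*} [AddCommGroup A] [Module 𝒪 A] (h1 : Gamma1 N ≤ G)
    (h0 : G ≤ Gamma0 N) (I : Set ℕ) (i : I) : Module.End 𝒪 (H1 𝒪 A G) := hec h1 h0 i

theorem hecI_comm {A : Type*} [AddCommGroup A] [Module 𝒪 A] (h1 : Gamma1 N ≤ G)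
    (h0 : G ≤ Gamma0 N) (I : Set ℕ) (i j : I) :
    (hecI h1 h0 I i * hecI h1 h0 I j : Module.End 𝒪 (H1 𝒪 A G)) =
      hecI h1 h0 I j * hecI h1 h0 I i := hec_comm h1 h0 i j

/-- The localised cohomology -/
noncomputable abbrev HM (A : Type*) [AddCommGroup A] [Module 𝒪 A] (h1 : Gamma1 N ≤ G)
    (h0 : G ≤ Gamma0 N) (I : Set ℕ) (a : ℕ → 𝒪) : Submodule 𝒪 (H1 𝒪 A G) :=
  LocG (hecI h1 h0 I) fun i : I => a i

variable [NeZero N] {D : Type*} [CommGroup D] [Fintype D] {ψ : (ZMod N)ˣ →* D}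
  (hψ : Function.Surjective ψ) (I : Set ℕ) (a : ℕ → 𝒪)

instance finiteIndex_Gamma0 : (Gamma0 N).FiniteIndex :=
  Subgroup.finiteIndex_of_le (Gamma1_le N)

instance finiteIndex_GK : (GK ψ).FiniteIndex := Subgroup.finiteIndex_of_le (le_GK (ψ := ψ))

omit [Fintype D] in
theorem actDia_hecI {A : Type*} [AddCommGroup A] [Module 𝒪 A] (δ : D) (i : I) :
    (actDia hψ δ * hecI le_GK GK_le I i : Module.End 𝒪 (H1 𝒪 A (GK ψ))) =
      hecI le_GK GK_le I i * actDia hψ δ := (hec_diaH le_GK GK_le i (rep hψ δ)).symm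

/-- The action of `D` on the localised cohomology. -/
noncomputable def actM (A : Type*) [AddCommGroup A] [Module 𝒪 A] :
    D →* Module.End 𝒪 (HM A (le_GK (ψ := ψ)) GK_le I a) where
  toFun δ := LocG.res (actDia hψ δ) (actDia_hecI hψ I δ)
  map_one' := by
    refine LinearMap.ext fun x => Subtype.ext ?_
    rw [LocG.res_apply, map_one]; rfl
  map_mul' δ δ' := by
    refine LinearMap.ext fun x => Subtype.ext ?_
    rw [LocG.res_apply, map_mul]; rfl

/-- The transfer on the localised cohomology -/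
noncomputable def trM (A : Type*) [AddCommGroup A] [Module 𝒪 A] :
    HM A (le_GK (ψ := ψ)) GK_le I a →ₗ[𝒪] HM A (Gamma1_le N) le_rfl I a :=
  LocG.mapL (trD hψ) fun i m => (hec_trD hψ i m).symm

/-- The restriction on the localised cohomology -/
noncomputable def resM (A : Type*) [AddCommGroup A] [Module 𝒪 A] :
    HM A (Gamma1_le N) le_rfl I a →ₗ[𝒪] HM A (le_GK (ψ := ψ)) GK_le I a :=
  LocG.mapL (resH GK_le) fun i m => hec_resH le_GK GK_le le_rfl i m

/-- non-Eisenstein systems of eigenvalues -/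
def NonEis (N : ℕ) (I : Set ℕ) (a : ℕ → 𝒪) : Prop :=
  ∃ l ∈ I, l.Prime ∧ ¬ l ∣ N ∧ IsUnit (a l - (l + 1))

variable {I a}

omit [NeZero N] in
theorem NonEis.zero {A : Type*} [AddCommGroup A] [Module 𝒪 A] [Module.Finite 𝒪 A]
    [G.FiniteIndex] (h1 : Gamma1 N ≤ G) (h0 : G ≤ Gamma0 N) {l : ℕ} (hl : l ∈ I)
    (hu : IsUnit (a l - (l + 1))) {x : H1 𝒪 A G} (hx : x ∈ HM A h1 h0 I a)
    (hx0 : hec h1 h0 l x = ((l + 1 : ℕ) : 𝒪) • x) : x = 0 := by
  have := finite_H1 (O := 𝒪) (A := A) (G := G)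
  exact LocG.eq_zero_X (hecI_comm (A := A) h1 h0 I) ⟨l, hl⟩ (by push_cast; exact hu) hx hx0

omit [NeZero N] in
theorem NonEis.exists {A : Type*} [AddCommGroup A] [Module 𝒪 A] [Module.Finite 𝒪 A]
    [G.FiniteIndex] (h1 : Gamma1 N ≤ G) (h0 : G ≤ Gamma0 N) {l : ℕ} (hl : l ∈ I)
    (hu : IsUnit (a l - (l + 1))) {x : H1 𝒪 A G} (hx : x ∈ HM A h1 h0 I a) :
    ∃ y ∈ HM A h1 h0 I a, hec h1 h0 l y - ((l + 1 : ℕ) : 𝒪) • y = x := by
  have := finite_H1 (O := 𝒪) (A := A) (G := G)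
  exact LocG.exists_X (hecI_comm (A := A) h1 h0 I) ⟨l, hl⟩ (by push_cast; exact hu) hx

variable [Finite (ResidueField 𝒪)] {p : ℕ} [Fact p.Prime] (hp : (p : 𝒪) ∈ maximalIdeal 𝒪)

omit [Finite (ResidueField 𝒪)] in
theorem trM_surjective (h3 : No3 𝒪 𝒪 (Gamma0 N)) (h8 : IsUnit (8 : 𝒪)) :
    Function.Surjective (trM hψ I a 𝒪) := by
  have := finite_H1 (O := 𝒪) (A := 𝒪) (G := Gamma0 N)
  have := finite_H1 (O := 𝒪) (A := 𝒪) (G := GK ψ)
  rintro ⟨x, hx⟩
  have h4 : ∀ (i : I) (m : H1 𝒪 𝒪 (GK ψ)), trD hψ (hecI le_GK GK_le I i m) =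
      hecI (Gamma1_le N) le_rfl I i (trD hψ m) := fun i m => (hec_trD hψ i m).symm
  obtain ⟨y, hy, e⟩ := LocG.exists_of_mem (hecI_comm le_GK GK_le I)
    (hecI_comm (Gamma1_le N) le_rfl I) (trD hψ) h4 hx (trD_surjective hψ h3 h8 x)
  exact ⟨⟨y, hy⟩, Subtype.ext e⟩


end DVR

end Fermat.Agent.RT.Ihara
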