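import Fermat.Agent.RT.Comb

set_option autoImplicit false
set_option maxHeartbeats 400000
set_option linter.style.haveILetI false
set_option linter.unusedSectionVars false
set_option linter.unusedVariables false

/-!
# The Taylor–Wiles levels
-/

open IsLocalRing MvPowerSeries Filter

namespace Fermat.Agent.RT

/-- The residual Frobenius at the special place. -/
def baseM (reg : Bool) (A : Type*) [CommRing A] : Matrix (Fin 2) (Fin 2) A :=
  if reg then uMat A else 1

section Mat

variable {𝒪 : Type} [CommRing 𝒪] [IsLocalRing 𝒪] {ι' : Type} [Fintype ι']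

/-- The universal matrices at the special place. -/
noncomputable def matB (reg s : Bool) : Matrix (Fin 2) (Fin 2) (MvPowerSeries (ι' ⊕ LIx) 𝒪) :=
  (if s then 1 else baseM reg _) + Matrix.of fun a b => X (Sum.inr (s, a, b))

lemma matB_false (s : Bool) : matB false s = (matP s :
    Matrix (Fin 2) (Fin 2) (MvPowerSeries (ι' ⊕ LIx) 𝒪)) := by
  cases s <;> rfl

lemma matB_true (s : Bool) : matB true s = (matPR s :
    Matrix (Fin 2) (Fin 2) (MvPowerSeries (ι' ⊕ LIx) 𝒪)) := by
  cases s <;> rfl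

lemma baseM_map {A B : Type*} [CommRing A] [CommRing B] (f : A →+* B) (reg : Bool) :
    (baseM reg A).map f = baseM reg B := by
  cases reg
  · exact Matrix.map_one _ (map_zero _) (map_one _)
  · exact uMat_map f

lemma matB_map {A : Type*} [CommRing A] (f : MvPowerSeries (ι' ⊕ LIx) 𝒪 →+* A) (reg s : Bool)
    {M : Matrix (Fin 2) (Fin 2) A}
    (h : ∀ a b, f (X (Sum.inr (s, a, b))) = (M - (if s then 1 else baseM reg A)) a b) :
    (matB reg s).map f = M := by
  have h1 : (if s then 1 else baseM reg (MvPowerSeries (ι' ⊕ LIx) 𝒪) :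
      Matrix (Fin 2) (Fin 2) _).map f = (if s then 1 else baseM reg A) := by
    cases s
    · exact baseM_map f reg
    · exact Matrix.map_one _ (map_zero _) (map_one _)
  ext a b
  have h2 := congrFun (congrFun h1 a) b
  rw [Matrix.map_apply] at h2
  rw [Matrix.map_apply, matB, Matrix.add_apply, map_add, h2, Matrix.of_apply, h, Matrix.sub_apply]
  ring

end Mat

variable (𝒪 : Type) [CommRing 𝒪] [IsDomain 𝒪] [IsDiscreteValuationRing 𝒪]
  [IsAdicComplete (maximalIdeal 𝒪) 𝒪] [Finite (ResidueField 𝒪)]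

/-- The data at a Taylor–Wiles level. -/
structure TWData {κ : Type} [Fintype κ] {c : κ → ℕ} (τ : ∀ v, LocType 𝒪 (c v)) (g r d : ℕ)
    (reg : Bool) where
  /-- The ideal of the level. -/
  J : Ideal (MvPowerSeries (Fin r) 𝒪)
  hJ : J ≤ RingHom.ker (constantCoeff : MvPowerSeries (Fin r) 𝒪 →+* 𝒪)
  /-- The Hecke algebra. -/
  T : Type
  [comm : CommRing T]
  [loc : IsLocalRing T]
  [noeth : IsNoetherianRing T]
  [compl : IsAdicComplete (maximalIdeal T) T]
  σ : 𝒪 →+* T
  hσ : ∀ b ∈ maximalIdeal 𝒪, σ b ∈ maximalIdeal T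
  /-- The action of trivial type. -/
  A₁ : T →+* Matrix (Fin d) (Fin d) (MvPowerSeries (Fin r) 𝒪 ⧸ J)
  /-- The action of type `χ`. -/
  Aχ : T →+* Matrix (Fin d) (Fin d) (MvPowerSeries (Fin r) 𝒪 ⧸ J)
  /-- The structure map. -/
  b : MvPowerSeries (Fin r) 𝒪 →+* T
  hbC : ∀ x, b (C x) = σ x
  hbX : ∀ i, b (X i) ∈ maximalIdeal T
  hA₁ : ∀ s, A₁ (b s) = Matrix.scalar (Fin d) (Ideal.Quotient.mk J s)
  hAχ : ∀ s, Aχ (b s) = Matrix.scalar (Fin d) (Ideal.Quotient.mk J s)
  /-- Frobenius at the special place. -/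
  Φ : Matrix (Fin 2) (Fin 2) T
  /-- Inertia at the special place. -/
  Sg : Matrix (Fin 2) (Fin 2) T
  hΦ : ∀ i j, (Φ - baseM reg T) i j ∈ maximalIdeal T
  hSg : ∀ i j, (Sg - 1) i j ∈ maximalIdeal T
  /-- The coordinates at the other places. -/
  x : ∀ v, (τ v).ι → MvPowerSeries (Option κ × Fin 3) T
  hx : ∀ v i, x v i ∈ maximalIdeal (MvPowerSeries (Option κ × Fin 3) T)
  /-- The global coordinates. -/
  z : Fin g → MvPowerSeries (Option κ × Fin 3) T
  hz : ∀ i, z i ∈ maximalIdeal (MvPowerSeries (Option κ × Fin 3) T)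

attribute [instance] TWData.comm TWData.loc TWData.noeth TWData.compl

namespace TWData

variable {𝒪} {κ : Type} [Fintype κ] {c : κ → ℕ} {τ : ∀ v, LocType 𝒪 (c v)} {g r d : ℕ}
  {reg : Bool} (L : TWData 𝒪 τ g r d reg)

lemma framed_sub_mem {v : Option κ} {M B : Matrix (Fin 2) (Fin 2) L.T}
    (hM : ∀ i j, (M - B) i j ∈ maximalIdeal L.T) (i j : Fin 2) :
    (framed v M - B.map (C : L.T →+* MvPowerSeries (Option κ × Fin 3) L.T) :
      Matrix (Fin 2) (Fin 2) _) i j ∈
      maximalIdeal (MvPowerSeries (Option κ × Fin 3) L.T) := by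
  rw [mem_maximalIdeal_iff]
  have h1 : constantCoeff ((framed v M - B.map (C : L.T →+* MvPowerSeries (Option κ × Fin 3) L.T) :
      Matrix (Fin 2) (Fin 2) _) i j) = (M - B) i j := by
    have h2 := congrFun (congrFun (constantCoeff_framed v M) i) j
    rw [Matrix.map_apply] at h2
    rw [Matrix.sub_apply, map_sub, h2, Matrix.map_apply, constantCoeff_C, Matrix.sub_apply]
  rw [h1]
  exact hM i j

/-- All the coordinates. -/
noncomputable def allX : PIx τ g ⊕ LIx → MvPowerSeries (Option κ × Fin 3) L.T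
  | Sum.inl (Sum.inl p) => L.x p.1 p.2
  | Sum.inl (Sum.inr j) => L.z j
  | Sum.inr (s, a, b) => (framed none (if s then L.Sg else L.Φ) -
      (if s then 1 else baseM reg _) :
        Matrix (Fin 2) (Fin 2) (MvPowerSeries (Option κ × Fin 3) L.T)) a b

lemma allX_mem (i) : L.allX i ∈ maximalIdeal (MvPowerSeries (Option κ × Fin 3) L.T) := by
  rcases i with (p | j) | ⟨s, a, b⟩
  · exact L.hx _ _
  · exact L.hz _
  · cases s
    · have h1 := L.framed_sub_mem (v := none) L.hΦ a b
      rw [baseM_map] at h1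
      exact h1
    · have h1 := L.framed_sub_mem (v := none) L.hSg a b
      rw [Matrix.map_one _ (map_zero _) (map_one _)] at h1
      exact h1

/-- The map from the universal power series ring. -/
noncomputable def f : MvPowerSeries (PIx τ g ⊕ LIx) 𝒪 →+* MvPowerSeries (Option κ × Fin 3) L.T :=
  evalHom (maximalIdeal _) ((C : L.T →+* _).comp L.σ) L.allX L.allX_mem

lemma f_C (b : 𝒪) : L.f (C b) = C (L.σ b) := by rw [f, evalHom_C]; rfl

lemma f_X (i) : L.f (X i) = L.allX i := by rw [f, evalHom_X]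

lemma matB_map_f (s : Bool) : (matB reg s).map L.f = framed none (if s then L.Sg else L.Φ) :=
  matB_map L.f reg s fun a b => by rw [f_X]; rfl

lemma f_mem {F : MvPowerSeries (PIx τ g ⊕ LIx) 𝒪}
    (hF : F ∈ maximalIdeal (MvPowerSeries (PIx τ g ⊕ LIx) 𝒪)) :
    L.f F ∈ maximalIdeal (MvPowerSeries (Option κ × Fin 3) L.T) :=
  map_maximalIdeal_le (fun b hb => by rw [f_C]; exact C_mem_maximalIdeal (L.hσ b hb))
    (fun i => by rw [f_X]; exact L.allX_mem i) hF

lemma f_inc_incl (v : κ) (F : MvPowerSeries (τ v).ι 𝒪) :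
    L.f (inc 𝒪 (PIx τ g) (incl τ g v F)) =
      evalHom (maximalIdeal _) ((C : L.T →+* _).comp L.σ) (L.x v) (L.hx v) F := by
  have : L.f.comp ((inc 𝒪 (PIx τ g)).comp (incl τ g v)) =
      evalHom (maximalIdeal _) ((C : L.T →+* _).comp L.σ) (L.x v) (L.hx v) := by
    refine ringHom_ext_of_hausdorff (I := maximalIdeal (MvPowerSeries (Option κ × Fin 3) L.T))
      (fun b hb => ?_) (fun i => ?_) (fun b => ?_) (fun i => ?_)
    · rw [RingHom.comp_apply, RingHom.comp_apply, incl_C, inc_C, f_C]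
      exact C_mem_maximalIdeal (L.hσ b hb)
    · rw [RingHom.comp_apply, RingHom.comp_apply, incl_X, inc_X, f_X]
      exact L.allX_mem _
    · rw [RingHom.comp_apply, RingHom.comp_apply, incl_C, inc_C, f_C, evalHom_C]; rfl
    · rw [RingHom.comp_apply, RingHom.comp_apply, incl_X, inc_X, f_X, evalHom_X]; rfl
  exact RingHom.congr_fun this F

variable {m : ℕ} (e : Fin m ≃ Fin r ⊕ (Option κ × Fin 3))

/-- The structure map from the power series ring in the Taylor–Wiles and frame variables. -/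
noncomputable def β : MvPowerSeries (Fin m) 𝒪 →+* MvPowerSeries (Option κ × Fin 3) L.T :=
  (MvPowerSeries.map L.b).comp (cur (expEquiv e))

lemma β_C (b : 𝒪) : L.β e (C b) = C (L.σ b) := by
  rw [β, RingHom.comp_apply, cur_C, map_C, L.hbC]

lemma b_mem {F : MvPowerSeries (Fin r) 𝒪} (hF : F ∈ maximalIdeal (MvPowerSeries (Fin r) 𝒪)) :
    L.b F ∈ maximalIdeal L.T :=
  map_maximalIdeal_le (fun b hb => by rw [L.hbC]; exact L.hσ b hb) L.hbX hF

lemma β_X_mem (i : Fin m) : L.β e (X i) ∈ maximalIdeal (MvPowerSeries (Option κ × Fin 3) L.T) := by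
  rw [mem_maximalIdeal_iff, β, RingHom.comp_apply, ← coeff_zero_eq_constantCoeff_apply, coeff_map,
    coeff_zero_eq_constantCoeff_apply]
  apply L.b_mem
  rw [mem_maximalIdeal_iff, constantCoeff_cur, constantCoeff_X]
  exact Ideal.zero_mem _

variable (hf : Function.Surjective L.f)

/-- The lift of the structure map. -/
noncomputable def lift (i : Fin m) : MvPowerSeries (PIx τ g ⊕ LIx) 𝒪 :=
  Function.surjInv hf (L.β e (X i))

lemma f_lift (i : Fin m) : L.f (L.lift e hf i) = L.β e (X i) := Function.surjInv_eq hf _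

lemma lift_mem (i : Fin m) : L.lift e hf i ∈ maximalIdeal (MvPowerSeries (PIx τ g ⊕ LIx) 𝒪) := by
  by_contra h
  rw [mem_maximalIdeal, mem_nonunits_iff, not_not] at h
  have h1 := h.map L.f
  rw [f_lift] at h1
  exact (L.β_X_mem e i) h1

/-- The structure map of the patching data. -/
noncomputable def α : MvPowerSeries (Fin m) 𝒪 →+* MvPowerSeries (PIx τ g ⊕ LIx) 𝒪 :=
  evalHom (maximalIdeal _) C (L.lift e hf) (L.lift_mem e hf)

lemma f_α (s : MvPowerSeries (Fin m) 𝒪) : L.f (L.α e hf s) = L.β e s := by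
  have : L.f.comp (L.α e hf) = L.β e := by
    refine ringHom_ext_of_hausdorff (I := maximalIdeal (MvPowerSeries (Option κ × Fin 3) L.T))
      (fun b hb => ?_) (fun i => ?_) (fun b => ?_) (fun i => ?_)
    · rw [RingHom.comp_apply, α, evalHom_C, f_C]
      exact C_mem_maximalIdeal (L.hσ b hb)
    · rw [RingHom.comp_apply, α, evalHom_X, f_lift]
      exact L.β_X_mem e i
    · rw [RingHom.comp_apply, α, evalHom_C, f_C, β_C]
    · rw [RingHom.comp_apply, α, evalHom_X, f_lift]
  exact RingHom.congr_fun this s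

/-- The isomorphism between the two forms of the ring of the level. -/
noncomputable def iso : (MvPowerSeries (Fin m) 𝒪 ⧸ RingHom.ker (levelMap e L.J)) ≃+*
    MvPowerSeries (Option κ × Fin 3) (MvPowerSeries (Fin r) 𝒪 ⧸ L.J) :=
  RingHom.quotientKerEquivOfSurjective (levelMap_surjective e L.J)

lemma iso_mk (s : MvPowerSeries (Fin m) 𝒪) :
    L.iso e (Ideal.Quotient.mk _ s) = levelMap e L.J s := rfl

lemma iso_symm_levelMap (s : MvPowerSeries (Fin m) 𝒪) :
    (L.iso e).symm (levelMap e L.J s) = Ideal.Quotient.mk _ s := by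
  rw [RingEquiv.symm_apply_eq, iso_mk]

/-- The framed action. -/
noncomputable def act (A : L.T →+* Matrix (Fin d) (Fin d) (MvPowerSeries (Fin r) 𝒪 ⧸ L.J)) :
    MvPowerSeries (PIx τ g ⊕ LIx) 𝒪 →+* Matrix (Fin d) (Fin d)
      (MvPowerSeries (Fin m) 𝒪 ⧸ RingHom.ker (levelMap e L.J)) :=
  (((L.iso e).symm : _ →+* _).mapMatrix).comp ((frameExt A).comp L.f)

lemma act_apply (A : L.T →+* Matrix (Fin d) (Fin d) (MvPowerSeries (Fin r) 𝒪 ⧸ L.J))
    (F : MvPowerSeries (PIx τ g ⊕ LIx) 𝒪) (i j : Fin d) :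
    L.act e A F i j = (L.iso e).symm (frameExt A (L.f F) i j) := rfl

lemma act_eq_zero {A : L.T →+* Matrix (Fin d) (Fin d) (MvPowerSeries (Fin r) 𝒪 ⧸ L.J)}
    {F : MvPowerSeries (PIx τ g ⊕ LIx) 𝒪} (h : frameExt A (L.f F) = 0) : L.act e A F = 0 := by
  ext i j
  rw [act_apply, h, Matrix.zero_apply, map_zero, Matrix.zero_apply]

lemma act_α {A : L.T →+* Matrix (Fin d) (Fin d) (MvPowerSeries (Fin r) 𝒪 ⧸ L.J)}
    (hA : ∀ s, A (L.b s) = Matrix.scalar (Fin d) (Ideal.Quotient.mk L.J s))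
    (s : MvPowerSeries (Fin m) 𝒪) :
    L.act e A (L.α e hf s) = Matrix.scalar (Fin d) (Ideal.Quotient.mk _ s) := by
  have h1 : frameExt A (L.β e s) = Matrix.scalar (Fin d) (levelMap e L.J s) :=
    frameExt_map_scalar hA _
  ext i j
  rw [act_apply, f_α, h1, Matrix.scalar_apply, Matrix.scalar_apply, Matrix.diagonal_apply,
    Matrix.diagonal_apply]
  split_ifs
  · rw [iso_symm_levelMap]
  · rw [map_zero]

end TWData

end Fermat.Agent.RT
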