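import Fermat.Agent.RT.Levels

set_option autoImplicit false
set_option maxHeartbeats 400000
set_option linter.style.haveILetI false
set_option linter.unusedSectionVars false
set_option linter.unusedVariables false

/-!
# From the Taylor–Wiles levels to a point unramified at the special place
-/

open IsLocalRing MvPowerSeries Filter

namespace Fermat.Agent.RT

variable {𝒪 : Type} [CommRing 𝒪] [IsDomain 𝒪] [IsDiscreteValuationRing 𝒪]
  [IsAdicComplete (maximalIdeal 𝒪) 𝒪] [Finite (ResidueField 𝒪)]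

namespace TWData

variable {κ : Type} [Fintype κ] {c : κ → ℕ} {τ : ∀ v, LocType 𝒪 (c v)} {g r d : ℕ}
  {reg : Bool} (L : TWData 𝒪 τ g r d reg)

/-- The relations of unipotent type hold for the action `A`. -/
structure UniAt (A : L.T →+* Matrix (Fin d) (Fin d) (MvPowerSeries (Fin r) 𝒪 ⧸ L.J)) (q : 𝒪) :
    Prop where
  tr : A (L.Sg.trace - 2) = 0
  det : A (L.Sg.det - 1) = 0
  comm : ∀ i j, A ((L.Φ * (L.Sg - 1) - L.σ q • ((L.Sg - 1) * L.Φ)) i j) = 0
  detF : A (L.Φ.det - L.σ q) = 0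

/-- The relations of type `χ` hold for the action `A`. -/
structure ChiAt (A : L.T →+* Matrix (Fin d) (Fin d) (MvPowerSeries (Fin r) 𝒪 ⧸ L.J)) (q : 𝒪)
    (Z : Finset (𝒪 × 𝒪)) : Prop where
  det : A (L.Sg.det - 1) = 0
  comm : ∀ i j, A ((L.Φ * L.Sg - L.Sg * L.Φ) i j) = 0
  detF : A (L.Φ.det - L.σ q) = 0
  tr : A (∏ z ∈ Z, (L.Sg.trace - L.σ z.1 - L.σ z.2)) = 0

variable {m : ℕ} (e : Fin m ≃ Fin r ⊕ (Option κ × Fin 3))

lemma mem_ker_of_C {A : L.T →+* Matrix (Fin d) (Fin d) (MvPowerSeries (Fin r) 𝒪 ⧸ L.J)}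
    {F : MvPowerSeries (PIx τ g ⊕ LIx) 𝒪} {t : L.T} (hF : L.f F = C t) (ht : A t = 0) :
    F ∈ RingHom.ker (L.act e A) :=
  L.act_eq_zero e (by rw [hF]; exact frameExt_C_eq_zero ht)

lemma f_trace (s : Bool) : L.f (matB reg s).trace = C (if s then L.Sg else L.Φ).trace := by
  rw [← trace_map', L.matB_map_f, trace_framed]

lemma f_det (s : Bool) : L.f (matB reg s).det = C (if s then L.Sg else L.Φ).det := by
  rw [← det_map', L.matB_map_f, det_framed]

lemma mem_ker_of_framed {A : L.T →+* Matrix (Fin d) (Fin d) (MvPowerSeries (Fin r) 𝒪 ⧸ L.J)}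
    {F : Matrix (Fin 2) (Fin 2) (MvPowerSeries (PIx τ g ⊕ LIx) 𝒪)} {M : Matrix (Fin 2) (Fin 2) L.T}
    (hF : F.map L.f = framed none M) (hM : ∀ i j, A (M i j) = 0) (i j : Fin 2) :
    F i j ∈ RingHom.ker (L.act e A) := by
  apply L.act_eq_zero e
  have h1 : L.f (F i j) = framed none M i j := by rw [← hF, Matrix.map_apply]
  rw [h1]
  exact framed_mem none (I := RingHom.ker (frameExt A)) (fun i j => frameExt_C_eq_zero (hM i j)) i j

lemma UniAt.uniIdeal {A : L.T →+* Matrix (Fin d) (Fin d) (MvPowerSeries (Fin r) 𝒪 ⧸ L.J)} {q : 𝒪}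
    (h : L.UniAt A q) : UniIdeal (matB reg false) (matB reg true) C q
      (RingHom.ker (L.act e A)) := by
  refine ⟨L.mem_ker_of_C e ?_ h.tr, L.mem_ker_of_C e ?_ h.det, ?_, L.mem_ker_of_C e ?_ h.detF⟩
  · rw [map_sub, f_trace, map_ofNat, map_sub, map_ofNat]; rfl
  · rw [map_sub, f_det, map_one, map_sub, map_one]; rfl
  · refine L.mem_ker_of_framed e ?_ h.comm
    have h1 : ((matB reg true - 1 : Matrix (Fin 2) (Fin 2) (MvPowerSeries (PIx τ g ⊕ LIx) 𝒪))).map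
        L.f = framed none (L.Sg - 1) := by
      rw [← RingHom.mapMatrix_apply, map_sub, map_one, RingHom.mapMatrix_apply, L.matB_map_f,
        framed_sub, framed_one]
      rfl
    rw [framed_sub, framed_mul, framed_smul, framed_mul, ← h1, ← RingHom.mapMatrix_apply, map_sub,
      map_mul, RingHom.mapMatrix_apply, RingHom.mapMatrix_apply, L.matB_map_f]
    congr 1
    ext i j
    rw [RingHom.mapMatrix_apply, Matrix.map_apply, Matrix.smul_apply, Matrix.smul_apply,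
      smul_eq_mul, smul_eq_mul, map_mul, L.f_C, ← Matrix.map_apply (f := L.f), Matrix.map_mul,
      L.matB_map_f]
    rfl
  · rw [map_sub, f_det, map_sub, f_C]; rfl

lemma ChiAt.chiIdeal {A : L.T →+* Matrix (Fin d) (Fin d) (MvPowerSeries (Fin r) 𝒪 ⧸ L.J)} {q : 𝒪}
    {Z : Finset (𝒪 × 𝒪)} (h : L.ChiAt A q Z) : ChiIdeal (matB reg false) (matB reg true) C q Z
      (RingHom.ker (L.act e A)) := by
  refine ⟨L.mem_ker_of_C e ?_ h.det, ?_, L.mem_ker_of_C e ?_ h.detF, L.mem_ker_of_C e ?_ h.tr⟩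
  · rw [map_sub, f_det, map_one, map_sub, map_one]; rfl
  · refine L.mem_ker_of_framed e ?_ h.comm
    rw [framed_sub, framed_mul, framed_mul, ← RingHom.mapMatrix_apply, map_sub,
      map_mul, map_mul, RingHom.mapMatrix_apply, RingHom.mapMatrix_apply, L.matB_map_f,
      L.matB_map_f]
    rfl
  · rw [map_sub, f_det, map_sub, f_C]; rfl
  · rw [map_prod, map_prod]
    refine Finset.prod_congr rfl fun z _ => ?_
    rw [map_sub, map_sub, f_trace, f_C, f_C, map_sub, map_sub]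
    rfl

/-- The special value at level zero. -/
lemma constantCoeff_f_X (a b : Fin 2) :
    constantCoeff (L.f (X (Sum.inr (true, a, b)))) = (L.Sg - 1) a b := by
  rw [f_X]
  change constantCoeff ((framed none L.Sg - 1 : Matrix (Fin 2) (Fin 2) _) a b) = _
  have h2 := congrFun (congrFun (constantCoeff_framed (κ := κ) none L.Sg) a) b
  rw [Matrix.map_apply] at h2
  rw [Matrix.sub_apply, map_sub, h2, Matrix.sub_apply, Matrix.one_apply, Matrix.one_apply]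
  split_ifs
  · rw [map_one]
  · rw [map_zero]

end TWData

/-- The compatibilities of a level with the level zero. -/
structure TWLevel {κ : Type} [Fintype κ] {c : κ → ℕ} (τ : ∀ v, LocType 𝒪 (c v)) (g r d : ℕ)
    (reg : Bool) (q : 𝒪) (Z : Finset (𝒪 × 𝒪)) {T₀ : Type} [CommRing T₀] (σ₀ : 𝒪 →+* T₀)
    (A₀ : T₀ →+* Matrix (Fin d) (Fin d) 𝒪) (Sg₀ : Matrix (Fin 2) (Fin 2) T₀) extends
    TWData 𝒪 τ g r d reg where
  hcongr : ∀ t, MatIn (((maximalIdeal 𝒪).map (C : 𝒪 →+* MvPowerSeries (Fin r) 𝒪)).map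
    (Ideal.Quotient.mk J)) (A₁ t - Aχ t)
  /-- The map to level zero. -/
  π : T →+* T₀
  hπσ : ∀ b, π (σ b) = σ₀ b
  hπA : ∀ t i j, Ideal.Quotient.lift J constantCoeff (fun a ha => RingHom.mem_ker.mp (hJ ha))
    (A₁ t i j) = A₀ (π t) i j
  hπSg : ∀ i j, π (Sg i j) = Sg₀ i j
  uni : toTWData.UniAt A₁ q
  chi : toTWData.ChiAt Aχ q Z
  hRel : ∀ v, ∀ r ∈ (τ v).Rel, frameExt Aχ (evalHom (maximalIdeal _)
    ((C : T →+* MvPowerSeries (Option κ × Fin 3) T).comp σ) (x v) (hx v) r) = 0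
  surj : Function.Surjective toTWData.f

section Main

variable {κ : Type} [Fintype κ] {c : κ → ℕ} {τ : ∀ v, LocType 𝒪 (c v)} {g r d : ℕ}
  {reg : Bool} {q : 𝒪} {Z : Finset (𝒪 × 𝒪)} {T₀ : Type} [CommRing T₀] [IsLocalRing T₀]
  [IsNoetherianRing T₀] [IsAdicComplete (maximalIdeal T₀) T₀] {σ₀ : 𝒪 →+* T₀}
  {A₀ : T₀ →+* Matrix (Fin d) (Fin d) 𝒪} {Sg₀ : Matrix (Fin 2) (Fin 2) T₀}
  {e' : ℕ} (e : Fin (e' + 2) ≃ Fin r ⊕ (Option κ × Fin 3))

/-- The patching input. -/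
noncomputable def patchInput (hfin₀ : ∀ k : ℕ, Finite (T₀ ⧸ maximalIdeal T₀ ^ k))
    (hσ₀ : ∀ b ∈ maximalIdeal 𝒪, σ₀ b ∈ maximalIdeal T₀) (hint₀ : σ₀.IsIntegral)
    (hA₀ : ∀ b, A₀ (σ₀ b) = Matrix.scalar (Fin d) b) (hinj₀ : Function.Injective A₀)
    (L : ℕ → TWLevel τ g r d reg q Z σ₀ A₀ Sg₀)
    (hJ : ∀ k, ∀ᶠ n in atTop, (L n).J ≤ maximalIdeal (MvPowerSeries (Fin r) 𝒪) ^ k) :
    PatchInput 𝒪 (e' + 2) d (PIx τ g ⊕ LIx) where
  J n := RingHom.ker (levelMap e (L n).J)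
  hJ k := (hJ k).mono fun n hn => ker_levelMap_le e _ hn
  hJ0 n := ker_levelMap_le_constantCoeff e _ (L n).hJ
  α n := (L n).toTWData.α e (L n).surj
  hα n s hs := map_maximalIdeal_le (fun b hb => by
      rw [TWData.α, evalHom_C]; exact C_mem_maximalIdeal hb)
    (fun i => by rw [TWData.α, evalHom_X]; exact (L n).toTWData.lift_mem e (L n).surj i) hs
  hαC n b := by rw [TWData.α, evalHom_C]
  A₁ n := (L n).toTWData.act e (L n).A₁
  Aχ n := (L n).toTWData.act e (L n).Aχ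
  hA₁ n s := (L n).toTWData.act_α e (L n).surj (L n).hA₁ s
  hAχ n s := (L n).toTWData.act_α e (L n).surj (L n).hAχ s
  hcongr n x := by
    obtain ⟨ϖ, hϖ⟩ := (IsPrincipalIdealRing.principal (maximalIdeal 𝒪)).principal
    have hϖ' : maximalIdeal 𝒪 = Ideal.span {ϖ} := hϖ
    have h1 : ∀ t, MatIn (Ideal.span {Ideal.Quotient.mk (L n).J (C ϖ)})
        ((L n).A₁ t - (L n).Aχ t) := by
      intro t
      have := (L n).hcongr t
      rw [hϖ', Ideal.map_span, Set.image_singleton, Ideal.map_span, Set.image_singleton] at this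
      exact this
    have h2 := frameExt_congr h1 ((L n).toTWData.f x)
    intro i j
    rw [hϖ', Ideal.map_span, Set.image_singleton, Ideal.map_span, Set.image_singleton,
      Matrix.sub_apply, TWData.act_apply, TWData.act_apply, ← map_sub]
    have h3 := h2 i j
    rw [Ideal.mem_span_singleton, Matrix.sub_apply] at h3
    obtain ⟨u, hu⟩ := h3
    rw [hu, map_mul, Ideal.mem_span_singleton]
    have h4 : ((L n).toTWData.iso e).symm (C (Ideal.Quotient.mk (L n).J (C ϖ))) =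
        Ideal.Quotient.mk _ (C ϖ) := by
      rw [RingEquiv.symm_apply_eq, TWData.iso_mk, levelMap, RingHom.comp_apply, cur_C, map_C]
    rw [h4]
    exact Dvd.intro _ rfl
  R₀ := T₀
  hfin₀ := hfin₀
  σ₀ := σ₀
  hσ₀ := hσ₀
  hint₀ := hint₀
  A₀ := A₀
  hA₀ := hA₀
  hinj₀ := hinj₀
  ψ n := ((L n).π.comp constantCoeff).comp (L n).toTWData.f
  hψC n b := by
    rw [RingHom.comp_apply, RingHom.comp_apply, TWData.f_C, constantCoeff_C, (L n).hπσ]
  hψ n x i j := by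
    rw [RingHom.comp_apply, RingHom.comp_apply, ← (L n).hπA, ← constantCoeff_frameExt,
      TWData.act_apply]
    obtain ⟨s, hs⟩ := levelMap_surjective e (L n).J (frameExt (L n).A₁ ((L n).toTWData.f x) i j)
    rw [← hs, TWData.iso_symm_levelMap, Ideal.Quotient.lift_mk, levelMap, RingHom.comp_apply,
      ← coeff_zero_eq_constantCoeff_apply (φ := MvPowerSeries.map _ _), coeff_map,
      coeff_zero_eq_constantCoeff_apply, Ideal.Quotient.lift_mk, constantCoeff_cur]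

/-- **Main theorem of the patching argument.** -/
theorem exists_unramified_point (hd : 0 < d) (hfin₀ : ∀ k : ℕ, Finite (T₀ ⧸ maximalIdeal T₀ ^ k))
    (hσ₀ : ∀ b ∈ maximalIdeal 𝒪, σ₀ b ∈ maximalIdeal T₀) (hint₀ : σ₀.IsIntegral)
    (hA₀ : ∀ b, A₀ (σ₀ b) = Matrix.scalar (Fin d) b) (hinj₀ : Function.Injective A₀)
    (L : ℕ → TWLevel τ g r d reg q Z σ₀ A₀ Sg₀)
    (hJ : ∀ k, ∀ᶠ n in atTop, (L n).J ≤ maximalIdeal (MvPowerSeries (Fin r) 𝒪) ^ k)
    (h2 : (2 : 𝒪) ∉ maximalIdeal 𝒪) (hq : q - 1 ∈ maximalIdeal 𝒪) (hq0 : q ≠ 0) (hq1 : q ≠ 1)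
    (hZ : ∀ z ∈ Z, z.1 - 1 ∈ maximalIdeal 𝒪 ∧ z.1 * z.2 = 1 ∧ z.1 ≠ z.2)
    (hm : r + (Fintype.card κ + 1) * 3 = e' + 2) (he : 1 + (∑ v, c v + g) = e') :
    ∃ 𝔮₀ : Ideal T₀, 𝔮₀.IsPrime ∧ (∀ b, σ₀ b ∈ 𝔮₀ → b = 0) ∧
      ∀ i j, (Sg₀ - 1) i j ∈ 𝔮₀ := by
  have e : Fin (e' + 2) ≃ Fin r ⊕ (Option κ × Fin 3) := by
    refine Fintype.equivOfCardEq ?_
    rw [Fintype.card_fin, Fintype.card_sum, Fintype.card_prod, Fintype.card_option,
      Fintype.card_fin, Fintype.card_fin, hm]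
  have eθ : Fin e' ≃ Unit ⊕ ((Σ v : κ, Fin (c v)) ⊕ Fin g) := by
    refine Fintype.equivOfCardEq ?_
    rw [Fintype.card_fin, Fintype.card_sum, Fintype.card_sum, Fintype.card_sigma,
      Fintype.card_unit, Fintype.card_fin]
    simp only [Fintype.card_fin]
    exact he.symm
  obtain ⟨ϖ, hϖ⟩ := (IsPrincipalIdealRing.principal (maximalIdeal 𝒪)).principal
  have hϖ' : maximalIdeal 𝒪 = Ideal.span {ϖ} := hϖ
  have hϖm : ϖ ∈ maximalIdeal 𝒪 := by rw [hϖ']; exact Ideal.mem_span_singleton_self ϖ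
  obtain ⟨half, hhalf⟩ : ∃ h : 𝒪, 2 * h = 1 := by
    rw [mem_maximalIdeal, mem_nonunits_iff, not_not] at h2
    exact h2.exists_right_inv
  let k : ChiConst 𝒪 :=
    { ζ := 1, ζ' := 1, q := q, half := half, hζ := by rw [sub_self]; exact Ideal.zero_mem _,
      hζζ' := one_mul 1, hq := hq, hhalf := hhalf }
  let D := patchInput e hfin₀ hσ₀ hint₀ hA₀ hinj₀ L hJ
  have hRel : ∀ n, ∀ r ∈ combRel τ g, D.Aχ n (inc 𝒪 (PIx τ g) r) = 0 := by
    rintro n _ ⟨v, r, hr, rfl⟩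
    refine (L n).toTWData.act_eq_zero e ?_
    rw [TWData.f_inc_incl]
    exact (L n).hRel v r hr
  have hfin : ∀ 𝔱 : Ideal (MvPowerSeries (PIx τ g) 𝒪), 𝔱.IsPrime → combRel τ g ⊆ 𝔱 →
      (∀ a, combθ τ g ϖ (eθ a) ∈ 𝔱) → maximalIdeal (MvPowerSeries (PIx τ g) 𝒪) ≤ 𝔱 := by
    intro 𝔱 h𝔱 hR hθ
    refine comb_fin τ g hϖ' h𝔱 hR fun a => ?_
    have := hθ (eθ.symm a)
    rwa [Equiv.apply_symm_apply] at this
  have huni : ∀ n, UniIdeal (matB reg false) (matB reg true) C k.q (RingHom.ker (D.A₁ n)) :=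
    fun n => (L n).uni.uniIdeal _ e
  have hχ : ∀ n, ChiIdeal (matB reg false) (matB reg true) C k.q Z (RingHom.ker (D.Aχ n)) :=
    fun n => (L n).chi.chiIdeal _ e
  have hval : ∀ a b : Fin 2, ∀ n, D.ψ n (X (Sum.inr (true, a, b))) = (Sg₀ - 1) a b := by
    intro a b n
    change (L n).π (constantCoeff ((L n).toTWData.f (X (Sum.inr (true, a, b))))) = _
    rw [TWData.constantCoeff_f_X, Matrix.sub_apply, map_sub, (L n).hπSg, Matrix.sub_apply,
      Matrix.one_apply, Matrix.one_apply]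
    split_ifs
    · rw [map_one]
    · rw [map_zero]
  cases reg
  · simp only [matB_false] at huni hχ
    obtain ⟨𝔮₀, h3, h4, h5⟩ := patch_lowering D hd k hq0 hq1 Z hZ huni hχ (combRel τ g) hRel
      (fun a => combθ τ g ϖ (eθ a)) (fun a => combθ_mem τ g hϖm _) hfin
    exact ⟨𝔮₀, h3, h4, fun i j => h5 i j _ (hval i j)⟩
  · simp only [matB_true] at huni hχ
    obtain ⟨𝔮₀, h3, h4, h5⟩ := patch_loweringR D hd k hq0 hq1 Z hZ huni hχ (combRel τ g) hRel
      (fun a => combθ τ g ϖ (eθ a)) (fun a => combθ_mem τ g hϖm _) hfin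
    exact ⟨𝔮₀, h3, h4, fun i j => h5 i j _ (hval i j)⟩

end Main

end Fermat.Agent.RT
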