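import Fermat.Agent.RT.Idem

set_option autoImplicit false

/-!
# Localisation of finite modules over complete local rings at systems of eigenvalues
-/

open IsLocalRing

namespace Fermat.Agent.RT

section Loc

variable {𝒪 : Type*} [CommRing 𝒪] [IsLocalRing 𝒪]
  {R : Type*} [CommRing R] [Algebra 𝒪 R] {M : Type*} [AddCommGroup M] [Module 𝒪 M]
  {M' : Type*} [AddCommGroup M'] [Module 𝒪 M']

theorem map_mem_smul_top (f : M →ₗ[𝒪] M') (I : Ideal 𝒪) {m : M}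
    (hm : m ∈ I • (⊤ : Submodule 𝒪 M)) : f m ∈ I • (⊤ : Submodule 𝒪 M') := by
  have h := Submodule.mem_map_of_mem (f := f) hm
  rw [Submodule.map_smul''] at h
  exact Submodule.smul_mono le_rfl le_top h

/-- The ideal of the elements which send `m` in `𝔪^j M`. -/
def annI (ρ : R →ₐ[𝒪] Module.End 𝒪 M) (m : M) (j : ℕ) : Ideal R where
  carrier := {r | ρ r m ∈ maximalIdeal 𝒪 ^ j • (⊤ : Submodule 𝒪 M)}
  add_mem' {a b} ha hb := by
    simp only [Set.mem_setOf_eq] at *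
    rw [map_add, LinearMap.add_apply]; exact Submodule.add_mem _ ha hb
  zero_mem' := by simp
  smul_mem' c x hx := by
    simp only [Set.mem_setOf_eq, smul_eq_mul] at *
    rw [map_mul, Module.End.mul_apply]
    exact map_mem_smul_top _ _ hx

theorem mem_annI {ρ : R →ₐ[𝒪] Module.End 𝒪 M} {m : M} {j : ℕ} {r : R} :
    r ∈ annI ρ m j ↔ ρ r m ∈ maximalIdeal 𝒪 ^ j • (⊤ : Submodule 𝒪 M) := Iff.rfl

theorem inf_annI_le (ρ : R →ₐ[𝒪] Module.End 𝒪 M) (m m' : M) (j : ℕ) :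
    annI ρ m j ⊓ annI ρ m' j ≤ annI ρ (m + m') j := by
  rintro r ⟨h1, h2⟩
  rw [mem_annI, map_add]
  exact Submodule.add_mem _ h1 h2

/-- The part of `M` where the elements of `𝔫` are topologically nilpotent. -/
def Loc (ρ : R →ₐ[𝒪] Module.End 𝒪 M) (𝔫 : Ideal R) : Submodule 𝒪 M where
  carrier := {m | ∀ j, 𝔫 ≤ (annI ρ m j).radical}
  add_mem' {a b} ha hb j := by
    refine le_trans (le_trans (le_inf (ha j) (hb j)) ?_) (Ideal.radical_mono (inf_annI_le ρ a b j))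
    rw [Ideal.radical_inf]
  zero_mem' j := by
    have : annI ρ (0 : M) j = ⊤ := by
      rw [Ideal.eq_top_iff_one, mem_annI]
      simp
    rw [this, Ideal.radical_top]
    exact le_top
  smul_mem' c x hx j := by
    refine (hx j).trans (Ideal.radical_mono fun r hr => ?_)
    rw [mem_annI] at hr ⊢
    rw [map_smul]
    exact Submodule.smul_mem _ _ hr

theorem mem_Loc {ρ : R →ₐ[𝒪] Module.End 𝒪 M} {𝔫 : Ideal R} {m : M} :
    m ∈ Loc ρ 𝔫 ↔ ∀ j, ∀ t ∈ 𝔫, ∃ n, (ρ t ^ n) m ∈ maximalIdeal 𝒪 ^ j • (⊤ : Submodule 𝒪 M) := by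
  refine ⟨fun h j t ht => ?_, fun h j t ht => ?_⟩
  · obtain ⟨n, hn⟩ := h j ht
    exact ⟨n, by rw [← map_pow]; exact hn⟩
  · obtain ⟨n, hn⟩ := h j t ht
    exact ⟨n, by rw [mem_annI, map_pow]; exact hn⟩

theorem Loc.map {ρ : R →ₐ[𝒪] Module.End 𝒪 M} {ρ' : R →ₐ[𝒪] Module.End 𝒪 M'} {𝔫 : Ideal R}
    (f : M →ₗ[𝒪] M') (hf : ∀ r m, f (ρ r m) = ρ' r (f m)) {m : M} (hm : m ∈ Loc ρ 𝔫) :
    f m ∈ Loc ρ' 𝔫 := fun j => by
  refine (hm j).trans (Ideal.radical_mono fun r hr => ?_)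
  rw [mem_annI] at hr ⊢
  rw [← hf]
  exact map_mem_smul_top _ _ hr

theorem Loc.stable {ρ : R →ₐ[𝒪] Module.End 𝒪 M} {𝔫 : Ideal R} (r : R) {m : M}
    (hm : m ∈ Loc ρ 𝔫) : ρ r m ∈ Loc ρ 𝔫 :=
  Loc.map (ρ r) (fun s m => by rw [← Module.End.mul_apply, ← map_mul, mul_comm, map_mul]; rfl) hm

/-- `r` acts as the projector on the localisation at `𝔫`. -/
structure IsIdem (ρ : R →ₐ[𝒪] Module.End 𝒪 M) (𝔫 : Ideal R) (r : R) : Prop where
  one_sub : 1 - r ∈ 𝔫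
  idem : ρ r * ρ r = ρ r
  nil : ∀ t ∈ 𝔫, ∃ n, ∀ m, (ρ t ^ n) (ρ r m) ∈ maximalIdeal 𝒪 • (⊤ : Submodule 𝒪 M)

theorem IsIdem.idem_apply {ρ : R →ₐ[𝒪] Module.End 𝒪 M} {𝔫 : Ideal R} {r : R}
    (H : IsIdem ρ 𝔫 r) (m : M) : ρ r (ρ r m) = ρ r m := LinearMap.congr_fun H.idem m

theorem IsIdem.pow {ρ : R →ₐ[𝒪] Module.End 𝒪 M} {𝔫 : Ideal R} {r : R} (H : IsIdem ρ 𝔫 r)
    {t : R} (ht : t ∈ 𝔫) (j : ℕ) : ∃ n, ∀ m, (ρ t ^ n) (ρ r m) ∈
      maximalIdeal 𝒪 ^ j • (⊤ : Submodule 𝒪 M) := by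
  induction j with
  | zero => exact ⟨0, fun m => by simp⟩
  | succ j ih =>
    obtain ⟨n, hn⟩ := ih
    obtain ⟨n', hn'⟩ := H.nil t ht
    refine ⟨n + n', fun m => ?_⟩
    rw [pow_add (ρ t), Module.End.mul_apply]
    -- `t^n' r m ∈ 𝔪 M`, and equals `r t^n' r m`
    have h1 : (ρ t ^ n') (ρ r m) = ρ r ((ρ t ^ n') (ρ r m)) := by
      rw [← map_pow, ← Module.End.mul_apply (ρ r), ← map_mul, mul_comm, map_mul,
        Module.End.mul_apply, H.idem_apply]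
    rw [h1]
    have h2 := hn' m
    have h3 : ∀ x ∈ maximalIdeal 𝒪 • (⊤ : Submodule 𝒪 M), (ρ t ^ n) (ρ r x) ∈
        maximalIdeal 𝒪 ^ (j + 1) • (⊤ : Submodule 𝒪 M) := by
      intro x hx
      induction hx using Submodule.smul_induction_on' with
      | smul a ha y _ =>
        rw [map_smul, map_smul, pow_succ', mul_smul]
        exact Submodule.smul_mem_smul ha (hn y)
      | add x _ y _ hx hy =>
        rw [map_add, map_add]; exact Submodule.add_mem _ hx hy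
    exact h3 _ h2

theorem IsIdem.mem_Loc {ρ : R →ₐ[𝒪] Module.End 𝒪 M} {𝔫 : Ideal R} {r : R} (H : IsIdem ρ 𝔫 r)
    (m : M) : ρ r m ∈ Loc ρ 𝔫 := by
  rw [Fermat.Agent.RT.mem_Loc]
  intro j t ht
  obtain ⟨n, hn⟩ := H.pow ht j
  exact ⟨n, hn m⟩

variable [IsNoetherianRing 𝒪]

omit [AddCommGroup M'] [Module 𝒪 M'] in
theorem eq_zero_of_forall_mem [Module.Finite 𝒪 M] {m : M}
    (h : ∀ j, m ∈ maximalIdeal 𝒪 ^ j • (⊤ : Submodule 𝒪 M)) : m = 0 := by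
  have : IsHausdorff (maximalIdeal 𝒪) M := inferInstance
  exact IsHausdorff.haus this m fun j => SModEq.zero.mpr (h j)

theorem IsIdem.apply_eq [Module.Finite 𝒪 M] {ρ : R →ₐ[𝒪] Module.End 𝒪 M} {𝔫 : Ideal R} {r : R}
    (H : IsIdem ρ 𝔫 r) {m : M} (hm : m ∈ Loc ρ 𝔫) : ρ r m = m := by
  rw [Fermat.Agent.RT.mem_Loc] at hm
  have h1 : ∀ n, n ≠ 0 → (ρ (1 - r) ^ n) m = ρ (1 - r) m := by
    intro n hn
    have : ρ (1 - r) * ρ (1 - r) = ρ (1 - r) := by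
      rw [map_sub, map_one, mul_sub, sub_mul, sub_mul, H.idem]
      simp
    have h2 : IsIdempotentElem (ρ (1 - r)) := this
    rw [h2.pow_eq hn]
  have h2 : ρ (1 - r) m = 0 := eq_zero_of_forall_mem fun j => by
    obtain ⟨n, hn⟩ := hm j _ H.one_sub
    have h3 : (ρ (1 - r) ^ (n + 1)) m ∈ maximalIdeal 𝒪 ^ j • (⊤ : Submodule 𝒪 M) := by
      rw [pow_succ', Module.End.mul_apply]
      exact map_mem_smul_top _ _ hn
    rwa [h1 _ (by omega)] at h3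
  rw [map_sub, map_one, LinearMap.sub_apply, Module.End.one_apply, sub_eq_zero] at h2
  exact h2.symm

variable [IsAdicComplete (maximalIdeal 𝒪) 𝒪]

theorem exists_isIdem [Module.Finite 𝒪 M] (ρ : R →ₐ[𝒪] Module.End 𝒪 M) (𝔫 : Ideal R)
    [h𝔫 : 𝔫.IsMaximal] (h𝔪 : ∀ a ∈ maximalIdeal 𝒪, algebraMap 𝒪 R a ∈ 𝔫) :
    ∃ r : R, IsIdem ρ 𝔫 r := by
  obtain ⟨r, h1, h2, h3⟩ := exists_idem ρ 𝔫 h𝔪
  exact ⟨r, h1, h2, h3⟩

/-- The action on a product. -/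
def prodAct (ρ : R →ₐ[𝒪] Module.End 𝒪 M) (ρ' : R →ₐ[𝒪] Module.End 𝒪 M') :
    R →ₐ[𝒪] Module.End 𝒪 (M × M') where
  toFun r := (ρ r).prodMap (ρ' r)
  map_one' := by simp
  map_mul' a b := by
    rw [map_mul, map_mul]; rfl
  map_zero' := by simp
  map_add' a b := by
    rw [map_add, map_add]; rfl
  commutes' a := by
    rw [AlgHom.commutes, AlgHom.commutes]
    rfl

theorem prodAct_pow (ρ : R →ₐ[𝒪] Module.End 𝒪 M) (ρ' : R →ₐ[𝒪] Module.End 𝒪 M') (t : R) (n : ℕ)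
    (x : M × M') : (prodAct ρ ρ' t ^ n) x = ((ρ t ^ n) x.1, (ρ' t ^ n) x.2) := by
  rw [← map_pow, ← map_pow, ← map_pow]
  rfl

theorem exists_isIdem₂ [Module.Finite 𝒪 M] [Module.Finite 𝒪 M'] (ρ : R →ₐ[𝒪] Module.End 𝒪 M)
    (ρ' : R →ₐ[𝒪] Module.End 𝒪 M') (𝔫 : Ideal R) [h𝔫 : 𝔫.IsMaximal]
    (h𝔪 : ∀ a ∈ maximalIdeal 𝒪, algebraMap 𝒪 R a ∈ 𝔫) :
    ∃ r : R, IsIdem ρ 𝔫 r ∧ IsIdem ρ' 𝔫 r := by
  obtain ⟨r, h1, h2, h3⟩ := exists_idem (prodAct ρ ρ') 𝔫 h𝔪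
  refine ⟨r, ⟨h1, ?_, fun t ht => ?_⟩, ⟨h1, ?_, fun t ht => ?_⟩⟩
  · ext m
    exact congrArg Prod.fst (LinearMap.congr_fun h2 (m, 0))
  · obtain ⟨n, hn⟩ := h3 t ht
    refine ⟨n, fun m => ?_⟩
    have h4 := hn (m, 0)
    rw [prodAct_pow] at h4
    exact map_mem_smul_top (LinearMap.fst 𝒪 M M') _ h4
  · ext m
    exact congrArg Prod.snd (LinearMap.congr_fun h2 (0, m))
  · obtain ⟨n, hn⟩ := h3 t ht
    refine ⟨n, fun m => ?_⟩
    have h4 := hn (0, m)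
    rw [prodAct_pow] at h4
    exact map_mem_smul_top (LinearMap.snd 𝒪 M M') _ h4

/-- topologically nilpotent endomorphisms -/
def TopNil (g : Module.End 𝒪 M) : Prop :=
  ∃ n, ∀ m, (g ^ n) m ∈ maximalIdeal 𝒪 • (⊤ : Submodule 𝒪 M)

omit [IsNoetherianRing 𝒪] [IsAdicComplete (maximalIdeal 𝒪) 𝒪] in
theorem topNil_of_forall [Module.Finite 𝒪 M] {g : Module.End 𝒪 M}
    (h : ∀ m, ∃ n, (g ^ n) m ∈ maximalIdeal 𝒪 • (⊤ : Submodule 𝒪 M)) : TopNil g := by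
  obtain ⟨s, hs⟩ := Module.Finite.fg_top (R := 𝒪) (M := M)
  choose f hf using h
  refine ⟨s.sup f, fun m => ?_⟩
  have hm : m ∈ Submodule.span 𝒪 (s : Set M) := hs ▸ Submodule.mem_top
  induction hm using Submodule.span_induction with
  | mem x hx =>
    obtain ⟨k, hk⟩ := Nat.exists_eq_add_of_le' (Finset.le_sup (f := f) hx)
    rw [hk, pow_add, Module.End.mul_apply]
    exact map_mem_smul_top _ _ (hf x)
  | zero => simp
  | add x y _ _ hx hy => rw [map_add]; exact Submodule.add_mem _ hx hy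
  | smul a x _ hx => rw [map_smul]; exact Submodule.smul_mem _ _ hx

omit [IsNoetherianRing 𝒪] [IsAdicComplete (maximalIdeal 𝒪) 𝒪] in
theorem surjective_of_sub_mem [Module.Finite 𝒪 M] {f : Module.End 𝒪 M}
    (h : ∀ m, f m - m ∈ maximalIdeal 𝒪 • (⊤ : Submodule 𝒪 M)) : Function.Surjective f := by
  rw [← LinearMap.range_eq_top, ← top_le_iff]
  refine Submodule.le_of_le_smul_of_le_jacobson_bot (I := maximalIdeal 𝒪)
    Module.Finite.fg_top (IsLocalRing.maximalIdeal_le_jacobson _) ?_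
  intro m _
  rw [Submodule.mem_sup]
  exact ⟨f m, LinearMap.mem_range_self f m, m - f m, by
    rw [← neg_sub]; exact Submodule.neg_mem _ (h m), by abel⟩

omit [IsNoetherianRing 𝒪] [IsAdicComplete (maximalIdeal 𝒪) 𝒪] in
theorem TopNil.bijective [Module.Finite 𝒪 M] {g : Module.End 𝒪 M} (h : TopNil g) :
    Function.Bijective (1 - g : Module.End 𝒪 M) := by
  obtain ⟨n, hn⟩ := h
  have h1 : Function.Surjective (1 - g ^ n : Module.End 𝒪 M) := surjective_of_sub_mem fun m => by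
    rw [LinearMap.sub_apply, Module.End.one_apply, sub_sub_cancel_left]
    exact Submodule.neg_mem _ (hn m)
  have h2 : (1 - g) * (∑ i ∈ Finset.range n, g ^ i) = 1 - g ^ n := mul_neg_geom_sum g n
  rw [← h2] at h1
  exact OrzechProperty.bijective_of_surjective_endomorphism _
    (Function.Surjective.of_comp (g := ⇑(∑ i ∈ Finset.range n, g ^ i)) h1)

omit [IsNoetherianRing 𝒪] [IsAdicComplete (maximalIdeal 𝒪) 𝒪] in
theorem TopNil.bijective_of_sub [Module.Finite 𝒪 M] {B : Module.End 𝒪 M} {b : 𝒪} (hb : IsUnit b)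
    (h : TopNil (B - b • 1)) : Function.Bijective B := by
  obtain ⟨u, rfl⟩ := hb
  have h1 : TopNil ((-(↑u⁻¹ : 𝒪)) • (B - (u : 𝒪) • 1)) := by
    obtain ⟨n, hn⟩ := h
    refine ⟨n, fun m => ?_⟩
    rw [smul_pow, LinearMap.smul_apply]
    exact Submodule.smul_mem _ _ (hn m)
  have h2 : B = (u : 𝒪) • (1 - (-(↑u⁻¹ : 𝒪)) • (B - (u : 𝒪) • 1)) := by
    rw [smul_sub, smul_smul, mul_neg, Units.mul_inv, neg_smul, one_smul]
    abel
  rw [h2]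
  have h3 := h1.bijective
  have h4 : Function.Bijective fun x : M => (u : 𝒪) • x := by
    refine ⟨fun x y hxy => ?_, fun x => ⟨(↑u⁻¹ : 𝒪) • x, ?_⟩⟩
    · have := congrArg (fun z => (↑u⁻¹ : 𝒪) • z) hxy
      simpa [smul_smul] using this
    · simp [smul_smul]
  exact h4.comp h3

section Maximal

variable [Module.Finite 𝒪 M] [Module.Finite 𝒪 M'] {ρ : R →ₐ[𝒪] Module.End 𝒪 M}
  {ρ' : R →ₐ[𝒪] Module.End 𝒪 M'} {𝔫 : Ideal R} [h𝔫 : 𝔫.IsMaximal]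
  (h𝔪 : ∀ a ∈ maximalIdeal 𝒪, algebraMap 𝒪 R a ∈ 𝔫)
include h𝔪

/-- Localisation is exact: surjections. -/
theorem Loc.exists_preimage (f : M →ₗ[𝒪] M') (hf : ∀ r m, f (ρ r m) = ρ' r (f m)) {m : M}
    (hm : f m ∈ Loc ρ' 𝔫) : ∃ m' ∈ Loc ρ 𝔫, f m' = f m := by
  obtain ⟨r, h1, h2⟩ := exists_isIdem₂ ρ ρ' 𝔫 h𝔪
  exact ⟨ρ r m, h1.mem_Loc m, by rw [hf, h2.apply_eq hm]⟩

theorem Loc.exists_of_mem {m' : M'} (f : M →ₗ[𝒪] M') (hf : ∀ r m, f (ρ r m) = ρ' r (f m))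
    (hm' : m' ∈ Loc ρ' 𝔫) (h : ∃ m, f m = m') : ∃ m ∈ Loc ρ 𝔫, f m = m' := by
  obtain ⟨m, rfl⟩ := h
  exact Loc.exists_preimage h𝔪 f hf hm'

omit [Module.Finite 𝒪 M'] in
/-- Localisation is a direct factor. -/
theorem Loc.mem_smul {m : M} (hm : m ∈ Loc ρ 𝔫) {I : Ideal 𝒪} (h : m ∈ I • (⊤ : Submodule 𝒪 M)) :
    (⟨m, hm⟩ : Loc ρ 𝔫) ∈ I • (⊤ : Submodule 𝒪 (Loc ρ 𝔫)) := by
  obtain ⟨r, hr⟩ := exists_isIdem ρ 𝔫 h𝔪
  let g : M →ₗ[𝒪] Loc ρ 𝔫 := (ρ r).codRestrict (Loc ρ 𝔫) hr.mem_Loc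
  have h2 : g m = ⟨m, hm⟩ := Subtype.ext (hr.apply_eq hm)
  rw [← h2]
  exact map_mem_smul_top g I h

omit [Module.Finite 𝒪 M'] in
theorem Loc.bijOn {s : R} (hs : s ∉ 𝔫) :
    (∀ m ∈ Loc ρ 𝔫, ρ s m = 0 → m = 0) ∧ ∀ m ∈ Loc ρ 𝔫, ∃ m' ∈ Loc ρ 𝔫, ρ s m' = m := by
  obtain ⟨u, y, hy, hu⟩ := h𝔫.exists_inv hs
  have hinj : ∀ m ∈ Loc ρ 𝔫, ρ s m = 0 → m = 0 := by
    intro m hm h0
    have h1 : ρ y m = m := by
      have h2 : y = 1 - u * s := by linear_combination hu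
      rw [h2, map_sub, map_one, map_mul, LinearMap.sub_apply, Module.End.mul_apply, h0, map_zero,
        sub_zero]
      rfl
    have h3 : ∀ n, (ρ y ^ n) m = m := by
      intro n
      induction n with
      | zero => rfl
      | succ n ih => rw [pow_succ, Module.End.mul_apply, h1, ih]
    refine eq_zero_of_forall_mem (𝒪 := 𝒪) fun j => ?_
    obtain ⟨n, hn⟩ := mem_Loc.mp hm j y hy
    rwa [h3] at hn
  refine ⟨hinj, fun m hm => ?_⟩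
  let f : Loc ρ 𝔫 →ₗ[𝒪] Loc ρ 𝔫 := (ρ s).restrict fun x hx => Loc.stable s hx
  let f' : Loc ρ 𝔫 →ₗ[𝒪] Loc ρ 𝔫 := (ρ u).restrict fun x hx => Loc.stable u hx
  let g : Module.End 𝒪 (Loc ρ 𝔫) := (ρ y).restrict fun x hx => Loc.stable y hx
  have hg : ∀ n (x : Loc ρ 𝔫), ((g ^ n) x : M) = (ρ y ^ n) x := by
    intro n
    induction n with
    | zero => intro x; rfl
    | succ n ih =>
      intro x
      rw [pow_succ, pow_succ, Module.End.mul_apply, Module.End.mul_apply, ih]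
      rfl
  have hfin : Module.Finite 𝒪 (Loc ρ 𝔫) := inferInstance
  have h1 : TopNil g := topNil_of_forall fun x => by
    obtain ⟨n, hn⟩ := mem_Loc.mp x.2 1 y hy
    rw [pow_one] at hn
    refine ⟨n, ?_⟩
    exact Loc.mem_smul (M := M) (ρ := ρ) (𝔫 := 𝔫) h𝔪 (m := (((g ^ n) x : Loc ρ 𝔫) : M))
      ((g ^ n) x).2 (I := maximalIdeal 𝒪) (by rw [hg]; exact hn)
  obtain ⟨x, hx⟩ := h1.bijective.2 ⟨m, hm⟩
  refine ⟨ρ u x, Loc.stable u x.2, ?_⟩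
  have h2 : (1 - y) = s * u := by linear_combination -hu
  rw [← Module.End.mul_apply, ← map_mul, ← h2, map_sub, map_one]
  exact congrArg Subtype.val hx

end Maximal

end Loc

end Fermat.Agent.RT
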