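import Fermat.Agent.RT.ChiChart

set_option autoImplicit false
set_option maxHeartbeats 400000
set_option linter.style.haveILetI false
set_option linter.unusedSectionVars false
set_option linter.unusedVariables false
set_option linter.unusedSimpArgs false

/-!
# Local analysis at `v ≠ p` over domains of characteristic `p`
-/

open IsLocalRing

namespace Fermat.Agent.RT

/-- The relations satisfied by Frobenius and the logarithm of inertia (unipotent inertia). -/
structure StRel {A : Type*} [CommRing A] (Φ N : Matrix (Fin 2) (Fin 2) A) (q : A) : Prop where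
  tr : N.trace = 0
  det : N.det = 0
  comm : Φ * N = q • (N * Φ)
  detF : Φ.det = q
  trF : Φ.trace ^ 2 = (q + 1) ^ 2

namespace StRel

variable {A : Type*} [CommRing A] {Φ N : Matrix (Fin 2) (Fin 2) A} {q : A}

lemma map {B : Type*} [CommRing B] (f : A →+* B) (h : StRel Φ N q) :
    StRel (Φ.map f) (N.map f) (f q) := by
  refine ⟨?_, ?_, ?_, ?_, ?_⟩
  · have := congrArg f h.tr
    rw [Matrix.trace_fin_two, map_add, map_zero] at this
    rw [Matrix.trace_fin_two]; exact this
  · have := congrArg f h.det
    rw [RingHom.map_det, map_zero, RingHom.mapMatrix_apply] at this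
    exact this
  · have := congrArg f.mapMatrix h.comm
    rw [map_mul, RingHom.mapMatrix_apply, RingHom.mapMatrix_apply] at this
    rw [this]
    ext i j
    rw [RingHom.mapMatrix_apply, Matrix.map_apply, Matrix.smul_apply, Matrix.smul_apply,
      ← Matrix.map_mul, Matrix.map_apply, smul_eq_mul, smul_eq_mul, map_mul]
  · have := congrArg f h.detF
    rw [RingHom.map_det, RingHom.mapMatrix_apply] at this
    exact this
  · have := congrArg f h.trF
    rw [map_pow, map_pow, map_add, map_one, Matrix.trace_fin_two, map_add] at this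
    rw [Matrix.trace_fin_two]; exact this

lemma conj {g g' : Matrix (Fin 2) (Fin 2) A} (hg : g * g' = 1) (h : StRel Φ N q) :
    StRel (g * Φ * g') (g * N * g') q := by
  have hg' : g' * g = 1 := mul_eq_one_comm.mp hg
  have hdet : g.det * g'.det = 1 := by rw [← Matrix.det_mul, hg, Matrix.det_one]
  refine ⟨?_, ?_, ?_, ?_, ?_⟩
  · rw [Matrix.trace_mul_comm, ← Matrix.mul_assoc, hg', Matrix.one_mul, h.tr]
  · rw [Matrix.det_mul, Matrix.det_mul, h.det, mul_zero, zero_mul]
  · calc g * Φ * g' * (g * N * g') = g * Φ * (g' * g) * N * g' := by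
          simp only [Matrix.mul_assoc]
      _ = g * (Φ * N) * g' := by rw [hg', Matrix.mul_one, Matrix.mul_assoc g]
      _ = q • (g * (N * Φ) * g') := by
          rw [h.comm, Matrix.mul_smul, Matrix.smul_mul]
      _ = q • (g * N * (g' * g) * Φ * g') := by
          rw [hg', Matrix.mul_one, Matrix.mul_assoc g N Φ]
      _ = q • (g * N * g' * (g * Φ * g')) := by simp only [Matrix.mul_assoc]
  · rw [Matrix.det_mul, Matrix.det_mul, h.detF]
    linear_combination q * hdet
  · rw [Matrix.trace_mul_comm, ← Matrix.mul_assoc, hg', Matrix.one_mul, h.trF]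

end StRel

/-- The matrix of variables. -/
def xMat {A : Type*} (x : LIx → A) (s : Bool) : Matrix (Fin 2) (Fin 2) A :=
  Matrix.of fun a b => x (s, a, b)

variable {k : Type} [Field k]

/-- The residual pair has three linear parameters. -/
def GoodPair (Φ₀ N₀ : Matrix (Fin 2) (Fin 2) k) (q : k) : Prop :=
  ∃ ℓ : Fin 3 → LIx → k, ∀ (A : Type) [CommRing A] [IsDomain A] [IsLocalRing A] [Algebra k A]
    (x : LIx → A), (∀ i, x i ∈ maximalIdeal A) →
    StRel (Φ₀.map (algebraMap k A) + xMat x false) (N₀.map (algebraMap k A) + xMat x true)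
      (algebraMap k A q) →
    (∀ a, ∑ i, algebraMap k A (ℓ a i) * x i = 0) → ∀ i, x i = 0

lemma eq_of_const {A : Type} [CommRing A] [IsLocalRing A] [Algebra k A] {c c' : k} {x : A}
    (hx : x ∈ maximalIdeal A) (h : algebraMap k A c + x = algebraMap k A c') : c = c' ∧ x = 0 := by
  have h1 : c = c' := by
    by_contra hne
    have h2 : IsUnit (algebraMap k A (c' - c)) :=
      (IsUnit.mk0 _ (sub_ne_zero.mpr (Ne.symm hne))).map _
    have h3 : algebraMap k A (c' - c) = x := by rw [map_sub, ← h]; ring
    rw [h3] at h2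
    exact hx h2
  refine ⟨h1, ?_⟩
  rw [h1] at h
  simpa using h

/-- Invariance under conjugation. -/
lemma GoodPair.of_conj {Φ₀ N₀ : Matrix (Fin 2) (Fin 2) k} {q : k} {g g' : Matrix (Fin 2) (Fin 2) k}
    (hg : g * g' = 1) (h : GoodPair (g * Φ₀ * g') (g * N₀ * g') q) : GoodPair Φ₀ N₀ q := by
  obtain ⟨ℓ, hℓ⟩ := h
  -- the linear forms in the old coordinates
  refine ⟨fun a i => ∑ j : LIx, ℓ a j * (if j.1 = i.1 then g j.2.1 i.2.1 * g' i.2.2 j.2.2 else 0),
    fun A _ _ _ _ x hx hrel hl => ?_⟩
  set G : Matrix (Fin 2) (Fin 2) A := g.map (algebraMap k A) with hG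
  set G' : Matrix (Fin 2) (Fin 2) A := g'.map (algebraMap k A) with hG'
  have hGG : G * G' = 1 := by
    rw [hG, hG', ← Matrix.map_mul, hg, Matrix.map_one _ (map_zero _) (map_one _)]
  have hGG' : G' * G = 1 := mul_eq_one_comm.mp hGG
  have hm : ∀ s a b, (G * xMat x s * G') a b ∈ maximalIdeal A := by
    intro s a b
    rw [Matrix.mul_apply]
    refine Ideal.sum_mem _ fun c _ => ?_
    rw [Matrix.mul_apply]
    exact Ideal.mul_mem_right _ _ (Ideal.sum_mem _ fun d _ => Ideal.mul_mem_left _ _ (hx _))
  set y : LIx → A := fun i => (G * xMat x i.1 * G') i.2.1 i.2.2 with hy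
  have hyM : ∀ s, xMat y s = G * xMat x s * G' := fun s => by ext a b; rfl
  have h1 := hℓ A y (fun i => hm _ _ _) (by
    have h2 := hrel.conj hGG
    rw [Matrix.mul_add, Matrix.add_mul, Matrix.mul_add, Matrix.add_mul] at h2
    rw [hyM, hyM, Matrix.map_mul, Matrix.map_mul, Matrix.map_mul, Matrix.map_mul]
    exact h2) (fun a => by
    rw [← hl a]
    have h3 : ∀ j : LIx, y j = ∑ i : LIx,
        algebraMap k A (if j.1 = i.1 then g j.2.1 i.2.1 * g' i.2.2 j.2.2 else 0) * x i := by
      rintro ⟨s, a, b⟩
      rw [hy]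
      simp only [Fintype.sum_prod_type, Matrix.mul_apply, Fin.sum_univ_two, Fintype.sum_bool, hG,
        hG', Matrix.map_apply, xMat, Matrix.of_apply]
      cases s <;> simp <;> ring
    calc ∑ j, algebraMap k A (ℓ a j) * y j = ∑ j, algebraMap k A (ℓ a j) * ∑ i : LIx,
        algebraMap k A (if j.1 = i.1 then g j.2.1 i.2.1 * g' i.2.2 j.2.2 else 0) * x i :=
          Finset.sum_congr rfl fun j _ => by rw [h3 j]
      _ = ∑ i, algebraMap k A (∑ j : LIx, ℓ a j *
          (if j.1 = i.1 then g j.2.1 i.2.1 * g' i.2.2 j.2.2 else 0)) * x i := by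
          simp only [Finset.mul_sum]
          rw [Finset.sum_comm]
          refine Finset.sum_congr rfl fun i _ => ?_
          rw [map_sum, Finset.sum_mul]
          refine Finset.sum_congr rfl fun j _ => ?_
          rw [map_mul, mul_assoc])
  have h4 : ∀ s, xMat x s = 0 := by
    intro s
    have h5 : G * xMat x s * G' = 0 := by
      rw [← hyM]; ext a b; exact h1 _
    calc xMat x s = (G' * G) * xMat x s * (G' * G) := by rw [hGG', Matrix.one_mul, Matrix.mul_one]
      _ = G' * (G * xMat x s * G') * G := by simp only [Matrix.mul_assoc]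
      _ = 0 := by rw [h5, Matrix.mul_zero, Matrix.zero_mul]
  rintro ⟨s, a, b⟩
  exact congrFun (congrFun (h4 s) a) b

/-- Type (a): ramified. -/
lemma goodPair_ram {Φ₀ : Matrix (Fin 2) (Fin 2) k} {q : k} (h2 : (2 : k) ≠ 0) (hq : q ≠ 0)
    (hrel : StRel Φ₀ !![0, 1; 0, 0] q) : GoodPair Φ₀ !![0, 1; 0, 0] q := by
  refine ⟨fun a i => if i = (![((true, 0, 0) : LIx), (true, 0, 1), (false, 0, 1)] a) then 1 else 0,
    fun A _ _ _ _ x hx hr hl => ?_⟩
  have hl' : ∀ a, x (![((true, 0, 0) : LIx), (true, 0, 1), (false, 0, 1)] a) = 0 := by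
    intro a
    have := hl a
    simp only [apply_ite (algebraMap k A), map_one, map_zero, ite_mul, one_mul, zero_mul,
      Finset.sum_ite_eq', Finset.mem_univ, if_true] at this
    exact this
  have e1 : x (true, 0, 0) = 0 := hl' 0
  have e2 : x (true, 0, 1) = 0 := hl' 1
  have e3 : x (false, 0, 1) = 0 := hl' 2
  have hκ : Function.Injective (algebraMap k A) := (algebraMap k A).injective
  have c1 := hrel.comm
  have d1 := hrel.detF
  have c2 := hr.comm
  have d2 := hr.detF
  have t2 := hr.tr
  have n2 := hr.det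
  rw [Matrix.trace_fin_two] at t2
  rw [Matrix.det_fin_two] at n2 d1 d2
  have a00 := congrFun (congrFun c1 0) 0
  have a01 := congrFun (congrFun c1 0) 1
  have b00 := congrFun (congrFun c2 0) 0
  have b01 := congrFun (congrFun c2 0) 1
  simp only [Matrix.mul_apply, Fin.sum_univ_two, Matrix.smul_apply, smul_eq_mul, Matrix.add_apply,
    Matrix.map_apply, xMat, Matrix.of_apply, Matrix.cons_val', Matrix.cons_val_zero,
    Matrix.cons_val_one, Matrix.cons_val_fin_one, map_zero, map_one, mul_zero, mul_one, zero_add,
    add_zero, zero_mul, one_mul, e1, e2, e3] at a00 a01 b00 b01 t2 n2 d1 d2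
  have f1 : x (true, 1, 1) = 0 := t2
  have f2 : x (true, 1, 0) = 0 := by
    linear_combination -n2
  rw [f1] at b01
  rw [f2] at b00
  -- the lower left entry
  have hqA : algebraMap k A q ≠ 0 := fun h => hq (hκ (by rw [h, map_zero]))
  have g10 : algebraMap k A (Φ₀ 1 0) + x (false, 1, 0) = 0 := by
    have : algebraMap k A q * (algebraMap k A (Φ₀ 1 0) + x (false, 1, 0)) = 0 := by
      linear_combination -b00
    exact (mul_eq_zero.mp this).resolve_left hqA
  have f3 : x (false, 1, 0) = 0 := (eq_of_const (hx _) (by rw [g10, map_zero])).2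
  have f4 : algebraMap k A (Φ₀ 0 0) + x (false, 0, 0) =
      algebraMap k A q * (algebraMap k A (Φ₀ 1 1) + x (false, 1, 1)) := by
    linear_combination b01
  rw [g10, f4] at d2
  have f5 : (algebraMap k A (Φ₀ 1 1) + x (false, 1, 1)) ^ 2 = 1 := by
    have : algebraMap k A q * ((algebraMap k A (Φ₀ 1 1) + x (false, 1, 1)) ^ 2 - 1) = 0 := by
      linear_combination d2
    have := (mul_eq_zero.mp this).resolve_left hqA
    linear_combination this
  have f6 : x (false, 1, 1) = 0 := by
    have h3 : (algebraMap k A (Φ₀ 1 1) + x (false, 1, 1) - 1) *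
        (algebraMap k A (Φ₀ 1 1) + x (false, 1, 1) + 1) = 0 := by linear_combination f5
    rcases mul_eq_zero.mp h3 with h | h
    · exact (eq_of_const (k := k) (c := Φ₀ 1 1) (c' := 1) (hx _)
        (by rw [map_one]; linear_combination h)).2
    · exact (eq_of_const (k := k) (c := Φ₀ 1 1) (c' := -1) (hx _)
        (by rw [map_neg, map_one]; linear_combination h)).2
  have f7 : x (false, 0, 0) = 0 := by
    rw [f6, add_zero, ← map_mul] at f4
    exact (eq_of_const (hx _) f4).2
  rintro ⟨s, a, b⟩
  cases s <;> fin_cases a <;> fin_cases b <;> assumption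

/-- Type (b): unramified, distinct eigenvalues. -/
lemma goodPair_dist {q ε : k} (h2 : (2 : k) ≠ 0) (hq : q ≠ 0) (hε : ε ^ 2 = 1) (hq1 : q ≠ 1) :
    GoodPair !![ε * q, 0; 0, ε] 0 q := by
  refine ⟨![fun i => if i = (false, 0, 1) then 1 else 0, fun i => if i = (false, 1, 0) then 1 else 0,
    fun i => if i = (true, 0, 1) ∨ i = (true, 1, 0) then 1 else 0],
    fun A _ _ _ _ x hx hr hl => ?_⟩
  have e1 : x (false, 0, 1) = 0 := by
    have := hl 0
    simpa [Fintype.sum_prod_type] using this
  have e2 : x (false, 1, 0) = 0 := by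
    have := hl 1
    simpa [Fintype.sum_prod_type] using this
  have e3 : x (true, 0, 1) + x (true, 1, 0) = 0 := by
    have := hl 2
    simpa [Fintype.sum_prod_type] using this
  have hκ : Function.Injective (algebraMap k A) := (algebraMap k A).injective
  have c2 := hr.comm
  have d2 := hr.detF
  have t2 := hr.tr
  have n2 := hr.det
  have s2 := hr.trF
  rw [Matrix.trace_fin_two] at t2 s2
  rw [Matrix.det_fin_two] at n2 d2
  have b00 := congrFun (congrFun c2 0) 0
  have b11 := congrFun (congrFun c2 1) 1
  simp only [Matrix.mul_apply, Fin.sum_univ_two, Matrix.smul_apply, smul_eq_mul, Matrix.add_apply,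
    Matrix.map_apply, xMat, Matrix.of_apply, Matrix.cons_val', Matrix.cons_val_zero,
    Matrix.cons_val_one, Matrix.cons_val_fin_one, map_zero, map_one, mul_zero, mul_one, zero_add,
    add_zero, zero_mul, one_mul, e1, e2, Matrix.zero_apply, map_mul] at b00 b11 t2 n2 d2 s2
  set Q := algebraMap k A q with hQ
  set E := algebraMap k A ε with hE
  have hE2 : E ^ 2 = 1 := by rw [hE, ← map_pow, hε, map_one]
  have hQ0 : Q ≠ 0 := fun h => hq (hκ (by rw [map_zero]; exact h))
  have hQ1 : Q - 1 ≠ 0 := fun h => hq1 (hκ (by rw [map_one]; exact sub_eq_zero.mp h))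
  have hE0 : E ≠ 0 := fun h => by rw [h] at hE2; norm_num at hE2
  have h2A : (2 : A) ≠ 0 := fun h => h2 (hκ (by rw [map_ofNat, map_zero]; exact h))
  -- the trace
  have k0 : x (false, 0, 0) + x (false, 1, 1) = 0 := by
    have h3 : (E * Q + x (false, 0, 0) + (E + x (false, 1, 1)) - (Q + 1)) *
        (E * Q + x (false, 0, 0) + (E + x (false, 1, 1)) + (Q + 1)) = 0 := by
      linear_combination s2
    have h4 : E = 1 ∨ E = -1 := by
      have : (E - 1) * (E + 1) = 0 := by linear_combination hE2
      rcases mul_eq_zero.mp this with h | h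
      · left; linear_combination h
      · right; linear_combination h
    have hs : x (false, 0, 0) + x (false, 1, 1) ∈ maximalIdeal A :=
      Ideal.add_mem _ (hx _) (hx _)
    rcases mul_eq_zero.mp h3 with h | h
    · have := eq_of_const (k := k) (c := ε * q + ε) (c' := q + 1) hs (by
        rw [map_add, map_mul, map_add, map_one]; linear_combination h)
      exact this.2
    · have := eq_of_const (k := k) (c := ε * q + ε) (c' := -(q + 1)) hs (by
        rw [map_add, map_mul, map_neg, map_add, map_one]; linear_combination h)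
      exact this.2
  have k1 : x (false, 1, 1) = - x (false, 0, 0) := by linear_combination k0
  rw [k1] at d2 b11
  have k2 : x (false, 0, 0) = 0 := by
    have h3 : x (false, 0, 0) * (x (false, 0, 0) + E * (Q - 1)) = 0 := by
      linear_combination -d2 + Q * hE2
    rcases mul_eq_zero.mp h3 with h | h
    · exact h
    · have := eq_of_const (k := k) (c := ε * (q - 1)) (c' := 0) (hx (false, 0, 0)) (by
        rw [map_mul, map_sub, map_one, map_zero]; linear_combination h)
      exact this.2
  rw [k2] at b00 b11 k1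
  have m00 : x (true, 0, 0) = 0 := by
    have h3 : E * Q * (Q - 1) * x (true, 0, 0) = 0 := by linear_combination -b00
    exact (mul_eq_zero.mp h3).resolve_left (mul_ne_zero (mul_ne_zero hE0 hQ0) hQ1)
  have m11 : x (true, 1, 1) = 0 := by
    rw [m00] at t2
    linear_combination t2
  rw [m00] at n2
  have m01 : x (true, 0, 1) = 0 := by
    have h3 : x (true, 0, 1) ^ 2 = 0 := by
      linear_combination n2 + x (true, 0, 1) * e3
    exact pow_eq_zero_iff two_ne_zero |>.mp h3
  have m10 : x (true, 1, 0) = 0 := by linear_combination e3 - m01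
  have k11 : x (false, 1, 1) = 0 := by rw [k1, neg_zero]
  rintro ⟨s, a, b⟩
  cases s <;> fin_cases a <;> fin_cases b <;> assumption

/-- Type (c): unramified, scalar Frobenius. -/
lemma goodPair_scalar {ε : k} (h2 : (2 : k) ≠ 0) (hε : ε ^ 2 = 1) :
    GoodPair !![ε, 0; 0, ε] 0 1 := by
  refine ⟨![fun i => if i = (false, 0, 1) ∨ i = (true, 1, 0) then 1 else 0,
    fun i => if i = (false, 1, 0) ∨ i = (true, 0, 1) then 1 else 0,
    fun i => if i = (false, 0, 0) then 1 else 0],
    fun A _ _ _ _ x hx hr hl => ?_⟩
  have e1 : x (true, 1, 0) = - x (false, 0, 1) := by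
    have := hl 0
    have h3 : x (true, 1, 0) + x (false, 0, 1) = 0 := by
      simpa [Fintype.sum_prod_type] using this
    linear_combination h3
  have e2 : x (true, 0, 1) = - x (false, 1, 0) := by
    have := hl 1
    have h3 : x (true, 0, 1) + x (false, 1, 0) = 0 := by
      simpa [Fintype.sum_prod_type] using this
    linear_combination h3
  have e3 : x (false, 0, 0) = 0 := by
    have := hl 2
    simpa [Fintype.sum_prod_type] using this
  have hκ : Function.Injective (algebraMap k A) := (algebraMap k A).injective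
  have c2 := hr.comm
  have d2 := hr.detF
  have t2 := hr.tr
  have n2 := hr.det
  have s2 := hr.trF
  rw [Matrix.trace_fin_two] at t2 s2
  rw [Matrix.det_fin_two] at n2 d2
  have b00 := congrFun (congrFun c2 0) 0
  simp only [Matrix.mul_apply, Fin.sum_univ_two, Matrix.smul_apply, smul_eq_mul, Matrix.add_apply,
    Matrix.map_apply, xMat, Matrix.of_apply, Matrix.cons_val', Matrix.cons_val_zero,
    Matrix.cons_val_one, Matrix.cons_val_fin_one, map_zero, map_one, mul_zero, mul_one, zero_add,
    add_zero, zero_mul, one_mul, e1, e2, e3, Matrix.zero_apply] at b00 t2 n2 d2 s2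
  set E := algebraMap k A ε with hE
  have hE2 : E ^ 2 = 1 := by rw [hE, ← map_pow, hε, map_one]
  have hE0 : E ≠ 0 := fun h => by rw [h] at hE2; norm_num at hE2
  have h2A : (2 : A) ≠ 0 := fun h => h2 (hκ (by rw [map_ofNat, map_zero]; exact h))
  have k11 : x (false, 1, 1) = 0 := by
    have h3 : (E + (E + x (false, 1, 1)) - 2) * (E + (E + x (false, 1, 1)) + 2) = 0 := by
      linear_combination s2
    rcases mul_eq_zero.mp h3 with h | h
    · exact (eq_of_const (k := k) (c := ε + ε) (c' := 2) (hx _) (by
        rw [map_add, map_ofNat]; linear_combination h)).2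
    · exact (eq_of_const (k := k) (c := ε + ε) (c' := -2) (hx _) (by
        rw [map_add, map_neg, map_ofNat]; linear_combination h)).2
  rw [k11] at d2
  have hprod : x (false, 0, 1) * x (false, 1, 0) = 0 := by linear_combination -d2 + hE2
  have m00 : x (true, 0, 0) = 0 := by
    have h3 : x (true, 0, 0) ^ 2 = 0 := by
      linear_combination -n2 + x (true, 0, 0) * t2 - hprod
    exact pow_eq_zero_iff two_ne_zero |>.mp h3
  have m11 : x (true, 1, 1) = 0 := by linear_combination t2 - m00
  have hsq : x (false, 0, 1) ^ 2 = x (false, 1, 0) ^ 2 := by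
    rw [m00] at b00
    linear_combination -b00
  have k01 : x (false, 0, 1) = 0 := by
    have h3 : x (false, 0, 1) ^ 4 = 0 := by
      linear_combination x (false, 0, 1) ^ 2 * hsq + x (false, 0, 1) * x (false, 1, 0) * hprod
    exact pow_eq_zero_iff (by norm_num) |>.mp h3
  have k10 : x (false, 1, 0) = 0 := by
    rw [k01] at hsq
    have h3 : x (false, 1, 0) ^ 2 = 0 := by linear_combination -hsq
    exact pow_eq_zero_iff two_ne_zero |>.mp h3
  have m10 : x (true, 1, 0) = 0 := by rw [e1, k01, neg_zero]
  have m01 : x (true, 0, 1) = 0 := by rw [e2, k10, neg_zero]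
  rintro ⟨s, a, b⟩
  cases s <;> fin_cases a <;> fin_cases b <;> assumption

/-- Type (d): unramified, non-scalar Frobenius with equal eigenvalues. -/
lemma goodPair_reg {ε : k} (h2 : (2 : k) ≠ 0) (hε : ε ^ 2 = 1) :
    GoodPair !![ε, 1; 0, ε] 0 1 := by
  refine ⟨![fun i => if i = (false, 0, 0) then 1 else 0,
    fun i => if i = (false, 0, 1) then 1 else 0,
    fun i => if i = (true, 0, 1) then 1 else 0],
    fun A _ _ _ _ x hx hr hl => ?_⟩
  have e1 : x (false, 0, 0) = 0 := by
    have := hl 0
    simpa [Fintype.sum_prod_type] using this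
  have e2 : x (false, 0, 1) = 0 := by
    have := hl 1
    simpa [Fintype.sum_prod_type] using this
  have e3 : x (true, 0, 1) = 0 := by
    have := hl 2
    simpa [Fintype.sum_prod_type] using this
  have hκ : Function.Injective (algebraMap k A) := (algebraMap k A).injective
  have c2 := hr.comm
  have d2 := hr.detF
  have t2 := hr.tr
  have n2 := hr.det
  have s2 := hr.trF
  rw [Matrix.trace_fin_two] at t2 s2
  rw [Matrix.det_fin_two] at n2 d2
  have b00 := congrFun (congrFun c2 0) 0
  have b01 := congrFun (congrFun c2 0) 1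
  simp only [Matrix.mul_apply, Fin.sum_univ_two, Matrix.smul_apply, smul_eq_mul, Matrix.add_apply,
    Matrix.map_apply, xMat, Matrix.of_apply, Matrix.cons_val', Matrix.cons_val_zero,
    Matrix.cons_val_one, Matrix.cons_val_fin_one, map_zero, map_one, mul_zero, mul_one, zero_add,
    add_zero, zero_mul, one_mul, e1, e2, e3, Matrix.zero_apply] at b00 b01 t2 n2 d2 s2
  set E := algebraMap k A ε with hE
  have hE2 : E ^ 2 = 1 := by rw [hE, ← map_pow, hε, map_one]
  have hE0 : E ≠ 0 := fun h => by rw [h] at hE2; norm_num at hE2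
  have h2A : (2 : A) ≠ 0 := fun h => h2 (hκ (by rw [map_ofNat, map_zero]; exact h))
  have k11 : x (false, 1, 1) = 0 := by
    have h3 : (E + (E + x (false, 1, 1)) - 2) * (E + (E + x (false, 1, 1)) + 2) = 0 := by
      linear_combination s2
    rcases mul_eq_zero.mp h3 with h | h
    · exact (eq_of_const (k := k) (c := ε + ε) (c' := 2) (hx _) (by
        rw [map_add, map_ofNat]; linear_combination h)).2
    · exact (eq_of_const (k := k) (c := ε + ε) (c' := -2) (hx _) (by
        rw [map_add, map_neg, map_ofNat]; linear_combination h)).2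
  rw [k11] at d2
  have k10 : x (false, 1, 0) = 0 := by linear_combination -d2 + hE2
  have m10 : x (true, 1, 0) = 0 := by linear_combination b00
  have m11' : x (true, 1, 1) = x (true, 0, 0) := by
    linear_combination b01
  have m00 : x (true, 0, 0) = 0 := by
    have h3 : 2 * x (true, 0, 0) = 0 := by linear_combination t2 - m11'
    exact (mul_eq_zero.mp h3).resolve_left h2A
  have m11 : x (true, 1, 1) = 0 := by rw [m11', m00]
  rintro ⟨s, a, b⟩
  cases s <;> fin_cases a <;> fin_cases b <;> assumption

/-- Two by two matrices conjugate through an invertible matrix of eigenvectors. -/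
lemma exists_conj_of_mul {M D g' : Matrix (Fin 2) (Fin 2) k} (hdet : g'.det ≠ 0)
    (h : M * g' = g' * D) : ∃ g : Matrix (Fin 2) (Fin 2) k, g * g' = 1 ∧ g * M * g' = D := by
  have hu : IsUnit g'.det := isUnit_iff_ne_zero.mpr hdet
  refine ⟨g'⁻¹, Matrix.nonsing_inv_mul _ hu, ?_⟩
  rw [Matrix.mul_assoc, h, ← Matrix.mul_assoc, Matrix.nonsing_inv_mul _ hu, Matrix.one_mul]

lemma exists_conj_nilp {M : Matrix (Fin 2) (Fin 2) k} (hM : M ≠ 0) (htr : M.trace = 0)
    (hdet : M.det = 0) : ∃ g g' : Matrix (Fin 2) (Fin 2) k, g * g' = 1 ∧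
      g * M * g' = !![0, 1; 0, 0] := by
  rw [Matrix.trace_fin_two] at htr
  rw [Matrix.det_fin_two] at hdet
  have h11 : M 1 1 = - M 0 0 := by linear_combination htr
  rw [h11] at hdet
  by_cases hc : M 1 0 = 0
  · have ha : M 0 0 = 0 := by
      rw [hc] at hdet
      have : M 0 0 ^ 2 = 0 := by linear_combination -hdet
      exact pow_eq_zero_iff two_ne_zero |>.mp this
    have hb : M 0 1 ≠ 0 := by
      intro hb
      apply hM
      ext i j
      fin_cases i <;> fin_cases j
      · exact ha
      · exact hb
      · exact hc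
      · change M 1 1 = 0
        rw [h11, ha, neg_zero]
    obtain ⟨g, hg, hg2⟩ := exists_conj_of_mul (M := M) (D := !![0, 1; 0, 0])
      (g' := !![M 0 1, 0; 0, 1]) (by rw [Matrix.det_fin_two_of]; simpa using hb) (by
        ext i j
        fin_cases i <;> fin_cases j <;>
          simp [Matrix.mul_apply, Fin.sum_univ_two, ha, hc, h11])
    exact ⟨g, _, hg, hg2⟩
  · obtain ⟨g, hg, hg2⟩ := exists_conj_of_mul (M := M) (D := !![0, 1; 0, 0])
      (g' := !![M 0 0, 1; M 1 0, 0]) (by rw [Matrix.det_fin_two_of]; simpa using hc) (by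
        ext i j
        fin_cases i <;> fin_cases j <;>
          simp [Matrix.mul_apply, Fin.sum_univ_two, h11]
        · linear_combination -hdet
        · ring)
    exact ⟨g, _, hg, hg2⟩

lemma exists_conj_diag {M : Matrix (Fin 2) (Fin 2) k} {l m : k} (hlm : l ≠ m)
    (htr : M.trace = l + m) (hdet : M.det = l * m) : ∃ g g' : Matrix (Fin 2) (Fin 2) k,
      g * g' = 1 ∧ g * M * g' = !![l, 0; 0, m] := by
  rw [Matrix.trace_fin_two] at htr
  rw [Matrix.det_fin_two] at hdet
  have h11 : M 1 1 = l + m - M 0 0 := by linear_combination htr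
  rw [h11] at hdet
  by_cases hb : M 0 1 = 0
  · by_cases hc : M 1 0 = 0
    · have h3 : (M 0 0 - l) * (M 0 0 - m) = 0 := by
        rw [hb] at hdet
        linear_combination -hdet
      rcases mul_eq_zero.mp h3 with h | h
      · have h00 : M 0 0 = l := by linear_combination h
        refine ⟨1, 1, by rw [Matrix.one_mul], ?_⟩
        rw [Matrix.one_mul, Matrix.mul_one]
        ext i j
        fin_cases i <;> fin_cases j <;> simp [h00, hb, hc, h11]
      · have h00 : M 0 0 = m := by linear_combination h
        obtain ⟨g, hg, hg2⟩ := exists_conj_of_mul (M := M) (D := !![l, 0; 0, m])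
          (g' := !![0, 1; 1, 0]) (by rw [Matrix.det_fin_two_of]; simp) (by
            ext i j
            fin_cases i <;> fin_cases j <;>
              simp [Matrix.mul_apply, Fin.sum_univ_two, h00, hb, hc, h11])
        exact ⟨g, _, hg, hg2⟩
    · obtain ⟨g, hg, hg2⟩ := exists_conj_of_mul (M := M) (D := !![l, 0; 0, m])
        (g' := !![l - M 1 1, m - M 1 1; M 1 0, M 1 0]) (by
          rw [Matrix.det_fin_two_of]
          intro h
          have h3 : M 1 0 * (l - m) = 0 := by linear_combination h
          rcases mul_eq_zero.mp h3 with h4 | h4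
          · exact hc h4
          · exact hlm (sub_eq_zero.mp h4)) (by
          ext i j
          fin_cases i <;> fin_cases j <;>
            simp [Matrix.mul_apply, Fin.sum_univ_two, h11]
          · linear_combination -hdet
          · linear_combination -hdet
          · ring
          · ring)
      exact ⟨g, _, hg, hg2⟩
  · obtain ⟨g, hg, hg2⟩ := exists_conj_of_mul (M := M) (D := !![l, 0; 0, m])
      (g' := !![M 0 1, M 0 1; l - M 0 0, m - M 0 0]) (by
        rw [Matrix.det_fin_two_of]
        intro h
        have h3 : M 0 1 * (m - l) = 0 := by linear_combination h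
        rcases mul_eq_zero.mp h3 with h4 | h4
        · exact hb h4
        · exact hlm (sub_eq_zero.mp h4).symm) (by
        ext i j
        fin_cases i <;> fin_cases j <;>
          simp [Matrix.mul_apply, Fin.sum_univ_two, h11]
        · ring
        · ring
        · linear_combination -hdet
        · linear_combination -hdet)
    exact ⟨g, _, hg, hg2⟩

/-- **Local analysis at `v ≠ p`.** -/
theorem goodPair {Φ₀ N₀ : Matrix (Fin 2) (Fin 2) k} {q : k} (h2 : (2 : k) ≠ 0) (hq : q ≠ 0)
    (hrel : StRel Φ₀ N₀ q) : GoodPair Φ₀ N₀ q := by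
  by_cases hN : N₀ = 0
  · subst hN
    have htr : ∃ ε : k, ε ^ 2 = 1 ∧ Φ₀.trace = ε * (q + 1) := by
      have h3 : (Φ₀.trace - (q + 1)) * (Φ₀.trace + (q + 1)) = 0 := by
        linear_combination hrel.trF
      rcases mul_eq_zero.mp h3 with h | h
      · exact ⟨1, by norm_num, by linear_combination h⟩
      · exact ⟨-1, by norm_num, by linear_combination h⟩
    obtain ⟨ε, hε, htr⟩ := htr
    by_cases hq1 : q = 1
    · subst hq1
      by_cases hM : Φ₀ - Matrix.scalar (Fin 2) ε = 0
      · have h3 : Φ₀ = !![ε, 0; 0, ε] := by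
          rw [sub_eq_zero] at hM
          rw [hM]
          ext i j
          fin_cases i <;> fin_cases j <;> simp
        rw [h3]
        exact goodPair_scalar h2 hε
      · obtain ⟨g, g', hg, hg2⟩ := exists_conj_nilp hM (by
          rw [Matrix.trace_sub, htr, Matrix.trace_fin_two]
          simp
          ring) (by
          have h3 := hrel.detF
          rw [Matrix.trace_fin_two] at htr
          rw [Matrix.det_fin_two] at h3 ⊢
          simp
          linear_combination h3 - ε * htr - hε)
        refine GoodPair.of_conj hg ?_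
        have h4 : g * Φ₀ * g' = !![ε, 1; 0, ε] := by
          have h5 : Φ₀ = (Φ₀ - Matrix.scalar (Fin 2) ε) + Matrix.scalar (Fin 2) ε := by abel
          rw [h5, Matrix.mul_add, Matrix.add_mul, hg2, ← Matrix.scalar_commute ε (fun _ => mul_comm _ _) g]
          rw [Matrix.mul_assoc, hg]
          ext i j
          fin_cases i <;> fin_cases j <;> simp
        rw [h4, Matrix.mul_zero, Matrix.zero_mul]
        exact goodPair_reg h2 hε
    · have hne : ε * q ≠ ε := by
        intro h
        have hε0 : ε ≠ 0 := fun h0 => by rw [h0] at hε; norm_num at hε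
        apply hq1
        have h3 : ε * (q - 1) = 0 := by linear_combination h
        have := (mul_eq_zero.mp h3).resolve_left hε0
        linear_combination this
      obtain ⟨g, g', hg, hg2⟩ := exists_conj_diag hne (M := Φ₀) (by rw [htr]; ring) (by
        rw [hrel.detF]; linear_combination -q * hε)
      refine GoodPair.of_conj hg ?_
      rw [hg2, Matrix.mul_zero, Matrix.zero_mul]
      exact goodPair_dist h2 hq hε hq1
  · obtain ⟨g, g', hg, hg2⟩ := exists_conj_nilp hN hrel.tr hrel.det
    refine GoodPair.of_conj hg ?_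
    have h3 := hrel.conj hg
    rw [hg2] at h3 ⊢
    exact goodPair_ram h2 hq h3

end Fermat.Agent.RT
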