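import Fermat.Agent.RT.Loc

set_option autoImplicit false

/-!
# Localisation of modules with commuting operators
-/

open IsLocalRing

namespace Fermat.Agent.RT

section LocG

variable {𝒪 : Type*} [CommRing 𝒪] [IsLocalRing 𝒪] {M : Type*} [AddCommGroup M] [Module 𝒪 M]
  {M' : Type*} [AddCommGroup M'] [Module 𝒪 M'] {σ : Type*}

/-- The action of polynomials by commuting operators. -/
noncomputable def polyAct (T : σ → Module.End 𝒪 M) (hT : ∀ i j, T i * T j = T j * T i) :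
    MvPolynomial σ 𝒪 →ₐ[𝒪] Module.End 𝒪 M :=
  letI : CommRing (Algebra.adjoin 𝒪 (Set.range T)) :=
    Algebra.adjoinCommRingOfComm 𝒪 (by rintro _ ⟨i, rfl⟩ _ ⟨j, rfl⟩; exact hT i j)
  (Algebra.adjoin 𝒪 (Set.range T)).val.comp
    (MvPolynomial.aeval fun i => ⟨T i, Algebra.subset_adjoin ⟨i, rfl⟩⟩)

@[simp] theorem polyAct_X (T : σ → Module.End 𝒪 M) (hT : ∀ i j, T i * T j = T j * T i) (i : σ) :
    polyAct T hT (MvPolynomial.X i) = T i := by
  letI : CommRing (Algebra.adjoin 𝒪 (Set.range T)) :=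
    Algebra.adjoinCommRingOfComm 𝒪 (by rintro _ ⟨i, rfl⟩ _ ⟨j, rfl⟩; exact hT i j)
  unfold polyAct
  rw [AlgHom.comp_apply, MvPolynomial.aeval_X]
  rfl

theorem polyAct_comm {T : σ → Module.End 𝒪 M} {hT : ∀ i j, T i * T j = T j * T i}
    {T' : σ → Module.End 𝒪 M'} {hT' : ∀ i j, T' i * T' j = T' j * T' i} (f : M →ₗ[𝒪] M')
    (hf : ∀ i m, f (T i m) = T' i (f m)) (r : MvPolynomial σ 𝒪) (m : M) :
    f (polyAct T hT r m) = polyAct T' hT' r (f m) := by
  induction r using MvPolynomial.induction_on generalizing m with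
  | C a =>
    have h1 : (MvPolynomial.C a : MvPolynomial σ 𝒪) = algebraMap 𝒪 _ a := rfl
    rw [h1, AlgHom.commutes, AlgHom.commutes, Module.algebraMap_end_apply,
      Module.algebraMap_end_apply, map_smul]
  | add p q hp hq =>
    rw [map_add, map_add, LinearMap.add_apply, LinearMap.add_apply, map_add, hp, hq]
  | mul_X p i hp =>
    rw [map_mul, map_mul, Module.End.mul_apply, Module.End.mul_apply, hp, polyAct_X, polyAct_X,
      hf]

/-- The maximal ideal of a residual system of eigenvalues. -/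
noncomputable def evI (a : σ → 𝒪) : Ideal (MvPolynomial σ 𝒪) :=
  RingHom.ker ((residue 𝒪).comp (MvPolynomial.eval a))

instance evI_maximal (a : σ → 𝒪) : (evI a).IsMaximal := by
  refine RingHom.ker_isMaximal_of_surjective _ ?_
  intro x
  obtain ⟨y, rfl⟩ := IsLocalRing.residue_surjective x
  exact ⟨MvPolynomial.C y, by simp⟩

theorem mem_evI {a : σ → 𝒪} {f : MvPolynomial σ 𝒪} :
    f ∈ evI a ↔ MvPolynomial.eval a f ∈ maximalIdeal 𝒪 := by
  rw [evI, RingHom.mem_ker, RingHom.comp_apply, residue_eq_zero_iff]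

theorem algebraMap_mem_evI (a : σ → 𝒪) {b : 𝒪} (hb : b ∈ maximalIdeal 𝒪) :
    algebraMap 𝒪 (MvPolynomial σ 𝒪) b ∈ evI a := by
  rw [mem_evI, MvPolynomial.algebraMap_eq, MvPolynomial.eval_C]
  exact hb

theorem X_sub_C_mem_evI (a : σ → 𝒪) (i : σ) : MvPolynomial.X i - MvPolynomial.C (a i) ∈ evI a := by
  rw [mem_evI]; simp

theorem evI_le {a : σ → 𝒪} {J : Ideal (MvPolynomial σ 𝒪)}
    (h1 : ∀ b ∈ maximalIdeal 𝒪, MvPolynomial.C b ∈ J)
    (h2 : ∀ i, MvPolynomial.X i - MvPolynomial.C (a i) ∈ J) : evI a ≤ J := by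
  intro f hf
  have h3 : Ideal.Quotient.mk J = ((Ideal.Quotient.mk J).comp MvPolynomial.C).comp
      (MvPolynomial.eval a) := by
    refine MvPolynomial.ringHom_ext (fun r => by simp) fun i => ?_
    rw [RingHom.comp_apply, RingHom.comp_apply, MvPolynomial.eval_X, Ideal.Quotient.eq]
    exact h2 i
  rw [← Ideal.Quotient.eq_zero_iff_mem, h3, RingHom.comp_apply, RingHom.comp_apply,
    Ideal.Quotient.eq_zero_iff_mem]
  exact h1 _ (mem_evI.mp hf)

/-- Topological nilpotence at an element. -/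
def NilAt (g : Module.End 𝒪 M) (m : M) : Prop :=
  ∀ j, ∃ n, (g ^ n) m ∈ maximalIdeal 𝒪 ^ j • (⊤ : Submodule 𝒪 M)

/-- The part of `M` where all the `T i - a i` are topologically nilpotent. -/
def LocG (T : σ → Module.End 𝒪 M) (a : σ → 𝒪) : Submodule 𝒪 M where
  carrier := {m | ∀ i, NilAt (T i - a i • 1) m}
  add_mem' {x y} hx hy i j := by
    obtain ⟨n, hn⟩ := hx i j
    obtain ⟨n', hn'⟩ := hy i j
    refine ⟨n' + n, ?_⟩
    rw [map_add]
    refine Submodule.add_mem _ ?_ ?_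
    · rw [pow_add, Module.End.mul_apply]; exact map_mem_smul_top _ _ hn
    · rw [add_comm, pow_add, Module.End.mul_apply]; exact map_mem_smul_top _ _ hn'
  zero_mem' i j := ⟨0, by simp⟩
  smul_mem' c x hx i j := by
    obtain ⟨n, hn⟩ := hx i j
    exact ⟨n, by rw [map_smul]; exact Submodule.smul_mem _ _ hn⟩

theorem mem_LocG {T : σ → Module.End 𝒪 M} {a : σ → 𝒪} {m : M} :
    m ∈ LocG T a ↔ ∀ i, NilAt (T i - a i • 1) m := Iff.rfl

theorem LocG_eq (T : σ → Module.End 𝒪 M) (hT : ∀ i j, T i * T j = T j * T i) (a : σ → 𝒪) :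
    LocG T a = Loc (polyAct T hT) (evI a) := by
  have h0 : ∀ i, polyAct T hT (MvPolynomial.X i - MvPolynomial.C (a i)) = T i - a i • 1 := by
    intro i
    have h1 : (MvPolynomial.C (a i) : MvPolynomial σ 𝒪) = algebraMap 𝒪 _ (a i) := rfl
    rw [map_sub, polyAct_X, h1, AlgHom.commutes, Algebra.algebraMap_eq_smul_one]
  ext m
  rw [mem_Loc, mem_LocG]
  constructor
  · intro h j
    have h1 : evI a ≤ (annI (polyAct T hT) m j).radical := by
      refine evI_le (fun b hb => ⟨j, ?_⟩) fun i => ?_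
      · rw [mem_annI, map_pow]
        have h1 : (MvPolynomial.C b : MvPolynomial σ 𝒪) = algebraMap 𝒪 _ b := rfl
        rw [h1, AlgHom.commutes, ← map_pow, Module.algebraMap_end_apply]
        exact Submodule.smul_mem_smul (Ideal.pow_mem_pow hb j) Submodule.mem_top
      · obtain ⟨n, hn⟩ := h i j
        exact ⟨n, by rw [mem_annI, map_pow, h0]; exact hn⟩
    intro t ht
    obtain ⟨n, hn⟩ := h1 ht
    exact ⟨n, by rw [← map_pow]; exact hn⟩
  · intro h i j
    obtain ⟨n, hn⟩ := h j _ (X_sub_C_mem_evI a i)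
    exact ⟨n, by rw [← h0]; exact hn⟩

theorem NilAt.map {g : Module.End 𝒪 M} {g' : Module.End 𝒪 M'} {m : M} (h : NilAt g m)
    (f : M →ₗ[𝒪] M') (hf : ∀ m, f (g m) = g' (f m)) : NilAt g' (f m) := by
  intro j
  obtain ⟨n, hn⟩ := h j
  refine ⟨n, ?_⟩
  have h1 : ∀ n m, f ((g ^ n) m) = (g' ^ n) (f m) := by
    intro n
    induction n with
    | zero => intro m; rfl
    | succ n ih => intro m; rw [pow_succ, pow_succ, Module.End.mul_apply, ih, hf]; rfl
  rw [← h1]
  exact map_mem_smul_top _ _ hn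

theorem LocG.map {T : σ → Module.End 𝒪 M} {T' : σ → Module.End 𝒪 M'} {a : σ → 𝒪}
    (f : M →ₗ[𝒪] M') (hf : ∀ i m, f (T i m) = T' i (f m)) {m : M} (hm : m ∈ LocG T a) :
    f m ∈ LocG T' a := fun i => (hm i).map f fun m => by
  rw [LinearMap.sub_apply, LinearMap.sub_apply, map_sub, hf, LinearMap.smul_apply,
    LinearMap.smul_apply, Module.End.one_apply, Module.End.one_apply, map_smul]

/-- The action on the localisation. -/
def LocG.res {T : σ → Module.End 𝒪 M} {a : σ → 𝒪} (g : Module.End 𝒪 M)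
    (hg : ∀ i, g * T i = T i * g) : Module.End 𝒪 (LocG T a) :=
  g.restrict fun _ hx => LocG.map g (fun i m => LinearMap.congr_fun (hg i) m) hx

@[simp] theorem LocG.res_apply {T : σ → Module.End 𝒪 M} {a : σ → 𝒪} (g : Module.End 𝒪 M)
    (hg : ∀ i, g * T i = T i * g) (x : LocG T a) : (LocG.res g hg x : M) = g x := rfl

theorem LocG.res_pow {T : σ → Module.End 𝒪 M} {a : σ → 𝒪} (g : Module.End 𝒪 M)
    (hg : ∀ i, g * T i = T i * g) (n : ℕ) (x : LocG T a) :
    ((LocG.res g hg ^ n) x : M) = (g ^ n) x := by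
  induction n generalizing x with
  | zero => rfl
  | succ n ih => rw [pow_succ, pow_succ, Module.End.mul_apply, Module.End.mul_apply, ih]; rfl

section Complete

variable [IsNoetherianRing 𝒪] [IsAdicComplete (maximalIdeal 𝒪) 𝒪] [Module.Finite 𝒪 M]
  [Module.Finite 𝒪 M'] {T : σ → Module.End 𝒪 M} {T' : σ → Module.End 𝒪 M'} {a : σ → 𝒪}
  (hT : ∀ i j, T i * T j = T j * T i)
  (hT' : ∀ i j, T' i * T' j = T' j * T' i)

include hT hT' in
theorem LocG.exists_preimage (f : M →ₗ[𝒪] M') (hf : ∀ i m, f (T i m) = T' i (f m)) {m : M}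
    (hm : f m ∈ LocG T' a) : ∃ m' ∈ LocG T a, f m' = f m := by
  rw [LocG_eq T' hT'] at hm
  rw [LocG_eq T hT]
  exact Loc.exists_preimage (fun a ha => algebraMap_mem_evI _ ha) f
    (fun r m => polyAct_comm f hf r m) hm

include hT hT' in
theorem LocG.exists_of_mem {m' : M'} (f : M →ₗ[𝒪] M') (hf : ∀ i m, f (T i m) = T' i (f m))
    (hm' : m' ∈ LocG T' a) (h : ∃ m, f m = m') : ∃ m ∈ LocG T a, f m = m' := by
  obtain ⟨m, rfl⟩ := h
  exact LocG.exists_preimage hT hT' f hf hm'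

omit [Module.Finite 𝒪 M'] in
include hT in
theorem LocG.mem_smul {m : M} (hm : m ∈ LocG T a) {I : Ideal 𝒪}
    (h : m ∈ I • (⊤ : Submodule 𝒪 M)) :
    (⟨m, hm⟩ : LocG T a) ∈ I • (⊤ : Submodule 𝒪 (LocG T a)) := by
  have h1 := LocG_eq T hT a
  have hm' : m ∈ Loc (polyAct T hT) (evI a) := h1 ▸ hm
  have h2 := Loc.mem_smul (fun a ha => algebraMap_mem_evI _ ha) hm' h
  have h3 := map_mem_smul_top (LinearEquiv.ofEq _ _ h1.symm).toLinearMap I h2
  exact h3

omit [Module.Finite 𝒪 M'] in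
include hT in
/-- A operator commuting with all the `T i` and congruent to a unit on the localisation is
bijective there. -/
theorem LocG.bijective {g : Module.End 𝒪 M} (hg : ∀ i, g * T i = T i * g) {b : 𝒪} (hb : IsUnit b)
    (h : ∀ m ∈ LocG T a, NilAt (g - b • 1) m) :
    Function.Bijective (LocG.res (a := a) g hg) := by
  refine TopNil.bijective_of_sub hb (topNil_of_forall fun x => ?_)
  obtain ⟨n, hn⟩ := h x x.2 1
  rw [pow_one] at hn
  refine ⟨n, ?_⟩
  have h1 : ∀ i, (g - b • 1) * T i = T i * (g - b • 1) := fun i => by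
    rw [sub_mul, mul_sub, hg]; simp
  have h2 : (LocG.res g hg - b • 1 : Module.End 𝒪 (LocG T a)) = LocG.res (g - b • 1) h1 := by
    ext x; rfl
  rw [h2]
  have h4 : (((LocG.res (a := a) (g - b • 1) h1 ^ n) x : LocG T a) : M) ∈
      maximalIdeal 𝒪 • (⊤ : Submodule 𝒪 M) := by
    rw [LocG.res_pow]
    exact hn
  generalize (LocG.res (a := a) (g - b • 1) h1 ^ n) x = y at h4 ⊢
  obtain ⟨y, hy⟩ := y
  exact LocG.mem_smul hT hy h4

omit [IsNoetherianRing 𝒪] [IsAdicComplete (maximalIdeal 𝒪) 𝒪] [Module.Finite 𝒪 M]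
  [Module.Finite 𝒪 M'] [IsLocalRing 𝒪] in
include hT in
theorem LocG.sub_comm (i : σ) (c : 𝒪) (j : σ) :
    (T i - c • 1) * T j = T j * (T i - c • 1) := by
  rw [sub_mul, mul_sub, hT]; simp

omit [Module.Finite 𝒪 M'] in
include hT in
theorem LocG.bijective_X (i : σ) {c : 𝒪} (hc : IsUnit (a i - c)) :
    Function.Bijective (LocG.res (a := a) (T i - c • 1) (LocG.sub_comm hT i c)) := by
  refine LocG.bijective hT (LocG.sub_comm hT i c) hc fun m hm => ?_
  have h2 : T i - c • 1 - (a i - c) • (1 : Module.End 𝒪 M) = T i - a i • 1 := by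
    rw [sub_smul]; abel
  rw [h2]
  exact mem_LocG.mp hm i

omit [Module.Finite 𝒪 M'] in
include hT in
theorem LocG.eq_zero_X (i : σ) {c : 𝒪} (hc : IsUnit (a i - c)) {x : M} (hx : x ∈ LocG T a)
    (h0 : T i x = c • x) : x = 0 := by
  have h2 : LocG.res (T i - c • 1) (LocG.sub_comm hT i c) ⟨x, hx⟩ =
      LocG.res (a := a) (T i - c • 1) (LocG.sub_comm hT i c) 0 := by
    apply Subtype.ext
    rw [LocG.res_apply, map_zero, LinearMap.sub_apply, LinearMap.smul_apply,
      Module.End.one_apply]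
    exact sub_eq_zero.mpr h0
  exact congrArg Subtype.val ((LocG.bijective_X hT i hc).1 h2)

omit [Module.Finite 𝒪 M'] in
include hT in
theorem LocG.exists_X (i : σ) {c : 𝒪} (hc : IsUnit (a i - c)) {x : M} (hx : x ∈ LocG T a) :
    ∃ y ∈ LocG T a, T i y - c • y = x := by
  obtain ⟨y, hy⟩ := (LocG.bijective_X (a := a) hT i hc).2 ⟨x, hx⟩
  exact ⟨y, y.2, congrArg Subtype.val hy⟩

end Complete

end LocG

end Fermat.Agent.RT
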