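import Fermat.Agent.LocalCFT.Unram

set_option autoImplicit false
set_option maxHeartbeats 400000
set_option linter.style.haveILetI false
set_option linter.unusedSectionVars false
set_option linter.unusedVariables false

/-!
# Local Galois groups: tame generation of the `p`-power quotients of inertia
-/

namespace Fermat.Agent.RT

open Fermat.Agent.Coh Fermat.Agent.GalD Fermat.Agent.LocalCFT Module IntermediateField

variable {l : ℕ} [hl : Fact l.Prime]

lemma gbar_one (y : KK l) : gbar (1 : Gal(PadicAlgCl l/ℚ_[l])) y = y := by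
  obtain ⟨x, rfl⟩ := rd_surjective y
  rfl

variable (l) in
/-- The inertia group. -/
def Il : Subgroup Gal(PadicAlgCl l/ℚ_[l]) where
  carrier := {g | ∀ y : KK l, gbar g y = y}
  one_mem' := gbar_one
  mul_mem' {g h} hg hh y := by rw [gbar_mul, hh, hg]
  inv_mem' {g} hg y := by
    have h1 : gbar g⁻¹ (gbar g y) = y := by rw [← gbar_mul, inv_mul_cancel, gbar_one]
    rwa [hg] at h1

lemma mem_Il {g : Gal(PadicAlgCl l/ℚ_[l])} : g ∈ Il l ↔ ∀ y : KK l, gbar g y = y := Iff.rfl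

lemma conj_mem_Il {g : Gal(PadicAlgCl l/ℚ_[l])} (hg : g ∈ Il l) (φ : Gal(PadicAlgCl l/ℚ_[l])) :
    φ * g * φ⁻¹ ∈ Il l := by
  intro y
  rw [gbar_mul, gbar_mul, hg, ← gbar_mul, mul_inv_cancel, gbar_one]

instance : (Il l).Normal := ⟨fun g hg φ => conj_mem_Il hg φ⟩

/-- the quotient `g x / x` -/
noncomputable def quo (x : PadicAlgCl l) (h0 : x ≠ 0) (g : Gal(PadicAlgCl l/ℚ_[l])) : OO l :=
  ⟨g x / x, by rw [mem_OO, norm_div, norm_gal, div_self (norm_ne_zero_iff.mpr h0)]⟩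

lemma coe_quo (x : PadicAlgCl l) (h0 : x ≠ 0) (g : Gal(PadicAlgCl l/ℚ_[l])) :
    (quo x h0 g : PadicAlgCl l) = g x / x := rfl

lemma quo_mul (x : PadicAlgCl l) (h0 : x ≠ 0) (g h : Gal(PadicAlgCl l/ℚ_[l])) :
    quo x h0 (g * h) = gOO g (quo x h0 h) * quo x h0 g := by
  apply Subtype.ext
  change g (h x) / x = g (h x / x) * (g x / x)
  have : g x ≠ 0 := (map_ne_zero_iff _ g.injective).mpr h0
  rw [map_div₀]
  field_simp

/-- The tame character of an element. -/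
noncomputable def theta (x : PadicAlgCl l) (h0 : x ≠ 0) : Il l →* KK l where
  toFun g := rd (quo x h0 g)
  map_one' := by
    have : quo x h0 ((1 : Il l) : Gal(PadicAlgCl l/ℚ_[l])) = 1 :=
      Subtype.ext (div_self h0)
    rw [this]; exact map_one _
  map_mul' g h := by
    rw [Subgroup.coe_mul, quo_mul]
    have h1 : rd (gOO (g : Gal(PadicAlgCl l/ℚ_[l])) (quo x h0 h) * quo x h0 g) =
        rd (gOO (g : Gal(PadicAlgCl l/ℚ_[l])) (quo x h0 h)) * rd (quo x h0 g) := map_mul _ _ _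
    rw [h1, ← gbar_rd, g.2, mul_comm]

lemma theta_apply (x : PadicAlgCl l) (h0 : x ≠ 0) (g : Il l) :
    theta x h0 g = rd (quo x h0 g) := rfl

lemma theta_unit {x : PadicAlgCl l} (hx : ‖x‖ = 1) (h0 : x ≠ 0) (g : Il l) : theta x h0 g = 1 := by
  have hxO : x ∈ OO l := by rw [mem_OO, hx]
  have h1 : gOO (g : Gal(PadicAlgCl l/ℚ_[l])) ⟨x, hxO⟩ = quo x h0 g * ⟨x, hxO⟩ := by
    apply Subtype.ext
    change (g : Gal(PadicAlgCl l/ℚ_[l])) x = (g : Gal(PadicAlgCl l/ℚ_[l])) x / x * x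
    rw [div_mul_cancel₀ _ h0]
  have h2 := congrArg (rd (l := l)) h1
  rw [← gbar_rd, g.2] at h2
  have h3 : rd (quo x h0 g * ⟨x, hxO⟩) = rd (quo x h0 g) * rd ⟨x, hxO⟩ := map_mul _ _ _
  rw [h3] at h2
  have h4 : rd (⟨x, hxO⟩ : OO l) ≠ 0 := by
    rw [Ne, rd_eq_zero_iff]
    change ¬ ‖x‖ < 1
    rw [hx]; exact lt_irrefl _
  rw [theta_apply]
  exact (mul_right_cancel₀ h4 (h2.symm.trans (one_mul _).symm))

lemma theta_mul {x y : PadicAlgCl l} (hx : x ≠ 0) (hy : y ≠ 0) (g : Il l) :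
    theta (x * y) (mul_ne_zero hx hy) g = theta x hx g * theta y hy g := by
  rw [theta_apply, theta_apply, theta_apply]
  have : quo (x * y) (mul_ne_zero hx hy) (g : Gal(PadicAlgCl l/ℚ_[l])) =
      quo x hx g * quo y hy g := by
    apply Subtype.ext
    change (g : Gal(PadicAlgCl l/ℚ_[l])) (x * y) / (x * y) = _ / _ * (_ / _)
    rw [map_mul, mul_div_mul_comm]
  rw [this]; exact map_mul _ _ _

lemma theta_pow {x : PadicAlgCl l} (hx : x ≠ 0) (n : ℕ) (g : Il l) :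
    theta (x ^ n) (pow_ne_zero n hx) g = theta x hx g ^ n := by
  rw [theta_apply, theta_apply]
  have : quo (x ^ n) (pow_ne_zero n hx) (g : Gal(PadicAlgCl l/ℚ_[l])) = quo x hx g ^ n := by
    apply Subtype.ext
    change (g : Gal(PadicAlgCl l/ℚ_[l])) (x ^ n) / x ^ n = (_ / _) ^ n
    rw [map_pow, div_pow]
  rw [this]; exact map_pow _ _ _

lemma theta_congr {x y : PadicAlgCl l} (hx : x ≠ 0) (hy : y ≠ 0) (h : x = y) (g : Il l) :
    theta x hx g = theta y hy g := by subst h; rfl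

lemma theta_eq_one_of_norm {x y : PadicAlgCl l} (hx : x ≠ 0) (hy : y ≠ 0) {g : Il l}
    (hg : theta x hx g = 1) (m n : ℕ) (h : ‖y‖ * ‖x‖ ^ m = ‖x‖ ^ n) : theta y hy g = 1 := by
  have hz : y * x ^ m / x ^ n ≠ 0 := div_ne_zero (mul_ne_zero hy (pow_ne_zero _ hx))
    (pow_ne_zero _ hx)
  have h1 : theta (y * x ^ m / x ^ n) hz g = 1 := by
    apply theta_unit
    rw [norm_div, norm_mul, norm_pow, norm_pow, h, div_self]
    exact pow_ne_zero _ (norm_ne_zero_iff.mpr hx)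
  have h2 := theta_mul (x := y * x ^ m / x ^ n) (y := x ^ n) hz (pow_ne_zero _ hx) g
  have h3 := theta_mul (x := y) (y := x ^ m) hy (pow_ne_zero _ hx) g
  have h4 : y * x ^ m / x ^ n * x ^ n = y * x ^ m := div_mul_cancel₀ _ (pow_ne_zero _ hx)
  have h5 : theta (y * x ^ m / x ^ n * x ^ n) (mul_ne_zero hz (pow_ne_zero _ hx)) g =
      theta (y * x ^ m) (mul_ne_zero hy (pow_ne_zero _ hx)) g := theta_congr _ _ h4 g
  rw [h2, h1, theta_pow hx, hg, h3, theta_pow hx, hg, one_pow, one_pow, mul_one, mul_one] at h5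
  exact h5.symm

section Level

variable {W : Subgroup Gal(PadicAlgCl l/ℚ_[l])} (hW : (LF l).IsOpen W) (hn : W.Normal)

lemma stable_fld (hn : W.Normal) (g : Gal(PadicAlgCl l/ℚ_[l])) {x : PadicAlgCl l}
    (hx : x ∈ fld W) : g x ∈ fld W := by
  rw [mem_fld] at hx ⊢
  intro w hw
  have h1 : (g⁻¹ * w * g) x = x := hx _ (by
    have := hn.conj_mem w hw g⁻¹
    rwa [inv_inv] at this)
  have h2 := congrArg g h1
  have h3 : g ((g⁻¹ * w * g) x) = w (g x) := by
    change (g * (g⁻¹ * w * g)) x = (w * g) x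
    congr 1
    group
  rw [← h3, h2]

include hW in
lemma mem_of_fixes {g : Gal(PadicAlgCl l/ℚ_[l])} (h : ∀ x ∈ fld W, g x = x) : g ∈ W := by
  rw [← fixingSubgroup_fld hW, IntermediateField.mem_fixingSubgroup_iff]
  exact h

include hW in
/-- the uniformizer of a finite level -/
lemma exists_uniformizer : ∃ ϖ : PadicAlgCl l, ϖ ∈ fld W ∧ ϖ ≠ 0 ∧
    ∀ x ∈ fld W, x ≠ 0 → ∃ m n : ℕ, ‖x‖ * ‖ϖ‖ ^ m = ‖ϖ‖ ^ n := by
  obtain ⟨hf, ⟨ϖ, hϖ⟩, hdiv⟩ := exists_unif_fdeg hW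
  refine ⟨uval (ϖ : Additive (PadicAlgCl l)ˣ), mem_FF_iff.mp ϖ.2, uval_ne_zero _,
    fun x hx h0 => ?_⟩
  obtain ⟨k, hk⟩ := hdiv (toFF hx h0)
  have h1 := VU_spec hW (toFF hx h0)
  have h2 := VU_spec hW ϖ
  rw [uval_toFF, hk] at h1
  rw [hϖ] at h2
  have hi := index_pos hW
  obtain ⟨m, n, rfl⟩ : ∃ m n : ℕ, k = n - m :=
    ⟨(-k).toNat, k.toNat, by omega⟩
  refine ⟨m, n, ?_⟩
  have h3 : (‖x‖ * ‖uval (ϖ : Additive (PadicAlgCl l)ˣ)‖ ^ m) ^ W.index =
      (‖uval (ϖ : Additive (PadicAlgCl l)ˣ)‖ ^ n) ^ W.index := by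
    rw [mul_pow, h1, ← pow_mul, mul_comm m, pow_mul, h2, ← pow_mul, mul_comm n, pow_mul, h2,
      ← zpow_natCast, ← zpow_natCast, ← zpow_mul, ← zpow_mul, ← zpow_add₀ l_pos.ne']
    congr 1
    ring
  exact (pow_left_inj₀ (by positivity) (by positivity) hi.ne').mp h3

variable {ϖ : PadicAlgCl l} (hϖ : ϖ ∈ fld W) (h0 : ϖ ≠ 0)
  (hval : ∀ x ∈ fld W, x ≠ 0 → ∃ m n : ℕ, ‖x‖ * ‖ϖ‖ ^ m = ‖ϖ‖ ^ n)

include hW hn hval in
/-- The wild inertia group is an `l`-group. -/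
lemma wild {σ : Il l} (hσ : theta ϖ h0 σ = 1) {n : ℕ} (hnl : ¬ l ∣ n)
    (hσn : ((σ : Gal(PadicAlgCl l/ℚ_[l])) ^ n) ∈ W) : (σ : Gal(PadicAlgCl l/ℚ_[l])) ∈ W := by
  refine mem_of_fixes hW fun x hx => ?_
  by_contra hne
  set s : Gal(PadicAlgCl l/ℚ_[l]) := σ.1 with hs
  set w := s x - x with hw
  have hw0 : w ≠ 0 := sub_ne_zero.mpr hne
  have hwW : w ∈ fld W := sub_mem (stable_fld hn _ hx) hx
  -- the sum of the conjugates of `w` vanishes
  have h1 : ∑ i ∈ Finset.range n, (s ^ i) w = 0 := by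
    have h2 : ∀ i, (s ^ i) w = (s ^ (i + 1)) x - (s ^ i) x := by
      intro i
      rw [hw, map_sub, pow_succ]
      rfl
    rw [Finset.sum_congr rfl fun i _ => h2 i, Finset.sum_range_sub (fun i => (s ^ i) x), pow_zero]
    rw [mem_fld.mp hx _ hσn]
    exact sub_self _
  obtain ⟨m, k, hmk⟩ := hval w hwW hw0
  have h2 : ∀ i : ℕ, rd (quo w hw0 (s ^ i)) = 1 := by
    intro i
    have h3 : theta w hw0 (σ ^ i) = 1 := by
      rw [map_pow, theta_eq_one_of_norm h0 hw0 hσ m k hmk, one_pow]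
    exact h3
  have h3 : ∑ i ∈ Finset.range n, quo w hw0 (s ^ i) = 0 := by
    apply Subtype.ext
    rw [AddSubmonoidClass.coe_finsetSum]
    change ∑ i ∈ Finset.range n, (s ^ i) w / w = 0
    rw [← Finset.sum_div, h1, zero_div]
  have h4 := congrArg (IsLocalRing.residue (OO l)) h3
  rw [map_sum, map_zero] at h4
  change ∑ i ∈ Finset.range n, rd (quo w hw0 (s ^ i)) = 0 at h4
  rw [Finset.sum_congr rfl fun i _ => h2 i, Finset.sum_const, Finset.card_range,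
    nsmul_eq_mul, mul_one] at h4
  exact hnl ((CharP.cast_eq_zero_iff (KK l) l n).mp h4)

end Level

section Main

variable {G : Type*} [Group G] {p : ℕ} (hp : p.Prime) (hpl : p ≠ l) (h : Il l →* G)
  {W : Subgroup Gal(PadicAlgCl l/ℚ_[l])} (hW : (LF l).IsOpen W)
  (hhW : ∀ g : Il l, (g : Gal(PadicAlgCl l/ℚ_[l])) ∈ W → h g = 1)
  (hpp : ∀ g, ∃ n, h g ^ p ^ n = 1)

include hp hpl hW hhW hpp in
/-- A homomorphism from inertia with values in a `p`-group factors through a tame character. -/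
theorem exists_theta : ∃ (ϖ : PadicAlgCl l) (h0 : ϖ ≠ 0),
    (∀ g : Il l, theta ϖ h0 g = 1 → h g = 1) ∧ (Set.range (theta ϖ h0)).Finite := by
  obtain ⟨W', hW', hle⟩ := hW
  have hn : W'.Normal := (LF l).normal W' hW'
  have hfi : W'.FiniteIndex := (LF l).finiteIndex W' hW'
  have hWo : (LF l).IsOpen W' := Fam.isOpen_of_mem hW'
  obtain ⟨ϖ, hϖ, h0, hval⟩ := exists_uniformizer hWo
  refine ⟨ϖ, h0, fun g hg => ?_, ?_⟩
  · -- the order of `g` modulo `W'`
    have hfin : Finite (Gal(PadicAlgCl l/ℚ_[l]) ⧸ W') := Subgroup.finite_quotient_of_finiteIndex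
    set N := Nat.card (Gal(PadicAlgCl l/ℚ_[l]) ⧸ W') with hN
    have hN0 : N ≠ 0 := Nat.card_pos.ne'
    obtain ⟨b, a, ha, hab⟩ := Nat.exists_eq_pow_mul_and_not_dvd hN0 l hl.out.ne_one
    have h1 : ((g : Gal(PadicAlgCl l/ℚ_[l])) ^ N) ∈ W' := by
      rw [← QuotientGroup.eq_one_iff, QuotientGroup.mk_pow]
      exact pow_card_eq_one'
    have h2 : (((g ^ l ^ b : Il l) : Gal(PadicAlgCl l/ℚ_[l]))) ∈ W' := by
      refine wild hWo hn h0 hval (σ := g ^ l ^ b) (by rw [map_pow, hg, one_pow]) ha ?_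
      rw [Subgroup.coe_pow, ← pow_mul, ← hab]
      exact h1
    have h3 : h g ^ l ^ b = 1 := by
      rw [← map_pow]
      exact hhW _ (hle h2)
    obtain ⟨n, h4⟩ := hpp g
    have h5 : orderOf (h g) ∣ l ^ b := orderOf_dvd_of_pow_eq_one h3
    have h6 : orderOf (h g) ∣ p ^ n := orderOf_dvd_of_pow_eq_one h4
    have h7 : Nat.Coprime (l ^ b) (p ^ n) :=
      Nat.Coprime.pow _ _ ((Nat.coprime_primes hl.out hp).mpr (Ne.symm hpl))
    have h8 : orderOf (h g) = 1 := Nat.dvd_one.mp (h7 ▸ Nat.dvd_gcd h5 h6)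
    exact orderOf_eq_one_iff.mp h8
  · -- the image is finite
    have hfi2 : (W'.subgroupOf (Il l)).FiniteIndex := inferInstance
    have h1 : ∀ g g' : Il l, g⁻¹ * g' ∈ W'.subgroupOf (Il l) → theta ϖ h0 g = theta ϖ h0 g' := by
      intro g g' hgg
      have h2 : theta ϖ h0 (g⁻¹ * g') = 1 := by
        have h3 : quo ϖ h0 ((g⁻¹ * g' : Il l) : Gal(PadicAlgCl l/ℚ_[l])) = 1 := by
          apply Subtype.ext
          change ((g⁻¹ * g' : Il l) : Gal(PadicAlgCl l/ℚ_[l])) ϖ / ϖ = 1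
          rw [mem_fld.mp hϖ _ (Subgroup.mem_subgroupOf.mp hgg), div_self h0]
        rw [theta_apply, h3]; exact map_one _
      have h3 : g' = g * (g⁻¹ * g') := by group
      rw [h3, map_mul, h2, mul_one]
    have : Set.range (theta ϖ h0) = Set.range (fun q : Il l ⧸ W'.subgroupOf (Il l) =>
        theta ϖ h0 q.out) := by
      apply Set.Subset.antisymm
      · rintro _ ⟨g, rfl⟩
        refine ⟨QuotientGroup.mk g, ?_⟩
        apply h1
        exact QuotientGroup.eq.mp (Quotient.out_eq _)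
      · rintro _ ⟨q, rfl⟩
        exact ⟨_, rfl⟩
    rw [this]
    haveI : Finite (Il l ⧸ W'.subgroupOf (Il l)) := Subgroup.finite_quotient_of_finiteIndex
    exact Set.finite_range _

include hp hpl hW hhW hpp in
/-- **The `p`-power quotients of inertia are cyclic.** -/
theorem exists_gen : ∃ c : Il l, ∀ g, h g ∈ Subgroup.zpowers (h c) := by
  obtain ⟨ϖ, h0, h1, hfin⟩ := exists_theta hp hpl h hW hhW hpp
  set θ : Il l →* (KK l)ˣ := (theta ϖ h0).toHomUnits with hθ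
  have hθv : ∀ g, ((θ g : (KK l)ˣ) : KK l) = theta ϖ h0 g := fun g => rfl
  have hfr : Finite θ.range := by
    have : (θ.range : Set (KK l)ˣ).Finite := by
      refine Set.Finite.of_finite_image (f := fun u : (KK l)ˣ => (u : KK l)) ?_
        (Units.val_injective.injOn)
      refine hfin.subset ?_
      rintro _ ⟨_, ⟨g, rfl⟩, rfl⟩
      exact ⟨g, rfl⟩
    exact this.to_subtype
  haveI : IsCyclic θ.range := inferInstance
  obtain ⟨⟨_, c, rfl⟩, hc⟩ := IsCyclic.exists_generator (α := θ.range)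
  refine ⟨c, fun g => ?_⟩
  obtain ⟨n, hn⟩ := Subgroup.mem_zpowers_iff.mp (hc ⟨θ g, g, rfl⟩)
  have h2 : θ c ^ n = θ g := congrArg Subtype.val hn
  have h3 : theta ϖ h0 (c ^ (-n) * g) = 1 := by
    rw [← hθv, map_mul, map_zpow, zpow_neg, h2, inv_mul_cancel, Units.val_one]
  have h4 := h1 _ h3
  rw [map_mul, map_zpow, zpow_neg, inv_mul_eq_one] at h4
  exact Subgroup.mem_zpowers_iff.mpr ⟨n, h4⟩

end Main

end Fermat.Agent.RT
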