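import Fermat.Agent.RT.LocGen

set_option autoImplicit false
set_option maxHeartbeats 400000
set_option linter.style.haveILetI false
set_option linter.unusedSectionVars false
set_option linter.unusedVariables false

/-!
# Local Galois groups: Frobenius elements and generation
-/

namespace Fermat.Agent.RT

open Fermat.Agent.Coh Fermat.Agent.GalD Fermat.Agent.LocalCFT Module IntermediateField

variable {l : ℕ} [hl : Fact l.Prime]

lemma exists_mem_FF' (y : KK l) : ∃ m : ℕ, m ≠ 0 ∧ y ∈ FF' l m := by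
  obtain ⟨x, rfl⟩ := rd_surjective y
  have hint : IsIntegral ℚ_[l] (x : PadicAlgCl l) := Algebra.IsIntegral.isIntegral _
  have hfin : FiniteDimensional ℚ_[l] (ℚ_[l]⟮(x : PadicAlgCl l)⟯) :=
    adjoin.finiteDimensional hint
  set U := (ℚ_[l]⟮(x : PadicAlgCl l)⟯).fixingSubgroup with hU
  have hUo : (LF l).IsOpen U := fam_isOpen_of_finite _
  refine ⟨fdeg U, (exists_unif_fdeg hUo).1.ne', ?_⟩
  rw [← kap_eq hUo]
  refine ⟨x, mem_fld.mpr fun g hg => ?_, rfl⟩
  rw [hU, IntermediateField.mem_fixingSubgroup_iff] at hg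
  exact hg _ (mem_adjoin_simple_self _ _)

/-- closedness of the condition on the residual action -/
lemma isClosed_gbar (y z : KK l) :
    IsClosed {g : Gal(PadicAlgCl l/ℚ_[l]) | gbar g y = z} := by
  obtain ⟨x, rfl⟩ := rd_surjective y
  have hopen : IsOpen ((MulAction.stabilizer Gal(PadicAlgCl l/ℚ_[l]) (x : PadicAlgCl l)) :
      Set Gal(PadicAlgCl l/ℚ_[l])) :=
    stabilizer_isOpen_of_isIntegral (K := ℚ_[l]) (x : PadicAlgCl l)
  rw [← isOpen_compl_iff, isOpen_iff_mem_nhds]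
  intro g hg
  have h1 : (fun v => g * v) '' (MulAction.stabilizer Gal(PadicAlgCl l/ℚ_[l])
      (x : PadicAlgCl l) : Set Gal(PadicAlgCl l/ℚ_[l])) ∈ nhds g := by
    apply ((Homeomorph.mulLeft g).isOpenMap _ hopen).mem_nhds
    exact ⟨1, Subgroup.one_mem _, mul_one g⟩
  refine Filter.mem_of_superset h1 ?_
  rintro _ ⟨v, hv, rfl⟩
  intro h2
  apply hg
  change gbar g (rd x) = z
  change gbar (g * v) (rd x) = z at h2
  rw [gbar_mul, gbar_rd v] at h2
  have h3 : gOO v x = x := Subtype.ext hv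
  rw [h3] at h2
  exact h2

section Lift

variable {W : Subgroup Gal(PadicAlgCl l/ℚ_[l])} (hW : (LF l).IsOpen W)

include hW in
/-- finite level of the lifting -/
lemma exists_lift_level {m a : ℕ} (hm : m ≠ 0) (ha : fdeg W ∣ a) (hfm : fdeg W ∣ m) :
    ∃ w ∈ W, ∀ y ∈ FF' l m, gbar w y = y ^ (l ^ a) := by
  -- the subgroup of exponents
  let H : AddSubgroup ℤ :=
    { carrier := {k | ∃ w ∈ W, ((fexp hm w : ℤ) : ZMod m) = (k : ZMod m)}
      zero_mem' := ⟨1, W.one_mem, by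
        have h1 : m ∣ fexp hm (1 : Gal(PadicAlgCl l/ℚ_[l])) :=
          (dvd_fexp_iff hm 1).mpr fun y _ => gbar_one y
        rw [Int.cast_natCast, Int.cast_zero]
        exact (ZMod.natCast_eq_zero_iff _ _).mpr h1⟩
      add_mem' := by
        rintro k k' ⟨w, hw, h⟩ ⟨w', hw', h'⟩
        refine ⟨w * w', W.mul_mem hw hw', ?_⟩
        have h1 : ((fexp hm (w * w') : ℕ) : ZMod m) = ((fexp hm w + fexp hm w' : ℕ) : ZMod m) :=
          (ZMod.natCast_eq_natCast_iff _ _ _).mpr (fexp_mul hm w w')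
        rw [Int.cast_natCast, h1, Nat.cast_add, Int.cast_add, ← h, ← h', Int.cast_natCast,
          Int.cast_natCast]
      neg_mem' := by
        rintro k ⟨w, hw, h⟩
        refine ⟨w⁻¹, W.inv_mem hw, ?_⟩
        have h1 : ((fexp hm (w * w⁻¹) : ℕ) : ZMod m) = ((fexp hm w + fexp hm w⁻¹ : ℕ) : ZMod m) :=
          (ZMod.natCast_eq_natCast_iff _ _ _).mpr (fexp_mul hm w w⁻¹)
        have h2 : ((fexp hm (w * w⁻¹) : ℕ) : ZMod m) = 0 := by
          rw [mul_inv_cancel]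
          exact (ZMod.natCast_eq_zero_iff _ _).mpr ((dvd_fexp_iff hm 1).mpr fun y _ => gbar_one y)
        rw [h2, Nat.cast_add] at h1
        rw [Int.cast_natCast] at h
        rw [Int.cast_natCast, Int.cast_neg, ← h]
        exact (neg_eq_of_add_eq_zero_right h1.symm).symm }
  have hH : ∀ k, k ∈ H ↔ ∃ w ∈ W, ((fexp hm w : ℤ) : ZMod m) = (k : ZMod m) := fun k => Iff.rfl
  obtain ⟨d, hd⟩ := Int.subgroup_cyclic H
  rw [← AddSubgroup.zmultiples_eq_closure] at hd
  have hmH : (m : ℤ) ∈ H := by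
    rw [hH]
    obtain ⟨w, hw, h⟩ := (hH 0).mp H.zero_mem
    exact ⟨w, hw, by rw [h]; simp⟩
  rw [hd, Int.mem_zmultiples_iff] at hmH
  have hdm : d.natAbs ∣ m := Int.natCast_dvd_natCast.mp (Int.natAbs_dvd.mpr hmH)
  have hd0 : d.natAbs ≠ 0 := fun h => hm (by rw [h, zero_dvd_iff] at hdm; exact hdm)
  have hdW : ∀ w ∈ W, d.natAbs ∣ fexp hm w := by
    intro w hw
    have : (fexp hm w : ℤ) ∈ H := (hH _).mpr ⟨w, hw, rfl⟩
    rw [hd, Int.mem_zmultiples_iff] at this
    exact Int.natCast_dvd_natCast.mp (Int.natAbs_dvd.mpr this)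
  have h1 : FF' l d.natAbs ≤ kap W := by
    intro y hy
    refine mem_kap_of_gbar hd0 hy fun u hu => ?_
    have h2 : d.natAbs ∣ fexp hd0 u := by
      have := (fexp_congr hd0 hm hdm u).symm
      exact (Nat.modEq_zero_iff_dvd.mp (this.trans (Nat.modEq_zero_iff_dvd.mpr (hdW u hu))))
    exact (dvd_fexp_iff hd0 u).mp h2 y hy
  rw [FF'_le_kap_iff hW hd0] at h1
  have h2 : (a : ℤ) ∈ H := by
    rw [hd, Int.mem_zmultiples_iff, ← Int.natAbs_dvd]
    exact Int.natCast_dvd_natCast.mpr (h1.trans ha)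
  obtain ⟨w, hw, h3⟩ := (hH _).mp h2
  refine ⟨w, hw, fun y hy => ?_⟩
  rw [fexp_spec hm w hy]
  rw [Int.cast_natCast, Int.cast_natCast] at h3
  exact (frob_congr (l := l) hm _ _).mpr ((ZMod.natCast_eq_natCast_iff _ _ _).mp h3) y hy

include hW in
/-- **Lifting of residual automorphisms.** -/
theorem exists_lift (t : KK l → KK l)
    (ht : ∀ m, m ≠ 0 → fdeg W ∣ m → ∃ a, fdeg W ∣ a ∧ ∀ y ∈ FF' l m, t y = y ^ (l ^ a)) :
    ∃ w ∈ W, ∀ y, gbar w y = t y := by
  have hf := (exists_unif_fdeg hW).1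
  have hWo : IsOpen (W : Set Gal(PadicAlgCl l/ℚ_[l])) := by
    rw [← fixingSubgroup_fld hW]
    haveI := finiteDimensional_fld hW
    exact IntermediateField.fixingSubgroup_isOpen _
  have hWc : IsClosed (W : Set Gal(PadicAlgCl l/ℚ_[l])) := Subgroup.isClosed_of_isOpen _ hWo
  let M : ℕ → ℕ := fun n => fdeg W * n.factorial
  have hM : ∀ n, M n ≠ 0 := fun n => Nat.mul_ne_zero hf.ne' (Nat.factorial_ne_zero n)
  let C : ℕ → Set Gal(PadicAlgCl l/ℚ_[l]) := fun n =>
    (W : Set Gal(PadicAlgCl l/ℚ_[l])) ∩ ⋂ y ∈ FF' l (M n), {g | gbar g y = t y}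
  have hC : ∀ n, IsClosed (C n) := fun n => hWc.inter
    (isClosed_iInter fun y => isClosed_iInter fun _ => isClosed_gbar y _)
  have hne : (⋂ n, C n).Nonempty := by
    refine IsCompact.nonempty_iInter_of_sequence_nonempty_isCompact_isClosed C (fun n => ?_)
      (fun n => ?_) ((hC 0).isCompact) hC
    · refine Set.inter_subset_inter_right _ (Set.biInter_mono (fun y hy => ?_) fun _ _ =>
        subset_rfl)
      refine FF'_le ?_ hy
      exact mul_dvd_mul_left _ (Nat.factorial_dvd_factorial (Nat.le_succ n))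
    · obtain ⟨a, ha, hta⟩ := ht (M n) (hM n) (dvd_mul_right _ _)
      obtain ⟨w, hw, h⟩ := exists_lift_level hW (hM n) ha (dvd_mul_right _ _)
      refine ⟨w, hw, ?_⟩
      rw [Set.mem_iInter₂]
      intro y hy
      change gbar w y = t y
      rw [h y hy, hta y hy]
  obtain ⟨w, hw⟩ := hne
  rw [Set.mem_iInter] at hw
  refine ⟨w, (hw 0).1, fun y => ?_⟩
  obtain ⟨m, hm, hy⟩ := exists_mem_FF' y
  have h1 := (hw m).2
  rw [Set.mem_iInter₂] at h1
  refine h1 y (FF'_le ?_ hy)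
  exact (Nat.dvd_factorial (Nat.pos_of_ne_zero hm) le_rfl).trans (dvd_mul_left _ _)

include hW in
/-- Elements acting trivially on the residue field of `W` are in `I W`. -/
theorem exists_inertia_mul {g : Gal(PadicAlgCl l/ℚ_[l])} (hg : ∀ y ∈ kap W, gbar g y = y) :
    ∃ s ∈ Il l, ∃ w ∈ W, g = s * w := by
  have hf := (exists_unif_fdeg hW).1
  obtain ⟨w, hw, h⟩ := exists_lift hW (gbar g) (fun m hm hfm => by
    refine ⟨fexp hm g, ?_, fun y hy => fexp_spec hm g hy⟩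
    have h1 : fdeg W ∣ fexp hf.ne' g := (dvd_fexp_iff hf.ne' g).mpr fun y hy => hg y (by
      rw [kap_eq hW]; exact hy)
    exact Nat.modEq_zero_iff_dvd.mp ((fexp_congr hf.ne' hm hfm g).trans
      (Nat.modEq_zero_iff_dvd.mpr h1)))
  refine ⟨g * w⁻¹, ?_, w, hw, by group⟩
  intro y
  have h1 : gbar w (gbar w⁻¹ y) = y := by rw [← gbar_mul, mul_inv_cancel, gbar_one]
  rw [gbar_mul, ← h, h1]

end Lift

/-- Frobenius elements. -/
def IsFrobL (φ : Gal(PadicAlgCl l/ℚ_[l])) : Prop := ∀ y : KK l, gbar φ y = y ^ l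

lemma fdeg_top : fdeg (⊤ : Subgroup Gal(PadicAlgCl l/ℚ_[l])) = 1 := by
  have hT : (LF l).IsOpen (⊤ : Subgroup Gal(PadicAlgCl l/ℚ_[l])) := (LF l).isOpen_top
  have h1 := (exists_unif_fdeg hT).2.2 (toFF l_mem_fld l_ne_zero)
  rw [VU_l hT, Subgroup.index_top] at h1
  exact Nat.dvd_one.mp (Int.natCast_dvd_natCast.mp h1)

variable (l) in
theorem exists_isFrobL : ∃ φ : Gal(PadicAlgCl l/ℚ_[l]), IsFrobL φ := by
  obtain ⟨w, -, h⟩ := exists_lift ((LF l).isOpen_top) (fun y : KK l => y ^ l)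
    (fun m hm hfm => ⟨1, by rw [fdeg_top], fun y _ => by rw [pow_one]⟩)
  exact ⟨w, h⟩

section Gen

variable {G : Type*} [Group G] {p : ℕ} (hp : p.Prime) (hpl : p ≠ l)

/-- The relation between Frobenius and inertia. -/
theorem frob_tame {h : Gal(PadicAlgCl l/ℚ_[l]) →* G} {W : Subgroup Gal(PadicAlgCl l/ℚ_[l])}
    (hp : p.Prime) (hpl : p ≠ l) (hW : (LF l).IsOpen W) (hhW : ∀ g ∈ W, h g = 1)
    (hpp : ∀ g ∈ Il l, ∃ n, h g ^ p ^ n = 1) {φ τ : Gal(PadicAlgCl l/ℚ_[l])} (hφ : IsFrobL φ)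
    (hτ : τ ∈ Il l) : h (φ * τ * φ⁻¹) = h τ ^ l := by
  obtain ⟨ϖ, h0, h1, -⟩ := exists_theta hp hpl (h.comp (Il l).subtype) hW
    (fun g hg => hhW _ hg) (fun g => hpp _ g.2)
  set a : Il l := ⟨φ * τ * φ⁻¹, conj_mem_Il hτ φ⟩ with ha
  set b : Il l := ⟨τ, hτ⟩ with hb
  have h2 : theta ϖ h0 a = theta ϖ h0 b ^ l := by
    rw [theta_apply, theta_apply]
    have e1 : (a : Gal(PadicAlgCl l/ℚ_[l])) = φ * (τ * φ⁻¹) := by rw [ha, ← mul_assoc]
    rw [e1, quo_mul, quo_mul]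
    have e2 : rd (gOO φ (gOO τ (quo ϖ h0 φ⁻¹) * quo ϖ h0 τ) * quo ϖ h0 φ) =
        gbar φ (gbar τ (rd (quo ϖ h0 φ⁻¹)) * rd (quo ϖ h0 τ)) * rd (quo ϖ h0 φ) := by
      rw [gbar_rd τ, ← map_mul (IsLocalRing.residue (OO l)), gbar_rd φ,
        ← map_mul (IsLocalRing.residue (OO l))]
    rw [e2, hτ, map_mul, hφ (rd (quo ϖ h0 τ))]
    have e3 : gbar φ (rd (quo ϖ h0 φ⁻¹)) * rd (quo ϖ h0 φ) = 1 := by
      rw [gbar_rd, ← map_mul (IsLocalRing.residue (OO l)), ← quo_mul, mul_inv_cancel]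
      have : quo ϖ h0 (1 : Gal(PadicAlgCl l/ℚ_[l])) = 1 := Subtype.ext (div_self h0)
      rw [this, map_one]
    have e4 : gbar φ (rd (quo ϖ h0 φ⁻¹)) * rd (quo ϖ h0 τ) ^ l * rd (quo ϖ h0 φ) =
        rd (quo ϖ h0 τ) ^ l * (gbar φ (rd (quo ϖ h0 φ⁻¹)) * rd (quo ϖ h0 φ)) := by ring
    rw [e4, e3, mul_one]
  have hb0 : theta ϖ h0 (b ^ l) ≠ 0 := by
    intro h3
    have h4 : theta ϖ h0 ((b ^ l) * (b ^ l)⁻¹) = 1 := by rw [mul_inv_cancel, map_one]
    rw [map_mul, h3, zero_mul] at h4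
    exact zero_ne_one h4
  have h3 : theta ϖ h0 (a * (b ^ l)⁻¹) = 1 := by
    have h4 : theta ϖ h0 (a * (b ^ l)⁻¹) * theta ϖ h0 (b ^ l) = theta ϖ h0 (b ^ l) := by
      rw [← map_mul, inv_mul_cancel_right, h2, map_pow]
    exact mul_right_cancel₀ hb0 (h4.trans (one_mul _).symm)
  have h4 := h1 _ h3
  rw [map_mul, map_inv, mul_inv_eq_one, map_pow] at h4
  exact h4

/-- The elements of the local Galois group are products of powers of Frobenius, inertia and
small elements. -/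
theorem exists_frob_mul {W : Subgroup Gal(PadicAlgCl l/ℚ_[l])} (hW : (LF l).IsOpen W)
    {φ : Gal(PadicAlgCl l/ℚ_[l])} (hφ : IsFrobL φ) (g : Gal(PadicAlgCl l/ℚ_[l])) :
    ∃ n : ℕ, ∃ s ∈ Il l, ∃ w ∈ W, g = φ ^ n * s * w := by
  have hf := (exists_unif_fdeg hW).1
  have hφn : ∀ (n : ℕ) (y : KK l), gbar (φ ^ n) y = y ^ (l ^ n) := by
    intro n
    induction n with
    | zero => intro y; rw [pow_zero, pow_zero, pow_one, gbar_one]
    | succ n ih => intro y; rw [pow_succ, gbar_mul, hφ, ih, ← pow_mul, pow_succ']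
  obtain ⟨s, hs, w, hw, h⟩ := exists_inertia_mul hW (g := (φ ^ fexp hf.ne' g)⁻¹ * g) (fun y hy => by
    rw [kap_eq hW] at hy
    rw [gbar_mul, fexp_spec hf.ne' g hy, ← hφn, ← gbar_mul, inv_mul_cancel, gbar_one])
  refine ⟨fexp hf.ne' g, s, hs, w, hw, ?_⟩
  rw [mul_assoc, ← h, mul_inv_cancel_left]

/-- elements fixed by inertia have integral valuation -/
lemma exists_theta_ne_one (hp : p.Prime) (hpl : p ≠ l) {x : PadicAlgCl l} (h0 : x ≠ 0)
    (hx : x ^ p = (l : PadicAlgCl l)) : ∃ τ : Il l, theta x h0 τ ≠ 1 := by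
  by_contra hall
  push Not at hall
  -- inertia fixes `x`
  have hfix : ∀ τ ∈ Il l, τ x = x := by
    intro τ hτ
    have h1 := hall ⟨τ, hτ⟩
    rw [theta_apply] at h1
    have h2 : τ x / x = 1 := by
      apply eq_one_of_pow (l := l) (N := p) ((Nat.coprime_primes hp hl.out).mpr hpl)
      · rw [div_pow, ← map_pow, hx, map_natCast, div_self l_ne_zero]
      · have h3 : rd (quo x h0 τ) = rd 1 := h1.trans (map_one _).symm
        rw [rd_eq_iff] at h3
        exact h3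
    exact (div_eq_one_iff_eq h0).mp h2
  -- the level of `x`
  have hint : IsIntegral ℚ_[l] x := Algebra.IsIntegral.isIntegral _
  have hfin : FiniteDimensional ℚ_[l] (ℚ_[l]⟮x⟯) := adjoin.finiteDimensional hint
  obtain ⟨W, hWF, hWx⟩ := fam_isOpen_of_finite ℚ_[l]⟮x⟯
  have hW : (LF l).IsOpen W := Fam.isOpen_of_mem hWF
  have hn : W.Normal := (LF l).normal W hWF
  have hxW : ∀ w ∈ W, w x = x := fun w hw => by
    have := hWx hw
    rw [IntermediateField.mem_fixingSubgroup_iff] at this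
    exact this _ (mem_adjoin_simple_self _ _)
  have hf := (exists_unif_fdeg hW).1
  -- the group `I W`
  set V : Subgroup Gal(PadicAlgCl l/ℚ_[l]) := Il l ⊔ W with hV
  have hVo : (LF l).IsOpen V := hW.mono le_sup_right
  have hVi : ∀ g, g ∈ V ↔ ∀ y ∈ kap W, gbar g y = y := by
    intro g
    constructor
    · intro hg
      have : V ≤ ({ carrier := {g | ∀ y ∈ kap W, gbar g y = y}
                    one_mem' := fun y _ => gbar_one y
                    mul_mem' := fun {a b} ha hb y hy => by rw [gbar_mul, hb y hy, ha y hy]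
                    inv_mem' := fun {a} ha y hy => by
                      have h1 : gbar a⁻¹ (gbar a y) = y := by
                        rw [← gbar_mul, inv_mul_cancel, gbar_one]
                      rwa [ha y hy] at h1 } : Subgroup Gal(PadicAlgCl l/ℚ_[l])) :=
        sup_le (fun s hs y _ => hs y) (fun w hw y hy => gbar_of_mem_kap hw hy)
      exact this hg
    · intro hg
      obtain ⟨s, hs, w, hw, rfl⟩ := exists_inertia_mul hW hg
      exact V.mul_mem (Subgroup.mem_sup_left hs) (Subgroup.mem_sup_right hw)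
  have hxV : x ∈ fld V := by
    rw [mem_fld]
    intro g hg
    have : V ≤ MulAction.stabilizer Gal(PadicAlgCl l/ℚ_[l]) x :=
      sup_le (fun s hs => hfix s hs) (fun w hw => hxW w hw)
    exact this hg
  -- the residue degree of `V`
  have hkap : fdeg W ∣ fdeg V := by
    rw [← FF'_le_kap_iff hVo hf.ne']
    intro y hy
    rw [← kap_eq hW] at hy
    refine mem_kap_of_gbar hf.ne' (by rw [← kap_eq hW]; exact hy) fun u hu =>
      (hVi u).mp hu y hy
  -- the index of `V`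
  have hidx : V.index ≤ fdeg W := by
    have hfiV : V.FiniteIndex := hVo.finiteIndex
    haveI : NeZero (fdeg W) := ⟨hf.ne'⟩
    have : Function.Injective (fun q : Gal(PadicAlgCl l/ℚ_[l]) ⧸ V =>
        ((fexp hf.ne' q.out : ℕ) : ZMod (fdeg W))) := by
      intro q q' hqq
      have h1 := (ZMod.natCast_eq_natCast_iff _ _ _).mp hqq
      rw [← Quotient.out_eq q, ← Quotient.out_eq q']
      refine QuotientGroup.eq.mpr ?_
      rw [hVi]
      intro y hy
      rw [kap_eq hW] at hy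
      have h2 : gbar (Quotient.out q') y = gbar (Quotient.out q) y := by
        rw [fexp_spec hf.ne' _ hy, fexp_spec hf.ne' _ hy]
        exact ((frob_congr (l := l) hf.ne' _ _).mpr h1 y hy).symm
      rw [gbar_mul, h2, ← gbar_mul, inv_mul_cancel, gbar_one]
    have h1 := Nat.card_le_card_of_injective _ this
    rw [Nat.card_zmod] at h1
    exact h1
  -- the valuation of `x`
  obtain ⟨hfV, -, hdiv⟩ := exists_unif_fdeg hVo
  obtain ⟨k, hk⟩ := hdiv (toFF hxV h0)
  have h1 : VU hVo (toFF l_mem_fld l_ne_zero) = p * VU hVo (toFF hxV h0) := by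
    have h2 : (toFF l_mem_fld l_ne_zero : ↥(FF (LU l) V)) = p • toFF hxV h0 := by
      apply Subtype.ext
      apply uval_injective
      change (l : PadicAlgCl l) = uval (p • (toFF hxV h0 : Additive (PadicAlgCl l)ˣ))
      rw [uval_nsmul, uval_toFF, hx]
    rw [h2, ← VUhom_apply, ← VUhom_apply, map_nsmul, nsmul_eq_mul]
  rw [VU_l hVo, hk] at h1
  obtain ⟨c, hc⟩ := hkap
  have hp2 := hp.two_le
  have h3 : (V.index : ℤ) = p * (fdeg W * c) * k := by rw [h1, hc]; push_cast; ring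
  have hi := index_pos hVo
  have hk0 : 0 < k := by
    by_contra hk0
    push Not at hk0
    have : (p : ℤ) * (fdeg W * c) * k ≤ 0 := mul_nonpos_of_nonneg_of_nonpos (by positivity) hk0
    omega
  have hc0 : 0 < c := by
    rcases Nat.eq_zero_or_pos c with h | h
    · rw [h, mul_zero] at hc; omega
    · exact h
  have h4 : (2 : ℤ) * fdeg W ≤ V.index := by
    rw [h3]
    have e1 : (1 : ℤ) ≤ c := by exact_mod_cast hc0
    have e2 : (2 : ℤ) ≤ p := by exact_mod_cast hp2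
    have e3 : (1 : ℤ) ≤ fdeg W := by exact_mod_cast hf
    calc (2 : ℤ) * fdeg W = 2 * (fdeg W * 1) * 1 := by ring
      _ ≤ p * (fdeg W * c) * k := by gcongr; omega
  omega

variable (l) in
/-- **Tame generation.** -/
theorem exists_tame_gen (hp : p.Prime) (hpl : p ≠ l) :
    ∃ τ ∈ Il l, ∀ (G : Type) [Group G] (h : Gal(PadicAlgCl l/ℚ_[l]) →* G)
      (W : Subgroup Gal(PadicAlgCl l/ℚ_[l])), (LF l).IsOpen W → (∀ g ∈ W, h g = 1) →
      (∀ g ∈ Il l, ∃ n, h g ^ p ^ n = 1) → ∀ g ∈ Il l, h g ∈ Subgroup.zpowers (h τ) := by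
  obtain ⟨x, hx⟩ := IsAlgClosed.exists_pow_nat_eq (l : PadicAlgCl l) hp.pos
  have h0 : x ≠ 0 := by
    rintro rfl
    rw [zero_pow hp.ne_zero] at hx
    exact l_ne_zero hx.symm
  obtain ⟨τ, hτ⟩ := exists_theta_ne_one hp hpl h0 hx
  refine ⟨τ, τ.2, fun G _ h W hW hhW hpp g hg => ?_⟩
  set θ : Il l →* (KK l)ˣ := (theta x h0).toHomUnits with hθ
  have hθv : ∀ g, ((θ g : (KK l)ˣ) : KK l) = theta x h0 g := fun g => rfl
  have hθp : ∀ g, θ g ^ p = 1 := by
    intro g
    apply Units.ext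
    rw [Units.val_pow_eq_pow_val, hθv, ← theta_pow h0, Units.val_one]
    rw [theta_apply]
    have : quo (x ^ p) (pow_ne_zero p h0) (g : Gal(PadicAlgCl l/ℚ_[l])) = 1 := by
      apply Subtype.ext
      change (g : Gal(PadicAlgCl l/ℚ_[l])) (x ^ p) / x ^ p = 1
      rw [hx, map_natCast, div_self l_ne_zero]
    rw [this]; exact map_one _
  -- the stabiliser of `x`
  have hint : IsIntegral ℚ_[l] x := Algebra.IsIntegral.isIntegral _
  have hfin : FiniteDimensional ℚ_[l] (ℚ_[l]⟮x⟯) := adjoin.finiteDimensional hint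
  have hWx : (LF l).IsOpen (ℚ_[l]⟮x⟯).fixingSubgroup := fam_isOpen_of_finite ℚ_[l]⟮x⟯
  let H : Il l →* G × (KK l)ˣ := (h.comp (Il l).subtype).prod θ
  obtain ⟨c, hc⟩ := exists_gen (l := l) hp hpl H (W := W ⊓ (ℚ_[l]⟮x⟯).fixingSubgroup)
    (hW.inf hWx) (fun g hg => by
      refine Prod.ext (hhW _ hg.1) ?_
      apply Units.ext
      change theta x h0 g = 1
      rw [theta_apply]
      have h1 : (g : Gal(PadicAlgCl l/ℚ_[l])) x = x := by
        have h2 : (g : Gal(PadicAlgCl l/ℚ_[l])) ∈ (ℚ_[l]⟮x⟯).fixingSubgroup := hg.2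
        rw [IntermediateField.mem_fixingSubgroup_iff] at h2
        exact h2 _ (mem_adjoin_simple_self _ _)
      have : quo x h0 (g : Gal(PadicAlgCl l/ℚ_[l])) = 1 := by
        apply Subtype.ext
        change (g : Gal(PadicAlgCl l/ℚ_[l])) x / x = 1
        rw [h1, div_self h0]
      rw [this]; exact map_one _)
    (fun g => by
      obtain ⟨n, hn⟩ := hpp g g.2
      refine ⟨n + 1, Prod.ext ?_ ?_⟩
      · change h g ^ p ^ (n + 1) = 1
        rw [pow_succ, pow_mul, hn, one_pow]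
      · change θ g ^ p ^ (n + 1) = 1
        rw [pow_succ', pow_mul, hθp, one_pow])
  obtain ⟨n, hn⟩ := Subgroup.mem_zpowers_iff.mp (hc τ)
  have hnp : ¬ (p : ℤ) ∣ n := by
    rintro ⟨k, rfl⟩
    apply hτ
    have h1 : θ c ^ ((p : ℤ) * k) = θ τ := congrArg Prod.snd hn
    rw [← hθv, ← h1, zpow_mul, zpow_natCast, hθp, one_zpow, Units.val_one]
  -- `h c` is a power of `h τ`
  obtain ⟨N, hN⟩ := hpp c c.2
  have hcop : IsCoprime ((p : ℤ) ^ N) n := by
    apply IsCoprime.pow_left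
    exact (Nat.prime_iff_prime_int.mp hp).coprime_iff_not_dvd.mpr hnp
  obtain ⟨a, b, hab⟩ := hcop
  have h2 : h c ^ n = h τ := congrArg Prod.fst hn
  have h3 : h c = h τ ^ b := by
    have h4 : (h c) ^ (a * (p : ℤ) ^ N + b * n) = h c := by rw [hab, zpow_one]
    rw [zpow_add, mul_comm a, zpow_mul, mul_comm b, zpow_mul, h2] at h4
    have h5 : (h c) ^ ((p : ℤ) ^ N) = 1 := by
      rw [← hN, ← zpow_natCast]; push_cast; rfl
    rw [h5, one_zpow, one_mul] at h4
    exact h4.symm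
  obtain ⟨k, hk⟩ := Subgroup.mem_zpowers_iff.mp (hc ⟨g, hg⟩)
  have h6 : h c ^ k = h g := congrArg Prod.fst hk
  rw [← h6, h3]
  exact Subgroup.zpow_mem _ (Subgroup.zpow_mem _ (Subgroup.mem_zpowers _) _) _

end Gen

end Fermat.Agent.RT
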