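import Fermat.Agent.RT.ChiMain
import Fermat.Agent.RT.MatrixForm

set_option autoImplicit false
set_option maxHeartbeats 400000
set_option linter.style.haveILetI false
set_option linter.unusedSectionVars false
set_option linter.unusedVariables false

/-!
# The lowering theorem (Ihara avoidance), commutative algebra part
-/

open IsLocalRing MvPowerSeries

namespace Fermat.Agent.RT

section Minimal

variable {S P : Type*} [CommRing S] [CommRing P] {d : ℕ} (B : P →+* Matrix (Fin d) (Fin d) S)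

theorem minimalPrimes_facts [IsDomain S] [IsNoetherianRing P] (β : S →+* P)
    (hβ : ∀ s, B (β s) = Matrix.scalar (Fin d) s) {𝔮 : Ideal P}
    (h𝔮 : 𝔮 ∈ (RingHom.ker B).minimalPrimes) :
    𝔮.comap β = ⊥ ∧ ringKrullDim S ≤ ringKrullDim (P ⧸ 𝔮) := by
  letI := β.toAlgebra
  haveI := isScalarTower_PMod B β hβ
  rw [← annihilator_PMod] at h𝔮
  exact ⟨comap_eq_bot_of_mem_minimalPrimes (S := S) (M := PMod B) (torsionFree_PMod B) h𝔮,
    le_ringKrullDim_quotient (S := S) (M := PMod B) (torsionFree_PMod B) h𝔮⟩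

theorem ker_ne_top [Nontrivial S] (hd : 0 < d) : RingHom.ker B ≠ ⊤ := by
  haveI : Nonempty (Fin d) := ⟨⟨0, hd⟩⟩
  intro h
  have h1 : (1 : P) ∈ RingHom.ker B := by rw [h]; exact Submodule.mem_top
  rw [RingHom.mem_ker, map_one] at h1
  exact one_ne_zero h1

end Minimal

section Inc

variable {𝒪 : Type*} [CommRing 𝒪] [IsLocalRing 𝒪] [IsAdicComplete (maximalIdeal 𝒪) 𝒪]
  {ι' : Type*} [Fintype ι']

variable (𝒪 ι') in
/-- The inclusion of the power series ring in the other variables. -/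
noncomputable def inc : MvPowerSeries ι' 𝒪 →+* MvPowerSeries (ι' ⊕ LIx) 𝒪 :=
  evalHom (maximalIdeal _) C (fun i => X (Sum.inl i)) (fun i => X_mem_maximalIdeal' _)

@[simp] lemma inc_C (b : 𝒪) : inc 𝒪 ι' (C b) = C b := by rw [inc, evalHom_C]

@[simp] lemma inc_X (i : ι') : inc 𝒪 ι' (X i) = X (Sum.inl i) := by rw [inc, evalHom_X]

lemma inc_mem {F : MvPowerSeries ι' 𝒪} (hF : F ∈ maximalIdeal (MvPowerSeries ι' 𝒪)) :
    inc 𝒪 ι' F ∈ maximalIdeal (MvPowerSeries (ι' ⊕ LIx) 𝒪) :=
  map_maximalIdeal_le (fun b hb => by rw [inc_C]; exact C_mem_maximalIdeal hb)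
    (fun i => by rw [inc_X]; exact X_mem_maximalIdeal' _) hF

/-- Quotients of complete local noetherian rings. -/
lemma isLocalRing_quotient {R : Type*} [CommRing R] [IsLocalRing R] {I : Ideal R} (hI : I ≠ ⊤) :
    IsLocalRing (R ⧸ I) := by
  haveI : Nontrivial (R ⧸ I) := Ideal.Quotient.nontrivial_iff.mpr hI
  exact IsLocalRing.of_surjective' (Ideal.Quotient.mk I) Ideal.Quotient.mk_surjective

lemma isAdicComplete_quotient {R : Type*} [CommRing R] [IsLocalRing R] [IsNoetherianRing R]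
    [IsAdicComplete (maximalIdeal R) R] {I : Ideal R} [IsLocalRing (R ⧸ I)] :
    IsAdicComplete (maximalIdeal (R ⧸ I)) (R ⧸ I) := by
  haveI : IsLocalHom (algebraMap R (R ⧸ I)) := IsLocalHom.of_surjective _ Ideal.Quotient.mk_surjective
  exact IsLocalRing.isAdicComplete_of_module_finite (𝒪 := R)

lemma mk_mem_maximalIdeal' {R : Type*} [CommRing R] [IsLocalRing R] {I : Ideal R}
    [IsLocalRing (R ⧸ I)] {x : R} (hx : x ∈ maximalIdeal R) :
    Ideal.Quotient.mk I x ∈ maximalIdeal (R ⧸ I) := by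
  haveI : IsLocalHom (Ideal.Quotient.mk I) := IsLocalHom.of_surjective _ Ideal.Quotient.mk_surjective
  intro hu
  exact hx ((isUnit_map_iff (Ideal.Quotient.mk I) x).mp hu)

end Inc

section Rel

variable {𝒪 : Type*} [CommRing 𝒪] [IsLocalRing 𝒪] (k : ChiConst 𝒪) {ι' : Type*} [Fintype ι']

/-- The relations of unipotent type. -/
structure UniRel {A : Type*} [CommRing A] (π : MvPowerSeries (ι' ⊕ LIx) 𝒪 →+* A) : Prop where
  tr : (matOf π true).trace = 2
  det : (matOf π true).det = 1
  comm : matOf π false * (matOf π true - 1) = π (C k.q) • ((matOf π true - 1) * matOf π false)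
  detF : (matOf π false).det = π (C k.q)

lemma matOf_comp {A A' : Type*} [CommRing A] [CommRing A'] (f : A →+* A')
    (π : MvPowerSeries (ι' ⊕ LIx) 𝒪 →+* A) (s : Bool) :
    matOf (f.comp π) s = (matOf π s).map f := by
  rw [← matP_map, ← matP_map, Matrix.map_map]; rfl

lemma ChiRel.map {A A' : Type*} [CommRing A] [CommRing A'] (f : A →+* A')
    {π : MvPowerSeries (ι' ⊕ LIx) 𝒪 →+* A} (h : ChiRel k π) : ChiRel k (f.comp π) := by
  refine ⟨?_, ?_, ?_, ?_⟩
  · have := congrArg f h.tr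
    rw [map_add] at this
    rw [matOf_comp, Matrix.trace_fin_two, Matrix.map_apply, Matrix.map_apply, ← map_add,
      ← Matrix.trace_fin_two]
    exact this
  · rw [matOf_comp, ← RingHom.mapMatrix_apply, ← RingHom.map_det, h.det, map_one]
  · rw [matOf_comp, matOf_comp, ← Matrix.map_mul, ← Matrix.map_mul, h.comm]
  · rw [matOf_comp, ← RingHom.mapMatrix_apply, ← RingHom.map_det, h.detF]; rfl

lemma UniRel.map {A A' : Type*} [CommRing A] [CommRing A'] (f : A →+* A')
    {π : MvPowerSeries (ι' ⊕ LIx) 𝒪 →+* A} (h : UniRel k π) : UniRel k (f.comp π) := by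
  have h1 : (matOf (f.comp π) true - 1) = (matOf π true - 1).map f := by
    rw [matOf_comp, ← RingHom.mapMatrix_apply, ← RingHom.mapMatrix_apply, map_sub, map_one]
  refine ⟨?_, ?_, ?_, ?_⟩
  · have := congrArg f h.tr
    rw [map_ofNat] at this
    rw [matOf_comp, Matrix.trace_fin_two, Matrix.map_apply, Matrix.map_apply, ← map_add,
      ← Matrix.trace_fin_two]
    exact this
  · rw [matOf_comp, ← RingHom.mapMatrix_apply, ← RingHom.map_det, h.det, map_one]
  · rw [h1, matOf_comp, ← Matrix.map_mul, ← Matrix.map_mul, h.comm]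
    ext a b
    rw [Matrix.map_apply, Matrix.smul_apply, Matrix.smul_apply, smul_eq_mul, smul_eq_mul, map_mul]
    rfl
  · rw [matOf_comp, ← RingHom.mapMatrix_apply, ← RingHom.map_det, h.detF]; rfl

/-- In a domain, a ramified point of unipotent type has Frobenius trace `±(q+1)`. -/
lemma UniRel.trace_sq {A : Type*} [CommRing A] [IsDomain A] {π : MvPowerSeries (ι' ⊕ LIx) 𝒪 →+* A}
    (h : UniRel k π) (hq0 : π (C k.q) ≠ 0) (hq1 : π (C k.q) ≠ 1)
    (hN : matOf π true - 1 ≠ 0) : (matOf π false).trace ^ 2 = (π (C k.q) + 1) ^ 2 := by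
  set N := matOf π true - 1 with hNdef
  set Φ := matOf π false with hΦ
  set q := π (C k.q) with hq
  set t := Φ.trace with ht
  have h1 : Φ 0 0 * Φ 1 1 - Φ 0 1 * Φ 1 0 = q := by
    have := h.detF
    rw [Matrix.det_fin_two] at this
    exact this
  have hCH : Φ * Φ = t • Φ - q • (1 : Matrix (Fin 2) (Fin 2) A) := by
    ext a b
    fin_cases a <;> fin_cases b <;>
      simp [Matrix.mul_apply, Fin.sum_univ_two, ht, Matrix.trace_fin_two]
    · linear_combination -h1
    · ring
    · ring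
    · linear_combination -h1
  have hc := h.comm
  have h2 : Φ * Φ * N = (q ^ 2) • (N * (Φ * Φ)) := by
    calc Φ * Φ * N = Φ * (Φ * N) := by rw [mul_assoc]
      _ = Φ * (q • (N * Φ)) := by rw [hc]
      _ = q • (Φ * N * Φ) := by rw [Matrix.mul_smul, mul_assoc]
      _ = q • (q • (N * Φ) * Φ) := by rw [hc]
      _ = (q ^ 2) • (N * (Φ * Φ)) := by
        rw [Matrix.smul_mul, smul_smul, mul_assoc, sq]
  rw [hCH] at h2
  have h3 : (q * (1 - q)) • (N * (t • Φ - (1 + q) • (1 : Matrix (Fin 2) (Fin 2) A))) = 0 := by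
    have h4 : t • (q • (N * Φ)) - q • N = (q ^ 2) • (t • (N * Φ) - q • N) := by
      have h5 : (t • Φ - q • (1 : Matrix (Fin 2) (Fin 2) A)) * N = t • (q • (N * Φ)) - q • N := by
        rw [sub_mul, Matrix.smul_mul, Matrix.smul_mul, one_mul, hc]
      have h6 : N * (t • Φ - q • (1 : Matrix (Fin 2) (Fin 2) A)) = t • (N * Φ) - q • N := by
        rw [mul_sub, Matrix.mul_smul, Matrix.mul_smul, mul_one]
      rw [← h5, h2, h6]
    have h7 : N * (t • Φ - (1 + q) • (1 : Matrix (Fin 2) (Fin 2) A)) =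
        t • (N * Φ) - (1 + q) • N := by
      rw [mul_sub, Matrix.mul_smul, Matrix.mul_smul, mul_one]
    rw [h7]
    ext a b
    have h8 := congrFun (congrFun h4 a) b
    simp only [Matrix.sub_apply, Matrix.smul_apply, smul_eq_mul, Matrix.zero_apply] at h8 ⊢
    linear_combination h8
  have h9 : N * (t • Φ - (1 + q) • (1 : Matrix (Fin 2) (Fin 2) A)) = 0 := by
    rcases smul_eq_zero.mp h3 with h | h
    · exfalso
      rcases mul_eq_zero.mp h with h | h
      · exact hq0 h
      · exact hq1 (sub_eq_zero.mp h).symm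
    · exact h
  have h10 : (t • Φ - (1 + q) • (1 : Matrix (Fin 2) (Fin 2) A)).det = 0 := by
    by_contra hne
    apply hN
    have h11 : N * ((t • Φ - (1 + q) • (1 : Matrix (Fin 2) (Fin 2) A)) *
        (t • Φ - (1 + q) • (1 : Matrix (Fin 2) (Fin 2) A)).adjugate) = 0 := by
      rw [← mul_assoc, h9, zero_mul]
    rw [Matrix.mul_adjugate, Matrix.mul_smul, mul_one] at h11
    exact (smul_eq_zero.mp h11).resolve_left hne
  rw [Matrix.det_fin_two] at h10
  simp only [Matrix.sub_apply, Matrix.smul_apply, smul_eq_mul, Matrix.one_apply_eq] at h10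
  rw [Matrix.one_apply_ne (by decide), Matrix.one_apply_ne (by decide)] at h10
  have h12 : t = Φ 0 0 + Φ 1 1 := by rw [ht, Matrix.trace_fin_two]
  linear_combination -h10 + t ^ 2 * h1 + (1 + q) * t * h12

end Rel

end Fermat.Agent.RT
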