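import Fermat.Agent.RT.LocField
import Fermat.Agent.RT.Lowering

set_option autoImplicit false
set_option maxHeartbeats 400000
set_option linter.style.haveILetI false
set_option linter.unusedSectionVars false
set_option linter.unusedVariables false

/-!
# Local types
-/

open IsLocalRing MvPowerSeries

namespace Fermat.Agent.RT

/-- A local type with `c` parameters: variables, relations, and parameters. -/
structure LocType (𝒪 : Type) [CommRing 𝒪] [IsLocalRing 𝒪] (c : ℕ) where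
  /-- The variables. -/
  ι : Type
  [fin : Fintype ι]
  /-- The relations. -/
  Rel : Set (MvPowerSeries ι 𝒪)
  /-- The parameters. -/
  θ : Fin c → MvPowerSeries ι 𝒪
  hθ : ∀ a, θ a ∈ maximalIdeal (MvPowerSeries ι 𝒪)
  hfin : ∀ 𝔱 : Ideal (MvPowerSeries ι 𝒪), 𝔱.IsPrime → (∀ b ∈ maximalIdeal 𝒪, C b ∈ 𝔱) →
    Rel ⊆ 𝔱 → (∀ a, θ a ∈ 𝔱) → maximalIdeal (MvPowerSeries ι 𝒪) ≤ 𝔱

attribute [instance] LocType.fin

section Gen

variable {𝒪 : Type} [CommRing 𝒪] [IsLocalRing 𝒪]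

lemma maximalIdeal_le_of_X {ι : Type} [Fintype ι] {𝔱 : Ideal (MvPowerSeries ι 𝒪)}
    (hC : ∀ b ∈ maximalIdeal 𝒪, C b ∈ 𝔱) (hX : ∀ i, X i ∈ 𝔱) :
    maximalIdeal (MvPowerSeries ι 𝒪) ≤ 𝔱 := fun F hF =>
  map_maximalIdeal_le (ψ := RingHom.id _) (I := 𝔱) (fun b hb => hC b hb) (fun i => hX i) hF

variable (𝒪) in
/-- The type without relations. -/
noncomputable def LocType.free (c : ℕ) : LocType 𝒪 c where
  ι := Fin c
  Rel := ∅
  θ a := X a
  hθ a := X_mem_maximalIdeal' _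
  hfin _ _ hC _ hX := maximalIdeal_le_of_X hC hX

variable (𝒪) in
/-- The ordinary type at `p`: five variables `c, t, z₁, z₂, z₃` and the relation `t z₃ = 0`. -/
noncomputable def LocType.ord : LocType 𝒪 4 where
  ι := Fin 5
  Rel := {X 1 * X 4}
  θ := ![X 0, X 2, X 3, X 1 + X 4]
  hθ a := by
    fin_cases a
    · exact X_mem_maximalIdeal' _
    · exact X_mem_maximalIdeal' _
    · exact X_mem_maximalIdeal' _
    · exact Ideal.add_mem _ (X_mem_maximalIdeal' _) (X_mem_maximalIdeal' _)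
  hfin 𝔱 h𝔱 hC hR hX := by
    have h0 : (X 0 : MvPowerSeries (Fin 5) 𝒪) ∈ 𝔱 := hX 0
    have h2 : (X 2 : MvPowerSeries (Fin 5) 𝒪) ∈ 𝔱 := hX 1
    have h3 : (X 3 : MvPowerSeries (Fin 5) 𝒪) ∈ 𝔱 := hX 2
    have h14 : (X 1 + X 4 : MvPowerSeries (Fin 5) 𝒪) ∈ 𝔱 := hX 3
    have hr : (X 1 * X 4 : MvPowerSeries (Fin 5) 𝒪) ∈ 𝔱 := hR rfl
    have h1 : (X 1 : MvPowerSeries (Fin 5) 𝒪) ∈ 𝔱 := by
      rcases h𝔱.mem_or_mem hr with h | h
      · exact h
      · have : (X 1 : MvPowerSeries (Fin 5) 𝒪) = (X 1 + X 4) - X 4 := by ring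
        rw [this]
        exact Ideal.sub_mem _ h14 h
    have h4 : (X 4 : MvPowerSeries (Fin 5) 𝒪) ∈ 𝔱 := by
      have : (X 4 : MvPowerSeries (Fin 5) 𝒪) = (X 1 + X 4) - X 1 := by ring
      rw [this]
      exact Ideal.sub_mem _ h14 h1
    refine maximalIdeal_le_of_X hC fun i => ?_
    fin_cases i <;> assumption

/-- The universal matrices with given constant terms. -/
noncomputable def stMat (M : Bool → Matrix (Fin 2) (Fin 2) 𝒪) (s : Bool) :
    Matrix (Fin 2) (Fin 2) (MvPowerSeries LIx 𝒪) := (M s).map C + xMat X s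

/-- The relations of Steinberg type. -/
def stRel (M : Bool → Matrix (Fin 2) (Fin 2) 𝒪) (q : 𝒪) : Set (MvPowerSeries LIx 𝒪) :=
  {(stMat M true).trace, (stMat M true).det, (stMat M false).det - C q,
    (stMat M false).trace ^ 2 - (C q + 1) ^ 2} ∪
  Set.range fun ij : Fin 2 × Fin 2 => (stMat M false * stMat M true -
    (C q : MvPowerSeries LIx 𝒪) • (stMat M true * stMat M false)) ij.1 ij.2

lemma stRel_iff {B : Type*} [CommRing B] (f : MvPowerSeries LIx 𝒪 →+* B)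
    (M : Bool → Matrix (Fin 2) (Fin 2) 𝒪) (q : 𝒪) :
    (∀ r ∈ stRel M q, f r = 0) ↔ StRel ((stMat M false).map f) ((stMat M true).map f)
      (f (C q)) := by
  have htr : ∀ N : Matrix (Fin 2) (Fin 2) (MvPowerSeries LIx 𝒪), (N.map f).trace = f N.trace := by
    intro N
    rw [Matrix.trace_fin_two, Matrix.trace_fin_two, map_add]; rfl
  have hdet : ∀ N : Matrix (Fin 2) (Fin 2) (MvPowerSeries LIx 𝒪), (N.map f).det = f N.det := by
    intro N
    rw [RingHom.map_det, RingHom.mapMatrix_apply]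
  have hcm : ∀ i j, f ((stMat M false * stMat M true -
      (C q : MvPowerSeries LIx 𝒪) • (stMat M true * stMat M false)) i j) = (((stMat M false).map f) *
        ((stMat M true).map f)) i j - (f (C q) • (((stMat M true).map f) *
        ((stMat M false).map f))) i j := by
    intro i j
    rw [Matrix.sub_apply, Matrix.smul_apply, smul_eq_mul, map_sub, map_mul, ← Matrix.map_mul,
      ← Matrix.map_mul, Matrix.smul_apply, Matrix.map_apply, Matrix.map_apply, smul_eq_mul]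
  constructor
  · intro h
    refine ⟨?_, ?_, ?_, ?_, ?_⟩
    · rw [htr]; exact h _ (Or.inl (Or.inl rfl))
    · rw [hdet]; exact h _ (Or.inl (Or.inr (Or.inl rfl)))
    · ext i j
      rw [← sub_eq_zero, ← hcm]
      exact h _ (Or.inr ⟨(i, j), rfl⟩)
    · have := h _ (Or.inl (Or.inr (Or.inr (Or.inl rfl))))
      rw [map_sub, sub_eq_zero] at this
      rw [hdet]; exact this
    · have := h _ (Or.inl (Or.inr (Or.inr (Or.inr rfl))))
      rw [map_sub, sub_eq_zero, map_pow, map_pow, map_add, map_one] at this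
      rw [htr]; exact this
  · rintro ⟨h1, h2, h3, h4, h5⟩ r hr
    rcases hr with (rfl | rfl | rfl | rfl) | ⟨⟨i, j⟩, rfl⟩
    · rw [← htr]; exact h1
    · rw [← hdet]; exact h2
    · rw [map_sub, sub_eq_zero, ← hdet]; exact h4
    · rw [map_sub, sub_eq_zero, map_pow, map_pow, map_add, map_one, ← htr]; exact h5
    · change f ((stMat M false * stMat M true - (C q : MvPowerSeries LIx 𝒪) • (stMat M true * stMat M false)) i j) = 0
      rw [hcm, h3, sub_self]

end Gen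

section St

variable {𝒪 : Type} [CommRing 𝒪] [IsLocalRing 𝒪]

/-- The local analysis, over the power series ring. -/
theorem exists_params_st (M : Bool → Matrix (Fin 2) (Fin 2) 𝒪) (q : 𝒪) (h2 : (2 : 𝒪) ∉ maximalIdeal 𝒪)
    (hq : q ∉ maximalIdeal 𝒪)
    (hrel : StRel ((M false).map (residue 𝒪)) ((M true).map (residue 𝒪)) (residue 𝒪 q)) :
    ∃ θ : Fin 3 → MvPowerSeries LIx 𝒪, (∀ a, θ a ∈ maximalIdeal (MvPowerSeries LIx 𝒪)) ∧
      ∀ 𝔱 : Ideal (MvPowerSeries LIx 𝒪), 𝔱.IsPrime → (∀ b ∈ maximalIdeal 𝒪, C b ∈ 𝔱) →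
        stRel M q ⊆ 𝔱 → (∀ a, θ a ∈ 𝔱) → maximalIdeal (MvPowerSeries LIx 𝒪) ≤ 𝔱 := by
  obtain ⟨ℓ, hℓ⟩ := goodPair (k := ResidueField 𝒪) (by
    intro h
    apply h2
    rw [← residue_eq_zero_iff, map_ofNat]; exact h) (by
    intro h
    exact hq ((residue_eq_zero_iff _).mp h)) hrel
  choose c hc using fun a i => residue_surjective (R := 𝒪) (ℓ a i)
  refine ⟨fun a => ∑ i, C (c a i) * X i, fun a => Ideal.sum_mem _ fun i _ =>
    Ideal.mul_mem_left _ _ (X_mem_maximalIdeal' _), fun 𝔱 h𝔱 hC hR hθ => ?_⟩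
  haveI := h𝔱
  haveI : IsLocalRing (MvPowerSeries LIx 𝒪 ⧸ 𝔱) := isLocalRing_quotient h𝔱.ne_top
  let e : ResidueField 𝒪 →+* MvPowerSeries LIx 𝒪 ⧸ 𝔱 :=
    Ideal.Quotient.lift (maximalIdeal 𝒪) ((Ideal.Quotient.mk 𝔱).comp C) (fun b hb =>
      Ideal.Quotient.eq_zero_iff_mem.mpr (hC b hb))
  have he : ∀ b, e (residue 𝒪 b) = Ideal.Quotient.mk 𝔱 (C b) := fun b => rfl
  letI : Algebra (ResidueField 𝒪) (MvPowerSeries LIx 𝒪 ⧸ 𝔱) := e.toAlgebra
  have he' : ∀ b, algebraMap (ResidueField 𝒪) (MvPowerSeries LIx 𝒪 ⧸ 𝔱) (residue 𝒪 b) =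
    Ideal.Quotient.mk 𝔱 (C b) := fun b => rfl
  have hmat : ∀ s, (stMat M s).map (Ideal.Quotient.mk 𝔱) =
      ((M s).map (residue 𝒪)).map (algebraMap (ResidueField 𝒪) (MvPowerSeries LIx 𝒪 ⧸ 𝔱)) +
        xMat (fun i => Ideal.Quotient.mk 𝔱 (X i)) s := by
    intro s
    ext a b
    rfl
  have h3 := hℓ (MvPowerSeries LIx 𝒪 ⧸ 𝔱) (fun i => Ideal.Quotient.mk 𝔱 (X i))
    (fun i => mk_mem_maximalIdeal' (X_mem_maximalIdeal' i)) (by
      have h4 := (stRel_iff (Ideal.Quotient.mk 𝔱) M q).mp fun r hr =>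
        Ideal.Quotient.eq_zero_iff_mem.mpr (hR hr)
      rw [hmat, hmat] at h4
      exact h4) (fun a => by
      have h4 := Ideal.Quotient.eq_zero_iff_mem.mpr (hθ a)
      rw [map_sum] at h4
      rw [← h4]
      refine Finset.sum_congr rfl fun i _ => ?_
      rw [map_mul, ← hc a i, he'])
  exact maximalIdeal_le_of_X hC fun i => Ideal.Quotient.eq_zero_iff_mem.mp (h3 i)

/-- The Steinberg type. -/
noncomputable def LocType.st (M : Bool → Matrix (Fin 2) (Fin 2) 𝒪) (q : 𝒪)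
    (h2 : (2 : 𝒪) ∉ maximalIdeal 𝒪) (hq : q ∉ maximalIdeal 𝒪)
    (hrel : StRel ((M false).map (residue 𝒪)) ((M true).map (residue 𝒪)) (residue 𝒪 q)) :
    LocType 𝒪 3 where
  ι := LIx
  Rel := stRel M q
  θ := (exists_params_st M q h2 hq hrel).choose
  hθ := (exists_params_st M q h2 hq hrel).choose_spec.1
  hfin := (exists_params_st M q h2 hq hrel).choose_spec.2

end St

end Fermat.Agent.RT
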