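import Fermat.Agent.RT.LocType

set_option autoImplicit false
set_option maxHeartbeats 400000
set_option linter.style.haveILetI false
set_option linter.unusedSectionVars false
set_option linter.unusedVariables false
set_option linter.unusedSimpArgs false

/-!
# The local type of all unipotent representations at `v ≠ p`
-/

open IsLocalRing MvPowerSeries

namespace Fermat.Agent.RT

/-- The relations satisfied by Frobenius and the logarithm of inertia (unipotent inertia). -/
structure UnRel {A : Type*} [CommRing A] (Φ N : Matrix (Fin 2) (Fin 2) A) (q : A) : Prop where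
  tr : N.trace = 0
  det : N.det = 0
  comm : Φ * N = q • (N * Φ)
  detF : Φ.det = q

lemma StRel.uni {A : Type*} [CommRing A] {Φ N : Matrix (Fin 2) (Fin 2) A} {q : A}
    (h : StRel Φ N q) : UnRel Φ N q := ⟨h.tr, h.det, h.comm, h.detF⟩

namespace UnRel

variable {A : Type*} [CommRing A] {Φ N : Matrix (Fin 2) (Fin 2) A} {q : A}

lemma conj {g g' : Matrix (Fin 2) (Fin 2) A} (hg : g * g' = 1) (h : UnRel Φ N q) :
    UnRel (g * Φ * g') (g * N * g') q := by
  have hg' : g' * g = 1 := mul_eq_one_comm.mp hg
  have hdet : g.det * g'.det = 1 := by rw [← Matrix.det_mul, hg, Matrix.det_one]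
  refine ⟨?_, ?_, ?_, ?_⟩
  · rw [Matrix.trace_mul_comm, ← Matrix.mul_assoc, hg', Matrix.one_mul, h.tr]
  · rw [Matrix.det_mul, Matrix.det_mul, h.det, mul_zero, zero_mul]
  · calc g * Φ * g' * (g * N * g') = g * Φ * (g' * g) * N * g' := by
          simp only [Matrix.mul_assoc]
      _ = g * (Φ * N) * g' := by rw [hg', Matrix.mul_one, Matrix.mul_assoc g]
      _ = q • (g * (N * Φ) * g') := by
          rw [h.comm, Matrix.mul_smul, Matrix.smul_mul]
      _ = q • (g * N * (g' * g) * Φ * g') := by
          rw [hg', Matrix.mul_one, Matrix.mul_assoc g N Φ]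
      _ = q • (g * N * g' * (g * Φ * g')) := by simp only [Matrix.mul_assoc]
  · rw [Matrix.det_mul, Matrix.det_mul, h.detF]
    linear_combination q * hdet

lemma sq_eq_zero (h : UnRel Φ N q) : N * N = 0 := by
  have h1 := h.tr
  have h2 := h.det
  rw [Matrix.trace_fin_two] at h1
  rw [Matrix.det_fin_two] at h2
  have h3 : N 1 1 = - N 0 0 := by linear_combination h1
  ext i j
  fin_cases i <;> fin_cases j <;> simp [Matrix.mul_apply, Fin.sum_univ_two]
  · rw [h3] at h2; linear_combination -h2
  · linear_combination N 0 1 * h1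
  · linear_combination N 1 0 * h1
  · rw [h3] at h2 ⊢; linear_combination -h2

/-- If `N` is non zero then the relation of the trace holds. -/
lemma trF [IsDomain A] (h : UnRel Φ N q) (hN : N ≠ 0) (hq : q ≠ 0) :
    Φ.trace ^ 2 = (q + 1) ^ 2 := by
  have h2 : N * N = 0 := h.sq_eq_zero
  set s : A := (Φ * N).trace with hs
  have h3 : Φ * N + N * Φ = Φ.trace • N + s • (1 : Matrix (Fin 2) (Fin 2) A) := by
    have h1 := h.tr
    rw [Matrix.trace_fin_two] at h1
    have h4 : N 1 1 = - N 0 0 := by linear_combination h1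
    ext i j
    fin_cases i <;> fin_cases j <;>
      simp [Matrix.mul_apply, Fin.sum_univ_two, hs, Matrix.trace_fin_two, h4] <;> ring
  have h4 : N * Φ * N = 0 := by
    rw [Matrix.mul_assoc, h.comm, Matrix.mul_smul, ← Matrix.mul_assoc, h2, Matrix.zero_mul,
      smul_zero]
  have h5 : s • N = 0 := by
    have h6 := congrArg (fun M => N * M) h3
    simp only [Matrix.mul_add, Matrix.mul_smul, Matrix.mul_one] at h6
    rw [← Matrix.mul_assoc, h4, ← Matrix.mul_assoc, h2, Matrix.zero_mul, smul_zero, zero_add,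
      zero_add] at h6
    exact h6.symm
  have hs0 : s = 0 := (smul_eq_zero.mp h5).resolve_right hN
  rw [hs0, zero_smul, add_zero, h.comm] at h3
  have h6 : (q + 1) • (N * Φ) = Φ.trace • N := by
    rw [← h3, add_smul, one_smul]
  have hCH : Φ * Φ = Φ.trace • Φ - q • (1 : Matrix (Fin 2) (Fin 2) A) := by
    have h7 := h.detF
    rw [Matrix.det_fin_two] at h7
    ext i j
    fin_cases i <;> fin_cases j <;>
      simp [Matrix.mul_apply, Fin.sum_univ_two, Matrix.trace_fin_two, ← h7] <;> ring
  have h7 : (q + 1) • (N * Φ * Φ) = Φ.trace • (N * Φ) := by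
    rw [← Matrix.smul_mul, h6, Matrix.smul_mul]
  rw [Matrix.mul_assoc, hCH, Matrix.mul_sub, Matrix.mul_smul, Matrix.mul_smul, Matrix.mul_one] at h7
  have h8 : (q * Φ.trace ^ 2) • N = (q * (q + 1) ^ 2) • N := by
    have h9 : (Φ.trace * (q + 1)) • (Φ.trace • N) - (q * (q + 1) ^ 2) • N =
        Φ.trace • (Φ.trace • N) := by
      rw [← h6]
      have h10 := congrArg (fun M => (q + 1) • M) h7
      simp only [smul_sub, smul_smul] at h10 ⊢
      have e1 : Φ.trace * (q + 1) * (q + 1) = (q + 1) * ((q + 1) * Φ.trace) := by ring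
      have e2 : q * (q + 1) ^ 2 = (q + 1) * ((q + 1) * q) := by ring
      have e3 : Φ.trace * (q + 1) = (q + 1) * Φ.trace := by ring
      rw [e1, e2, h10, e3]
    rw [smul_smul, smul_smul, ← sub_eq_zero] at h9
    rw [← sub_eq_zero, ← h9, ← sub_smul, ← sub_smul, ← sub_smul]
    congr 1
    ring
  rw [← sub_eq_zero, ← sub_smul] at h8
  have h9 := (smul_eq_zero.mp h8).resolve_right hN
  have h10 : q * (Φ.trace ^ 2 - (q + 1) ^ 2) = 0 := by linear_combination h9
  have := (mul_eq_zero.mp h10).resolve_left hq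
  linear_combination this

lemma st [IsDomain A] (h : UnRel Φ N q) (hN : N ≠ 0) (hq : q ≠ 0) : StRel Φ N q :=
  ⟨h.tr, h.det, h.comm, h.detF, h.trF hN hq⟩

end UnRel

variable {k : Type} [Field k]

/-- The residual pair has three linear parameters. -/
def GoodPairU (Φ₀ N₀ : Matrix (Fin 2) (Fin 2) k) (q : k) : Prop :=
  ∃ ℓ : Fin 3 → LIx → k, ∀ (A : Type) [CommRing A] [IsDomain A] [IsLocalRing A] [Algebra k A]
    (x : LIx → A), (∀ i, x i ∈ maximalIdeal A) →
    UnRel (Φ₀.map (algebraMap k A) + xMat x false) (N₀.map (algebraMap k A) + xMat x true)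
      (algebraMap k A q) →
    (∀ a, ∑ i, algebraMap k A (ℓ a i) * x i = 0) → ∀ i, x i = 0

/-- Invariance under conjugation. -/
lemma GoodPairU.of_conj {Φ₀ N₀ : Matrix (Fin 2) (Fin 2) k} {q : k} {g g' : Matrix (Fin 2) (Fin 2) k}
    (hg : g * g' = 1) (h : GoodPairU (g * Φ₀ * g') (g * N₀ * g') q) : GoodPairU Φ₀ N₀ q := by
  obtain ⟨ℓ, hℓ⟩ := h
  -- the linear forms in the old coordinates
  refine ⟨fun a i => ∑ j : LIx, ℓ a j * (if j.1 = i.1 then g j.2.1 i.2.1 * g' i.2.2 j.2.2 else 0),
    fun A _ _ _ _ x hx hrel hl => ?_⟩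
  set G : Matrix (Fin 2) (Fin 2) A := g.map (algebraMap k A) with hG
  set G' : Matrix (Fin 2) (Fin 2) A := g'.map (algebraMap k A) with hG'
  have hGG : G * G' = 1 := by
    rw [hG, hG', ← Matrix.map_mul, hg, Matrix.map_one _ (map_zero _) (map_one _)]
  have hGG' : G' * G = 1 := mul_eq_one_comm.mp hGG
  have hm : ∀ s a b, (G * xMat x s * G') a b ∈ maximalIdeal A := by
    intro s a b
    rw [Matrix.mul_apply]
    refine Ideal.sum_mem _ fun c _ => ?_
    rw [Matrix.mul_apply]
    exact Ideal.mul_mem_right _ _ (Ideal.sum_mem _ fun d _ => Ideal.mul_mem_left _ _ (hx _))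
  set y : LIx → A := fun i => (G * xMat x i.1 * G') i.2.1 i.2.2 with hy
  have hyM : ∀ s, xMat y s = G * xMat x s * G' := fun s => by ext a b; rfl
  have h1 := hℓ A y (fun i => hm _ _ _) (by
    have h2 := hrel.conj hGG
    rw [Matrix.mul_add, Matrix.add_mul, Matrix.mul_add, Matrix.add_mul] at h2
    rw [hyM, hyM, Matrix.map_mul, Matrix.map_mul, Matrix.map_mul, Matrix.map_mul]
    exact h2) (fun a => by
    rw [← hl a]
    have h3 : ∀ j : LIx, y j = ∑ i : LIx,
        algebraMap k A (if j.1 = i.1 then g j.2.1 i.2.1 * g' i.2.2 j.2.2 else 0) * x i := by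
      rintro ⟨s, a, b⟩
      rw [hy]
      simp only [Fintype.sum_prod_type, Matrix.mul_apply, Fin.sum_univ_two, Fintype.sum_bool, hG,
        hG', Matrix.map_apply, xMat, Matrix.of_apply]
      cases s <;> simp <;> ring
    calc ∑ j, algebraMap k A (ℓ a j) * y j = ∑ j, algebraMap k A (ℓ a j) * ∑ i : LIx,
        algebraMap k A (if j.1 = i.1 then g j.2.1 i.2.1 * g' i.2.2 j.2.2 else 0) * x i :=
          Finset.sum_congr rfl fun j _ => by rw [h3 j]
      _ = ∑ i, algebraMap k A (∑ j : LIx, ℓ a j *
          (if j.1 = i.1 then g j.2.1 i.2.1 * g' i.2.2 j.2.2 else 0)) * x i := by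
          simp only [Finset.mul_sum]
          rw [Finset.sum_comm]
          refine Finset.sum_congr rfl fun i _ => ?_
          rw [map_sum, Finset.sum_mul]
          refine Finset.sum_congr rfl fun j _ => ?_
          rw [map_mul, mul_assoc])
  have h4 : ∀ s, xMat x s = 0 := by
    intro s
    have h5 : G * xMat x s * G' = 0 := by
      rw [← hyM]; ext a b; exact h1 _
    calc xMat x s = (G' * G) * xMat x s * (G' * G) := by rw [hGG', Matrix.one_mul, Matrix.mul_one]
      _ = G' * (G * xMat x s * G') * G := by simp only [Matrix.mul_assoc]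
      _ = 0 := by rw [h5, Matrix.mul_zero, Matrix.zero_mul]
  rintro ⟨s, a, b⟩
  exact congrFun (congrFun (h4 s) a) b

/-- Type (a): ramified. -/
lemma goodPairU_ram {Φ₀ : Matrix (Fin 2) (Fin 2) k} {q : k} (h2 : (2 : k) ≠ 0) (hq : q ≠ 0)
    (hrel : StRel Φ₀ !![0, 1; 0, 0] q) : GoodPairU Φ₀ !![0, 1; 0, 0] q := by
  obtain ⟨ℓ, hℓ⟩ := goodPair_ram h2 hq hrel
  refine ⟨ℓ, fun A _ _ _ _ x hx hr hl => hℓ A x hx (hr.st (fun h => ?_)
    (fun h => hq ((algebraMap k A).injective (by rw [h, map_zero])))) hl⟩
  have h1 := congrFun (congrFun h 0) 1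
  have h3 : (1 : A) + x (true, 0, 1) = 0 := by
    have : (algebraMap k A) 1 + x (true, 0, 1) = 0 := h1
    rwa [map_one] at this
  have h4 : (1 : A) ∈ maximalIdeal A := by
    have : (1 : A) = - x (true, 0, 1) := by linear_combination h3
    rw [this]
    exact (Ideal.neg_mem_iff _).mpr (hx _)
  exact h4 isUnit_one

/-- Type (b): unramified, distinct eigenvalues. -/
lemma goodPairU_dist {q ε : k} (h2 : (2 : k) ≠ 0) (hq : q ≠ 0) (hε : ε ^ 2 = 1) (hq1 : q ≠ 1) :
    GoodPairU !![ε * q, 0; 0, ε] 0 q := by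
  refine ⟨![fun i => if i = (false, 0, 1) then 1 else 0, fun i => if i = (false, 1, 0) then 1 else 0,
    fun i => if i = (true, 0, 1) ∨ i = (true, 1, 0) ∨ i = (false, 0, 0) then 1 else 0],
    fun A _ _ _ _ x hx hr hl => ?_⟩
  have e1 : x (false, 0, 1) = 0 := by
    have := hl 0
    simpa [Fintype.sum_prod_type] using this
  have e2 : x (false, 1, 0) = 0 := by
    have := hl 1
    simpa [Fintype.sum_prod_type] using this
  have e3' : x (true, 0, 1) + x (true, 1, 0) + x (false, 0, 0) = 0 := by
    have := hl 2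
    simpa [Fintype.sum_prod_type] using this
  have hκ : Function.Injective (algebraMap k A) := (algebraMap k A).injective
  set Q := algebraMap k A q with hQ
  set E := algebraMap k A ε with hE
  have hE2 : E ^ 2 = 1 := by rw [hE, ← map_pow, hε, map_one]
  have hQ0 : Q ≠ 0 := fun h => hq (hκ (by rw [map_zero]; exact h))
  have hQ1 : Q - 1 ≠ 0 := fun h => hq1 (hκ (by rw [map_one]; exact sub_eq_zero.mp h))
  have hE0 : E ≠ 0 := fun h => by rw [h] at hE2; norm_num at hE2
  have h2A : (2 : A) ≠ 0 := fun h => h2 (hκ (by rw [map_ofNat, map_zero]; exact h))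
  by_cases hN0 : ((0 : Matrix (Fin 2) (Fin 2) k).map (algebraMap k A) + xMat x true) = 0
  · have n00 : x (true, 0, 0) = 0 := by simpa [xMat] using congrFun (congrFun hN0 0) 0
    have n01 : x (true, 0, 1) = 0 := by simpa [xMat] using congrFun (congrFun hN0 0) 1
    have n10 : x (true, 1, 0) = 0 := by simpa [xMat] using congrFun (congrFun hN0 1) 0
    have n11 : x (true, 1, 1) = 0 := by simpa [xMat] using congrFun (congrFun hN0 1) 1
    have k2 : x (false, 0, 0) = 0 := by rw [n01, n10] at e3'; linear_combination e3'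
    have d2 := hr.detF
    rw [Matrix.det_fin_two] at d2
    simp only [Matrix.add_apply, Matrix.map_apply, xMat, Matrix.of_apply, Matrix.cons_val',
      Matrix.cons_val_zero, Matrix.cons_val_one, Matrix.cons_val_fin_one, map_zero, zero_add,
      mul_zero, sub_zero, map_mul, e1, e2, k2, add_zero] at d2
    have k11 : x (false, 1, 1) = 0 := by
      have h3 : E * Q * x (false, 1, 1) = 0 := by linear_combination d2 - Q * hE2
      exact (mul_eq_zero.mp h3).resolve_left (mul_ne_zero hE0 hQ0)
    rintro ⟨s, a, b⟩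
    cases s <;> fin_cases a <;> fin_cases b <;> assumption
  have hst := hr.st hN0 hQ0
  have c2 := hr.comm
  have d2 := hr.detF
  have t2 := hr.tr
  have n2 := hr.det
  have s2 := hst.trF
  rw [Matrix.trace_fin_two] at t2 s2
  rw [Matrix.det_fin_two] at n2 d2
  have b00 := congrFun (congrFun c2 0) 0
  have b11 := congrFun (congrFun c2 1) 1
  simp only [Matrix.mul_apply, Fin.sum_univ_two, Matrix.smul_apply, smul_eq_mul, Matrix.add_apply,
    Matrix.map_apply, xMat, Matrix.of_apply, Matrix.cons_val', Matrix.cons_val_zero,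
    Matrix.cons_val_one, Matrix.cons_val_fin_one, map_zero, map_one, mul_zero, mul_one, zero_add,
    add_zero, zero_mul, one_mul, e1, e2, Matrix.zero_apply, map_mul] at b00 b11 t2 n2 d2 s2
  -- the trace
  have k0 : x (false, 0, 0) + x (false, 1, 1) = 0 := by
    have h3 : (E * Q + x (false, 0, 0) + (E + x (false, 1, 1)) - (Q + 1)) *
        (E * Q + x (false, 0, 0) + (E + x (false, 1, 1)) + (Q + 1)) = 0 := by
      linear_combination s2
    have hs : x (false, 0, 0) + x (false, 1, 1) ∈ maximalIdeal A :=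
      Ideal.add_mem _ (hx _) (hx _)
    rcases mul_eq_zero.mp h3 with h | h
    · have := eq_of_const (k := k) (c := ε * q + ε) (c' := q + 1) hs (by
        rw [map_add, map_mul, map_add, map_one]; linear_combination h)
      exact this.2
    · have := eq_of_const (k := k) (c := ε * q + ε) (c' := -(q + 1)) hs (by
        rw [map_add, map_mul, map_neg, map_add, map_one]; linear_combination h)
      exact this.2
  have k1 : x (false, 1, 1) = - x (false, 0, 0) := by linear_combination k0
  rw [k1] at d2 b11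
  have k2 : x (false, 0, 0) = 0 := by
    have h3 : x (false, 0, 0) * (x (false, 0, 0) + E * (Q - 1)) = 0 := by
      linear_combination -d2 + Q * hE2
    rcases mul_eq_zero.mp h3 with h | h
    · exact h
    · have := eq_of_const (k := k) (c := ε * (q - 1)) (c' := 0) (hx (false, 0, 0)) (by
        rw [map_mul, map_sub, map_one, map_zero]; linear_combination h)
      exact this.2
  have e3 : x (true, 0, 1) + x (true, 1, 0) = 0 := by rw [k2, add_zero] at e3'; exact e3'
  rw [k2] at b00 b11 k1
  have m00 : x (true, 0, 0) = 0 := by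
    have h3 : E * Q * (Q - 1) * x (true, 0, 0) = 0 := by linear_combination -b00
    exact (mul_eq_zero.mp h3).resolve_left (mul_ne_zero (mul_ne_zero hE0 hQ0) hQ1)
  have m11 : x (true, 1, 1) = 0 := by
    rw [m00] at t2
    linear_combination t2
  rw [m00] at n2
  have m01 : x (true, 0, 1) = 0 := by
    have h3 : x (true, 0, 1) ^ 2 = 0 := by
      linear_combination n2 + x (true, 0, 1) * e3
    exact pow_eq_zero_iff two_ne_zero |>.mp h3
  have m10 : x (true, 1, 0) = 0 := by linear_combination e3 - m01
  have k11 : x (false, 1, 1) = 0 := by rw [k1, neg_zero]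
  rintro ⟨s, a, b⟩
  cases s <;> fin_cases a <;> fin_cases b <;> assumption

/-- Type (c): unramified, scalar Frobenius. -/
lemma goodPairU_scalar {ε : k} (h2 : (2 : k) ≠ 0) (hε : ε ^ 2 = 1) :
    GoodPairU !![ε, 0; 0, ε] 0 1 := by
  refine ⟨![fun i => if i = (false, 0, 1) ∨ i = (true, 1, 0) then 1 else 0,
    fun i => if i = (false, 1, 0) ∨ i = (true, 0, 1) then 1 else 0,
    fun i => if i = (false, 0, 0) then 1 else 0],
    fun A _ _ _ _ x hx hr hl => ?_⟩
  have e1 : x (true, 1, 0) = - x (false, 0, 1) := by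
    have := hl 0
    have h3 : x (true, 1, 0) + x (false, 0, 1) = 0 := by
      simpa [Fintype.sum_prod_type] using this
    linear_combination h3
  have e2 : x (true, 0, 1) = - x (false, 1, 0) := by
    have := hl 1
    have h3 : x (true, 0, 1) + x (false, 1, 0) = 0 := by
      simpa [Fintype.sum_prod_type] using this
    linear_combination h3
  have e3 : x (false, 0, 0) = 0 := by
    have := hl 2
    simpa [Fintype.sum_prod_type] using this
  have hκ : Function.Injective (algebraMap k A) := (algebraMap k A).injective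
  set E := algebraMap k A ε with hE
  have hE2 : E ^ 2 = 1 := by rw [hE, ← map_pow, hε, map_one]
  have hE0 : E ≠ 0 := fun h => by rw [h] at hE2; norm_num at hE2
  have h2A : (2 : A) ≠ 0 := fun h => h2 (hκ (by rw [map_ofNat, map_zero]; exact h))
  by_cases hN0 : ((0 : Matrix (Fin 2) (Fin 2) k).map (algebraMap k A) + xMat x true) = 0
  · have n00 : x (true, 0, 0) = 0 := by simpa [xMat] using congrFun (congrFun hN0 0) 0
    have n01 : x (true, 0, 1) = 0 := by simpa [xMat] using congrFun (congrFun hN0 0) 1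
    have n10 : x (true, 1, 0) = 0 := by simpa [xMat] using congrFun (congrFun hN0 1) 0
    have n11 : x (true, 1, 1) = 0 := by simpa [xMat] using congrFun (congrFun hN0 1) 1
    have f01 : x (false, 0, 1) = 0 := by linear_combination e1 - n10
    have f10 : x (false, 1, 0) = 0 := by linear_combination e2 - n01
    have d2 := hr.detF
    rw [Matrix.det_fin_two] at d2
    simp only [Matrix.add_apply, Matrix.map_apply, xMat, Matrix.of_apply, Matrix.cons_val',
      Matrix.cons_val_zero, Matrix.cons_val_one, Matrix.cons_val_fin_one, map_zero, zero_add,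
      mul_zero, sub_zero, map_one, e3, f01, f10, add_zero] at d2
    have k11 : x (false, 1, 1) = 0 := by
      have h3 : E * x (false, 1, 1) = 0 := by linear_combination d2 - hE2
      exact (mul_eq_zero.mp h3).resolve_left hE0
    rintro ⟨s, a, b⟩
    cases s <;> fin_cases a <;> fin_cases b <;> assumption
  have hst := hr.st hN0 (fun h => one_ne_zero (hκ (by rw [h, map_zero])))
  obtain ⟨ℓ, hℓ⟩ : ∃ ℓ : Fin 3 → LIx → k, ∀ (A : Type) [CommRing A] [IsDomain A] [IsLocalRing A]
    [Algebra k A] (x : LIx → A), (∀ i, x i ∈ maximalIdeal A) →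
    StRel ((!![ε, 0; 0, ε] : Matrix (Fin 2) (Fin 2) k).map (algebraMap k A) + xMat x false)
      ((0 : Matrix (Fin 2) (Fin 2) k).map (algebraMap k A) + xMat x true)
      (algebraMap k A 1) → (∀ a, ∑ i, algebraMap k A (ℓ a i) * x i = 0) → ∀ i, x i = 0 :=
    goodPair_scalar h2 hε
  have c2 := hst.comm
  have d2 := hst.detF
  have t2 := hst.tr
  have n2 := hst.det
  have s2 := hst.trF
  rw [Matrix.trace_fin_two] at t2 s2
  rw [Matrix.det_fin_two] at n2 d2
  have b00 := congrFun (congrFun c2 0) 0
  simp only [Matrix.mul_apply, Fin.sum_univ_two, Matrix.smul_apply, smul_eq_mul, Matrix.add_apply,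
    Matrix.map_apply, xMat, Matrix.of_apply, Matrix.cons_val', Matrix.cons_val_zero,
    Matrix.cons_val_one, Matrix.cons_val_fin_one, map_zero, map_one, mul_zero, mul_one, zero_add,
    add_zero, zero_mul, one_mul, e1, e2, e3, Matrix.zero_apply] at b00 t2 n2 d2 s2
  have k11 : x (false, 1, 1) = 0 := by
    have h3 : (E + (E + x (false, 1, 1)) - 2) * (E + (E + x (false, 1, 1)) + 2) = 0 := by
      linear_combination s2
    rcases mul_eq_zero.mp h3 with h | h
    · exact (eq_of_const (k := k) (c := ε + ε) (c' := 2) (hx _) (by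
        rw [map_add, map_ofNat]; linear_combination h)).2
    · exact (eq_of_const (k := k) (c := ε + ε) (c' := -2) (hx _) (by
        rw [map_add, map_neg, map_ofNat]; linear_combination h)).2
  rw [k11] at d2
  have hprod : x (false, 0, 1) * x (false, 1, 0) = 0 := by linear_combination -d2 + hE2
  have m00 : x (true, 0, 0) = 0 := by
    have h3 : x (true, 0, 0) ^ 2 = 0 := by
      linear_combination -n2 + x (true, 0, 0) * t2 - hprod
    exact pow_eq_zero_iff two_ne_zero |>.mp h3
  have m11 : x (true, 1, 1) = 0 := by linear_combination t2 - m00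
  have hsq : x (false, 0, 1) ^ 2 = x (false, 1, 0) ^ 2 := by
    rw [m00] at b00
    linear_combination -b00
  have k01 : x (false, 0, 1) = 0 := by
    have h3 : x (false, 0, 1) ^ 4 = 0 := by
      linear_combination x (false, 0, 1) ^ 2 * hsq + x (false, 0, 1) * x (false, 1, 0) * hprod
    exact pow_eq_zero_iff (by norm_num) |>.mp h3
  have k10 : x (false, 1, 0) = 0 := by
    rw [k01] at hsq
    have h3 : x (false, 1, 0) ^ 2 = 0 := by linear_combination -hsq
    exact pow_eq_zero_iff two_ne_zero |>.mp h3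
  have m10 : x (true, 1, 0) = 0 := by rw [e1, k01, neg_zero]
  have m01 : x (true, 0, 1) = 0 := by rw [e2, k10, neg_zero]
  rintro ⟨s, a, b⟩
  cases s <;> fin_cases a <;> fin_cases b <;> assumption

/-- Type (d): unramified, non-scalar Frobenius with equal eigenvalues. -/
lemma goodPairU_reg {ε : k} (h2 : (2 : k) ≠ 0) (hε : ε ^ 2 = 1) :
    GoodPairU !![ε, 1; 0, ε] 0 1 := by
  refine ⟨![fun i => if i = (false, 0, 0) then 1 else 0,
    fun i => if i = (false, 0, 1) then 1 else 0,
    fun i => if i = (true, 0, 1) ∨ i = (false, 1, 0) then 1 else 0],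
    fun A _ _ _ _ x hx hr hl => ?_⟩
  have e1 : x (false, 0, 0) = 0 := by
    have := hl 0
    simpa [Fintype.sum_prod_type] using this
  have e2 : x (false, 0, 1) = 0 := by
    have := hl 1
    simpa [Fintype.sum_prod_type] using this
  have e3' : x (true, 0, 1) + x (false, 1, 0) = 0 := by
    have := hl 2
    simpa [Fintype.sum_prod_type] using this
  have hκ : Function.Injective (algebraMap k A) := (algebraMap k A).injective
  set E := algebraMap k A ε with hE
  have hE2 : E ^ 2 = 1 := by rw [hE, ← map_pow, hε, map_one]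
  have hE0 : E ≠ 0 := fun h => by rw [h] at hE2; norm_num at hE2
  have h2A : (2 : A) ≠ 0 := fun h => h2 (hκ (by rw [map_ofNat, map_zero]; exact h))
  by_cases hN0 : ((0 : Matrix (Fin 2) (Fin 2) k).map (algebraMap k A) + xMat x true) = 0
  · have n00 : x (true, 0, 0) = 0 := by simpa [xMat] using congrFun (congrFun hN0 0) 0
    have n01 : x (true, 0, 1) = 0 := by simpa [xMat] using congrFun (congrFun hN0 0) 1
    have n10 : x (true, 1, 0) = 0 := by simpa [xMat] using congrFun (congrFun hN0 1) 0
    have n11 : x (true, 1, 1) = 0 := by simpa [xMat] using congrFun (congrFun hN0 1) 1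
    have f10 : x (false, 1, 0) = 0 := by linear_combination e3' - n01
    have d2 := hr.detF
    rw [Matrix.det_fin_two] at d2
    simp only [Matrix.add_apply, Matrix.map_apply, xMat, Matrix.of_apply, Matrix.cons_val',
      Matrix.cons_val_zero, Matrix.cons_val_one, Matrix.cons_val_fin_one, map_zero, zero_add,
      mul_zero, sub_zero, map_one, e1, e2, f10, add_zero] at d2
    have k11 : x (false, 1, 1) = 0 := by
      have h3 : E * x (false, 1, 1) = 0 := by linear_combination d2 - hE2
      exact (mul_eq_zero.mp h3).resolve_left hE0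
    rintro ⟨s, a, b⟩
    cases s <;> fin_cases a <;> fin_cases b <;> assumption
  have hst := hr.st hN0 (fun h => one_ne_zero (hκ (by rw [h, map_zero])))
  have c2 := hst.comm
  have d2 := hst.detF
  have t2 := hst.tr
  have n2 := hst.det
  have s2 := hst.trF
  rw [Matrix.trace_fin_two] at t2 s2
  rw [Matrix.det_fin_two] at n2 d2
  have b00 := congrFun (congrFun c2 0) 0
  have b01 := congrFun (congrFun c2 0) 1
  simp only [Matrix.mul_apply, Fin.sum_univ_two, Matrix.smul_apply, smul_eq_mul, Matrix.add_apply,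
    Matrix.map_apply, xMat, Matrix.of_apply, Matrix.cons_val', Matrix.cons_val_zero,
    Matrix.cons_val_one, Matrix.cons_val_fin_one, map_zero, map_one, mul_zero, mul_one, zero_add,
    add_zero, zero_mul, one_mul, e1, e2, Matrix.zero_apply] at b00 b01 t2 n2 d2 s2
  have k11 : x (false, 1, 1) = 0 := by
    have h3 : (E + (E + x (false, 1, 1)) - 2) * (E + (E + x (false, 1, 1)) + 2) = 0 := by
      linear_combination s2
    rcases mul_eq_zero.mp h3 with h | h
    · exact (eq_of_const (k := k) (c := ε + ε) (c' := 2) (hx _) (by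
        rw [map_add, map_ofNat]; linear_combination h)).2
    · exact (eq_of_const (k := k) (c := ε + ε) (c' := -2) (hx _) (by
        rw [map_add, map_neg, map_ofNat]; linear_combination h)).2
  rw [k11] at d2 b01
  have k10 : x (false, 1, 0) = 0 := by linear_combination -d2 + hE2
  have e3 : x (true, 0, 1) = 0 := by linear_combination e3' - k10
  rw [e3] at b00 b01 n2
  rw [k10] at b00
  have m10 : x (true, 1, 0) = 0 := by linear_combination b00
  have m11' : x (true, 1, 1) = x (true, 0, 0) := by
    linear_combination b01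
  have m00 : x (true, 0, 0) = 0 := by
    have h3 : 2 * x (true, 0, 0) = 0 := by linear_combination t2 - m11'
    exact (mul_eq_zero.mp h3).resolve_left h2A
  have m11 : x (true, 1, 1) = 0 := by rw [m11', m00]
  rintro ⟨s, a, b⟩
  cases s <;> fin_cases a <;> fin_cases b <;> assumption

/-- Type (e): unramified, not of Steinberg type. -/
lemma goodPairU_gen {Φ₀ : Matrix (Fin 2) (Fin 2) k} {q : k} (hq : q ≠ 0)
    (hdet : Φ₀.det = q) (htr : Φ₀.trace ^ 2 ≠ (q + 1) ^ 2) : GoodPairU Φ₀ 0 q := by
  have main : ∀ (A : Type) [CommRing A] [IsDomain A] [IsLocalRing A] [Algebra k A]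
      (x : LIx → A), (∀ i, x i ∈ maximalIdeal A) →
      UnRel (Φ₀.map (algebraMap k A) + xMat x false)
        ((0 : Matrix (Fin 2) (Fin 2) k).map (algebraMap k A) + xMat x true)
        (algebraMap k A q) → (∀ a b, x (true, a, b) = 0) ∧
        (algebraMap k A (Φ₀ 1 1) * x (false, 0, 0) + algebraMap k A (Φ₀ 0 0) * x (false, 1, 1) -
          algebraMap k A (Φ₀ 1 0) * x (false, 0, 1) - algebraMap k A (Φ₀ 0 1) * x (false, 1, 0) +
          x (false, 0, 0) * x (false, 1, 1) - x (false, 0, 1) * x (false, 1, 0) = 0) := by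
    intro A _ _ _ _ x hx hr
    have hκ : Function.Injective (algebraMap k A) := (algebraMap k A).injective
    have hQ0 : algebraMap k A q ≠ 0 := fun h => hq (hκ (by rw [map_zero]; exact h))
    constructor
    · by_cases hN0 : ((0 : Matrix (Fin 2) (Fin 2) k).map (algebraMap k A) + xMat x true) = 0
      · intro a b
        simpa [xMat] using congrFun (congrFun hN0 a) b
      · exfalso
        have h1 := hr.trF hN0 hQ0
        rw [Matrix.trace_fin_two] at h1
        simp only [Matrix.add_apply, Matrix.map_apply, xMat, Matrix.of_apply] at h1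
        set s := x (false, 0, 0) + x (false, 1, 1) with hs
        have hsm : s ∈ maximalIdeal A := Ideal.add_mem _ (hx _) (hx _)
        have h3 : algebraMap k A (Φ₀.trace ^ 2) + s * (2 * algebraMap k A Φ₀.trace + s) =
            algebraMap k A ((q + 1) ^ 2) := by
          rw [map_pow, map_pow, map_add, map_one, ← h1, Matrix.trace_fin_two, map_add, hs]
          ring
        exact htr (eq_of_const (Ideal.mul_mem_right _ _ hsm) h3).1
    · have h1 := hr.detF
      rw [Matrix.det_fin_two] at h1
      simp only [Matrix.add_apply, Matrix.map_apply, xMat, Matrix.of_apply] at h1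
      have h2 := congrArg (algebraMap k A) hdet
      rw [Matrix.det_fin_two, map_sub, map_mul, map_mul] at h2
      linear_combination h1 - h2
  by_cases h11 : Φ₀ 1 1 = 0
  · have h10 : Φ₀ 1 0 ≠ 0 := by
      intro h
      apply hq
      rw [← hdet, Matrix.det_fin_two, h11, h, mul_zero, mul_zero, sub_zero]
    refine ⟨![fun i => if i = (false, 0, 0) then 1 else 0,
      fun i => if i = (false, 1, 1) then 1 else 0, fun i => if i = (false, 1, 0) then 1 else 0],
      fun A _ _ _ _ x hx hr hl => ?_⟩
    obtain ⟨h1, h2⟩ := main A x hx hr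
    have e1 : x (false, 0, 0) = 0 := by
      have := hl 0
      simpa [Fintype.sum_prod_type] using this
    have e2 : x (false, 1, 1) = 0 := by
      have := hl 1
      simpa [Fintype.sum_prod_type] using this
    have e3 : x (false, 1, 0) = 0 := by
      have := hl 2
      simpa [Fintype.sum_prod_type] using this
    rw [e1, e2, e3] at h2
    have h3 : algebraMap k A (Φ₀ 1 0) * x (false, 0, 1) = 0 := by linear_combination -h2
    have e4 : x (false, 0, 1) = 0 := (mul_eq_zero.mp h3).resolve_left fun h =>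
      h10 ((algebraMap k A).injective (by rw [h, map_zero]))
    rintro ⟨s, a, b⟩
    cases s
    · fin_cases a <;> fin_cases b <;> assumption
    · exact h1 a b
  · refine ⟨![fun i => if i = (false, 0, 1) then 1 else 0,
      fun i => if i = (false, 1, 1) then 1 else 0, fun i => if i = (false, 1, 0) then 1 else 0],
      fun A _ _ _ _ x hx hr hl => ?_⟩
    obtain ⟨h1, h2⟩ := main A x hx hr
    have e1 : x (false, 0, 1) = 0 := by
      have := hl 0
      simpa [Fintype.sum_prod_type] using this
    have e2 : x (false, 1, 1) = 0 := by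
      have := hl 1
      simpa [Fintype.sum_prod_type] using this
    have e3 : x (false, 1, 0) = 0 := by
      have := hl 2
      simpa [Fintype.sum_prod_type] using this
    rw [e1, e2, e3] at h2
    have h3 : algebraMap k A (Φ₀ 1 1) * x (false, 0, 0) = 0 := by linear_combination h2
    have e4 : x (false, 0, 0) = 0 := (mul_eq_zero.mp h3).resolve_left fun h =>
      h11 ((algebraMap k A).injective (by rw [h, map_zero]))
    rintro ⟨s, a, b⟩
    cases s
    · fin_cases a <;> fin_cases b <;> assumption
    · exact h1 a b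

/-- **Local analysis at `v ≠ p`.** -/
theorem goodPairU {Φ₀ N₀ : Matrix (Fin 2) (Fin 2) k} {q : k} (h2 : (2 : k) ≠ 0) (hq : q ≠ 0)
    (hrel : UnRel Φ₀ N₀ q) : GoodPairU Φ₀ N₀ q := by
  by_cases hN : N₀ = 0
  · subst hN
    by_cases htF : Φ₀.trace ^ 2 = (q + 1) ^ 2
    · have htr : ∃ ε : k, ε ^ 2 = 1 ∧ Φ₀.trace = ε * (q + 1) := by
        have h3 : (Φ₀.trace - (q + 1)) * (Φ₀.trace + (q + 1)) = 0 := by
          linear_combination htF
        rcases mul_eq_zero.mp h3 with h | h
        · exact ⟨1, by norm_num, by linear_combination h⟩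
        · exact ⟨-1, by norm_num, by linear_combination h⟩
      obtain ⟨ε, hε, htr⟩ := htr
      by_cases hq1 : q = 1
      · subst hq1
        by_cases hM : Φ₀ - Matrix.scalar (Fin 2) ε = 0
        · have h3 : Φ₀ = !![ε, 0; 0, ε] := by
            rw [sub_eq_zero] at hM
            rw [hM]
            ext i j
            fin_cases i <;> fin_cases j <;> simp
          rw [h3]
          exact goodPairU_scalar h2 hε
        · obtain ⟨g, g', hg, hg2⟩ := exists_conj_nilp hM (by
            rw [Matrix.trace_sub, htr, Matrix.trace_fin_two]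
            simp
            ring) (by
            have h3 := hrel.detF
            rw [Matrix.trace_fin_two] at htr
            rw [Matrix.det_fin_two] at h3 ⊢
            simp
            linear_combination h3 - ε * htr - hε)
          refine GoodPairU.of_conj hg ?_
          have h4 : g * Φ₀ * g' = !![ε, 1; 0, ε] := by
            have h5 : Φ₀ = (Φ₀ - Matrix.scalar (Fin 2) ε) + Matrix.scalar (Fin 2) ε := by abel
            rw [h5, Matrix.mul_add, Matrix.add_mul, hg2, ← Matrix.scalar_commute ε (fun _ => mul_comm _ _) g]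
            rw [Matrix.mul_assoc, hg]
            ext i j
            fin_cases i <;> fin_cases j <;> simp
          rw [h4, Matrix.mul_zero, Matrix.zero_mul]
          exact goodPairU_reg h2 hε
      · have hne : ε * q ≠ ε := by
          intro h
          have hε0 : ε ≠ 0 := fun h0 => by rw [h0] at hε; norm_num at hε
          apply hq1
          have h3 : ε * (q - 1) = 0 := by linear_combination h
          have := (mul_eq_zero.mp h3).resolve_left hε0
          linear_combination this
        obtain ⟨g, g', hg, hg2⟩ := exists_conj_diag hne (M := Φ₀) (by rw [htr]; ring) (by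
          rw [hrel.detF]; linear_combination -q * hε)
        refine GoodPairU.of_conj hg ?_
        rw [hg2, Matrix.mul_zero, Matrix.zero_mul]
        exact goodPairU_dist h2 hq hε hq1
    · exact goodPairU_gen hq hrel.detF htF
  · obtain ⟨g, g', hg, hg2⟩ := exists_conj_nilp hN hrel.tr hrel.det
    refine GoodPairU.of_conj hg ?_
    have h3 := (hrel.st hN hq).conj hg
    rw [hg2] at h3 ⊢
    exact goodPairU_ram h2 hq h3

section UniType

variable {𝒪 : Type} [CommRing 𝒪] [IsLocalRing 𝒪]

/-- The relations of unipotent type. -/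
def uniRel (M : Bool → Matrix (Fin 2) (Fin 2) 𝒪) (q : 𝒪) : Set (MvPowerSeries LIx 𝒪) :=
  {(stMat M true).trace, (stMat M true).det, (stMat M false).det - C q} ∪
  Set.range fun ij : Fin 2 × Fin 2 => (stMat M false * stMat M true -
    (C q : MvPowerSeries LIx 𝒪) • (stMat M true * stMat M false)) ij.1 ij.2

lemma uniRel_iff {B : Type*} [CommRing B] (f : MvPowerSeries LIx 𝒪 →+* B)
    (M : Bool → Matrix (Fin 2) (Fin 2) 𝒪) (q : 𝒪) :
    (∀ r ∈ uniRel M q, f r = 0) ↔ UnRel ((stMat M false).map f) ((stMat M true).map f)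
      (f (C q)) := by
  have htr : ∀ N : Matrix (Fin 2) (Fin 2) (MvPowerSeries LIx 𝒪), (N.map f).trace = f N.trace := by
    intro N
    rw [Matrix.trace_fin_two, Matrix.trace_fin_two, map_add]; rfl
  have hdet : ∀ N : Matrix (Fin 2) (Fin 2) (MvPowerSeries LIx 𝒪), (N.map f).det = f N.det := by
    intro N
    rw [RingHom.map_det, RingHom.mapMatrix_apply]
  have hcm : ∀ i j, f ((stMat M false * stMat M true -
      (C q : MvPowerSeries LIx 𝒪) • (stMat M true * stMat M false)) i j) = (((stMat M false).map f) *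
        ((stMat M true).map f)) i j - (f (C q) • (((stMat M true).map f) *
        ((stMat M false).map f))) i j := by
    intro i j
    rw [Matrix.sub_apply, Matrix.smul_apply, smul_eq_mul, map_sub, map_mul, ← Matrix.map_mul,
      ← Matrix.map_mul, Matrix.smul_apply, Matrix.map_apply, Matrix.map_apply, smul_eq_mul]
  constructor
  · intro h
    refine ⟨?_, ?_, ?_, ?_⟩
    · rw [htr]; exact h _ (Or.inl (Or.inl rfl))
    · rw [hdet]; exact h _ (Or.inl (Or.inr (Or.inl rfl)))
    · ext i j
      rw [← sub_eq_zero, ← hcm]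
      exact h _ (Or.inr ⟨(i, j), rfl⟩)
    · have := h _ (Or.inl (Or.inr (Or.inr rfl)))
      rw [map_sub, sub_eq_zero] at this
      rw [hdet]; exact this
  · rintro ⟨h1, h2, h3, h4⟩ r hr
    rcases hr with (rfl | rfl | rfl) | ⟨⟨i, j⟩, rfl⟩
    · rw [← htr]; exact h1
    · rw [← hdet]; exact h2
    · rw [map_sub, sub_eq_zero, ← hdet]; exact h4
    · change f ((stMat M false * stMat M true - (C q : MvPowerSeries LIx 𝒪) • (stMat M true * stMat M false)) i j) = 0
      rw [hcm, h3, sub_self]

/-- The local analysis, over the power series ring. -/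
theorem exists_params_uni (M : Bool → Matrix (Fin 2) (Fin 2) 𝒪) (q : 𝒪)
    (h2 : (2 : 𝒪) ∉ maximalIdeal 𝒪) (hq : q ∉ maximalIdeal 𝒪)
    (hrel : UnRel ((M false).map (residue 𝒪)) ((M true).map (residue 𝒪)) (residue 𝒪 q)) :
    ∃ θ : Fin 3 → MvPowerSeries LIx 𝒪, (∀ a, θ a ∈ maximalIdeal (MvPowerSeries LIx 𝒪)) ∧
      ∀ 𝔱 : Ideal (MvPowerSeries LIx 𝒪), 𝔱.IsPrime → (∀ b ∈ maximalIdeal 𝒪, C b ∈ 𝔱) →
        uniRel M q ⊆ 𝔱 → (∀ a, θ a ∈ 𝔱) → maximalIdeal (MvPowerSeries LIx 𝒪) ≤ 𝔱 := by
  obtain ⟨ℓ, hℓ⟩ := goodPairU (k := ResidueField 𝒪) (by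
    intro h
    apply h2
    rw [← residue_eq_zero_iff, map_ofNat]; exact h) (by
    intro h
    exact hq ((residue_eq_zero_iff _).mp h)) hrel
  choose c hc using fun a i => residue_surjective (R := 𝒪) (ℓ a i)
  refine ⟨fun a => ∑ i, C (c a i) * X i, fun a => Ideal.sum_mem _ fun i _ =>
    Ideal.mul_mem_left _ _ (X_mem_maximalIdeal' _), fun 𝔱 h𝔱 hC hR hθ => ?_⟩
  haveI := h𝔱
  haveI : IsLocalRing (MvPowerSeries LIx 𝒪 ⧸ 𝔱) := isLocalRing_quotient h𝔱.ne_top
  let e : ResidueField 𝒪 →+* MvPowerSeries LIx 𝒪 ⧸ 𝔱 :=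
    Ideal.Quotient.lift (maximalIdeal 𝒪) ((Ideal.Quotient.mk 𝔱).comp C) (fun b hb =>
      Ideal.Quotient.eq_zero_iff_mem.mpr (hC b hb))
  have he : ∀ b, e (residue 𝒪 b) = Ideal.Quotient.mk 𝔱 (C b) := fun b => rfl
  letI : Algebra (ResidueField 𝒪) (MvPowerSeries LIx 𝒪 ⧸ 𝔱) := e.toAlgebra
  have he' : ∀ b, algebraMap (ResidueField 𝒪) (MvPowerSeries LIx 𝒪 ⧸ 𝔱) (residue 𝒪 b) =
    Ideal.Quotient.mk 𝔱 (C b) := fun b => rfl
  have hmat : ∀ s, (stMat M s).map (Ideal.Quotient.mk 𝔱) =
      ((M s).map (residue 𝒪)).map (algebraMap (ResidueField 𝒪) (MvPowerSeries LIx 𝒪 ⧸ 𝔱)) +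
        xMat (fun i => Ideal.Quotient.mk 𝔱 (X i)) s := by
    intro s
    ext a b
    rfl
  have h3 := hℓ (MvPowerSeries LIx 𝒪 ⧸ 𝔱) (fun i => Ideal.Quotient.mk 𝔱 (X i))
    (fun i => mk_mem_maximalIdeal' (X_mem_maximalIdeal' i)) (by
      have h4 := (uniRel_iff (Ideal.Quotient.mk 𝔱) M q).mp fun r hr =>
        Ideal.Quotient.eq_zero_iff_mem.mpr (hR hr)
      rw [hmat, hmat] at h4
      exact h4) (fun a => by
      have h4 := Ideal.Quotient.eq_zero_iff_mem.mpr (hθ a)
      rw [map_sum] at h4
      rw [← h4]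
      refine Finset.sum_congr rfl fun i _ => ?_
      rw [map_mul, ← hc a i, he'])
  exact maximalIdeal_le_of_X hC fun i => Ideal.Quotient.eq_zero_iff_mem.mp (h3 i)

/-- The type of all unipotent representations. -/
noncomputable def LocType.uni (M : Bool → Matrix (Fin 2) (Fin 2) 𝒪) (q : 𝒪)
    (h2 : (2 : 𝒪) ∉ maximalIdeal 𝒪) (hq : q ∉ maximalIdeal 𝒪)
    (hrel : UnRel ((M false).map (residue 𝒪)) ((M true).map (residue 𝒪)) (residue 𝒪 q)) :
    LocType 𝒪 3 where
  ι := LIx
  Rel := uniRel M q
  θ := (exists_params_uni M q h2 hq hrel).choose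
  hθ := (exists_params_uni M q h2 hq hrel).choose_spec.1
  hfin := (exists_params_uni M q h2 hq hrel).choose_spec.2

end UniType

end Fermat.Agent.RT
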