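import Fermat.Agent.RT.Lowering

set_option autoImplicit false
set_option maxHeartbeats 400000
set_option linter.style.haveILetI false
set_option linter.unusedSectionVars false
set_option linter.unusedVariables false

/-!
# The lowering theorem
-/

open IsLocalRing MvPowerSeries

namespace Fermat.Agent.RT

universe u

variable {𝒪 : Type u} [CommRing 𝒪] [IsDomain 𝒪] [IsLocalRing 𝒪] [IsNoetherianRing 𝒪]
  [IsAdicComplete (maximalIdeal 𝒪) 𝒪] (k : ChiConst 𝒪) {ι' : Type u} [Fintype ι']

section Res

/-- The unit `1 + Y`. -/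
noncomputable def resPhi (F : Type*) [Field F] : MvPowerSeries Unit F := 1 + X ()

lemma resPhi_isUnit (F : Type*) [Field F] : IsUnit (resPhi F) := by
  rw [isUnit_iff_constantCoeff, resPhi]; simp

/-- The inverse of `1 + Y`. -/
noncomputable def resPhi' (F : Type*) [Field F] : MvPowerSeries Unit F :=
  (resPhi_isUnit F).exists_right_inv.choose

lemma resPhi_mul (F : Type*) [Field F] : resPhi F * resPhi' F = 1 :=
  (resPhi_isUnit F).exists_right_inv.choose_spec

lemma resPhi_sub_one_mem (F : Type*) [Field F] :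
    resPhi F - 1 ∈ maximalIdeal (MvPowerSeries Unit F) := by
  rw [resPhi, add_sub_cancel_left]; exact X_mem_maximalIdeal' _

lemma resPhi'_sub_one_mem (F : Type*) [Field F] :
    resPhi' F - 1 ∈ maximalIdeal (MvPowerSeries Unit F) := by
  have h : resPhi' F - 1 = - (resPhi' F * (resPhi F - 1)) := by
    linear_combination resPhi_mul F
  rw [h]
  exact (Ideal.neg_mem_iff _).mpr (Ideal.mul_mem_left _ _ (resPhi_sub_one_mem F))

instance isAdicComplete_field (F : Type*) [Field F] : IsAdicComplete (maximalIdeal F) F := by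
  rw [IsLocalRing.maximalIdeal_eq_bot]
  infer_instance

variable (𝒪 ι') in
/-- The residual point: `Σ = 1`, `Φ = diag(1 + Y, (1 + Y)⁻¹)`. -/
noncomputable def resPt : MvPowerSeries (ι' ⊕ LIx) 𝒪 →+* MvPowerSeries Unit (ResidueField 𝒪) :=
  evalHom (maximalIdeal _) ((C).comp (residue 𝒪))
    (ptVal (fun _ => 0) 0 (fun s => if s then 1 else resPhi (ResidueField 𝒪)) (fun _ => 0)
      (fun s => if s then 1 else resPhi' (ResidueField 𝒪)))
    (ptVal_mem (fun _ => Ideal.zero_mem _) 0
      (fun s => by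
        cases s
        · exact resPhi_sub_one_mem _
        · change (1 : MvPowerSeries Unit (ResidueField 𝒪)) - 1 ∈ _
          rw [sub_self]; exact Ideal.zero_mem _)
      (fun _ => Ideal.zero_mem _)
      (fun s => by
        cases s
        · exact resPhi'_sub_one_mem _
        · change (1 : MvPowerSeries Unit (ResidueField 𝒪)) - 1 ∈ _
          rw [sub_self]; exact Ideal.zero_mem _))

omit [IsDomain 𝒪] [IsNoetherianRing 𝒪] [IsAdicComplete (maximalIdeal 𝒪) 𝒪] in
lemma resPt_C (b : 𝒪) : resPt 𝒪 ι' (C b) = C (residue 𝒪 b) := by rw [resPt, evalHom_C]; rfl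

omit [IsDomain 𝒪] [IsNoetherianRing 𝒪] [IsAdicComplete (maximalIdeal 𝒪) 𝒪] in
lemma resPt_C_mem {b : 𝒪} (hb : b ∈ maximalIdeal 𝒪) : resPt 𝒪 ι' (C b) = 0 := by
  rw [resPt_C, (residue_eq_zero_iff b).mpr hb, map_zero]

omit [IsDomain 𝒪] [IsNoetherianRing 𝒪] [IsAdicComplete (maximalIdeal 𝒪) 𝒪] in
lemma resPt_inl (i : ι') : resPt 𝒪 ι' (X (Sum.inl i)) = 0 := by rw [resPt, evalHom_X]; rfl

omit [IsDomain 𝒪] [IsNoetherianRing 𝒪] [IsAdicComplete (maximalIdeal 𝒪) 𝒪] in
lemma matOf_resPt_false : matOf (resPt 𝒪 ι') false =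
    lowConj 0 (resPhi (ResidueField 𝒪)) 0 (resPhi' (ResidueField 𝒪)) := by
  have h : matOf (resPt 𝒪 ι') false - 1 =
      lowConj 0 (resPhi (ResidueField 𝒪)) 0 (resPhi' (ResidueField 𝒪)) - 1 := by
    refine Matrix.ext fun a b => ?_
    rw [matOf_sub_one, resPt, evalHom_X]
    rfl
  have := congrArg (· + 1) h
  simpa using this

omit [IsDomain 𝒪] [IsNoetherianRing 𝒪] [IsAdicComplete (maximalIdeal 𝒪) 𝒪] in
include k in
/-- The trace of Frobenius at the residual point is not `±2`. -/
lemma trace_resPt_sq_ne : (matOf (resPt 𝒪 ι') false).trace ^ 2 ≠ 4 := by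
  rw [matOf_resPt_false, Matrix.trace_fin_two]
  change (resPhi (ResidueField 𝒪) - 0 * 0 + (resPhi' (ResidueField 𝒪) + 0 * 0)) ^ 2 ≠ 4
  rw [mul_zero, sub_zero, add_zero]
  intro h
  set φ := resPhi (ResidueField 𝒪)
  set φ' := resPhi' (ResidueField 𝒪)
  have h1 := resPhi_mul (ResidueField 𝒪)
  have h2 : (2 : ResidueField 𝒪) ≠ 0 := by
    intro h0
    have := congrArg (residue 𝒪) k.hhalf
    rw [map_mul, map_ofNat, map_one, h0, zero_mul] at this
    exact zero_ne_one this
  have h3 : IsUnit (φ + φ' + 2) := by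
    have h5 : φ + φ' + 2 = (φ - 1) + (φ' - 1) + 4 := by ring
    have h6 : IsUnit (4 : MvPowerSeries Unit (ResidueField 𝒪)) := by
      have : (4 : MvPowerSeries Unit (ResidueField 𝒪)) = C (4 : ResidueField 𝒪) := by
        rw [map_ofNat]
      rw [this]
      have h4 : (4 : ResidueField 𝒪) ≠ 0 := by
        have : (4 : ResidueField 𝒪) = 2 * 2 := by norm_num
        rw [this]; exact mul_ne_zero h2 h2
      exact (isUnit_iff_ne_zero.mpr h4).map _
    by_contra hne
    have h7 : φ + φ' + 2 ∈ maximalIdeal (MvPowerSeries Unit (ResidueField 𝒪)) := hne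
    rw [h5] at h7
    have h8 := Ideal.sub_mem _ h7 (Ideal.add_mem _ (resPhi_sub_one_mem (ResidueField 𝒪))
      (resPhi'_sub_one_mem (ResidueField 𝒪)))
    rw [add_sub_cancel_left] at h8
    exact h8 h6
  have h9 : (φ + φ' - 2) * (φ + φ' + 2) = 0 := by linear_combination h
  have h10 : φ + φ' - 2 = 0 := (IsUnit.mul_left_eq_zero h3).mp h9
  have h11 : (φ - 1) ^ 2 = 0 := by
    linear_combination φ * h10 - h1
  have h12 : φ - 1 = X () := by
    change resPhi (ResidueField 𝒪) - 1 = X ()
    rw [resPhi, add_sub_cancel_left]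
  rw [h12] at h11
  have h13 : (X () : MvPowerSeries Unit (ResidueField 𝒪)) = 0 := by
    haveI : NoZeroDivisors (MvPowerSeries Unit (ResidueField 𝒪)) :=
      MvPowerSeries.instNoZeroDivisors
    exact pow_eq_zero_iff (two_ne_zero) |>.mp h11
  have h14 := congrArg (coeff (Finsupp.single () 1)) h13
  rw [coeff_X, if_pos rfl, map_zero] at h14
  exact one_ne_zero h14

end Res

section Dim

/-- In a local domain of residue characteristic `≠ 2` where `q = ζ = ζ' = 1`, a point of type `χ`
with vanishing parameters is trivial. -/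
lemma trivial_of_params {A : Type*} [CommRing A] [IsDomain A] [IsLocalRing A]
    (π : MvPowerSeries (ι' ⊕ LIx) 𝒪 →+* A) (hπX : ∀ i, π (X i) ∈ maximalIdeal A)
    (hπC : ∀ b ∈ maximalIdeal 𝒪, π (C b) = 0) (hrel : ChiRel k π)
    (h1 : π (X (Sum.inr (false, 0, 1)) + X (Sum.inr (true, 1, 0))) = 0)
    (h2 : π (X (Sum.inr (false, 1, 0)) + X (Sum.inr (true, 0, 1))) = 0)
    (h3 : π (X (Sum.inr (false, 0, 0))) = 0) (s : Bool) (a b : Fin 2) :
    π (X (Sum.inr (s, a, b))) = 0 := by
  have hζ : π (C k.ζ) = 1 := by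
    have := hπC _ k.hζ
    rw [map_sub, map_sub, map_one, map_one, sub_eq_zero] at this
    exact this
  have hζ' : π (C k.ζ') = 1 := by
    have := hπC _ k.hζ'
    rw [map_sub, map_sub, map_one, map_one, sub_eq_zero] at this
    exact this
  have hq : π (C k.q) = 1 := by
    have := hπC _ k.hq
    rw [map_sub, map_sub, map_one, map_one, sub_eq_zero] at this
    exact this
  have hhalf : (2 : A) * π (C k.half) = 1 := by
    have := congrArg (π.comp (C : 𝒪 →+* _)) k.hhalf
    rw [map_mul, map_ofNat, map_one] at this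
    exact this
  have h2ne : (2 : A) ≠ 0 := fun h => by rw [h, zero_mul] at hhalf; exact zero_ne_one hhalf
  set x00 := π (X (Sum.inr (false, 0, 0))) with hx00
  set x01 := π (X (Sum.inr (false, 0, 1))) with hx01
  set x10 := π (X (Sum.inr (false, 1, 0))) with hx10
  set x11 := π (X (Sum.inr (false, 1, 1))) with hx11
  set n00 := π (X (Sum.inr (true, 0, 0))) with hn00
  set n01 := π (X (Sum.inr (true, 0, 1))) with hn01
  set n10 := π (X (Sum.inr (true, 1, 0))) with hn10
  set n11 := π (X (Sum.inr (true, 1, 1))) with hn11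
  have m00 : matOf π true 0 0 = 1 + n00 := rfl
  have m01 : matOf π true 0 1 = n01 := by
    change (1 : Matrix (Fin 2) (Fin 2) A) 0 1 + n01 = n01
    rw [Matrix.one_apply_ne (by decide), zero_add]
  have m10 : matOf π true 1 0 = n10 := by
    change (1 : Matrix (Fin 2) (Fin 2) A) 1 0 + n10 = n10
    rw [Matrix.one_apply_ne (by decide), zero_add]
  have m11 : matOf π true 1 1 = 1 + n11 := rfl
  have f00 : matOf π false 0 0 = 1 + x00 := rfl
  have f01 : matOf π false 0 1 = x01 := by
    change (1 : Matrix (Fin 2) (Fin 2) A) 0 1 + x01 = x01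
    rw [Matrix.one_apply_ne (by decide), zero_add]
  have f10 : matOf π false 1 0 = x10 := by
    change (1 : Matrix (Fin 2) (Fin 2) A) 1 0 + x10 = x10
    rw [Matrix.one_apply_ne (by decide), zero_add]
  have f11 : matOf π false 1 1 = 1 + x11 := rfl
  have htr := hrel.tr
  have hdet := hrel.det
  have hdetF := hrel.detF
  rw [Matrix.trace_fin_two, m00, m11, hζ, hζ'] at htr
  rw [Matrix.det_fin_two, m00, m01, m10, m11] at hdet
  rw [Matrix.det_fin_two, f00, f01, f10, f11, hq] at hdetF
  have hc00 := congrFun (congrFun hrel.comm 0) 0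
  have hc01 := congrFun (congrFun hrel.comm 0) 1
  have hc10 := congrFun (congrFun hrel.comm 1) 0
  simp only [Matrix.mul_apply, Fin.sum_univ_two, m00, m01, m10, m11, f00, f01, f10, f11]
    at hc00 hc01 hc10
  rw [map_add] at h1 h2
  have en11 : n11 = - n00 := by linear_combination htr
  have en : n00 ^ 2 + n01 * n10 = 0 := by
    rw [en11] at hdet
    linear_combination -hdet
  have ex01 : x01 = - n10 := by linear_combination h1
  have ex10 : x10 = - n01 := by linear_combination h2
  have ex11 : x11 = n01 * n10 := by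
    rw [ex01, ex10, h3] at hdetF
    linear_combination hdetF
  have ex11' : x11 = - n00 ^ 2 := by linear_combination ex11 + en
  have e1 : n10 ^ 2 = n01 ^ 2 := by
    rw [ex01, ex10] at hc00
    linear_combination -hc00
  have e2 : n00 * (2 * n10 + n01 * n00) = 0 := by
    rw [ex01, ex11', h3, en11] at hc01
    linear_combination hc01
  have e3 : n00 * (2 * n01 + n00 * n10) = 0 := by
    rw [ex10, ex11', h3, en11] at hc10
    linear_combination -hc10
  have hn00m : n00 ∈ maximalIdeal A := hπX _
  have hn00 : n00 = 0 := by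
    by_contra hne
    have e4 := (mul_eq_zero.mp e2).resolve_left hne
    have e5 := (mul_eq_zero.mp e3).resolve_left hne
    have e6 : (4 - n00 ^ 2) * n10 = 0 := by
      linear_combination 2 * e4 - n00 * e5
    have e7 : 4 - n00 ^ 2 ≠ 0 := by
      intro h
      have h4 : (2 * 2 : A) ∈ maximalIdeal A := by
        have : (2 * 2 : A) = n00 ^ 2 := by linear_combination h
        rw [this]; exact Ideal.pow_mem_of_mem _ hn00m _ two_pos
      exact h4 ((IsUnit.of_mul_eq_one _ hhalf).mul (IsUnit.of_mul_eq_one _ hhalf))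
    have e8 := (mul_eq_zero.mp e6).resolve_left e7
    rw [e8] at e1
    have e9 : n01 = 0 := by
      have : n01 ^ 2 = 0 := by rw [← e1]; ring
      exact pow_eq_zero_iff two_ne_zero |>.mp this
    apply hne
    have : n00 ^ 2 = 0 := by linear_combination en - n01 * e8
    exact pow_eq_zero_iff two_ne_zero |>.mp this
  have hn : n01 = 0 ∧ n10 = 0 := by
    rw [hn00] at en
    have e4 : n01 * n10 = 0 := by linear_combination en
    rcases mul_eq_zero.mp e4 with h | h
    · rw [h] at e1
      have : n10 ^ 2 = 0 := by rw [e1]; ring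
      exact ⟨h, pow_eq_zero_iff two_ne_zero |>.mp this⟩
    · rw [h] at e1
      have : n01 ^ 2 = 0 := by rw [← e1]; ring
      exact ⟨pow_eq_zero_iff two_ne_zero |>.mp this, h⟩
  obtain ⟨hn01, hn10⟩ := hn
  cases s <;> fin_cases a <;> fin_cases b
  · exact h3
  · change x01 = 0
    rw [ex01, hn10, neg_zero]
  · change x10 = 0
    rw [ex10, hn01, neg_zero]
  · change x11 = 0
    rw [ex11, hn01, zero_mul]
  · exact hn00
  · exact hn01
  · exact hn10
  · change n11 = 0
    rw [en11, hn00, neg_zero]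

end Dim

end Fermat.Agent.RT
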