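import Fermat.Agent.RT.RegularCase

set_option autoImplicit false
set_option maxHeartbeats 400000
set_option linter.style.haveILetI false
set_option linter.unusedSectionVars false
set_option linter.unusedVariables false

/-!
# The lowering theorem, regular case: residual point and support
-/

open IsLocalRing MvPowerSeries

namespace Fermat.Agent.RT

universe u

variable {𝒪 : Type u} [CommRing 𝒪] [IsDomain 𝒪] [IsLocalRing 𝒪] [IsNoetherianRing 𝒪]
  [IsAdicComplete (maximalIdeal 𝒪) 𝒪] (k : ChiConst 𝒪) {ι' : Type u} [Fintype ι']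

section Values

/-- The values of the variables at the residual point of the regular case. -/
noncomputable def regVal (F : Type*) [Field F] : ι' ⊕ LIx → MvPowerSeries Unit F
  | Sum.inl _ => 0
  | Sum.inr (true, _, _) => 0
  | Sum.inr (false, a, _) => if a = 1 then X () else 0

lemma regVal_mem (F : Type*) [Field F] (i : ι' ⊕ LIx) :
    regVal F i ∈ maximalIdeal (MvPowerSeries Unit F) := by
  rcases i with i | ⟨s, a, b⟩
  · exact Ideal.zero_mem _
  · cases s
    · change (if a = 1 then X () else 0 : MvPowerSeries Unit F) ∈ _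
      split_ifs
      · exact X_mem_maximalIdeal' _
      · exact Ideal.zero_mem _
    · exact Ideal.zero_mem _

variable (𝒪 ι') in
/-- The residual point of the regular case: `Σ = 1`, `Φ = (1 1; Y 1+Y)`. -/
noncomputable def resPtR : MvPowerSeries (ι' ⊕ LIx) 𝒪 →+* MvPowerSeries Unit (ResidueField 𝒪) :=
  evalHom (maximalIdeal _) ((C).comp (residue 𝒪)) (regVal (ResidueField 𝒪))
    (regVal_mem (ResidueField 𝒪))

omit [IsDomain 𝒪] [IsNoetherianRing 𝒪] [IsAdicComplete (maximalIdeal 𝒪) 𝒪] in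
lemma resPtR_C (b : 𝒪) : resPtR 𝒪 ι' (C b) = C (residue 𝒪 b) := by rw [resPtR, evalHom_C]; rfl

omit [IsDomain 𝒪] [IsNoetherianRing 𝒪] [IsAdicComplete (maximalIdeal 𝒪) 𝒪] in
lemma resPtR_C_mem {b : 𝒪} (hb : b ∈ maximalIdeal 𝒪) : resPtR 𝒪 ι' (C b) = 0 := by
  rw [resPtR_C, (residue_eq_zero_iff b).mpr hb, map_zero]

omit [IsDomain 𝒪] [IsNoetherianRing 𝒪] [IsAdicComplete (maximalIdeal 𝒪) 𝒪] in
lemma resPtR_X (i : ι' ⊕ LIx) : resPtR 𝒪 ι' (X i) = regVal (ResidueField 𝒪) i := by
  rw [resPtR, evalHom_X]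

omit [IsDomain 𝒪] [IsNoetherianRing 𝒪] [IsAdicComplete (maximalIdeal 𝒪) 𝒪] in
include k in
/-- The trace of Frobenius at the residual point is not `±2`. -/
lemma trace_resPtR_sq_ne : (matR (resPtR 𝒪 ι') false).trace ^ 2 ≠ 4 := by
  have h00 : matR (resPtR 𝒪 ι') false 0 0 = 1 := by
    change uMat _ 0 0 + resPtR 𝒪 ι' (X (Sum.inr (false, 0, 0))) = 1
    rw [resPtR_X]
    change 1 + (if (0 : Fin 2) = 1 then X () else 0 : MvPowerSeries Unit (ResidueField 𝒪)) = 1
    rw [if_neg (by decide), add_zero]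
  have h11 : matR (resPtR 𝒪 ι') false 1 1 = 1 + X () := by
    change uMat _ 1 1 + resPtR 𝒪 ι' (X (Sum.inr (false, 1, 1))) = 1 + X ()
    rw [resPtR_X]
    change 1 + (if (1 : Fin 2) = 1 then X () else 0 : MvPowerSeries Unit (ResidueField 𝒪)) = _
    rw [if_pos rfl]
  rw [Matrix.trace_fin_two, h00, h11]
  intro h
  have h2 : (2 : ResidueField 𝒪) ≠ 0 := by
    intro h0
    have := congrArg (residue 𝒪) k.hhalf
    rw [map_mul, map_ofNat, map_one, h0, zero_mul] at this
    exact zero_ne_one this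
  haveI : NoZeroDivisors (MvPowerSeries Unit (ResidueField 𝒪)) :=
    MvPowerSeries.instNoZeroDivisors
  have h3 : (X () : MvPowerSeries Unit (ResidueField 𝒪)) * (4 + X ()) = 0 := by
    linear_combination h
  rcases mul_eq_zero.mp h3 with h4 | h4
  · have h14 := congrArg (coeff (Finsupp.single () 1)) h4
    rw [coeff_X, if_pos rfl, map_zero] at h14
    exact one_ne_zero h14
  · have h5 := congrArg constantCoeff h4
    rw [map_add, constantCoeff_X, add_zero, map_zero, map_ofNat] at h5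
    have h6 : (4 : ResidueField 𝒪) = 2 * 2 := by norm_num
    rw [h6] at h5
    exact mul_ne_zero h2 h2 h5

end Values

section Base

variable (𝒪 ι') in
/-- The base variables: the other variables and the first row of Frobenius. -/
abbrev PB := MvPowerSeries (ι' ⊕ Fin 2) 𝒪

/-- The values of the base variables. -/
noncomputable def baseVal : ι' ⊕ Fin 2 → MvPowerSeries (ι' ⊕ LIx) 𝒪
  | Sum.inl i => X (Sum.inl i)
  | Sum.inr a => X (Sum.inr (false, 0, a))

omit [IsDomain 𝒪] [IsNoetherianRing 𝒪] [IsAdicComplete (maximalIdeal 𝒪) 𝒪] in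
lemma baseVal_mem (i : ι' ⊕ Fin 2) :
    (baseVal i : MvPowerSeries (ι' ⊕ LIx) 𝒪) ∈ maximalIdeal (MvPowerSeries (ι' ⊕ LIx) 𝒪) := by
  rcases i with i | a
  · exact X_mem_maximalIdeal' _
  · exact X_mem_maximalIdeal' _

variable (𝒪 ι') in
/-- The inclusion of the base. -/
noncomputable def jB : PB 𝒪 ι' →+* MvPowerSeries (ι' ⊕ LIx) 𝒪 :=
  evalHom (maximalIdeal _) C baseVal baseVal_mem

@[simp] lemma jB_C (b : 𝒪) : jB 𝒪 ι' (C b) = C b := by rw [jB, evalHom_C]

lemma jB_inl (i : ι') : jB 𝒪 ι' (X (Sum.inl i)) = X (Sum.inl i) := by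
  rw [jB, evalHom_X]; rfl

lemma jB_inr (a : Fin 2) : jB 𝒪 ι' (X (Sum.inr a)) = X (Sum.inr (false, 0, a)) := by
  rw [jB, evalHom_X]; rfl

lemma jB_mem {F : PB 𝒪 ι'} (hF : F ∈ maximalIdeal (PB 𝒪 ι')) :
    jB 𝒪 ι' F ∈ maximalIdeal (MvPowerSeries (ι' ⊕ LIx) 𝒪) :=
  map_maximalIdeal_le (fun b hb => by rw [jB_C]; exact C_mem_maximalIdeal hb)
    (fun i => by rw [jB, evalHom_X]; exact baseVal_mem i) hF

variable (𝒪 ι') in
/-- The inclusion of the other variables in the base. -/
noncomputable def incB : MvPowerSeries ι' 𝒪 →+* PB 𝒪 ι' :=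
  evalHom (maximalIdeal _) C (fun i => X (Sum.inl i)) (fun i => X_mem_maximalIdeal' _)

@[simp] lemma incB_C (b : 𝒪) : incB 𝒪 ι' (C b) = C b := by rw [incB, evalHom_C]

@[simp] lemma incB_X (i : ι') : incB 𝒪 ι' (X i) = X (Sum.inl i) := by rw [incB, evalHom_X]

lemma incB_mem {F : MvPowerSeries ι' 𝒪} (hF : F ∈ maximalIdeal (MvPowerSeries ι' 𝒪)) :
    incB 𝒪 ι' F ∈ maximalIdeal (PB 𝒪 ι') :=
  map_maximalIdeal_le (fun b hb => by rw [incB_C]; exact C_mem_maximalIdeal hb)
    (fun i => by rw [incB_X]; exact X_mem_maximalIdeal' _) hF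

lemma jB_comp_incB : (jB 𝒪 ι').comp (incB 𝒪 ι') = inc 𝒪 ι' := by
  refine ringHom_ext_of_hausdorff (I := maximalIdeal _) ?_ ?_ ?_ ?_
  · intro b hb
    rw [RingHom.comp_apply, incB_C, jB_C]
    exact C_mem_maximalIdeal hb
  · intro i
    rw [RingHom.comp_apply, incB_X, jB_inl]
    exact X_mem_maximalIdeal' _
  · intro b
    rw [RingHom.comp_apply, incB_C, jB_C, inc_C]
  · intro i
    rw [RingHom.comp_apply, incB_X, jB_inl, inc_X]

omit [IsDomain 𝒪] [IsNoetherianRing 𝒪] [IsAdicComplete (maximalIdeal 𝒪) 𝒪] in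
variable (𝒪 ι') in
lemma isUnit_one_add_X (i : ι' ⊕ Fin 2) : IsUnit (1 + X i : PB 𝒪 ι') := by
  rw [isUnit_iff_constantCoeff]; simp

variable (𝒪 ι') in
/-- The inverse of `1 + x₀₁`. -/
noncomputable def v01 : PB 𝒪 ι' := (isUnit_one_add_X 𝒪 ι' (Sum.inr 1)).exists_right_inv.choose

omit [IsDomain 𝒪] [IsNoetherianRing 𝒪] [IsAdicComplete (maximalIdeal 𝒪) 𝒪] in
lemma v01_spec : (1 + X (Sum.inr 1)) * v01 𝒪 ι' = 1 :=
  (isUnit_one_add_X 𝒪 ι' (Sum.inr 1)).exists_right_inv.choose_spec

/-- The values of the local variables in the unramified regular family. -/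
noncomputable def famVal : ι' ⊕ LIx → MvPowerSeries Unit (PB 𝒪 ι')
  | Sum.inl i => C (X (Sum.inl i))
  | Sum.inr (true, _, _) => 0
  | Sum.inr (false, a, b) =>
      if a = 0 then C (X (Sum.inr b)) else
      if b = 1 then X () else ((1 + C (X (Sum.inr 0))) * (1 + X ()) - C (C k.q)) * C (v01 𝒪 ι')

omit [IsDomain 𝒪] [IsNoetherianRing 𝒪] [IsAdicComplete (maximalIdeal 𝒪) 𝒪] in
lemma famVal_mem (i : ι' ⊕ LIx) :
    (famVal k i : MvPowerSeries Unit (PB 𝒪 ι')) ∈ maximalIdeal (MvPowerSeries Unit (PB 𝒪 ι')) := by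
  rcases i with i | ⟨s, a, b⟩
  · exact C_mem_maximalIdeal (X_mem_maximalIdeal' _)
  · cases s
    · change (if a = 0 then C (X (Sum.inr b)) else
        if b = 1 then X () else ((1 + C (X (Sum.inr 0))) * (1 + X ()) - C (C k.q)) *
          C (v01 𝒪 ι') : MvPowerSeries Unit (PB 𝒪 ι')) ∈ _
      split_ifs
      · exact C_mem_maximalIdeal (X_mem_maximalIdeal' _)
      · exact X_mem_maximalIdeal' _
      · refine Ideal.mul_mem_right _ _ ?_
        have h1 : ((1 + C (X (Sum.inr 0))) * (1 + X ()) - C (C k.q) :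
            MvPowerSeries Unit (PB 𝒪 ι')) =
            C (X (Sum.inr 0)) * (1 + X ()) + X () - C (C (k.q - 1)) := by
          rw [map_sub, map_sub, map_one, map_one]; ring
        rw [h1]
        exact Ideal.sub_mem _ (Ideal.add_mem _ (Ideal.mul_mem_right _ _
          (C_mem_maximalIdeal (X_mem_maximalIdeal' _))) (X_mem_maximalIdeal' _))
          (C_mem_maximalIdeal (C_mem_maximalIdeal k.hq))
    · exact Ideal.zero_mem _

/-- The unramified regular family. -/
noncomputable def fam : MvPowerSeries (ι' ⊕ LIx) 𝒪 →+* MvPowerSeries Unit (PB 𝒪 ι') :=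
  evalHom (maximalIdeal _) ((C).comp C) (famVal k) (famVal_mem k)

omit [IsDomain 𝒪] in
lemma fam_C (b : 𝒪) : fam k (C b : MvPowerSeries (ι' ⊕ LIx) 𝒪) = C (C b) := by
  rw [fam, evalHom_C]; rfl

omit [IsDomain 𝒪] in
lemma fam_X (i : ι' ⊕ LIx) : fam k (X i : MvPowerSeries (ι' ⊕ LIx) 𝒪) = famVal k i := by
  rw [fam, evalHom_X]

/-- The residue map of the base. -/
noncomputable def resB : PB 𝒪 ι' →+* ResidueField 𝒪 := (residue 𝒪).comp constantCoeff

omit [IsDomain 𝒪] [IsNoetherianRing 𝒪] [IsAdicComplete (maximalIdeal 𝒪) 𝒪] in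
lemma resB_eq_zero_iff (F : PB 𝒪 ι') : resB F = 0 ↔ F ∈ maximalIdeal (PB 𝒪 ι') := by
  rw [resB, RingHom.comp_apply, residue_eq_zero_iff, mem_maximalIdeal_iff]

/-- The residual point factors through the family. -/
lemma map_fam : (MvPowerSeries.map resB).comp (fam (ι' := ι') k) = resPtR 𝒪 ι' := by
  have hq : resB (C k.q : PB 𝒪 ι') = 1 := by
    have := (residue_eq_zero_iff (k.q - 1)).mpr k.hq
    rw [map_sub, map_one, sub_eq_zero] at this
    rw [resB, RingHom.comp_apply, constantCoeff_C, this]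
  have hX : ∀ i : ι' ⊕ Fin 2, resB (X i : PB 𝒪 ι') = 0 := fun i => by
    rw [resB, RingHom.comp_apply, constantCoeff_X, map_zero]
  have hv : resB (v01 𝒪 ι') = 1 := by
    have := congrArg resB (v01_spec (𝒪 := 𝒪) (ι' := ι'))
    rw [map_mul, map_add, map_one, hX, add_zero, one_mul] at this
    exact this
  have hval : ∀ i : ι' ⊕ LIx, MvPowerSeries.map resB (fam k (X i)) = regVal (ResidueField 𝒪) i := by
    intro i
    rw [fam_X]
    rcases i with i | ⟨s, a, b⟩
    · change MvPowerSeries.map resB (C (X (Sum.inl i))) = 0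
      rw [map_C, hX, map_zero]
    · cases s
      · change MvPowerSeries.map resB (if a = 0 then C (X (Sum.inr b)) else
          if b = 1 then X () else ((1 + C (X (Sum.inr 0))) * (1 + X ()) - C (C k.q)) *
            C (v01 𝒪 ι')) = if a = 1 then X () else 0
        by_cases ha : a = 0
        · rw [if_pos ha, ha, map_C, hX, map_zero, if_neg (by decide)]
        · have ha1 : a = 1 := by omega
          rw [if_neg ha, if_pos ha1]
          by_cases hb : b = 1
          · rw [if_pos hb, map_X]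
          · rw [if_neg hb, map_mul, map_sub, map_mul, map_add, map_add, map_one, map_C, map_X,
              map_C, map_C, hX, hq, hv, map_zero, map_one]
            ring
      · change MvPowerSeries.map resB (0 : MvPowerSeries Unit (PB 𝒪 ι')) = 0
        rw [map_zero]
  refine ringHom_ext_of_hausdorff (I := maximalIdeal _) ?_ ?_ ?_ ?_
  · intro b hb
    rw [RingHom.comp_apply, fam_C, map_C]
    have : resB (C b : PB 𝒪 ι') = 0 :=
      (resB_eq_zero_iff _).mpr (C_mem_maximalIdeal hb)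
    rw [this, map_zero]
    exact Ideal.zero_mem _
  · intro i
    rw [RingHom.comp_apply, hval]
    exact regVal_mem _ i
  · intro b
    rw [RingHom.comp_apply, fam_C, map_C, resPtR_C]
    rfl
  · intro i
    rw [RingHom.comp_apply, hval, resPtR_X]

end Base

end Fermat.Agent.RT
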