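import Fermat.Agent.RT.LoweringMain

set_option autoImplicit false
set_option maxHeartbeats 400000
set_option linter.style.haveILetI false
set_option linter.unusedSectionVars false
set_option linter.unusedVariables false

/-!
# The lowering theorem: assembly
-/

open IsLocalRing MvPowerSeries

namespace Fermat.Agent.RT

universe u

section DimVar

/-- Upper bound for the dimension from a system of parameters, in terms of primes. -/
lemma ringKrullDim_quotient_le_of_prime {P : Type*} [CommRing P] [IsLocalRing P]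
    [IsNoetherianRing P] (I : Ideal P) {m : ℕ} (θ : Fin m → P)
    (hθ : ∀ i, θ i ∈ maximalIdeal P)
    (h : ∀ 𝔱 : Ideal P, 𝔱.IsPrime → I ≤ 𝔱 → (∀ i, θ i ∈ 𝔱) → maximalIdeal P ≤ 𝔱) :
    ringKrullDim (P ⧸ I) ≤ m := by
  have h1 : maximalIdeal P ≤ (I ⊔ Ideal.span (Set.range θ)).radical := by
    rw [Ideal.radical_eq_sInf]
    refine le_sInf ?_
    rintro 𝔱 ⟨h𝔱, hp⟩
    exact h 𝔱 hp (le_sup_left.trans h𝔱) fun i =>
      h𝔱 (Ideal.mem_sup_right (Ideal.subset_span ⟨i, rfl⟩))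
  obtain ⟨N, hN⟩ := Ideal.exists_pow_le_of_le_radical_of_fg h1 (IsNoetherian.noetherian _)
  exact ringKrullDim_quotient_le_of_pow_le I θ hθ hN

end DimVar

section RelKer

variable {𝒪 : Type*} [CommRing 𝒪] [IsLocalRing 𝒪] (k : ChiConst 𝒪) {ι' : Type*} [Fintype ι']

lemma ChiRel.of_injective {A A' : Type*} [CommRing A] [CommRing A'] (f : A →+* A')
    (hf : Function.Injective f) {π : MvPowerSeries (ι' ⊕ LIx) 𝒪 →+* A}
    (h : ChiRel k (f.comp π)) : ChiRel k π := by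
  refine ⟨?_, ?_, ?_, ?_⟩
  · apply hf
    have h1 := h.tr
    rw [matOf_comp, Matrix.trace_fin_two, Matrix.map_apply, Matrix.map_apply, ← map_add,
      ← Matrix.trace_fin_two] at h1
    rw [h1, map_add]; rfl
  · apply hf
    have h1 := h.det
    rw [matOf_comp, ← RingHom.mapMatrix_apply, ← RingHom.map_det] at h1
    rw [h1, map_one]
  · have h1 := h.comm
    rw [matOf_comp, matOf_comp, ← Matrix.map_mul, ← Matrix.map_mul] at h1
    exact Matrix.map_injective hf h1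
  · apply hf
    have h1 := h.detF
    rw [matOf_comp, ← RingHom.mapMatrix_apply, ← RingHom.map_det] at h1
    exact h1

lemma ChiRel.of_ker_le {A : Type*} [CommRing A] {π : MvPowerSeries (ι' ⊕ LIx) 𝒪 →+* A}
    (h : ChiRel k π) {I : Ideal (MvPowerSeries (ι' ⊕ LIx) 𝒪)} (hI : RingHom.ker π ≤ I) :
    ChiRel k (Ideal.Quotient.mk I) := by
  have h1 : ChiRel k (Ideal.Quotient.mk (RingHom.ker π)) := by
    refine ChiRel.of_injective k (RingHom.kerLift π) (RingHom.kerLift_injective π) ?_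
    have : (RingHom.kerLift π).comp (Ideal.Quotient.mk (RingHom.ker π)) = π := by
      ext x; rfl
    rw [this]; exact h
  have h2 := h1.map k (Ideal.Quotient.factor hI)
  have h3 : (Ideal.Quotient.factor hI).comp (Ideal.Quotient.mk (RingHom.ker π)) =
      Ideal.Quotient.mk I := by
    ext x; rfl
  rwa [h3] at h2

lemma UniRel.mk_of_le {J I : Ideal (MvPowerSeries (ι' ⊕ LIx) 𝒪)} (h : UniRel k (Ideal.Quotient.mk J))
    (hI : J ≤ I) : UniRel k (Ideal.Quotient.mk I) := by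
  have h2 := h.map k (Ideal.Quotient.factor hI)
  have h3 : (Ideal.Quotient.factor hI).comp (Ideal.Quotient.mk J) = Ideal.Quotient.mk I := by
    ext x; rfl
  rwa [h3] at h2

lemma ChiRel.mk_of_le {J I : Ideal (MvPowerSeries (ι' ⊕ LIx) 𝒪)} (h : ChiRel k (Ideal.Quotient.mk J))
    (hI : J ≤ I) : ChiRel k (Ideal.Quotient.mk I) := by
  have h2 := h.map k (Ideal.Quotient.factor hI)
  have h3 : (Ideal.Quotient.factor hI).comp (Ideal.Quotient.mk J) = Ideal.Quotient.mk I := by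
    ext x; rfl
  rwa [h3] at h2

lemma lowConj_comm {R : Type*} [CommRing R] {c α β α' φ z φ' : R}
    (h : β * (φ - φ') = (α - α') * z) :
    lowConj c φ z φ' * lowConj c α β α' = lowConj c α β α' * lowConj c φ z φ' := by
  ext i j
  fin_cases i <;> fin_cases j
  · simp [lowConj, Matrix.mul_apply, Fin.sum_univ_two]
    linear_combination (-c) * h
  · simp [lowConj, Matrix.mul_apply, Fin.sum_univ_two]
    linear_combination h
  · simp [lowConj, Matrix.mul_apply, Fin.sum_univ_two]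
    linear_combination (-c^2) * h
  · simp [lowConj, Matrix.mul_apply, Fin.sum_univ_two]
    linear_combination c * h

end RelKer

section ChiMapFacts

local notation "mkT" => Ideal.Quotient.mk (Ideal.span {chiRel _})

variable {𝒪 : Type u} [CommRing 𝒪] [IsDomain 𝒪] [IsLocalRing 𝒪] [IsNoetherianRing 𝒪]
  [IsAdicComplete (maximalIdeal 𝒪) 𝒪] (k : ChiConst 𝒪) {ι' : Type u} [Fintype ι']
  {B : Type u} [CommRing B] [IsLocalRing B] [IsNoetherianRing B]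
  [IsAdicComplete (maximalIdeal B) B]
  (g₀ : MvPowerSeries ι' 𝒪 →+* B) (hg₀ : ∀ F ∈ maximalIdeal (MvPowerSeries ι' 𝒪),
    g₀ F ∈ maximalIdeal B)

lemma chiRel_chiMap : ChiRel k (chiMap (ι' := ι') k g₀ hg₀) := by
  refine ⟨?_, ?_, ?_, ?_⟩
  · rw [matOf_chiMap_true, Matrix.trace_fin_two, chiMap_C, chiMap_C]
    simp [lowConj]
  · rw [matOf_chiMap_true, Matrix.det_fin_two]
    have h1 : (C (chiG k g₀ k.ζ) : MvPowerSeries Unit (ChiT k g₀)) * C (chiG k g₀ k.ζ') = 1 := by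
      rw [← map_mul, ← map_mul, k.hζζ', map_one, map_one]
    simp [lowConj]
    linear_combination h1
  · rw [matOf_chiMap_true, matOf_chiMap_false]
    apply lowConj_comm
    have h1 := chi_rel k g₀
    have h2 := chiA_sub_chiA' k g₀ hg₀
    change chiA k g₀ hg₀ false - chiA' k g₀ hg₀ false = mkT (X 1) at h2
    rw [← h2] at h1
    rw [← map_sub, ← map_sub, ← map_mul, ← map_mul, h1, map_sub]
  · rw [matOf_chiMap_false, Matrix.det_fin_two, chiMap_C]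
    have h1 : (C (chiA k g₀ hg₀ false) : MvPowerSeries Unit (ChiT k g₀)) * C (chiA' k g₀ hg₀ false)
        = C (chiG k g₀ k.q) := by
      rw [← map_mul, chiA_mul_chiA']
    simp [lowConj]
    linear_combination h1

/-- The chart map on the other variables. -/
lemma chiMap_inc (F : MvPowerSeries ι' 𝒪) : chiMap k g₀ hg₀ (inc 𝒪 ι' F) =
    C (mkT (C (g₀ F)) : ChiT k g₀) := by
  set ψ₂ : MvPowerSeries ι' 𝒪 →+* MvPowerSeries Unit (ChiT k g₀) :=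
    ((C : ChiT k g₀ →+* MvPowerSeries Unit (ChiT k g₀)).comp
      (Ideal.Quotient.mk (Ideal.span {chiRel (dB k g₀)}))).comp
      ((C : B →+* MvPowerSeries (Fin 3) B).comp g₀) with hψ₂
  have key : (chiMap k g₀ hg₀).comp (inc 𝒪 ι') = ψ₂ := by
    refine ringHom_ext_of_hausdorff (I := maximalIdeal _) ?_ ?_ ?_ ?_
    · intro b hb
      rw [RingHom.comp_apply, inc_C, chiMap_C]
      exact C_mem_maximalIdeal (chiG_mem k g₀ hg₀ hb)
    · intro i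
      rw [RingHom.comp_apply, inc_X, chiMap_inl]
      exact C_mem_maximalIdeal (chiXi_mem k g₀ hg₀ i)
    · intro b
      rw [RingHom.comp_apply, inc_C, chiMap_C]; rfl
    · intro i
      rw [RingHom.comp_apply, inc_X, chiMap_inl]; rfl
  exact RingHom.congr_fun key F

lemma ker_chiMap_isPrime [IsDomain B] (hδ : dB k g₀ ≠ 0) :
    (RingHom.ker (chiMap (ι' := ι') k g₀ hg₀)).IsPrime := by
  haveI : (Ideal.span {chiRel (dB k g₀)}).IsPrime := isPrime_span_chiRel _ hδ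
  haveI : IsDomain (ChiT k g₀) := inferInstanceAs (IsDomain (_ ⧸ _))
  haveI : NoZeroDivisors (MvPowerSeries Unit (ChiT k g₀)) := MvPowerSeries.instNoZeroDivisors
  haveI : IsDomain (MvPowerSeries Unit (ChiT k g₀)) := NoZeroDivisors.to_isDomain _
  exact RingHom.ker_isPrime _

/-- The residual point lies on the chart. -/
lemma chiMap_ker_le_resPt {𝔟 : Ideal (MvPowerSeries ι' 𝒪)} (h𝔟 : 𝔟 ≠ ⊤)
    [IsLocalRing (MvPowerSeries ι' 𝒪 ⧸ 𝔟)] [IsNoetherianRing (MvPowerSeries ι' 𝒪 ⧸ 𝔟)]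
    [IsAdicComplete (maximalIdeal (MvPowerSeries ι' 𝒪 ⧸ 𝔟)) (MvPowerSeries ι' 𝒪 ⧸ 𝔟)]
    (hg : ∀ F ∈ maximalIdeal (MvPowerSeries ι' 𝒪),
      Ideal.Quotient.mk 𝔟 F ∈ maximalIdeal (MvPowerSeries ι' 𝒪 ⧸ 𝔟)) :
    RingHom.ker (chiMap (ι' := ι') k (Ideal.Quotient.mk 𝔟) hg) ≤ RingHom.ker (resPt 𝒪 ι') := by
  have h𝔟m : 𝔟 ≤ maximalIdeal (MvPowerSeries ι' 𝒪) := le_maximalIdeal h𝔟
  set r₀ : MvPowerSeries ι' 𝒪 →+* ResidueField 𝒪 := (residue 𝒪).comp constantCoeff with hr₀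
  have hr₀m : ∀ F ∈ maximalIdeal (MvPowerSeries ι' 𝒪), r₀ F = 0 := by
    intro F hF
    rw [hr₀, RingHom.comp_apply]
    exact (residue_eq_zero_iff _).mpr ((mem_maximalIdeal_iff F).mp hF)
  set r : MvPowerSeries ι' 𝒪 ⧸ 𝔟 →+* ResidueField 𝒪 :=
    Ideal.Quotient.lift 𝔟 r₀ (fun F hF => hr₀m F (h𝔟m hF)) with hr
  have hrmk : ∀ F, r (Ideal.Quotient.mk 𝔟 F) = r₀ F := fun F => Ideal.Quotient.lift_mk _ _ _
  set j : MvPowerSeries ι' 𝒪 ⧸ 𝔟 →+* MvPowerSeries Unit (ResidueField 𝒪) :=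
    (C : ResidueField 𝒪 →+* MvPowerSeries Unit (ResidueField 𝒪)).comp r with hj
  have hjC : ∀ b : 𝒪, j (Ideal.Quotient.mk 𝔟 (C b)) = C (residue 𝒪 b) := by
    intro b
    rw [hj, RingHom.comp_apply, hrmk, hr₀, RingHom.comp_apply, constantCoeff_C]
  have hj1 : ∀ b : 𝒪, b - 1 ∈ maximalIdeal 𝒪 → j (Ideal.Quotient.mk 𝔟 (C b)) = 1 := by
    intro b hb
    rw [hjC]
    have : residue 𝒪 b = 1 := by
      have h := (residue_eq_zero_iff (b - 1)).mpr hb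
      rw [map_sub, map_one, sub_eq_zero] at h
      exact h
    rw [this, map_one]
  have hjm : ∀ b ∈ maximalIdeal (MvPowerSeries ι' 𝒪 ⧸ 𝔟), j b ∈
      maximalIdeal (MvPowerSeries Unit (ResidueField 𝒪)) := by
    intro b hb
    obtain ⟨F, rfl⟩ := Ideal.Quotient.mk_surjective b
    have hF : F ∈ maximalIdeal (MvPowerSeries ι' 𝒪) := fun hu => hb (hu.map _)
    rw [hj, RingHom.comp_apply, hrmk, hr₀m F hF, map_zero]
    exact Ideal.zero_mem _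
  refine chiMap_ker_le k (Ideal.Quotient.mk 𝔟) hg j hjm (c := 0) (x := 0) (z := 0)
    (φ₁ := resPhi (ResidueField 𝒪)) (φ₂ := resPhi' (ResidueField 𝒪)) (Ideal.zero_mem _)
    (Ideal.zero_mem _) (resPhi_sub_one_mem _) ?_ ?_ (resPt 𝒪 ι') ?_ ?_ ?_ ?_
  · rw [resPhi_mul, hj1 _ k.hq]
  · rw [zero_mul, mul_zero]
  · intro b
    rw [resPt_C, hjC]
  · intro i
    rw [resPt_inl, hj, RingHom.comp_apply, hrmk, hr₀m _ (X_mem_maximalIdeal' i), map_zero]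
  · intro a b
    rw [resPt, evalHom_X, hj1 _ k.hζ, hj1 _ k.hζ']
    rfl
  · intro a b
    rw [resPt, evalHom_X]
    rfl

end ChiMapFacts

section Main

variable {𝒪 : Type u} [CommRing 𝒪] [IsDomain 𝒪] [IsLocalRing 𝒪] [IsNoetherianRing 𝒪]
  [IsAdicComplete (maximalIdeal 𝒪) 𝒪] (k : ChiConst 𝒪) {ι' : Type u} [Fintype ι']
  [IsNoetherianRing (MvPowerSeries ι' 𝒪)] [IsNoetherianRing (MvPowerSeries (ι' ⊕ LIx) 𝒪)]
  {S : Type*} [CommRing S] [IsDomain S] (i : 𝒪 →+* S) (hi : Function.Injective i)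
  (β : S →+* MvPowerSeries (ι' ⊕ LIx) 𝒪) (hβi : ∀ b, β (i b) = C b)
  {d : ℕ} (hd : 0 < d)

include hi hβi hd in
/-- The support of the module of type `χ` contains the residual point. -/
theorem chi_support (Bχ : MvPowerSeries (ι' ⊕ LIx) 𝒪 →+* Matrix (Fin d) (Fin d) S)
    (hBχ : ∀ s, Bχ (β s) = Matrix.scalar (Fin d) s)
    (hrelχ : ∀ 𝔮 : Ideal (MvPowerSeries (ι' ⊕ LIx) 𝒪), 𝔮.IsPrime → RingHom.ker Bχ ≤ 𝔮 →
      ∃ k : ChiConst 𝒪, k.ζ ≠ k.ζ' ∧ ChiRel k (Ideal.Quotient.mk 𝔮))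
    {e : ℕ} (θ : Fin e → MvPowerSeries ι' 𝒪) (hθ : ∀ a, θ a ∈ maximalIdeal (MvPowerSeries ι' 𝒪))
    (hfin : ∀ 𝔱 : Ideal (MvPowerSeries ι' 𝒪), 𝔱.IsPrime →
      (RingHom.ker Bχ).comap (inc 𝒪 ι') ≤ 𝔱 → (∀ a, θ a ∈ 𝔱) →
      maximalIdeal (MvPowerSeries ι' 𝒪) ≤ 𝔱)
    (he : ((e + 3 : ℕ) : WithBot ℕ∞) ≤ ringKrullDim S) :
    RingHom.ker Bχ ≤ RingHom.ker (resPt 𝒪 ι') := by
  have hnt := ker_ne_top Bχ hd
  obtain ⟨𝔮, h𝔮⟩ := Ideal.nonempty_minimalPrimes hnt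
  obtain ⟨h𝔮β, h𝔮d⟩ := minimalPrimes_facts Bχ β hBχ h𝔮
  haveI h𝔮p : 𝔮.IsPrime := h𝔮.1.1
  have hle : RingHom.ker Bχ ≤ 𝔮 := h𝔮.1.2
  obtain ⟨k, hζ, hrel𝔮⟩ := hrelχ 𝔮 h𝔮p hle
  set 𝔟 : Ideal (MvPowerSeries ι' 𝒪) := 𝔮.comap (inc 𝒪 ι') with h𝔟
  haveI h𝔟p : 𝔟.IsPrime := Ideal.IsPrime.comap _
  haveI : IsLocalRing (MvPowerSeries ι' 𝒪 ⧸ 𝔟) := isLocalRing_quotient h𝔟p.ne_top
  haveI : IsAdicComplete (maximalIdeal (MvPowerSeries ι' 𝒪 ⧸ 𝔟)) (MvPowerSeries ι' 𝒪 ⧸ 𝔟) :=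
    isAdicComplete_quotient
  have hg : ∀ F ∈ maximalIdeal (MvPowerSeries ι' 𝒪),
      Ideal.Quotient.mk 𝔟 F ∈ maximalIdeal (MvPowerSeries ι' 𝒪 ⧸ 𝔟) :=
    fun F hF => mk_mem_maximalIdeal' hF
  haveI : IsLocalRing (MvPowerSeries (ι' ⊕ LIx) 𝒪 ⧸ 𝔮) := isLocalRing_quotient h𝔮p.ne_top
  set j : MvPowerSeries ι' 𝒪 ⧸ 𝔟 →+* MvPowerSeries (ι' ⊕ LIx) 𝒪 ⧸ 𝔮 :=
    Ideal.quotientMap 𝔮 (inc 𝒪 ι') le_rfl with hj
  have hjmk : ∀ F, j (Ideal.Quotient.mk 𝔟 F) = Ideal.Quotient.mk 𝔮 (inc 𝒪 ι' F) := fun F => rfl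
  have hjm : ∀ b ∈ maximalIdeal (MvPowerSeries ι' 𝒪 ⧸ 𝔟), j b ∈
      maximalIdeal (MvPowerSeries (ι' ⊕ LIx) 𝒪 ⧸ 𝔮) := by
    intro b hb
    obtain ⟨F, rfl⟩ := Ideal.Quotient.mk_surjective b
    have hF : F ∈ maximalIdeal (MvPowerSeries ι' 𝒪) := fun hu => hb (hu.map _)
    rw [hjmk]
    exact mk_mem_maximalIdeal' (inc_mem hF)
  have hζq : ∀ b : 𝒪, C b ∈ 𝔮 → b = 0 := by
    intro b hb
    rw [← hβi, ← Ideal.mem_comap, h𝔮β, Ideal.mem_bot] at hb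
    exact hi (by rw [hb, map_zero])
  have hδ : Ideal.Quotient.mk 𝔮 (C (k.ζ - k.ζ')) ≠ 0 := by
    intro h
    exact hζ (sub_eq_zero.mp (hζq _ (Ideal.Quotient.eq_zero_iff_mem.mp h)))
  have h1 := chi_ker_le k (Ideal.Quotient.mk 𝔟) hg j hjm (Ideal.Quotient.mk 𝔮)
    (fun a => mk_mem_maximalIdeal' (X_mem_maximalIdeal' a))
    (fun b => by rw [hjmk, inc_C]) (fun a => by rw [hjmk, inc_X]) hrel𝔮 hδ
  rw [Ideal.mk_ker] at h1
  set I := RingHom.ker (chiMap (ι' := ι') k (Ideal.Quotient.mk 𝔟) hg) with hI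
  have hδB : dB k (Ideal.Quotient.mk 𝔟) ≠ 0 := by
    intro h
    have h2 := Ideal.Quotient.eq_zero_iff_mem.mp h
    rw [h𝔟, Ideal.mem_comap, inc_C] at h2
    exact hζ (sub_eq_zero.mp (hζq _ h2))
  haveI hIp : I.IsPrime := ker_chiMap_isPrime k _ hg hδB
  have hrelI := chiRel_chiMap k (Ideal.Quotient.mk 𝔟) hg
  have hdim : ringKrullDim (MvPowerSeries (ι' ⊕ LIx) 𝒪 ⧸ I) ≤ ((e + 3 : ℕ) : WithBot ℕ∞) := by
    refine ringKrullDim_quotient_le_of_prime I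
      (Fin.append (fun a => inc 𝒪 ι' (θ a))
        (![X (Sum.inr (false, 0, 1)) + X (Sum.inr (true, 1, 0)),
        X (Sum.inr (false, 1, 0)) + X (Sum.inr (true, 0, 1)), X (Sum.inr (false, 0, 0))]))
      ?_ ?_
    · intro a
      refine Fin.addCases (fun a => ?_) (fun a => ?_) a
      · rw [Fin.append_left]; exact inc_mem (hθ a)
      · rw [Fin.append_right]
        fin_cases a
        · exact Ideal.add_mem _ (X_mem_maximalIdeal' _) (X_mem_maximalIdeal' _)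
        · exact Ideal.add_mem _ (X_mem_maximalIdeal' _) (X_mem_maximalIdeal' _)
        · exact X_mem_maximalIdeal' _
    · intro 𝔱 h𝔱 hI𝔱 hall
      haveI := h𝔱
      haveI : IsLocalRing (MvPowerSeries (ι' ⊕ LIx) 𝒪 ⧸ 𝔱) := isLocalRing_quotient h𝔱.ne_top
      have h𝔟𝔱 : 𝔟 ≤ 𝔱.comap (inc 𝒪 ι') := by
        intro F hF
        apply hI𝔱
        rw [hI, RingHom.mem_ker, chiMap_inc, Ideal.Quotient.eq_zero_iff_mem.mpr hF, map_zero,
          map_zero, map_zero]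
      have h2 : maximalIdeal (MvPowerSeries ι' 𝒪) ≤ 𝔱.comap (inc 𝒪 ι') := by
        refine hfin _ (Ideal.IsPrime.comap _) ((Ideal.comap_mono hle).trans h𝔟𝔱) fun a => ?_
        have := hall (Fin.castAdd 3 a)
        rw [Fin.append_left] at this
        exact this
      have h3 : ∀ b ∈ maximalIdeal 𝒪, C b ∈ 𝔱 := by
        intro b hb
        have := h2 (C_mem_maximalIdeal hb)
        rwa [Ideal.mem_comap, inc_C] at this
      have h4 : ∀ a : ι', X (Sum.inl a) ∈ 𝔱 := by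
        intro a
        have := h2 (X_mem_maximalIdeal' a)
        rwa [Ideal.mem_comap, inc_X] at this
      have hrel𝔱 := hrelI.of_ker_le k hI𝔱
      have hp : ∀ m : Fin 3, Ideal.Quotient.mk 𝔱 ((![X (Sum.inr (false, 0, 1)) +
          X (Sum.inr (true, 1, 0)), X (Sum.inr (false, 1, 0)) + X (Sum.inr (true, 0, 1)),
          X (Sum.inr (false, 0, 0))] : Fin 3 → MvPowerSeries (ι' ⊕ LIx) 𝒪) m) = 0 := by
        intro m
        have := hall (Fin.natAdd e m)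
        rw [Fin.append_right] at this
        exact Ideal.Quotient.eq_zero_iff_mem.mpr this
      have h5 := trivial_of_params k (Ideal.Quotient.mk 𝔱)
        (fun a => mk_mem_maximalIdeal' (X_mem_maximalIdeal' a))
        (fun b hb => Ideal.Quotient.eq_zero_iff_mem.mpr (h3 b hb)) hrel𝔱 (hp 0) (hp 1) (hp 2)
      intro F hF
      exact map_maximalIdeal_le (ψ := RingHom.id _) (I := 𝔱) (fun b hb => h3 b hb)
        (fun a => by
          rcases a with a | ⟨s, a, b⟩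
          · exact h4 a
          · exact Ideal.Quotient.eq_zero_iff_mem.mp (h5 s a b)) hF
  have hIq : I = 𝔮 := eq_of_le_of_ringKrullDim_le h1 hdim (he.trans h𝔮d)
  calc RingHom.ker Bχ ≤ 𝔮 := hle
    _ = I := hIq.symm
    _ ≤ RingHom.ker (resPt 𝒪 ι') := chiMap_ker_le_resPt k h𝔟p.ne_top hg

include hi hβi hd in
/-- **The lowering theorem.** -/
theorem lowering (B₁ Bχ : MvPowerSeries (ι' ⊕ LIx) 𝒪 →+* Matrix (Fin d) (Fin d) S)
    (hB₁ : ∀ s, B₁ (β s) = Matrix.scalar (Fin d) s)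
    (hBχ : ∀ s, Bχ (β s) = Matrix.scalar (Fin d) s)
    (hcongr : ∀ x, (B₁ x).map (Ideal.Quotient.mk ((maximalIdeal 𝒪).map i)) =
      (Bχ x).map (Ideal.Quotient.mk ((maximalIdeal 𝒪).map i)))
    (hq0 : k.q ≠ 0) (hq1 : k.q ≠ 1)
    (hrel₁ : UniRel k (Ideal.Quotient.mk (RingHom.ker B₁)))
    (hrelχ : ∀ 𝔮 : Ideal (MvPowerSeries (ι' ⊕ LIx) 𝒪), 𝔮.IsPrime → RingHom.ker Bχ ≤ 𝔮 →
      ∃ k : ChiConst 𝒪, k.ζ ≠ k.ζ' ∧ ChiRel k (Ideal.Quotient.mk 𝔮))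
    {e : ℕ} (θ : Fin e → MvPowerSeries ι' 𝒪) (hθ : ∀ a, θ a ∈ maximalIdeal (MvPowerSeries ι' 𝒪))
    (hfin : ∀ 𝔱 : Ideal (MvPowerSeries ι' 𝒪), 𝔱.IsPrime →
      (RingHom.ker Bχ).comap (inc 𝒪 ι') ≤ 𝔱 → (∀ a, θ a ∈ 𝔱) →
      maximalIdeal (MvPowerSeries ι' 𝒪) ≤ 𝔱)
    (he : ((e + 3 : ℕ) : WithBot ℕ∞) ≤ ringKrullDim S) (𝔫 : Ideal S) [h𝔫 : 𝔫.IsPrime] :
    ∃ 𝔭 : Ideal (MvPowerSeries (ι' ⊕ LIx) 𝒪), 𝔭.IsPrime ∧ 𝔭.comap β = 𝔫 ∧
      (∀ x, (B₁ x).map (Ideal.Quotient.mk 𝔫) = 0 → x ∈ 𝔭) ∧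
      ∀ a b, X (Sum.inr (true, a, b)) ∈ 𝔭 := by
  haveI : NoZeroDivisors (MvPowerSeries Unit (ResidueField 𝒪)) := MvPowerSeries.instNoZeroDivisors
  haveI : IsDomain (MvPowerSeries Unit (ResidueField 𝒪)) := NoZeroDivisors.to_isDomain _
  haveI h𝔭₀ : (RingHom.ker (resPt 𝒪 ι')).IsPrime := RingHom.ker_isPrime _
  have h1 := chi_support i hi β hβi hd Bχ hBχ hrelχ θ hθ hfin he
  have hϖ : ((maximalIdeal 𝒪).map i).map β ≤ RingHom.ker (resPt 𝒪 ι') := by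
    rw [Ideal.map_le_iff_le_comap, Ideal.map_le_iff_le_comap]
    intro b hb
    rw [Ideal.mem_comap, Ideal.mem_comap, hβi, RingHom.mem_ker]
    exact resPt_C_mem hb
  have h2 : RingHom.ker B₁ ≤ RingHom.ker (resPt 𝒪 ι') :=
    ker_le_of_congr β hBχ ((maximalIdeal 𝒪).map i) (fun x => (hcongr x).symm) hϖ h1
  obtain ⟨𝔮, h𝔮, h𝔮𝔭⟩ := Ideal.exists_minimalPrimes_le h2
  obtain ⟨h𝔮β, -⟩ := minimalPrimes_facts B₁ β hB₁ h𝔮
  haveI h𝔮p : 𝔮.IsPrime := h𝔮.1.1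
  have hle : RingHom.ker B₁ ≤ 𝔮 := h𝔮.1.2
  have hrel𝔮 := hrel₁.mk_of_le k hle
  have hCq : ∀ b : 𝒪, C b ∈ 𝔮 → b = 0 := by
    intro b hb
    rw [← hβi, ← Ideal.mem_comap, h𝔮β, Ideal.mem_bot] at hb
    exact hi (by rw [hb, map_zero])
  have htriv : matOf (Ideal.Quotient.mk 𝔮) true - 1 = 0 := by
    by_contra hN
    have h3 := hrel𝔮.trace_sq k (fun h => hq0 (hCq _ (Ideal.Quotient.eq_zero_iff_mem.mp h)))
      (fun h => hq1 (by
        have h4 : Ideal.Quotient.mk 𝔮 (C (k.q - 1)) = 0 := by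
          rw [map_sub, map_sub, h, map_one, map_one, sub_self]
        exact sub_eq_zero.mp (hCq _ (Ideal.Quotient.eq_zero_iff_mem.mp h4)))) hN
    set f : MvPowerSeries (ι' ⊕ LIx) 𝒪 ⧸ 𝔮 →+* MvPowerSeries Unit (ResidueField 𝒪) :=
      Ideal.Quotient.lift 𝔮 (resPt 𝒪 ι') (fun x hx => RingHom.mem_ker.mp (h𝔮𝔭 hx)) with hf
    have hfmk : f.comp (Ideal.Quotient.mk 𝔮) = resPt 𝒪 ι' := by
      refine RingHom.ext fun x => ?_
      rfl
    apply trace_resPt_sq_ne k (ι' := ι')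
    rw [← hfmk, matOf_comp, Matrix.trace_fin_two, Matrix.map_apply, Matrix.map_apply, ← map_add,
      ← Matrix.trace_fin_two, ← map_pow, h3, map_pow, map_add, map_one]
    have h4 : f (Ideal.Quotient.mk 𝔮 (C k.q)) = 1 := by
      rw [← RingHom.comp_apply, hfmk]
      have h5 := resPt_C_mem (ι' := ι') k.hq
      rw [map_sub, map_sub, map_one, map_one, sub_eq_zero] at h5
      exact h5
    rw [h4]; norm_num
  obtain ⟨𝔭, h𝔭, h𝔮𝔭', h𝔭𝔫⟩ := exists_prime_over_of_ker_le B₁ β hB₁ hle h𝔮β 𝔫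
  haveI := h𝔭
  refine ⟨𝔭, h𝔭, h𝔭𝔫, fun x hx => ?_, fun a b => ?_⟩
  · refine ker_map_le B₁ β hB₁ 𝔫 (hle.trans h𝔮𝔭') ?_ x hx
    rw [Ideal.map_le_iff_le_comap, h𝔭𝔫]
  · apply h𝔮𝔭'
    rw [← Ideal.Quotient.eq_zero_iff_mem, ← matOf_sub_one, htriv]
    rfl

end Main

end Fermat.Agent.RT
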