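import Fermat.Agent.RT.LoweringReg

set_option autoImplicit false
set_option maxHeartbeats 400000
set_option linter.style.haveILetI false
set_option linter.unusedSectionVars false
set_option linter.unusedVariables false

/-!
# The lowering theorem, regular case
-/

open IsLocalRing MvPowerSeries

namespace Fermat.Agent.RT

universe u

section Point

variable {𝒪 : Type*} [CommRing 𝒪] [IsLocalRing 𝒪] (k : ChiConst 𝒪) {ι' : Type*} [Fintype ι']

/-- A point of type `χ` whose inertia is diagonal is unramified. -/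
lemma regular_point {A : Type*} [CommRing A] [IsLocalRing A]
    (π : MvPowerSeries (ι' ⊕ LIx) 𝒪 →+* A) (hπX : ∀ i, π (X i) ∈ maximalIdeal A)
    (hrel : ChiRelR k π) (h01 : π (X (Sum.inr (true, 0, 1))) = 0) :
    (∀ a b, π (X (Sum.inr (true, a, b))) = 0) ∧ π (C k.ζ) + π (C k.ζ') = 2 ∧
    (1 + π (X (Sum.inr (false, 0, 1)))) * π (X (Sum.inr (false, 1, 0))) =
      (1 + π (X (Sum.inr (false, 0, 0)))) * (1 + π (X (Sum.inr (false, 1, 1)))) - π (C k.q) := by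
  have hunit : ∀ a ∈ maximalIdeal A, IsUnit (1 + a) := by
    intro a ha
    by_contra hne
    have h1 : (1 : A) ∈ maximalIdeal A := by
      have : (1 : A) = (1 + a) - a := by ring
      rw [this]
      exact Ideal.sub_mem _ hne ha
    exact h1 isUnit_one
  have hhalf : (2 : A) * π (C k.half) = 1 := by
    have := congrArg (π.comp (C : 𝒪 →+* _)) k.hhalf
    rw [map_mul, map_ofNat, map_one] at this
    exact this
  set x00 := π (X (Sum.inr (false, 0, 0))) with hx00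
  set x01 := π (X (Sum.inr (false, 0, 1))) with hx01
  set x10 := π (X (Sum.inr (false, 1, 0))) with hx10
  set x11 := π (X (Sum.inr (false, 1, 1))) with hx11
  set n00 := π (X (Sum.inr (true, 0, 0))) with hn00
  set n10 := π (X (Sum.inr (true, 1, 0))) with hn10
  set n11 := π (X (Sum.inr (true, 1, 1))) with hn11
  have m00 : matR π true 0 0 = 1 + n00 := rfl
  have m01 : matR π true 0 1 = 0 := by
    change (1 : Matrix (Fin 2) (Fin 2) A) 0 1 + π (X (Sum.inr (true, 0, 1))) = 0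
    rw [Matrix.one_apply_ne (by decide), zero_add, h01]
  have m10 : matR π true 1 0 = n10 := by
    change (1 : Matrix (Fin 2) (Fin 2) A) 1 0 + n10 = n10
    rw [Matrix.one_apply_ne (by decide), zero_add]
  have m11 : matR π true 1 1 = 1 + n11 := rfl
  have f00 : matR π false 0 0 = 1 + x00 := rfl
  have f01 : matR π false 0 1 = 1 + x01 := rfl
  have f10 : matR π false 1 0 = x10 := by
    change (0 : A) + x10 = x10
    rw [zero_add]
  have f11 : matR π false 1 1 = 1 + x11 := rfl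
  have htr := hrel.tr
  have hdet := hrel.det
  have hdetF := hrel.detF
  rw [Matrix.trace_fin_two, m00, m11] at htr
  rw [Matrix.det_fin_two, m00, m01, m10, m11] at hdet
  rw [Matrix.det_fin_two, f00, f01, f10, f11] at hdetF
  have hc00 := congrFun (congrFun hrel.comm 0) 0
  have hc01 := congrFun (congrFun hrel.comm 0) 1
  simp only [Matrix.mul_apply, Fin.sum_univ_two, m00, m01, m10, m11, f00, f01, f10, f11]
    at hc00 hc01
  have hu01 := hunit x01 (hπX _)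
  have e10 : n10 = 0 := by
    have : (1 + x01) * n10 = 0 := by linear_combination hc00
    exact (IsUnit.mul_right_eq_zero hu01).mp this
  have e11 : n11 = n00 := by
    have : (1 + x01) * (n11 - n00) = 0 := by linear_combination hc01
    exact sub_eq_zero.mp ((IsUnit.mul_right_eq_zero hu01).mp this)
  have e00 : n00 = 0 := by
    have h1 : (2 * (1 + π (C k.half) * n00)) * n00 = 0 := by
      rw [e11] at hdet
      linear_combination hdet + n00 ^ 2 * hhalf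
    have h2 : IsUnit (2 * (1 + π (C k.half) * n00)) :=
      (IsUnit.of_mul_eq_one _ hhalf).mul (hunit _ (Ideal.mul_mem_left _ _ (hπX _)))
    exact (IsUnit.mul_right_eq_zero h2).mp h1
  refine ⟨?_, ?_, ?_⟩
  · intro a b
    fin_cases a <;> fin_cases b
    · exact e00
    · exact h01
    · exact e10
    · change n11 = 0
      rw [e11, e00]
  · rw [e11, e00] at htr
    rw [← htr]; ring
  · linear_combination -hdetF

end Point

section Main

variable {𝒪 : Type u} [CommRing 𝒪] [IsDomain 𝒪] [IsLocalRing 𝒪] [IsNoetherianRing 𝒪]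
  [IsAdicComplete (maximalIdeal 𝒪) 𝒪] (k : ChiConst 𝒪) {ι' : Type u} [Fintype ι']
  [IsNoetherianRing (PB 𝒪 ι')] [IsNoetherianRing (MvPowerSeries (ι' ⊕ LIx) 𝒪)]
  {S : Type*} [CommRing S] [IsDomain S] (i : 𝒪 →+* S) (hi : Function.Injective i)
  (β : S →+* MvPowerSeries (ι' ⊕ LIx) 𝒪) (hβi : ∀ b, β (i b) = C b)
  {d : ℕ} (hd : 0 < d)

/-- The quotient is integral over the base when the residual point is not in the component. -/
lemma isIntegral_of_not_le {J : Ideal (MvPowerSeries (ι' ⊕ LIx) 𝒪)} (hJ : J ≠ ⊤)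
    [Algebra (PB 𝒪 ι') (MvPowerSeries (ι' ⊕ LIx) 𝒪 ⧸ J)]
    (halg : algebraMap (PB 𝒪 ι') (MvPowerSeries (ι' ⊕ LIx) 𝒪 ⧸ J) =
      (Ideal.Quotient.mk J).comp (jB 𝒪 ι'))
    (hrel : ChiRelR k (Ideal.Quotient.mk J)) (h01 : X (Sum.inr (true, 0, 1)) ∈ J)
    (F : MvPowerSeries (ι' ⊕ LIx) 𝒪) (hF : F ∈ J) (hF0 : resPtR 𝒪 ι' F ≠ 0) :
    Algebra.IsIntegral (PB 𝒪 ι') (MvPowerSeries (ι' ⊕ LIx) 𝒪 ⧸ J) := by
  haveI : IsLocalRing (MvPowerSeries (ι' ⊕ LIx) 𝒪 ⧸ J) := isLocalRing_quotient hJ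
  haveI : IsAdicComplete (maximalIdeal (MvPowerSeries (ι' ⊕ LIx) 𝒪 ⧸ J))
    (MvPowerSeries (ι' ⊕ LIx) 𝒪 ⧸ J) := isAdicComplete_quotient
  have hm : ∀ a, Ideal.Quotient.mk J (X a) ∈ maximalIdeal (MvPowerSeries (ι' ⊕ LIx) 𝒪 ⧸ J) :=
    fun a => mk_mem_maximalIdeal' (X_mem_maximalIdeal' a)
  obtain ⟨hn, hζ, hx10⟩ := regular_point k (Ideal.Quotient.mk J) hm hrel
    (Ideal.Quotient.eq_zero_iff_mem.mpr h01)
  set ρ : PB 𝒪 ι' →+* MvPowerSeries (ι' ⊕ LIx) 𝒪 ⧸ J := (Ideal.Quotient.mk J).comp (jB 𝒪 ι')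
    with hρ
  set ψ : MvPowerSeries Unit (PB 𝒪 ι') →+* MvPowerSeries (ι' ⊕ LIx) 𝒪 ⧸ J :=
    evalHom (maximalIdeal _) ρ (fun _ => Ideal.Quotient.mk J (X (Sum.inr (false, 1, 1))))
      (fun _ => hm _) with hψ
  have hψX : ψ (X ()) = Ideal.Quotient.mk J (X (Sum.inr (false, 1, 1))) := by rw [hψ, evalHom_X]
  have hψC : ∀ b, ψ (C b) = ρ b := fun b => by rw [hψ, evalHom_C]
  have hρC : ∀ b : 𝒪, ρ (C b) = Ideal.Quotient.mk J (C b) := fun b => by
    rw [hρ, RingHom.comp_apply, jB_C]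
  have hρinr : ∀ b : Fin 2, ρ (X (Sum.inr b)) = Ideal.Quotient.mk J (X (Sum.inr (false, 0, b))) :=
    fun b => by rw [hρ, RingHom.comp_apply, jB_inr]
  have hv : (1 + Ideal.Quotient.mk J (X (Sum.inr (false, 0, 1)))) * ρ (v01 𝒪 ι') = 1 := by
    have := congrArg ρ (v01_spec (𝒪 := 𝒪) (ι' := ι'))
    rw [map_mul, map_add, map_one, hρinr] at this
    exact this
  have hψfam : ψ.comp (fam (ι' := ι') k) = Ideal.Quotient.mk J := by
    have hval : ∀ a : ι' ⊕ LIx, ψ (fam k (X a)) = Ideal.Quotient.mk J (X a) := by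
      intro a
      rw [fam_X]
      rcases a with a | ⟨s, a, b⟩
      · change ψ (C (X (Sum.inl a))) = _
        rw [hψC, hρ, RingHom.comp_apply, jB_inl]
      · cases s
        · change ψ (if a = 0 then C (X (Sum.inr b)) else
            if b = 1 then X () else ((1 + C (X (Sum.inr 0))) * (1 + X ()) - C (C k.q)) *
              C (v01 𝒪 ι')) = _
          by_cases ha : a = 0
          · rw [if_pos ha, ha, hψC, hρinr]
          · have ha1 : a = 1 := by omega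
            rw [if_neg ha, ha1]
            by_cases hb : b = 1
            · rw [if_pos hb, hb, hψX]
            · have hb0 : b = 0 := by omega
              rw [if_neg hb, hb0, map_mul, map_sub, map_mul, map_add, map_add, map_one, hψX, hψC,
                hψC, hψC, hρC, hρinr, ← hx10]
              linear_combination Ideal.Quotient.mk J (X (Sum.inr (false, 1, 0))) * hv
        · change ψ 0 = _
          rw [map_zero, hn]
    refine ringHom_ext_of_hausdorff (I := maximalIdeal _) ?_ ?_ ?_ ?_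
    · intro b hb
      rw [RingHom.comp_apply, fam_C, hψC, hρC]
      exact mk_mem_maximalIdeal' (C_mem_maximalIdeal hb)
    · intro a
      rw [RingHom.comp_apply, hval]
      exact hm a
    · intro b
      rw [RingHom.comp_apply, fam_C, hψC, hρC]
    · intro a
      rw [RingHom.comp_apply, hval]
  refine isIntegral_of_powerSeries (R := PB 𝒪 ι') ψ (fun r => ?_) ?_ (fam k F) ?_ ?_
  · rw [halg]; exact hψC r
  · intro y
    obtain ⟨x, rfl⟩ := Ideal.Quotient.mk_surjective y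
    exact ⟨fam k x, RingHom.congr_fun hψfam x⟩
  · intro h0
    apply hF0
    rw [← map_fam k, RingHom.comp_apply]
    refine MvPowerSeries.ext fun n => ?_
    rw [map_zero, coeff_map, resB_eq_zero_iff, ← residue_eq_zero_iff]
    have := congrArg (MvPowerSeries.coeff n) h0
    rw [map_zero] at this
    exact this
  · have h1 := RingHom.congr_fun hψfam F
    rw [RingHom.comp_apply] at h1
    rw [h1]
    exact Ideal.Quotient.eq_zero_iff_mem.mpr hF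

include hi hβi hd in
/-- The support of the module of type `χ` contains the residual point, regular case. -/
theorem chi_supportR (Bχ : MvPowerSeries (ι' ⊕ LIx) 𝒪 →+* Matrix (Fin d) (Fin d) S)
    (hBχ : ∀ s, Bχ (β s) = Matrix.scalar (Fin d) s)
    (hrelχ : ∀ 𝔮 : Ideal (MvPowerSeries (ι' ⊕ LIx) 𝒪), 𝔮.IsPrime → RingHom.ker Bχ ≤ 𝔮 →
      ∃ k : ChiConst 𝒪, k.ζ ≠ k.ζ' ∧ ChiRelR k (Ideal.Quotient.mk 𝔮))
    {e : ℕ} (θ : Fin e → MvPowerSeries ι' 𝒪) (hθ : ∀ a, θ a ∈ maximalIdeal (MvPowerSeries ι' 𝒪))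
    (hfin : ∀ 𝔱 : Ideal (MvPowerSeries ι' 𝒪), 𝔱.IsPrime →
      (RingHom.ker Bχ).comap (inc 𝒪 ι') ≤ 𝔱 → (∀ a, θ a ∈ 𝔱) →
      maximalIdeal (MvPowerSeries ι' 𝒪) ≤ 𝔱)
    (he : ((e + 3 : ℕ) : WithBot ℕ∞) ≤ ringKrullDim S) :
    RingHom.ker Bχ ≤ RingHom.ker (resPtR 𝒪 ι') := by
  have hnt := ker_ne_top Bχ hd
  obtain ⟨𝔮, h𝔮⟩ := Ideal.nonempty_minimalPrimes hnt
  obtain ⟨h𝔮β, h𝔮d⟩ := minimalPrimes_facts Bχ β hBχ h𝔮
  haveI h𝔮p : 𝔮.IsPrime := h𝔮.1.1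
  have hle : RingHom.ker Bχ ≤ 𝔮 := h𝔮.1.2
  obtain ⟨k, hζ, hrel𝔮⟩ := hrelχ 𝔮 h𝔮p hle
  refine hle.trans ?_
  by_contra hnot
  obtain ⟨F, hF, hF0⟩ := SetLike.not_le_iff_exists.mp hnot
  rw [RingHom.mem_ker] at hF0
  set x : MvPowerSeries (ι' ⊕ LIx) 𝒪 := X (Sum.inr (true, 0, 1)) with hx
  set J : Ideal (MvPowerSeries (ι' ⊕ LIx) 𝒪) := 𝔮 ⊔ Ideal.span {x} with hJ
  have h𝔮J : 𝔮 ≤ J := le_sup_left
  have hxJ : x ∈ J := Ideal.mem_sup_right (Ideal.mem_span_singleton_self x)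
  have hJtop : J ≠ ⊤ := by
    intro h
    have h1 : J ≤ maximalIdeal _ := sup_le (le_maximalIdeal h𝔮p.ne_top)
      ((Ideal.span_singleton_le_iff_mem _).mpr (X_mem_maximalIdeal' _))
    rw [h, top_le_iff] at h1
    exact (Ideal.IsPrime.ne_top inferInstance) h1
  haveI : IsLocalRing (MvPowerSeries (ι' ⊕ LIx) 𝒪 ⧸ 𝔮) := isLocalRing_quotient h𝔮p.ne_top
  haveI : IsLocalRing (MvPowerSeries (ι' ⊕ LIx) 𝒪 ⧸ J) := isLocalRing_quotient hJtop
  have hrelJ := hrel𝔮.mk_of_le k h𝔮J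
  letI alg : Algebra (PB 𝒪 ι') (MvPowerSeries (ι' ⊕ LIx) 𝒪 ⧸ J) :=
    ((Ideal.Quotient.mk J).comp (jB 𝒪 ι')).toAlgebra
  have hint : Algebra.IsIntegral (PB 𝒪 ι') (MvPowerSeries (ι' ⊕ LIx) 𝒪 ⧸ J) :=
    isIntegral_of_not_le k hJtop rfl hrelJ hxJ F (h𝔮J hF) hF0
  set 𝔟 : Ideal (PB 𝒪 ι') := 𝔮.comap (jB 𝒪 ι') with h𝔟
  haveI h𝔟p : 𝔟.IsPrime := Ideal.IsPrime.comap _
  set 𝔱 : Ideal (PB 𝒪 ι') := J.comap (jB 𝒪 ι') with h𝔱
  have h𝔟𝔱 : 𝔟 ≤ 𝔱 := Ideal.comap_mono h𝔮J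
  -- dimension of the quotient by `𝔱`
  letI alg2 : Algebra (PB 𝒪 ι' ⧸ 𝔱) (MvPowerSeries (ι' ⊕ LIx) 𝒪 ⧸ J) :=
    (Ideal.quotientMap J (jB 𝒪 ι') le_rfl).toAlgebra
  haveI : Algebra.IsIntegral (PB 𝒪 ι' ⧸ 𝔱) (MvPowerSeries (ι' ⊕ LIx) 𝒪 ⧸ J) :=
    ⟨fun y => by
      obtain ⟨p, hp, hp0⟩ := hint.isIntegral y
      refine ⟨p.map (Ideal.Quotient.mk 𝔱), hp.map _, ?_⟩
      rw [Polynomial.eval₂_map]
      exact hp0⟩
  have hd1 : ringKrullDim (MvPowerSeries (ι' ⊕ LIx) 𝒪 ⧸ J) ≤ ringKrullDim (PB 𝒪 ι' ⧸ 𝔱) :=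
    ringKrullDim_le_of_integral
  have hζq : ∀ b : 𝒪, C b ∈ 𝔮 → b = 0 := by
    intro b hb
    rw [← hβi, ← Ideal.mem_comap, h𝔮β, Ideal.mem_bot] at hb
    exact hi (by rw [hb, map_zero])
  have hd2 : ringKrullDim (PB 𝒪 ι' ⧸ 𝔱) + 1 ≤ ringKrullDim (PB 𝒪 ι' ⧸ 𝔟) := by
    refine ringKrullDim_succ_le_of_surjective (Ideal.Quotient.factor h𝔟𝔱)
      (Ideal.Quotient.factor_surjective h𝔟𝔱)
      (r := Ideal.Quotient.mk 𝔟 (C ((k.ζ - k.ζ') ^ 2))) ?_ ?_
    · rw [mem_nonZeroDivisors_iff_ne_zero]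
      intro h
      have h2 := Ideal.Quotient.eq_zero_iff_mem.mp h
      rw [h𝔟, Ideal.mem_comap, jB_C] at h2
      exact hζ (sub_eq_zero.mp (pow_eq_zero_iff two_ne_zero |>.mp (hζq _ h2)))
    · rw [Ideal.Quotient.factor_mk]
      apply Ideal.Quotient.eq_zero_iff_mem.mpr
      rw [h𝔱, Ideal.mem_comap, jB_C, ← Ideal.Quotient.eq_zero_iff_mem]
      obtain ⟨-, h3, -⟩ := regular_point k (Ideal.Quotient.mk J)
        (fun a => mk_mem_maximalIdeal' (X_mem_maximalIdeal' a)) hrelJ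
        (Ideal.Quotient.eq_zero_iff_mem.mpr hxJ)
      have h4 : Ideal.Quotient.mk J (C k.ζ) * Ideal.Quotient.mk J (C k.ζ') = 1 := by
        rw [← map_mul, ← map_mul, k.hζζ', map_one, map_one]
      rw [map_pow, map_pow, map_sub, map_sub]
      linear_combination (Ideal.Quotient.mk J (C k.ζ) + Ideal.Quotient.mk J (C k.ζ') + 2) * h3 -
        4 * h4
  -- dimension of the quotient by `𝔟`
  have hd3 : ringKrullDim (PB 𝒪 ι' ⧸ 𝔟) ≤ ((e + 2 : ℕ) : WithBot ℕ∞) := by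
    refine ringKrullDim_quotient_le_of_prime 𝔟
      (Fin.append (fun a => incB 𝒪 ι' (θ a)) (fun a : Fin 2 => X (Sum.inr a))) ?_ ?_
    · intro a
      refine Fin.addCases (fun a => ?_) (fun a => ?_) a
      · rw [Fin.append_left]; exact incB_mem (hθ a)
      · rw [Fin.append_right]; exact X_mem_maximalIdeal' _
    · intro 𝔰 h𝔰 h𝔟𝔰 hall
      have h2 : maximalIdeal (MvPowerSeries ι' 𝒪) ≤ 𝔰.comap (incB 𝒪 ι') := by
        refine hfin _ (Ideal.IsPrime.comap _) ?_ fun a => ?_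
        · refine le_trans ?_ (Ideal.comap_mono h𝔟𝔰)
          rw [h𝔟, Ideal.comap_comap, jB_comp_incB]
          exact Ideal.comap_mono hle
        · have := hall (Fin.castAdd 2 a)
          rw [Fin.append_left] at this
          exact this
      intro G hG
      refine map_maximalIdeal_le (ψ := RingHom.id _) (I := 𝔰) (fun b hb => ?_) (fun a => ?_) hG
      · have := h2 (C_mem_maximalIdeal hb)
        rwa [Ideal.mem_comap, incB_C] at this
      · rcases a with a | a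
        · have := h2 (X_mem_maximalIdeal' a)
          rwa [Ideal.mem_comap, incB_X] at this
        · have := hall (Fin.natAdd e a)
          rw [Fin.append_right] at this
          exact this
  -- dimension of the quotient by `J`
  have hd4 : ringKrullDim (MvPowerSeries (ι' ⊕ LIx) 𝒪 ⧸ 𝔮) ≤
      ringKrullDim (MvPowerSeries (ι' ⊕ LIx) 𝒪 ⧸ J) + 1 := by
    have h1 := ringKrullDim_le_ringKrullDim_quotient_add_card
      ({Ideal.Quotient.mk 𝔮 x} : Finset (MvPowerSeries (ι' ⊕ LIx) 𝒪 ⧸ 𝔮)) (by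
        rw [IsLocalRing.ringJacobson_eq_maximalIdeal, Finset.coe_singleton,
          Set.singleton_subset_iff]
        exact mk_mem_maximalIdeal' (X_mem_maximalIdeal' _))
    rw [Finset.card_singleton, Nat.cast_one, Finset.coe_singleton] at h1
    refine h1.trans ?_
    gcongr
    have hker : ∀ y ∈ J, ((Ideal.Quotient.mk (Ideal.span {Ideal.Quotient.mk 𝔮 x})).comp
        (Ideal.Quotient.mk 𝔮)) y = 0 := by
      intro y hy
      rw [hJ] at hy
      obtain ⟨a, ha, b, hb, rfl⟩ := Submodule.mem_sup.mp hy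
      obtain ⟨c, rfl⟩ := Ideal.mem_span_singleton.mp hb
      rw [RingHom.comp_apply, map_add, Ideal.Quotient.eq_zero_iff_mem.mpr ha, zero_add]
      apply Ideal.Quotient.eq_zero_iff_mem.mpr
      rw [map_mul]
      exact Ideal.mul_mem_right _ _ (Ideal.mem_span_singleton_self _)
    refine ringKrullDim_le_of_surjective (Ideal.Quotient.lift J _ hker) ?_
    exact Ideal.Quotient.lift_surjective_of_surjective _ _
      (Ideal.Quotient.mk_surjective.comp Ideal.Quotient.mk_surjective)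
  have h5 : ((e + 3 : ℕ) : WithBot ℕ∞) ≤ ((e + 2 : ℕ) : WithBot ℕ∞) := by
    calc ((e + 3 : ℕ) : WithBot ℕ∞) ≤ ringKrullDim (MvPowerSeries (ι' ⊕ LIx) 𝒪 ⧸ 𝔮) := he.trans h𝔮d
      _ ≤ ringKrullDim (MvPowerSeries (ι' ⊕ LIx) 𝒪 ⧸ J) + 1 := hd4
      _ ≤ ringKrullDim (PB 𝒪 ι' ⧸ 𝔱) + 1 := by gcongr
      _ ≤ ringKrullDim (PB 𝒪 ι' ⧸ 𝔟) := hd2
      _ ≤ _ := hd3
  have h6 : e + 3 ≤ e + 2 := by exact_mod_cast h5
  omega

include hi hβi hd in
/-- **The lowering theorem**, regular case. -/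
theorem loweringR (B₁ Bχ : MvPowerSeries (ι' ⊕ LIx) 𝒪 →+* Matrix (Fin d) (Fin d) S)
    (hB₁ : ∀ s, B₁ (β s) = Matrix.scalar (Fin d) s)
    (hBχ : ∀ s, Bχ (β s) = Matrix.scalar (Fin d) s)
    (hcongr : ∀ x, (B₁ x).map (Ideal.Quotient.mk ((maximalIdeal 𝒪).map i)) =
      (Bχ x).map (Ideal.Quotient.mk ((maximalIdeal 𝒪).map i)))
    (hq0 : k.q ≠ 0) (hq1 : k.q ≠ 1)
    (hrel₁ : UniRelR k (Ideal.Quotient.mk (RingHom.ker B₁)))
    (hrelχ : ∀ 𝔮 : Ideal (MvPowerSeries (ι' ⊕ LIx) 𝒪), 𝔮.IsPrime → RingHom.ker Bχ ≤ 𝔮 →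
      ∃ k : ChiConst 𝒪, k.ζ ≠ k.ζ' ∧ ChiRelR k (Ideal.Quotient.mk 𝔮))
    {e : ℕ} (θ : Fin e → MvPowerSeries ι' 𝒪) (hθ : ∀ a, θ a ∈ maximalIdeal (MvPowerSeries ι' 𝒪))
    (hfin : ∀ 𝔱 : Ideal (MvPowerSeries ι' 𝒪), 𝔱.IsPrime →
      (RingHom.ker Bχ).comap (inc 𝒪 ι') ≤ 𝔱 → (∀ a, θ a ∈ 𝔱) →
      maximalIdeal (MvPowerSeries ι' 𝒪) ≤ 𝔱)
    (he : ((e + 3 : ℕ) : WithBot ℕ∞) ≤ ringKrullDim S) (𝔫 : Ideal S) [h𝔫 : 𝔫.IsPrime] :
    ∃ 𝔭 : Ideal (MvPowerSeries (ι' ⊕ LIx) 𝒪), 𝔭.IsPrime ∧ 𝔭.comap β = 𝔫 ∧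
      (∀ x, (B₁ x).map (Ideal.Quotient.mk 𝔫) = 0 → x ∈ 𝔭) ∧
      ∀ a b, X (Sum.inr (true, a, b)) ∈ 𝔭 := by
  haveI : NoZeroDivisors (MvPowerSeries Unit (ResidueField 𝒪)) := MvPowerSeries.instNoZeroDivisors
  haveI : IsDomain (MvPowerSeries Unit (ResidueField 𝒪)) := NoZeroDivisors.to_isDomain _
  haveI h𝔭₀ : (RingHom.ker (resPtR 𝒪 ι')).IsPrime := RingHom.ker_isPrime _
  have h1 := chi_supportR i hi β hβi hd Bχ hBχ hrelχ θ hθ hfin he
  have hϖ : ((maximalIdeal 𝒪).map i).map β ≤ RingHom.ker (resPtR 𝒪 ι') := by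
    rw [Ideal.map_le_iff_le_comap, Ideal.map_le_iff_le_comap]
    intro b hb
    rw [Ideal.mem_comap, Ideal.mem_comap, hβi, RingHom.mem_ker]
    exact resPtR_C_mem hb
  have h2 : RingHom.ker B₁ ≤ RingHom.ker (resPtR 𝒪 ι') :=
    ker_le_of_congr β hBχ ((maximalIdeal 𝒪).map i) (fun x => (hcongr x).symm) hϖ h1
  obtain ⟨𝔮, h𝔮, h𝔮𝔭⟩ := Ideal.exists_minimalPrimes_le h2
  obtain ⟨h𝔮β, -⟩ := minimalPrimes_facts B₁ β hB₁ h𝔮
  haveI h𝔮p : 𝔮.IsPrime := h𝔮.1.1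
  have hle : RingHom.ker B₁ ≤ 𝔮 := h𝔮.1.2
  have hrel𝔮 := hrel₁.mk_of_le k hle
  have hCq : ∀ b : 𝒪, C b ∈ 𝔮 → b = 0 := by
    intro b hb
    rw [← hβi, ← Ideal.mem_comap, h𝔮β, Ideal.mem_bot] at hb
    exact hi (by rw [hb, map_zero])
  have htriv : matR (Ideal.Quotient.mk 𝔮) true - 1 = 0 := by
    by_contra hN
    have h3 := trace_sq_of_comm _ _ _ hrel𝔮.comm hrel𝔮.detF
      (fun h => hq0 (hCq _ (Ideal.Quotient.eq_zero_iff_mem.mp h)))
      (fun h => hq1 (by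
        have h4 : Ideal.Quotient.mk 𝔮 (C (k.q - 1)) = 0 := by
          rw [map_sub, map_sub, h, map_one, map_one, sub_self]
        exact sub_eq_zero.mp (hCq _ (Ideal.Quotient.eq_zero_iff_mem.mp h4)))) hN
    set f : MvPowerSeries (ι' ⊕ LIx) 𝒪 ⧸ 𝔮 →+* MvPowerSeries Unit (ResidueField 𝒪) :=
      Ideal.Quotient.lift 𝔮 (resPtR 𝒪 ι') (fun x hx => RingHom.mem_ker.mp (h𝔮𝔭 hx)) with hf
    have hfmk : f.comp (Ideal.Quotient.mk 𝔮) = resPtR 𝒪 ι' := by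
      refine RingHom.ext fun x => ?_
      rfl
    apply trace_resPtR_sq_ne k (ι' := ι')
    rw [← hfmk, matR_comp, Matrix.trace_fin_two, Matrix.map_apply, Matrix.map_apply, ← map_add,
      ← Matrix.trace_fin_two, ← map_pow, h3, map_pow, map_add, map_one]
    have h4 : f (Ideal.Quotient.mk 𝔮 (C k.q)) = 1 := by
      rw [← RingHom.comp_apply, hfmk]
      have h5 := resPtR_C_mem (ι' := ι') k.hq
      rw [map_sub, map_sub, map_one, map_one, sub_eq_zero] at h5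
      exact h5
    rw [h4]; norm_num
  obtain ⟨𝔭, h𝔭, h𝔮𝔭', h𝔭𝔫⟩ := exists_prime_over_of_ker_le B₁ β hB₁ hle h𝔮β 𝔫
  haveI := h𝔭
  refine ⟨𝔭, h𝔭, h𝔭𝔫, fun x hx => ?_, fun a b => ?_⟩
  · refine ker_map_le B₁ β hB₁ 𝔫 (hle.trans h𝔮𝔭') ?_ x hx
    rw [Ideal.map_le_iff_le_comap, h𝔭𝔫]
  · apply h𝔮𝔭'
    have h6 := congrFun (congrFun htriv a) b
    rw [← Ideal.Quotient.eq_zero_iff_mem]
    change (1 + (Matrix.of fun a b => Ideal.Quotient.mk 𝔮 (X (Sum.inr (true, a, b)))) - 1 :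
      Matrix (Fin 2) (Fin 2) (MvPowerSeries (ι' ⊕ LIx) 𝒪 ⧸ 𝔮)) a b = 0 at h6
    rw [add_sub_cancel_left] at h6
    exact h6

end Main

end Fermat.Agent.RT
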