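import Fermat.Agent.RT.LoweringThmR

set_option autoImplicit false
set_option maxHeartbeats 400000
set_option linter.style.haveILetI false
set_option linter.unusedSectionVars false
set_option linter.unusedVariables false

/-!
# From finite levels to the conclusion of the lowering theorem
-/

open IsLocalRing MvPowerSeries Filter

namespace Fermat.Agent.RT

section Facts

/-- Power series rings over a complete noetherian local ring with finite residue field have finite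
quotients. -/
lemma finite_quotient_pow_mvPowerSeries {𝒪 σ : Type*} [CommRing 𝒪] [IsLocalRing 𝒪]
    [IsNoetherianRing 𝒪] [Finite (ResidueField 𝒪)] [Finite σ] (k : ℕ) :
    Finite (MvPowerSeries σ 𝒪 ⧸ maximalIdeal (MvPowerSeries σ 𝒪) ^ k) := by
  haveI h0 : Finite (MvPowerSeries σ 𝒪 ⧸ maximalIdeal (MvPowerSeries σ 𝒪)) := by
    have hinj : Function.Injective (Ideal.Quotient.lift (maximalIdeal (MvPowerSeries σ 𝒪))
        ((residue 𝒪).comp (MvPowerSeries.constantCoeff (σ := σ) (R := 𝒪))) (by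
          intro f hf
          rw [RingHom.comp_apply, residue_eq_zero_iff]
          intro h
          exact hf (MvPowerSeries.isUnit_iff_constantCoeff.mpr h))) := by
      haveI : Nontrivial (ResidueField 𝒪) := inferInstance
      letI : Field (MvPowerSeries σ 𝒪 ⧸ maximalIdeal (MvPowerSeries σ 𝒪)) :=
        Ideal.Quotient.field _
      exact RingHom.injective _
    exact Finite.of_injective _ hinj
  exact Ideal.finite_quotient_pow (I := maximalIdeal (MvPowerSeries σ 𝒪))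
    (IsNoetherian.noetherian _) k

/-- Ideals of noetherian local rings are closed. -/
lemma mem_of_forall_mem_sup_pow {R : Type*} [CommRing R] [IsLocalRing R] [IsNoetherianRing R]
    {K : Ideal R} {x : R} (h : ∀ k, x ∈ K ⊔ maximalIdeal R ^ k) : x ∈ K := by
  haveI : IsHausdorff (maximalIdeal R) (R ⧸ K) :=
    IsHausdorff.of_isLocalRing _ _ (Ideal.IsPrime.ne_top inferInstance)
  have h11 : Ideal.Quotient.mk K x = 0 := by
    apply IsHausdorff.haus (I := maximalIdeal R) ‹_›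
    intro k
    rw [SModEq.zero]
    obtain ⟨u, hu, v, hv, huv⟩ := Submodule.mem_sup.mp (h k)
    rw [← huv, map_add, Ideal.Quotient.eq_zero_iff_mem.mpr hu, zero_add]
    have : Ideal.Quotient.mk K v = v • (1 : R ⧸ K) := by
      rw [Algebra.smul_def, mul_one]; rfl
    rw [this]
    exact Submodule.smul_mem_smul hv Submodule.mem_top
  exact Ideal.Quotient.eq_zero_iff_mem.mp h11

end Facts

section Limit

variable {S P : Type*} [CommRing S] [IsLocalRing S] [IsNoetherianRing S]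
  [IsAdicComplete (maximalIdeal S) S] [CommRing P] {d : ℕ}

/-- Congruences between actions pass to the limit. -/
lemma limit_congr {J : ℕ → Ideal S} (hJ : ∀ k, ∀ᶠ n in atTop, J n ≤ maximalIdeal S ^ k)
    {M M' : ∀ n, Matrix (Fin d) (Fin d) (S ⧸ J n)} {B B' : Matrix (Fin d) (Fin d) S}
    (hB : IsMatLim J M B) (hB' : IsMatLim J M' B') (ϖ : Ideal S)
    (h : ∀ n, MatIn (ϖ.map (Ideal.Quotient.mk (J n))) (M n - M' n)) :
    B.map (Ideal.Quotient.mk ϖ) = B'.map (Ideal.Quotient.mk ϖ) := by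
  ext i j
  rw [Matrix.map_apply, Matrix.map_apply, Ideal.Quotient.eq]
  apply mem_of_forall_mem_sup_pow
  intro k
  obtain ⟨n, ⟨h1, h2⟩, h3⟩ := (((hB k).and (hB' k)).and (eventually_of_atTop (hJ k))).exists
  have h4 := h1 i j
  have h5 := h2 i j
  have h6 := h n i j
  rw [Matrix.sub_apply, Matrix.map_apply] at h4 h5
  rw [Matrix.sub_apply] at h6
  have h7 : Ideal.Quotient.mk (J n) (B i j - B' i j) ∈
      (ϖ ⊔ maximalIdeal S ^ k).map (Ideal.Quotient.mk (J n)) := by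
    rw [Ideal.map_sup]
    have h8 : Ideal.Quotient.mk (J n) (B i j - B' i j) =
        (M n i j - M' n i j) + ((M' n i j - Ideal.Quotient.mk (J n) (B' i j)) -
        (M n i j - Ideal.Quotient.mk (J n) (B i j))) := by
      rw [map_sub]; ring
    rw [h8]
    exact Ideal.add_mem _ (Ideal.mem_sup_left h6) (Ideal.mem_sup_right (Ideal.sub_mem _ h5 h4))
  rw [Ideal.mem_map_iff_of_surjective _ Ideal.Quotient.mk_surjective] at h7
  obtain ⟨y, hy, hy2⟩ := h7
  have h9 : y - (B i j - B' i j) ∈ J n := Ideal.Quotient.eq.mp hy2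
  have h10 : B i j - B' i j = y - (y - (B i j - B' i j)) := by ring
  rw [h10]
  exact Ideal.sub_mem _ hy (Ideal.mem_sup_right (h3 h9))

end Limit

section Patch

variable {𝒪 : Type} [CommRing 𝒪] [IsDomain 𝒪] [IsDiscreteValuationRing 𝒪]
  [IsAdicComplete (maximalIdeal 𝒪) 𝒪] [Finite (ResidueField 𝒪)]

/-- The input of patching: two compatible families of actions at finite levels. -/
structure PatchInput (𝒪 : Type) [CommRing 𝒪] [IsDomain 𝒪] [IsDiscreteValuationRing 𝒪]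
    [IsAdicComplete (maximalIdeal 𝒪) 𝒪] [Finite (ResidueField 𝒪)] (m d : ℕ) (ι : Type)
    [Fintype ι] where
  /-- The ideals of the finite levels. -/
  J : ℕ → Ideal (MvPowerSeries (Fin m) 𝒪)
  hJ : ∀ k, ∀ᶠ n in atTop, J n ≤ maximalIdeal (MvPowerSeries (Fin m) 𝒪) ^ k
  hJ0 : ∀ n, J n ≤ RingHom.ker (constantCoeff : MvPowerSeries (Fin m) 𝒪 →+* 𝒪)
  /-- The structure maps. -/
  α : ℕ → MvPowerSeries (Fin m) 𝒪 →+* MvPowerSeries ι 𝒪
  hα : ∀ n, ∀ s ∈ maximalIdeal (MvPowerSeries (Fin m) 𝒪), α n s ∈ maximalIdeal (MvPowerSeries ι 𝒪)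
  hαC : ∀ n b, α n (C b) = C b
  /-- The action of trivial type. -/
  A₁ : ∀ n, MvPowerSeries ι 𝒪 →+* Matrix (Fin d) (Fin d) (MvPowerSeries (Fin m) 𝒪 ⧸ J n)
  /-- The action of type `χ`. -/
  Aχ : ∀ n, MvPowerSeries ι 𝒪 →+* Matrix (Fin d) (Fin d) (MvPowerSeries (Fin m) 𝒪 ⧸ J n)
  hA₁ : ∀ n s, A₁ n (α n s) = Matrix.scalar (Fin d) (Ideal.Quotient.mk (J n) s)
  hAχ : ∀ n s, Aχ n (α n s) = Matrix.scalar (Fin d) (Ideal.Quotient.mk (J n) s)
  hcongr : ∀ n x, MatIn (((maximalIdeal 𝒪).map (C : 𝒪 →+* MvPowerSeries (Fin m) 𝒪)).map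
    (Ideal.Quotient.mk (J n))) (A₁ n x - Aχ n x)
  /-- The ring at level zero. -/
  R₀ : Type
  [comm : CommRing R₀]
  [loc : IsLocalRing R₀]
  [noeth : IsNoetherianRing R₀]
  [compl : IsAdicComplete (maximalIdeal R₀) R₀]
  hfin₀ : ∀ k : ℕ, Finite (R₀ ⧸ maximalIdeal R₀ ^ k)
  σ₀ : 𝒪 →+* R₀
  hσ₀ : ∀ b ∈ maximalIdeal 𝒪, σ₀ b ∈ maximalIdeal R₀
  hint₀ : σ₀.IsIntegral
  A₀ : R₀ →+* Matrix (Fin d) (Fin d) 𝒪
  hA₀ : ∀ b, A₀ (σ₀ b) = Matrix.scalar (Fin d) b
  hinj₀ : Function.Injective A₀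
  ψ : ℕ → MvPowerSeries ι 𝒪 →+* R₀
  hψC : ∀ n b, ψ n (C b) = σ₀ b
  hψ : ∀ n x i j, Ideal.Quotient.lift (J n) constantCoeff (fun a ha => RingHom.mem_ker.mp (hJ0 n ha))
    (A₁ n x i j) = A₀ (ψ n x) i j

attribute [instance] PatchInput.comm PatchInput.loc PatchInput.noeth PatchInput.compl

variable {m d : ℕ} {ι : Type} [Fintype ι] (D : PatchInput 𝒪 m d ι)

/-- The output of patching. -/
structure PatchOutput : Type where
  β : MvPowerSeries (Fin m) 𝒪 →+* MvPowerSeries ι 𝒪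
  hβ : ∀ b, β (C b) = C b
  B₁ : MvPowerSeries ι 𝒪 →+* Matrix (Fin d) (Fin d) (MvPowerSeries (Fin m) 𝒪)
  Bχ : MvPowerSeries ι 𝒪 →+* Matrix (Fin d) (Fin d) (MvPowerSeries (Fin m) 𝒪)
  hB₁ : ∀ s, B₁ (β s) = Matrix.scalar (Fin d) s
  hBχ : ∀ s, Bχ (β s) = Matrix.scalar (Fin d) s
  hcongr : ∀ x, (B₁ x).map (Ideal.Quotient.mk ((maximalIdeal 𝒪).map C)) =
    (Bχ x).map (Ideal.Quotient.mk ((maximalIdeal 𝒪).map C))
  hker₁ : ∀ x, (∀ n, D.A₁ n x = 0) → B₁ x = 0
  hkerχ : ∀ x, (∀ n, D.Aχ n x = 0) → Bχ x = 0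
  φ : MvPowerSeries ι 𝒪 →+* D.R₀
  hφC : ∀ b, φ (C b) = D.σ₀ b
  hφconst : ∀ x y, (∀ n, D.ψ n x = y) → φ x = y
  hφ : ∀ x, (B₁ x).map (constantCoeff : MvPowerSeries (Fin m) 𝒪 →+* 𝒪) = D.A₀ (φ x)

theorem nonempty_patchOutput : Nonempty (PatchOutput D) := by
  have hfinS : ∀ k : ℕ, Finite (MvPowerSeries (Fin m) 𝒪 ⧸
    maximalIdeal (MvPowerSeries (Fin m) 𝒪) ^ k) := finite_quotient_pow_mvPowerSeries
  have hfinP : ∀ k : ℕ, Finite (MvPowerSeries ι 𝒪 ⧸ maximalIdeal (MvPowerSeries ι 𝒪) ^ k) :=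
    finite_quotient_pow_mvPowerSeries
  obtain ⟨β, hβ⟩ := exists_ringHom_limit hfinP D.α
  obtain ⟨B₁, hB₁⟩ := exists_matrix_limit hfinS D.hJ D.A₁
  obtain ⟨Bχ, hBχ⟩ := exists_matrix_limit hfinS D.hJ D.Aχ
  obtain ⟨φ, hφ⟩ := exists_ringHom_limit D.hfin₀ D.ψ
  have hJ1 : ∀ n, D.J n ≤ maximalIdeal (MvPowerSeries (Fin m) 𝒪) := by
    intro n
    refine (D.hJ0 n).trans fun x hx => ?_
    rw [mem_maximalIdeal_iff, RingHom.mem_ker.mp hx]
    exact Ideal.zero_mem _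
  set 𝔫 : Ideal (MvPowerSeries (Fin m) 𝒪) :=
    RingHom.ker (constantCoeff : MvPowerSeries (Fin m) 𝒪 →+* 𝒪) with h𝔫
  have h𝔫1 : 𝔫 ≤ maximalIdeal (MvPowerSeries (Fin m) 𝒪) := fun x hx => by
    rw [mem_maximalIdeal_iff, RingHom.mem_ker.mp hx]
    exact Ideal.zero_mem _
  set κ : 𝒪 →+* MvPowerSeries (Fin m) 𝒪 ⧸ 𝔫 := (Ideal.Quotient.mk 𝔫).comp C with hκ
  have hκc : ∀ s : MvPowerSeries (Fin m) 𝒪, κ (constantCoeff s) = Ideal.Quotient.mk 𝔫 s := by
    intro s
    rw [hκ, RingHom.comp_apply, Ideal.Quotient.eq, h𝔫, RingHom.mem_ker, map_sub, constantCoeff_C,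
      sub_self]
  set lam : MvPowerSeries (Fin m) 𝒪 ⧸ 𝔫 →+* 𝒪 := Ideal.Quotient.lift 𝔫 constantCoeff
    (fun a ha => RingHom.mem_ker.mp ha) with hlam
  have hlammk : ∀ s, lam (Ideal.Quotient.mk 𝔫 s) = constantCoeff s := fun s => rfl
  have h0 : ∀ x, (B₁ x).map (Ideal.Quotient.mk 𝔫) =
      ((RingHom.mapMatrix κ).comp D.A₀) (φ x) := by
    intro x
    refine limit_level_zero (S := MvPowerSeries (Fin m) 𝒪) D.hJ D.hJ0 h𝔫1 hB₁
      (D.σ₀.comp constantCoeff) ?_ ((RingHom.mapMatrix κ).comp D.A₀) ?_ hφ ?_ x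
    · intro s hs
      rw [RingHom.comp_apply]
      exact D.hσ₀ _ ((mem_maximalIdeal_iff s).mp hs)
    · intro s
      rw [RingHom.comp_apply, RingHom.comp_apply, D.hA₀]
      ext i j
      rw [RingHom.mapMatrix_apply, Matrix.map_apply, Matrix.scalar_apply, Matrix.scalar_apply,
        ← hκc]
      by_cases hij : i = j
      · subst hij; simp
      · rw [Matrix.diagonal_apply_ne _ hij, Matrix.diagonal_apply_ne _ hij, map_zero]
    · intro n x
      ext i j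
      rw [Matrix.map_apply, RingHom.comp_apply, RingHom.mapMatrix_apply, Matrix.map_apply,
        ← D.hψ]
      obtain ⟨s, hs⟩ := Ideal.Quotient.mk_surjective (D.A₁ n x i j)
      rw [← hs, Ideal.Quotient.factor_mk, Ideal.Quotient.lift_mk, hκc]
  refine ⟨{ β := β, hβ := ?_, B₁ := B₁, Bχ := Bχ, hB₁ := ?_, hBχ := ?_, hcongr := ?_,
            hker₁ := ?_, hkerχ := ?_, φ := φ, hφC := ?_, hφconst := ?_, hφ := ?_ }⟩
  · intro b
    refine (hβ (C b)).unique ?_
    simp only [D.hαC]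
    exact IsULim.const _
  · exact fun s => limit_scalar D.hJ hJ1 D.hα D.hA₁ hB₁ hβ s
  · exact fun s => limit_scalar D.hJ hJ1 D.hα D.hAχ hBχ hβ s
  · exact fun x => limit_congr D.hJ (hB₁ x) (hBχ x) _ (fun n => D.hcongr n x)
  · exact fun x hx => (hB₁ x).eq_zero D.hJ (Eventually.of_forall hx)
  · exact fun x hx => (hBχ x).eq_zero D.hJ (Eventually.of_forall hx)
  · intro b
    refine (hφ (C b)).unique ?_
    simp only [D.hψC]
    exact IsULim.const _
  · intro x y hxy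
    refine (hφ x).unique ?_
    simp only [hxy]
    exact IsULim.const _
  · intro x
    have h1 := h0 x
    ext i j
    have h2 := congrArg lam (congrFun (congrFun h1 i) j)
    rw [Matrix.map_apply, hlammk, RingHom.comp_apply, RingHom.mapMatrix_apply, Matrix.map_apply,
      hκ, RingHom.comp_apply, hlammk, constantCoeff_C] at h2
    rw [Matrix.map_apply, h2]

end Patch

end Fermat.Agent.RT
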