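import Fermat.Agent.RT.TWModule
import Fermat.Agent.RT.PatchAssembly

set_option autoImplicit false
set_option maxHeartbeats 400000
set_option linter.style.haveILetI false
set_option linter.unusedSectionVars false
set_option linter.unusedVariables false

/-!
# The action of the Hecke algebra in the new coordinates
-/

open IsLocalRing MvPowerSeries

namespace Fermat.Agent.RT

variable {𝒪 : Type} [CommRing 𝒪] [IsDomain 𝒪] [IsDiscreteValuationRing 𝒪]
  [IsAdicComplete (maximalIdeal 𝒪) 𝒪] {p r : ℕ} [Fact p.Prime] {D : Type} [CommGroup D] [Finite D]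
  (G : GenGroup p r D) [IsLocalRing (MonoidAlgebra 𝒪 D)] {d : ℕ}
  {T : Type} [CommRing T] [Algebra 𝒪 T] (w : MonoidAlgebra 𝒪 D →ₐ[𝒪] T)

section One

variable (Φ : T →ₐ[𝒪] Matrix (Fin d) (Fin d) (MonoidAlgebra 𝒪 D))

/-- The action of `T` on the module with the new structure. -/
noncomputable def actV : T →+* Module.End (MonoidAlgebra 𝒪 D) (TwV (ψr (Φ.comp w))) where
  toFun t :=
    { toFun := fun v => TwV.mk _ (Matrix.mulVec (Φ t) (TwV.get _ v))
      map_add' := fun v v' => by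
        apply TwV.ext
        rw [TwV.get_mk, TwV.get_add, Matrix.mulVec_add]; rfl
      map_smul' := fun c v => by
        apply TwV.ext
        rw [TwV.get_mk, TwV.get_smul, RingHom.id_apply, TwV.get_smul, TwV.get_mk,
          Matrix.mulVec_mulVec, Matrix.mulVec_mulVec]
        change Matrix.mulVec (Φ t * Φ (w c)) _ = Matrix.mulVec (Φ (w c) * Φ t) _
        rw [← map_mul, ← map_mul, mul_comm] }
  map_one' := by
    ext1 v
    apply TwV.ext
    change Matrix.mulVec (Φ 1) _ = _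
    rw [map_one, Matrix.one_mulVec]; rfl
  map_zero' := by
    ext1 v
    apply TwV.ext
    change Matrix.mulVec (Φ 0) _ = _
    rw [map_zero, Matrix.zero_mulVec]; rfl
  map_add' s t := by
    ext1 v
    apply TwV.ext
    change Matrix.mulVec (Φ (s + t)) _ = _
    rw [map_add, Matrix.add_mulVec]; rfl
  map_mul' s t := by
    ext1 v
    apply TwV.ext
    change Matrix.mulVec (Φ (s * t)) _ = Matrix.mulVec (Φ s) (Matrix.mulVec (Φ t) _)
    rw [map_mul, Matrix.mulVec_mulVec]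

variable (hb : Function.Bijective (twMap (ψr (Φ.comp w))))

/-- The basis of the module with the new structure. -/
noncomputable def twBasis : Module.Basis (Fin d) (MonoidAlgebra 𝒪 D) (TwV (ψr (Φ.comp w))) :=
  Module.Basis.ofEquivFun (LinearEquiv.ofBijective _ hb).symm

lemma twBasis_apply (j : Fin d) : twBasis w Φ hb j = TwV.mk _ (Pi.single j 1) := by
  rw [twBasis, Module.Basis.coe_ofEquivFun, LinearEquiv.symm_symm]
  change twMap (ψr (Φ.comp w)) (Pi.single j 1) = _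
  apply TwV.ext
  rw [twMap_single, map_one, Matrix.one_mulVec]; rfl

/-- The matrices of the action in the new coordinates. -/
noncomputable def newAct : T →+* Matrix (Fin d) (Fin d) (MonoidAlgebra 𝒪 D) :=
  (LinearMap.toMatrixAlgEquiv (twBasis w Φ hb)).toRingEquiv.toRingHom.comp (actV w Φ)

lemma newAct_apply (t : T) (i j : Fin d) :
    newAct w Φ hb t i j = (twBasis w Φ hb).repr (actV w Φ t (twBasis w Φ hb j)) i :=
  LinearMap.toMatrixAlgEquiv_apply _ _ _ _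

lemma twMap_newAct (t : T) (j : Fin d) :
    twMap (ψr (Φ.comp w)) (fun i => newAct w Φ hb t i j) =
      TwV.mk _ (Matrix.mulVec (Φ t) (Pi.single j 1)) := by
  have h1 := (twBasis w Φ hb).sum_repr (actV w Φ t (twBasis w Φ hb j))
  have h2 : actV w Φ t (twBasis w Φ hb j) = TwV.mk _ (Matrix.mulVec (Φ t) (Pi.single j 1)) := by
    rw [twBasis_apply]; rfl
  rw [← h2, ← h1, twMap, Fintype.linearCombination_apply]
  refine Finset.sum_congr rfl fun i _ => ?_
  rw [newAct_apply, ← twBasis_apply w Φ hb i]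

lemma newAct_w (x : MonoidAlgebra 𝒪 D) : newAct w Φ hb (w x) = Matrix.scalar (Fin d) x := by
  ext1 i j
  rw [newAct_apply]
  have h1 : actV w Φ (w x) (twBasis w Φ hb j) = x • twBasis w Φ hb j := rfl
  rw [h1, map_smul, Module.Basis.repr_self, Finsupp.smul_apply, Finsupp.single_apply,
    Matrix.scalar_apply, Matrix.diagonal_apply, smul_eq_mul]
  by_cases hij : i = j
  · rw [if_pos hij, if_pos hij.symm, mul_one]
  · rw [if_neg hij, if_neg (Ne.symm hij), mul_zero]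

lemma newAct_eq_zero {t : T} (h : Φ t = 0) : newAct w Φ hb t = 0 := by
  have h1 : actV w Φ t = 0 := by
    ext1 v
    apply TwV.ext
    change Matrix.mulVec (Φ t) _ = _
    rw [h, Matrix.zero_mulVec]; rfl
  rw [newAct, RingHom.comp_apply, h1, map_zero]

lemma sum_newAct (t : T) (l j : Fin d) :
    ∑ i, Φ (w (newAct w Φ hb t i j)) l i = Φ t l j := by
  have h1 := congrArg (fun v => TwV.get _ v l) (twMap_newAct w Φ hb t j)
  simp only [get_twMap, TwV.get_mk, Finset.sum_apply, Matrix.mulVec_single_one,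
    Matrix.col_apply] at h1
  exact h1

end One

section Aug

variable (Φ : T →ₐ[𝒪] Matrix (Fin d) (Fin d) (MonoidAlgebra 𝒪 D))
  (a a' : Fin r → Matrix (Fin d) (Fin d) (MonoidAlgebra 𝒪 D))
  (ha : ∀ i, a i * a' i = 1)
  (hΦ : ∀ i, Φ (w (MonoidAlgebra.of 𝒪 D (G.δ i) - 1)) = (MonoidAlgebra.of 𝒪 D (G.δ i) - 1) • a i)

include hΦ in
lemma aug_w (x : MonoidAlgebra 𝒪 D) (i j : Fin d) :
    aug 𝒪 D (Φ (w x) i j) = if i = j then aug 𝒪 D x else 0 := by
  -- the elements for which the augmentation vanishes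
  let I : Ideal (MonoidAlgebra 𝒪 D) := RingHom.ker
    ((((aug 𝒪 D : MonoidAlgebra 𝒪 D →+* 𝒪).mapMatrix).comp
      (Φ : T →+* Matrix (Fin d) (Fin d) (MonoidAlgebra 𝒪 D))).comp (w : MonoidAlgebra 𝒪 D →+* T))
  have hI : ∀ i, MonoidAlgebra.of 𝒪 D (G.δ i) - 1 ∈ I := by
    intro i
    rw [RingHom.mem_ker]
    change ((aug 𝒪 D : MonoidAlgebra 𝒪 D →+* 𝒪).mapMatrix) (Φ (w _)) = 0
    rw [hΦ]
    ext k l
    rw [RingHom.mapMatrix_apply, Matrix.map_apply, Matrix.smul_apply, smul_eq_mul, map_mul]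
    change aug 𝒪 D _ * _ = 0
    rw [map_sub, aug_of, map_one, sub_self, zero_mul]
  have h1 := sub_aug_mem (G.of_sub_one_mem I hI) x
  rw [RingHom.mem_ker] at h1
  have h2 := congrFun (congrFun h1 i) j
  change aug 𝒪 D (Φ (w (x - algebraMap 𝒪 _ (aug 𝒪 D x))) i j) = 0 at h2
  rw [map_sub, map_sub, Matrix.sub_apply, map_sub, sub_eq_zero] at h2
  rw [h2, AlgHom.commutes, AlgHom.commutes, Matrix.algebraMap_matrix_apply]
  split_ifs
  · exact AlgHom.commutes _ _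
  · exact map_zero _

include hΦ in
lemma aug_newAct (hb : Function.Bijective (twMap (ψr (Φ.comp w)))) (t : T) (i j : Fin d) :
    aug 𝒪 D (newAct w Φ hb t i j) = aug 𝒪 D (Φ t i j) := by
  rw [← sum_newAct w Φ hb t i j, map_sum]
  have h1 : ∀ l, aug 𝒪 D (Φ (w (newAct w Φ hb t l j)) i l) =
      if i = l then aug 𝒪 D (newAct w Φ hb t l j) else 0 := fun l => aug_w G w Φ a hΦ _ i l
  rw [Finset.sum_congr rfl fun l _ => h1 l, Finset.sum_ite_eq, if_pos (Finset.mem_univ _)]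

end Aug

section Congr

variable (Φ Φ' : T →ₐ[𝒪] Matrix (Fin d) (Fin d) (MonoidAlgebra 𝒪 D))
  (hb : Function.Bijective (twMap (ψr (Φ.comp w))))
  (hb' : Function.Bijective (twMap (ψr (Φ'.comp w))))

lemma newAct_congr {ϖ : 𝒪} (h : ∀ t, MatIn (Ideal.span {algebraMap 𝒪 (MonoidAlgebra 𝒪 D) ϖ})
    (Φ t - Φ' t)) (t : T) : MatIn (Ideal.span {algebraMap 𝒪 (MonoidAlgebra 𝒪 D) ϖ})
      (newAct w Φ hb t - newAct w Φ' hb' t) := by
  intro i j
  have h1 : ∀ l, ∑ k, Φ' (w (newAct w Φ hb t k j - newAct w Φ' hb' t k j)) l k ∈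
      Ideal.span {algebraMap 𝒪 (MonoidAlgebra 𝒪 D) ϖ} := by
    intro l
    have e1 : ∑ k, Φ' (w (newAct w Φ hb t k j - newAct w Φ' hb' t k j)) l k =
        (Φ t - Φ' t) l j - ∑ k, (Φ (w (newAct w Φ hb t k j)) -
          Φ' (w (newAct w Φ hb t k j))) l k := by
      rw [Matrix.sub_apply, ← sum_newAct w Φ hb t l j, ← sum_newAct w Φ' hb' t l j,
        ← Finset.sum_sub_distrib, ← Finset.sum_sub_distrib]
      refine Finset.sum_congr rfl fun k _ => ?_
      rw [map_sub, map_sub, Matrix.sub_apply, Matrix.sub_apply]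
      ring
    rw [e1]
    exact Ideal.sub_mem _ (h t l j) (Ideal.sum_mem _ fun k _ => h _ l k)
  choose u hu using fun l => Ideal.mem_span_singleton.mp (h1 l)
  -- the preimage of `u`
  obtain ⟨v, hv⟩ := hb'.2 (TwV.mk _ u)
  have h2 : (fun k => newAct w Φ hb t k j - newAct w Φ' hb' t k j) =
      algebraMap 𝒪 (MonoidAlgebra 𝒪 D) ϖ • v := by
    apply hb'.1
    rw [map_smul, hv]
    apply TwV.ext
    rw [TwV.get_smul, TwV.get_mk, get_twMap]
    change _ = Matrix.mulVec (Φ' (w (algebraMap 𝒪 _ ϖ))) u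
    rw [AlgHom.commutes, AlgHom.commutes, Algebra.algebraMap_eq_smul_one, Matrix.smul_mulVec,
      Matrix.one_mulVec]
    funext l
    rw [Finset.sum_apply, Pi.smul_apply, Algebra.smul_def, ← hu l]
    refine Finset.sum_congr rfl fun k _ => ?_
    rw [Matrix.mulVec_single_one, Matrix.col_apply]
    rfl
  rw [Matrix.sub_apply, Ideal.mem_span_singleton]
  exact ⟨v i, congrFun h2 i⟩

end Congr

section Final

variable [IsAdicComplete (maximalIdeal (MonoidAlgebra 𝒪 D)) (MonoidAlgebra 𝒪 D)]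
  (Φ₁ Φχ : T →ₐ[𝒪] Matrix (Fin d) (Fin d) (MonoidAlgebra 𝒪 D))
  (a₁ a₁' aχ aχ' : Fin r → Matrix (Fin d) (Fin d) (MonoidAlgebra 𝒪 D))
  (ha₁ : ∀ i, a₁ i * a₁' i = 1) (haχ : ∀ i, aχ i * aχ' i = 1)
  (hΦ₁ : ∀ i, Φ₁ (w (MonoidAlgebra.of 𝒪 D (G.δ i) - 1)) =
    (MonoidAlgebra.of 𝒪 D (G.δ i) - 1) • a₁ i)
  (hΦχ : ∀ i, Φχ (w (MonoidAlgebra.of 𝒪 D (G.δ i) - 1)) =
    (MonoidAlgebra.of 𝒪 D (G.δ i) - 1) • aχ i)

/-- The isomorphism between the quotient of the power series ring and the group ring. -/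
noncomputable def evIso : (MvPowerSeries (Fin r) 𝒪 ⧸ RingHom.ker (ev (𝒪 := 𝒪) G)) ≃+*
    MonoidAlgebra 𝒪 D := RingHom.quotientKerEquivOfSurjective (ev_surjective G)

lemma evIso_mk (s : MvPowerSeries (Fin r) 𝒪) : evIso G (Ideal.Quotient.mk _ s) = ev G s := rfl

lemma evIso_symm_ev (s : MvPowerSeries (Fin r) 𝒪) :
    (evIso G).symm (ev G s) = Ideal.Quotient.mk _ s := by
  rw [RingEquiv.symm_apply_eq, evIso_mk]

lemma lift_evIso_symm (y : MonoidAlgebra 𝒪 D) :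
    Ideal.Quotient.lift (RingHom.ker (ev (𝒪 := 𝒪) G)) constantCoeff
      (fun a ha => RingHom.mem_ker.mp (ker_ev_le_constantCoeff G ha)) ((evIso G).symm y) =
      aug 𝒪 D y := by
  obtain ⟨s, rfl⟩ := ev_surjective G y
  rw [evIso_symm_ev, Ideal.Quotient.lift_mk, aug_ev]

/-- Transport of an action to the quotient of the power series ring. -/
noncomputable def trAct (A : T →+* Matrix (Fin d) (Fin d) (MonoidAlgebra 𝒪 D)) :
    T →+* Matrix (Fin d) (Fin d) (MvPowerSeries (Fin r) 𝒪 ⧸ RingHom.ker (ev (𝒪 := 𝒪) G)) :=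
  (((evIso (𝒪 := 𝒪) G).symm : MonoidAlgebra 𝒪 D →+* _).mapMatrix).comp A

lemma trAct_apply (A : T →+* Matrix (Fin d) (Fin d) (MonoidAlgebra 𝒪 D)) (t : T) (i j : Fin d) :
    trAct G A t i j = (evIso G).symm (A t i j) := rfl

include ha₁ haχ hΦ₁ hΦχ in
/-- **The two actions at a Taylor–Wiles level.** -/
theorem exists_actions (hcongr : ∀ t, ∀ ϖ : 𝒪, maximalIdeal 𝒪 = Ideal.span {ϖ} →
      MatIn (Ideal.span {algebraMap 𝒪 (MonoidAlgebra 𝒪 D) ϖ}) (Φ₁ t - Φχ t)) :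
    ∃ A₁ Aχ : T →+* Matrix (Fin d) (Fin d)
        (MvPowerSeries (Fin r) 𝒪 ⧸ RingHom.ker (ev (𝒪 := 𝒪) G)),
      (∀ s, A₁ (w (ev G s)) = Matrix.scalar (Fin d)
        (Ideal.Quotient.mk (RingHom.ker (ev (𝒪 := 𝒪) G)) s)) ∧
      (∀ s, Aχ (w (ev G s)) = Matrix.scalar (Fin d)
        (Ideal.Quotient.mk (RingHom.ker (ev (𝒪 := 𝒪) G)) s)) ∧
      (∀ t, MatIn (((maximalIdeal 𝒪).map (C : 𝒪 →+* MvPowerSeries (Fin r) 𝒪)).map
        (Ideal.Quotient.mk (RingHom.ker (ev (𝒪 := 𝒪) G)))) (A₁ t - Aχ t)) ∧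
      (∀ (t : T) (i j : Fin d), Ideal.Quotient.lift (RingHom.ker (ev (𝒪 := 𝒪) G)) constantCoeff
        (fun a ha => RingHom.mem_ker.mp (ker_ev_le_constantCoeff G ha)) (A₁ t i j) =
        aug 𝒪 D (Φ₁ t i j)) ∧
      (∀ t, Φ₁ t = 0 → A₁ t = 0) ∧ (∀ t, Φχ t = 0 → Aχ t = 0) := by
  have hb₁ : Function.Bijective (twMap (ψr (Φ₁.comp w))) :=
    twMap_bijective G (Φ₁.comp w) a₁ a₁' ha₁ hΦ₁
  have hbχ : Function.Bijective (twMap (ψr (Φχ.comp w))) :=
    twMap_bijective G (Φχ.comp w) aχ aχ' haχ hΦχ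
  have key : ∀ (Φ : T →ₐ[𝒪] Matrix (Fin d) (Fin d) (MonoidAlgebra 𝒪 D))
      (hb : Function.Bijective (twMap (ψr (Φ.comp w)))) (s : MvPowerSeries (Fin r) 𝒪),
      trAct G (newAct w Φ hb) (w (ev G s)) =
        Matrix.scalar (Fin d) (Ideal.Quotient.mk (RingHom.ker (ev (𝒪 := 𝒪) G)) s) := by
    intro Φ hb s
    ext i j
    rw [trAct_apply, newAct_w, Matrix.scalar_apply, Matrix.scalar_apply,
      Matrix.diagonal_apply, Matrix.diagonal_apply]
    split_ifs
    · exact evIso_symm_ev G s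
    · exact map_zero _
  refine ⟨trAct G (newAct w Φ₁ hb₁), trAct G (newAct w Φχ hbχ),
    fun s => key Φ₁ hb₁ s, fun s => key Φχ hbχ s, fun t i j => ?_, fun t i j => ?_,
    fun t ht => ?_, fun t ht => ?_⟩
  · obtain ⟨ϖ, hϖ⟩ := (IsPrincipalIdealRing.principal (maximalIdeal 𝒪)).principal
    have hϖ' : maximalIdeal 𝒪 = Ideal.span {ϖ} := hϖ
    have h1 := newAct_congr w Φ₁ Φχ hb₁ hbχ (fun t => hcongr t ϖ hϖ') t i j
    rw [hϖ', Ideal.map_span, Set.image_singleton, Ideal.map_span, Set.image_singleton]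
    rw [Matrix.sub_apply, Ideal.mem_span_singleton] at h1
    obtain ⟨u, hu⟩ := h1
    rw [Matrix.sub_apply, Ideal.mem_span_singleton, trAct_apply, trAct_apply, ← map_sub, hu,
      map_mul, ← ev_C G, evIso_symm_ev]
    exact Dvd.intro _ rfl
  · rw [← aug_newAct G w Φ₁ a₁ hΦ₁ hb₁, trAct_apply, lift_evIso_symm]
  · ext i j
    rw [trAct_apply, newAct_eq_zero w Φ₁ hb₁ ht, Matrix.zero_apply, map_zero]; rfl
  · ext i j
    rw [trAct_apply, newAct_eq_zero w Φχ hbχ ht, Matrix.zero_apply, map_zero]; rfl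

end Final

end Fermat.Agent.RT
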