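import Fermat.Agent.RT.LvlW2
import Fermat.Agent.RT.TWAction

set_option autoImplicit false
set_option maxHeartbeats 400000
set_option linter.style.haveILetI false
set_option linter.unusedSectionVars false
set_option linter.unusedVariables false

/-!
# The two specialisations at the special prime
-/

open IsLocalRing CongruenceSubgroup Matrix.SpecialLinearGroup
open scoped MatrixGroups
open Fermat.Agent.ESCore Fermat.Agent.ESCore.UnivG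
open Fermat.Agent.ESCore.Univ (Idx)
open Fermat.Agent.ESCore.Gal (dU dLift dU_dLift)
open Fermat.Agent.Coh Fermat.Agent.GalD Fermat.Agent.LocalCFT Fermat.Agent.GCFT

noncomputable section

namespace Fermat.Agent.RT

open Ihara

/-- The Taylor–Wiles part of the group. -/
abbrev DT (p : ℕ) {r : ℕ} (e : Fin r → ℕ) : Type := ∀ i : Fin r, Multiplicative (ZMod (p ^ e i))

section Spc

variable {𝒪 : Type} [CommRing 𝒪] {p r : ℕ} {e : Fin r → ℕ}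

/-- The specialisation at the special prime. -/
def spc (e : Fin r → ℕ) (ω : Multiplicative (ZMod p) →* 𝒪) :
    MonoidAlgebra 𝒪 (DG p e) →ₐ[𝒪] MonoidAlgebra 𝒪 (DT p e) :=
  MonoidAlgebra.lift 𝒪 (MonoidAlgebra 𝒪 (DT p e)) (DG p e)
    { toFun := fun g => algebraMap 𝒪 _ (ω g.1) * MonoidAlgebra.of 𝒪 (DT p e) g.2
      map_one' := by rw [Prod.fst_one, Prod.snd_one, map_one, map_one, map_one, mul_one]
      map_mul' := fun g h => by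
        rw [Prod.fst_mul, Prod.snd_mul, map_mul, map_mul, map_mul]; ring }

lemma spc_of (ω : Multiplicative (ZMod p) →* 𝒪) (g : DG p e) :
    spc e ω (MonoidAlgebra.of 𝒪 (DG p e) g) =
      algebraMap 𝒪 _ (ω g.1) * MonoidAlgebra.of 𝒪 (DT p e) g.2 := by
  rw [spc, MonoidAlgebra.lift_of]; rfl

lemma aug_spc (y : MonoidAlgebra 𝒪 (DG p e)) :
    aug 𝒪 (DT p e) (spc e (1 : Multiplicative (ZMod p) →* 𝒪) y) = aug 𝒪 (DG p e) y := by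
  have h : (aug 𝒪 (DT p e)).comp (spc e (1 : Multiplicative (ZMod p) →* 𝒪)) =
      aug 𝒪 (DG p e) := by
    refine MonoidAlgebra.algHom_ext (fun g => ?_) (Subsingleton.elim _ _)
    change aug 𝒪 (DT p e) (spc e 1 (MonoidAlgebra.of 𝒪 (DG p e) g)) =
      aug 𝒪 (DG p e) (MonoidAlgebra.of 𝒪 (DG p e) g)
    rw [spc_of, MonoidHom.one_apply, map_one, one_mul, aug_of, aug_of]
  exact DFunLike.congr_fun h y

end Spc

variable {𝒪 : Type} [CommRing 𝒪] [IsDomain 𝒪] [IsDiscreteValuationRing 𝒪]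
  [IsAdicComplete (maximalIdeal 𝒪) 𝒪] [Finite (ResidueField 𝒪)] [CharZero 𝒪]

variable {p M q₀ : ℕ} [Fact p.Prime] {χ : GQ →* 𝒪ˣ} [NeZero (M * q₀)] {S₀ : Finset ℕ} {a : ℕ → 𝒪}
  {d : ℕ} {K : Type} [Field K] [Algebra (ResidueField 𝒪) K] {ρK : GQ →* GL (Fin 2) K}
  (hB : HBase p M q₀ S₀ a ρK χ)
  {Z : HZero p χ (M * q₀) S₀ a d} {N : ℕ} [NeZero N] {S : Finset ℕ} {r : ℕ}
  {q : Fin r → ℕ} {e : Fin r → ℕ} {h₀ : q₀ ∣ N} {h₁ : ∀ i, q i ∣ N}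
  {ψ₀ : (ZMod q₀)ˣ →* Multiplicative (ZMod p)}
  {ψ₁ : ∀ i, (ZMod (q i))ˣ →* Multiplicative (ZMod (p ^ e i))}
  (hψ₀ : Function.Surjective ψ₀) (hψ₁ : ∀ i, Function.Surjective (ψ₁ i))
  (H : HLevel Z N S (psiN h₀ h₁ ψ₀ ψ₁)) (hN : LvlN N M q₀ q)
  (hM : Squarefree M) (hpS : p ∈ S) (hNS : ∀ l : ℕ, l.Prime → l ∣ N → l ∈ S)
  (b : PsB 𝒪 χ) (hg : b.Good H.t) (h36 : S36P) (hd : 0 < d)
  {πT : H.T →ₐ[𝒪] ResidueField 𝒪}
  (hπ : RingHom.ker (πT : H.T →+* ResidueField 𝒪) = maximalIdeal H.T)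
  {πZ : Z.T →ₐ[𝒪] ResidueField 𝒪}
  (hπZ : RingHom.ker (πZ : Z.T →+* ResidueField 𝒪) = maximalIdeal Z.T)

/-- The specialised action. -/
def HLevel.Phi (ω : Multiplicative (ZMod p) →* 𝒪) :
    H.T →ₐ[𝒪] Matrix (Fin d) (Fin d) (MonoidAlgebra 𝒪 (DT p e)) :=
  ((spc e ω).mapMatrix).comp H.ι

lemma HLevel.Phi_apply (ω : Multiplicative (ZMod p) →* 𝒪) (t : H.T) (i j : Fin d) :
    H.Phi ω t i j = spc e ω (H.ι t i j) := rfl

lemma HLevel.Phi_map (ω : Multiplicative (ZMod p) →* 𝒪)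
    (ψ' : MonoidAlgebra 𝒪 (DT p e) →ₐ[𝒪] LL 𝒪) (t : H.T) :
    (H.Phi ω t).map ψ' = (H.ι t).map (ψ'.comp (spc e ω)) := rfl

lemma HLevel.eigSys_Phi {ω : Multiplicative (ZMod p) →* 𝒪}
    {ψ' : MonoidAlgebra 𝒪 (DT p e) →ₐ[𝒪] LL 𝒪} {lam : H.T →ₐ[𝒪] LL 𝒪}
    (h : EigSys (H.Phi ω) ψ' lam) : EigSys H.ι (ψ'.comp (spc e ω)) lam := by
  obtain ⟨v, hv, hev⟩ := h
  exact ⟨v, hv, fun t => by rw [← HLevel.Phi_map]; exact hev t⟩

/-- Vanishing for the specialised action. -/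
theorem HLevel.Phi_eq_zero {ω : Multiplicative (ZMod p) →* 𝒪} {y : H.T}
    (h : ∀ (ψ' : MonoidAlgebra 𝒪 (DT p e) →ₐ[𝒪] LL 𝒪) (lam : H.T →ₐ[𝒪] LL 𝒪),
      EigSys (H.Phi ω) ψ' lam → lam y = 0) : H.Phi ω y = 0 :=
  eq_zero_of_eigSys LL_inj (fun ψ' y hy => by
    rw [HLevel.Phi_map] at hy ⊢
    exact H.hss _ _ hy) h

include hB hN hM hpS hNS hg h36 hψ₁ in
/-- The local behaviour at the Taylor–Wiles primes. -/
theorem HLevel.local_tw {ω : Multiplicative (ZMod p) →* 𝒪} (hp0 : p ≠ 0)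
    {ψ' : MonoidAlgebra 𝒪 (DT p e) →ₐ[𝒪] LL 𝒪} {lam : H.T →ₐ[𝒪] LL 𝒪}
    (h : EigSys (H.Phi ω) ψ' lam) (i : Fin r) (hqp : q i ≠ p) :
    (∀ A : ValuationSubring Qb, A.LiesOverPrime (q i) → ∀ σ ∈ A.inertiaSubgroupIn ℚ,
            lam (H.t σ) = 2) ↔ ψ' (MonoidAlgebra.of 𝒪 _ ((genPi p hp0 e).δ i)) = 1 := by
  obtain ⟨-, k2, k3⟩ := H.local hB hN hM hpS hNS b hg h36 (H.eigSys_Phi h)
  have hqD : q i ∣ q₀ * ∏ i, q i := (hN.dvd_D₁_iff (hN.hq i)).mpr (Or.inr ⟨i, rfl⟩)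
  have hval : ∀ (u : (ZMod N)ˣ) (y : ℕ), (u : ZMod N) = y → y ≡ 1 [MOD (N / q i)] →
      (ψ'.comp (spc e ω)) (MonoidAlgebra.of 𝒪 (DG p e) (psiN h₀ h₁ ψ₀ ψ₁ u)) =
        ψ' (MonoidAlgebra.of 𝒪 _ (Pi.mulSingle i (ψ₁ i (ZMod.unitsMap (h₁ i) u)))) := by
    intro u y hu hy
    rw [psiN_at h₀ h₁ ψ₀ ψ₁ i (hN.dvd_div_j₀ i) (fun j hj => hN.dvd_div_j i j hj) hu hy]
    rw [AlgHom.comp_apply, spc_of]
    change ψ' (algebraMap 𝒪 _ (ω 1) * _) = _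
    rw [map_one, map_one, one_mul]
  constructor
  · intro hall
    by_contra hne
    obtain ⟨g, hg'⟩ := hψ₁ i (Multiplicative.ofAdd 1)
    obtain ⟨u, y, hu, hy, hug⟩ := exists_unit_at (h₁ i) (hN.cop_j i) g
    obtain ⟨A, hA, σ, hσ, hne2⟩ := k3 (q i) (hN.hq i) hqp hqD ⟨u, y, hu, hy, by
      rw [hval u y hu hy, hug, hg']
      exact hne⟩
    exact hne2 (hall A hA σ hσ)
  · intro h1
    refine k2 (q i) (hN.hq i) hqp hqD fun u y hu hy => ?_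
    rw [hval u y hu hy]
    obtain ⟨m, hm⟩ := mem_zpowers_ofAdd_one (ψ₁ i (ZMod.unitsMap (h₁ i) u))
    have hm : (Multiplicative.ofAdd (1 : ZMod (p ^ e i))) ^ m =
        ψ₁ i (ZMod.unitsMap (h₁ i) u) := hm
    rw [← hm, Pi.mulSingle_zpow]
    have h2 : ∀ g : DT p e, ψ' (MonoidAlgebra.of 𝒪 _ g) = 1 → ∀ m : ℤ,
        ψ' (MonoidAlgebra.of 𝒪 _ (g ^ m)) = 1 := by
      intro g hg1 m
      let F : DT p e →* LL 𝒪 := (ψ' : MonoidAlgebra 𝒪 (DT p e) →* LL 𝒪).comp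
        (MonoidAlgebra.of 𝒪 (DT p e))
      have h3 : ∀ k : ℤ, F (g ^ k) = 1 := by
        intro k
        have h4 : ((F.toHomUnits g ^ k : (LL 𝒪)ˣ) : LL 𝒪) = F (g ^ k) := by
          rw [← map_zpow]; rfl
        rw [← h4]
        have h5 : F.toHomUnits g = 1 := Units.ext hg1
        rw [h5, one_zpow, Units.val_one]
      exact h3 m
    exact h2 _ h1 m

include hB hN hM hpS hNS hg h36 hψ₁ in
theorem HLevel.eigProp {ω : Multiplicative (ZMod p) →* 𝒪} (hp0 : p ≠ 0) (hqp : ∀ i, q i ≠ p)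
    {w : MonoidAlgebra 𝒪 (DT p e) →ₐ[𝒪] H.T}
    (hw : ∀ (lam : H.T →ₐ[𝒪] LL 𝒪) (i : Fin r),
        lam (w (MonoidAlgebra.of 𝒪 _ ((genPi p hp0 e).δ i))) = 1 ↔
          ∀ A : ValuationSubring Qb, A.LiesOverPrime (q i) → ∀ σ ∈ A.inertiaSubgroupIn ℚ,
            lam (H.t σ) = 2) :
    EigProp (genPi p hp0 e) w (H.Phi ω) (L := LL 𝒪) := by
  intro ψ' v lam hv hev i
  obtain ⟨lam', hlam', hsys⟩ := exists_eigSys_of_fun (Φ := H.Phi ω) (ψ := ψ') hv hev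
  rw [← hlam', hw]
  exact H.local_tw hB hψ₁ hN hM hpS hNS b hg h36 hp0 hsys i (hqp i)

end Fermat.Agent.RT
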