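import Fermat.Agent.RT.LvlAct
import Fermat.Agent.RT.LevelsMain

set_option autoImplicit false
set_option maxHeartbeats 400000
set_option linter.style.haveILetI false
set_option linter.unusedSectionVars false
set_option linter.unusedVariables false

/-!
# The two actions
-/

open IsLocalRing CongruenceSubgroup Matrix.SpecialLinearGroup MvPowerSeries
open scoped MatrixGroups
open Fermat.Agent.ESCore Fermat.Agent.ESCore.UnivG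
open Fermat.Agent.ESCore.Univ (Idx)
open Fermat.Agent.ESCore.Gal (dU dLift dU_dLift)
open Fermat.Agent.Coh Fermat.Agent.GalD Fermat.Agent.LocalCFT Fermat.Agent.GCFT

noncomputable section

namespace Fermat.Agent.RT

open Ihara

section Zeta

variable {𝒪 : Type} [CommRing 𝒪] [IsDomain 𝒪] [IsLocalRing 𝒪]

lemma root_sub_one_mem {p n : ℕ} (hp : p.Prime) (hp𝒪 : (p : 𝒪) ∈ maximalIdeal 𝒪) {z : 𝒪}
    (hz : z ^ p ^ n = 1) : z - 1 ∈ maximalIdeal 𝒪 := by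
  haveI : Fact p.Prime := ⟨hp⟩
  haveI : CharP (ResidueField 𝒪) p := by
    refine (CharP.charP_iff_prime_eq_zero hp).mpr ?_
    have := (residue_eq_zero_iff _).mpr hp𝒪
    rwa [map_natCast] at this
  rw [← residue_eq_zero_iff, map_sub, map_one]
  have h1 : (residue 𝒪 z - 1) ^ p ^ n = 0 := by
    rw [sub_pow_char_pow, one_pow, ← map_pow, hz, map_one, sub_self]
  exact pow_eq_zero_iff (pow_ne_zero n hp.ne_zero) |>.mp h1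

/-- The pairs of inverse non-trivial roots of unity. -/
def zPairs (ζ : 𝒪) (n : ℕ) : Finset (𝒪 × 𝒪) := by
  classical
  exact ((Finset.range n).image fun j => (ζ ^ j, (ζ ^ j) ^ (n - 1))).filter fun z => z.1 ≠ 1

lemma mem_zPairs {ζ : 𝒪} {n : ℕ} [NeZero n] (hζ : IsPrimitiveRoot ζ n) {z : 𝒪 × 𝒪} :
    z ∈ zPairs ζ n ↔ z.1 ^ n = 1 ∧ z.1 ≠ 1 ∧ z.2 = z.1 ^ (n - 1) := by
  classical
  rw [zPairs, Finset.mem_filter, Finset.mem_image]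
  constructor
  · rintro ⟨⟨j, -, rfl⟩, h⟩
    exact ⟨by change (ζ ^ j) ^ n = 1; rw [← pow_mul, mul_comm, pow_mul, hζ.pow_eq_one, one_pow],
      h, rfl⟩
  · rintro ⟨h1, h2, h3⟩
    obtain ⟨j, hj, hj2⟩ := hζ.eq_pow_of_pow_eq_one h1
    exact ⟨⟨j, Finset.mem_range.mpr hj, by rw [hj2, ← h3]⟩, h2⟩

lemma zPairs_prop {p n : ℕ} (hp : p.Prime) (hp2 : p ≠ 2) (hp𝒪 : (p : 𝒪) ∈ maximalIdeal 𝒪)
    {ζ : 𝒪} (hζ : IsPrimitiveRoot ζ (p ^ n)) {z : 𝒪 × 𝒪} (hz : z ∈ zPairs ζ (p ^ n)) :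
    z.1 - 1 ∈ maximalIdeal 𝒪 ∧ z.1 * z.2 = 1 ∧ z.1 ≠ z.2 := by
  haveI : NeZero (p ^ n) := ⟨pow_ne_zero _ hp.ne_zero⟩
  obtain ⟨h1, h2, h3⟩ := (mem_zPairs hζ).mp hz
  have h4 : z.1 * z.2 = 1 := by
    rw [h3, ← pow_succ', Nat.sub_add_cancel (Nat.one_le_iff_ne_zero.mpr (NeZero.ne _)), h1]
  refine ⟨root_sub_one_mem hp hp𝒪 h1, h4, fun h => h2 ?_⟩
  have h5 : z.1 ^ 2 = 1 := by rw [pow_two]; nth_rewrite 2 [h]; exact h4
  obtain ⟨j, hj⟩ : Odd (p ^ n) := (hp.odd_of_ne_two hp2).pow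
  rw [hj, pow_succ, pow_mul, h5, one_pow, one_mul] at h1
  exact h1

end Zeta

section Congr

variable {𝒪 : Type} [CommRing 𝒪] {p r : ℕ} {e : Fin r → ℕ}

lemma spc_congr {I : Ideal 𝒪} {ω ω' : Multiplicative (ZMod p) →* 𝒪}
    (h : ∀ g, ω g - ω' g ∈ I) (y : MonoidAlgebra 𝒪 (DG p e)) :
    spc e ω y - spc e ω' y ∈ I.map (algebraMap 𝒪 (MonoidAlgebra 𝒪 (DT p e))) := by
  set J := I.map (algebraMap 𝒪 (MonoidAlgebra 𝒪 (DT p e))) with hJ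
  have h1 : (Ideal.Quotient.mkₐ 𝒪 J).comp (spc e ω) = (Ideal.Quotient.mkₐ 𝒪 J).comp (spc e ω') := by
    refine MonoidAlgebra.algHom_ext (fun g => ?_) (Subsingleton.elim _ _)
    change Ideal.Quotient.mk J (spc e ω (MonoidAlgebra.of 𝒪 (DG p e) g)) =
      Ideal.Quotient.mk J (spc e ω' (MonoidAlgebra.of 𝒪 (DG p e) g))
    rw [spc_of, spc_of, ← sub_eq_zero, ← map_sub, ← sub_mul, ← map_sub]
    exact Ideal.Quotient.eq_zero_iff_mem.mpr (Ideal.mul_mem_right _ _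
      (Ideal.mem_map_of_mem _ (h g.1)))
  have h2 := DFunLike.congr_fun h1 y
  change Ideal.Quotient.mk J (spc e ω y) = Ideal.Quotient.mk J (spc e ω' y) at h2
  rw [← sub_eq_zero, ← map_sub] at h2
  exact Ideal.Quotient.eq_zero_iff_mem.mp h2

end Congr

variable {𝒪 : Type} [CommRing 𝒪] [IsDomain 𝒪] [IsDiscreteValuationRing 𝒪]
  [IsAdicComplete (maximalIdeal 𝒪) 𝒪] [Finite (ResidueField 𝒪)] [CharZero 𝒪]

variable {p M q₀ : ℕ} [Fact p.Prime] {χ : GQ →* 𝒪ˣ} [NeZero (M * q₀)] {S₀ : Finset ℕ} {a : ℕ → 𝒪}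
  {d : ℕ} {K : Type} [Field K] [Algebra (ResidueField 𝒪) K] {ρK : GQ →* GL (Fin 2) K}
  (hB : HBase p M q₀ S₀ a ρK χ)
  {Z : HZero p χ (M * q₀) S₀ a d} {N : ℕ} [NeZero N] {S : Finset ℕ} {r : ℕ}
  {q : Fin r → ℕ} {e : Fin r → ℕ} {h₀ : q₀ ∣ N} {h₁ : ∀ i, q i ∣ N}
  {ψ₀ : (ZMod q₀)ˣ →* Multiplicative (ZMod p)}
  {ψ₁ : ∀ i, (ZMod (q i))ˣ →* Multiplicative (ZMod (p ^ e i))}
  (hψ₀ : Function.Surjective ψ₀) (hψ₁ : ∀ i, Function.Surjective (ψ₁ i))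
  (H : HLevel Z N S (psiN h₀ h₁ ψ₀ ψ₁)) (hN : LvlN N M q₀ q)
  (hM : Squarefree M) (hpS : p ∈ S) (hNS : ∀ l : ℕ, l.Prime → l ∣ N → l ∈ S)
  (b : PsB 𝒪 χ) (hg : b.Good H.t) (h36 : S36P) (hd : 0 < d)
  {πT : H.T →ₐ[𝒪] ResidueField 𝒪}
  (hπ : RingHom.ker (πT : H.T →+* ResidueField 𝒪) = maximalIdeal H.T)
  {πZ : Z.T →ₐ[𝒪] ResidueField 𝒪}
  (hπZ : RingHom.ker (πZ : Z.T →+* ResidueField 𝒪) = maximalIdeal Z.T)

section Special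

include hB hN hM hpS hNS hg h36 in
/-- The local behaviour at the special prime, trivial type. -/
theorem HLevel.local_one (hqp : q₀ ≠ p)
    {ψ' : MonoidAlgebra 𝒪 (DT p e) →ₐ[𝒪] LL 𝒪} {lam : H.T →ₐ[𝒪] LL 𝒪}
    (h : EigSys (H.Phi 1) ψ' lam) (A : ValuationSubring Qb) (hA : A.LiesOverPrime q₀)
    (σ : GQ) (hσ : σ ∈ A.inertiaSubgroupIn ℚ) : lam (H.t σ) = 2 := by
  obtain ⟨-, k2, k3⟩ := H.local hB hN hM hpS hNS b hg h36 (H.eigSys_Phi h)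
  refine k2 q₀ hN.hq₀ hqp ((hN.dvd_D₁_iff hN.hq₀).mpr (Or.inl rfl)) (fun u y hu hy => ?_) A hA σ hσ
  rw [psiN_at₀ h₀ h₁ ψ₀ ψ₁ (fun i => hN.dvd_div₀ i) hu hy, AlgHom.comp_apply, spc_of]
  change ψ' (algebraMap 𝒪 _ 1 * MonoidAlgebra.of 𝒪 (DT p e) 1) = 1
  rw [map_one, map_one, one_mul, map_one]

include hB hN hM hpS hNS hg h36 hψ₀ in
/-- The local behaviour at the special prime, type `χ`. -/
theorem HLevel.local_chi (hqp : q₀ ≠ p) {ω : Multiplicative (ZMod p) →* 𝒪} (hω : ω ≠ 1)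
    {ψ' : MonoidAlgebra 𝒪 (DT p e) →ₐ[𝒪] LL 𝒪} {lam : H.T →ₐ[𝒪] LL 𝒪}
    (h : EigSys (H.Phi ω) ψ' lam) : ∃ A : ValuationSubring Qb, A.LiesOverPrime q₀ ∧
      ∃ σ ∈ A.inertiaSubgroupIn ℚ, lam (H.t σ) ≠ 2 := by
  obtain ⟨-, k2, k3⟩ := H.local hB hN hM hpS hNS b hg h36 (H.eigSys_Phi h)
  obtain ⟨g, hg1⟩ : ∃ g, ω g ≠ 1 := by
    by_contra hcon
    push Not at hcon
    exact hω (MonoidHom.ext hcon)
  obtain ⟨g', hg'⟩ := hψ₀ g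
  obtain ⟨u, y, hu, hy, hug⟩ := exists_unit_at h₀ hN.cop₀ g'
  refine k3 q₀ hN.hq₀ hqp ((hN.dvd_D₁_iff hN.hq₀).mpr (Or.inl rfl)) ⟨u, y, hu, hy, ?_⟩
  rw [psiN_at₀ h₀ h₁ ψ₀ ψ₁ (fun i => hN.dvd_div₀ i) hu hy, AlgHom.comp_apply, spc_of, hug, hg']
  change ψ' (algebraMap 𝒪 _ (ω g) * MonoidAlgebra.of 𝒪 (DT p e) 1) ≠ 1
  rw [map_one, mul_one, AlgHom.commutes]
  intro h1
  exact hg1 (LL_inj (h1.trans (map_one _).symm))

end Special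

/-- The two actions. -/
theorem HLevel.exists_acts (hp0 : p ≠ 0) (hB : HBase p M q₀ S₀ a ρK χ)
    {w : MonoidAlgebra 𝒪 (DT p e) →ₐ[𝒪] H.T} (ω : Multiplicative (ZMod p) →* 𝒪)
    (hw1 : EigProp (genPi p hp0 e) w (H.Phi 1) (L := LL 𝒪))
    (hw2 : EigProp (genPi p hp0 e) w (H.Phi ω) (L := LL 𝒪))
    {ζ : 𝒪} (hζ : IsPrimitiveRoot ζ p) (he : ∀ i, 1 ≤ e i)
    [IsLocalRing (MonoidAlgebra 𝒪 (DT p e))]
    [IsAdicComplete (maximalIdeal (MonoidAlgebra 𝒪 (DT p e))) (MonoidAlgebra 𝒪 (DT p e))] :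
    ∃ A₁ Aχ : H.T →+* Matrix (Fin d) (Fin d)
        (MvPowerSeries (Fin r) 𝒪 ⧸ RingHom.ker (ev (𝒪 := 𝒪) (genPi p hp0 e))),
      (∀ s, A₁ (w (ev (genPi p hp0 e) s)) = Matrix.scalar (Fin d)
        (Ideal.Quotient.mk (RingHom.ker (ev (𝒪 := 𝒪) (genPi p hp0 e))) s)) ∧
      (∀ s, Aχ (w (ev (genPi p hp0 e) s)) = Matrix.scalar (Fin d)
        (Ideal.Quotient.mk (RingHom.ker (ev (𝒪 := 𝒪) (genPi p hp0 e))) s)) ∧
      (∀ t, MatIn (((maximalIdeal 𝒪).map (C : 𝒪 →+* MvPowerSeries (Fin r) 𝒪)).map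
        (Ideal.Quotient.mk (RingHom.ker (ev (𝒪 := 𝒪) (genPi p hp0 e))))) (A₁ t - Aχ t)) ∧
      (∀ (t : H.T) (i j : Fin d),
        Ideal.Quotient.lift (RingHom.ker (ev (𝒪 := 𝒪) (genPi p hp0 e))) constantCoeff
        (fun a ha => RingHom.mem_ker.mp (ker_ev_le_constantCoeff (genPi p hp0 e) ha)) (A₁ t i j) =
        Z.ι (H.pr t) i j) ∧
      (∀ t, H.Phi 1 t = 0 → A₁ t = 0) ∧ (∀ t, H.Phi ω t = 0 → Aχ t = 0) := by
  obtain ⟨a₁, a₁', h1, h2⟩ := hw1.exists_units LL_inj hζ hB.hp𝒪 he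
  obtain ⟨aχ, aχ', h3, h4⟩ := hw2.exists_units LL_inj hζ hB.hp𝒪 he
  obtain ⟨A₁, Aχ, k1, k2, k3, k4, k5, k6⟩ := exists_actions (genPi p hp0 e) w (H.Phi 1) (H.Phi ω)
    a₁ a₁' aχ aχ' h1 h3 h2 h4 (fun t ϖ hϖ i j => by
      have h5 := spc_congr (e := e) (I := maximalIdeal 𝒪) (ω := 1) (ω' := ω) (fun g => by
        have h6 : ω g - 1 ∈ maximalIdeal 𝒪 := by
          refine root_sub_one_mem (n := 1) hB.hp hB.hp𝒪 ?_
          have h7 : g ^ p = 1 := by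
            rw [← ofAdd_toAdd g, ← ofAdd_nsmul, nsmul_eq_mul, ZMod.natCast_self, zero_mul,
              ofAdd_zero]
          rw [pow_one, ← map_pow, h7, map_one]
        rw [MonoidHom.one_apply, ← neg_sub]
        exact (Ideal.neg_mem_iff _).mpr h6) (H.ι t i j)
      rw [hϖ, Ideal.map_span, Set.image_singleton] at h5
      exact h5)
  refine ⟨A₁, Aχ, k1, k2, k3, fun t i j => ?_, k5, k6⟩
  rw [k4, HLevel.Phi_apply, aug_spc, H.hpr]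

end Fermat.Agent.RT
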