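import Fermat.Agent.RT.LvlPts
import Fermat.Agent.RT.LocAt

set_option autoImplicit false
set_option maxHeartbeats 400000
set_option linter.style.haveILetI false
set_option linter.unusedSectionVars false
set_option linter.unusedVariables false

/-!
# The property of the place `p`
-/

open IsLocalRing CongruenceSubgroup Matrix.SpecialLinearGroup MvPowerSeries
open scoped MatrixGroups
open Fermat.Agent.ESCore Fermat.Agent.ESCore.UnivG
open Fermat.Agent.ESCore.Univ (Idx)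
open Fermat.Agent.ESCore.Gal (dU dLift dU_dLift)
open Fermat.Agent.Coh Fermat.Agent.GalD Fermat.Agent.LocalCFT Fermat.Agent.GCFT

noncomputable section

namespace Fermat.Agent.RT

open Ihara

variable {𝒪 : Type} [CommRing 𝒪] [IsDomain 𝒪] [IsDiscreteValuationRing 𝒪]
  [IsAdicComplete (maximalIdeal 𝒪) 𝒪] [Finite (ResidueField 𝒪)] [CharZero 𝒪]

/-- **The property of the place `p`**: the representations of all levels are of the same
local type at `p`. -/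
def PPlaceP {p M q₀ : ℕ} [Fact p.Prime] [NeZero (M * q₀)] {χ : GQ →* 𝒪ˣ} {S₀ : Finset ℕ}
    {a : ℕ → 𝒪} {d : ℕ} (Z : HZero p χ (M * q₀) S₀ a d) : Prop :=
  ∀ b : PsB 𝒪 χ, b.Good Z.t → ∃ τ : LocType 𝒪 4,
    ∀ {N : ℕ} [NeZero N] {S : Finset ℕ} {r : ℕ} {q : Fin r → ℕ} {e : Fin r → ℕ}
      {h₀ : q₀ ∣ N} {h₁ : ∀ i, q i ∣ N} {ψ₀ : (ZMod q₀)ˣ →* Multiplicative (ZMod p)}
      {ψ₁ : ∀ i, (ZMod (q i))ˣ →* Multiplicative (ZMod (p ^ e i))}
      (H : HLevel Z N S (psiN h₀ h₁ ψ₀ ψ₁)) (_ : LvlN N M q₀ q) (_ : ∀ i, q i ≠ p) (_ : p ∈ S)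
      (_ : ∀ l : ℕ, l.Prime → l ∣ N → l ∈ S) (hg : b.Good H.t)
      (πT : H.T →ₐ[𝒪] ResidueField 𝒪)
      (_ : RingHom.ker (πT : H.T →+* ResidueField 𝒪) = maximalIdeal H.T)
      (_ : IsNoetherianRing H.T) (_ : IsAdicComplete (maximalIdeal H.T) H.T),
      LocAt τ (ExtCitation.pPrime p) (algebraMap 𝒪 H.T) (πT : H.T →+* ResidueField 𝒪) (b.rho H.ht hg)

end Fermat.Agent.RT
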