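import Fermat.Agent.RT.LvlMk
import Fermat.Agent.RT.PPlaceP
import Fermat.Agent.RT.HPack
import Fermat.Agent.RT.HPackL

set_option autoImplicit false
set_option maxHeartbeats 400000
set_option linter.style.haveILetI false
set_option linter.unusedSectionVars false
set_option linter.unusedVariables false

/-!
# The residual representation of level zero
-/

open IsLocalRing CongruenceSubgroup Matrix.SpecialLinearGroup MvPowerSeries Matrix
open scoped MatrixGroups
open Fermat.Agent.ESCore Fermat.Agent.ESCore.UnivG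
open Fermat.Agent.ESCore.Univ (Idx)
open Fermat.Agent.ESCore.Gal (dU dLift dU_dLift)
open Fermat.Agent.Coh Fermat.Agent.GalD Fermat.Agent.LocalCFT Fermat.Agent.GCFT

noncomputable section

namespace Fermat.Agent.RT

open Ihara

section Mat

/-- Traces of powers. -/
lemma trace_pow_ltr {R : Type*} [CommRing R] (A : Matrix (Fin 2) (Fin 2) R) : ∀ n : ℕ,
    (A ^ n).trace = ltr A.trace A.det n
  | 0 => by rw [pow_zero, Matrix.trace_one, ltr, Fintype.card_fin, Nat.cast_ofNat]
  | 1 => by rw [pow_one, ltr]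
  | (n + 2) => by
    have h1 : A * A = A.trace • A - A.det • (1 : Matrix (Fin 2) (Fin 2) R) := by
      ext i j
      rw [Matrix.trace_fin_two, Matrix.det_fin_two]
      fin_cases i <;> fin_cases j <;> simp [Matrix.mul_apply, Fin.sum_univ_two] <;> ring
    have h2 : A ^ (n + 2) = A.trace • A ^ (n + 1) - A.det • A ^ n := by
      rw [pow_succ, pow_succ, mul_assoc, h1, mul_sub, mul_smul_comm, mul_smul_comm, mul_one]
    rw [h2, Matrix.trace_sub, Matrix.trace_smul, Matrix.trace_smul, trace_pow_ltr A (n + 1),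
      trace_pow_ltr A n, ltr]
    rfl

/-- Normal form of unipotent matrices. -/
lemma exists_unip_conj {k : Type*} [Field k] {A : Matrix (Fin 2) (Fin 2) k} (htr : A.trace = 2)
    (hdet : A.det = 1) : ∃ (reg : Bool) (P P' : Matrix (Fin 2) (Fin 2) k), P * P' = 1 ∧
      P * A * P' = baseM reg k := by
  have hsq := sq_zero_of_trace htr hdet
  by_cases h : A - 1 = 0
  · refine ⟨false, 1, 1, one_mul 1, ?_⟩
    rw [one_mul, mul_one, sub_eq_zero.mp h]
    rfl
  · obtain ⟨j, hj⟩ : ∃ j, (A - 1) *ᵥ (Pi.single j 1) ≠ 0 := by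
      by_contra h'
      push Not at h'
      apply h
      ext i j
      have h4 := congrFun (h' j) i
      rw [Matrix.mulVec_single_one] at h4
      exact h4
    set v : Fin 2 → k := Pi.single j 1 with hv
    set w : Fin 2 → k := (A - 1) *ᵥ v with hw
    have hNw : (A - 1) *ᵥ w = 0 := by
      rw [hw, Matrix.mulVec_mulVec, hsq, Matrix.zero_mulVec]
    have hAw : A *ᵥ w = w := by
      have := hNw
      rw [Matrix.sub_mulVec, Matrix.one_mulVec, sub_eq_zero] at this
      exact this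
    have hAv : A *ᵥ v = v + w := by
      rw [hw, Matrix.sub_mulVec, Matrix.one_mulVec]
      abel
    set M : Matrix (Fin 2) (Fin 2) k := !![w 0, v 0; w 1, v 1] with hM
    have hdetM : M.det ≠ 0 := by
      rw [hM, Matrix.det_fin_two_of]
      intro h0
      have key : ∀ a b : k, a • w = b • v → b • w = 0 := by
        intro a b hab
        have e1 : (A - 1) *ᵥ (a • w) = (A - 1) *ᵥ (b • v) := by rw [hab]
        rw [Matrix.mulVec_smul, Matrix.mulVec_smul, hNw, smul_zero, ← hw] at e1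
        exact e1.symm
      have h4 : w 0 • w = 0 := by
        refine key (v 0) (w 0) ?_
        funext i
        fin_cases i
        · change v 0 * w 0 = w 0 * v 0
          ring
        · change v 0 * w 1 = w 0 * v 1
          linear_combination -h0
      have h5 : w 1 • w = 0 := by
        refine key (v 1) (w 1) ?_
        funext i
        fin_cases i
        · change v 1 * w 0 = w 1 * v 0
          linear_combination h0
        · change v 1 * w 1 = w 1 * v 1
          ring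
      apply hj
      funext i
      fin_cases i
      · exact (smul_eq_zero.mp h4).resolve_right hj
      · exact (smul_eq_zero.mp h5).resolve_right hj
    have hu : IsUnit M.det := isUnit_iff_ne_zero.mpr hdetM
    refine ⟨true, M⁻¹, M, Matrix.nonsing_inv_mul _ hu, ?_⟩
    have hAw' := fun i => congrFun hAw i
    have hAv' := fun i => congrFun hAv i
    simp only [Matrix.mulVec, dotProduct, Fin.sum_univ_two, Pi.add_apply] at hAw' hAv'
    have h3 : A * M = M * uMat k := by
      ext i j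
      fin_cases i <;> fin_cases j <;> simp [hM, uMat, Matrix.mul_apply, Fin.sum_univ_two]
      · exact hAw' 0
      · rw [hAv' 0, add_comm]
      · exact hAw' 1
      · rw [hAv' 1, add_comm]
    rw [mul_assoc, h3, ← mul_assoc, Matrix.nonsing_inv_mul _ hu, one_mul]
    rfl

end Mat

variable {𝒪 : Type} [CommRing 𝒪] [IsDomain 𝒪] [IsDiscreteValuationRing 𝒪]
  [IsAdicComplete (maximalIdeal 𝒪) 𝒪] [Finite (ResidueField 𝒪)] [CharZero 𝒪]

variable {p M q₀ : ℕ} [Fact p.Prime] {χ : GQ →* 𝒪ˣ} [NeZero (M * q₀)] {S₀ : Finset ℕ} {a : ℕ → 𝒪}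
  {d : ℕ} {ρK : GQ →* GL (Fin 2) (ResidueField 𝒪)}
  (hB : HBase p M q₀ S₀ a ρK χ)
  (Z : HZero p χ (M * q₀) S₀ a d) {πZ : Z.T →ₐ[𝒪] ResidueField 𝒪}
  (hπZ : RingHom.ker (πZ : Z.T →+* ResidueField 𝒪) = maximalIdeal Z.T)

include hB in
lemma HBase.p_res : ((p : ℕ) : ResidueField 𝒪) = 0 := by
  have := (residue_eq_zero_iff (p : 𝒪)).mpr hB.hp𝒪
  rwa [map_natCast] at this

include hB hπZ in
/-- **The residual trace.** -/
theorem HZero.trace_eq (σ : GQ) : πZ (Z.t σ) = (ρK σ).val.trace := by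
  obtain ⟨L, hL, hL2⟩ := hB.fin
  obtain ⟨L', hL', hL2'⟩ := Z.ht.cont 1
  haveI := hL
  haveI := hL'
  obtain ⟨l, hl, hlS, A, hA, φ, hφ, i, u, hu, huL⟩ := exists_frob_pow_mul (L ⊔ L') σ S₀
  have hlM : ¬ l ∣ M * q₀ := fun h => hlS ((hB.hS₀ l hl).mpr (Or.inl h))
  have hlp : l ≠ p := fun h => hlS ((hB.hS₀ l hl).mpr (Or.inr h))
  have h1 : ρK u = 1 := hL2 u (fun x hx => huL x (le_sup_left (a := L) hx))
  have h2 := hL2' u (fun x hx => huL x (le_sup_right (a := L) hx)) (φ ^ i)
  have h3 : πZ (Z.t (u * φ ^ i)) = πZ (Z.t (φ ^ i)) := by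
    rw [Ideal.mem_span_singleton] at h2
    obtain ⟨c, hc⟩ := h2
    rw [← sub_eq_zero, ← map_sub, hc, pow_one, map_mul, map_natCast, hB.p_res, zero_mul]
  rw [hu, h3, map_mul, h1, one_mul, map_pow, Units.val_pow_eq_pow_val, trace_pow_ltr,
    IsPseudo_pow Z.ht.ps, cycT_coe]
  have h4 := ltr_map (πZ : Z.T →+* ResidueField 𝒪) (Z.t φ) (algebraMap 𝒪 Z.T (χ φ)) i
  change πZ (ltr (Z.t φ) (algebraMap 𝒪 Z.T (χ φ)) i) =
    ltr (πZ (Z.t φ)) (πZ (algebraMap 𝒪 Z.T (χ φ))) i at h4
  have h5 : πZ (Z.t φ) = residue 𝒪 (a l) := by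
    rw [Z.hfr (⟨l, hl, hlM, hlS⟩ : Idx (M * q₀) S₀) A hA φ hφ]
    exact pi_unique hπZ (Z.hxa _)
  rw [h4, (hB.frob l hl hlS A hA φ hφ).1, (hB.frob l hl hlS A hA φ hφ).2, h5, AlgHom.commutes,
    hB.hχ.frob hB.hp hB.hp𝒪 hl hlp hA hφ]
  congr 1

include hB hπZ in
/-- **The residual determinant.** -/
theorem HZero.det_eq (σ : GQ) : (ρK σ).val.det = residue 𝒪 (χ σ) := by
  have h1 := congrArg πZ (Z.ht.ps.det_eq σ)
  rw [map_add, map_mul, map_mul, map_ofNat, cycT_coe, AlgHom.commutes, Z.trace_eq hB hπZ,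
    Z.trace_eq hB hπZ, map_mul, Units.val_mul] at h1
  have h2 := hB.twoK
  apply mul_left_cancel₀ h2
  change _ = 2 * algebraMap 𝒪 (ResidueField 𝒪) (χ σ)
  rw [Matrix.det_fin_two]
  rw [Matrix.trace_fin_two, Matrix.trace_fin_two, Matrix.mul_apply, Matrix.mul_apply,
    Fin.sum_univ_two, Fin.sum_univ_two] at h1
  linear_combination h1

include hB hπZ in
/-- **The residual non-vanishing.** -/
theorem HZero.exists_good {i2 : 𝒪} (h2 : 2 * i2 = 1) : ∃ g₀ k₀ : GQ,
    IsUnit (IsPseudo.bb Z.t complexConjugation (algebraMap 𝒪 Z.T i2) g₀ k₀) := by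
  by_contra hno
  push Not at hno
  set c : GQ := complexConjugation with hc
  set j2 : ResidueField 𝒪 := residue 𝒪 i2 with hj2
  have hj : (2 : ResidueField 𝒪) * j2 = 1 := by
    have := congrArg (residue 𝒪) h2
    rwa [map_mul, map_ofNat, map_one] at this
  have h20 : (2 : ResidueField 𝒪) ≠ 0 := left_ne_zero_of_mul_eq_one hj
  have hdc : (ρK c).val.det = -1 := by
    rw [Z.det_eq hB hπZ, hB.hχ.cc hB.hp hB.hp𝒪, map_neg, map_one]
  have hcc : (ρK c).val * (ρK c).val = 1 := by
    rw [← Units.val_mul, ← map_mul, cc_sq, map_one, Units.val_one]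
  have htc : (ρK c).val.trace = 0 := by
    rw [← Z.trace_eq hB hπZ]
    have hχc : (cycT Z.T χ c : Z.T) = -1 := by
      rw [cycT_coe, hB.hχ.cc hB.hp hB.hp𝒪, map_neg, map_one]
    have h2T : (2 : Z.T) * algebraMap 𝒪 Z.T i2 = 1 := by
      have := congrArg (algebraMap 𝒪 Z.T) h2
      rwa [map_mul, map_ofNat, map_one] at this
    rw [Z.ht.ps.t_c cc_sq hχc h2T, map_zero]
  obtain ⟨P, P', h1, h1', h3⟩ := exists_eig h20 hcc htc
  let r' : GQ → Matrix (Fin 2) (Fin 2) (ResidueField 𝒪) := fun g => P * (ρK g).val * P'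
  have hr' : ∀ g, r' g = P * (ρK g).val * P' := fun g => rfl
  have hrm : ∀ g g', r' (g * g') = r' g * r' g' := by
    intro g g'
    rw [hr', hr', hr', map_mul, Units.val_mul]
    calc P * ((ρK g).val * (ρK g').val) * P' = P * (ρK g).val * 1 * (ρK g').val * P' := by
          rw [mul_one]; simp only [mul_assoc]
      _ = _ := by rw [← h1']; simp only [mul_assoc]
  have htr : ∀ g, (r' g).trace = πZ (Z.t g) := by
    intro g
    rw [hr', Matrix.trace_mul_cycle, h1', one_mul, Z.trace_eq hB hπZ]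
  have hcr : r' c = !![1, 0; 0, -1] := h3
  have e0 : ∀ g, r' g 0 0 + r' g 1 1 = πZ (Z.t g) := fun g => by rw [← htr, Matrix.trace_fin_two]
  have e1 : ∀ g, r' g 0 0 - r' g 1 1 = πZ (Z.t (c * g)) := by
    intro g
    rw [← htr, hrm, hcr, Matrix.trace_fin_two, Matrix.mul_apply, Matrix.mul_apply,
      Fin.sum_univ_two, Fin.sum_univ_two]
    simp
    ring
  have haa : ∀ g, πZ (IsPseudo.aa Z.t c (algebraMap 𝒪 Z.T i2) g) = r' g 0 0 := by
    intro g
    rw [IsPseudo.aa, map_mul, map_add, AlgHom.commutes, ← e0, ← e1]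
    change j2 * _ = _
    linear_combination r' g 0 0 * hj
  have hbb : ∀ g g', πZ (IsPseudo.bb Z.t c (algebraMap 𝒪 Z.T i2) g g') =
      r' g 0 1 * r' g' 1 0 := by
    intro g g'
    rw [IsPseudo.bb, map_sub, map_mul, haa, haa, haa, hrm, Matrix.mul_apply, Fin.sum_univ_two]
    ring
  have hz : ∀ g g', r' g 0 1 * r' g' 1 0 = 0 := by
    intro g g'
    rw [← hbb]
    have h4 := hno g g'
    rw [← mem_nonunits_iff, ← mem_maximalIdeal, ← hπZ] at h4
    exact h4
  have hfin : ∀ v : Fin 2 → ResidueField 𝒪, v ≠ 0 →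
      ¬ ∀ g, ∃ s : ResidueField 𝒪, r' g *ᵥ v = s • v := by
    intro v hv hall
    refine hB.irr (P' *ᵥ v) ⟨fun h0 => hv ?_, fun g _ => ?_⟩
    · have := congrArg (fun w => P *ᵥ w) h0
      simp only [Matrix.mulVec_mulVec, h1, Matrix.one_mulVec, Matrix.mulVec_zero] at this
      exact this
    · obtain ⟨s, hs⟩ := hall g
      refine ⟨s, ?_⟩
      rw [← Matrix.mulVec_smul, ← hs, hr', Matrix.mulVec_mulVec, Matrix.mulVec_mulVec]
      congr 1
      calc (ρK g).val * P' = 1 * ((ρK g).val * P') := by rw [one_mul]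
        _ = _ := by rw [← h1']; simp only [mul_assoc]
  by_cases h01 : ∀ g, r' g 0 1 = 0
  · refine hfin ![0, 1] (by
      intro h
      have := congrFun h 1
      simp at this) fun g => ⟨r' g 1 1, ?_⟩
    funext i
    fin_cases i
    · simp [Matrix.mulVec, dotProduct, Fin.sum_univ_two, h01 g]
    · simp [Matrix.mulVec, dotProduct, Fin.sum_univ_two]
  · push Not at h01
    obtain ⟨g₁, hg₁⟩ := h01
    have h10 : ∀ g, r' g 1 0 = 0 := fun g => (mul_eq_zero.mp (hz g₁ g)).resolve_left hg₁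
    refine hfin ![1, 0] (by
      intro h
      have := congrFun h 0
      simp at this) fun g => ⟨r' g 0 0, ?_⟩
    funext i
    fin_cases i
    · simp [Matrix.mulVec, dotProduct, Fin.sum_univ_two]
    · simp [Matrix.mulVec, dotProduct, Fin.sum_univ_two, h10 g]

variable (b : PsB 𝒪 χ) (hgZ : b.Good Z.t)

include hB hπZ in
/-- **The residual representation is conjugate to the given one.** -/
theorem HZero.exists_conj : ∃ P P' : Matrix (Fin 2) (Fin 2) (ResidueField 𝒪), P * P' = 1 ∧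
    P' * P = 1 ∧ ∀ σ, (resRep (πZ : Z.T →+* ResidueField 𝒪) (b.rho Z.ht hgZ) σ).val =
      P * (ρK σ).val * P' := by
  have ht' := Z.ht.map πZ
  have hg' : b.Good (fun σ => πZ (Z.t σ)) := hgZ.map b πZ (fun _ => rfl)
  obtain ⟨P, P', h1, h1', h3⟩ := exists_conj_rep ht'.ps cc_sq b.hccT b.h2T hg'.mul_val_inv
    ((Units.coeHom _).comp ρK) (fun g => (Z.trace_eq hB hπZ g).symm)
  refine ⟨b.PT (ResidueField 𝒪) * P, P' * b.PT' (ResidueField 𝒪), ?_, ?_, fun σ => ?_⟩
  · calc b.PT (ResidueField 𝒪) * P * (P' * b.PT' (ResidueField 𝒪)) =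
        b.PT (ResidueField 𝒪) * (P * P') * b.PT' (ResidueField 𝒪) := by simp only [mul_assoc]
      _ = 1 := by rw [h1, mul_one, b.PT_mul]
  · calc P' * b.PT' (ResidueField 𝒪) * (b.PT (ResidueField 𝒪) * P) =
        P' * (b.PT' (ResidueField 𝒪) * b.PT (ResidueField 𝒪)) * P := by simp only [mul_assoc]
      _ = 1 := by rw [b.PT'_mul, mul_one, h1']
  · have h4 := b.rho_map πZ (fun _ => rfl) Z.ht hgZ ht' hg' σ
    change (b.rho Z.ht hgZ σ).val.map πZ = _
    rw [h4, b.rho_val, ← h3]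
    simp only [mul_assoc]
    rfl

end Fermat.Agent.RT
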