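import Fermat.Agent.RT.LvlBase

set_option autoImplicit false
set_option maxHeartbeats 400000
set_option linter.style.haveILetI false
set_option linter.unusedSectionVars false
set_option linter.unusedVariables false

/-!
# Normal form at the special prime, local types at the other primes
-/

open IsLocalRing CongruenceSubgroup Matrix.SpecialLinearGroup MvPowerSeries Matrix
open scoped MatrixGroups
open Fermat.Agent.ESCore Fermat.Agent.ESCore.UnivG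
open Fermat.Agent.ESCore.Univ (Idx)
open Fermat.Agent.ESCore.Gal (dU dLift dU_dLift)
open Fermat.Agent.Coh Fermat.Agent.GalD Fermat.Agent.LocalCFT Fermat.Agent.GCFT

noncomputable section

namespace Fermat.Agent.RT

open Ihara

lemma UnRel.map' {A A' : Type*} [CommRing A] [CommRing A'] {Φ N : Matrix (Fin 2) (Fin 2) A} {q : A}
    (h : UnRel Φ N q) (f : A →+* A') : UnRel (Φ.map f) (N.map f) (f q) := by
  refine ⟨?_, ?_, ?_, ?_⟩
  · have h4 := congrArg f h.tr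
    rw [Matrix.trace_fin_two, map_add, map_zero] at h4
    rw [Matrix.trace_fin_two]
    exact h4
  · have h4 := congrArg f h.det
    rw [RingHom.map_det, map_zero] at h4
    exact h4
  · rw [← Matrix.map_mul, h.comm, ← Matrix.map_mul]
    ext i j
    rw [Matrix.map_apply, Matrix.smul_apply, Matrix.smul_apply, Matrix.map_apply, smul_eq_mul,
      smul_eq_mul, map_mul]
  · have h4 := congrArg f h.detF
    rw [RingHom.map_det] at h4
    exact h4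

variable {𝒪 : Type} [CommRing 𝒪] [IsDomain 𝒪] [IsDiscreteValuationRing 𝒪]
  [IsAdicComplete (maximalIdeal 𝒪) 𝒪] [Finite (ResidueField 𝒪)] [CharZero 𝒪]

variable {p M q₀ : ℕ} [Fact p.Prime] {χ : GQ →* 𝒪ˣ} [NeZero (M * q₀)] {S₀ : Finset ℕ} {a : ℕ → 𝒪}
  {d : ℕ} {ρK : GQ →* GL (Fin 2) (ResidueField 𝒪)}
  (hB : HBase p M q₀ S₀ a ρK χ)
  (Z : HZero p χ (M * q₀) S₀ a d) {πZ : Z.T →ₐ[𝒪] ResidueField 𝒪}
  (hπZ : RingHom.ker (πZ : Z.T →+* ResidueField 𝒪) = maximalIdeal Z.T)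

/-- Change of the base change matrices. -/
def PsB.withP (b : PsB 𝒪 χ) (P P' : Matrix (Fin 2) (Fin 2) 𝒪) (h : P * P' = 1) : PsB 𝒪 χ :=
  { b with P := P, P' := P', hPP' := h }

/-- Lifting of invertible matrices. -/
lemma exists_lift_inv {P P' : Matrix (Fin 2) (Fin 2) (ResidueField 𝒪)} (h : P * P' = 1) :
    ∃ R R' : Matrix (Fin 2) (Fin 2) 𝒪, R * R' = 1 ∧ R.map (residue 𝒪) = P ∧
      R'.map (residue 𝒪) = P' := by
  choose R hR using fun i j => residue_surjective (R := 𝒪) (P i j)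
  have hR' : (Matrix.of R).map (residue 𝒪) = P := by
    ext i j
    exact hR i j
  have hu : IsUnit (Matrix.of R).det := by
    have h1 : residue 𝒪 (Matrix.of R).det = P.det := by
      rw [← hR', RingHom.map_det]; rfl
    have h2 : P.det * P'.det = 1 := by rw [← Matrix.det_mul, h, Matrix.det_one]
    by_contra hn
    have h3 := (residue_eq_zero_iff (Matrix.of R).det).mpr hn
    rw [h3] at h1
    rw [← h1, zero_mul] at h2
    exact zero_ne_one h2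
  refine ⟨Matrix.of R, (Matrix.of R)⁻¹, Matrix.mul_nonsing_inv _ hu, hR', ?_⟩
  have h1 : P * ((Matrix.of R)⁻¹.map (residue 𝒪)) = 1 := by
    rw [← hR', ← Matrix.map_mul, Matrix.mul_nonsing_inv _ hu]
    exact Matrix.map_one _ (map_zero _) (map_one _)
  calc (Matrix.of R)⁻¹.map (residue 𝒪) = (P' * P) * ((Matrix.of R)⁻¹.map (residue 𝒪)) := by
        rw [mul_eq_one_comm.mp h, one_mul]
    _ = _ := by rw [mul_assoc, h1, mul_one]

section Normal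

variable {Q : Nat.Primes} (hQ : (Q : ℕ) = q₀) (hqp : q₀ ≠ p) {φ₀ τ₀ : Gl Q} (hφ₀ : IsFrobL φ₀)
  (hτ₀ : TameGen p Q τ₀)

include hB in
/-- `q₀ = 1` residually. -/
lemma HBase.q₀_res : residue 𝒪 (q₀ : 𝒪) = 1 := by
  have h1 := cast_sub_one_mem hB.hp𝒪 hB.hq₀.one_le hB.hpq
  have h2 := (residue_eq_zero_iff ((q₀ : 𝒪) - 1)).mpr h1
  rwa [map_sub, map_one, sub_eq_zero] at h2

include hB hπZ hQ hqp hφ₀ in
/-- **Normal form at the special prime.** -/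
theorem HZero.exists_psB : ∃ (b : PsB 𝒪 χ) (hgZ : b.Good Z.t),
    πZ (Z.t (rl Q φ₀)) ^ 2 ≠ 4 ∨ ∃ (reg : Bool) (ε : 𝒪), ε ^ 2 = 1 ∧
      ∀ i j, πZ ((algebraMap 𝒪 Z.T ε • (b.rho Z.ht hgZ (rl Q φ₀)).val - baseM reg Z.T) i j) = 0 := by
  obtain ⟨i2, h2⟩ := hB.two.exists_right_inv
  obtain ⟨g₀, k₀, hgk⟩ := Z.exists_good hB hπZ h2
  let b₁ : PsB 𝒪 χ := ⟨i2, h2, g₀, k₀, 1, 1, one_mul 1, hB.hχ.cc hB.hp hB.hp𝒪⟩
  have hg₁ : b₁.Good Z.t := hgk
  by_cases h4 : πZ (Z.t (rl Q φ₀)) ^ 2 = 4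
  swap
  · exact ⟨b₁, hg₁, Or.inl h4⟩
  set A : Matrix (Fin 2) (Fin 2) (ResidueField 𝒪) := (b₁.rho Z.ht hg₁ (rl Q φ₀)).val.map πZ with hA
  have htA : A.trace = πZ (Z.t (rl Q φ₀)) := by
    rw [hA, Matrix.trace_fin_two, Matrix.map_apply, Matrix.map_apply, ← map_add,
      ← Matrix.trace_fin_two, b₁.trace_rho]
  have hqQ : (Q : ℕ) ≠ p := by rw [hQ]; exact hqp
  haveI : IsNoetherianRing Z.T := IsNoetherianRing.of_finite 𝒪 Z.T
  have hdA : A.det = 1 := by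
    have h5 : A.det = πZ (b₁.rho Z.ht hg₁ (rl Q φ₀)).val.det := by
      change _ = (πZ : Z.T →+* ResidueField 𝒪) _
      rw [RingHom.map_det]; rfl
    rw [h5, det_rho_frob hB.hp hB.hp𝒪 hB.hχ Z.ht b₁ hg₁ hqQ hφ₀, AlgHom.commutes, hQ]
    exact hB.q₀_res
  -- the sign
  obtain ⟨ε, hε, hεt⟩ : ∃ ε : 𝒪, ε ^ 2 = 1 ∧ residue 𝒪 ε * A.trace = 2 := by
    rw [← htA] at h4
    have h5 : (A.trace - 2) * (A.trace + 2) = 0 := by linear_combination h4
    rcases mul_eq_zero.mp h5 with h6 | h6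
    · exact ⟨1, one_pow 2, by rw [map_one, one_mul]; exact sub_eq_zero.mp h6⟩
    · refine ⟨-1, by ring, ?_⟩
      rw [map_neg, map_one]
      linear_combination -h6
  have hε' : residue 𝒪 ε ^ 2 = 1 := by rw [← map_pow, hε, map_one]
  obtain ⟨reg, P, P', hPP', hnf⟩ := exists_unip_conj (A := residue 𝒪 ε • A)
    (by rw [Matrix.trace_smul, smul_eq_mul, hεt])
    (by rw [Matrix.det_smul, Fintype.card_fin, hε', hdA, one_mul])
  obtain ⟨R, R', hRR', hR, hR'⟩ := exists_lift_inv hPP'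
  let b : PsB 𝒪 χ := b₁.withP R R' hRR'
  have hgZ : b.Good Z.t := hgk
  refine ⟨b, hgZ, Or.inr ⟨reg, ε, hε, fun i j => ?_⟩⟩
  have h6 : (b.rho Z.ht hgZ (rl Q φ₀)).val = R.map (algebraMap 𝒪 Z.T) *
      (b₁.rho Z.ht hg₁ (rl Q φ₀)).val * R'.map (algebraMap 𝒪 Z.T) := by
    rw [b.rho_val, b₁.rho_val]
    have e1 : b₁.PT Z.T = 1 := Matrix.map_one _ (map_zero _) (map_one _)
    have e2 : b₁.PT' Z.T = 1 := Matrix.map_one _ (map_zero _) (map_one _)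
    rw [e1, e2, one_mul, mul_one]
    rfl
  have h7 : (b.rho Z.ht hgZ (rl Q φ₀)).val.map πZ = P * A * P' := by
    rw [h6, Matrix.map_mul, Matrix.map_mul, ← hA, Matrix.map_map, Matrix.map_map]
    have e1 : (πZ ∘ algebraMap 𝒪 Z.T : 𝒪 → ResidueField 𝒪) = residue 𝒪 := by
      funext x
      exact πZ.commutes x
    rw [e1, hR, hR']
  have h8 : residue 𝒪 ε • (b.rho Z.ht hgZ (rl Q φ₀)).val.map πZ = baseM reg (ResidueField 𝒪) := by
    rw [← hnf, h7, mul_smul_comm, smul_mul_assoc]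
  have h9 : πZ ((baseM reg Z.T) i j) = baseM reg (ResidueField 𝒪) i j := by
    have := baseM_map (πZ : Z.T →+* ResidueField 𝒪) reg
    exact congrFun (congrFun this i) j
  rw [Matrix.sub_apply, map_sub, h9, ← h8, Matrix.smul_apply, Matrix.smul_apply, smul_eq_mul,
    smul_eq_mul, map_mul, AlgHom.commutes, Matrix.map_apply]
  exact sub_self _

include hB hπZ in
/-- The residual representation is trivial on inertia at `q₀`. -/
theorem HZero.rho_inertia (b : PsB 𝒪 χ) (hgZ : b.Good Z.t) {σ : GQ} (hσ : ρK σ = 1) (i j : Fin 2) :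
    πZ (((b.rho Z.ht hgZ σ).val - 1) i j) = 0 := by
  obtain ⟨P, P', h1, h2, h3⟩ := Z.exists_conj hB hπZ b hgZ
  have h4 := h3 σ
  rw [hσ, Units.val_one, mul_one, h1] at h4
  have h5 := congrFun (congrFun h4 i) j
  change πZ ((b.rho Z.ht hgZ σ).val i j) = _ at h5
  rw [Matrix.sub_apply, map_sub, h5, Matrix.one_apply, Matrix.one_apply]
  split_ifs
  · rw [map_one, sub_self]
  · rw [map_zero, sub_self]

end Normal

/-! ### The local types at the other primes -/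

variable {N : ℕ} [NeZero N] {S : Finset ℕ} {r : ℕ}
  {q : Fin r → ℕ} {e : Fin r → ℕ} {h₀ : q₀ ∣ N} {h₁ : ∀ i, q i ∣ N}
  {ψ₀ : (ZMod q₀)ˣ →* Multiplicative (ZMod p)}
  {ψ₁ : ∀ i, (ZMod (q i))ˣ →* Multiplicative (ZMod (p ^ e i))}
  (H : HLevel Z N S (psiN h₀ h₁ ψ₀ ψ₁)) (hN : LvlN N M q₀ q)
  (hM : Squarefree M) (hpS : p ∈ S) (hNS : ∀ l : ℕ, l.Prime → l ∣ N → l ∈ S)
  (b : PsB 𝒪 χ) (hg : b.Good H.t) (h36 : S36P) (hd : 0 < d)
  {πT : H.T →ₐ[𝒪] ResidueField 𝒪}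
  (hπ : RingHom.ker (πT : H.T →+* ResidueField 𝒪) = maximalIdeal H.T)

variable {Z} in
include hB hN hM hpS hNS h36 hd hπ in
/-- The unipotent relations at a prime dividing `M`. -/
theorem HLevel.unRel {v : Nat.Primes} (hvM : (v : ℕ) ∣ M) (hvp : (v : ℕ) ≠ p) {φ τ : Gl v}
    (hφ : IsFrobL φ) (hτ : TameGen p v τ) :
    UnRel (b.rho H.ht hg (rl v φ)).val ((b.rho H.ht hg (rl v τ)).val - 1) ((v : ℕ) : H.T) := by
  have hvD : ¬ (v : ℕ) ∣ q₀ * ∏ i, q i := by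
    intro h
    exact v.2.one_lt.ne' (Nat.dvd_one.mp (by
      rw [← Nat.coprime_iff_gcd_eq_one.mp hN.copMD]
      exact Nat.dvd_gcd hvM h))
  haveI := H.isNoeth
  haveI := H.complete
  have hpT := HLevel.pT hB H
  have hin := fun s hs => H.hin hB hN hM hpS hNS b hg h36 hd hπ hvp s hs
  refine unRel_of_trace (n := (v : ℕ)) ?_ ?_ ?_ ?_
  · rw [b.trace_rho]
    exact H.t_eq_two hB hN hM hpS hNS b hg h36 v.2 hvp hvD (nonunits_padicPlace v)
      (rl_mem_inertia hτ.1)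
  · exact det_rho_inertia hB.hp hB.hp𝒪 hB.hχ H.ht b hg hvp hτ.1
  · rw [det_rho_frob hB.hp hB.hp𝒪 hB.hχ H.ht b hg hvp hφ, map_natCast]
  · exact rho_tame (π := (πT : H.T →+* ResidueField 𝒪)) hπ hB.hp hB.hp𝒪 hpT hB.hχ H.ht b hg hvp hin
      hφ hτ.1

include hB hM h36 hd hπZ in
/-- **The local type at a prime dividing `M`.** -/
theorem HZero.exists_locUni (hgZ : b.Good Z.t) {v : Nat.Primes} (hvM : (v : ℕ) ∣ M)
    (hvp : (v : ℕ) ≠ p) (H₀ : HLevel Z N S (psiN h₀ h₁ ψ₀ ψ₁)) (hN₀ : LvlN N M q₀ q)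
    (hpS : p ∈ S) (hNS : ∀ l : ℕ, l.Prime → l ∣ N → l ∈ S) :
    ∃ τ : LocType 𝒪 3,
    ∀ {N : ℕ} [NeZero N] {S : Finset ℕ} {r : ℕ} {q : Fin r → ℕ} {e : Fin r → ℕ}
      {h₀ : q₀ ∣ N} {h₁ : ∀ i, q i ∣ N} {ψ₀ : (ZMod q₀)ˣ →* Multiplicative (ZMod p)}
      {ψ₁ : ∀ i, (ZMod (q i))ˣ →* Multiplicative (ZMod (p ^ e i))}
      (H : HLevel Z N S (psiN h₀ h₁ ψ₀ ψ₁)) (_ : LvlN N M q₀ q) (_ : p ∈ S)
      (_ : ∀ l : ℕ, l.Prime → l ∣ N → l ∈ S) (hg : b.Good H.t)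
      (πT : H.T →ₐ[𝒪] ResidueField 𝒪)
      (_ : RingHom.ker (πT : H.T →+* ResidueField 𝒪) = maximalIdeal H.T)
      (_ : IsNoetherianRing H.T) (_ : IsAdicComplete (maximalIdeal H.T) H.T),
      LocAt τ v (algebraMap 𝒪 H.T) (πT : H.T →+* ResidueField 𝒪) (b.rho H.ht hg) := by
  haveI : Fact (Nat.Prime (v : ℕ)) := ⟨v.2⟩
  obtain ⟨φ, hφ⟩ := exists_isFrobL (v : ℕ)
  obtain ⟨τ, hτ⟩ := exists_tameGen hB.hp (q := v) (Ne.symm hvp)
  -- the residual matrices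
  let W : Bool → Matrix (Fin 2) (Fin 2) Z.T := fun s =>
    if s then (b.rho Z.ht hgZ (rl v τ)).val - 1 else (b.rho Z.ht hgZ (rl v φ)).val
  choose M' hM' using fun (s : Bool) (i j : Fin 2) => residue_surjective (R := 𝒪) (πZ (W s i j))
  let Mv : Bool → Matrix (Fin 2) (Fin 2) 𝒪 := fun s => Matrix.of (M' s)
  have hMv : ∀ s, (Mv s).map (residue 𝒪) = (W s).map πZ := by
    intro s
    ext i j
    exact hM' s i j
  -- comparison with the levels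
  have hcmp : ∀ {N : ℕ} [NeZero N] {S : Finset ℕ} {r : ℕ} {q : Fin r → ℕ} {e : Fin r → ℕ}
      {h₀ : q₀ ∣ N} {h₁ : ∀ i, q i ∣ N} {ψ₀ : (ZMod q₀)ˣ →* Multiplicative (ZMod p)}
      {ψ₁ : ∀ i, (ZMod (q i))ˣ →* Multiplicative (ZMod (p ^ e i))}
      (H : HLevel Z N S (psiN h₀ h₁ ψ₀ ψ₁)) (hg : b.Good H.t)
      (πT : H.T →ₐ[𝒪] ResidueField 𝒪)
      (_ : RingHom.ker (πT : H.T →+* ResidueField 𝒪) = maximalIdeal H.T) (σ : GQ) (i j : Fin 2),
      πT ((b.rho H.ht hg σ).val i j) = πZ ((b.rho Z.ht hgZ σ).val i j) := by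
    intro N _ S r q e h₀ h₁ ψ₀ ψ₁ H hg πT hπ σ i j
    have h1 := H.resRep_eq b hπ hπZ hgZ hg
    have h2 := congrArg (fun f => (f σ).val i j) h1
    exact h2
  have hcmpW : ∀ {N : ℕ} [NeZero N] {S : Finset ℕ} {r : ℕ} {q : Fin r → ℕ} {e : Fin r → ℕ}
      {h₀ : q₀ ∣ N} {h₁ : ∀ i, q i ∣ N} {ψ₀ : (ZMod q₀)ˣ →* Multiplicative (ZMod p)}
      {ψ₁ : ∀ i, (ZMod (q i))ˣ →* Multiplicative (ZMod (p ^ e i))}
      (H : HLevel Z N S (psiN h₀ h₁ ψ₀ ψ₁)) (hg : b.Good H.t)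
      (πT : H.T →ₐ[𝒪] ResidueField 𝒪)
      (_ : RingHom.ker (πT : H.T →+* ResidueField 𝒪) = maximalIdeal H.T) (s : Bool) (i j : Fin 2),
      πT ((if s then (b.rho H.ht hg (rl v τ)).val - 1 else (b.rho H.ht hg (rl v φ)).val) i j) =
        πZ (W s i j) := by
    intro N _ S r q e h₀ h₁ ψ₀ ψ₁ H hg πT hπ s i j
    cases s
    · exact hcmp H hg πT hπ _ i j
    · change πT (((b.rho H.ht hg (rl v τ)).val - 1) i j) =
        πZ (((b.rho Z.ht hgZ (rl v τ)).val - 1) i j)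
      rw [Matrix.sub_apply, Matrix.sub_apply, map_sub, map_sub, hcmp H hg πT hπ]
      congr 1
      rw [Matrix.one_apply, Matrix.one_apply]
      split_ifs
      · rw [map_one, map_one]
      · rw [map_zero, map_zero]
  -- the residual relation
  obtain ⟨π₀, hπ₀⟩ := exists_piT H₀.hres H₀.hm
  have hg₀ := H₀.good b hπ₀ hπZ hgZ
  have hrel₀ := (H₀.unRel hB hN₀ hM hpS hNS b hg₀ h36 hd hπ₀ hvM hvp hφ hτ).map'
    (π₀ : H₀.T →+* ResidueField 𝒪)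
  have h2 : (2 : 𝒪) ∉ maximalIdeal 𝒪 := by
    rw [mem_maximalIdeal, mem_nonunits_iff, not_not]
    exact hB.two
  have hq : ((v : ℕ) : 𝒪) ∉ maximalIdeal 𝒪 := by
    intro h
    have h3 : ((v : ℕ) : ResidueField 𝒪) = 0 := by
      have := (residue_eq_zero_iff (((v : ℕ)) : 𝒪)).mpr h
      rwa [map_natCast] at this
    haveI := hB.charP
    rw [CharP.cast_eq_zero_iff (ResidueField 𝒪) p] at h3
    exact hvp ((Nat.prime_dvd_prime_iff_eq hB.hp v.2).mp h3).symm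
  have hMrel : UnRel ((Mv false).map (residue 𝒪)) ((Mv true).map (residue 𝒪))
      (residue 𝒪 ((v : ℕ) : 𝒪)) := by
    have e1 : (Mv false).map (residue 𝒪) = (b.rho H₀.ht hg₀ (rl v φ)).val.map π₀ := by
      rw [hMv]
      ext i j
      exact (hcmpW H₀ hg₀ π₀ hπ₀ false i j).symm
    have e2 : (Mv true).map (residue 𝒪) = ((b.rho H₀.ht hg₀ (rl v τ)).val - 1).map π₀ := by
      rw [hMv]
      ext i j
      exact (hcmpW H₀ hg₀ π₀ hπ₀ true i j).symm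
    rw [e1, e2]
    have e3 : (π₀ : H₀.T →+* ResidueField 𝒪) ((v : ℕ) : H₀.T) = residue 𝒪 ((v : ℕ) : 𝒪) := by
      rw [map_natCast, map_natCast]
    rw [← e3]
    exact hrel₀
  refine ⟨LocType.uni Mv ((v : ℕ) : 𝒪) h2 hq hMrel, ?_⟩
  intro N _ S r q e h₀ h₁ ψ₀ ψ₁ H hN hpS hNS hg πT hπ _ _
  have hpT := HLevel.pT hB H
  refine LocAt.uni (p := p) (n := (v : ℕ)) (fun b hb => (H.hm b).mpr hb) hπ hB.p_res
    (rho_cont hpT H.ht b hg 2) ?_ hφ hτ ?_ ?_ h2 hq hMrel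
  · exact rho_hpp (π := (πT : H.T →+* ResidueField 𝒪)) hπ hB.hp hB.hp𝒪 hpT hB.hχ H.ht b hg hvp
      (fun s hs => H.hin hB hN hM hpS hNS b hg h36 hd hπ hvp s hs)
  · exact H.unRel hB hN hM hpS hNS b hg h36 hd hπ hvM hvp hφ hτ
  · intro s i j
    rw [← hπ, RingHom.mem_ker, Matrix.sub_apply, map_sub]
    change πT _ - πT (algebraMap 𝒪 H.T (Mv s i j)) = 0
    rw [hcmpW H hg πT hπ s i j, AlgHom.commutes, sub_eq_zero]
    exact (hM' s i j).symm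

end Fermat.Agent.RT
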