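import Fermat.Agent.RT.LvlBase2

set_option autoImplicit false
set_option maxHeartbeats 400000
set_option linter.style.haveILetI false
set_option linter.unusedSectionVars false
set_option linter.unusedVariables false

/-!
# Existence of the levels; the case of regular semisimple Frobenius
-/

open IsLocalRing CongruenceSubgroup Matrix.SpecialLinearGroup MvPowerSeries Matrix
open scoped MatrixGroups
open Fermat.Agent.ESCore Fermat.Agent.ESCore.UnivG
open Fermat.Agent.ESCore.Univ (Idx)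
open Fermat.Agent.ESCore.Gal (dU dLift dU_dLift)
open Fermat.Agent.Coh Fermat.Agent.GalD Fermat.Agent.LocalCFT Fermat.Agent.GCFT

noncomputable section

namespace Fermat.Agent.RT

open Ihara

variable {𝒪 : Type} [CommRing 𝒪] [IsDomain 𝒪] [IsDiscreteValuationRing 𝒪]
  [IsAdicComplete (maximalIdeal 𝒪) 𝒪] [Finite (ResidueField 𝒪)] [CharZero 𝒪]

variable {p M q₀ : ℕ} [Fact p.Prime] {χ : GQ →* 𝒪ˣ} [NeZero (M * q₀)] {S₀ : Finset ℕ} {a : ℕ → 𝒪}
  {d : ℕ} {ρK : GQ →* GL (Fin 2) (ResidueField 𝒪)}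
  (hB : HBase p M q₀ S₀ a ρK χ)
  {Z : HZero p χ (M * q₀) S₀ a d} {πZ : Z.T →ₐ[𝒪] ResidueField 𝒪}
  (hπZ : RingHom.ker (πZ : Z.T →+* ResidueField 𝒪) = maximalIdeal Z.T)

/-- Frobenius elements exist. -/
lemma exists_frob_at {l : ℕ} (hl : l.Prime) : ∃ A : ValuationSubring Qb, A.LiesOverPrime l ∧
    ∃ σ : GQ, A.IsFrobeniusAt σ l := by
  haveI : Fact (Nat.Prime ((⟨l, hl⟩ : Nat.Primes) : ℕ)) := ⟨hl⟩
  obtain ⟨φ, hφ⟩ := exists_isFrobL ((⟨l, hl⟩ : Nat.Primes) : ℕ)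
  exact ⟨_, nonunits_padicPlace ⟨l, hl⟩, _, rl_isFrobeniusAt hφ⟩

section Level

variable {N : ℕ} [NeZero N] {S : Finset ℕ} {r : ℕ}
  {q : Fin r → ℕ} {e : Fin r → ℕ} {h₀ : q₀ ∣ N} {h₁ : ∀ i, q i ∣ N}
  {ψ₀ : (ZMod q₀)ˣ →* Multiplicative (ZMod p)}
  {ψ₁ : ∀ i, (ZMod (q i))ˣ →* Multiplicative (ZMod (p ^ e i))}
  (H : HLevel Z N S (psiN h₀ h₁ ψ₀ ψ₁)) (hN : LvlN N M q₀ q)
  (hM : Squarefree M) (hpS : p ∈ S) (hNS : ∀ l : ℕ, l.Prime → l ∣ N → l ∈ S)
  (b : PsB 𝒪 χ) (hg : b.Good H.t) (h36 : S36P) (hd : 0 < d)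
  {πT : H.T →ₐ[𝒪] ResidueField 𝒪}
  (hπ : RingHom.ker (πT : H.T →+* ResidueField 𝒪) = maximalIdeal H.T)

/-- The projection to level zero is surjective. -/
theorem HLevel.pr_surjective : Function.Surjective H.pr := by
  have h1 : (⊤ : Subalgebra 𝒪 Z.T) ≤ H.pr.range := by
    rw [← Z.gen, Algebra.adjoin_le_iff]
    rintro _ ⟨i, rfl⟩
    obtain ⟨A, hA, σ, hσ⟩ := exists_frob_at i.2.1
    exact ⟨H.t σ, by
      change H.pr (H.t σ) = _
      rw [H.hprt, Z.hfr i A hA σ hσ]⟩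
  intro y
  exact h1 (Algebra.mem_top (x := y))

/-- The algebra is generated by the traces. -/
theorem HLevel.closure_eq (t : H.T) : t ∈ Subring.closure
    (Set.range (algebraMap 𝒪 H.T) ∪ Set.range fun g => (b.rho H.ht hg g).val.trace) := by
  have h1 : t ∈ Algebra.adjoin 𝒪 (Set.range H.x) := by rw [H.gen]; trivial
  induction h1 using Algebra.adjoin_induction with
  | mem x hx =>
    obtain ⟨i, rfl⟩ := hx
    obtain ⟨A, hA, σ, hσ⟩ := exists_frob_at i.2.1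
    refine Subring.subset_closure (Or.inr ⟨σ, ?_⟩)
    change (b.rho H.ht hg σ).val.trace = _
    rw [b.trace_rho, H.hfr i A hA σ hσ]
  | algebraMap r => exact Subring.subset_closure (Or.inl ⟨r, rfl⟩)
  | add x y _ _ hx hy => exact Subring.add_mem _ hx hy
  | mul x y _ _ hx hy => exact Subring.mul_mem _ hx hy

variable {Q : Nat.Primes} (hQ : (Q : ℕ) = q₀) (hqp : q₀ ≠ p) {φ₀ τ₀ : Gl Q} (hφ₀ : IsFrobL φ₀)
  (hτ₀ : TameGen p Q τ₀)

include hB hN hM hpS hNS h36 hd hπ hπZ hQ hqp hφ₀ hτ₀ in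
/-- **The case of a regular semisimple Frobenius.** -/
theorem HLevel.exists_unram_of_trace (hgZ : b.Good Z.t) (htr : πZ (Z.t (rl Q φ₀)) ^ 2 ≠ 4) :
    ∃ 𝔮₀ : Ideal Z.T, 𝔮₀.IsPrime ∧ (∀ c, algebraMap 𝒪 Z.T c ∈ 𝔮₀ → c = 0) ∧
      ∀ i j, ((b.rho Z.ht hgZ (rl Q τ₀)).val - 1) i j ∈ 𝔮₀ := by
  have hg := H.good b hπ hπZ hgZ
  set ψh : MonoidAlgebra 𝒪 (DG p e) →ₐ[𝒪] LL 𝒪 :=
    (Algebra.ofId 𝒪 (LL 𝒪)).comp (aug 𝒪 (DG p e)) with hψh
  obtain ⟨lam, h⟩ := H.exists_point hd ψh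
  have hker : ∀ y, H.pr y = 0 → lam y = 0 := by
    intro y hy
    obtain ⟨v, hv, hv2⟩ := h
    have h1 : (H.ι y).map ψh = 0 := by
      ext i j
      change Algebra.ofId 𝒪 (LL 𝒪) (aug 𝒪 (DG p e) (H.ι y i j)) = 0
      rw [← H.hpr, hy, map_zero]
      exact map_zero _
    have h2 := hv2 y
    rw [h1, Matrix.zero_mulVec] at h2
    exact (smul_eq_zero.mp h2.symm).resolve_right hv
  have hin : ∀ A : ValuationSubring Qb, A.LiesOverPrime q₀ → ∀ σ ∈ A.inertiaSubgroupIn ℚ,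
      lam (H.t σ) = 2 := by
    obtain ⟨-, k2, -⟩ := H.local hB hN hM hpS hNS b hg h36 h
    intro A hA σ hσ
    refine k2 q₀ hN.hq₀ hqp ((hN.dvd_D₁_iff hN.hq₀).mpr (Or.inl rfl)) (fun u y hu hy => ?_)
      A hA σ hσ
    change Algebra.ofId 𝒪 (LL 𝒪) (aug 𝒪 (DG p e) (MonoidAlgebra.of 𝒪 _ _)) = 1
    rw [aug_of, map_one]
  -- the relations at the point
  set Φ := (b.rho H.ht hg (rl Q φ₀)).val.map lam with hΦ
  set A := (b.rho H.ht hg (rl Q τ₀)).val.map lam with hA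
  haveI := H.isNoeth
  haveI := H.complete
  have hqQ : (Q : ℕ) ≠ p := by rw [hQ]; exact hqp
  have hpT := HLevel.pT hB H
  have hinT := fun s hs => H.hin hB hN hM hpS hNS b hg h36 hd hπ hqQ s hs
  have e1 : A.trace = 2 := by
    rw [hA, Matrix.trace_fin_two, Matrix.map_apply, Matrix.map_apply, ← map_add,
      ← Matrix.trace_fin_two, b.trace_rho]
    refine hin _ ?_ _ (rl_mem_inertia hτ₀.1)
    rw [← hQ]
    exact nonunits_padicPlace Q
  have hlmap : ∀ X : Matrix (Fin 2) (Fin 2) H.T, (X.map lam).det = lam X.det := by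
    intro X
    change _ = (lam : H.T →+* LL 𝒪) _
    rw [RingHom.map_det]; rfl
  have e2 : A.det = 1 := by
    rw [hA, hlmap, det_rho_inertia hB.hp hB.hp𝒪 hB.hχ H.ht b hg hqQ hτ₀.1, map_one]
  have e3 : Φ.det = ((Q : ℕ) : LL 𝒪) := by
    rw [hΦ, hlmap, det_rho_frob hB.hp hB.hp𝒪 hB.hχ H.ht b hg hqQ hφ₀, AlgHom.commutes, map_natCast]
  have e4 : Φ * A = A ^ (Q : ℕ) * Φ := by
    have h1 := rho_tame (π := (πT : H.T →+* ResidueField 𝒪)) hπ hB.hp hB.hp𝒪 hpT hB.hχ H.ht b hg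
      hqQ hinT hφ₀ hτ₀.1
    have h2 := congrArg (fun X => X.map lam) h1
    simp only [Matrix.map_mul] at h2
    rw [hΦ, hA, h2]
    congr 1
    change (lam : H.T →+* LL 𝒪).mapMatrix _ = (lam : H.T →+* LL 𝒪).mapMatrix _ ^ _
    rw [map_pow]
  have hU := unRel_of_trace e1 e2 e3 e4
  have hA1 : A - 1 = 0 := by
    by_contra hne
    have hq0 : ((Q : ℕ) : LL 𝒪) ≠ 0 := Nat.cast_ne_zero.mpr Q.2.ne_zero
    have h1 := hU.trF hne hq0
    have h2 : Φ.trace = lam (H.t (rl Q φ₀)) := by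
      rw [hΦ, Matrix.trace_fin_two, Matrix.map_apply, Matrix.map_apply, ← map_add,
        ← Matrix.trace_fin_two, b.trace_rho]
    have h3 : lam (H.t (rl Q φ₀) ^ 2 - ((Q : ℕ) + 1) ^ 2) = 0 := by
      rw [map_sub, map_pow, map_pow, map_add, map_natCast, map_one, ← h2, h1, sub_self]
    have h4 := H.nonunit_of_point h3
    rw [← hπ, RingHom.mem_ker] at h4
    change πT (H.t (rl Q φ₀) ^ 2 - ((Q : ℕ) + 1) ^ 2) = 0 at h4
    rw [map_sub, map_pow, map_pow, map_add, map_natCast, map_one, H.pi_t hπ hπZ, sub_eq_zero] at h4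
    apply htr
    rw [h4]
    have h5 : ((Q : ℕ) : ResidueField 𝒪) = 1 := by
      have := hB.q₀_res
      rw [map_natCast] at this
      rw [hQ]
      exact this
    rw [h5]
    norm_num
  -- the prime ideal
  have hkl : RingHom.ker (H.pr : H.T →+* Z.T) ≤ RingHom.ker (lam : H.T →+* LL 𝒪) := by
    intro y hy
    exact hker y hy
  haveI : (RingHom.ker (lam : H.T →+* LL 𝒪)).IsPrime := RingHom.ker_isPrime _
  have hsurj : Function.Surjective (H.pr : H.T →+* Z.T) := H.pr_surjective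
  have hmem : ∀ y, H.pr y ∈ Ideal.map (H.pr : H.T →+* Z.T) (RingHom.ker (lam : H.T →+* LL 𝒪)) →
      lam y = 0 := by
    intro y hy
    have h1 : (H.pr : H.T →+* Z.T) y ∈
        Ideal.map (H.pr : H.T →+* Z.T) (RingHom.ker (lam : H.T →+* LL 𝒪)) := hy
    rw [Ideal.mem_map_iff_of_surjective _ hsurj] at h1
    obtain ⟨z, hz, hz2⟩ := h1
    have h2 : H.pr (y - z) = 0 := by
      rw [map_sub, sub_eq_zero]
      exact hz2.symm
    have h3 := hker _ h2
    rw [map_sub, sub_eq_zero] at h3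
    rw [h3]
    exact hz
  refine ⟨Ideal.map (H.pr : H.T →+* Z.T) (RingHom.ker (lam : H.T →+* LL 𝒪)),
    Ideal.map_isPrime_of_surjective hsurj hkl, fun c hc => ?_, fun i j => ?_⟩
  · rw [← H.pr.commutes] at hc
    have h1 := hmem _ hc
    rw [lam.commutes] at h1
    exact (map_eq_zero_iff _ LL_inj).mp h1
  · have h1 : ((b.rho Z.ht hgZ (rl Q τ₀)).val - 1) i j =
        (H.pr : H.T →+* Z.T) (((b.rho H.ht hg (rl Q τ₀)).val - 1) i j) := by
      rw [← b.rho_map H.pr H.hprt H.ht hg Z.ht hgZ, Matrix.sub_apply, Matrix.sub_apply, map_sub,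
        Matrix.map_apply, Matrix.one_apply, Matrix.one_apply]
      congr 1
      split_ifs
      · rw [map_one]
      · rw [map_zero]
    rw [h1]
    refine Ideal.mem_map_of_mem _ ?_
    rw [RingHom.mem_ker]
    have h2 := congrFun (congrFun hA1 i) j
    change lam (((b.rho H.ht hg (rl Q τ₀)).val - 1) i j) = 0
    rw [Matrix.sub_apply, map_sub]
    rw [Matrix.sub_apply, hA, Matrix.map_apply, Matrix.zero_apply] at h2
    rw [← h2]
    congr 1
    rw [Matrix.one_apply, Matrix.one_apply]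
    split_ifs
    · rw [map_one]
    · rw [map_zero]

end Level

end Fermat.Agent.RT
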