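import Fermat.Agent.RT.LvlEx

set_option autoImplicit false
set_option maxHeartbeats 400000
set_option linter.style.haveILetI false
set_option linter.unusedSectionVars false
set_option linter.unusedVariables false

/-!
# Existence of the levels for given Taylor–Wiles primes
-/

open IsLocalRing CongruenceSubgroup Matrix.SpecialLinearGroup MvPowerSeries Matrix
open scoped MatrixGroups
open Fermat.Agent.ESCore Fermat.Agent.ESCore.UnivG
open Fermat.Agent.ESCore.Univ (Idx)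
open Fermat.Agent.ESCore.Gal (dU dLift dU_dLift)
open Fermat.Agent.Coh Fermat.Agent.GalD Fermat.Agent.LocalCFT Fermat.Agent.GCFT

noncomputable section

namespace Fermat.Agent.RT

open Ihara

variable {𝒪 : Type} [CommRing 𝒪] [IsDomain 𝒪] [IsDiscreteValuationRing 𝒪]
  [IsAdicComplete (maximalIdeal 𝒪) 𝒪] [Finite (ResidueField 𝒪)] [CharZero 𝒪]

variable {p M q₀ : ℕ} [Fact p.Prime] {χ : GQ →* 𝒪ˣ} [NeZero (M * q₀)] {S₀ : Finset ℕ} {a : ℕ → 𝒪}
  {d : ℕ} {ρK : GQ →* GL (Fin 2) (ResidueField 𝒪)}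
  (hB : HBase p M q₀ S₀ a ρK χ)
  {Z : HZero p χ (M * q₀) S₀ a d} {πZ : Z.T →ₐ[𝒪] ResidueField 𝒪}
  (hπZ : RingHom.ker (πZ : Z.T →+* ResidueField 𝒪) = maximalIdeal Z.T)

include hB hπZ in
/-- The eigenvalues of Frobenius. -/
theorem exists_eigenvalues (b : PsB 𝒪 χ) (hgZ : b.Good Z.t)
    (hquad : ∀ σ, ∃ x : ResidueField 𝒪, x ^ 2 - (ρK σ).val.trace * x + (ρK σ).val.det = 0)
    {n : ℕ} {v : Nat.Primes} (hv : (v : ℕ) ∉ S₀)
    (hTW : IsTW (resRep (πZ : Z.T →+* ResidueField 𝒪) (b.rho Z.ht hgZ)) p n v) :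
    ∃ α β : 𝒪, α + β - a v ∈ maximalIdeal 𝒪 ∧ α * β - 1 ∈ maximalIdeal 𝒪 ∧ IsUnit (α - β) := by
  obtain ⟨A, hA, σ, hσ⟩ := exists_frob_at v.2
  have hvM : ¬ (v : ℕ) ∣ M * q₀ := fun h => hv ((hB.hS₀ v v.2).mpr (Or.inl h))
  obtain ⟨h1, h2⟩ := hTW.frob A hA σ hσ
  have htr : (resRep (πZ : Z.T →+* ResidueField 𝒪) (b.rho Z.ht hgZ) σ).val.trace =
      residue 𝒪 (a v) := by
    change ((b.rho Z.ht hgZ σ).val.map πZ).trace = _
    rw [Matrix.trace_fin_two, Matrix.map_apply, Matrix.map_apply, ← map_add,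
      ← Matrix.trace_fin_two, b.trace_rho, Z.hfr (⟨v, v.2, hvM, hv⟩ : Idx (M * q₀) S₀) A hA σ hσ]
    exact pi_unique hπZ (Z.hxa _)
  obtain ⟨P, P', e1, e2, e3⟩ := Z.exists_conj hB hπZ b hgZ
  have htr' : (ρK σ).val.trace = residue 𝒪 (a v) := by
    rw [← htr, e3, Matrix.trace_mul_cycle, e2, one_mul]
  have hdet' : (ρK σ).val.det = 1 := by
    have e4 : P.det * P'.det = 1 := by rw [← Matrix.det_mul, e1, Matrix.det_one]
    rw [e3, Matrix.det_mul, Matrix.det_mul] at h1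
    calc (ρK σ).val.det = P.det * P'.det * (ρK σ).val.det := by rw [e4, one_mul]
      _ = P.det * (ρK σ).val.det * P'.det := by ring
      _ = 1 := h1
  obtain ⟨x, hx⟩ := hquad σ
  rw [htr', hdet'] at hx
  rw [htr] at h2
  obtain ⟨α, rfl⟩ := residue_surjective x
  refine ⟨α, a v - α, ?_, ?_, ?_⟩
  · rw [add_sub_cancel, sub_self]
    exact Ideal.zero_mem _
  · rw [← residue_eq_zero_iff, map_sub, map_mul, map_sub, map_one]
    linear_combination -hx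
  · rw [← not_not (a := IsUnit (α - (a v - α))), ← mem_nonunits_iff, ← mem_maximalIdeal,
      ← residue_eq_zero_iff, map_sub, map_sub]
    intro h3
    apply h2
    have h4 : residue 𝒪 (a v) = 2 * residue 𝒪 α := by linear_combination -h3
    rw [h4] at hx ⊢
    linear_combination -4 * hx

include hB hπZ in
/-- **The Hecke algebras at Taylor–Wiles levels.** -/
theorem HZero.exists_level (hM : Squarefree M) (hd : 0 < d) (b : PsB 𝒪 χ) (hgZ : b.Good Z.t)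
    (hquad : ∀ σ, ∃ x : ResidueField 𝒪, x ^ 2 - (ρK σ).val.trace * x + (ρK σ).val.det = 0)
    {r n : ℕ} (hn : 0 < n) (R : Finset Nat.Primes) (hcard : R.card = r)
    (hS₀ : ∀ v ∈ R, (v : ℕ) ∉ S₀) (hI : ∀ v ∈ R, (v : ℕ) ∉ Z.I)
    (hTW : ∀ v ∈ R, IsTW (resRep (πZ : Z.T →+* ResidueField 𝒪) (b.rho Z.ht hgZ)) p n v) :
    ∃ (q e cc : Fin r → ℕ) (N : ℕ) (_ : NeZero N) (h₀ : q₀ ∣ N) (h₁ : ∀ i, q i ∣ N)
      (ψ₀ : (ZMod q₀)ˣ →* Multiplicative (ZMod p))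
      (ψ₁ : ∀ i, (ZMod (q i))ˣ →* Multiplicative (ZMod (p ^ e i))),
      LvlN N M q₀ q ∧ Function.Surjective ψ₀ ∧ (∀ i, Function.Surjective (ψ₁ i)) ∧
      Nonempty (HLevel Z N (S₀ ∪ Finset.univ.image q) (psiN h₀ h₁ ψ₀ ψ₁)) ∧ (∀ i, n ≤ e i) ∧
      TWFull p a q e cc ∧ (∀ i, q i ∉ S₀) ∧ (∀ i, q i ≠ p) ∧
      (∀ l : ℕ, l ∈ Finset.univ.image q ↔ ∃ v ∈ R, (v : ℕ) = l) := by
  classical
  let E : Fin r ≃ R := (R.equivFinOfCardEq hcard).symm
  let q : Fin r → ℕ := fun i => ((E i).1 : ℕ)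
  let e : Fin r → ℕ := fun i => (q i - 1).factorization p
  let cc : Fin r → ℕ := fun i => (q i - 1) / p ^ e i
  have hq : ∀ i, (q i).Prime := fun i => (E i).1.2
  have hmemR : ∀ i, (E i).1 ∈ R := fun i => (E i).2
  have hinj : Function.Injective q := by
    intro i j hij
    exact E.injective (Subtype.ext (Subtype.ext hij))
  have hqS₀ : ∀ i, q i ∉ S₀ := fun i => hS₀ _ (hmemR i)
  have hqp : ∀ i, q i ≠ p := fun i h => hqS₀ i ((hB.hS₀ (q i) (hq i)).mpr (Or.inr h))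
  have hqM : ∀ i, ¬ q i ∣ M * q₀ := fun i h => hqS₀ i ((hB.hS₀ (q i) (hq i)).mpr (Or.inl h))
  have hp1 : ∀ i, q i - 1 ≠ 0 := fun i => by have := (hq i).one_lt; omega
  have hn_le : ∀ i, n ≤ e i := fun i =>
    (hB.hp.pow_dvd_iff_le_factorization (hp1 i)).mp (hTW _ (hmemR i)).dvd
  have heig : ∀ i, ∃ α β : 𝒪, α + β - a (q i) ∈ maximalIdeal 𝒪 ∧
      α * β - 1 ∈ maximalIdeal 𝒪 ∧ IsUnit (α - β) := fun i =>
    exists_eigenvalues hB hπZ b hgZ hquad (hqS₀ i) (hTW _ (hmemR i))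
  have hTWF : TWFull p a q e cc :=
    { pos := fun i => lt_of_lt_of_le hn (hn_le i)
      eq := fun i => (Nat.ordProj_mul_ordCompl_eq_self (q i - 1) p).symm
      cop := fun i => (Nat.coprime_ordCompl hB.hp (hp1 i)).symm
      eig := heig }
  have hTWC : TWCond p S₀ Z.I a q e :=
    { prime := hq
      inj := hinj
      hS₀ := hqS₀
      hI := fun i => hI _ (hmemR i)
      pos := fun i => lt_of_lt_of_le hn (hn_le i)
      dvd := fun i => Nat.ordProj_dvd (q i - 1) p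
      eig := heig }
  let N : ℕ := M * (q₀ * ∏ i, q i)
  have hN : LvlN N M q₀ q :=
    { hN := rfl
      hM := hB.hM
      hq₀ := hB.hq₀
      hq := hq
      inj := hinj
      hq₀M := fun h => hB.hq₀.one_lt.ne' (Nat.dvd_one.mp (by
        rw [← Nat.coprime_iff_gcd_eq_one.mp hB.hcop]
        exact Nat.dvd_gcd h dvd_rfl))
      hqM := fun i h => hqM i (h.mul_right q₀)
      hqq₀ := fun i h => hqM i (by rw [h]; exact Dvd.intro_left M rfl) }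
  haveI hNZ : NeZero N := ⟨hN.ne_zero⟩
  obtain ⟨γ₀, hγ₀⟩ := exists_units_gen hB.hq₀
  have hpq1 : p ^ 1 ∣ q₀ - 1 := by rw [pow_one]; exact hB.hpq
  obtain ⟨ψ₀, hψ₀, -⟩ := exists_cyc_quot hB.hq₀ hpq1 γ₀ hγ₀
  choose γ hγ using fun i => exists_units_gen (hq i)
  choose ψ₁ hψ₁ _ using fun i => exists_cyc_quot (hq i) (Nat.ordProj_dvd (q i - 1) p) (γ i) (hγ i)
  obtain ⟨ψ₀', hψ₀'⟩ : ∃ ψ : (ZMod q₀)ˣ →* Multiplicative (ZMod p), Function.Surjective ψ := by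
    have h1 : p ^ 1 = p := pow_one p
    revert ψ₀
    rw [h1]
    intro ψ hψ
    exact ⟨ψ, hψ⟩
  refine ⟨q, e, cc, N, hNZ, hN.h₀, hN.h₁, ψ₀', ψ₁, hN, hψ₀', hψ₁,
    exists_hLevel hB Z hd hTWC N rfl hN.h₀ hN.h₁ ψ₀' hψ₀' ψ₁ hψ₁, hn_le, hTWF, hqS₀, hqp,
    fun l => ?_⟩
  rw [Finset.mem_image]
  constructor
  · rintro ⟨i, -, rfl⟩
    exact ⟨_, hmemR i, rfl⟩
  · rintro ⟨v, hv, rfl⟩
    refine ⟨E.symm ⟨v, hv⟩, Finset.mem_univ _, ?_⟩
    change (((E (E.symm ⟨v, hv⟩)).1 : Nat.Primes) : ℕ) = v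
    rw [E.apply_symm_apply]

end Fermat.Agent.RT
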