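import Fermat.Agent.RT.LvlEx2
import Fermat.Agent.RT.LevelsMain

set_option autoImplicit false
set_option maxHeartbeats 400000
set_option linter.style.haveILetI false
set_option linter.unusedSectionVars false
set_option linter.unusedVariables false

/-!
# The main theorem of the level lowering at `q₀`
-/

open IsLocalRing CongruenceSubgroup Matrix.SpecialLinearGroup MvPowerSeries Matrix
open scoped MatrixGroups
open Fermat.Agent.ESCore Fermat.Agent.ESCore.UnivG
open Fermat.Agent.ESCore.Univ (Idx)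
open Fermat.Agent.ESCore.Gal (dU dLift dU_dLift)
open Fermat.Agent.Coh Fermat.Agent.GalD Fermat.Agent.LocalCFT Fermat.Agent.GCFT

noncomputable section

namespace Fermat.Agent.RT

open Ihara

/-- The places. -/
def plF (Q P : Nat.Primes) {κ' : Type} (f : κ' → Nat.Primes) : Option (Option κ') → Nat.Primes
  | none => Q
  | some none => P
  | some (some v) => f v

/-- The dimensions. -/
def cF {κ' : Type} : Option κ' → ℕ
  | none => 4
  | some _ => 3

lemma sum_cF {κ' : Type} [Fintype κ'] : ∑ v : Option κ', cF v = 4 + Fintype.card κ' * 3 := by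
  rw [Fintype.sum_option]
  change 4 + ∑ v : κ', 3 = _
  rw [Finset.sum_const, smul_eq_mul, Finset.card_univ]

variable {𝒪 : Type} [CommRing 𝒪] [IsDomain 𝒪] [IsDiscreteValuationRing 𝒪]
  [IsAdicComplete (maximalIdeal 𝒪) 𝒪] [Finite (ResidueField 𝒪)] [CharZero 𝒪]

/-- The local types. -/
def tauF {κ' : Type} (τp : LocType 𝒪 4) (τv : κ' → LocType 𝒪 3) : ∀ v : Option κ',
    LocType 𝒪 (cF v)
  | none => τp
  | some v => τv v

variable {p M q₀ : ℕ} [Fact p.Prime] {χ : GQ →* 𝒪ˣ} [NeZero (M * q₀)] {S₀ : Finset ℕ} {a : ℕ → 𝒪}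
  {d : ℕ} {ρK : GQ →* GL (Fin 2) (ResidueField 𝒪)}
  (hB : HBase p M q₀ S₀ a ρK χ)
  {Z : HZero p χ (M * q₀) S₀ a d} {πZ : Z.T →ₐ[𝒪] ResidueField 𝒪}
  (hπZ : RingHom.ker (πZ : Z.T →+* ResidueField 𝒪) = maximalIdeal Z.T)

include hB hπZ in
/-- The conditions on the residual representation of the level. -/
theorem HZero.residual (b : PsB 𝒪 χ) (hgZ : b.Good Z.t) {T₀ : Finset Nat.Primes}
    (hker : ρK.ker ∈ famS T₀)
    (hspan : ∀ n, Submodule.span (ResidueField 𝒪) (imgSet ρK (ESCore.cyc (p ^ n)).ker) = ⊤)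
    [CharP (ResidueField 𝒪) p] :
    (resRep (πZ : Z.T →+* ResidueField 𝒪) (b.rho Z.ht hgZ)).ker ∈ famS T₀ ∧
    (∀ n, Submodule.span (ResidueField 𝒪) (imgSet (resRep (πZ : Z.T →+* ResidueField 𝒪)
      (b.rho Z.ht hgZ)) (ESCore.cyc (p ^ n)).ker) = ⊤) ∧
    (∀ g, (resRep (πZ : Z.T →+* ResidueField 𝒪) (b.rho Z.ht hgZ) g).val.det =
      ZMod.castHom (dvd_refl p) (ResidueField 𝒪) (ESCore.cyc p g : (ZMod p)ˣ)) ∧
    (∀ g, ρK g = 1 → resRep (πZ : Z.T →+* ResidueField 𝒪) (b.rho Z.ht hgZ) g = 1) := by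
  obtain ⟨P, P', h1, h2, h3⟩ := Z.exists_conj hB hπZ b hgZ
  have hkereq : (resRep (πZ : Z.T →+* ResidueField 𝒪) (b.rho Z.ht hgZ)).ker = ρK.ker := by
    ext σ
    rw [MonoidHom.mem_ker, MonoidHom.mem_ker]
    constructor
    · intro h
      apply Units.ext
      have h4 := h3 σ
      rw [h, Units.val_one] at h4
      calc (ρK σ).val = (P' * P) * (ρK σ).val * (P' * P) := by rw [h2, one_mul, mul_one]
        _ = P' * (P * (ρK σ).val * P') * P := by simp only [mul_assoc]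
        _ = 1 := by rw [← h4, mul_one, h2]
    · intro h
      apply Units.ext
      rw [h3, h, Units.val_one, mul_one, h1]
  refine ⟨by rw [hkereq]; exact hker, fun n => ?_, fun g => ?_, fun g hg => ?_⟩
  · rw [eq_top_iff]
    intro X _
    have key : ∀ Y ∈ Submodule.span (ResidueField 𝒪) (imgSet ρK (ESCore.cyc (p ^ n)).ker),
        P * Y * P' ∈ Submodule.span (ResidueField 𝒪) (imgSet (resRep (πZ : Z.T →+* ResidueField 𝒪)
          (b.rho Z.ht hgZ)) (ESCore.cyc (p ^ n)).ker) := by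
      intro Y hY
      induction hY using Submodule.span_induction with
      | mem Y hY =>
        obtain ⟨h, hh, rfl⟩ := hY
        exact Submodule.subset_span ⟨h, hh, h3 h⟩
      | zero => rw [mul_zero, zero_mul]; exact Submodule.zero_mem _
      | add y z _ _ hy hz => rw [mul_add, add_mul]; exact Submodule.add_mem _ hy hz
      | smul a y _ hy => rw [mul_smul_comm, smul_mul_assoc]; exact Submodule.smul_mem _ a hy
    have h4 := key (P' * X * P) (by rw [hspan n]; trivial)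
    have h5 : P * (P' * X * P) * P' = X := by
      calc P * (P' * X * P) * P' = (P * P') * X * (P * P') := by simp only [mul_assoc]
        _ = X := by rw [h1, one_mul, mul_one]
    rwa [h5] at h4
  · have e1 : (resRep (πZ : Z.T →+* ResidueField 𝒪) (b.rho Z.ht hgZ) g).val.det =
        (ρK g).val.det := by
      have e4 : P.det * P'.det = 1 := by rw [← Matrix.det_mul, h1, Matrix.det_one]
      rw [h3, Matrix.det_mul, Matrix.det_mul]
      linear_combination (ρK g).val.det * e4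
    rw [e1]
    obtain ⟨L, hL, hL2⟩ := hB.fin
    haveI := hL
    exact LR.det_of_frob hL2 S₀ (fun l hl hlS B hB' σ hσ => (hB.frob l hl hlS B hB' σ hσ).1) g
  · apply Units.ext
    rw [h3, hg, Units.val_one, mul_one, h1]

include hB in
/-- **Main theorem**: there is a prime ideal of the Hecke algebra of level zero of residue
characteristic zero whose representation is unramified at `q₀`. -/
theorem exists_unramified_prime (hM : Squarefree M) (h36 : S36P) (hd : 0 < d) (hqp : q₀ ≠ p)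
    (hpl : PPlaceP Z)
    (hquad : ∀ σ, ∃ x : ResidueField 𝒪, x ^ 2 - (ρK σ).val.trace * x + (ρK σ).val.det = 0)
    (hspan : ∀ n, Submodule.span (ResidueField 𝒪) (imgSet ρK (ESCore.cyc (p ^ n)).ker) = ⊤)
    (hker : ∀ T : Finset Nat.Primes, (∀ l : Nat.Primes, (l : ℕ) ∈ S₀ → l ∈ T) →
      ρK.ker ∈ famS T)
    (hunr : ∀ A : ValuationSubring Qb, A.LiesOverPrime q₀ → ∀ σ ∈ A.inertiaSubgroupIn ℚ,
      ρK σ = 1)
    {m c' : ℕ} (hc : c'.Coprime p) (hqm : q₀ - 1 = p ^ m * c') (hm : 1 ≤ m) {ζ : 𝒪}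
    (hζ : IsPrimitiveRoot ζ (p ^ m)) :
    ∃ (b : PsB 𝒪 χ) (hgZ : b.Good Z.t) (Q : Nat.Primes) (_ : (Q : ℕ) = q₀) (τ₀ : Gl Q)
      (_ : TameGen p Q τ₀) (𝔮₀ : Ideal Z.T), 𝔮₀.IsPrime ∧
      (∀ c, algebraMap 𝒪 Z.T c ∈ 𝔮₀ → c = 0) ∧
      ∀ i j, ((b.rho Z.ht hgZ (rl Q τ₀)).val - 1) i j ∈ 𝔮₀ := by
  classical
  haveI hcharP : CharP (ResidueField 𝒪) p := hB.charP
  have hp0 : p ≠ 0 := hB.hp.ne_zero
  let Q : Nat.Primes := ⟨q₀, hB.hq₀⟩
  have hQ : (Q : ℕ) = q₀ := rfl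
  haveI : Fact (Nat.Prime (Q : ℕ)) := ⟨Q.2⟩
  obtain ⟨φ₀, hφ₀⟩ := exists_isFrobL (Q : ℕ)
  obtain ⟨τ₀, hτ₀⟩ := exists_tameGen hB.hp (q := Q) (Ne.symm hqp)
  obtain ⟨πZ, hπZ⟩ := exists_piT Z.hres Z.hm
  obtain ⟨b, hgZ, halt⟩ := Z.exists_psB hB hπZ hQ hqp hφ₀
  -- the primes of `S₀`
  let T₀ : Finset Nat.Primes := S₀.subtype Nat.Prime
  have hT₀ : ∀ v : Nat.Primes, v ∈ T₀ ↔ (v : ℕ) ∈ S₀ := fun v => Finset.mem_subtype
  obtain ⟨hkerb, hspanb, hdetb, hone⟩ := Z.residual hB hπZ b hgZ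
    (hker T₀ fun l hl => (hT₀ l).mpr hl) hspan
  have hpS₀ : p ∈ S₀ := (hB.hS₀ p hB.hp).mpr (Or.inr rfl)
  -- general facts on the levels
  have hS_of : ∀ {N r : ℕ} {q : Fin r → ℕ}, LvlN N M q₀ q → ∀ l : ℕ, l.Prime → l ∣ N →
      l ∈ S₀ ∪ Finset.univ.image q := by
    intro N r q hN l hl hlN
    rw [Finset.mem_union]
    rw [hN.hN, hl.dvd_mul, hl.dvd_mul] at hlN
    rcases hlN with h | h | h
    · exact Or.inl ((hB.hS₀ l hl).mpr (Or.inl (h.mul_right _)))
    · exact Or.inl ((hB.hS₀ l hl).mpr (Or.inl (h.mul_left _)))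
    · obtain ⟨i, -, hi⟩ := (hl.prime.dvd_finsetProd_iff _).mp h
      right
      rw [Finset.mem_image]
      exact ⟨i, Finset.mem_univ _, ((Nat.prime_dvd_prime_iff_eq hl (hN.hq i)).mp hi).symm⟩
  -- the level without Taylor–Wiles primes
  obtain ⟨qz, ez, ccz, Nz, iz, h₀z, h₁z, ψ₀z, ψ₁z, hNz, hψ₀z, hψ₁z, ⟨Hz⟩, -, -, -, -, -⟩ :=
    Z.exists_level hB hπZ hM hd b hgZ hquad (r := 0) (n := 1) one_pos ∅ rfl
      (fun v hv => absurd hv (Finset.notMem_empty v)) (fun v hv => absurd hv (Finset.notMem_empty v))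
      (fun v hv => absurd hv (Finset.notMem_empty v))
  obtain ⟨πz, hπz⟩ := exists_piT Hz.hres Hz.hm
  rcases halt with htr | ⟨reg, ε, hε, hnf⟩
  · obtain ⟨𝔮₀, k1, k2, k3⟩ := Hz.exists_unram_of_trace hB hπZ hNz hM
      (Finset.mem_union_left _ hpS₀) (hS_of hNz) b h36 hd hπz hQ hqp hφ₀ hτ₀ hgZ htr
    exact ⟨b, hgZ, Q, hQ, τ₀, hτ₀, 𝔮₀, k1, k2, k3⟩
  -- the places
  let R' : Finset Nat.Primes := (M.primeFactors.subtype Nat.Prime).filter fun v => (v : ℕ) ≠ p
  have hR' : ∀ v : Nat.Primes, v ∈ R' ↔ (v : ℕ) ∣ M ∧ (v : ℕ) ≠ p := by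
    intro v
    have e1 : v ∈ R' ↔ v ∈ (M.primeFactors.subtype Nat.Prime : Finset Nat.Primes) ∧ (v : ℕ) ≠ p :=
      Finset.mem_filter
    have e2 : v ∈ (M.primeFactors.subtype Nat.Prime : Finset Nat.Primes) ↔
        (v : ℕ) ∈ M.primeFactors := Finset.mem_subtype
    rw [e1, e2, Nat.mem_primeFactors]
    exact ⟨fun h => ⟨h.1.2.1, h.2⟩, fun h => ⟨⟨v.2, h.1, hB.hM⟩, h.2⟩⟩
  let pl : Option (Option R') → Nat.Primes :=
    plF Q (ExtCitation.pPrime p) (fun v : R' => v.1)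
  have hpp_coe : ((ExtCitation.pPrime p : Nat.Primes) : ℕ) = p := rfl
  have hq₀M : ¬ q₀ ∣ M := hNz.hq₀M
  have hplinj : Function.Injective pl := by
    intro v w hvw
    have hvw' : ((pl v : Nat.Primes) : ℕ) = pl w := congrArg _ hvw
    rcases v with _ | _ | v <;> rcases w with _ | _ | w
    · rfl
    · exact absurd hvw' hqp
    · refine absurd ?_ hq₀M
      have h1 := ((hR' w.1).mp w.2).1
      have h2 : q₀ = (w.1 : ℕ) := hvw'
      rwa [← h2] at h1
    · exact absurd hvw'.symm hqp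
    · rfl
    · exact absurd hvw'.symm ((hR' w.1).mp w.2).2
    · refine absurd ?_ hq₀M
      have h1 := ((hR' v.1).mp v.2).1
      have h2 : (v.1 : ℕ) = q₀ := hvw'
      rwa [h2] at h1
    · exact absurd hvw' ((hR' v.1).mp v.2).2
    · have h2 : v.1 = w.1 := hvw
      rw [Subtype.ext h2]
  have himg : ∀ v : Nat.Primes, v ∈ T₀ ↔ ∃ w, pl w = v := by
    intro v
    rw [hT₀, hB.hS₀ v v.2]
    constructor
    · intro h
      by_cases hvp : (v : ℕ) = p
      · exact ⟨some none, Subtype.ext hvp.symm⟩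
      · rcases h with h | h
        · rw [v.2.dvd_mul] at h
          rcases h with h | h
          · exact ⟨some (some ⟨v, (hR' v).mpr ⟨h, hvp⟩⟩), rfl⟩
          · exact ⟨none, Subtype.ext ((Nat.prime_dvd_prime_iff_eq v.2 hB.hq₀).mp h).symm⟩
        · exact absurd h hvp
    · rintro ⟨w, rfl⟩
      rcases w with _ | _ | w
      · exact Or.inl (Dvd.intro_left M rfl)
      · exact Or.inr rfl
      · exact Or.inl (((hR' w.1).mp w.2).1.mul_right _)
  -- the local types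
  obtain ⟨τp, hτp⟩ := hpl b hgZ
  have hτv' := fun v : R' => HZero.exists_locUni hB Z hπZ hM b h36 hd hgZ ((hR' v.1).mp v.2).1
    ((hR' v.1).mp v.2).2 Hz hNz (Finset.mem_union_left _ hpS₀) (hS_of hNz)
  choose τv hτv using hτv'
  let τ : ∀ v : Option R', LocType 𝒪 (cF v) := tauF τp τv
  -- the Galois package
  obtain ⟨g, r, hrg, hpack⟩ := galois_package (p := p) hB.hp2
    (resRep (πZ : Z.T →+* ResidueField 𝒪) (b.rho Z.ht hgZ))
    (ZMod.castHom (dvd_refl p) (ResidueField 𝒪)) hdetb hkerb ((hT₀ _).mpr hpS₀) hspanb τ pl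
    hplinj himg (φ₀ := φ₀) (τ₀ := τ₀) hφ₀ hτ₀ (fun s hs => ⟨0, by
      rw [pow_zero, pow_one]
      exact hone _ (hunr _ (nonunits_padicPlace Q) _ (rl_mem_inertia hs))⟩) reg ε hε
  -- the levels
  have hL : ∀ n : ℕ, ∃ L : TWLevel τ g r d reg (q₀ : 𝒪) (zPairs ζ (p ^ m)) (algebraMap 𝒪 Z.T)
      (Z.ι : Z.T →+* Matrix (Fin d) (Fin d) 𝒪) (b.rho Z.ht hgZ (rl Q τ₀)).val,
      ∀ k, k ≤ n → L.J ≤ maximalIdeal (MvPowerSeries (Fin r) 𝒪) ^ k := by
    intro n
    let bad : Finset Nat.Primes := Z.I.subtype Nat.Prime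
    have hbad : ∀ v : Nat.Primes, v ∈ bad ↔ (v : ℕ) ∈ Z.I := fun v => Finset.mem_subtype
    obtain ⟨R, hcard, hdisj, hTW, hall⟩ := hpack (n + 1) n.succ_pos bad
    have hnot : ∀ v ∈ R, v ∉ T₀ ∧ v ∉ bad := by
      intro v hv
      have h1 := Finset.disjoint_left.mp hdisj hv
      rw [Finset.mem_union, not_or] at h1
      exact h1
    obtain ⟨q, e, cc, N, iN, h₀, h₁, ψ₀, ψ₁, hN, hψ₀, hψ₁, ⟨H⟩, hne, hTWF, hqS₀, hqip, hqR⟩ :=
      Z.exists_level hB hπZ hM hd b hgZ hquad (r := r) (n := n + 1) n.succ_pos R hcard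
        (fun v hv h => (hnot v hv).1 ((hT₀ v).mpr h))
        (fun v hv h => (hnot v hv).2 ((hbad v).mpr h)) hTW
    obtain ⟨πT, hπ⟩ := exists_piT H.hres H.hm
    have hg := H.good b hπ hπZ hgZ
    have hpS : p ∈ S₀ ∪ Finset.univ.image q := Finset.mem_union_left _ hpS₀
    have hNS := hS_of hN
    haveI := H.isNoeth
    haveI := H.complete
    have hpT := HLevel.pT hB H
    have hcmp : ∀ (σ : GQ) (i j : Fin 2),
        πT ((b.rho H.ht hg σ).val i j) = πZ ((b.rho Z.ht hgZ σ).val i j) := by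
      intro σ i j
      exact congrArg (fun f => (f σ).val i j) (H.resRep_eq b hπ hπZ hgZ hg)
    have hΦ : ∀ i j, (H.PhiF b hg φ₀ ε - baseM reg H.T) i j ∈ maximalIdeal H.T := by
      intro i j
      rw [← hπ, RingHom.mem_ker]
      change πT ((algebraMap 𝒪 H.T ε • (b.rho H.ht hg (rl Q φ₀)).val - baseM reg H.T) i j) = 0
      rw [← hnf i j, Matrix.sub_apply, Matrix.sub_apply, map_sub, map_sub, Matrix.smul_apply,
        Matrix.smul_apply, smul_eq_mul, smul_eq_mul, map_mul, map_mul, hcmp, AlgHom.commutes,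
        AlgHom.commutes]
      congr 1
      have e1 := congrFun (congrFun (baseM_map (πT : H.T →+* ResidueField 𝒪) reg) i) j
      have e2 := congrFun (congrFun (baseM_map (πZ : Z.T →+* ResidueField 𝒪) reg) i) j
      exact e1.trans e2.symm
    have hSg : ∀ i j, (H.SgF b hg τ₀ - 1) i j ∈ maximalIdeal H.T := by
      intro i j
      rw [← hπ, RingHom.mem_ker]
      change πT (((b.rho H.ht hg (rl Q τ₀)).val - 1) i j) = 0
      rw [← Z.rho_inertia hB hπZ b hgZ (hunr _ (nonunits_padicPlace Q) _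
        (rl_mem_inertia hτ₀.1)) i j, Matrix.sub_apply, Matrix.sub_apply, map_sub, map_sub, hcmp]
      congr 1
      rw [Matrix.one_apply, Matrix.one_apply]
      split_ifs
      · rw [map_one, map_one]
      · rw [map_zero, map_zero]
    obtain ⟨x, hx, z, hz, hrel, hsurj⟩ := hall H.T (algebraMap 𝒪 H.T)
      (πT : H.T →+* ResidueField 𝒪) (b.rho H.ht hg) hπ (fun o => πT.commutes o)
      (H.resRep_eq b hπ hπZ hgZ hg) (fun g => ⟨χ g, b.det_rho H.ht hg g⟩)
      ⟨PsB.kerI H.ht (maximalIdeal H.T ^ 2), PsB.kerI_mem_famS _ H.ht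
        ⟨2, Ideal.pow_mem_pow hpT 2⟩ _ (fun v hv => by
          rw [Finset.mem_union]
          rcases hv with hv | hv
          · have h1 := hNS v v.2 hv
            rw [Finset.mem_union] at h1
            rcases h1 with h1 | h1
            · exact Or.inl ((hT₀ v).mpr h1)
            · obtain ⟨w, hw, hwv⟩ := (hqR v).mp h1
              rw [← Subtype.ext hwv]
              exact Or.inr hw
          · left
            rw [hT₀, hv]
            exact hpS₀), fun u hu i j => by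
          have h1 := b.entries_kerI _ H.ht hg hu i j
          rwa [Matrix.sub_apply] at h1⟩
      (fun t => ⟨t, H.closure_eq b hg t, by rw [sub_self]; exact Ideal.zero_mem _⟩)
      (fun v => by
        rcases v with _ | v
        · exact hτp H hN hqip hpS hNS hg πT hπ inferInstance inferInstance
        · exact hτv v H hN hpS hNS hg πT hπ inferInstance inferInstance)
      hΦ hSg
    obtain ⟨L, hL⟩ := H.exists_twLevel hB hψ₀ hψ₁ hN hM hpS hNS b h36 hd hπ hπZ hQ hqp hφ₀ hτ₀ hε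
      hgZ hg hp0 hTWF hqS₀ hqip hc hqm hm hζ hΦ hSg x hx z hz (fun _ _ => hrel) (fun _ _ => hsurj)
    exact ⟨L, fun k hk => hL k fun i => by have := hne i; omega⟩
  choose L hLJ using hL
  -- the algebra of level zero
  haveI : IsNoetherianRing Z.T := IsNoetherianRing.of_finite 𝒪 Z.T
  haveI : IsLocalHom (algebraMap 𝒪 Z.T) := ⟨fun b hb => by
    by_contra h
    exact (Z.hm b).mpr h hb⟩
  haveI : IsAdicComplete (maximalIdeal Z.T) Z.T :=
    IsLocalRing.isAdicComplete_of_module_finite (𝒪 := 𝒪)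
  have hfin₀ : ∀ k : ℕ, Finite (Z.T ⧸ maximalIdeal Z.T ^ k) := by
    haveI h1 : Finite (Z.T ⧸ maximalIdeal Z.T) := by
      refine Finite.of_injective _ (RingHom.lift_injective_of_ker_le_ideal (maximalIdeal Z.T)
        (f := (πZ : Z.T →+* ResidueField 𝒪)) (fun a ha => ?_) hπZ.le)
      rw [← hπZ] at ha
      exact ha
    intro k
    exact Ideal.finite_quotient_pow (IsNoetherian.noetherian (maximalIdeal Z.T)) k
  have h2 : (2 : 𝒪) ∉ maximalIdeal 𝒪 := by
    rw [mem_maximalIdeal, mem_nonunits_iff, not_not]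
    exact hB.two
  obtain ⟨𝔮₀, k1, k2, k3⟩ := exists_unramified_point (e' := 1 + (4 + Fintype.card R' * 3 + g)) hd
    hfin₀ (fun b hb => (Z.hm b).mpr hb)
    (fun x => Algebra.IsIntegral.isIntegral x) (fun b => Z.ι.commutes b) Z.hι L
    (fun k => Filter.eventually_atTop.mpr ⟨k, fun n hn => hLJ n k hn⟩) h2
    (cast_sub_one_mem hB.hp𝒪 hB.hq₀.one_le hB.hpq) (Nat.cast_ne_zero.mpr hB.hq₀.ne_zero)
    (by
      intro h
      have h1 : ((q₀ : ℕ) : 𝒪) = ((1 : ℕ) : 𝒪) := by rw [h, Nat.cast_one]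
      exact hB.hq₀.one_lt.ne' (Nat.cast_injective h1))
    (fun z hz => zPairs_prop hB.hp hB.hp2 hB.hp𝒪 hζ hz)
    (by rw [Fintype.card_option, hrg]; omega) (by rw [sum_cF])
  exact ⟨b, hgZ, Q, hQ, τ₀, hτ₀, 𝔮₀, k1, k2, k3⟩

end Fermat.Agent.RT
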