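import Fermat.Agent.RT.LvlRel
import Fermat.Agent.RT.GalPk

set_option autoImplicit false
set_option maxHeartbeats 400000
set_option linter.style.haveILetI false
set_option linter.unusedSectionVars false
set_option linter.unusedVariables false

/-!
# The Taylor–Wiles levels
-/

open IsLocalRing CongruenceSubgroup Matrix.SpecialLinearGroup MvPowerSeries
open scoped MatrixGroups
open Fermat.Agent.ESCore Fermat.Agent.ESCore.UnivG
open Fermat.Agent.ESCore.Univ (Idx)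
open Fermat.Agent.ESCore.Gal (dU dLift dU_dLift)
open Fermat.Agent.Coh Fermat.Agent.GalD Fermat.Agent.LocalCFT Fermat.Agent.GCFT

noncomputable section

namespace Fermat.Agent.RT

open Ihara

variable {𝒪 : Type} [CommRing 𝒪] [IsDomain 𝒪] [IsDiscreteValuationRing 𝒪]
  [IsAdicComplete (maximalIdeal 𝒪) 𝒪] [Finite (ResidueField 𝒪)] [CharZero 𝒪]

variable {p M q₀ : ℕ} [Fact p.Prime] {χ : GQ →* 𝒪ˣ} [NeZero (M * q₀)] {S₀ : Finset ℕ} {a : ℕ → 𝒪}
  {d : ℕ} {K : Type} [Field K] [Algebra (ResidueField 𝒪) K] {ρK : GQ →* GL (Fin 2) K}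
  (hB : HBase p M q₀ S₀ a ρK χ)
  {Z : HZero p χ (M * q₀) S₀ a d} {N : ℕ} [NeZero N] {S : Finset ℕ} {r : ℕ}
  {q : Fin r → ℕ} {e : Fin r → ℕ} {h₀ : q₀ ∣ N} {h₁ : ∀ i, q i ∣ N}
  {ψ₀ : (ZMod q₀)ˣ →* Multiplicative (ZMod p)}
  {ψ₁ : ∀ i, (ZMod (q i))ˣ →* Multiplicative (ZMod (p ^ e i))}
  (hψ₀ : Function.Surjective ψ₀) (hψ₁ : ∀ i, Function.Surjective (ψ₁ i))
  (H : HLevel Z N S (psiN h₀ h₁ ψ₀ ψ₁)) (hN : LvlN N M q₀ q)
  (hM : Squarefree M) (hpS : p ∈ S) (hNS : ∀ l : ℕ, l.Prime → l ∣ N → l ∈ S)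
  (b : PsB 𝒪 χ) (h36 : S36P) (hd : 0 < d)
  {πT : H.T →ₐ[𝒪] ResidueField 𝒪}
  (hπ : RingHom.ker (πT : H.T →+* ResidueField 𝒪) = maximalIdeal H.T)
  {πZ : Z.T →ₐ[𝒪] ResidueField 𝒪}
  (hπZ : RingHom.ker (πZ : Z.T →+* ResidueField 𝒪) = maximalIdeal Z.T)
  {Q : Nat.Primes} (hQ : (Q : ℕ) = q₀) (hqp : q₀ ≠ p) {φ₀ τ₀ : Gl Q} (hφ₀ : IsFrobL φ₀)
  (hτ₀ : TameGen p Q τ₀) {ε : 𝒪} (hε : ε ^ 2 = 1)

section Good

include hπ hπZ in
/-- The representation exists at all levels. -/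
lemma HLevel.good (hgZ : b.Good Z.t) : b.Good H.t := by
  have h1 : H.pr (IsPseudo.bb H.t complexConjugation (algebraMap 𝒪 H.T b.i2) b.g₀ b.k₀) =
      IsPseudo.bb Z.t complexConjugation (algebraMap 𝒪 Z.T b.i2) b.g₀ b.k₀ :=
    b.bb_map H.pr H.hprt _ _
  have h2 : IsUnit (H.pr (IsPseudo.bb H.t complexConjugation (algebraMap 𝒪 H.T b.i2)
      b.g₀ b.k₀)) := by rw [h1]; exact hgZ
  change IsUnit _
  by_contra hne
  have h3 : πT (IsPseudo.bb H.t complexConjugation (algebraMap 𝒪 H.T b.i2) b.g₀ b.k₀) = 0 := by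
    rw [← mem_nonunits_iff, ← mem_maximalIdeal, ← hπ] at hne
    exact RingHom.mem_ker.mp hne
  rw [← H.pi_pr hπ hπZ] at h3
  have h4 := h2.map πZ
  rw [h3] at h4
  exact not_isUnit_zero h4

include hπ hπZ in
/-- The residual representation is the same at all levels. -/
lemma HLevel.resRep_eq (hgZ : b.Good Z.t) (hg : b.Good H.t) :
    resRep (πT : H.T →+* ResidueField 𝒪) (b.rho H.ht hg) =
      resRep (πZ : Z.T →+* ResidueField 𝒪) (b.rho Z.ht hgZ) := by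
  ext g i j
  change πT ((b.rho H.ht hg g).val i j) = πZ ((b.rho Z.ht hgZ g).val i j)
  rw [← b.rho_map H.pr H.hprt H.ht hg Z.ht hgZ, Matrix.map_apply, H.pi_pr hπ hπZ]

end Good

section Mk

variable {κ : Type} [Fintype κ] {c : κ → ℕ} {τ : ∀ v, LocType 𝒪 (c v)} {g : ℕ} {reg : Bool}

include hB hN hM hpS hNS h36 hd hπ hπZ hQ hqp hφ₀ hτ₀ hε hψ₀ hψ₁ in
/-- **Construction of the Taylor–Wiles level.** -/
theorem HLevel.exists_twLevel (hgZ : b.Good Z.t) (hg : b.Good H.t) (hp0 : p ≠ 0)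
    {cc : Fin r → ℕ} (hTW : TWFull p a q e cc) (hqS₀ : ∀ i, q i ∉ S₀) (hqip : ∀ i, q i ≠ p)
    {m c' : ℕ} (hc : c'.Coprime p) (hqm : q₀ - 1 = p ^ m * c') (hm : 1 ≤ m) {ζ : 𝒪}
    (hζ : IsPrimitiveRoot ζ (p ^ m))
    (hΦ : ∀ i j, (H.PhiF b hg φ₀ ε - baseM reg H.T) i j ∈ maximalIdeal H.T)
    (hSg : ∀ i j, (H.SgF b hg τ₀ - 1) i j ∈ maximalIdeal H.T)
    (x : ∀ v, (τ v).ι → MvPowerSeries (Option κ × Fin 3) H.T)
    (hx : ∀ v i, x v i ∈ maximalIdeal (MvPowerSeries (Option κ × Fin 3) H.T))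
    (z : Fin g → MvPowerSeries (Option κ × Fin 3) H.T)
    (hz : ∀ i, z i ∈ maximalIdeal (MvPowerSeries (Option κ × Fin 3) H.T))
    (hrel : ∀ hcompl : IsAdicComplete (maximalIdeal H.T) H.T, ∀ hnoeth : IsNoetherianRing H.T,
      ∀ v, ∀ r ∈ (τ v).Rel, evalHom (maximalIdeal (MvPowerSeries (Option κ × Fin 3) H.T))
        ((C : H.T →+* MvPowerSeries (Option κ × Fin 3) H.T).comp (algebraMap 𝒪 H.T))
        (x v) (hx v) r = 0)
    (hsurj : ∀ hcompl : IsAdicComplete (maximalIdeal H.T) H.T, ∀ hnoeth : IsNoetherianRing H.T,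
      Function.Surjective
        (evalHom (maximalIdeal (MvPowerSeries (Option κ × Fin 3) H.T))
          ((C : H.T →+* MvPowerSeries (Option κ × Fin 3) H.T).comp (algebraMap 𝒪 H.T))
          (allXf (τ := τ) reg (H.PhiF b hg φ₀ ε) (H.SgF b hg τ₀) x z)
          (allXf_mem hΦ hSg hx hz))) :
    ∃ L : TWLevel τ g r d reg (q₀ : 𝒪) (zPairs ζ (p ^ m)) (algebraMap 𝒪 Z.T)
      (Z.ι : Z.T →+* Matrix (Fin d) (Fin d) 𝒪) (b.rho Z.ht hgZ (rl Q τ₀)).val,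
      ∀ k, (∀ i, k ≤ e i + 1) →
        L.J ≤ maximalIdeal (MvPowerSeries (Fin r) 𝒪) ^ k := by
  haveI := H.isNoeth
  haveI := H.complete
  have he : ∀ i, 1 ≤ e i := fun i => hTW.pos i
  -- the group ring
  haveI hne : ∀ i : Fin r, NeZero (p ^ e i) := fun i => ⟨pow_ne_zero _ hp0⟩
  haveI hfinD : Finite (DT p e) := by
    have : ∀ i : Fin r, Finite (Multiplicative (ZMod (p ^ e i))) := fun i => inferInstance
    infer_instance
  haveI hlocD : IsLocalRing (MonoidAlgebra 𝒪 (DT p e)) :=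
    isLocalRing_groupRing (p := p) hB.hp𝒪 (genPi p hp0 e).exists_pow
  haveI hcomplD : IsAdicComplete (maximalIdeal (MonoidAlgebra 𝒪 (DT p e)))
      (MonoidAlgebra 𝒪 (DT p e)) := isAdicComplete_groupRing
  -- the Galois structure
  obtain ⟨w, hw1, hw2⟩ := H.exists_w hB hN hM hpS hNS b hg h36 hd hπ hπZ hTW hqS₀ hqip hp0
  -- the character
  have hζp : IsPrimitiveRoot (ζ ^ p ^ (m - 1)) p := by
    refine hζ.pow (pow_pos hB.hp.pos _) ?_
    rw [← pow_succ, Nat.sub_add_cancel hm]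
  obtain ⟨ω, hω⟩ := exists_hom_of_pow hp0 (ζ ^ p ^ (m - 1)) hζp.pow_eq_one
  have hω1 : ω ≠ 1 := by
    intro h
    rw [h, MonoidHom.one_apply] at hω
    exact hζp.ne_one hB.hp.one_lt hω.symm
  obtain ⟨A₁, Aχ, k1, k2, k3, k4, k5, k6⟩ := H.exists_acts hp0 hB (w := w) ω
    (H.eigProp hB hψ₁ hN hM hpS hNS b hg h36 hp0 hqip hw2)
    (H.eigProp hB hψ₁ hN hM hpS hNS b hg h36 hp0 hqip hw2) hζp he
  obtain ⟨u1, u2, u3, u4⟩ := H.uni_rel hB hN hM hpS hNS b hg h36 hd hπ hQ hqp hφ₀ hτ₀ hε A₁ k5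
  obtain ⟨c1, c2, c3, c4⟩ := H.chi_rel hB hψ₀ hN hM hpS hNS b hg h36 hd hπ hQ hqp hφ₀ hτ₀ hε hω1
    hc hqm hm hζ Aχ k6
  let L₀ : TWData 𝒪 τ g r d reg :=
    { J := RingHom.ker (ev (𝒪 := 𝒪) (genPi p hp0 e))
      hJ := ker_ev_le_constantCoeff (genPi p hp0 e)
      T := H.T
      σ := algebraMap 𝒪 H.T
      hσ := fun b hb => (H.hm b).mpr hb
      A₁ := A₁
      Aχ := Aχ
      b := (w : MonoidAlgebra 𝒪 (DT p e) →+* H.T).comp (ev (genPi p hp0 e))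
      hbC := fun x => by
        rw [RingHom.comp_apply, ev_C]; exact w.commutes x
      hbX := fun i => by
        rw [RingHom.comp_apply, ev_X, map_sub, map_one]; exact hw1 i
      hA₁ := k1
      hAχ := k2
      Φ := H.PhiF b hg φ₀ ε
      Sg := H.SgF b hg τ₀
      hΦ := hΦ
      hSg := hSg
      x := x
      hx := hx
      z := z
      hz := hz }
  refine ⟨{ toTWData := L₀
            hcongr := k3
            π := (H.pr : H.T →+* Z.T)
            hπσ := fun b => H.pr.commutes b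
            hπA := fun t i j => k4 t i j
            hπSg := fun i j => ?_
            uni := ⟨u1, u2, u3, u4⟩
            chi := ⟨c1, c2, c3, c4⟩
            hRel := fun v r hr => ?_
            surj := L₀.f_surjective_of (hsurj H.complete H.isNoeth) }, fun k hk => ?_⟩
  · exact congrFun (congrFun (b.rho_map H.pr H.hprt H.ht hg Z.ht hgZ (rl Q τ₀)) i) j
  · have h5 := hrel H.complete H.isNoeth v r hr
    exact (congrArg (frameExt Aχ) h5).trans (map_zero _)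
  · exact ker_ev_le (genPi p hp0 e) hB.hp𝒪 hk

end Mk

end Fermat.Agent.RT
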