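import Fermat.Agent.RT.LvlW

set_option autoImplicit false
set_option maxHeartbeats 400000
set_option linter.style.haveILetI false
set_option linter.unusedSectionVars false
set_option linter.unusedVariables false

/-!
# The Galois structure over the group ring, II
-/

open IsLocalRing CongruenceSubgroup Matrix.SpecialLinearGroup
open scoped MatrixGroups
open Fermat.Agent.ESCore Fermat.Agent.ESCore.UnivG
open Fermat.Agent.ESCore.Univ (Idx)
open Fermat.Agent.ESCore.Gal (dU dLift dU_dLift)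
open Fermat.Agent.Coh Fermat.Agent.GalD Fermat.Agent.LocalCFT Fermat.Agent.GCFT

noncomputable section

namespace Fermat.Agent.RT

open Ihara

variable {𝒪 : Type} [CommRing 𝒪] [IsDomain 𝒪] [IsDiscreteValuationRing 𝒪]
  [IsAdicComplete (maximalIdeal 𝒪) 𝒪] [Finite (ResidueField 𝒪)] [CharZero 𝒪]

variable {p M q₀ : ℕ} [Fact p.Prime] {χ : GQ →* 𝒪ˣ} [NeZero (M * q₀)] {S₀ : Finset ℕ} {a : ℕ → 𝒪}
  {d : ℕ} {K : Type} [Field K] [Algebra (ResidueField 𝒪) K] {ρK : GQ →* GL (Fin 2) K}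
  (hB : HBase p M q₀ S₀ a ρK χ)
  {Z : HZero p χ (M * q₀) S₀ a d} {N : ℕ} [NeZero N] {S : Finset ℕ} {r : ℕ}
  {q : Fin r → ℕ} {e : Fin r → ℕ} {h₀ : q₀ ∣ N} {h₁ : ∀ i, q i ∣ N}
  {ψ₀ : (ZMod q₀)ˣ →* Multiplicative (ZMod p)}
  {ψ₁ : ∀ i, (ZMod (q i))ˣ →* Multiplicative (ZMod (p ^ e i))}
  (H : HLevel Z N S (psiN h₀ h₁ ψ₀ ψ₁)) (hN : LvlN N M q₀ q)
  (hM : Squarefree M) (hpS : p ∈ S) (hNS : ∀ l : ℕ, l.Prime → l ∣ N → l ∈ S)
  (b : PsB 𝒪 χ) (hg : b.Good H.t) (h36 : S36P) (hd : 0 < d)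
  {πT : H.T →ₐ[𝒪] ResidueField 𝒪}
  (hπ : RingHom.ker (πT : H.T →+* ResidueField 𝒪) = maximalIdeal H.T)
  {πZ : Z.T →ₐ[𝒪] ResidueField 𝒪}
  (hπZ : RingHom.ker (πZ : Z.T →+* ResidueField 𝒪) = maximalIdeal Z.T)

include hB in
lemma HLevel.pT (H : HLevel Z N S (psiN h₀ h₁ ψ₀ ψ₁)) : (p : H.T) ∈ maximalIdeal H.T := by
  rw [← map_natCast (algebraMap 𝒪 H.T)]
  exact (H.hm _).mpr hB.hp𝒪

include hB hN hM hpS hNS hg h36 hd hπ in
lemma HLevel.hin {l : Nat.Primes} (hlp : (l : ℕ) ≠ p) (s : Gl l) (hs : s ∈ Il (l : ℕ)) :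
    πT (H.t (rl l s)) = 2 := by
  have h1 := H.t_res hB hN hM hpS hNS b hg h36 l.2 hlp hd (nonunits_padicPlace l)
    (rl_mem_inertia hs)
  rw [← hπ, RingHom.mem_ker] at h1
  change πT (H.t (rl l s) - 2) = 0 at h1
  rw [map_sub, map_ofNat, sub_eq_zero] at h1
  exact h1

include hB hπ hπZ hg hN in
/-- The representation is residually trivial on the inertia at a Taylor–Wiles prime. -/
lemma HLevel.rho_inertia_res {l : Nat.Primes} (hlp : (l : ℕ) ≠ p) (hlN : ¬ (l : ℕ) ∣ M * q₀)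
    {s : Gl l} (hs : s ∈ Il (l : ℕ)) (i j : Fin 2) :
    ((b.rho H.ht hg (rl l s)).val - 1) i j ∈ maximalIdeal H.T := by
  refine b.entries_kerI _ H.ht hg (σ := rl l s) (fun g => ?_) i j
  rw [← hπ, RingHom.mem_ker]
  change πT (H.t (rl l s * g) - H.t g) = 0
  rw [map_sub, H.pi_t hπ hπZ, H.pi_t hπ hπZ, Z.ht.unr l l.2 (fun h => by
    rcases h with h | h
    · exact hlN h
    · exact hlp h) _ (nonunits_padicPlace l) _ (rl_mem_inertia hs), sub_self]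

/-- Conditions on the Taylor–Wiles primes, precise form. -/
structure TWFull (p : ℕ) (a : ℕ → 𝒪) {r : ℕ} (q : Fin r → ℕ) (e c : Fin r → ℕ) : Prop where
  pos : ∀ i, 0 < e i
  eq : ∀ i, q i - 1 = p ^ e i * c i
  cop : ∀ i, (c i).Coprime p
  eig : ∀ i, ∃ α β : 𝒪, α + β - a (q i) ∈ maximalIdeal 𝒪 ∧ α * β - 1 ∈ maximalIdeal 𝒪 ∧
    IsUnit (α - β)

include hB hN hM hpS hNS hg h36 hd hπ hπZ in
/-- **The Galois action on inertia at the Taylor–Wiles primes**. -/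
theorem HLevel.exists_w {c : Fin r → ℕ} (hTW : TWFull p a q e c)
    (hqS₀ : ∀ i, q i ∉ S₀) (hqp : ∀ i, q i ≠ p) (hp0 : p ≠ 0) :
    ∃ w : MonoidAlgebra 𝒪 (∀ i : Fin r, Multiplicative (ZMod (p ^ e i))) →ₐ[𝒪] H.T,
      (∀ i, w (MonoidAlgebra.of 𝒪 _ ((genPi p hp0 e).δ i)) - 1 ∈ maximalIdeal H.T) ∧
      ∀ (lam : H.T →ₐ[𝒪] LL 𝒪) (i : Fin r),
        lam (w (MonoidAlgebra.of 𝒪 _ ((genPi p hp0 e).δ i))) = 1 ↔
          ∀ A : ValuationSubring Qb, A.LiesOverPrime (q i) → ∀ σ ∈ A.inertiaSubgroupIn ℚ,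
            lam (H.t σ) = 2 := by
  haveI := H.isNoeth
  haveI := H.complete
  haveI : HenselianLocalRing H.T := henselianLocalRing_of_complete
  have hpT := HLevel.pT hB H
  have key : ∀ i : Fin r, ∃ u : H.T, u ^ p ^ e i = 1 ∧ u - 1 ∈ maximalIdeal H.T ∧
      ∀ lam : H.T →ₐ[𝒪] LL 𝒪, lam u = 1 ↔ ∀ A : ValuationSubring Qb, A.LiesOverPrime (q i) →
        ∀ σ ∈ A.inertiaSubgroupIn ℚ, lam (H.t σ) = 2 := by
    intro i
    let l : Nat.Primes := ⟨q i, hN.hq i⟩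
    have hlp : (l : ℕ) ≠ p := hqp i
    haveI : Fact (Nat.Prime (l : ℕ)) := ⟨l.2⟩
    obtain ⟨φ, hφ⟩ := exists_isFrobL (l : ℕ)
    obtain ⟨τ, hτ⟩ := exists_tameGen hB.hp (q := l) hlp.symm
    have hin := fun s hs => H.hin hB hN hM hpS hNS b hg h36 hd hπ hlp s hs
    obtain ⟨α, β, h1, h2, h3⟩ := hTW.eig i
    have hlM : ¬ (l : ℕ) ∣ M * q₀ := by
      intro h
      rcases (Nat.Prime.dvd_mul l.2).mp h with h4 | h4
      · exact hN.hqM i h4
      · exact hN.hqq₀ i ((Nat.prime_dvd_prime_iff_eq (hN.hq i) hN.hq₀).mp h4)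
    have hres0 : ∀ y ∈ maximalIdeal 𝒪, residue 𝒪 y = 0 := fun y hy =>
      (residue_eq_zero_iff _).mpr hy
    have hqm : ((q i : ℕ) : 𝒪) - 1 ∈ maximalIdeal 𝒪 := by
      have e1 : ((q i : ℕ) : 𝒪) - 1 = ((q i - 1 : ℕ) : 𝒪) := by
        rw [Nat.cast_sub (hN.hq i).one_le, Nat.cast_one]
      rw [e1, hTW.eq i, Nat.cast_mul, Nat.cast_pow]
      exact Ideal.mul_mem_right _ _ (Ideal.pow_mem_of_mem _ hB.hp𝒪 _ (hTW.pos i))
    have hxi : πT (H.t (rl l φ)) = residue 𝒪 (a (q i)) := by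
      rw [H.pi_t hπ hπZ, Z.hfr ⟨q i, hN.hq i, hlM, hqS₀ i⟩ _ (nonunits_padicPlace l) _
        (rl_isFrobeniusAt hφ)]
      exact pi_unique hπZ (Z.hxa _)
    have hdetF := det_rho_frob hB.hp hB.hp𝒪 hB.hχ H.ht b hg hlp hφ
    obtain ⟨P, P', u, u', hPP', hP'P, hd', huu, hu1, huq⟩ := exists_split
      (π := (πT : H.T →+* ResidueField 𝒪)) hπ (fun y => by
        obtain ⟨y, rfl⟩ := residue_surjective y
        exact ⟨algebraMap 𝒪 H.T y, πT.commutes y⟩) (q := q i) (hN.hq i).one_lt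
      (A := (b.rho H.ht hg (rl l φ)).val) (B := (b.rho H.ht hg (rl l τ)).val)
      (α := residue 𝒪 α) (β := residue 𝒪 β)
      (fun h => by
        have h4 : residue 𝒪 (α - β) = 0 := by rw [map_sub, h, sub_self]
        exact (h3.map (residue 𝒪)).ne_zero h4)
      (by
        rw [b.trace_rho]
        change πT _ = _
        rw [hxi]
        have := hres0 _ h1
        rw [map_sub, map_add, sub_eq_zero] at this
        exact this.symm)
      (by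
        rw [hdetF]
        change πT _ = _
        rw [AlgHom.commutes]
        have e1 := hres0 _ h2
        have e2 := hres0 _ hqm
        rw [map_sub, map_mul, map_one, sub_eq_zero] at e1
        rw [map_sub, map_one, sub_eq_zero] at e2
        change residue 𝒪 ((q i : ℕ) : 𝒪) = _
        rw [e1, e2])
      (by
        have := (b.rho H.ht hg (rl l φ)).isUnit
        exact (Matrix.isUnit_iff_isUnit_det _).mp this)
      (fun i' j' => H.rho_inertia_res hB hN b hg hπ hπZ hlp hlM hτ.1 i' j')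
      (det_rho_inertia hB.hp hB.hp𝒪 hB.hχ H.ht b hg hlp hτ.1)
      (by
        have := (H.hm _).mpr hqm
        rwa [map_sub, map_one, map_natCast] at this)
      (rho_tame (π := (πT : H.T →+* ResidueField 𝒪)) hπ hB.hp hB.hp𝒪 hpT hB.hχ H.ht b hg hlp hin
        hφ hτ.1)
    refine ⟨u, ?_, hu1, fun lam => ?_⟩
    · rw [hTW.eq i] at huq
      exact pow_eq_one_of_cop hpT (hTW.cop i) hu1 huq
    · exact split_iff (π := (πT : H.T →+* ResidueField 𝒪)) hπ hB.hp hB.hp𝒪 hpT hB.hχ H.ht b hg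
        hlp (lam : H.T →+* LL 𝒪) hin hτ hP'P hd' huu
  choose u hu1 hu2 hu3 using key
  obtain ⟨φ, hφ⟩ := (genPi p hp0 e).lift H.T u hu1
  refine ⟨MonoidAlgebra.lift 𝒪 H.T _ φ, fun i => ?_, fun lam i => ?_⟩
  · rw [MonoidAlgebra.lift_of, hφ]
    exact hu2 i
  · rw [MonoidAlgebra.lift_of, hφ]
    exact hu3 i lam

end Fermat.Agent.RT
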