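import Fermat.Agent.EC.NodeTors
import Fermat.Agent.RT.IndexTwoEC

set_option autoImplicit false
set_option linter.unusedSectionVars false
set_option linter.style.haveILetI false

/-!
# The trace relations characterising ordinary representations
-/

open WeierstrassCurve WeierstrassCurve.Affine WeierstrassCurve.Affine.Point

noncomputable section

namespace Fermat.Agent.RT

open Fermat.Agent.EC Fermat.Agent.ESCore Fermat.Agent.GaloisBasics

/-- The field of algebraic numbers. -/
local notation "Kb" => AlgebraicClosure ℚ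
/-- The absolute Galois group. -/
local notation "GQ" => (AlgebraicClosure ℚ ≃ₐ[ℚ] AlgebraicClosure ℚ)

/-- The trace relations characterising ordinary representations. -/
def OrdTr (p : ℕ) {R : Type*} [CommRing R] (r : GQ → Matrix (Fin 2) (Fin 2) R) : Prop :=
  ∀ P : ValuationSubring Kb, P.LiesOverPrime p → ∀ σ ∈ P.inertiaSubgroupIn ℚ,
    ∀ τ ∈ P.inertiaSubgroupIn ℚ, ∀ g, (r (σ * τ * g)).trace - (r (σ * g)).trace -
      (r σ).det * ((r (τ * g)).trace - (r g).trace) = 0

theorem OrdTr.map {p : ℕ} {R R' : Type*} [CommRing R] [CommRing R']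
    {r : GQ → Matrix (Fin 2) (Fin 2) R} (h : OrdTr p r) (φ : R →+* R') :
    OrdTr p fun g => (r g).map φ := by
  intro P hP σ hσ τ hτ g
  have h1 := congrArg φ (h P hP σ hσ τ hτ g)
  have htr : ∀ M : Matrix (Fin 2) (Fin 2) R, (M.map φ).trace = φ M.trace := fun M => by
    rw [Matrix.trace_fin_two, Matrix.trace_fin_two, map_add]
    rfl
  have hdet : ∀ M : Matrix (Fin 2) (Fin 2) R, (M.map φ).det = φ M.det := fun M => by
    rw [← RingHom.mapMatrix_apply, ← RingHom.map_det]
  rw [htr, htr, htr, htr, hdet]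
  rw [map_sub, map_sub, map_mul, map_sub, _root_.map_zero] at h1
  exact h1

theorem OrdTr.of_rel {p : ℕ} {R : Type*} [CommRing R] (r : GQ →* Matrix (Fin 2) (Fin 2) R)
    (h : ∀ P : ValuationSubring Kb, P.LiesOverPrime p → ∀ σ ∈ P.inertiaSubgroupIn ℚ,
      ∀ τ ∈ P.inertiaSubgroupIn ℚ, r σ * (r τ - 1) = (r σ).det • (r τ - 1)) : OrdTr p r := by
  intro P hP σ hσ τ hτ g
  have h1 := congrArg (fun M => (M * r g).trace) (h P hP σ hσ τ hτ)
  have h2 : r σ * (r τ - 1) * r g = r (σ * τ * g) - r (σ * g) := by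
    rw [map_mul, map_mul, map_mul]
    noncomm_ring
  have h3 : (r σ).det • (r τ - 1) * r g = (r σ).det • (r (τ * g) - r g) := by
    rw [map_mul, smul_mul_assoc, sub_mul, one_mul]
  change (r σ * (r τ - 1) * r g).trace = ((r σ).det • (r τ - 1) * r g).trace at h1
  rw [h2, h3, Matrix.trace_sub, Matrix.trace_smul, Matrix.trace_sub, smul_eq_mul] at h1
  rw [h1, sub_self]

/-- An endomorphism of a plane trivial modulo a line acts on the line by its determinant. -/
theorem apply_of_mem_line {F V : Type*} [Field F] [AddCommGroup V] [Module F V]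
    (hV : Module.finrank F V = 2) {N : Submodule F V} (hN : N ≠ ⊤) {f : V →ₗ[F] V}
    (hf : ∀ x, f x - x ∈ N) {y : V} (hy : y ∈ N) : f y = LinearMap.det f • y := by
  by_cases hy0 : y = 0
  · rw [hy0, _root_.map_zero, smul_zero]
  have hfin : Module.Finite F V := Module.finite_of_finrank_pos (by omega)
  have hspan : Submodule.span F {y} = N :=
    eq_of_line_le hV (fun h => hy0 (Submodule.span_singleton_eq_bot.mp h)) hN
      ((Submodule.span_singleton_le_iff_mem _ _).mpr hy)
  obtain ⟨e, he⟩ : ∃ e, e ∉ N := by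
    by_contra hcon
    push Not at hcon
    exact hN (Submodule.eq_top_iff'.mpr hcon)
  have hli : LinearIndependent F ![y, e] := by
    rw [LinearIndependent.pair_iff' hy0]
    intro a ha
    apply he
    rw [← ha]
    exact N.smul_mem a hy
  let b := basisOfLinearIndependentOfCardEqFinrank hli (by rw [hV]; rfl)
  have hb0 : b 0 = y := by simp [b]
  have hb1 : b 1 = e := by simp [b]
  have hfy : f y ∈ N := by
    have := N.add_mem (hf y) hy
    rwa [sub_add_cancel] at this
  rw [← hspan, Submodule.mem_span_singleton] at hfy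
  obtain ⟨c, hc⟩ := hfy
  have hfe := hf e
  rw [← hspan, Submodule.mem_span_singleton] at hfe
  obtain ⟨d, hd⟩ := hfe
  have h00 : LinearMap.toMatrix b b f 0 0 = c := by
    rw [LinearMap.toMatrix_apply, hb0, ← hc, ← hb0]
    simp
  have h10 : LinearMap.toMatrix b b f 1 0 = 0 := by
    rw [LinearMap.toMatrix_apply, hb0, ← hc, ← hb0]
    simp
  have h11 : LinearMap.toMatrix b b f 1 1 = 1 := by
    have : f e = d • b 0 + b 1 := by
      rw [hb0, hb1, hd, sub_add_cancel]
    rw [LinearMap.toMatrix_apply, hb1, this]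
    simp
  rw [← LinearMap.det_toMatrix b, Matrix.det_fin_two, h00, h10, h11, mul_zero, sub_zero, mul_one,
    hc]

section Curve

variable {W : WeierstrassCurve ℤ}

/-- The curve over the rationals. -/
local notation "WQ" => WeierstrassCurve.map W (Int.castRingHom ℚ)

/-- **Ordinarity**: the case where the `p`-torsion is not in the kernel of reduction. -/
theorem OrdTr.of_kerSub (hΔ : W.Δ ≠ 0) (hW : W.IsSemistableModel) {p : ℕ} [hp : Fact p.Prime]
    (hp2 : p ≠ 2)
    (hk : ∀ A : ValuationSubring Kb, A.LiesOverPrime p →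
      haveI := isElliptic_map hΔ
      kerSub (E := WQ) (p := p) A (ss_vint W A) ≠ ⊤)
    (b : Module.Basis (Fin 2) (ZMod p) (TorsP (WQ) p)) :
    OrdTr p fun g => (modRep b g).val := by
  haveI := isElliptic_map hΔ
  refine OrdTr.of_rel (r := (Units.coeHom _).comp (modRep b)) fun P hP σ hσ τ hτ => ?_
  have hV := finrank_torsion (E := WQ) (p := p)
  have key : ∀ x : TorsP (WQ) p, galoisRepModuleEnd (K := Kb) ℚ (WQ) p σ
      (galoisRepModuleEnd (K := Kb) ℚ (WQ) p τ x - x) =
      LinearMap.det (galoisRepModuleEnd (K := Kb) ℚ (WQ) p σ) •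
        (galoisRepModuleEnd (K := Kb) ℚ (WQ) p τ x - x) := by
    intro x
    refine apply_of_mem_line hV (hk P hP) (fun y => ?_) ?_
    · exact ss_inKer hΔ hW hp2 hP hσ y
    · exact ss_inKer hΔ hW hp2 hP hτ x
  change LinearMap.toMatrix b b (galoisRepModuleEnd (K := Kb) ℚ (WQ) p σ) *
    (LinearMap.toMatrix b b (galoisRepModuleEnd (K := Kb) ℚ (WQ) p τ) - 1) =
    (LinearMap.toMatrix b b (galoisRepModuleEnd (K := Kb) ℚ (WQ) p σ)).det •
    (LinearMap.toMatrix b b (galoisRepModuleEnd (K := Kb) ℚ (WQ) p τ) - 1)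
  rw [LinearMap.det_toMatrix, ← LinearMap.toMatrix_one b, ← map_sub, ← LinearMap.toMatrix_mul,
    ← map_smul]
  congr 1
  ext1 x
  exact key x

/-- **Ordinarity in the multiplicative case.** -/
theorem OrdTr.of_mult (hΔ : W.Δ ≠ 0) (hW : W.IsSemistableModel) {p : ℕ} [hp : Fact p.Prime]
    (hp2 : p ≠ 2) (hpΔ : (p : ℤ) ∣ W.Δ)
    (b : Module.Basis (Fin 2) (ZMod p) (TorsP (WQ) p)) :
    OrdTr p fun g => (modRep b g).val := by
  haveI := isElliptic_map hΔ
  refine OrdTr.of_kerSub hΔ hW hp2 (fun A hA => ?_) b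
  have hvq : A.valuation (p : Kb) < 1 := hA
  exact kerSub_ne_top_of_mult hp2 (ss_vint W A)
    (by rw [ss_c₄]; exact v_int_eq_one hp.out hvq (hW p hp.out hpΔ))
    (by rw [ss_Δ]; exact v_int_lt hvq hpΔ)

/-- **Ordinarity in the multiplicative case**, after extension of scalars. -/
theorem OrdTr.bc_of_mult (hΔ : W.Δ ≠ 0) (hW : W.IsSemistableModel) {p : ℕ} [hp : Fact p.Prime]
    (hp2 : p ≠ 2) (hpΔ : (p : ℤ) ∣ W.Δ)
    (b : Module.Basis (Fin 2) (ZMod p) (TorsP (WQ) p)) (k : Type*) [Field k] [Algebra (ZMod p) k] :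
    OrdTr p fun g => (bc k (modRep b) g).val :=
  (OrdTr.of_mult hΔ hW hp2 hpΔ b).map (algebraMap (ZMod p) k)

end Curve

end Fermat.Agent.RT
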