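import Fermat.Agent.RT.S56Fl

set_option autoImplicit false
set_option linter.unusedSectionVars false

/-!
# The flat half
-/

open Fermat.Agent.Coh Fermat.Agent.GalD Fermat.Agent.LocalCFT Module IntermediateField IsLocalRing
open Fermat.Agent.OrdP Matrix Fermat.Agent.GCFT Fermat.Agent.UnivDef
  Fermat.Agent.ESCore ExtCitation TensorProduct

namespace Fermat.Agent.RT

/-- The field of algebraic numbers. -/
local notation "Qb" => AlgebraicClosure ℚ
/-- The absolute Galois group. -/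
local notation "GQ" => (AlgebraicClosure ℚ ≃ₐ[ℚ] AlgebraicClosure ℚ)

section Loc

variable {T : Type} [CommRing T] [IsLocalRing T]

theorem rep_eq_one_loc [IsNoetherianRing T] {l : Nat.Primes} (hl2 : (l : ℕ) ≠ 2)
    (ρ' : GaloisRepAdic T) (hflat : ρ'.IsFlatAt (l : ℕ)) (hord : ρ'.IsOrdinaryAt (l : ℕ))
    (hdet : ρ'.DetIsCyclotomic (l : ℕ)) {g : Gl l} (hg : g ∈ IL (l : ℕ))
    (hy : ∀ y ∈ YL (l : ℕ), g y = y) : ρ'.ρ (rl l g) = 1 := by
  refine FO.rep_eq_one ρ' l.2 hl2 hflat hord hdet (padicPlace_liesOver l)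
    (OrdP.rl_mem_inertia hg) fun y hy1 hyn => ?_
  obtain ⟨n, hn⟩ := hyn
  apply (il l).toRingHom.injective
  change il l (rl l g y) = il l y
  rw [il_rl]
  refine hy _ ⟨?_, n, ?_⟩
  · refine le_antisymm ?_ ?_
    · rw [← norm_il_le, ← ValuationSubring.valuation_le_one_iff, hy1]
    · rw [← not_lt, ← mem_nonunits_padicPlace, ValuationSubring.mem_nonunits_iff, hy1]
      exact lt_irrefl _
  · rw [KI, GalD.mem_fld]
    intro δ hδ
    rw [← map_pow, ← il_rl, hn _ (OrdP.rl_mem_inertia hδ)]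

/-- the residue field in terms of `π` -/
theorem exists_residue_equiv {k : Type} [Field k] {π : T →+* k}
    (hπ : RingHom.ker π = maximalIdeal T) (hs : Function.Surjective π) :
    ∃ e : ResidueField T ≃+* k, ∀ t, e (residue T t) = π t := by
  let e₁ : T ⧸ RingHom.ker π ≃+* k := RingHom.quotientKerEquivOfSurjective hs
  let e₂ : ResidueField T ≃+* T ⧸ RingHom.ker π := Ideal.quotEquivOfEq hπ.symm
  exact ⟨e₂.trans e₁, fun t => rfl⟩

/-- A stable line over `k` gives stable lines in the residual representation at all places. -/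
theorem exists_lines {k : Type} [Field k] {π : T →+* k}
    (hπ : RingHom.ker π = maximalIdeal T) (hs : Function.Surjective π) (ρ' : GaloisRepAdic T)
    (b : Basis (Fin 2) T ρ'.V) {l : Nat.Primes} {w : Fin 2 → k} (hw0 : w ≠ 0)
    (hw : ∀ δ : Gl l, ∃ a : k, (resRep π (glOf ρ' b) (rl l δ)).val *ᵥ w = a • w)
    (A : ValuationSubring Qb) (hA : A.LiesOverPrime (l : ℕ)) :
    ∃ x : ResidueField T ⊗[T] ρ'.V, x ≠ 0 ∧ ∀ σ ∈ A.decompositionSubgroup ℚ,
      (ρ'.ρ σ).baseChange (ResidueField T) x ∈ ResidueField T ∙ x := by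
  obtain ⟨e, he⟩ := exists_residue_equiv hπ hs
  obtain ⟨γ, hγ, hdec⟩ := exists_rl_conj hA
  let B : Basis (Fin 2) (ResidueField T) (ResidueField T ⊗[T] ρ'.V) :=
    Algebra.TensorProduct.basis (ResidueField T) b
  set r := resRep π (glOf ρ' b) with hr
  have hmat : ∀ σ i j, e (LinearMap.toMatrix B B ((ρ'.ρ σ).baseChange (ResidueField T)) i j) =
      (r σ).val i j := by
    intro σ i j
    rw [LinearMap.toMatrix_baseChange, Matrix.map_apply]
    exact he _
  -- the vector attached to `w`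
  let vec : (Fin 2 → k) → ResidueField T ⊗[T] ρ'.V := fun u => B.equivFun.symm fun i => e.symm (u i)
  have hvec : ∀ u i, e (B.repr (vec u) i) = u i := by
    intro u i
    rw [← Basis.equivFun_apply]
    change e (B.equivFun (B.equivFun.symm fun i => e.symm (u i)) i) = _
    rw [LinearEquiv.apply_symm_apply, RingEquiv.apply_symm_apply]
  have hinj : ∀ x y : ResidueField T ⊗[T] ρ'.V, (∀ i, e (B.repr x i) = e (B.repr y i)) → x = y :=
    fun x y h => B.ext_elem fun i => e.injective (h i)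
  have hact : ∀ σ u, (ρ'.ρ σ).baseChange (ResidueField T) (vec u) = vec ((r σ).val *ᵥ u) := by
    intro σ u
    refine hinj _ _ fun i => ?_
    rw [hvec, ← LinearMap.toMatrix_mulVec_repr B B ((ρ'.ρ σ).baseChange (ResidueField T)) (vec u)]
    rw [mulVec, mulVec, dotProduct, dotProduct, map_sum]
    refine Finset.sum_congr rfl fun j _ => ?_
    rw [map_mul, hmat, hvec]
  have hsm : ∀ (a : k) u, vec (a • u) = e.symm a • vec u := by
    intro a u
    refine hinj _ _ fun i => ?_
    rw [hvec, map_smul, Finsupp.smul_apply, smul_eq_mul, map_mul, hvec,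
      RingEquiv.apply_symm_apply]
    rfl
  have hv0 : ∀ u, vec u = 0 → u = 0 := by
    intro u hu
    funext i
    rw [← hvec u i, hu, map_zero, Finsupp.zero_apply, map_zero]
    rfl
  have hopen : IsOpen (r.ker : Set GQ) := by
    obtain ⟨U, hU, h1⟩ := exists_cont ρ' b 1
    refine Subgroup.isOpen_mono (fun u hu => ?_) hU
    rw [MonoidHom.mem_ker]
    ext i j
    rw [hr, resRep_coe, Matrix.map_apply]
    have h2 := h1 u hu i j
    rw [pow_one, ← hπ, RingHom.mem_ker, map_sub, sub_eq_zero] at h2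
    rw [h2, Units.val_one, Matrix.one_apply, Matrix.one_apply]
    split_ifs
    · rw [map_one]
    · rw [map_zero]
  refine ⟨vec ((r γ).val *ᵥ w), fun h => ?_, fun σ hσ => ?_⟩
  · exact mulVec_ne_zero γ hw0 (hv0 _ h)
  · obtain ⟨δ, u, hu, hδ⟩ := hdec _ hopen σ hσ
    obtain ⟨a, ha⟩ := hw δ
    have h1 : (r σ).val *ᵥ ((r γ).val *ᵥ w) = a • ((r γ).val *ᵥ w) := by
      have h2 : σ * γ = γ * (γ⁻¹ * σ * γ) := by group
      rw [← mulVec_mul, h2, mulVec_mul, hδ, map_mul, (MonoidHom.mem_ker.mp hu), mul_one, ha,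
        mulVec_smul]
    rw [hact, h1, hsm, Submodule.mem_span_singleton]
    exact ⟨_, rfl⟩

end Loc

section Flat

variable {𝒪 : Type} [CommRing 𝒪] [IsDomain 𝒪] [IsDiscreteValuationRing 𝒪]
  [IsAdicComplete (maximalIdeal 𝒪) 𝒪]

/-- **The local count at `p` for flat deformations.** -/
theorem flat_loc [Finite (ResidueField 𝒪)] {p : ℕ} [hp : Fact p.Prime] (hp2 : p ≠ 2)
    (hp𝒪 : (p : 𝒪) ∈ maximalIdeal 𝒪)
    {R : Type} [CommRing R] [IsLocalRing R] [IsNoetherianRing R]
    [IsAdicComplete (maximalIdeal R) R] [Algebra 𝒪 R] (ρ' : GaloisRepAdic R)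
    (hflat : ρ'.IsFlatAt p) (hdet : ρ'.DetIsCyclotomic p)
    (b : Basis (Fin 2) R ρ'.V)
    {π : R →+* ResidueField 𝒪} (hπ : RingHom.ker π = maximalIdeal R)
    (hπ' : ∀ o, π (algebraMap 𝒪 R o) = residue 𝒪 o) {V : Type} [Fintype V] (v : V) :
    ∃ θ : DerSp (frφ (algebraMap 𝒪 R) V) (frπ π V) →ₗ[ResidueField 𝒪]
        (Fin 4 → ResidueField 𝒪), ∀ D, θ D = 0 →
        ∀ δ : Gl (pPrime p), (frMat (glOf ρ' b) v (rl (pPrime p) δ)).map D.1 = 0 := by
  have hsurj : ∀ x : ResidueField 𝒪, ∃ o : 𝒪, π (algebraMap 𝒪 R o) = x := by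
    intro x
    obtain ⟨o, rfl⟩ := residue_surjective x
    exact ⟨o, hπ' o⟩
  have hs : Function.Surjective π := fun x => by
    obtain ⟨o, ho⟩ := hsurj x
    exact ⟨_, ho⟩
  have hpk : (p : ResidueField 𝒪) = 0 := by
    rw [← map_natCast (residue 𝒪), residue_eq_zero_iff]
    exact hp𝒪
  have hdetg : ∀ g, (glOf ρ' b g).val.det = LinearMap.det (ρ'.ρ g) := fun g => by
    rw [glOf_coe, matOf_apply, LinearMap.det_toMatrix]
  by_cases hirr : ∀ W : Submodule (ResidueField 𝒪) (Fin 2 → ResidueField 𝒪),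
      (∀ δ : Gl (pPrime p), ∀ x ∈ W,
        (resRep π (glOf ρ' b) (rl (pPrime p) δ)).val *ᵥ x ∈ W) → W = ⊥ ∨ W = ⊤
  · refine FB.fl_functionals (p := pPrime p) hp2 hs hpk (fun g => ?_) (fun g m hm => ?_) hirr
      (FB.mflat_of_isFlatAt ρ' b (fun g => rfl) hflat) v
    · rw [hdetg]
      exact det_mem_range hp𝒪 hdet g
    · have h1 := hdet.2 1 g m (fun μ hμ => hm μ (by rwa [pow_one] at hμ))
      rw [← hdetg] at h1
      have h2 : (glOf ρ' b g).val.det - (m : R) ∈ maximalIdeal R := by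
        refine (Ideal.span_singleton_le_iff_mem _).mpr ?_ h1
        rw [pow_one]
        exact hdet.1
      rw [← hπ, RingHom.mem_ker, map_sub, map_natCast, sub_eq_zero, RingHom.map_det] at h2
      rw [resRep_coe]
      exact h2
  · push Not at hirr
    obtain ⟨W, hW, hW0, hW1⟩ := hirr
    obtain ⟨w, hw, hw0⟩ := Submodule.exists_mem_ne_zero_of_ne_bot hW0
    have hfr : finrank (ResidueField 𝒪) W = 1 := by
      have h1 : finrank (ResidueField 𝒪) W < 2 := by
        have := Submodule.finrank_lt hW1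
        simpa using this
      have h2 : 0 < finrank (ResidueField 𝒪) W := by
        rw [Module.finrank_pos_iff_exists_ne_zero]
        exact ⟨⟨w, hw⟩, fun h => hw0 (congrArg Subtype.val h)⟩
      omega
    have hline : ∀ δ : Gl (pPrime p), ∃ a : ResidueField 𝒪,
        (resRep π (glOf ρ' b) (rl (pPrime p) δ)).val *ᵥ w = a • w := by
      intro δ
      obtain ⟨c, hc⟩ := exists_smul_eq_of_finrank_eq_one hfr (x := ⟨w, hw⟩)
        (fun h => hw0 (congrArg Subtype.val h)) ⟨_, hW δ w hw⟩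
      exact ⟨c, (congrArg Subtype.val hc).symm⟩
    have hord : ρ'.IsOrdinaryAt p := Conn.isOrdinaryAt_of_flat_of_line ρ' hp.out hp2 hflat hdet
      (exists_lines (l := pPrime p) hπ hs ρ' b hw0 hline)
    obtain ⟨v₀, h1, h2, h3⟩ := exists_line (l := pPrime p) ρ' hord b
    refine framed_flat_functionals (l := pPrime p) hp2 hπ hsurj hdet.1
      (OrdRep.of_global (exists_cont ρ' b) (fun n σ a ha => ?_) h2 h3) h1 (fun g hg hy => ?_) v
    · rw [hdetg]
      exact hdet.2 n σ a ha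
    · apply Units.ext
      rw [glOf_coe, matOf_apply,
        rep_eq_one_loc (l := pPrime p) hp2 ρ' hflat hord hdet hg hy, Units.val_one,
        Module.End.one_eq_id, LinearMap.toMatrix_id]

end Flat

end Fermat.Agent.RT
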