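import Fermat.Agent.RT.PPlace
import Fermat.Agent.RT.S56Flat

set_option autoImplicit false
set_option linter.style.haveILetI false
set_option linter.unusedSectionVars false

/-!
# The local type at `p`: flat and ordinary representations
-/

open IsLocalRing Matrix Module
open Fermat.Agent.GCFT Fermat.Agent.Coh Fermat.Agent.GalD Fermat.Agent.LocalCFT
open ExtCitation (pPrime)

noncomputable section

namespace Fermat.Agent.RT

/-- The field of algebraic numbers. -/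
local notation "Qb" => AlgebraicClosure ℚ
/-- The absolute Galois group. -/
local notation "GQ" => (AlgebraicClosure ℚ ≃ₐ[ℚ] AlgebraicClosure ℚ)

section Func

variable {O A k : Type*} [CommRing O] [CommRing A] [IsLocalRing A] [IsNoetherianRing A] [Field k]
  {φ : O →+* A} {π : A →+* k}

/-- linear functionals on derivations are evaluations -/
theorem exists_eval (hπ : RingHom.ker π = maximalIdeal A) (hs : ∀ x : k, ∃ o, π (φ o) = x)
    (θ : DerSp φ π →ₗ[k] k) : ∃ x ∈ maximalIdeal A, ∀ D, θ D = D.1 x := by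
  obtain ⟨s, hs'⟩ := (IsNoetherian.noetherian (maximalIdeal A) : (maximalIdeal A).FG)
  replace hs' : Ideal.span (s : Set A) = maximalIdeal A := hs'
  have hsm : ∀ x ∈ s, x ∈ maximalIdeal A := fun x hx => by
    rw [← hs']
    exact Ideal.subset_span hx
  have hsπ : ∀ x ∈ s, π x = 0 := fun x hx => by
    rw [← RingHom.mem_ker, hπ]
    exact hsm x hx
  let E : DerSp φ π →ₗ[k] (s → k) :=
    { toFun := fun D x => D.1 x
      map_add' := fun _ _ => rfl
      map_smul' := fun _ _ => rfl }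
  have hE : LinearMap.ker E = ⊥ := by
    rw [LinearMap.ker_eq_bot']
    intro D hD
    apply Subtype.ext
    funext a
    obtain ⟨o, ho⟩ := hs (π a)
    have h1 : a - φ o ∈ Ideal.span (s : Set A) := by
      rw [hs', ← hπ, RingHom.mem_ker, map_sub, ho, sub_self]
    have h2 := der_eq_zero_of_mem_span D.2 (fun x hx => hsπ x hx)
      (fun x hx => congrFun hD ⟨x, hx⟩) h1
    rw [der_sub D.2, der_cst D.2, sub_zero] at h2
    exact h2
  obtain ⟨g, hg⟩ := E.exists_leftInverse_of_injective hE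
  let Θ : (s → k) →ₗ[k] k := θ.comp g
  have hΘ : ∀ D, θ D = Θ (E D) := fun D => by
    change θ D = θ (g (E D))
    rw [← LinearMap.comp_apply g E, hg]
    rfl
  classical
  choose o ho using fun x : s => hs (Θ (Pi.single x 1))
  refine ⟨∑ x : s, φ (o x) * x, Ideal.sum_mem _ fun x _ => Ideal.mul_mem_left _ _ (hsm x x.2),
    fun D => ?_⟩
  rw [hΘ, der_sum D.2]
  have h1 : E D = ∑ x : s, D.1 x • (Pi.single x 1 : s → k) := by
    funext y
    rw [Finset.sum_apply, Finset.sum_eq_single y]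
    · rw [Pi.smul_apply, Pi.single_eq_same, smul_eq_mul, mul_one]
      rfl
    · intro x _ hxy
      rw [Pi.smul_apply, Pi.single_eq_of_ne hxy.symm, smul_zero]
    · intro h
      exact absurd (Finset.mem_univ y) h
  rw [h1, map_sum]
  refine Finset.sum_congr rfl fun x _ => ?_
  rw [map_smul, der_mul D.2, ho, der_cst D.2, mul_zero, add_zero, smul_eq_mul, mul_comm]

end Func

section Free

variable {l : Nat.Primes} {𝒪 T : Type} [CommRing 𝒪] [IsLocalRing 𝒪] [CommRing T] [IsLocalRing T]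
  [IsNoetherianRing T] [IsAdicComplete (maximalIdeal T) T] {k : Type} [Field k]
  {σ₀ : 𝒪 →+* T} {π : T →+* k}

/-- Representations controlled by `c` functionals are of free type. -/
theorem LocAt.of_functionals {c : ℕ} (hπ : RingHom.ker π = maximalIdeal T)
    (hs : ∀ x : k, ∃ o, π (σ₀ o) = x) {ρ : GQ →* GL (Fin 2) T}
    (h : ∀ (V : Type) [Fintype V] (v : V), ∃ θ : DerSp (frφ σ₀ V) (frπ π V) →ₗ[k] (Fin c → k),
      ∀ D, θ D = 0 → ∀ δ : Gl l, (frMat ρ v (rl l δ)).map D.1 = 0) :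
    LocAt (LocType.free 𝒪 c) l σ₀ π ρ := by
  intro V _ v
  obtain ⟨θ, hθ⟩ := h V v
  have hπA : RingHom.ker (frπ π V) = maximalIdeal (MvPowerSeries (V × Fin 3) T) := by
    ext f
    rw [mem_maximalIdeal_iff, ← hπ]
    exact Iff.rfl
  have hsA : ∀ x : k, ∃ o, frπ π V (frφ σ₀ V o) = x := fun x => by
    obtain ⟨o, ho⟩ := hs x
    refine ⟨o, ?_⟩
    change π (MvPowerSeries.constantCoeff (MvPowerSeries.C (σ₀ o))) = x
    rw [MvPowerSeries.constantCoeff_C, ho]
  choose x hx hxθ using fun a : Fin c => exists_eval (φ := frφ σ₀ V) hπA hsA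
    ((LinearMap.proj a).comp θ)
  refine ⟨x, hx, fun r hr => absurd hr (Set.notMem_empty r), fun ψ hψ1 hψ2 hψ3 δ => ?_⟩
  let D : DerSp (frφ σ₀ V) (frπ π V) := ⟨fun a => (ψ a).snd, OrdP.derOf_mem ψ hψ1 hψ2⟩
  have h1 := hθ D (by
    funext a
    have h2 := hxθ a D
    change θ D a = (ψ (x a)).snd at h2
    rw [h2, hψ3 a]
    rfl) δ
  ext1 a b
  rw [Matrix.map_apply, Matrix.map_apply]
  apply TrivSqZeroExt.ext
  · rw [TrivSqZeroExt.fst_inl, hψ1]
    change π (MvPowerSeries.constantCoeff (frMat ρ v (rl l δ) a b)) = _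
    rw [frMat_constantCoeff]
    rfl
  · rw [TrivSqZeroExt.snd_inl]
    exact congrFun (congrFun h1 a) b

end Free

section Ord

variable {l : Nat.Primes} {𝒪 T : Type} [CommRing 𝒪] [IsLocalRing 𝒪] [CommRing T] [IsLocalRing T]
  [IsNoetherianRing T] [IsAdicComplete (maximalIdeal T) T] {k : Type} [Field k] [Finite k]
  {σ₀ : 𝒪 →+* T} {π : T →+* k}

theorem isDetCyc_of_isCyc {ρ : GQ →* GL (Fin 2) T} {χ : GQ →* 𝒪ˣ} (hχ : IsCyc (l : ℕ) χ)
    (hdet : ∀ g, (ρ g).val.det = σ₀ (χ g)) (n : ℕ) (σ : GQ) (a : ℕ)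
    (ha : ∀ μ : Qb, μ ^ (l : ℕ) ^ n = 1 → σ μ = μ ^ a) :
    (ρ σ).val.det - (a : T) ∈ Ideal.span {(((l : ℕ) ^ n : ℕ) : T)} := by
  have h1 := hχ n σ a ha
  rw [Ideal.mem_span_singleton] at h1 ⊢
  obtain ⟨c, hc⟩ := h1
  refine ⟨σ₀ c, ?_⟩
  have h2 := congrArg σ₀ hc
  rw [map_sub, map_mul, map_pow, map_natCast, map_natCast] at h2
  rw [hdet, h2, Nat.cast_pow]

/-- Ordinary representations are of ordinary type. -/
theorem LocAt.ord (hl2 : (l : ℕ) ≠ 2) (hπ : RingHom.ker π = maximalIdeal T)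
    (hs : ∀ x : k, ∃ o, π (σ₀ o) = x) (hlT : ((l : ℕ) : T) ∈ maximalIdeal T)
    {ρ : GQ →* GL (Fin 2) T}
    (hcont : ∀ n, ∃ U : Subgroup GQ, IsOpen (U : Set GQ) ∧ ∀ u ∈ U, ∀ i j,
      (ρ u).val i j - (1 : Matrix (Fin 2) (Fin 2) T) i j ∈ maximalIdeal T ^ n)
    {χ : GQ →* 𝒪ˣ} (hχ : IsCyc (l : ℕ) χ) (hdet : ∀ g, (ρ g).val.det = σ₀ (χ g))
    (R : GaloisRepAdic T) (b : Basis (Fin 2) T R.V)
    (hR : ∀ g, LinearMap.toMatrix b b (R.ρ g) = (ρ g).val) (hord : R.IsOrdinaryAt (l : ℕ)) :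
    LocAt (LocType.ord 𝒪) l σ₀ π ρ := by
  obtain ⟨v₀, hv₀, h1, h2⟩ := OrdP.exists_line R hord b
  have H : OrdP.OrdRep (l : ℕ) (maximalIdeal T) (ρ.comp (rl l)) v₀ :=
    OrdP.OrdRep.of_global hcont (isDetCyc_of_isCyc hχ hdet)
      (fun δ => by rw [← hR]; exact h1 δ) (fun δ hδ => by rw [← hR]; exact h2 δ hδ)
  intro V _ v
  obtain ⟨x, hx, hx14, -, hψ⟩ := OrdP.framed_ord_params hl2 hπ hs hlT H hv₀ v
  have key : evalHom (maximalIdeal (MvPowerSeries (V × Fin 3) T))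
      ((MvPowerSeries.C : T →+* MvPowerSeries (V × Fin 3) T).comp σ₀) x hx
      (MvPowerSeries.X (1 : Fin 5) * MvPowerSeries.X (4 : Fin 5)) = 0 := by
    rw [map_mul, evalHom_X, evalHom_X]
    exact hx14
  refine ⟨x, hx, fun r hr => ?_, hψ⟩
  have hr' : r = (MvPowerSeries.X (1 : Fin 5) * MvPowerSeries.X (4 : Fin 5) :
    MvPowerSeries (Fin 5) 𝒪) := hr
  rw [hr']
  exact key

end Ord

section Flat

variable {𝒪 : Type} [CommRing 𝒪] [IsDomain 𝒪] [IsDiscreteValuationRing 𝒪]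
  [IsAdicComplete (maximalIdeal 𝒪) 𝒪] [Finite (ResidueField 𝒪)]

/-- Flat representations are of free type. -/
theorem LocAt.flat {p : ℕ} [hp : Fact p.Prime] (hp2 : p ≠ 2) (hp𝒪 : (p : 𝒪) ∈ maximalIdeal 𝒪)
    {T : Type} [CommRing T] [IsLocalRing T] [IsNoetherianRing T]
    [IsAdicComplete (maximalIdeal T) T] [Algebra 𝒪 T] {π : T →+* ResidueField 𝒪}
    (hπ : RingHom.ker π = maximalIdeal T) (hπσ : ∀ o, π (algebraMap 𝒪 T o) = residue 𝒪 o)
    {ρ : GQ →* GL (Fin 2) T} (R : GaloisRepAdic T) (b : Basis (Fin 2) T R.V)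
    (hR : ∀ g, LinearMap.toMatrix b b (R.ρ g) = (ρ g).val) (hdet : R.DetIsCyclotomic p)
    (hflat : R.IsFlatAt p) : LocAt (LocType.free 𝒪 4) (pPrime p) (algebraMap 𝒪 T) π ρ := by
  have hρ : glOf R b = ρ := by
    ext1 g
    apply Units.ext
    rw [glOf_coe, UnivDef.matOf_apply, hR]
  refine LocAt.of_functionals hπ (fun x => ?_) fun V _ v => ?_
  · obtain ⟨o, rfl⟩ := residue_surjective x
    exact ⟨o, hπσ o⟩
  · rw [← hρ]
    exact flat_loc hp2 hp𝒪 R hflat hdet b hπ hπσ v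

end Flat

end Fermat.Agent.RT
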