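import Fermat.Agent.RT.LvlP0
import Fermat.Agent.RT.LvlW2
import Fermat.Agent.RT.PPlace2
import Fermat.Agent.RT.PPlaceP
import Fermat.Agent.RT.OrdTr
import Fermat.Agent.Flat.OrdRep

set_option autoImplicit false
set_option maxHeartbeats 400000
set_option linter.style.haveILetI false
set_option linter.unusedSectionVars false
set_option linter.unusedVariables false

/-!
# The local type at `p` of the representation of a Taylor–Wiles level
-/

open IsLocalRing CongruenceSubgroup Matrix.SpecialLinearGroup ModularFormClass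
open scoped MatrixGroups
open Fermat.Agent.ESCore Fermat.Agent.ESCore.UnivG Fermat.Agent.UnivDef
open Fermat.Agent.ESCore.Univ (Idx)
open Fermat.Agent.ESCore.Gal (dU dLift dU_dLift)
open ExtCitation (pPrime)

noncomputable section

namespace Fermat.Agent.RT

open Ihara

theorem hom_aeval_int {σ A B : Type*} [CommRing A] [CommRing B] (k : A →+* B) (g : σ → A)
    (F : MvPolynomial σ ℤ) :
    k (MvPolynomial.aeval g F) = MvPolynomial.aeval (fun i => k (g i)) F := by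
  rw [MvPolynomial.aeval_def, MvPolynomial.aeval_def, MvPolynomial.eval₂_comp_left]
  congr 1
  exact RingHom.ext_int _ _

section Theta

variable {N : ℕ} [NeZero N] {G : Subgroup SL(2, ℤ)} (h1 : Gamma1 N ≤ G) (h0 : G ≤ Gamma0 N)
  {S : Finset ℕ} {𝒪 : Type} [CommRing 𝒪] {𝔻 : Type} [CommGroup 𝔻] [Finite 𝔻] {d : ℕ}
  {ψ : (ZMod N)ˣ →* 𝔻} {π : TG h1 h0 S →+* Matrix (Fin d) (Fin d) (MonoidAlgebra 𝒪 𝔻)}
  (hπ : ∀ δ, π (genT h1 h0 S (Sum.inr δ)) = scal 𝒪 d (ψ (dU N δ)))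
  {T : Type} [CommRing T] [Algebra 𝒪 T] {ι : T →ₐ[𝒪] Matrix (Fin d) (Fin d) (MonoidAlgebra 𝒪 𝔻)}
  {x : Idx N S → T}
  (hx : ∀ i, ι (x i) = π (genT h1 h0 S (Sum.inl i)) *
        scal 𝒪 d ((half (ψ (dU N (sigmaD N i.1))))⁻¹))
  {L : Type} [Field L] [CharZero L] [Algebra 𝒪 L]
  {ψh : MonoidAlgebra 𝒪 𝔻 →ₐ[𝒪] L} {lam : T →ₐ[𝒪] L}
  [IsLocalRing T] {a : ℕ → 𝒪} (hxm : ∀ i, x i - algebraMap 𝒪 T (a i.1) ∈ maximalIdeal T)
  (hNS : ∀ q : ℕ, q.Prime → q ∣ N → q ∈ S)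

/-- change of index -/
def toIdx (hNS : ∀ q : ℕ, q.Prime → q ∣ N → q ∈ S) {K : ℕ}
    (i : {l : ℕ // l.Prime ∧ ¬ l ∣ K ∧ l ∉ (↑S : Set ℕ)}) : Idx N S :=
  ⟨i.1, i.2.1, fun h => i.2.2.2 (hNS i.1 i.2.1 h), i.2.2.2⟩

include hπ hx hxm in
/-- **Relations between Hecke operators hold at the points.** -/
theorem EigSys.aeval_eq_zero (h : EigSys ι ψh lam) {N₁ D₁ : ℕ} (hN : N = N₁ * D₁)
    (hcop : N₁.Coprime D₁) (hsq : Squarefree D₁) (hd₁ : D₁ ∣ N) (hodd : Odd (Nat.card 𝔻))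
    (hψ1 : ∀ u : (ZMod N)ˣ, ZMod.unitsMap hd₁ u = 1 → ψ u = 1)
    (i₀ : Idx N S) (hi₀ : N ∣ i₀.1 - 1) (ha₀ : IsUnit (a i₀.1 - (i₀.1 + 1)))
    [NeZero (N * D₁)]
    {F : MvPolynomial {l : ℕ // l.Prime ∧ ¬ l ∣ N * D₁ ∧ l ∉ (↑S : Set ℕ)} ℤ}
    (hF : MvPolynomial.aeval (heckeGens (N * D₁) (↑S : Set ℕ)) F = 0) :
    lam (MvPolynomial.aeval (fun i => x (toIdx hNS i)) F) = 0 := by
  obtain ⟨K, f, E, hK0, hf, hz, hKle, hK1, hK2⟩ := EigSys.exists_newform h1 h0 hπ hx hxm h hN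
    hcop hsq hd₁ hodd hψ1 i₀ hi₀ ha₀
  haveI : NeZero K := ⟨hK0⟩
  have hD0 : D₁ ≠ 0 := fun h => NeZero.ne (N * D₁) (by rw [h, mul_zero])
  have hKN : K ∣ N * D₁ := by
    rw [← Nat.factorization_le_iff_dvd hK0 (NeZero.ne _)]
    intro q
    by_cases hq : q.Prime
    · rw [Nat.factorization_mul (NeZero.ne N) hD0, Finsupp.add_apply]
      by_cases hqD : q ∣ D₁
      · have e1 : 1 ≤ N.factorization q :=
          (hq.dvd_iff_one_le_factorization (NeZero.ne N)).mp (hqD.trans hd₁)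
        have e2 : 1 ≤ D₁.factorization q :=
          (hq.dvd_iff_one_le_factorization hD0).mp hqD
        rcases hK1 q hq hqD with h3 | h3
        · omega
        · have := hK2 q hq hqD h3
          omega
      · exact (hKle q hq hqD).trans (Nat.le_add_right _ _)
    · rw [Nat.factorization_eq_zero_of_not_prime _ hq]
      exact Nat.zero_le _
  have hS' : ∀ q : ℕ, q.Prime → q ∣ N * D₁ → q ∈ (↑S : Set ℕ) := by
    intro q hq hqN
    rcases hq.dvd_mul.mp hqN with h3 | h3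
    · exact hNS q hq h3
    · exact hNS q hq (h3.trans hd₁)
  obtain ⟨θ, hθ⟩ := exists_lowHom hKN hS' hf.1
  choose z hz1 hz2 using hz
  have e1 := congrArg θ hF
  rw [map_zero] at e1
  have e2 : θ (MvPolynomial.aeval (heckeGens (N * D₁) (↑S : Set ℕ)) F) =
      MvPolynomial.aeval (fun i => θ (heckeGens (N * D₁) (↑S : Set ℕ) i)) F :=
    hom_aeval_int θ _ F
  have e3 : E (MvPolynomial.aeval (fun i => z (toIdx hNS i)) F) =
      MvPolynomial.aeval (fun i => E (z (toIdx hNS i))) F := hom_aeval_int E _ F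
  have e4 : (fun i => θ (heckeGens (N * D₁) (↑S : Set ℕ) i)) =
      fun i => E (z (toIdx hNS i)) := by
    funext i
    rw [hz2, heckeGens, hθ]
    rfl
  have e5 : MvPolynomial.aeval (fun i => z (toIdx hNS i)) F = 0 := by
    apply E.injective
    rw [map_zero, e3, ← e4, ← e2, e1]
  have e6 : ((MvPolynomial.aeval (fun i => z (toIdx hNS i)) F : algebraicClosure ℚ L) : L) =
      MvPolynomial.aeval (fun i => ((z (toIdx hNS i) : algebraicClosure ℚ L) : L)) F :=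
    hom_aeval_int (algebraMap (algebraicClosure ℚ L) L) _ F
  have e7 : lam (MvPolynomial.aeval (fun i => x (toIdx hNS i)) F) =
      MvPolynomial.aeval (fun i => lam (x (toIdx hNS i))) F :=
    hom_aeval_int (lam : T →+* L) _ F
  rw [e7]
  have e8 : (fun i => lam (x (toIdx hNS i))) = fun (i : {l : ℕ // l.Prime ∧ ¬ l ∣ N * D₁ ∧
      l ∉ (↑S : Set ℕ)}) => ((z (toIdx hNS i) : algebraicClosure ℚ L) : L) := by
    funext i
    exact (hz1 _).symm
  rw [e8, ← e6, e5]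
  rfl

end Theta

section Mat

variable {𝒪 : Type} [CommRing 𝒪] [IsLocalRing 𝒪] {T : Type} [CommRing T]
  [IsLocalRing T] [Algebra 𝒪 T] {χ : GQ →* 𝒪ˣ} {p : ℕ} (hpT : (p : T) ∈ maximalIdeal T)
  {B : Set ℕ} {t : GQ → T} (ht : CycPs χ p B t) (b : PsB 𝒪 χ) (hg : b.Good t)

include hpT in
lemma isContMat_rhoM : IsContMat (b.rhoM ht hg) := by
  intro n
  obtain ⟨L, hL, hL2⟩ := ht.cont n
  refine ⟨L, hL, fun σ hσ i j => ?_⟩
  exact b.entries_kerI (maximalIdeal T ^ n) ht hg (fun g =>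
    (Ideal.span_singleton_le_iff_mem _).mpr (Ideal.pow_mem_pow hpT n) (hL2 σ hσ g)) i j

lemma toMatrix_rhoM (g : GQ) : LinearMap.toMatrix (stdBasis _ (isContMat_rhoM hpT ht b hg))
    (stdBasis _ (isContMat_rhoM hpT ht b hg)) ((ofMat _ (isContMat_rhoM hpT ht b hg)).ρ g) =
      (b.rho ht hg g).val := toMatrix_ofMat _ _ g

lemma detIsCyclotomic_rhoM [IsNoetherianRing T] [IsAdicComplete (maximalIdeal T) T]
    {l : Nat.Primes} (hlT : ((l : ℕ) : T) ∈ maximalIdeal T)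
    (hχ : IsCyc (l : ℕ) χ) : (ofMat _ (isContMat_rhoM hpT ht b hg)).DetIsCyclotomic (l : ℕ) := by
  refine ⟨hlT, fun n σ a ha => ?_⟩
  rw [← LinearMap.det_toMatrix (stdBasis _ (isContMat_rhoM hpT ht b hg)), toMatrix_rhoM hpT]
  exact isDetCyc_of_isCyc (σ₀ := algebraMap 𝒪 T) hχ (fun g => b.det_rho ht hg g) n σ a ha

end Mat

variable {𝒪 : Type} [CommRing 𝒪] [IsDomain 𝒪] [IsDiscreteValuationRing 𝒪]
  [IsAdicComplete (maximalIdeal 𝒪) 𝒪] [Finite (ResidueField 𝒪)] [CharZero 𝒪]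

section Level

variable {p M q₀ : ℕ} [Fact p.Prime] {χ : GQ →* 𝒪ˣ} [NeZero (M * q₀)] {S₀ : Finset ℕ} {a : ℕ → 𝒪}
  {d : ℕ} {K : Type} [Field K] [Algebra (ResidueField 𝒪) K] {ρK : GQ →* GL (Fin 2) K}
  (hB : HBase p M q₀ S₀ a ρK χ)
  {Z : HZero p χ (M * q₀) S₀ a d} {N : ℕ} [NeZero N] {S : Finset ℕ} {r : ℕ}
  {q : Fin r → ℕ} {e : Fin r → ℕ} {h₀ : q₀ ∣ N} {h₁ : ∀ i, q i ∣ N}
  {ψ₀ : (ZMod q₀)ˣ →* Multiplicative (ZMod p)}
  {ψ₁ : ∀ i, (ZMod (q i))ˣ →* Multiplicative (ZMod (p ^ e i))}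
  (H : HLevel Z N S (psiN h₀ h₁ ψ₀ ψ₁)) (hN : LvlN N M q₀ q)
  (hpS : p ∈ S) (hNS : ∀ l : ℕ, l.Prime → l ∣ N → l ∈ S)
  (b : PsB 𝒪 χ) (hg : b.Good H.t)
  {πT : H.T →ₐ[𝒪] ResidueField 𝒪}
  (hπ : RingHom.ker (πT : H.T →+* ResidueField 𝒪) = maximalIdeal H.T)

include hB hN in
/-- **The Hecke algebra of a Taylor–Wiles level is a quotient of a classical Hecke algebra.** -/
theorem HLevel.exists_hecke [NeZero (N * (q₀ * ∏ i, q i))] :
    ∃ π : CuspForm.heckeAlgebra (N * (q₀ * ∏ i, q i)) 2 (↑S : Set ℕ) →+* H.T,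
      ∀ (l : ℕ) (hl : l.Prime) (hlN : ¬ l ∣ N * (q₀ * ∏ i, q i)) (hlS : l ∉ (↑S : Set ℕ)),
        π (CuspForm.heckeAlgebra.T hl hlN hlS) = H.x (toIdx hNS ⟨l, hl, hlN, hlS⟩) := by
  refine exists_hecke_lift ?_ (fun i => H.x (toIdx hNS i)) fun F hF => ?_
  · intro l hl hlN
    rcases hl.dvd_mul.mp hlN with h3 | h3
    · exact hNS l hl h3
    · exact hNS l hl (h3.trans hN.dvd_D₁)
  · refine H.eq_of_points fun ψh lam h => ?_
    rw [map_zero]
    exact EigSys.aeval_eq_zero le_GK GK_le H.hπ H.hx H.hxa hNS h hN.hN hN.copMD hN.sqf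
      hN.dvd_D₁ (odd_card_DG hB.hp2) (fun u hu => psi_of_D₁ hN u hu) H.i₀ H.hi₀ H.hi₀a hF

namespace HLevel

include H in
lemma isTorsionFree : Module.IsTorsionFree 𝒪 H.T := by
  refine Module.IsTorsionFree.of_smul_eq_zero fun o x h => ?_
  by_contra hcon
  rw [not_or] at hcon
  apply hcon.2
  apply H.hι
  rw [map_zero]
  refine Matrix.ext fun i j => ?_
  have h1 := congrArg (fun X : Matrix (Fin d) (Fin d) (MonoidAlgebra 𝒪 (DG p e)) => X i j)
    (congrArg H.ι h)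
  rw [map_smul, map_zero] at h1
  change o • (H.ι x i j) = 0 at h1
  change H.ι x i j = 0
  exact (smul_eq_zero.mp h1).resolve_left hcon.1

include H in
lemma free : Module.Free 𝒪 H.T := by
  haveI := H.isTorsionFree
  infer_instance

include hπ in
lemma finite_residue : Finite (ResidueField H.T) := by
  have h1 : ∀ x : H.T, x ∈ maximalIdeal H.T → (πT : H.T →+* ResidueField 𝒪) x = 0 := by
    intro x hx
    rw [← hπ] at hx
    exact hx
  let f : ResidueField H.T →+* ResidueField 𝒪 :=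
    Ideal.Quotient.lift (maximalIdeal H.T) (πT : H.T →+* ResidueField 𝒪) h1
  exact Finite.of_injective f f.injective

/-- The representation of a level. -/
def rep (H : HLevel Z N S (psiN h₀ h₁ ψ₀ ψ₁)) (b : PsB 𝒪 χ) (hg : b.Good H.t)
    (hpT : (p : H.T) ∈ maximalIdeal H.T) : GaloisRepAdic H.T :=
  ofMat (b.rhoM H.ht hg) (isContMat_rhoM hpT H.ht b hg)

/-- Its basis. -/
def repBasis (H : HLevel Z N S (psiN h₀ h₁ ψ₀ ψ₁)) (b : PsB 𝒪 χ) (hg : b.Good H.t)
    (hpT : (p : H.T) ∈ maximalIdeal H.T) : Module.Basis (Fin 2) H.T (H.rep b hg hpT).V :=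
  stdBasis (b.rhoM H.ht hg) (isContMat_rhoM hpT H.ht b hg)

lemma toMatrix_rep (hpT : (p : H.T) ∈ maximalIdeal H.T) (g : GQ) :
    LinearMap.toMatrix (H.repBasis b hg hpT) (H.repBasis b hg hpT) ((H.rep b hg hpT).ρ g) =
      (b.rho H.ht hg g).val := toMatrix_ofMat _ _ g

lemma absIrr_rep (hpT : (p : H.T) ∈ maximalIdeal H.T) :
    (H.rep b hg hpT).residual.IsAbsolutelyIrreducible := by
  haveI := H.isNoeth
  haveI := H.complete
  refine PsB.Good.absIrr b H.ht hg (H.rep b hg hpT) (H.repBasis b hg hpT) fun σ => ?_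
  rw [UnivDef.matOf_apply, toMatrix_rep, b.trace_rho]

include hB hpS hNS in
lemma charpoly_rep (hpT : (p : H.T) ∈ maximalIdeal H.T) {l : ℕ} (hl : l.Prime) (hlS : l ∉ S)
    (i : Idx N S) (hi : i.1 = l) {A : ValuationSubring Qb} (hA : A.LiesOverPrime l) {σ : GQ}
    (hσ : A.IsFrobeniusAt σ l) : LinearMap.charpoly ((H.rep b hg hpT).ρ σ) =
      Polynomial.X ^ 2 - Polynomial.C (H.x i) * Polynomial.X + Polynomial.C (l : H.T) := by
  subst hi
  have hlp : i.1 ≠ p := fun h => hlS (h ▸ hpS)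
  rw [← LinearMap.charpoly_toMatrix _ (H.repBasis b hg hpT), toMatrix_rep,
    Matrix.charpoly_fin_two, b.trace_rho, b.det_rho, H.hfr i A hA σ hσ,
    hB.hχ.frob hB.hp hB.hp𝒪 hl hlp hA hσ, map_natCast]

include hB in
lemma det_rep (hpT : (p : H.T) ∈ maximalIdeal H.T) : (H.rep b hg hpT).DetIsCyclotomic p := by
  haveI := H.isNoeth
  haveI := H.complete
  exact detIsCyclotomic_rhoM (l := pPrime p) hpT H.ht b hg hpT hB.hχ

include hN hNS in
lemma prime_mem {l : ℕ} (hl : l.Prime) (h : l ∣ N * (q₀ * ∏ i, q i)) : l ∈ S := by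
  rcases hl.dvd_mul.mp h with h3 | h3
  · exact hNS l hl h3
  · exact hNS l hl (h3.trans hN.dvd_D₁)

include hN in
lemma ne_zero_K : NeZero (N * (q₀ * ∏ i, q i)) := by
  refine ⟨mul_ne_zero hN.ne_zero (mul_ne_zero hN.hq₀.ne_zero ?_)⟩
  exact Finset.prod_ne_zero_iff.mpr fun i _ => (hN.hq i).ne_zero

include hB hN hpS hNS hπ in
/-- **Flatness.** -/
theorem isFlatAt_rep (hpT : (p : H.T) ∈ maximalIdeal H.T) (hpN : ¬ p ∣ N) :
    (H.rep b hg hpT).IsFlatAt p := by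
  haveI := ne_zero_K hN
  haveI := H.isNoeth
  haveI := H.complete
  haveI := H.isTorsionFree
  obtain ⟨π, hπ'⟩ := H.exists_hecke hB hN hNS
  refine Flat.isFlatAt_of_hecke hB.hp hB.hp2 (fun h => ?_) hpS
    (fun l hl hlN => prime_mem hN hNS hl hlN) (H.finite_residue hπ) hpT (fun x hx => ?_) π
    (H.rep b hg hpT) (fun l hl hlN hlS A hA σ hσ => ?_) (H.absIrr_rep b hg hpT)
  · rcases hB.hp.dvd_mul.mp h with h3 | h3
    · exact hpN h3
    · exact hpN (h3.trans hN.dvd_D₁)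
  · have h1 : ((p : ℕ) : 𝒪) • x = 0 := by
      rw [Algebra.smul_def, map_natCast, hx]
    exact (smul_eq_zero.mp h1).resolve_left (Nat.cast_ne_zero.mpr hB.hp.ne_zero)
  · rw [hπ']
    exact H.charpoly_rep hB hpS hNS b hg hpT hl hlS _ rfl hA hσ

include hB hN hpS hNS hπ in
/-- **The local type at `p`: flat case.** -/
theorem locAt_flat [IsNoetherianRing H.T] [IsAdicComplete (maximalIdeal H.T) H.T]
    (hpN : ¬ p ∣ N) : LocAt (LocType.free 𝒪 4) (pPrime p) (algebraMap 𝒪 H.T)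
      (πT : H.T →+* ResidueField 𝒪) (b.rho H.ht hg) := by
  exact LocAt.flat hB.hp2 hB.hp𝒪 hπ (fun o => πT.commutes o) (H.rep b hg (HLevel.pT hB H))
    (H.repBasis b hg (HLevel.pT hB H)) (H.toMatrix_rep b hg (HLevel.pT hB H))
    (H.det_rep hB b hg (HLevel.pT hB H))
    (H.isFlatAt_rep hB hN hpS hNS b hg hπ (HLevel.pT hB H) hpN)

include hB hN hpS hNS hπ in
/-- **Ordinarity.** -/
theorem isOrdinaryAt_rep (hpT : (p : H.T) ∈ maximalIdeal H.T) (hpN : p ∣ N)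
    (hpN2 : ¬ p ^ 2 ∣ N) (hpD : ¬ p ∣ q₀ * ∏ i, q i)
    (hres : (GaloisRepAdic.ofResidualGaloisRep (H.rep b hg hpT).residual).IsOrdinaryAt p) :
    (H.rep b hg hpT).IsOrdinaryAt p := by
  haveI := ne_zero_K hN
  haveI := H.isNoeth
  haveI := H.complete
  haveI := H.free
  obtain ⟨π, hπ'⟩ := H.exists_hecke hB hN hNS
  refine Flat.isOrdinaryAt_of_hecke hB.hp hB.hp2 (hpN.mul_right _) (fun h => ?_)
    (fun l hl hlN => prime_mem hN hNS hl hlN) hB.hp𝒪 π
    (H.rep b hg hpT) (fun l hl hlN hlS A hA σ hσ => ?_) (H.absIrr_rep b hg hpT) hres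
  · apply hpN2
    exact Nat.Coprime.dvd_of_dvd_mul_right
      (Nat.Coprime.pow_left 2 ((Nat.Prime.coprime_iff_not_dvd hB.hp).mpr hpD)) h
  · rw [hπ']
    exact H.charpoly_rep hB hpS hNS b hg hpT hl hlS _ rfl hA hσ

end HLevel

end Level

section OrdTr

/-- Ordinary representations satisfy the trace relations. -/
theorem OrdTr.of_isOrdinary {p : ℕ} {A : Type} [CommRing A] [IsLocalRing A] {R : GaloisRepAdic A}
    (h : R.IsOrdinaryAt p) (β : Module.Basis (Fin 2) A R.V) {r : GQ → Matrix (Fin 2) (Fin 2) A}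
    (hr : ∀ g, LinearMap.toMatrix β β (R.ρ g) = r g) : OrdTr p r := by
  intro P hP σ hσ τ hτ g
  have h1 := trace_of_isOrdinary h β hP hσ hτ g
  rw [UnivDef.matOf_apply, UnivDef.matOf_apply, UnivDef.matOf_apply, UnivDef.matOf_apply, UnivDef.matOf_apply, hr, hr, hr, hr, hr] at h1
  exact h1

lemma cycT_sub_mem {𝒪 : Type} [CommRing 𝒪] {T : Type} [CommRing T] [IsLocalRing T] [Algebra 𝒪 T]
    {p : ℕ} [hp : Fact p.Prime] {χ : GQ →* 𝒪ˣ} (hχ : IsCyc p χ) (hpT : (p : T) ∈ maximalIdeal T)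
    (σ : GQ) : (cycT T χ σ : T) - ((cyc p σ : (ZMod p)ˣ) : ZMod p).val ∈ maximalIdeal T := by
  have h1 := hχ 1 σ ((cyc p σ : (ZMod p)ˣ) : ZMod p).val fun ζ hζ => by
    rw [pow_one] at hζ
    exact cyc_spec σ hζ
  rw [pow_one, Ideal.mem_span_singleton] at h1
  obtain ⟨c, hc⟩ := h1
  rw [cycT_coe, ← map_natCast (algebraMap 𝒪 T), ← map_sub, hc, map_mul, map_natCast]
  exact Ideal.mul_mem_right _ _ hpT

/-- Ordinarity of the residual representation. -/
theorem isOrdinary_residual {T : Type} [CommRing T] [IsLocalRing T] {p : ℕ} [hp : Fact p.Prime]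
    (hp2 : p ≠ 2) (hpT : (p : T) ∈ maximalIdeal T) (R : GaloisRepAdic T)
    (β : Module.Basis (Fin 2) T R.V) (habs : R.residual.IsAbsolutelyIrreducible) {t : GQ → T}
    {ε : GQ →* Tˣ} (htr : ∀ σ, (UnivDef.matOf R β σ).trace = t σ) (hdet : ∀ σ, (UnivDef.matOf R β σ).det = ε σ)
    (hε : ∀ σ, (ε σ : T) - ((cyc p σ : (ZMod p)ˣ) : ZMod p).val ∈ maximalIdeal T)
    (h : ∀ P : ValuationSubring Qb, P.LiesOverPrime p → ∀ σ ∈ P.inertiaSubgroupIn ℚ,
      ∀ τ ∈ P.inertiaSubgroupIn ℚ, ∀ g,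
        t (σ * τ * g) - t (σ * g) - ε σ * (t (τ * g) - t g) ∈ maximalIdeal T) :
    (GaloisRepAdic.ofResidualGaloisRep R.residual).IsOrdinaryAt p := by
  have hpk : (p : ResidueField T) ∈ maximalIdeal (ResidueField T) := by
    rw [← map_natCast (residue T), (residue_eq_zero_iff (p : T)).mpr hpT]
    exact zero_mem _
  have h8 : ∀ σ, (UnivDef.matOf (GaloisRepAdic.ofResidualGaloisRep R.residual)
      (basisResidual R β) σ) = (UnivDef.matOf R β σ).map (residue T) :=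
    fun σ => toMatrix_residual R β σ
  refine isOrdinary_of_trace_span (p := p) (GaloisRepAdic.ofResidualGaloisRep R.residual) hp2 hpk
    (basisResidual R β) (span_matrix_eq_top R.residual habs (basisResidual R β))
    (t := fun σ => residue T (t σ))
    (ε := (Units.map ((residue T) : T →* ResidueField T)).comp ε)
    (fun σ => ?_) (fun σ => ?_) (fun σ => ?_) fun P hP σ hσ τ hτ g => ?_
  · rw [h8, Matrix.trace_fin_two, ← htr, Matrix.trace_fin_two, map_add]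
    rfl
  · rw [h8]
    change _ = residue T (ε σ)
    rw [← hdet, Matrix.det_fin_two, Matrix.det_fin_two, map_sub, map_mul, map_mul]
    rfl
  · change residue T (ε σ) - _ ∈ _
    have h9 := (residue_eq_zero_iff _).mpr (hε σ)
    rw [map_sub, map_natCast] at h9
    rw [h9]
    exact zero_mem _
  · have h9 := (residue_eq_zero_iff _).mpr (h P hP σ hσ τ hτ g)
    rw [map_sub, map_sub, map_mul, map_sub] at h9
    exact h9

end OrdTr

section Level2

variable {p M q₀ : ℕ} [Fact p.Prime] {χ : GQ →* 𝒪ˣ} [NeZero (M * q₀)] {S₀ : Finset ℕ} {a : ℕ → 𝒪}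
  {d : ℕ} {K : Type} [Field K] [Algebra (ResidueField 𝒪) K] {ρK : GQ →* GL (Fin 2) K}
  (hB : HBase p M q₀ S₀ a ρK χ)
  {Z : HZero p χ (M * q₀) S₀ a d} {N : ℕ} [NeZero N] {S : Finset ℕ} {r : ℕ}
  {q : Fin r → ℕ} {e : Fin r → ℕ} {h₀ : q₀ ∣ N} {h₁ : ∀ i, q i ∣ N}
  {ψ₀ : (ZMod q₀)ˣ →* Multiplicative (ZMod p)}
  {ψ₁ : ∀ i, (ZMod (q i))ˣ →* Multiplicative (ZMod (p ^ e i))}
  (H : HLevel Z N S (psiN h₀ h₁ ψ₀ ψ₁)) (hN : LvlN N M q₀ q)
  (hM : Squarefree M) (hpS : p ∈ S) (hNS : ∀ l : ℕ, l.Prime → l ∣ N → l ∈ S)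
  (b : PsB 𝒪 χ) (hg : b.Good H.t)
  {πT : H.T →ₐ[𝒪] ResidueField 𝒪}
  (hπ : RingHom.ker (πT : H.T →+* ResidueField 𝒪) = maximalIdeal H.T)

namespace HLevel

include hB hNS hπ in
/-- **The residual traces.** -/
theorem trace_rhoK (σ : GQ) :
    (ρK σ).val.trace = algebraMap (ResidueField 𝒪) K (πT (H.t σ)) ∧
      (ρK σ).val.det = algebraMap (ResidueField 𝒪) K (residue 𝒪 (χ σ)) := by
  letI : Algebra 𝒪 K := ((algebraMap (ResidueField 𝒪) K).comp (residue 𝒪)).toAlgebra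
  have halg : ∀ o : 𝒪, algebraMap 𝒪 K o = algebraMap (ResidueField 𝒪) K (residue 𝒪 o) :=
    fun _ => rfl
  let f : H.T →ₐ[𝒪] K := { (algebraMap (ResidueField 𝒪) K).comp (πT : H.T →+* ResidueField 𝒪) with
    commutes' := fun o => by
      change algebraMap (ResidueField 𝒪) K (πT (algebraMap 𝒪 H.T o)) = _
      rw [AlgHom.commutes]
      rfl }
  have hf : ∀ y, f y = algebraMap (ResidueField 𝒪) K (πT y) := fun _ => rfl
  have ht := H.ht.map f
  have hbot : maximalIdeal K = ⊥ := IsLocalRing.maximalIdeal_eq_bot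
  haveI : IsAdicComplete (maximalIdeal K) K := by
    rw [hbot]
    infer_instance
  have hpK : (p : K) = 0 := by
    have h1 : (p : ResidueField 𝒪) = 0 := by
      rw [← map_natCast (residue 𝒪)]
      exact (residue_eq_zero_iff _).mpr hB.hp𝒪
    rw [← map_natCast (algebraMap (ResidueField 𝒪) K), h1, map_zero]
  have h2K : (2 : K) ≠ 0 := by
    intro h
    obtain ⟨k, hk⟩ := hB.hp.odd_of_ne_two hB.hp2
    have h5 := congrArg (fun z : ℕ => (z : K)) hk
    push_cast at h5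
    rw [hpK, h, zero_mul, zero_add] at h5
    exact zero_ne_one h5
  have key := trace_det_of_frob (r := (Units.coeHom _).comp ρK) (fun n => by
      obtain ⟨L, hL, h⟩ := hB.fin
      refine ⟨L, hL, fun σ hσ i j => ?_⟩
      have h1 : ((Units.coeHom _).comp ρK) σ = (1 : Matrix (Fin 2) (Fin 2) K) := by
        change (ρK σ).val = 1
        rw [h σ hσ]
        rfl
      rw [h1, sub_self]
      exact zero_mem _) ht.ps (fun n => by
      obtain ⟨L, hL, h⟩ := ht.cont 1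
      refine ⟨L, hL, fun σ hσ g => ?_⟩
      have h1 := h σ hσ g
      rw [pow_one, hpK, Ideal.span_singleton_eq_bot.mpr rfl, Ideal.mem_bot] at h1
      rw [h1]
      exact zero_mem _) (S ∪ S₀ ∪ {p}) (fun l hl hlS A hA φ hφ => by
      rw [Finset.mem_union, Finset.mem_union, not_or, not_or, Finset.mem_singleton] at hlS
      obtain ⟨h3, h4⟩ := hB.frob l hl hlS.1.2 A hA φ hφ
      refine ⟨?_, ?_⟩
      · change (ρK φ).val.trace = f (H.t φ)
        have h5 := H.hfr ⟨l, hl, fun h => hlS.1.1 (hNS l hl h), hlS.1.1⟩ A hA φ hφ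
        rw [hf, h5, pi_unique hπ (H.hxa _)]
        exact h4
      · change (ρK φ).val.det = (cycT K χ φ : K)
        rw [cycT_coe, hB.hχ.frob hB.hp hB.hp𝒪 hl hlS.2 hA hφ, map_natCast]
        exact h3) (fun x hx => (mul_eq_zero.mp hx).resolve_left h2K) σ
  refine ⟨key.1, ?_⟩
  rw [← halg, ← cycT_coe]
  exact key.2

include hB hNS hπ in
/-- Ordinarity of the residual representation. -/
theorem isOrdinary_residual_rep (hpT : (p : H.T) ∈ maximalIdeal H.T)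
    (hord : OrdTr p fun g => (ρK g).val) :
    (GaloisRepAdic.ofResidualGaloisRep (H.rep b hg hpT).residual).IsOrdinaryAt p := by
  refine isOrdinary_residual hB.hp2 hpT (H.rep b hg hpT) (H.repBasis b hg hpT)
    (H.absIrr_rep b hg hpT) (t := H.t) (ε := cycT H.T χ) (fun σ => ?_) (fun σ => ?_)
    (cycT_sub_mem hB.hχ hpT) fun P hP σ hσ τ hτ g => ?_
  · rw [UnivDef.matOf_apply, toMatrix_rep, b.trace_rho]
  · rw [UnivDef.matOf_apply, toMatrix_rep, b.det_rho, cycT_coe]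
  · have h1 := hord P hP σ hσ τ hτ g
    have h2 := fun s => (H.trace_rhoK hB hNS hπ s).1
    have h3 := fun s => (H.trace_rhoK hB hNS hπ s).2
    simp only [h2, h3] at h1
    rw [← hπ, RingHom.mem_ker]
    apply (algebraMap (ResidueField 𝒪) K).injective
    rw [map_zero, ← h1]
    change algebraMap (ResidueField 𝒪) K (πT _) = _
    rw [cycT_coe]
    simp only [map_sub, map_mul, AlgHom.commutes]
    rfl

include hB hN hNS hpS hπ hM in
/-- **The local type at `p`: ordinary case.** -/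
theorem locAt_ord [IsNoetherianRing H.T] [IsAdicComplete (maximalIdeal H.T) H.T]
    (hpM : p ∣ M) (hord : OrdTr p fun g => (ρK g).val) :
    LocAt (LocType.ord 𝒪) (pPrime p) (algebraMap 𝒪 H.T)
      (πT : H.T →+* ResidueField 𝒪) (b.rho H.ht hg) := by
  have hpT := HLevel.pT hB H
  have hpD : ¬ p ∣ q₀ * ∏ i, q i := fun h => hB.hp.one_lt.ne'
    (Nat.dvd_one.mp (hN.copMD ▸ Nat.dvd_gcd hpM h))
  have hpN : p ∣ N := by
    rw [hN.hN]
    exact hpM.mul_right _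
  have hpN2 : ¬ p ^ 2 ∣ N := by
    intro h
    have h1 : 2 ≤ N.factorization p :=
      (hB.hp.pow_dvd_iff_le_factorization (NeZero.ne N)).mp h
    have h2 := fact_le hN hM hB.hp
    omega
  have hord' := H.isOrdinaryAt_rep hB hN hpS hNS b hg hπ hpT hpN hpN2 hpD
    (H.isOrdinary_residual_rep hB hNS b hg hπ hpT hord)
  exact LocAt.ord (l := pPrime p) hB.hp2 hπ (fun x => by
      obtain ⟨o, rfl⟩ := residue_surjective x
      exact ⟨o, πT.commutes o⟩) hpT (rho_cont hpT H.ht b hg) hB.hχ (b.det_rho H.ht hg)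
    (H.rep b hg hpT) (H.repBasis b hg hpT) (H.toMatrix_rep b hg hpT) hord'

include hB hN hpS hNS hπ in
/-- **The local type at `p`: flat case.** -/
theorem locAt_flat' [IsNoetherianRing H.T] [IsAdicComplete (maximalIdeal H.T) H.T]
    (hpM : ¬ p ∣ M) (hqp : ∀ i, q i ≠ p) :
    LocAt (LocType.free 𝒪 4) (pPrime p) (algebraMap 𝒪 H.T)
      (πT : H.T →+* ResidueField 𝒪) (b.rho H.ht hg) := by
  refine H.locAt_flat hB hN hpS hNS b hg hπ fun h => ?_
  rw [hN.hN] at h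
  rcases hB.hp.dvd_mul.mp h with h3 | h3
  · exact hpM h3
  rcases hB.hp.dvd_mul.mp h3 with h4 | h4
  · have h5 := (Nat.prime_dvd_prime_iff_eq hB.hp hB.hq₀).mp h4
    have h6 := hB.hpq
    rw [← h5] at h6
    have h7 := Nat.le_of_dvd (Nat.sub_pos_of_lt hB.hp.one_lt) h6
    have := hB.hp.pos
    omega
  · rw [Prime.dvd_finsetProd_iff hB.hp.prime] at h4
    obtain ⟨i, -, hi⟩ := h4
    exact hqp i ((Nat.prime_dvd_prime_iff_eq hB.hp (hN.hq i)).mp hi).symm

end HLevel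

include hB in
/-- **The property of the place `p`: flat case.** -/
theorem pplaceP_flat (hpM : ¬ p ∣ M) : PPlaceP Z := fun b _ =>
  ⟨LocType.free 𝒪 4, fun H hN hqp hpS hNS hg πT hπ _ _ =>
    H.locAt_flat' hB hN hpS hNS b hg hπ hpM hqp⟩

include hB hM in
/-- **The property of the place `p`: ordinary case.** -/
theorem pplaceP_ord (hpM : p ∣ M) (hord : OrdTr p fun g => (ρK g).val) : PPlaceP Z := fun b _ =>
  ⟨LocType.ord 𝒪, fun H hN hqp hpS hNS hg πT hπ _ _ =>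
    H.locAt_ord hB hN hM hpS hNS b hg hπ hpM hord⟩

end Level2

end Fermat.Agent.RT
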