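import Fermat.Agent.ESCore.EigenChar
import Fermat.Agent.ES.DeltaN

set_option autoImplicit false
set_option linter.unusedSectionVars false

/-!
# Homomorphisms of Hecke algebras determined by newforms of lower level
-/

open CongruenceSubgroup Matrix.SpecialLinearGroup ModularFormClass
open scoped MatrixGroups
open Fermat.Agent.ESCore Fermat.Agent.Hecke

noncomputable section

namespace Fermat.Agent.RT

section Restr

variable {M N : ℕ} [NeZero M] [NeZero N] (hMN : M ∣ N) {g : CuspForm (Gamma0 M) 2}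

theorem Gamma0_le_of_dvd {M N : ℕ} (hMN : M ∣ N) : Gamma0 N ≤ Gamma0 M := by
  intro γ hγ
  rw [Gamma0_mem] at hγ ⊢
  have h1 : ZMod.castHom hMN (ZMod M) ((γ 1 0 : ℤ) : ZMod N) = ((γ 1 0 : ℤ) : ZMod M) :=
    map_intCast _ _
  rw [← h1, hγ, map_zero]

/-- restriction to a divisible level -/
def lowForm (hMN : M ∣ N) (g : CuspForm (Gamma0 M) 2) : CuspForm (Gamma0 N) 2 :=
  ES.resCusp (Subgroup.map_mono (Gamma0_le_of_dvd hMN)) g

theorem qCoeff_lowForm (hMN : M ∣ N) (g : CuspForm (Gamma0 M) 2) (n : ℕ) :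
    qCoeff (lowForm hMN g) n = qCoeff g n := rfl

theorem heckeTLin_lowForm (hg : g.IsNormalizedEigenform) {p : ℕ} (hp : p.Prime) (hpN : ¬ p ∣ N) :
    CuspForm.heckeTLin 2 hp hpN (lowForm hMN g) = qCoeff g p • lowForm hMN g := by
  refine ext_of_forall_qCoeff _ _ fun n => ?_
  rw [qCoeff_heckeTLin hp hpN, qCoeff_smul, qCoeff_lowForm, qCoeff_lowForm, qCoeff_lowForm]
  exact eigen_coeff_of_not_dvd hg hp (fun h => hpN (h.trans hMN)) n

variable {S : Set ℕ} (hNS : ∀ q : ℕ, q.Prime → q ∣ N → q ∈ S)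

include hNS in
theorem exists_eigenvalue_low (hg : g.IsNormalizedEigenform)
    {t : Module.End ℂ (CuspForm (Gamma0 N) 2)} (ht : t ∈ CuspForm.heckeAlgebra N 2 S) :
    ∃ a : ℂ, t (lowForm hMN g) = a • lowForm hMN g := by
  induction ht using Algebra.adjoin_induction with
  | mem x hx =>
    rcases hx with ⟨ℓ, hℓ, hℓN, hℓS, rfl⟩ | ⟨q, hqN, hq, hqS, rfl⟩
    · exact ⟨_, heckeTLin_lowForm hMN hg hℓ hℓN⟩
    · exact absurd (hNS q hq hqN) hqS
  | algebraMap r =>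
    refine ⟨r, ?_⟩
    rw [Module.algebraMap_end_apply, Int.cast_smul_eq_zsmul]
  | add x y _ _ hx hy =>
    obtain ⟨a, ha⟩ := hx
    obtain ⟨b, hb⟩ := hy
    exact ⟨a + b, by rw [LinearMap.add_apply, ha, hb, add_smul]⟩
  | mul x y _ _ hx hy =>
    obtain ⟨a, ha⟩ := hx
    obtain ⟨b, hb⟩ := hy
    exact ⟨a * b, by rw [Module.End.mul_apply, hb, map_smul, ha, smul_smul, mul_comm]⟩

include hMN hNS in
/-- the eigencharacter of a normalised eigenform of lower level -/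
theorem exists_lowHom (hg : g.IsNormalizedEigenform) : ∃ θ : CuspForm.heckeAlgebra N 2 S →+* ℂ,
    ∀ (l : ℕ) (hl : l.Prime) (hlN : ¬ l ∣ N) (hlS : l ∉ S),
      θ (CuspForm.heckeAlgebra.T hl hlN hlS) = qCoeff g l := by
  refine ⟨{ toFun := fun t => qCoeff (t.1 (lowForm hMN g)) 1
            map_one' := hg.qCoeff_one
            map_zero' := ?_
            map_add' := fun s t => ?_
            map_mul' := fun s t => ?_ }, fun l hl hlN hlS => ?_⟩
  · have h1 : ((s * t).1 : Module.End ℂ (CuspForm (Gamma0 N) 2)) (lowForm hMN g) =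
      s.1 (t.1 (lowForm hMN g)) := rfl
    obtain ⟨b, hb⟩ := exists_eigenvalue_low hMN hNS hg t.2
    have h2 : qCoeff (lowForm hMN g) 1 = 1 := hg.qCoeff_one
    rw [h1, hb, map_smul, qCoeff_smul, qCoeff_smul, h2]
    ring
  · have : ((0 : CuspForm.heckeAlgebra N 2 S).1 : Module.End ℂ (CuspForm (Gamma0 N) 2))
      (lowForm hMN g) = (0 : ℂ) • lowForm hMN g := by rw [zero_smul]; rfl
    rw [this, qCoeff_smul, zero_mul]
  · have : ((s + t).1 : Module.End ℂ (CuspForm (Gamma0 N) 2)) (lowForm hMN g) =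
      s.1 (lowForm hMN g) + t.1 (lowForm hMN g) := rfl
    rw [this, Fermat.Agent.Hecke.qCoeff_add]
  · change qCoeff (CuspForm.heckeTLin 2 hl hlN (lowForm hMN g)) 1 = _
    rw [heckeTLin_lowForm hMN hg hl hlN, qCoeff_smul, qCoeff_lowForm, hg.qCoeff_one, mul_one]

end Restr

section Lift

variable {N : ℕ} [NeZero N] {S : Set ℕ} (hNS : ∀ q : ℕ, q.Prime → q ∣ N → q ∈ S)
  {T : Type*} [CommRing T]

/-- The generators of the Hecke algebra. -/
def heckeGens (N : ℕ) [NeZero N] (S : Set ℕ) (i : {l : ℕ // l.Prime ∧ ¬ l ∣ N ∧ l ∉ S}) :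
    CuspForm.heckeAlgebra N 2 S := CuspForm.heckeAlgebra.T i.2.1 i.2.2.1 i.2.2.2

include hNS in
theorem aeval_heckeGens_surjective :
    Function.Surjective (MvPolynomial.aeval (R := ℤ) (heckeGens N S)) := by
  rintro ⟨t, ht⟩
  suffices h : ∃ F, ((MvPolynomial.aeval (R := ℤ) (heckeGens N S) F :
      CuspForm.heckeAlgebra N 2 S) : Module.End ℂ (CuspForm (Gamma0 N) 2)) = t by
    obtain ⟨F, hF⟩ := h
    exact ⟨F, Subtype.ext hF⟩
  induction ht using Algebra.adjoin_induction with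
  | mem x hx =>
    rcases hx with ⟨ℓ, hℓ, hℓN, hℓS, rfl⟩ | ⟨q, hqN, hq, hqS, rfl⟩
    · refine ⟨MvPolynomial.X ⟨ℓ, hℓ, hℓN, hℓS⟩, ?_⟩
      rw [MvPolynomial.aeval_X]
      rfl
    · exact absurd (hNS q hq hqN) hqS
  | algebraMap r =>
    refine ⟨MvPolynomial.C r, ?_⟩
    rw [MvPolynomial.aeval_C]
    rfl
  | add x y _ _ hx hy =>
    obtain ⟨a, ha⟩ := hx
    obtain ⟨b, hb⟩ := hy
    refine ⟨a + b, ?_⟩
    rw [map_add, ← ha, ← hb]
    rfl
  | mul x y _ _ hx hy =>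
    obtain ⟨a, ha⟩ := hx
    obtain ⟨b, hb⟩ := hy
    refine ⟨a * b, ?_⟩
    rw [map_mul, ← ha, ← hb]
    rfl

include hNS in
/-- **Homomorphisms out of the Hecke algebra.** -/
theorem exists_hecke_lift (x : {l : ℕ // l.Prime ∧ ¬ l ∣ N ∧ l ∉ S} → T)
    (h : ∀ F : MvPolynomial {l : ℕ // l.Prime ∧ ¬ l ∣ N ∧ l ∉ S} ℤ,
      MvPolynomial.aeval (heckeGens N S) F = 0 → MvPolynomial.aeval x F = 0) :
    ∃ π : CuspForm.heckeAlgebra N 2 S →+* T,
      ∀ (l : ℕ) (hl : l.Prime) (hlN : ¬ l ∣ N) (hlS : l ∉ S),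
        π (CuspForm.heckeAlgebra.T hl hlN hlS) = x ⟨l, hl, hlN, hlS⟩ := by
  let Φ : MvPolynomial {l : ℕ // l.Prime ∧ ¬ l ∣ N ∧ l ∉ S} ℤ →+* CuspForm.heckeAlgebra N 2 S :=
    (MvPolynomial.aeval (R := ℤ) (heckeGens N S) : _ →ₐ[ℤ] _)
  let Ψ : MvPolynomial {l : ℕ // l.Prime ∧ ¬ l ∣ N ∧ l ∉ S} ℤ →+* T :=
    (MvPolynomial.aeval (R := ℤ) x : _ →ₐ[ℤ] _)
  have hΦ : Function.Surjective Φ := aeval_heckeGens_surjective hNS
  have hk : RingHom.ker Φ ≤ RingHom.ker Ψ := fun F hF => h F hF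
  refine ⟨RingHom.liftOfSurjective Φ hΦ ⟨Ψ, hk⟩, fun l hl hlN hlS => ?_⟩
  have h1 : Φ (MvPolynomial.X ⟨l, hl, hlN, hlS⟩) = CuspForm.heckeAlgebra.T hl hlN hlS :=
    MvPolynomial.aeval_X _ _
  rw [← h1]
  have h2 := congrFun (congrArg DFunLike.coe (RingHom.liftOfRightInverse_comp Φ _
    (Function.rightInverse_surjInv hΦ) ⟨Ψ, hk⟩)) (MvPolynomial.X ⟨l, hl, hlN, hlS⟩)
  refine h2.trans ?_
  exact MvPolynomial.aeval_X _ _

end Lift

end Fermat.Agent.RT
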