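import Fermat.Agent.RT.LvlAct2

set_option autoImplicit false
set_option maxHeartbeats 400000
set_option linter.style.haveILetI false
set_option linter.unusedSectionVars false
set_option linter.unusedVariables false

/-!
# The relations at the special prime
-/

open IsLocalRing CongruenceSubgroup Matrix.SpecialLinearGroup MvPowerSeries
open scoped MatrixGroups
open Fermat.Agent.ESCore Fermat.Agent.ESCore.UnivG
open Fermat.Agent.ESCore.Univ (Idx)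
open Fermat.Agent.ESCore.Gal (dU dLift dU_dLift)
open Fermat.Agent.Coh Fermat.Agent.GalD Fermat.Agent.LocalCFT Fermat.Agent.GCFT

noncomputable section

namespace Fermat.Agent.RT

open Ihara

variable {𝒪 : Type} [CommRing 𝒪] [IsDomain 𝒪] [IsDiscreteValuationRing 𝒪]
  [IsAdicComplete (maximalIdeal 𝒪) 𝒪] [Finite (ResidueField 𝒪)] [CharZero 𝒪]

variable {p M q₀ : ℕ} [Fact p.Prime] {χ : GQ →* 𝒪ˣ} [NeZero (M * q₀)] {S₀ : Finset ℕ} {a : ℕ → 𝒪}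
  {d : ℕ} {K : Type} [Field K] [Algebra (ResidueField 𝒪) K] {ρK : GQ →* GL (Fin 2) K}
  (hB : HBase p M q₀ S₀ a ρK χ)
  {Z : HZero p χ (M * q₀) S₀ a d} {N : ℕ} [NeZero N] {S : Finset ℕ} {r : ℕ}
  {q : Fin r → ℕ} {e : Fin r → ℕ} {h₀ : q₀ ∣ N} {h₁ : ∀ i, q i ∣ N}
  {ψ₀ : (ZMod q₀)ˣ →* Multiplicative (ZMod p)}
  {ψ₁ : ∀ i, (ZMod (q i))ˣ →* Multiplicative (ZMod (p ^ e i))}
  (hψ₀ : Function.Surjective ψ₀) (hψ₁ : ∀ i, Function.Surjective (ψ₁ i))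
  (H : HLevel Z N S (psiN h₀ h₁ ψ₀ ψ₁)) (hN : LvlN N M q₀ q)
  (hM : Squarefree M) (hpS : p ∈ S) (hNS : ∀ l : ℕ, l.Prime → l ∣ N → l ∈ S)
  (b : PsB 𝒪 χ) (hg : b.Good H.t) (h36 : S36P) (hd : 0 < d)
  {πT : H.T →ₐ[𝒪] ResidueField 𝒪}
  (hπ : RingHom.ker (πT : H.T →+* ResidueField 𝒪) = maximalIdeal H.T)
  {πZ : Z.T →ₐ[𝒪] ResidueField 𝒪}
  (hπZ : RingHom.ker (πZ : Z.T →+* ResidueField 𝒪) = maximalIdeal Z.T)
  {Q : Nat.Primes} (hQ : (Q : ℕ) = q₀) (hqp : q₀ ≠ p) {φ₀ τ₀ : Gl Q} (hφ₀ : IsFrobL φ₀)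
  (hτ₀ : TameGen p Q τ₀) {ε : 𝒪} (hε : ε ^ 2 = 1)

/-- Frobenius at the special prime. -/
def HLevel.PhiF (H : HLevel Z N S (psiN h₀ h₁ ψ₀ ψ₁)) (b : PsB 𝒪 χ) (hg : b.Good H.t) (φ₀ : Gl Q)
    (ε : 𝒪) : Matrix (Fin 2) (Fin 2) H.T :=
  algebraMap 𝒪 H.T ε • (b.rho H.ht hg (rl Q φ₀)).val

/-- Inertia at the special prime. -/
def HLevel.SgF (H : HLevel Z N S (psiN h₀ h₁ ψ₀ ψ₁)) (b : PsB 𝒪 χ) (hg : b.Good H.t)
    (τ₀ : Gl Q) : Matrix (Fin 2) (Fin 2) H.T :=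
  (b.rho H.ht hg (rl Q τ₀)).val

lemma HLevel.trace_Sg : (H.SgF b hg τ₀).trace = H.t (rl Q τ₀) := b.trace_rho H.ht hg _

include hB hQ hqp hτ₀ in
lemma HLevel.det_Sg : (H.SgF b hg τ₀).det = 1 := by
  haveI := H.isNoeth
  exact det_rho_inertia hB.hp hB.hp𝒪 hB.hχ H.ht b hg (by rw [hQ]; exact hqp) hτ₀.1

include hB hQ hqp hφ₀ hε in
lemma HLevel.det_Phi : (H.PhiF b hg φ₀ ε).det = (q₀ : H.T) := by
  haveI := H.isNoeth
  rw [HLevel.PhiF, Matrix.det_smul, Fintype.card_fin, ← map_pow, hε, map_one, one_mul,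
    det_rho_frob hB.hp hB.hp𝒪 hB.hχ H.ht b hg (by rw [hQ]; exact hqp) hφ₀, hQ, map_natCast]

include hB hN hM hpS hNS hg h36 hd hπ hQ hqp hφ₀ hτ₀ in
lemma HLevel.rel_Phi : H.PhiF b hg φ₀ ε * H.SgF b hg τ₀ =
    H.SgF b hg τ₀ ^ q₀ * H.PhiF b hg φ₀ ε := by
  haveI := H.isNoeth
  subst hQ
  have hlp : (Q : ℕ) ≠ p := hqp
  have h1 := rho_tame (π := (πT : H.T →+* ResidueField 𝒪)) hπ hB.hp hB.hp𝒪 (HLevel.pT hB H) hB.hχ
    H.ht b hg hlp (fun s hs => H.hin hB hN hM hpS hNS b hg h36 hd hπ hlp s hs) hφ₀ hτ₀.1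
  rw [HLevel.PhiF, HLevel.SgF, smul_mul_assoc, mul_smul_comm, h1]

include hB hN hM hpS hNS hg h36 hQ hqp hτ₀ in
/-- The trace relation of trivial type. -/
theorem HLevel.Phi_one_trace : H.Phi 1 ((H.SgF b hg τ₀).trace - 2) = 0 := by
  subst hQ
  refine H.Phi_eq_zero fun ψ' lam h => ?_
  rw [map_sub, map_ofNat, sub_eq_zero, H.trace_Sg]
  exact H.local_one hB hN hM hpS hNS b hg h36 hqp h _ (nonunits_padicPlace Q) _
    (rl_mem_inertia hτ₀.1)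

include hB hN hM hpS hNS hg h36 hd hπ hQ hqp hφ₀ hτ₀ hε in
/-- **The relations of trivial type.** -/
theorem HLevel.uni_rel {R : Type*} [Ring R] (A : H.T →+* R) (hA : ∀ t, H.Phi 1 t = 0 → A t = 0) :
    A ((H.SgF b hg τ₀).trace - 2) = 0 ∧ A ((H.SgF b hg τ₀).det - 1) = 0 ∧
    (∀ i j, A ((H.PhiF b hg φ₀ ε * (H.SgF b hg τ₀ - 1) - (algebraMap 𝒪 H.T (q₀ : 𝒪)) •
      ((H.SgF b hg τ₀ - 1) * H.PhiF b hg φ₀ ε)) i j) = 0) ∧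
    A ((H.PhiF b hg φ₀ ε).det - algebraMap 𝒪 H.T (q₀ : 𝒪)) = 0 := by
  have hdet := H.det_Sg hB b hg hQ hqp hτ₀
  have hdetF := H.det_Phi hB b hg hQ hqp hφ₀ hε
  have htr := hA _ (H.Phi_one_trace hB hN hM hpS hNS b hg h36 hQ hqp hτ₀)
  have hrel := H.rel_Phi hB hN hM hpS hNS b hg h36 hd hπ hQ hqp hφ₀ hτ₀ (ε := ε)
  refine ⟨htr, by rw [hdet, sub_self, map_zero], ?_, by
    rw [hdetF, map_natCast, sub_self, map_zero]⟩
  -- work modulo the kernel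
  set I := RingHom.ker A with hI
  let f : H.T →+* H.T ⧸ I := Ideal.Quotient.mk I
  have e1 : ((H.SgF b hg τ₀).map f).trace = 2 := by
    have h1 : f ((H.SgF b hg τ₀).trace - 2) = 0 :=
      Ideal.Quotient.eq_zero_iff_mem.mpr (RingHom.mem_ker.mpr htr)
    rw [map_sub, map_ofNat, sub_eq_zero] at h1
    rw [← h1, Matrix.trace_fin_two, Matrix.trace_fin_two, map_add]; rfl
  have e2 : ((H.SgF b hg τ₀).map f).det = 1 := by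
    have h1 : ((H.SgF b hg τ₀).map f).det = f (H.SgF b hg τ₀).det := by
      rw [RingHom.map_det]; rfl
    rw [h1, hdet, map_one]
  have e3 : ((H.PhiF b hg φ₀ ε).map f).det = (q₀ : H.T ⧸ I) := by
    have h1 : ((H.PhiF b hg φ₀ ε).map f).det = f (H.PhiF b hg φ₀ ε).det := by
      rw [RingHom.map_det]; rfl
    rw [h1, hdetF, map_natCast]
  have e4 : (H.PhiF b hg φ₀ ε).map f * (H.SgF b hg τ₀).map f =
      (H.SgF b hg τ₀).map f ^ q₀ * (H.PhiF b hg φ₀ ε).map f := by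
    have h1 : ((H.SgF b hg τ₀) ^ q₀).map f = (H.SgF b hg τ₀).map f ^ q₀ := by
      rw [← RingHom.mapMatrix_apply, map_pow, RingHom.mapMatrix_apply]
    rw [← Matrix.map_mul, hrel, Matrix.map_mul, h1]
  have h5 := (unRel_of_trace e1 e2 e3 e4).comm
  intro i j
  have h6 : f ((H.PhiF b hg φ₀ ε * (H.SgF b hg τ₀ - 1) - (algebraMap 𝒪 H.T (q₀ : 𝒪)) •
      ((H.SgF b hg τ₀ - 1) * H.PhiF b hg φ₀ ε)) i j) = 0 := by
    have h7 : (H.SgF b hg τ₀ - 1).map f = (H.SgF b hg τ₀).map f - 1 := by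
      rw [← RingHom.mapMatrix_apply, map_sub, map_one]; rfl
    rw [Matrix.sub_apply, Matrix.smul_apply, smul_eq_mul, map_sub, map_mul, map_natCast,
      map_natCast, ← Matrix.map_apply (f := f), ← Matrix.map_apply (f := f), Matrix.map_mul,
      Matrix.map_mul, h7, h5, Matrix.smul_apply, smul_eq_mul, sub_self]
  exact RingHom.mem_ker.mp (Ideal.Quotient.eq_zero_iff_mem.mp h6)

include hB hN hM hpS hNS hg h36 hd hπ hQ hqp hφ₀ hτ₀ hε hψ₀ in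
/-- At the points of type `χ`. -/
theorem HLevel.chi_pt {ω : Multiplicative (ZMod p) →* 𝒪} (hω : ω ≠ 1) {m c : ℕ}
    (hc : c.Coprime p) (hqm : q₀ - 1 = p ^ m * c) (hm : 1 ≤ m) {ζ : 𝒪}
    (hζ : IsPrimitiveRoot ζ (p ^ m))
    {ψ' : MonoidAlgebra 𝒪 (DT p e) →ₐ[𝒪] LL 𝒪} {lam : H.T →ₐ[𝒪] LL 𝒪}
    (h : EigSys (H.Phi ω) ψ' lam) :
    (∀ i j, lam ((H.PhiF b hg φ₀ ε * H.SgF b hg τ₀ - H.SgF b hg τ₀ * H.PhiF b hg φ₀ ε) i j) = 0) ∧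
      ∃ z : 𝒪, z ^ p ^ m = 1 ∧ z ≠ 1 ∧ lam (H.SgF b hg τ₀).trace = algebraMap 𝒪 (LL 𝒪) z +
        algebraMap 𝒪 (LL 𝒪) (z ^ (p ^ m - 1)) := by
  haveI := H.isNoeth
  have hlp : (Q : ℕ) ≠ p := by rw [hQ]; exact hqp
  have hplace := nonunits_padicPlace Q
  have hres : H.t (rl Q τ₀) - 2 ∈ maximalIdeal H.T :=
    H.t_res hB hN hM hpS hNS b hg h36 Q.2 hlp hd hplace (rl_mem_inertia hτ₀.1)
  have hin := fun s hs => H.hin hB hN hM hpS hNS b hg h36 hd hπ hlp s hs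
  have hne : lam (H.SgF b hg τ₀).trace ≠ 2 := by
    intro h1
    rw [H.trace_Sg] at h1
    obtain ⟨A, hA, σ, hσ, hne⟩ := H.local_chi hB hψ₀ hN hM hpS hNS b hg h36 hqp hω h
    rw [← hQ] at hA
    exact hne (two_of_tame (π := (πT : H.T →+* ResidueField 𝒪)) hπ hB.hp hB.hp𝒪
      (HLevel.pT hB H) hB.hχ H.ht b hg hlp (lam : H.T →+* LL 𝒪) hin hτ₀ h1 hA hσ)
  have hdetF := H.det_Phi hB b hg hQ hqp hφ₀ hε
  have hu : IsUnit (H.PhiF b hg φ₀ ε).det := by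
    rw [HLevel.PhiF, Matrix.det_smul, Fintype.card_fin, ← map_pow, hε, map_one, one_mul]
    exact (Matrix.isUnit_iff_isUnit_det _).mp (b.rho H.ht hg (rl Q φ₀)).isUnit
  exact chi_at_point LL_inj lam hB.hp hB.hp2 hB.hp𝒪 hB.hq₀.pos hc hqm hm hζ
    (by rw [H.trace_Sg]; exact hres) (H.det_Sg hB b hg hQ hqp hτ₀) hu
    (H.rel_Phi hB hN hM hpS hNS b hg h36 hd hπ hQ hqp hφ₀ hτ₀) hne

include hB hN hM hpS hNS hg h36 hd hπ hQ hqp hφ₀ hτ₀ hε hψ₀ in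
/-- **The relations of type `χ`.** -/
theorem HLevel.chi_rel {ω : Multiplicative (ZMod p) →* 𝒪} (hω : ω ≠ 1) {m c : ℕ}
    (hc : c.Coprime p) (hqm : q₀ - 1 = p ^ m * c) (hm : 1 ≤ m) {ζ : 𝒪}
    (hζ : IsPrimitiveRoot ζ (p ^ m)) {R : Type*} [Ring R] (A : H.T →+* R)
    (hA : ∀ t, H.Phi ω t = 0 → A t = 0) :
    A ((H.SgF b hg τ₀).det - 1) = 0 ∧
    (∀ i j, A ((H.PhiF b hg φ₀ ε * H.SgF b hg τ₀ - H.SgF b hg τ₀ * H.PhiF b hg φ₀ ε) i j) = 0) ∧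
    A ((H.PhiF b hg φ₀ ε).det - algebraMap 𝒪 H.T (q₀ : 𝒪)) = 0 ∧
    A (∏ z ∈ zPairs ζ (p ^ m), ((H.SgF b hg τ₀).trace - algebraMap 𝒪 H.T z.1 -
      algebraMap 𝒪 H.T z.2)) = 0 := by
  haveI : NeZero (p ^ m) := ⟨pow_ne_zero _ hB.hp.ne_zero⟩
  refine ⟨by rw [H.det_Sg hB b hg hQ hqp hτ₀, sub_self, map_zero], fun i j => hA _ ?_, by
    rw [H.det_Phi hB b hg hQ hqp hφ₀ hε, map_natCast, sub_self, map_zero], hA _ ?_⟩
  · exact H.Phi_eq_zero fun ψ' lam h => (H.chi_pt hB hψ₀ hN hM hpS hNS b hg h36 hd hπ hQ hqp hφ₀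
      hτ₀ hε hω hc hqm hm hζ h).1 i j
  · refine H.Phi_eq_zero fun ψ' lam h => ?_
    obtain ⟨-, z, hz1, hz2, hz3⟩ := H.chi_pt hB hψ₀ hN hM hpS hNS b hg h36 hd hπ hQ hqp hφ₀
      hτ₀ hε hω hc hqm hm hζ h
    rw [map_prod]
    refine Finset.prod_eq_zero (i := (z, z ^ (p ^ m - 1))) ((mem_zPairs hζ).mpr ⟨hz1, hz2, rfl⟩) ?_
    rw [map_sub, map_sub, hz3, AlgHom.commutes, AlgHom.commutes]
    ring

end Fermat.Agent.RT
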