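import Fermat.Agent.RT.LvlPts

set_option autoImplicit false
set_option maxHeartbeats 400000
set_option linter.style.haveILetI false
set_option linter.unusedSectionVars false
set_option linter.unusedVariables false

/-!
# The Galois structure over the group ring
-/

open IsLocalRing CongruenceSubgroup Matrix.SpecialLinearGroup
open scoped MatrixGroups
open Fermat.Agent.ESCore Fermat.Agent.ESCore.UnivG
open Fermat.Agent.ESCore.Univ (Idx)
open Fermat.Agent.ESCore.Gal (dU dLift dU_dLift)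
open Fermat.Agent.Coh Fermat.Agent.GalD Fermat.Agent.LocalCFT Fermat.Agent.GCFT

noncomputable section

namespace Fermat.Agent.RT

open Ihara

lemma henselianLocalRing_of_complete {R : Type*} [CommRing R] [IsLocalRing R]
    [IsAdicComplete (maximalIdeal R) R] : HenselianLocalRing R where
  is_henselian f hf a₀ h1 h2 :=
    HenselianRing.is_henselian (I := maximalIdeal R) f hf a₀ h1 (h2.map _)

section Pi

variable {𝒪 : Type} [CommRing 𝒪] [IsLocalRing 𝒪] {T : Type} [CommRing T] [Algebra 𝒪 T]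
  [IsLocalRing T]

/-- The map to the residue field. -/
theorem exists_piT (hres : ∀ y : T, ∃ b, y - algebraMap 𝒪 T b ∈ maximalIdeal T)
    (hm : ∀ b, algebraMap 𝒪 T b ∈ maximalIdeal T ↔ b ∈ maximalIdeal 𝒪) :
    ∃ π : T →ₐ[𝒪] ResidueField 𝒪, RingHom.ker (π : T →+* ResidueField 𝒪) = maximalIdeal T := by
  haveI : IsLocalHom (algebraMap 𝒪 T) := ⟨fun b hb => by
    by_contra h
    exact (hm b).mpr h hb⟩
  let f : ResidueField 𝒪 →+* ResidueField T := ResidueField.map (algebraMap 𝒪 T)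
  have hf : Function.Bijective f := by
    refine ⟨f.injective, fun y => ?_⟩
    obtain ⟨y, rfl⟩ := residue_surjective y
    obtain ⟨b, hb⟩ := hres y
    refine ⟨residue 𝒪 b, ?_⟩
    rw [ResidueField.map_residue, eq_comm, ← sub_eq_zero, ← map_sub, residue_eq_zero_iff]
    exact hb
  let g := RingEquiv.ofBijective f hf
  refine ⟨{ (g.symm : ResidueField T →+* ResidueField 𝒪).comp (residue T) with
    commutes' := fun b => ?_ }, ?_⟩
  · change g.symm (residue T (algebraMap 𝒪 T b)) = residue 𝒪 b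
    rw [RingEquiv.symm_apply_eq]
    exact (ResidueField.map_residue (algebraMap 𝒪 T) b).symm
  · ext y
    rw [RingHom.mem_ker]
    change g.symm (residue T y) = 0 ↔ _
    rw [map_eq_zero_iff _ g.symm.injective, residue_eq_zero_iff]

lemma pi_unique {π : T →ₐ[𝒪] ResidueField 𝒪}
    (hπ : RingHom.ker (π : T →+* ResidueField 𝒪) = maximalIdeal T) {y : T} {b : 𝒪}
    (h : y - algebraMap 𝒪 T b ∈ maximalIdeal T) : π y = residue 𝒪 b := by
  rw [← hπ, RingHom.mem_ker] at h
  change π (y - algebraMap 𝒪 T b) = 0 at h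
  rw [map_sub, sub_eq_zero, AlgHom.commutes] at h
  exact h

end Pi

variable {𝒪 : Type} [CommRing 𝒪] [IsDomain 𝒪] [IsDiscreteValuationRing 𝒪]
  [IsAdicComplete (maximalIdeal 𝒪) 𝒪] [Finite (ResidueField 𝒪)] [CharZero 𝒪]

section General

variable {p : ℕ} {χ : GQ →* 𝒪ˣ} {N₀ : ℕ} [NeZero N₀] {S₀ : Finset ℕ} {a : ℕ → 𝒪} {d : ℕ}
  {Z : HZero p χ N₀ S₀ a d} {N : ℕ} [NeZero N] {S : Finset ℕ} {D : Type} [CommGroup D]
  [Finite D] {ψ : (ZMod N)ˣ →* D} (H : HLevel Z N S ψ)

namespace HLevel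

include H in
lemma isNoeth : IsNoetherianRing H.T := IsNoetherianRing.of_finite 𝒪 H.T

include H in
lemma isLocalHom : IsLocalHom (algebraMap 𝒪 H.T) := ⟨fun b hb => by
  by_contra h
  exact (H.hm b).mpr h hb⟩

include H in
lemma complete : IsAdicComplete (maximalIdeal H.T) H.T := by
  haveI := H.isLocalHom
  exact IsLocalRing.isAdicComplete_of_module_finite (𝒪 := 𝒪)

variable {πT : H.T →ₐ[𝒪] ResidueField 𝒪}
  (hπ : RingHom.ker (πT : H.T →+* ResidueField 𝒪) = maximalIdeal H.T)
  {πZ : Z.T →ₐ[𝒪] ResidueField 𝒪}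
  (hπZ : RingHom.ker (πZ : Z.T →+* ResidueField 𝒪) = maximalIdeal Z.T)

include hπ hπZ in
lemma pi_pr (y : H.T) : πZ (H.pr y) = πT y := by
  have h1 : πZ.comp H.pr = πT := by
    apply AlgHom.ext
    intro y
    obtain ⟨c, hc⟩ := H.hres y
    rw [pi_unique hπ hc]
    have hker : RingHom.ker ((πZ.comp H.pr : H.T →ₐ[𝒪] ResidueField 𝒪) :
        H.T →+* ResidueField 𝒪) = maximalIdeal H.T := by
      refine IsLocalRing.eq_maximalIdeal (RingHom.ker_isMaximal_of_surjective _ ?_)
      intro z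
      obtain ⟨z, rfl⟩ := residue_surjective z
      exact ⟨algebraMap 𝒪 H.T z, (πZ.comp H.pr).commutes z⟩
    exact pi_unique hker hc
  exact DFunLike.congr_fun h1 y

include hπ hπZ in
lemma pi_t (σ : GQ) : πT (H.t σ) = πZ (Z.t σ) := by
  rw [← H.hprt, H.pi_pr hπ hπZ]

end HLevel

end General

end Fermat.Agent.RT
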