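import Fermat.Agent.RT.LocAt
import Fermat.Agent.RT.CycPs
import Fermat.Agent.OrdP.Framed
import Fermat.Agent.Conn.Line
import Fermat.Agent.FB.Fin3

set_option autoImplicit false
set_option linter.style.haveILetI false
set_option linter.unusedSectionVars false

/-!
# The local type at `p` of flat representations
-/

open IsLocalRing Matrix Module
open Fermat.Agent.GCFT Fermat.Agent.Coh Fermat.Agent.GalD Fermat.Agent.LocalCFT
open scoped TensorProduct

noncomputable section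

namespace Fermat.Agent.RT

/-- The field of algebraic numbers. -/
local notation "Qb" => AlgebraicClosure ℚ
/-- The absolute Galois group. -/
local notation "GQ" => (AlgebraicClosure ℚ ≃ₐ[ℚ] AlgebraicClosure ℚ)

/-- the local ring of `ℤ` at `p` -/
local notation "Zl" p => GaloisRep.ratLocalizedAt p

section Free

variable {l : Nat.Primes} {𝒪 T : Type} [CommRing 𝒪] [IsLocalRing 𝒪] [CommRing T] [IsLocalRing T]
  [IsNoetherianRing T] [IsAdicComplete (maximalIdeal T) T] {k : Type} [Field k] [Finite k]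
  {σ₀ : 𝒪 →+* T} {π : T →+* k}

/-- Flat representations which are locally irreducible at `p` are of free type. -/
theorem LocAt.free (hπ : RingHom.ker π = maximalIdeal T) (hπs : ∀ x : k, ∃ o, π (σ₀ o) = x)
    {ρ : GQ →* GL (Fin 2) T} (hdet : ∀ g, ∃ o, (ρ g).val.det = σ₀ o)
    (hflat : FB.MFlat (l : ℕ) ρ) {s : Fin 4 → Gl l} {i j : Fin 4 → Fin 2}
    (h : ∀ r : GQ →* GL (Fin 2) (DualNumber k),
      (∀ g, (r g).val.map TrivSqZeroExt.fst = (resRep π ρ g).val) →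
      (∀ g, (r g).val.det.snd = 0) → Flat.IsFlat (Zl (l : ℕ)) GQ (FB.MatMod r) Qb →
      (∀ a, ((r (rl l (s a))).val.map TrivSqZeroExt.snd * (resRep π ρ (rl l (s a))⁻¹).val)
        (i a) (j a) = 0) →
      ∀ δ : Gl l, (r (rl l δ)).val.map TrivSqZeroExt.snd = 0) :
    LocAt (LocType.free 𝒪 4) l σ₀ π ρ := by
  intro V _ v
  let A := MvPowerSeries (V × Fin 3) T
  let ι : 𝒪 →+* A := (MvPowerSeries.C : T →+* A).comp σ₀
  choose lft hlft using hπs
  let B : Fin 4 → Matrix (Fin 2) (Fin 2) 𝒪 := fun a =>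
    (resRep π ρ (rl l (s a))⁻¹).val.map lft
  have hB : ∀ a b c, π (σ₀ (B a b c)) = (resRep π ρ (rl l (s a))⁻¹).val b c := fun a b c =>
    hlft _
  let x : Fin 4 → A := fun a => (frMat ρ v (rl l (s a)) * (B a).map ι) (i a) (j a) -
    ι ((1 : Matrix (Fin 2) (Fin 2) 𝒪) (i a) (j a))
  have hcc : ∀ (g : GQ) (a b : Fin 2), π (MvPowerSeries.constantCoeff (frMat ρ v g a b)) =
      (resRep π ρ g).val a b := by
    intro g a b
    rw [frMat_constantCoeff]
    rfl
  have hx : ∀ a, x a ∈ maximalIdeal A := by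
    intro a
    rw [mem_maximalIdeal_iff, ← hπ, RingHom.mem_ker]
    change π (MvPowerSeries.constantCoeff ((frMat ρ v (rl l (s a)) * (B a).map ι) (i a) (j a) -
      ι ((1 : Matrix (Fin 2) (Fin 2) 𝒪) (i a) (j a)))) = 0
    have h1 : π (MvPowerSeries.constantCoeff
        ((frMat ρ v (rl l (s a)) * (B a).map ι) (i a) (j a))) =
        ((resRep π ρ (rl l (s a))).val * (resRep π ρ (rl l (s a))⁻¹).val) (i a) (j a) := by
      rw [Matrix.mul_apply, Matrix.mul_apply, map_sum, map_sum]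
      refine Finset.sum_congr rfl fun b _ => ?_
      rw [map_mul, map_mul, hcc, Matrix.map_apply]
      change _ * π (MvPowerSeries.constantCoeff (MvPowerSeries.C (σ₀ (B a b (j a))))) = _
      rw [MvPowerSeries.constantCoeff_C, hB]
    have h2 : π (MvPowerSeries.constantCoeff (ι ((1 : Matrix (Fin 2) (Fin 2) 𝒪) (i a) (j a)))) =
        (1 : Matrix (Fin 2) (Fin 2) k) (i a) (j a) := by
      change π (MvPowerSeries.constantCoeff (MvPowerSeries.C (σ₀ _))) = _
      rw [MvPowerSeries.constantCoeff_C, Matrix.one_apply, Matrix.one_apply]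
      split_ifs
      · rw [map_one, map_one]
      · rw [map_zero, map_zero]
    rw [map_sub, map_sub, h1, h2, ← Units.val_mul, ← map_mul, mul_inv_cancel, map_one,
      Units.val_one, sub_self]
  refine ⟨x, hx, fun r hr => absurd hr (Set.notMem_empty r), fun ψ hψ1 hψ2 hψ3 δ => ?_⟩
  have hT1 : ∀ t : T, (ψ (MvPowerSeries.C t)).fst = π t := fun t => by
    rw [hψ1, MvPowerSeries.constantCoeff_C]
  let D : DerSp σ₀ π := ⟨fun t => (ψ (MvPowerSeries.C t)).snd,
    OrdP.derOf_mem (ψ.comp MvPowerSeries.C) hT1 hψ2⟩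
  have hD : ∀ t : T, dualOf D t = ψ (MvPowerSeries.C t) := by
    intro t
    apply TrivSqZeroExt.ext
    · rw [dualOf_fst, hT1]
    · rw [dualOf_snd]
  let r : GQ →* GL (Fin 2) (DualNumber k) := (GeneralLinearGroup.map ψ).comp (FB.frRep ρ v)
  have hr : ∀ g, (r g).val = (frMat ρ v g).map ψ := fun g => rfl
  have hfst : ∀ g, (r g).val.map TrivSqZeroExt.fst = (resRep π ρ g).val := by
    intro g
    ext a b
    rw [hr, Matrix.map_apply, Matrix.map_apply, hψ1, hcc]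
  have hsnd : ∀ δ : Gl l, (r (rl l δ)).val.map TrivSqZeroExt.snd = 0 := by
    refine h r hfst ?_ ?_ ?_
    · intro g
      obtain ⟨o, ho⟩ := hdet g
      have h1 : (frMat ρ v g).det = MvPowerSeries.C (σ₀ o) := by
        have h2 : (frm T v).val.det * ((frm T v)⁻¹).val.det = 1 := by
          rw [← det_mul, ← Units.val_mul, mul_inv_cancel, Units.val_one, det_one]
        have h3 : ((ρ g).val.map (MvPowerSeries.C : T →+* A)).det =
            MvPowerSeries.C (ρ g).val.det :=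
          ((MvPowerSeries.C : T →+* A).map_det (ρ g).val).symm
        rw [frMat, det_mul, det_mul, mul_right_comm, h2, one_mul, h3, ho]
      have h2 : (r g).val.det = ψ (frMat ρ v g).det := (ψ.map_det _).symm
      rw [h2, h1, hψ2, TrivSqZeroExt.snd_inl]
    · refine FB.isFlat_dual (fun y => ⟨σ₀ (lft y), hlft y⟩) hflat D
        (GeneralLinearGroup.map ψ (frm T v)) fun g => ?_
      have h1 : ((ρ g).val.map (MvPowerSeries.C : T →+* A)).map ψ =
          (ρ g).val.map (dualOf D) := by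
        ext1 a b
        rw [Matrix.map_apply, Matrix.map_apply, Matrix.map_apply, hD]
      rw [hr, frMat, Matrix.map_mul, Matrix.map_mul, h1]
      rfl
    · intro a
      have h1 := congrArg TrivSqZeroExt.snd (hψ3 a)
      change (ψ ((frMat ρ v (rl l (s a)) * (B a).map ι) (i a) (j a) -
        ι ((1 : Matrix (Fin 2) (Fin 2) 𝒪) (i a) (j a)))).snd = 0 at h1
      have h2 : ∀ o, ψ (ι o) = TrivSqZeroExt.inl (π (σ₀ o)) := hψ2
      rw [map_sub, h2, TrivSqZeroExt.snd_sub, TrivSqZeroExt.snd_inl, sub_zero, Matrix.mul_apply,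
        map_sum, TrivSqZeroExt.snd_sum] at h1
      rw [Matrix.mul_apply, ← h1]
      refine Finset.sum_congr rfl fun b _ => ?_
      rw [map_mul, Matrix.map_apply, Matrix.map_apply, h2, TrivSqZeroExt.snd_mul,
        TrivSqZeroExt.snd_inl, smul_zero, zero_add, TrivSqZeroExt.fst_inl, hB, hr,
        Matrix.map_apply, MulOpposite.smul_eq_mul_unop, MulOpposite.unop_op]
  change (r (rl l δ)).val = _
  ext1 a b
  rw [Matrix.map_apply]
  apply TrivSqZeroExt.ext
  · rw [TrivSqZeroExt.fst_inl, ← hfst]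
    rfl
  · rw [TrivSqZeroExt.snd_inl]
    exact congrFun (congrFun (hsnd δ) a) b

end Free

section Line

variable {l : Nat.Primes} {k : Type} [Field k]

theorem exists_stable_line {ρb : GQ →* GL (Fin 2) k}
    (h : ¬ ∀ W : Submodule k (Fin 2 → k),
      (∀ δ : Gl l, ∀ x ∈ W, (ρb (rl l δ)).val *ᵥ x ∈ W) → W = ⊥ ∨ W = ⊤) :
    ∃ w₀ : Fin 2 → k, w₀ ≠ 0 ∧ ∀ δ : Gl l, ∃ a : k, (ρb (rl l δ)).val *ᵥ w₀ = a • w₀ := by
  push Not at h
  obtain ⟨W, hW, hbot, htop⟩ := h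
  have h1 : finrank k W < 2 := by
    have h2 := Submodule.finrank_lt (s := W) htop
    rwa [finrank_fin_fun] at h2
  obtain ⟨v, hv⟩ := finrank_le_one_iff.mp (show finrank k W ≤ 1 by omega)
  have hv0 : (v : Fin 2 → k) ≠ 0 := by
    intro h0
    apply hbot
    rw [Submodule.eq_bot_iff]
    intro x hx
    obtain ⟨c, hc⟩ := hv ⟨x, hx⟩
    have h2 := congrArg Subtype.val hc
    change c • (v : Fin 2 → k) = x at h2
    rw [← h2, h0, smul_zero]
  refine ⟨v, hv0, fun δ => ?_⟩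
  obtain ⟨c, hc⟩ := hv ⟨_, hW δ v v.2⟩
  exact ⟨c, (congrArg Subtype.val hc).symm⟩

theorem exists_line_at {ρb : GQ →* GL (Fin 2) k}
    (hsm : ∃ U : Subgroup GQ, IsOpen (U : Set GQ) ∧ ∀ u ∈ U, ρb u = 1)
    {w₀ : Fin 2 → k} (hw₀ : w₀ ≠ 0) (h : ∀ δ : Gl l, ∃ a : k, (ρb (rl l δ)).val *ᵥ w₀ = a • w₀)
    {A : ValuationSubring Qb} (hA : A.LiesOverPrime (l : ℕ)) :
    ∃ w : Fin 2 → k, w ≠ 0 ∧ ∀ σ ∈ A.decompositionSubgroup ℚ, ∃ a : k,
      (ρb σ).val *ᵥ w = a • w := by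
  obtain ⟨U, hU, hU1⟩ := hsm
  obtain ⟨γ, -, H⟩ := exists_rl_conj hA
  refine ⟨(ρb γ).val *ᵥ w₀, fun h0 => hw₀ ?_, fun σ hσ => ?_⟩
  · have h1 : (ρb γ⁻¹).val *ᵥ ((ρb γ).val *ᵥ w₀) = w₀ := by
      rw [mulVec_mulVec, ← Units.val_mul, ← map_mul, inv_mul_cancel, map_one, Units.val_one,
        one_mulVec]
    rw [← h1, h0, mulVec_zero]
  · obtain ⟨δ, u, hu, h1⟩ := H U hU σ hσ
    obtain ⟨a, ha⟩ := h δ
    refine ⟨a, ?_⟩
    have h2 : σ * γ = γ * (rl l δ * u) := by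
      rw [← h1]
      group
    rw [mulVec_mulVec, ← Units.val_mul, ← map_mul, h2, map_mul, map_mul, hU1 u hu, mul_one,
      Units.val_mul, ← mulVec_mulVec, ha, mulVec_smul]

end Line

section Main

variable {l : Nat.Primes} {T : Type} [CommRing T] [IsLocalRing T] {k : Type} [Field k]

/-- a stable line in the residual representation -/
theorem exists_line_tensor {π : T →+* k} (hπ : RingHom.ker π = maximalIdeal T)
    (hπs : Function.Surjective π) (R : GaloisRepAdic T) (b : Basis (Fin 2) T R.V)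
    {ρ : GQ →* GL (Fin 2) T} (hR : ∀ g, LinearMap.toMatrix b b (R.ρ g) = (ρ g).val)
    {D : Subgroup GQ} {w₀ : Fin 2 → k} (hw₀ : w₀ ≠ 0)
    (h : ∀ σ ∈ D, ∃ a : k, (resRep π ρ σ).val *ᵥ w₀ = a • w₀) :
    ∃ w : ResidueField T ⊗[T] R.V, w ≠ 0 ∧ ∀ σ ∈ D,
      (R.ρ σ).baseChange (ResidueField T) w ∈ (ResidueField T) ∙ w := by
  choose t ht using fun i => hπs (w₀ i)
  let y : R.V := ∑ i, t i • b i
  have hy : ∀ i, b.repr y i = t i := fun i => congrFun (b.repr_sum_self t) i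
  let B := b.baseChange (ResidueField T)
  have hB : ∀ (z : R.V) (i : Fin 2), B.repr ((1 : ResidueField T) ⊗ₜ[T] z) i =
      residue T (b.repr z i) := by
    intro z i
    rw [Basis.baseChange_repr_tmul, Algebra.smul_def, mul_one]
    rfl
  have hmem : ∀ t : T, residue T t = 0 ↔ π t = 0 := fun t => by
    rw [residue_eq_zero_iff, ← hπ, RingHom.mem_ker]
  refine ⟨(1 : ResidueField T) ⊗ₜ[T] y, fun h0 => hw₀ ?_, fun σ hσ => ?_⟩
  · funext i
    have h1 := hB y i
    rw [h0, map_zero, Finsupp.zero_apply, hy] at h1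
    rw [Pi.zero_apply, ← ht]
    exact (hmem _).mp h1.symm
  · obtain ⟨a, ha⟩ := h σ hσ
    obtain ⟨a', ha'⟩ := hπs a
    rw [Submodule.mem_span_singleton]
    refine ⟨residue T a', ?_⟩
    rw [LinearMap.baseChange_tmul]
    apply B.repr.injective
    ext i
    rw [map_smul, Finsupp.smul_apply, hB, hB, smul_eq_mul, ← map_mul, ← sub_eq_zero, ← map_sub,
      hmem, map_sub, map_mul, hy, ha', ht, sub_eq_zero]
    have h2 : b.repr (R.ρ σ y) i = ((ρ σ).val *ᵥ t) i := by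
      rw [← hR]
      have h3 := congrFun (LinearMap.toMatrix_mulVec_repr b b (R.ρ σ) y) i
      rw [← h3]
      congr 1
      funext i
      exact hy i
    have h3 := congrFun ha i
    rw [h2, RingHom.map_mulVec]
    rw [Pi.smul_apply, smul_eq_mul] at h3
    rw [← h3]
    congr 1
    funext i
    exact (ht i).symm

end Main

section Final

variable {l : Nat.Primes} {𝒪 : Type} [CommRing 𝒪] [IsLocalRing 𝒪] [Finite (ResidueField 𝒪)]

/-- **The local type at `p`.** -/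
theorem exists_locAt_p (hl2 : (l : ℕ) ≠ 2) (hl : ((l : ℕ) : 𝒪) ∈ maximalIdeal 𝒪)
    (ρb : GQ →* GL (Fin 2) (ResidueField 𝒪))
    (hcyc : ∀ (g : GQ) (m : ℕ), (∀ μ : Qb, μ ^ (l : ℕ) = 1 → g μ = μ ^ m) →
      (ρb g).val.det = m)
    (hsm : ∃ U : Subgroup GQ, IsOpen (U : Set GQ) ∧ ∀ u ∈ U, ρb u = 1) :
    ∃ τ : LocType 𝒪 4, ∀ (T : Type) [CommRing T] [IsLocalRing T] [IsNoetherianRing T]
      [IsAdicComplete (maximalIdeal T) T] (σ₀ : 𝒪 →+* T) (π : T →+* ResidueField 𝒪),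
      RingHom.ker π = maximalIdeal T → (∀ o, π (σ₀ o) = residue 𝒪 o) →
      ∀ ρ : GQ →* GL (Fin 2) T, resRep π ρ = ρb →
      (∀ n, ∃ U : Subgroup GQ, IsOpen (U : Set GQ) ∧ ∀ u ∈ U, ∀ i j,
        (ρ u).val i j - (1 : Matrix (Fin 2) (Fin 2) T) i j ∈ maximalIdeal T ^ n) →
      (∃ χ : GQ →* 𝒪ˣ, IsCyc (l : ℕ) χ ∧ ∀ g, (ρ g).val.det = σ₀ (χ g)) →
      (∃ (R : GaloisRepAdic T) (b : Basis (Fin 2) T R.V),
        (∀ g, LinearMap.toMatrix b b (R.ρ g) = (ρ g).val) ∧ R.IsFlatAt (l : ℕ)) →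
      LocAt τ l σ₀ π ρ := by
  have hchar : (((l : ℕ) : ℕ) : ResidueField 𝒪) = 0 := by
    rw [← map_natCast (residue 𝒪), residue_eq_zero_iff]
    exact hl
  by_cases hirr : ∀ W : Submodule (ResidueField 𝒪) (Fin 2 → ResidueField 𝒪),
      (∀ δ : Gl l, ∀ x ∈ W, (ρb (rl l δ)).val *ᵥ x ∈ W) → W = ⊥ ∨ W = ⊤
  · obtain ⟨s, i, j, h⟩ := FB.dual_functionals hl2 hchar ρb hcyc hirr
    refine ⟨LocType.free 𝒪 4, ?_⟩
    intro T _ _ _ _ σ₀ π hπ hπσ ρ hres hcont hdet hflat
    obtain ⟨χ, hχ, hdet⟩ := hdet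
    obtain ⟨R, b, hR, hflat⟩ := hflat
    subst hres
    refine LocAt.free hπ (fun x => ?_) (fun g => ⟨_, hdet g⟩)
      (FB.mflat_of_isFlatAt R b hR hflat) h
    obtain ⟨o, rfl⟩ := residue_surjective x
    exact ⟨o, hπσ o⟩
  · obtain ⟨w₀, hw₀, hline⟩ := exists_stable_line hirr
    refine ⟨LocType.ord 𝒪, ?_⟩
    intro T _ _ _ _ σ₀ π hπ hπσ ρ hres hcont hdet hflat
    obtain ⟨χ, hχ, hdet⟩ := hdet
    obtain ⟨R, b, hR, hflat⟩ := hflat
    subst hres
    have hσs : ∀ x : ResidueField 𝒪, ∃ o : 𝒪, π (σ₀ o) = x := fun x => by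
      obtain ⟨o, rfl⟩ := residue_surjective x
      exact ⟨o, hπσ o⟩
    have hπs : Function.Surjective π := fun x => by
      obtain ⟨o, ho⟩ := hσs x
      exact ⟨_, ho⟩
    have hlT : ((l : ℕ) : T) ∈ maximalIdeal T := by
      rw [← hπ, RingHom.mem_ker, map_natCast, hchar]
    have hdetT : ∀ (n : ℕ) (σ : GQ) (a : ℕ), (∀ μ : Qb, μ ^ (l : ℕ) ^ n = 1 → σ μ = μ ^ a) →
        (ρ σ).val.det - (a : T) ∈ Ideal.span {(((l : ℕ) ^ n : ℕ) : T)} := by
      intro n σ a ha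
      have h1 := hχ n σ a ha
      rw [Ideal.mem_span_singleton] at h1 ⊢
      obtain ⟨c, hc⟩ := h1
      refine ⟨σ₀ c, ?_⟩
      have h2 := congrArg σ₀ hc
      rw [map_sub, map_mul, map_pow, map_natCast, map_natCast] at h2
      rw [hdet, h2, Nat.cast_pow]
    have hdetR : R.DetIsCyclotomic (l : ℕ) := by
      refine ⟨hlT, fun n σ a ha => ?_⟩
      rw [← LinearMap.det_toMatrix b, hR]
      exact hdetT n σ a ha
    have hord : R.IsOrdinaryAt (l : ℕ) := by
      refine Conn.isOrdinaryAt_of_flat_of_line R l.2 hl2 hflat hdetR fun A hA => ?_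
      obtain ⟨w, hw, h⟩ := exists_line_at hsm hw₀ hline hA
      exact exists_line_tensor hπ hπs R b hR hw h
    obtain ⟨v₀, hv₀, h1, h2⟩ := OrdP.exists_line R hord b
    have H : OrdP.OrdRep (l : ℕ) (maximalIdeal T) (ρ.comp (rl l)) v₀ :=
      OrdP.OrdRep.of_global hcont hdetT (fun δ => by rw [← hR]; exact h1 δ)
        (fun δ hδ => by rw [← hR]; exact h2 δ hδ)
    intro V _ v
    obtain ⟨x, hx, hx14, -, hψ⟩ := OrdP.framed_ord_params hl2 hπ hσs hlT H hv₀ v
    have key : evalHom (maximalIdeal (MvPowerSeries (V × Fin 3) T))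
        ((MvPowerSeries.C : T →+* MvPowerSeries (V × Fin 3) T).comp σ₀) x hx
        (MvPowerSeries.X (1 : Fin 5) * MvPowerSeries.X (4 : Fin 5)) = 0 := by
      rw [map_mul, evalHom_X, evalHom_X]
      exact hx14
    refine ⟨x, hx, fun r hr => ?_, hψ⟩
    have hr' : r = (MvPowerSeries.X (1 : Fin 5) * MvPowerSeries.X (4 : Fin 5) :
      MvPowerSeries (Fin 5) 𝒪) := hr
    rw [hr']
    exact key

end Final

end Fermat.Agent.RT
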