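import Fermat.Agent.RT.CycPs
import Fermat.Agent.RT.HeckeRep
import Fermat.Agent.ESCore.S34Final
import Fermat.Agent.ESCore.PointNew
import Fermat.Agent.KL.Final
import Fermat.Agent.ESCore.AssemblyAdic

set_option autoImplicit false
set_option maxHeartbeats 400000
set_option linter.style.haveILetI false
set_option linter.unusedSectionVars false
set_option linter.unusedVariables false

/-!
# Local properties of the pseudo-representations attached to newforms
-/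

open IsLocalRing
open Fermat.Agent.ESCore

noncomputable section

namespace Fermat.Agent.RT

open Fermat.Agent.ESCore.Univ

section Full

variable {𝒪 : Type} [CommRing 𝒪] [IsLocalRing 𝒪] [IsNoetherianRing 𝒪]
  [IsAdicComplete (maximalIdeal 𝒪) 𝒪] {χ : GQ →* 𝒪ˣ} {p : ℕ} {K : ℕ} [NeZero K] {S : Finset ℕ}

/-- **The pseudo-representation attached to a point of the Hecke algebra of `Γ₀(K)`**. -/
theorem exists_cycPs_full (hp : p.Prime) (hp𝒪 : (p : 𝒪) ∈ maximalIdeal 𝒪) (hχ : IsCyc p χ)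
    (hpS : p ∈ S) (hKS : ∀ q : ℕ, q.Prime → q ∣ K → q ∈ S)
    {O : Type} [CommRing O] [IsLocalRing O] [IsNoetherianRing O] [IsAdicComplete (maximalIdeal O) O]
    [Algebra 𝒪 O] (hpO : (p : O) ∈ maximalIdeal O) (hdO : ∀ (d : ℕ) (x : O), d ≠ 0 → d * x = 0 → x = 0)
    (π : CuspForm.heckeAlgebra K 2 (↑S : Set ℕ) →+* O) :
    ∃ t : GQ → O, CycPs χ p {q | q ∣ K ∨ q = p} t ∧
      (∀ (l : ℕ) (hl : l.Prime) (hlN : ¬ l ∣ K) (hlS : l ∉ (↑S : Set ℕ)),
        ∀ B : ValuationSubring Qb, B.LiesOverPrime l → ∀ σ : GQ, B.IsFrobeniusAt σ l →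
          t σ = π (CuspForm.heckeAlgebra.T hl hlN hlS)) ∧
      ∀ q : ℕ, q.Prime → q ≠ p → ¬ q ^ 2 ∣ K → ∀ A : ValuationSubring Qb, A.LiesOverPrime q →
        ∀ σ ∈ A.inertiaSubgroupIn ℚ, t σ = 2 := by
  have hKL : ∀ l : ℕ, l.Prime → ¬ l ∣ K → l ≠ p → ∀ B : ValuationSubring Qb,
      B.LiesOverPrime l → ∀ n, KLProp K (p ^ n) B := fun l hl hlN hlp B hB n =>
    KL.klProp (pow_pos hp.pos n) hl hlN
      (fun h => hlp ((Nat.prime_dvd_prime_iff_eq hl hp).mp (hl.dvd_of_dvd_pow h))) hB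
  obtain ⟨c, t, ε, hps, h1, h1', h2, h3, h4, h5⟩ := exists_pseudo_full hp hpS hKS hKL hpO π
  have hε : ∀ σ, (cycT O χ σ : O) = ε σ := by
    intro σ
    rw [← sub_eq_zero]
    refine eq_zero_of_pow hpO fun n => ?_
    haveI : NeZero (p ^ (n + c)) := ⟨(pow_pos hp.pos _).ne'⟩
    obtain ⟨k, hk⟩ := act_eq hp (n + c) σ
    have e1 := hχ (n + c) σ k hk
    obtain ⟨ζ, hζ⟩ := exists_primitiveRoot (p ^ (n + c))
    have e2 := h1' σ (algebraMap ℤ _ (k : ℤ)) (Subalgebra.algebraMap_mem _ _) n (n + c) le_rfl (by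
      change algebraMap ℤ (Module.End ℤ (Additive (XG K (p ^ (n + c))))) (k : ℤ) =
        cycE K (p ^ (n + c)) σ
      rw [cycE_of_eq (k := k) (by
        rw [cyc_eq_of hζ (hk ζ hζ.pow_eq_one), Int.cast_natCast]), eq_intCast])
    have e3 : π (algebraMap ℤ ((∀ n, Module.End ℤ (Additive (XG K (p ^ n)))) ×
        CuspForm.heckeAlgebra K 2 (↑S : Set ℕ)) (k : ℤ)).2 = (k : O) := by
      change π (algebraMap ℤ (CuspForm.heckeAlgebra K 2 (↑S : Set ℕ)) (k : ℤ)) = _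
      rw [eq_intCast, map_intCast, Int.cast_natCast]
    rw [e3] at e2
    rw [Ideal.mem_span_singleton] at e1 e2 ⊢
    obtain ⟨a, ha⟩ := e1
    obtain ⟨b, hb⟩ := e2
    refine ⟨(p : O) ^ c * algebraMap 𝒪 O a - b, ?_⟩
    have e4 : (cycT O χ σ : O) - k = (p : O) ^ (n + c) * algebraMap 𝒪 O a := by
      rw [cycT_coe, ← map_natCast (algebraMap 𝒪 O) k, ← map_sub, ha, map_mul, map_pow, map_natCast]
    rw [pow_add] at e4
    linear_combination e4 - hb
  have hps' : IsPseudo t (cycT O χ) := by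
    have : cycT O χ = ε := by
      ext σ
      exact hε σ
    rw [this]
    exact hps
  refine ⟨t, ⟨hps', fun n => ?_, fun q hq hqB A hA σ hσ g => ?_⟩,
    fun l hl hlN hlS B hB σ hσ => (h2 l hl hlN hlS B hB σ hσ).1, fun q hq hqp hq2 A hA σ hσ => ?_⟩
  · obtain ⟨L, hL, hL2⟩ := h3 n
    exact ⟨L, hL, fun σ hσ => (hL2 σ hσ).1⟩
  · rw [Set.mem_ofPred_eq, not_or] at hqB
    exact (h4 q hq hqB.1 hqB.2 A hA σ hσ).1 g
  · by_cases hqK : q ∣ K
    · obtain ⟨M, hM⟩ := hqK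
      have hM0 : M ≠ 0 := by
        rintro rfl
        exact NeZero.ne K (by rw [hM, mul_zero])
      have hqM : ¬ q ∣ M := by
        rintro ⟨M', rfl⟩
        exact hq2 ⟨M', by rw [hM]; ring⟩
      have hM1 : NeZero (auxLev q * M) := ⟨mul_ne_zero (auxLev_pos q).ne' hM0⟩
      have hN' : NeZero (q * (auxLev q * M)) := ⟨mul_ne_zero hq.ne_zero hM1.out⟩
      have hqM' : ¬ q ∣ auxLev q * M := by
        intro h
        rcases hq.dvd_mul.mp h with h | h
        · exact not_dvd_auxLev hq h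
        · exact hqM h
      obtain ⟨d, hd, h6⟩ := trace_inertia (N' := q * (auxLev q * M)) hp hpS hKS hKL
        ⟨auxLev q, by rw [hM]; ring⟩ hq hqp hA (fun n => LG1Prop_of hq hA rfl hqM'
          (goodLev_aux q M) _
          (fun h => hqp ((Nat.prime_dvd_prime_iff_eq hq hp).mp (hq.dvd_of_dvd_pow h)))) hpO h1
      exact sub_eq_zero.mp (hdO d _ hd (h6 σ hσ))
    · have e1 := (h4 q hq hqK hqp A hA σ hσ).1 1
      rw [mul_one] at e1
      rw [e1, hps.one]

end Full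

end Fermat.Agent.RT
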