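import Fermat.Agent.RT.EigVan
import Fermat.Agent.RT.Conduct
import Fermat.Agent.ESG.Point

set_option autoImplicit false
set_option maxHeartbeats 400000
set_option linter.style.haveILetI false
set_option linter.unusedSectionVars false
set_option linter.unusedVariables false

/-!
# Systems of eigenvalues of the twisted Hecke algebra and newforms
-/

open IsLocalRing CongruenceSubgroup Matrix.SpecialLinearGroup ModularFormClass
open scoped MatrixGroups
open Fermat.Agent.ESCore Fermat.Agent.ESCore.UnivG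
open Fermat.Agent.ESCore.Univ (Idx)
open Fermat.Agent.ESCore.Gal (dU dLift dU_dLift dU_coe)

noncomputable section

namespace Fermat.Agent.RT

/-- Points and newforms, in a flexible form. -/
theorem exists_newform_of_point' {N N₁ D : ℕ} [NeZero N] (hN : N = N₁ * D) (hND : N₁.Coprime D)
    (hD : Squarefree D) (ψ : DirichletCharacter ℂ D) {G : Subgroup SL(2, ℤ)}
    (h1 : Gamma1 N ≤ G) (h0 : G ≤ Gamma0 N) {S : Finset ℕ}
    (lam : TG h1 h0 S →+* ℂ) (i₀ : Idx N S) (hi₀ : N ∣ i₀.1 - 1)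
    (hlam : lam (genT h1 h0 S (Sum.inl i₀)) ≠ i₀.1 + 1)
    (hψ : ∀ δ : Gamma0 N, lam (genT h1 h0 S (Sum.inr δ)) =
      ψ (((δ : SL(2, ℤ)) 1 1 : ℤ) : ZMod D) ^ 2) :
    ∃ (M : ℕ) (f : CuspForm (Gamma0 M) 2), M ∣ N₁ * D ^ 2 ∧ f.IsNewform ∧
      (∀ i : Idx N S, qCoeff f i.1 =
        ψ⁻¹ (i.1 : ZMod D) * lam (genT h1 h0 S (Sum.inl i))) ∧
      ∀ q : ℕ, q.Prime → q ∣ D → AL.NontrivAt D ψ q → M.factorization q = 2 := by
  subst hN
  haveI : NeZero N₁ := ⟨fun h => NeZero.ne (N₁ * D) (by rw [h, zero_mul])⟩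
  haveI : NeZero D := ⟨fun h => NeZero.ne (N₁ * D) (by rw [h, mul_zero])⟩
  exact ESG.exists_newform_of_point hND hD ψ h1 h0 lam i₀ hi₀ hlam hψ

section Theta

variable {N : ℕ} [NeZero N] {G : Subgroup SL(2, ℤ)} (h1 : Gamma1 N ≤ G) (h0 : G ≤ Gamma0 N)
  {S : Finset ℕ} {𝒪 : Type} [CommRing 𝒪] {𝔻 : Type} [CommGroup 𝔻] [Finite 𝔻] {d : ℕ}
  {ψ : (ZMod N)ˣ →* 𝔻} {π : TG h1 h0 S →+* Matrix (Fin d) (Fin d) (MonoidAlgebra 𝒪 𝔻)}
  (hπ : ∀ δ, π (genT h1 h0 S (Sum.inr δ)) = scal 𝒪 d (ψ (dU N δ)))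
  {T : Type} [CommRing T] [Algebra 𝒪 T] {ι : T →ₐ[𝒪] Matrix (Fin d) (Fin d) (MonoidAlgebra 𝒪 𝔻)}
  {x : Idx N S → T}
  (hx : ∀ i, ι (x i) = π (genT h1 h0 S (Sum.inl i)) *
        scal 𝒪 d ((half (ψ (dU N (sigmaD N i.1))))⁻¹))
  {L : Type} [Field L] [CharZero L] [Algebra 𝒪 L]
  {ψh : MonoidAlgebra 𝒪 𝔻 →ₐ[𝒪] L} {lam : T →ₐ[𝒪] L}

lemma scal_mulVec (g : 𝔻) (v : Fin d → L) :
    Matrix.mulVec ((scal 𝒪 d g).map ψh) v = ψh (MonoidAlgebra.of 𝒪 𝔻 g) • v := by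
  have h : (scal 𝒪 d g).map ψh = ψh (MonoidAlgebra.of 𝒪 𝔻 g) • (1 : Matrix (Fin d) (Fin d) L) := by
    ext a b
    rw [Matrix.map_apply, scal, Matrix.scalar_apply, Matrix.diagonal_apply, Matrix.smul_apply,
      Matrix.one_apply]
    split_ifs
    · rw [smul_eq_mul, mul_one]
    · rw [map_zero, smul_zero]
  rw [h, Matrix.smul_mulVec, Matrix.one_mulVec]

include hπ hx in
theorem EigSys.exists_theta (h : EigSys ι ψh lam) : ∃ θ : TG h1 h0 S →+* L,
    (∀ i, θ (genT h1 h0 S (Sum.inl i)) =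
      lam (x i) * ψh (MonoidAlgebra.of 𝒪 𝔻 (half (ψ (dU N (sigmaD N i.1)))))) ∧
    ∀ δ, θ (genT h1 h0 S (Sum.inr δ)) = ψh (MonoidAlgebra.of 𝒪 𝔻 (ψ (dU N δ))) := by
  obtain ⟨v, hv, hev⟩ := h
  have huniq : ∀ a b : L, a • v = b • v → a = b := by
    intro a b hab
    have h4 : (a - b) • v = 0 := by rw [sub_smul, hab, sub_self]
    exact sub_eq_zero.mp ((smul_eq_zero.mp h4).resolve_right hv)
  let F : Matrix (Fin d) (Fin d) (MonoidAlgebra 𝒪 𝔻) →+* Matrix (Fin d) (Fin d) L :=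
    (ψh : MonoidAlgebra 𝒪 𝔻 →+* L).mapMatrix
  have hF : ∀ M, F M = M.map ψh := fun M => rfl
  have hT : ∀ i : Idx N S, Matrix.mulVec (F (π (genT h1 h0 S (Sum.inl i)))) v =
      (lam (x i) * ψh (MonoidAlgebra.of 𝒪 𝔻 (half (ψ (dU N (sigmaD N i.1)))))) • v := by
    intro i
    have e1 : π (genT h1 h0 S (Sum.inl i)) =
        scal 𝒪 d (half (ψ (dU N (sigmaD N i.1)))) * ι (x i) := by
      rw [hx, scal_comm, mul_assoc, ← scal_mul, inv_mul_cancel, scal_one, mul_one]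
    rw [e1, map_mul, ← Matrix.mulVec_mulVec, hF, hF, hev, Matrix.mulVec_smul, scal_mulVec,
      smul_smul]
  have hD : ∀ δ, Matrix.mulVec (F (π (genT h1 h0 S (Sum.inr δ)))) v =
      ψh (MonoidAlgebra.of 𝒪 𝔻 (ψ (dU N δ))) • v := by
    intro δ
    rw [hπ, hF, scal_mulVec]
  have hall : ∀ t : TG h1 h0 S, ∃ c : L, Matrix.mulVec (F (π t)) v = c • v := by
    intro t
    refine TG_induction h1 h0 S (P := fun t => ∃ c : L, Matrix.mulVec (F (π t)) v = c • v)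
      ?_ ?_ ?_ ?_ t
    · rintro (i | δ)
      · exact ⟨_, hT i⟩
      · exact ⟨_, hD δ⟩
    · intro n
      refine ⟨n, ?_⟩
      rw [map_intCast, map_intCast]
      have : ((n : ℤ) : Matrix (Fin d) (Fin d) L) = (n : L) • 1 := by
        rw [← map_intCast (algebraMap L (Matrix (Fin d) (Fin d) L)) n,
          Algebra.algebraMap_eq_smul_one]
      rw [this, Matrix.smul_mulVec, Matrix.one_mulVec]
    · rintro s t ⟨a, ha⟩ ⟨b, hb⟩
      exact ⟨a + b, by rw [map_add, map_add, Matrix.add_mulVec, ha, hb, add_smul]⟩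
    · rintro s t ⟨a, ha⟩ ⟨b, hb⟩
      exact ⟨b * a, by rw [map_mul, map_mul, ← Matrix.mulVec_mulVec, hb, Matrix.mulVec_smul, ha,
        smul_smul]⟩
  choose θ hθ using hall
  refine ⟨{ toFun := θ
            map_one' := huniq _ _ (by rw [← hθ, map_one, map_one, Matrix.one_mulVec, one_smul])
            map_mul' := fun s t => huniq _ _ (by
              rw [← hθ, map_mul, map_mul, ← Matrix.mulVec_mulVec, hθ, Matrix.mulVec_smul, hθ,
                smul_smul, mul_comm])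
            map_zero' := huniq _ _ (by rw [← hθ, map_zero, map_zero, Matrix.zero_mulVec, zero_smul])
            map_add' := fun s t => huniq _ _ (by
              rw [← hθ, map_add, map_add, Matrix.add_mulVec, hθ, hθ, add_smul]) },
    fun i => huniq _ _ (by rw [← hT]; exact (hθ _).symm),
    fun δ => huniq _ _ (by rw [← hD]; exact (hθ _).symm)⟩

variable [IsLocalRing T] {a : ℕ → 𝒪} (hxm : ∀ i, x i - algebraMap 𝒪 T (a i.1) ∈ maximalIdeal T)

lemma isIntegral_TG (t : TG h1 h0 S) : IsIntegral ℤ t := by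
  haveI : G.FiniteIndex := Subgroup.finiteIndex_of_le h1
  haveI := finite_TG h1 h0 S
  exact IsIntegral.of_finite ℤ t

include hπ hx hxm in
/-- **Systems of eigenvalues come from newforms.** -/
theorem EigSys.exists_newform (h : EigSys ι ψh lam) {N₁ D₁ : ℕ} (hN : N = N₁ * D₁)
    (hcop : N₁.Coprime D₁) (hsq : Squarefree D₁) (hd₁ : D₁ ∣ N) (hodd : Odd (Nat.card 𝔻))
    (hψ1 : ∀ u : (ZMod N)ˣ, ZMod.unitsMap hd₁ u = 1 → ψ u = 1)
    (i₀ : Idx N S) (hi₀ : N ∣ i₀.1 - 1) (ha₀ : IsUnit (a i₀.1 - (i₀.1 + 1))) :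
    ∃ (K : ℕ) (f : CuspForm (Gamma0 K) 2) (E : algebraicClosure ℚ L →+* ℂ), K ≠ 0 ∧
      f.IsNewform ∧
      (∀ i : Idx N S, ∃ z : algebraicClosure ℚ L, (z : L) = lam (x i) ∧ E z = qCoeff f i.1) ∧
      (∀ q : ℕ, q.Prime → ¬ q ∣ D₁ → K.factorization q ≤ N.factorization q) ∧
      (∀ q : ℕ, q.Prime → q ∣ D₁ → K.factorization q ≤ 1 ∨
        ∃ (u : (ZMod N)ˣ) (y : ℕ), (u : ZMod N) = y ∧ y ≡ 1 [MOD (N / q)] ∧
          ψh (MonoidAlgebra.of 𝒪 𝔻 (ψ u)) ≠ 1) ∧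
      (∀ q : ℕ, q.Prime → q ∣ D₁ → (∃ (u : (ZMod N)ˣ) (y : ℕ), (u : ZMod N) = y ∧
        y ≡ 1 [MOD (N / q)] ∧ ψh (MonoidAlgebra.of 𝒪 𝔻 (ψ u)) ≠ 1) → K.factorization q = 2) := by
  obtain ⟨θ, hθ1, hθ2⟩ := EigSys.exists_theta h1 h0 hπ hx h
  -- algebraicity
  have hθK : ∀ t, θ t ∈ algebraicClosure ℚ L := by
    intro t
    rw [mem_algebraicClosure_iff]
    have e1 : IsIntegral ℤ (θ t) := (isIntegral_TG h1 h0 t).map (θ.toIntAlgHom)
    exact (e1.tower_top (A := ℚ)).isAlgebraic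
  have hψK : ∀ g : 𝔻, ψh (MonoidAlgebra.of 𝒪 𝔻 g) ∈ algebraicClosure ℚ L := by
    intro g
    rw [mem_algebraicClosure_iff]
    have e1 : ψh (MonoidAlgebra.of 𝒪 𝔻 g) ^ Nat.card 𝔻 = 1 := by
      rw [← map_pow, ← map_pow, pow_card_eq_one', map_one, map_one]
    exact (IsIntegral.of_pow (Nat.card_pos) (by rw [e1]; exact isIntegral_one)).isAlgebraic
  haveI : Algebra.IsAlgebraic ℚ (algebraicClosure ℚ L) := algebraicClosure.isAlgebraic ℚ L
  obtain ⟨E⟩ : Nonempty (algebraicClosure ℚ L →+* ℂ) :=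
    ⟨((IsAlgClosed.lift : algebraicClosure ℚ L →ₐ[ℚ] ℂ) : algebraicClosure ℚ L →+* ℂ)⟩
  let θ' : TG h1 h0 S →+* algebraicClosure ℚ L := θ.codRestrict (algebraicClosure ℚ L).toSubring hθK
  have hθ' : ∀ t, ((θ' t : algebraicClosure ℚ L) : L) = θ t := fun t => rfl
  let κ0 : 𝔻 →* algebraicClosure ℚ L :=
    { toFun := fun g => ⟨ψh (MonoidAlgebra.of 𝒪 𝔻 g), hψK g⟩
      map_one' := Subtype.ext (by
        change ψh (MonoidAlgebra.of 𝒪 𝔻 1) = 1
        rw [map_one, map_one])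
      map_mul' := fun g g' => Subtype.ext (by
        change ψh (MonoidAlgebra.of 𝒪 𝔻 (g * g')) = ψh (MonoidAlgebra.of 𝒪 𝔻 g) *
          ψh (MonoidAlgebra.of 𝒪 𝔻 g')
        rw [map_mul, map_mul]) }
  have hκ0 : ∀ g, ((κ0 g : algebraicClosure ℚ L) : L) = ψh (MonoidAlgebra.of 𝒪 𝔻 g) :=
    fun g => rfl
  let hf : (ZMod N)ˣ →* ℂ :=
    { toFun := fun u => E (κ0 (half (ψ u)))
      map_one' := by rw [map_one, half_one, map_one, map_one]
      map_mul' := fun u v => by rw [map_mul, half_mul, map_mul, map_mul] }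
  let κ : (ZMod N)ˣ →* ℂˣ := hf.toHomUnits
  have hκ : ∀ u, (κ u : ℂ) = E (κ0 (half (ψ u))) := fun u => rfl
  have hκ1 : ∀ u, κ u = 1 ↔ ψh (MonoidAlgebra.of 𝒪 𝔻 (ψ u)) = 1 := by
    intro u
    constructor
    · intro hu
      have e1 : E (κ0 (half (ψ u))) = 1 := by rw [← hκ, hu, Units.val_one]
      have e2 : κ0 (half (ψ u)) = 1 := E.injective (by rw [e1, map_one])
      have e3 : κ0 (ψ u) = 1 := by
        rw [← half_sq hodd (ψ u), map_pow, e2, one_pow]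
      rw [← hκ0, e3]; rfl
    · intro hu
      have e3 : κ0 (ψ u) = 1 := Subtype.ext (by rw [hκ0, hu]; rfl)
      apply Units.ext
      rw [hκ, half, map_pow, e3, one_pow, map_one, Units.val_one]
  obtain ⟨D, ψD, hDD₁, hψD, hnt, hiff⟩ := exists_conductor_char hN hcop hsq hd₁ κ
    (fun u hu => by
      rw [hκ1, hψ1 u hu, map_one, map_one]) (fun u => ⟨Nat.card 𝔻, hodd, by
      apply Units.ext
      rw [Units.val_pow_eq_pow_val, hκ, ← map_pow, ← map_pow, pow_card_eq_one', map_one, map_one,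
        Units.val_one]⟩)
  obtain ⟨c, hc⟩ := hDD₁
  have hN' : N = (N₁ * c) * D := by rw [hN, hc]; ring
  have hcop' : (N₁ * c).Coprime D := by
    refine Nat.Coprime.mul_left ?_ ?_
    · exact Nat.Coprime.coprime_dvd_right ⟨c, hc⟩ hcop
    · rw [hc] at hsq
      exact (Nat.coprime_of_squarefree_mul hsq).symm
  have hsqD : Squarefree D := hsq.squarefree_of_dvd ⟨c, hc⟩
  have hlift : ∀ l : ℕ, l.Prime → ¬ l ∣ N → ((dU N (sigmaD N l) : (ZMod N)ˣ) : ZMod N) = (l : ℤ) := by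
    intro l hl hlN
    rw [dU_coe, sigmaD_11 (isCoprime_of_prime hl hlN)]
  obtain ⟨K, f, hK, hf, hcoef, hfac⟩ := exists_newform_of_point' hN' hcop' hsqD ψD h1 h0
    (E.comp θ') i₀ hi₀ (fun hbad => by
      have e1 : dU N (sigmaD N i₀.1) = 1 := by
        apply Units.ext
        rw [hlift i₀.1 i₀.2.1 i₀.2.2.1, Units.val_one]
        have e2 : ((N : ℕ) : ℤ) ∣ (i₀.1 : ℤ) - 1 := by
          have := Int.natCast_dvd_natCast.mpr hi₀
          rwa [Nat.cast_sub i₀.2.1.one_le, Nat.cast_one] at this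
        have e3 := (ZMod.intCast_zmod_eq_zero_iff_dvd _ N).mpr e2
        rw [Int.cast_sub, Int.cast_one, sub_eq_zero] at e3
        exact e3
      have e2 : E (θ' (genT h1 h0 S (Sum.inl i₀))) = i₀.1 + 1 := hbad
      have e3 : θ' (genT h1 h0 S (Sum.inl i₀)) = i₀.1 + 1 := by
        apply E.injective
        rw [e2, map_add, map_natCast, map_one]
      have e4 : lam (x i₀) = i₀.1 + 1 := by
        have e5 := congrArg (fun z : algebraicClosure ℚ L => (z : L)) e3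
        simp only [hθ', hθ1, e1, map_one, half_one, mul_one] at e5
        rw [e5]; push_cast; rfl
      have e5 : IsUnit (x i₀ - (i₀.1 + 1)) := by
        by_contra hne
        have e6 : x i₀ - (i₀.1 + 1) ∈ maximalIdeal T := hne
        have e7 := Ideal.sub_mem _ e6 (hxm i₀)
        have e8 : x i₀ - (i₀.1 + 1) - (x i₀ - algebraMap 𝒪 T (a i₀.1)) =
            algebraMap 𝒪 T (a i₀.1 - (i₀.1 + 1)) := by
          rw [map_sub, map_add, map_natCast, map_one]; ring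
        rw [e8] at e7
        exact e7 (ha₀.map _)
      have e6 := e5.map lam
      rw [map_sub, map_add, map_natCast, map_one, e4, sub_self] at e6
      exact not_isUnit_zero e6) (fun δ => by
      change E (θ' (genT h1 h0 S (Sum.inr δ))) = _
      rw [hψD _ (dU N δ) (dU_coe δ), hκ, ← map_pow, ← map_pow, half_sq hodd]
      congr 1
      exact Subtype.ext (by rw [hθ', hθ2, hκ0]))
  have hKN : K ∣ N * D := by
    have : N₁ * c * D ^ 2 = N * D := by rw [hN']; ring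
    rwa [this] at hK
  have hD0 : D ≠ 0 := fun h => NeZero.ne N (by rw [hN', h, mul_zero])
  have hK0 : K ≠ 0 := fun h => by
    rw [h, zero_dvd_iff] at hKN
    exact mul_ne_zero (NeZero.ne N) hD0 hKN
  have hKle : ∀ q : ℕ, ¬ q ∣ D → K.factorization q ≤ N.factorization q := by
    intro q hqD
    have e1 := (Nat.factorization_le_iff_dvd hK0 (mul_ne_zero (NeZero.ne N) hD0)).mpr hKN q
    rw [Nat.factorization_mul (NeZero.ne N) hD0, Finsupp.add_apply,
      Nat.factorization_eq_zero_of_not_dvd hqD, add_zero] at e1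
    exact e1
  refine ⟨K, f, E, hK0, hf, fun i => ?_, fun q hq hqD₁ =>
    hKle q fun h => hqD₁ (h.trans ⟨c, hc⟩), fun q hq hqD₁ => ?_, fun q hq hqD₁ hu => ?_⟩
  · refine ⟨θ' (genT h1 h0 S (Sum.inl i)) * (κ0 (half (ψ (dU N (sigmaD N i.1)))))⁻¹, ?_, ?_⟩
    · have e0 : ψh (MonoidAlgebra.of 𝒪 𝔻 (half (ψ (dU N (sigmaD N i.1))))) ≠ 0 := by
        intro e
        have e1 : ψh (MonoidAlgebra.of 𝒪 𝔻 (half (ψ (dU N (sigmaD N i.1))))) *
            ψh (MonoidAlgebra.of 𝒪 𝔻 (half (ψ (dU N (sigmaD N i.1))))⁻¹) = 1 := by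
          rw [← map_mul, ← map_mul, mul_inv_cancel, map_one, map_one]
        rw [e, zero_mul] at e1
        exact zero_ne_one e1
      change θ (genT h1 h0 S (Sum.inl i)) * (ψh (MonoidAlgebra.of 𝒪 𝔻 (half (ψ (dU N (sigmaD N i.1))))))⁻¹ = _
      rw [hθ1, mul_assoc, mul_inv_cancel₀ e0, mul_one]
    · rw [hcoef i]
      have e1 := hψD (i.1 : ℤ) (dU N (sigmaD N i.1)) (hlift i.1 i.2.1 i.2.2.1)
      rw [MulChar.inv_apply_eq_inv', ← Int.cast_natCast (R := ZMod D), e1, hκ, mul_comm]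
      change E (_ * _) = _ * E (θ' _)
      rw [map_mul, map_inv₀, mul_comm]
  · by_cases hqD : q ∣ D
    · right
      obtain ⟨u, ⟨y, hu, hy⟩, hne⟩ := (hiff q hq hqD₁).mp hqD
      exact ⟨u, y, hu, hy, fun h => hne ((hκ1 u).mpr h)⟩
    · left
      refine (hKle q hqD).trans ?_
      rw [hN, Nat.factorization_mul (fun h => NeZero.ne N (by rw [hN, h, zero_mul]))
        (fun h => NeZero.ne N (by rw [hN, h, mul_zero])), Finsupp.add_apply,
        Nat.factorization_eq_zero_of_not_dvd (fun h => ?_), zero_add]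
      · exact hsq.natFactorization_le_one q
      · exact hq.one_lt.ne' (Nat.dvd_one.mp (hcop ▸ Nat.dvd_gcd h hqD₁))
  · obtain ⟨u, y, hu, hy, hne⟩ := hu
    have hqD : q ∣ D := (hiff q hq hqD₁).mpr ⟨u, ⟨y, hu, hy⟩, fun h => hne ((hκ1 u).mp h)⟩
    exact hfac q hq hqD (hnt q hq hqD)

end Theta

end Fermat.Agent.RT
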