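import Fermat.Agent.RT.PointLoc
import Fermat.Agent.RT.Points
import Fermat.Agent.RT.DvrExt

set_option autoImplicit false
set_option maxHeartbeats 400000
set_option linter.style.haveILetI false
set_option linter.unusedSectionVars false
set_option linter.unusedVariables false

/-!
# Local properties at the points of the twisted Hecke algebra
-/

open IsLocalRing CongruenceSubgroup Matrix.SpecialLinearGroup ModularFormClass
open scoped MatrixGroups
open Fermat.Agent.ESCore Fermat.Agent.ESCore.UnivG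
open Fermat.Agent.ESCore.Univ (Idx)
open Fermat.Agent.ESCore.Gal (dU dLift dU_dLift dU_coe)

noncomputable section

namespace Fermat.Agent.RT

section Transfer

variable {𝒪 : Type} [CommRing 𝒪] [IsDomain 𝒪] [IsDiscreteValuationRing 𝒪]
  [IsAdicComplete (maximalIdeal 𝒪) 𝒪] [Finite (ResidueField 𝒪)] [CharZero 𝒪]
  {T : Type} [CommRing T] [Algebra 𝒪 T] [Module.Finite 𝒪 T]
  {L : Type} [Field L] [CharZero L] [Algebra 𝒪 L] (hL : Function.Injective (algebraMap 𝒪 L))
  (lam : T →ₐ[𝒪] L)

include hL in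
/-- **Points with values in complete discrete valuation rings.** -/
theorem exists_dvr_of_point :
    ∃ (O' : Type) (_ : CommRing O') (_ : IsDomain O') (_ : IsDiscreteValuationRing O')
      (_ : IsAdicComplete (maximalIdeal O') O') (_ : Finite (ResidueField O')) (_ : CharZero O')
      (_ : Algebra 𝒪 O') (_ : Module.Finite 𝒪 O') (_ : IsLocalHom (algebraMap 𝒪 O')),
      Function.Injective (algebraMap 𝒪 O') ∧ ∃ f : lam.range →ₐ[𝒪] O', Function.Injective f := by
  haveI : Module.Finite 𝒪 lam.range :=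
    Module.Finite.of_surjective lam.rangeRestrict.toLinearMap (fun y => by
      obtain ⟨z, hz⟩ := y.2
      exact ⟨z, Subtype.ext hz⟩)
  exact exists_dvr_ext lam.range (fun x y h => hL (congrArg Subtype.val h))

/-- The transfer of the Hecke field. -/
theorem exists_iota {K : ℕ} [NeZero K] {f : CuspForm (Gamma0 K) 2} (hf : f.IsNormalizedEigenform)
    {S : Finset ℕ} (hKS : ∀ q : ℕ, q.Prime → q ∣ K → q ∈ S)
    {A : Type} [CommRing A] (B : Subring L) (g : B →+* A)
    (E : algebraicClosure ℚ L →+* ℂ)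
    (h : ∀ l : ℕ, l.Prime → l ∉ S → ∃ z : algebraicClosure ℚ L, (z : L) ∈ B ∧ E z = qCoeff f l) :
    ∃ iota : (eigenHomC hf (↑S : Set ℕ)).range →+* A,
      ∀ (l : ℕ) (hl : l.Prime) (hlK : ¬ l ∣ K) (hlS : l ∉ (↑S : Set ℕ)) (z : algebraicClosure ℚ L)
        (hz : (z : L) ∈ B), E z = qCoeff f l →
        iota ((eigenHomC hf (↑S : Set ℕ)).rangeRestrict (CuspForm.heckeAlgebra.T hl hlK hlS)) =
          g ⟨z, hz⟩ := by
  let S₁ : Subring (algebraicClosure ℚ L) := B.comap (algebraMap (algebraicClosure ℚ L) L)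
  let R : Subring ℂ := S₁.map E
  have hle : (eigenHomC hf (↑S : Set ℕ)).range ≤ R := by
    rintro _ ⟨t, rfl⟩
    refine mem_range_of_T (fun q hq hqK => hKS q hq hqK) _ _ (fun l hl hlM hlS => ?_) t
    obtain ⟨z, hz, hE⟩ := h l hl hlS
    have e1 : eigenHomC hf (↑S : Set ℕ) (CuspForm.heckeAlgebra.T hl hlM hlS) = qCoeff f l :=
      eigenHom_T hf hl hlM hlS
    rw [e1]
    exact ⟨z, hz, hE⟩
  let e : S₁ ≃+* R := S₁.equivMapOfInjective E E.injective
  have he : ∀ z : S₁, ((e z : R) : ℂ) = E z := fun z => rfl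
  let g' : S₁ →+* B :=
    { toFun := fun z => ⟨(z.1 : L), z.2⟩
      map_one' := rfl
      map_mul' := fun _ _ => rfl
      map_zero' := rfl
      map_add' := fun _ _ => rfl }
  refine ⟨(g.comp (g'.comp (e.symm : R →+* S₁))).comp (Subring.inclusion hle),
    fun l hl hlK hlS z hz hE => ?_⟩
  change g (g' (e.symm _)) = _
  have h2 : e.symm (Subring.inclusion hle ((eigenHomC hf (↑S : Set ℕ)).rangeRestrict
      (CuspForm.heckeAlgebra.T hl hlK hlS))) = ⟨z, hz⟩ := by
    rw [RingEquiv.symm_apply_eq]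
    apply Subtype.ext
    rw [he]
    change eigenHomC hf (↑S : Set ℕ) (CuspForm.heckeAlgebra.T hl hlK hlS) = E z
    have e1 : eigenHomC hf (↑S : Set ℕ) (CuspForm.heckeAlgebra.T hl hlK hlS) = qCoeff f l :=
      eigenHom_T hf hl hlK hlS
    rw [e1, hE]
  rw [h2]
  rfl

end Transfer

end Fermat.Agent.RT
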