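import Fermat.Agent.RT.HPDefs

set_option autoImplicit false
set_option maxHeartbeats 400000
set_option linter.style.haveILetI false
set_option linter.unusedSectionVars false
set_option linter.unusedVariables false

/-!
# The character of a Taylor–Wiles level, locally
-/

open IsLocalRing

noncomputable section

namespace Fermat.Agent.RT

section CRT

/-- Units with prescribed residue at `ℓ`. -/
lemma exists_unit_at {N l : ℕ} [NeZero N] (hl : l ∣ N) (hcop : l.Coprime (N / l)) (g : (ZMod l)ˣ) :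
    ∃ (u : (ZMod N)ˣ) (y : ℕ), (u : ZMod N) = y ∧ y ≡ 1 [MOD (N / l)] ∧
      ZMod.unitsMap hl u = g := by
  haveI : NeZero l := ⟨fun h => NeZero.ne N (Nat.eq_zero_of_zero_dvd (h ▸ hl))⟩
  obtain ⟨y, hy1, hy2⟩ := Nat.chineseRemainder hcop (g : ZMod l).val 1
  have hN : l * (N / l) = N := Nat.mul_div_cancel' hl
  have hyl : (y : ZMod l) = (g : ZMod l) := by
    have h1 := (ZMod.natCast_eq_natCast_iff _ _ _).mpr hy1
    rw [h1, ZMod.natCast_zmod_val]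
  have hcopy : y.Coprime N := by
    rw [← hN]
    refine Nat.Coprime.mul_right ?_ ?_
    · have h2 : IsUnit (y : ZMod l) := by rw [hyl]; exact g.isUnit
      exact (ZMod.isUnit_iff_coprime y l).mp h2
    · have h3 : Nat.gcd y (N / l) = Nat.gcd 1 (N / l) := by
        have := hy2
        exact Nat.ModEq.gcd_eq hy2
      rw [Nat.Coprime, h3, Nat.gcd_one_left]
  refine ⟨ZMod.unitOfCoprime y hcopy, y, ZMod.coe_unitOfCoprime _ _, hy2, ?_⟩
  apply Units.ext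
  rw [ZMod.unitsMap_val, ZMod.coe_unitOfCoprime, ← hyl]
  exact ZMod.cast_natCast hl y

end CRT

section Psi

variable {N q₀ p r : ℕ} [NeZero N] {q : Fin r → ℕ} {e : Fin r → ℕ} (h₀ : q₀ ∣ N)
  (h₁ : ∀ i, q i ∣ N) (ψ₀ : (ZMod q₀)ˣ →* Multiplicative (ZMod p))
  (ψ₁ : ∀ i, (ZMod (q i))ˣ →* Multiplicative (ZMod (p ^ e i)))

lemma psiN_apply (u : (ZMod N)ˣ) : psiN h₀ h₁ ψ₀ ψ₁ u =
    (ψ₀ (ZMod.unitsMap h₀ u), fun i => ψ₁ i (ZMod.unitsMap (h₁ i) u)) := rfl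

lemma unitsMap_eq_one {l n : ℕ} (hl : l ∣ N) {u : (ZMod N)ˣ} {y : ℕ} (hu : (u : ZMod N) = y)
    (hy : y ≡ 1 [MOD n]) (hln : l ∣ n) : ZMod.unitsMap hl u = 1 := by
  apply Units.ext
  rw [ZMod.unitsMap_val, hu, Units.val_one]
  have h1 : ((y : ZMod N).cast : ZMod l) = (y : ZMod l) := ZMod.cast_natCast hl y
  rw [h1]
  have h2 := (ZMod.natCast_eq_natCast_iff y 1 l).mpr (hy.of_dvd hln)
  rw [h2, Nat.cast_one]

/-- At a Taylor–Wiles prime. -/
lemma psiN_at (j : Fin r) (h₀j : q₀ ∣ N / q j) (hij : ∀ i, i ≠ j → q i ∣ N / q j)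
    {u : (ZMod N)ˣ} {y : ℕ} (hu : (u : ZMod N) = y) (hy : y ≡ 1 [MOD (N / q j)]) :
    psiN h₀ h₁ ψ₀ ψ₁ u = (1, Pi.mulSingle j (ψ₁ j (ZMod.unitsMap (h₁ j) u))) := by
  rw [psiN_apply]
  refine Prod.ext ?_ ?_
  · rw [unitsMap_eq_one h₀ hu hy h₀j, map_one]
  · funext i
    by_cases hi : i = j
    · subst hi
      change _ = (Pi.mulSingle i (ψ₁ i (ZMod.unitsMap (h₁ i) u)) :
        ∀ i, Multiplicative (ZMod (p ^ e i))) i
      rw [Pi.mulSingle_eq_same]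
    · change ψ₁ i (ZMod.unitsMap (h₁ i) u) = (Pi.mulSingle j (ψ₁ j (ZMod.unitsMap (h₁ j) u)) :
        ∀ i, Multiplicative (ZMod (p ^ e i))) i
      rw [unitsMap_eq_one (h₁ i) hu hy (hij i hi), map_one, Pi.mulSingle_eq_of_ne hi]

/-- At the special prime. -/
lemma psiN_at₀ (hij : ∀ i, q i ∣ N / q₀)
    {u : (ZMod N)ˣ} {y : ℕ} (hu : (u : ZMod N) = y) (hy : y ≡ 1 [MOD (N / q₀)]) :
    psiN h₀ h₁ ψ₀ ψ₁ u = (ψ₀ (ZMod.unitsMap h₀ u), 1) := by
  rw [psiN_apply]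
  refine Prod.ext rfl ?_
  funext i
  change ψ₁ i (ZMod.unitsMap (h₁ i) u) = _
  rw [unitsMap_eq_one (h₁ i) hu hy (hij i), map_one]; rfl

end Psi

section Level

/-- The level of Taylor–Wiles primes. -/
structure LvlN (N M q₀ : ℕ) {r : ℕ} (q : Fin r → ℕ) : Prop where
  hN : N = M * (q₀ * ∏ i, q i)
  hM : M ≠ 0
  hq₀ : q₀.Prime
  hq : ∀ i, (q i).Prime
  inj : Function.Injective q
  hq₀M : ¬ q₀ ∣ M
  hqM : ∀ i, ¬ q i ∣ M
  hqq₀ : ∀ i, q i ≠ q₀

namespace LvlN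

variable {N M q₀ r : ℕ} {q : Fin r → ℕ} (h : LvlN N M q₀ q)

include h in
lemma ne_zero : N ≠ 0 := by
  rw [h.hN]
  exact Nat.mul_ne_zero h.hM (Nat.mul_ne_zero h.hq₀.ne_zero
    (Finset.prod_ne_zero_iff.mpr fun i _ => (h.hq i).ne_zero))

include h in
lemma dvd_D₁ : q₀ * ∏ i, q i ∣ N := by rw [h.hN]; exact Dvd.intro_left M rfl

include h in
lemma h₀ : q₀ ∣ N := (Dvd.intro _ rfl).trans h.dvd_D₁

include h in
lemma h₁ (i : Fin r) : q i ∣ N :=
  ((Finset.dvd_prod_of_mem q (Finset.mem_univ i)).trans (Dvd.intro_left q₀ rfl)).trans h.dvd_D₁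

include h in
lemma not_dvd_prod₀ : ¬ q₀ ∣ ∏ i, q i := by
  intro hd
  rw [Prime.dvd_finsetProd_iff h.hq₀.prime] at hd
  obtain ⟨i, -, hi⟩ := hd
  exact h.hqq₀ i ((Nat.prime_dvd_prime_iff_eq h.hq₀ (h.hq i)).mp hi).symm

include h in
lemma div₀ : N / q₀ = M * ∏ i, q i := by
  apply Nat.div_eq_of_eq_mul_right h.hq₀.pos
  rw [h.hN]; ring

include h in
lemma cop₀ : q₀.Coprime (N / q₀) := by
  rw [h.div₀, Nat.Prime.coprime_iff_not_dvd h.hq₀]
  intro hd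
  rcases (Nat.Prime.dvd_mul h.hq₀).mp hd with h1 | h1
  · exact h.hq₀M h1
  · exact h.not_dvd_prod₀ h1

include h in
lemma dvd_div₀ (i : Fin r) : q i ∣ N / q₀ := by
  rw [h.div₀]
  exact (Finset.dvd_prod_of_mem q (Finset.mem_univ i)).trans (Dvd.intro_left M rfl)

include h in
lemma div_j (j : Fin r) : N / q j = M * (q₀ * ∏ i ∈ Finset.univ.erase j, q i) := by
  apply Nat.div_eq_of_eq_mul_right (h.hq j).pos
  rw [h.hN, ← Finset.mul_prod_erase _ _ (Finset.mem_univ j)]; ring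

include h in
lemma not_dvd_erase (j : Fin r) : ¬ q j ∣ ∏ i ∈ Finset.univ.erase j, q i := by
  intro hd
  rw [Prime.dvd_finsetProd_iff (h.hq j).prime] at hd
  obtain ⟨i, hi, hi2⟩ := hd
  have := h.inj ((Nat.prime_dvd_prime_iff_eq (h.hq j) (h.hq i)).mp hi2)
  exact (Finset.ne_of_mem_erase hi) this.symm

include h in
lemma cop_j (j : Fin r) : (q j).Coprime (N / q j) := by
  rw [h.div_j, Nat.Prime.coprime_iff_not_dvd (h.hq j)]
  intro hd
  rcases (Nat.Prime.dvd_mul (h.hq j)).mp hd with h1 | h1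
  · exact h.hqM j h1
  · rcases (Nat.Prime.dvd_mul (h.hq j)).mp h1 with h2 | h2
    · exact h.hqq₀ j ((Nat.prime_dvd_prime_iff_eq (h.hq j) h.hq₀).mp h2)
    · exact h.not_dvd_erase j h2

include h in
lemma dvd_div_j₀ (j : Fin r) : q₀ ∣ N / q j := by
  rw [h.div_j]
  exact (Dvd.intro _ rfl).trans (Dvd.intro_left M rfl)

include h in
lemma dvd_div_j (j i : Fin r) (hi : i ≠ j) : q i ∣ N / q j := by
  rw [h.div_j]
  exact ((Finset.dvd_prod_of_mem q (Finset.mem_erase.mpr ⟨hi, Finset.mem_univ i⟩)).trans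
    (Dvd.intro_left q₀ rfl)).trans (Dvd.intro_left M rfl)

include h in
lemma sqf : Squarefree (q₀ * ∏ i, q i) := by
  rw [Nat.squarefree_mul (((Nat.Prime.coprime_iff_not_dvd h.hq₀)).mpr h.not_dvd_prod₀)]
  refine ⟨h.hq₀.prime.squarefree, ?_⟩
  refine Finset.squarefree_prod_of_pairwise_isCoprime ?_ ?_
  · intro i _ j _ hij
    change IsRelPrime (q i) (q j)
    rw [← Nat.coprime_iff_isRelPrime, Nat.coprime_primes (h.hq i) (h.hq j)]
    exact fun h1 => hij (h.inj h1)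
  · intro i _
    exact (h.hq i).prime.squarefree

include h in
lemma copMD : M.Coprime (q₀ * ∏ i, q i) := by
  refine Nat.Coprime.mul_right ?_ ?_
  · exact (((Nat.Prime.coprime_iff_not_dvd h.hq₀)).mpr h.hq₀M).symm
  · exact Nat.Coprime.prod_right fun i _ =>
      (((Nat.Prime.coprime_iff_not_dvd (h.hq i))).mpr (h.hqM i)).symm

include h in
lemma dvd_D₁_iff {l : ℕ} (hl : l.Prime) : l ∣ q₀ * ∏ i, q i ↔ l = q₀ ∨ ∃ i, l = q i := by
  rw [Nat.Prime.dvd_mul hl, Nat.prime_dvd_prime_iff_eq hl h.hq₀,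
    Prime.dvd_finsetProd_iff hl.prime]
  refine or_congr Iff.rfl ⟨fun ⟨i, _, hi⟩ => ⟨i, ?_⟩, fun ⟨i, hi⟩ => ⟨i, Finset.mem_univ i, ?_⟩⟩
  · exact (Nat.prime_dvd_prime_iff_eq hl (h.hq i)).mp hi
  · rw [hi]

end LvlN

end Level

end Fermat.Agent.RT
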