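import Fermat.Agent.RT.LoweringThm
import Mathlib.RingTheory.PowerSeries.WeierstrassPreparation

set_option autoImplicit false
set_option maxHeartbeats 400000
set_option linter.style.haveILetI false
set_option linter.unusedSectionVars false
set_option linter.unusedVariables false

/-!
# The lowering theorem when the residual Frobenius is a non-trivial unipotent matrix
-/

open IsLocalRing MvPowerSeries

namespace Fermat.Agent.RT

universe u

section IntegralDim

/-- The dimension of an integral algebra is at most the dimension of the base. -/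
lemma ringKrullDim_le_of_integral {R R' : Type*} [CommRing R] [CommRing R'] [Algebra R R']
    [Algebra.IsIntegral R R'] : ringKrullDim R' ≤ ringKrullDim R := by
  refine Order.krullDim_le_of_strictMono
    (fun 𝔭 : PrimeSpectrum R' => PrimeSpectrum.comap (algebraMap R R') 𝔭) fun 𝔭 𝔮 h => ?_
  have h1 : 𝔭.asIdeal < 𝔮.asIdeal := h
  exact Ideal.IsIntegral.comap_lt_comap h1

/-- A power series ring modulo an ideal containing a series which is non zero modulo the maximal
ideal is integral over the base. -/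
lemma isIntegral_of_powerSeries {R R' : Type*} [CommRing R] [IsLocalRing R]
    [IsAdicComplete (maximalIdeal R) R] [CommRing R'] [Algebra R R']
    (ψ : PowerSeries R →+* R') (hψC : ∀ r, ψ (PowerSeries.C r) = algebraMap R R' r)
    (hψ : Function.Surjective ψ) (F : PowerSeries R) (hF : F.map (residue R) ≠ 0)
    (hF0 : ψ F = 0) : Algebra.IsIntegral R R' := by
  set n := (F.map (Ideal.Quotient.mk (maximalIdeal R))).order.toNat with hn
  classical
  have hfin : Module.Finite R R' := by
    refine ⟨⟨(Finset.range n).image fun i => (ψ PowerSeries.X) ^ i, ?_⟩⟩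
    rw [eq_top_iff]
    intro y _
    obtain ⟨G, rfl⟩ := hψ y
    obtain ⟨Q, r, hdiv⟩ := PowerSeries.exists_isWeierstrassDivision G hF
    have h1 : ψ G = ψ (r : PowerSeries R) := by
      rw [hdiv.eq_mul_add, map_add, map_mul, hF0, zero_mul, zero_add]
    have h2 : (r : PowerSeries R) = ∑ i ∈ Finset.range n,
        PowerSeries.C (r.coeff i) * PowerSeries.X ^ i := by
      have h3 : r.natDegree < n ∨ r = 0 := by
        by_cases hr : r = 0
        · exact Or.inr hr
        · left
          have := hdiv.degree_lt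
          rw [Polynomial.degree_eq_natDegree hr] at this
          exact_mod_cast this
      rcases h3 with h3 | h3
      · conv_lhs => rw [r.as_sum_range' n h3]
        rw [← Polynomial.coeToPowerSeries.ringHom_apply, map_sum]
        refine Finset.sum_congr rfl fun i _ => ?_
        rw [Polynomial.coeToPowerSeries.ringHom_apply, ← Polynomial.C_mul_X_pow_eq_monomial,
          Polynomial.coe_mul, Polynomial.coe_C, Polynomial.coe_pow, Polynomial.coe_X]
      · rw [h3]; simp
    rw [h1, h2, map_sum]
    refine Submodule.sum_mem _ fun i hi => ?_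
    rw [map_mul, map_pow, hψC, ← Algebra.smul_def]
    refine Submodule.smul_mem _ _ (Submodule.subset_span ?_)
    rw [Finset.coe_image]
    exact ⟨i, Finset.mem_coe.mpr hi, rfl⟩
  exact Algebra.IsIntegral.of_finite R R'

end IntegralDim

section Matrices

/-- In a domain, if `Φ N = q N Φ` with `N ≠ 0`, `det Φ = q ≠ 0, 1` then `(tr Φ)² = (q + 1)²`. -/
lemma trace_sq_of_comm {A : Type*} [CommRing A] [IsDomain A] (Φ N : Matrix (Fin 2) (Fin 2) A) (q : A)
    (hc : Φ * N = q • (N * Φ)) (h1' : Φ.det = q) (hq0 : q ≠ 0) (hq1 : q ≠ 1) (hN : N ≠ 0) :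
    Φ.trace ^ 2 = (q + 1) ^ 2 := by
  set t := Φ.trace with ht
  have h1 : Φ 0 0 * Φ 1 1 - Φ 0 1 * Φ 1 0 = q := by
    have := h1'
    rw [Matrix.det_fin_two] at this
    exact this
  have hCH : Φ * Φ = t • Φ - q • (1 : Matrix (Fin 2) (Fin 2) A) := by
    ext a b
    fin_cases a <;> fin_cases b <;>
      simp [Matrix.mul_apply, Fin.sum_univ_two, ht, Matrix.trace_fin_two]
    · linear_combination -h1
    · ring
    · ring
    · linear_combination -h1
  have h2 : Φ * Φ * N = (q ^ 2) • (N * (Φ * Φ)) := by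
    calc Φ * Φ * N = Φ * (Φ * N) := by rw [mul_assoc]
      _ = Φ * (q • (N * Φ)) := by rw [hc]
      _ = q • (Φ * N * Φ) := by rw [Matrix.mul_smul, mul_assoc]
      _ = q • (q • (N * Φ) * Φ) := by rw [hc]
      _ = (q ^ 2) • (N * (Φ * Φ)) := by
        rw [Matrix.smul_mul, smul_smul, mul_assoc, sq]
  rw [hCH] at h2
  have h3 : (q * (1 - q)) • (N * (t • Φ - (1 + q) • (1 : Matrix (Fin 2) (Fin 2) A))) = 0 := by
    have h4 : t • (q • (N * Φ)) - q • N = (q ^ 2) • (t • (N * Φ) - q • N) := by
      have h5 : (t • Φ - q • (1 : Matrix (Fin 2) (Fin 2) A)) * N = t • (q • (N * Φ)) - q • N := by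
        rw [sub_mul, Matrix.smul_mul, Matrix.smul_mul, one_mul, hc]
      have h6 : N * (t • Φ - q • (1 : Matrix (Fin 2) (Fin 2) A)) = t • (N * Φ) - q • N := by
        rw [mul_sub, Matrix.mul_smul, Matrix.mul_smul, mul_one]
      rw [← h5, h2, h6]
    have h7 : N * (t • Φ - (1 + q) • (1 : Matrix (Fin 2) (Fin 2) A)) =
        t • (N * Φ) - (1 + q) • N := by
      rw [mul_sub, Matrix.mul_smul, Matrix.mul_smul, mul_one]
    rw [h7]
    ext a b
    have h8 := congrFun (congrFun h4 a) b
    simp only [Matrix.sub_apply, Matrix.smul_apply, smul_eq_mul, Matrix.zero_apply] at h8 ⊢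
    linear_combination h8
  have h9 : N * (t • Φ - (1 + q) • (1 : Matrix (Fin 2) (Fin 2) A)) = 0 := by
    rcases smul_eq_zero.mp h3 with h | h
    · exfalso
      rcases mul_eq_zero.mp h with h | h
      · exact hq0 h
      · exact hq1 (sub_eq_zero.mp h).symm
    · exact h
  have h10 : (t • Φ - (1 + q) • (1 : Matrix (Fin 2) (Fin 2) A)).det = 0 := by
    by_contra hne
    apply hN
    have h11 : N * ((t • Φ - (1 + q) • (1 : Matrix (Fin 2) (Fin 2) A)) *
        (t • Φ - (1 + q) • (1 : Matrix (Fin 2) (Fin 2) A)).adjugate) = 0 := by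
      rw [← mul_assoc, h9, zero_mul]
    rw [Matrix.mul_adjugate, Matrix.mul_smul, mul_one] at h11
    exact (smul_eq_zero.mp h11).resolve_left hne
  rw [Matrix.det_fin_two] at h10
  simp only [Matrix.sub_apply, Matrix.smul_apply, smul_eq_mul, Matrix.one_apply_eq] at h10
  rw [Matrix.one_apply_ne (by decide), Matrix.one_apply_ne (by decide)] at h10
  have h12 : t = Φ 0 0 + Φ 1 1 := by rw [ht, Matrix.trace_fin_two]
  linear_combination -h10 + t ^ 2 * h1 + (1 + q) * t * h12

end Matrices

section Rel

variable {𝒪 : Type*} [CommRing 𝒪] [IsLocalRing 𝒪] (k : ChiConst 𝒪) {ι' : Type*} [Fintype ι']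

/-- The local lifting matrices when the residual Frobenius is `(1 1; 0 1)`. -/
noncomputable def matR {A : Type*} [CommRing A] (π : MvPowerSeries (ι' ⊕ LIx) 𝒪 →+* A) (s : Bool) :
    Matrix (Fin 2) (Fin 2) A :=
  (if s then 1 else uMat A) + Matrix.of fun a b => π (X (Sum.inr (s, a, b)))

lemma matR_comp {A A' : Type*} [CommRing A] [CommRing A'] (f : A →+* A')
    (π : MvPowerSeries (ι' ⊕ LIx) 𝒪 →+* A) (s : Bool) :
    matR (f.comp π) s = (matR π s).map f := by
  cases s
  · change uMat A' + _ = (uMat A + _ : Matrix _ _ _).map f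
    rw [← RingHom.mapMatrix_apply, map_add, RingHom.mapMatrix_apply, RingHom.mapMatrix_apply,
      uMat_map]
    rfl
  · change (1 : Matrix (Fin 2) (Fin 2) A') + _ = (1 + _ : Matrix _ _ _).map f
    rw [← RingHom.mapMatrix_apply, map_add, map_one]
    rfl

/-- The relations of type `χ`, regular case. -/
structure ChiRelR {A : Type*} [CommRing A] (π : MvPowerSeries (ι' ⊕ LIx) 𝒪 →+* A) : Prop where
  tr : (matR π true).trace = π (C k.ζ) + π (C k.ζ')
  det : (matR π true).det = 1
  comm : matR π false * matR π true = matR π true * matR π false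
  detF : (matR π false).det = π (C k.q)

/-- The relations of unipotent type, regular case. -/
structure UniRelR {A : Type*} [CommRing A] (π : MvPowerSeries (ι' ⊕ LIx) 𝒪 →+* A) : Prop where
  comm : matR π false * (matR π true - 1) = π (C k.q) • ((matR π true - 1) * matR π false)
  detF : (matR π false).det = π (C k.q)

lemma ChiRelR.map {A A' : Type*} [CommRing A] [CommRing A'] (f : A →+* A')
    {π : MvPowerSeries (ι' ⊕ LIx) 𝒪 →+* A} (h : ChiRelR k π) : ChiRelR k (f.comp π) := by
  refine ⟨?_, ?_, ?_, ?_⟩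
  · have := congrArg f h.tr
    rw [map_add] at this
    rw [matR_comp, Matrix.trace_fin_two, Matrix.map_apply, Matrix.map_apply, ← map_add,
      ← Matrix.trace_fin_two]
    exact this
  · rw [matR_comp, ← RingHom.mapMatrix_apply, ← RingHom.map_det, h.det, map_one]
  · rw [matR_comp, matR_comp, ← Matrix.map_mul, ← Matrix.map_mul, h.comm]
  · rw [matR_comp, ← RingHom.mapMatrix_apply, ← RingHom.map_det, h.detF]; rfl

lemma UniRelR.map {A A' : Type*} [CommRing A] [CommRing A'] (f : A →+* A')
    {π : MvPowerSeries (ι' ⊕ LIx) 𝒪 →+* A} (h : UniRelR k π) : UniRelR k (f.comp π) := by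
  have h1 : (matR (f.comp π) true - 1) = (matR π true - 1).map f := by
    rw [matR_comp, ← RingHom.mapMatrix_apply, ← RingHom.mapMatrix_apply, map_sub, map_one]
  refine ⟨?_, ?_⟩
  · rw [h1, matR_comp, ← Matrix.map_mul, ← Matrix.map_mul, h.comm]
    ext a b
    rw [Matrix.map_apply, Matrix.smul_apply, Matrix.smul_apply, smul_eq_mul, smul_eq_mul, map_mul]
    rfl
  · rw [matR_comp, ← RingHom.mapMatrix_apply, ← RingHom.map_det, h.detF]; rfl

lemma ChiRelR.mk_of_le {J I : Ideal (MvPowerSeries (ι' ⊕ LIx) 𝒪)}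
    (h : ChiRelR k (Ideal.Quotient.mk J)) (hI : J ≤ I) : ChiRelR k (Ideal.Quotient.mk I) := by
  have h2 := h.map k (Ideal.Quotient.factor hI)
  have h3 : (Ideal.Quotient.factor hI).comp (Ideal.Quotient.mk J) = Ideal.Quotient.mk I := by
    ext x; rfl
  rwa [h3] at h2

lemma UniRelR.mk_of_le {J I : Ideal (MvPowerSeries (ι' ⊕ LIx) 𝒪)}
    (h : UniRelR k (Ideal.Quotient.mk J)) (hI : J ≤ I) : UniRelR k (Ideal.Quotient.mk I) := by
  have h2 := h.map k (Ideal.Quotient.factor hI)
  have h3 : (Ideal.Quotient.factor hI).comp (Ideal.Quotient.mk J) = Ideal.Quotient.mk I := by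
    ext x; rfl
  rwa [h3] at h2

end Rel

end Fermat.Agent.RT
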