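import Fermat.Agent.RT.Invol
import Fermat.Agent.RT.PsRep
import Fermat.Agent.ESCore.OrdPoint

set_option autoImplicit false
set_option maxHeartbeats 400000
set_option linter.style.haveILetI false
set_option linter.unusedSectionVars false
set_option linter.unusedVariables false

/-!
# Residual irreducibility
-/

open IsLocalRing Matrix
open Fermat.Agent.ESCore

noncomputable section

namespace Fermat.Agent.RT

section Conj

variable {k : Type} [Field k] {G : Type} [Group G]

/-- Eigenvectors of an involution of trace zero. -/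
lemma exists_eig (h2 : (2 : k) ≠ 0) {C : Matrix (Fin 2) (Fin 2) k} (hC : C * C = 1)
    (ht : C.trace = 0) : ∃ P P' : Matrix (Fin 2) (Fin 2) k, P * P' = 1 ∧ P' * P = 1 ∧
      P * C * P' = !![1, 0; 0, -1] := by
  have hne : ∀ s : k, s ^ 2 = 1 → ∃ v : Fin 2 → k, v ≠ 0 ∧ C *ᵥ v = s • v := by
    intro s hs
    have h1 : (1 + s • C) ≠ 0 := by
      intro h
      have h3 := congrArg Matrix.trace h
      rw [Matrix.trace_add, Matrix.trace_smul, ht, Matrix.trace_one, Matrix.trace_zero, smul_zero,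
        add_zero, Fintype.card_fin] at h3
      exact h2 (by exact_mod_cast h3)
    obtain ⟨j, hj⟩ : ∃ j, (1 + s • C) *ᵥ (Pi.single j 1) ≠ 0 := by
      by_contra h
      push Not at h
      apply h1
      ext i j
      have h4 := congrFun (h j) i
      rw [Matrix.mulVec_single_one] at h4
      exact h4
    refine ⟨_, hj, ?_⟩
    rw [Matrix.mulVec_mulVec, ← Matrix.smul_mulVec]
    congr 1
    rw [mul_add, mul_one, mul_smul_comm, hC, smul_add, smul_smul, ← pow_two, hs, one_smul, add_comm]
  obtain ⟨v, hv0, hv⟩ := hne 1 (one_pow 2)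
  obtain ⟨w, hw0, hw⟩ := hne (-1) (by ring)
  rw [one_smul] at hv
  rw [neg_one_smul] at hw
  set M : Matrix (Fin 2) (Fin 2) k := !![v 0, w 0; v 1, w 1] with hM
  have hv' := fun i => congrFun hv i
  have hw' := fun i => congrFun hw i
  simp only [Matrix.mulVec, dotProduct, Fin.sum_univ_two, Pi.neg_apply] at hv' hw'
  have hdet : M.det ≠ 0 := by
    rw [hM, Matrix.det_fin_two_of]
    intro h
    have key : ∀ a b : k, a • v = b • w → b • w = 0 := by
      intro a b hab
      have e1 : C *ᵥ (a • v) = C *ᵥ (b • w) := by rw [hab]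
      rw [Matrix.mulVec_smul, Matrix.mulVec_smul, hv, hw, smul_neg, hab] at e1
      have e2 : (2 : k) • (b • w) = 0 := by
        rw [two_smul]
        nth_rewrite 1 [e1]
        exact neg_add_cancel _
      exact (smul_eq_zero.mp e2).resolve_left h2
    have h4 : v 0 • w = 0 := by
      refine key (w 0) (v 0) ?_
      funext i
      fin_cases i
      · change w 0 * v 0 = v 0 * w 0
        ring
      · change w 0 * v 1 = v 0 * w 1
        linear_combination -h
    have h5 : v 1 • w = 0 := by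
      refine key (w 1) (v 1) ?_
      funext i
      fin_cases i
      · change w 1 * v 0 = v 1 * w 0
        linear_combination h
      · change w 1 * v 1 = v 1 * w 1
        ring
    apply hv0
    funext i
    fin_cases i
    · exact (smul_eq_zero.mp h4).resolve_right hw0
    · exact (smul_eq_zero.mp h5).resolve_right hw0
  have hu : IsUnit M.det := isUnit_iff_ne_zero.mpr hdet
  refine ⟨M⁻¹, M, Matrix.nonsing_inv_mul _ hu, Matrix.mul_nonsing_inv _ hu, ?_⟩
  have h3 : C * M = M * !![1, 0; 0, -1] := by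
    ext i j
    fin_cases i <;> fin_cases j <;> simp [hM, Matrix.mul_apply, Fin.sum_univ_two]
    · exact hv' 0
    · exact hw' 0
    · exact hv' 1
    · exact hw' 1
  rw [mul_assoc, h3, ← mul_assoc, Matrix.nonsing_inv_mul _ hu, one_mul]

variable {t : G → k} {χ : G →* kˣ} {c : G}

/-- **Uniqueness**: a representation with the given trace is conjugate to the standard one. -/
theorem exists_conj_rep (h : IsPseudo t χ) (hc : c * c = 1) (hχ : (χ c : k) = -1) {i2 : k}
    (h2 : 2 * i2 = 1) {g₀ k₀ : G} {v : k} (hv : IsPseudo.bb t c i2 g₀ k₀ * v = 1)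
    (r : G →* Matrix (Fin 2) (Fin 2) k) (hr : ∀ g, (r g).trace = t g) :
    ∃ P P' : Matrix (Fin 2) (Fin 2) k, P * P' = 1 ∧ P' * P = 1 ∧
      ∀ g, P * r g * P' = h.rep hc hχ h2 g₀ k₀ hv g := by
  have h20 : (2 : k) ≠ 0 := left_ne_zero_of_mul_eq_one h2
  obtain ⟨P, P', h1, h1', h3⟩ := exists_eig h20 (C := r c) (by rw [← map_mul, hc, map_one])
    (by rw [hr]; exact h.t_c hc hχ h2)
  let r' : G →* Matrix (Fin 2) (Fin 2) k :=
    { toFun := fun g => P * r g * P'
      map_one' := by rw [map_one, mul_one, h1]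
      map_mul' := fun g g' => by
        rw [map_mul]
        calc P * (r g * r g') * P' = P * r g * 1 * r g' * P' := by
              rw [mul_one]; simp only [mul_assoc]
          _ = _ := by rw [← h1']; simp only [mul_assoc] }
  have hr' : ∀ g, r' g = P * r g * P' := fun g => rfl
  have htr : ∀ g, (r' g).trace = t g := by
    intro g
    rw [hr', Matrix.trace_mul_cycle, h1', one_mul, hr]
  have hcr : r' c = !![1, 0; 0, -1] := h3
  have e0 : ∀ g, r' g 0 0 + r' g 1 1 = t g := fun g => by rw [← htr, Matrix.trace_fin_two]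
  have e1 : ∀ g, r' g 0 0 - r' g 1 1 = t (c * g) := by
    intro g
    rw [← htr, map_mul, hcr, Matrix.trace_fin_two, Matrix.mul_apply, Matrix.mul_apply,
      Fin.sum_univ_two, Fin.sum_univ_two]
    simp
    ring
  have haa : ∀ g, IsPseudo.aa t c i2 g = r' g 0 0 := by
    intro g
    rw [IsPseudo.aa, ← e0, ← e1]
    linear_combination r' g 0 0 * h2
  have hdd : ∀ g, IsPseudo.dd t c i2 g = r' g 1 1 := by
    intro g
    rw [IsPseudo.dd, ← e0, ← e1]
    linear_combination r' g 1 1 * h2
  have hbb : ∀ g g', IsPseudo.bb t c i2 g g' = r' g 0 1 * r' g' 1 0 := by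
    intro g g'
    rw [IsPseudo.bb, haa, haa, haa, map_mul, Matrix.mul_apply, Fin.sum_univ_two]
    ring
  rw [hbb] at hv
  set β := r' g₀ 0 1 with hβ
  have hβ0 : β ≠ 0 := fun h => by rw [h, zero_mul, zero_mul] at hv; exact zero_ne_one hv
  have hβi : β * β⁻¹ = 1 := mul_inv_cancel₀ hβ0
  refine ⟨!![1, 0; 0, β] * P, P' * !![1, 0; 0, β⁻¹], ?_, ?_, fun g => ?_⟩
  · calc !![1, 0; 0, β] * P * (P' * !![1, 0; 0, β⁻¹]) =
        !![1, 0; 0, β] * (P * P') * !![1, 0; 0, β⁻¹] := by simp only [mul_assoc]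
      _ = 1 := by
        rw [h1, mul_one]
        ext i j
        fin_cases i <;> fin_cases j <;> simp [Matrix.mul_apply, Fin.sum_univ_two, hβi]
  · calc P' * !![1, 0; 0, β⁻¹] * (!![1, 0; 0, β] * P) =
        P' * (!![1, 0; 0, β⁻¹] * !![1, 0; 0, β]) * P := by simp only [mul_assoc]
      _ = 1 := by
        have : (!![1, 0; 0, β⁻¹] * !![1, 0; 0, β] : Matrix (Fin 2) (Fin 2) k) = 1 := by
          ext i j
          fin_cases i <;> fin_cases j <;>
            simp [Matrix.mul_apply, Fin.sum_univ_two, mul_comm β⁻¹ β, hβi]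
        rw [this, mul_one, h1']
  · have e3 : !![1, 0; 0, β] * P * r g * (P' * !![1, 0; 0, β⁻¹]) =
        !![1, 0; 0, β] * r' g * !![1, 0; 0, β⁻¹] := by
      rw [hr']; simp only [mul_assoc]
    have e4 : β⁻¹ = r' k₀ 1 0 * v := by
      calc β⁻¹ = β⁻¹ * (β * r' k₀ 1 0 * v) := by rw [hv, mul_one]
        _ = _ := by rw [mul_assoc β, ← mul_assoc, mul_comm β⁻¹ β, hβi, one_mul]
    have e5 : ∀ X : Matrix (Fin 2) (Fin 2) k, !![1, 0; 0, β] * X * !![1, 0; 0, β⁻¹] =
        !![X 0 0, X 0 1 * β⁻¹; β * X 1 0, X 1 1] := by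
      intro X
      conv_lhs => rw [Matrix.eta_fin_two X]
      rw [Matrix.mul_fin_two, Matrix.mul_fin_two]
      simp only [one_mul, zero_mul, mul_one, mul_zero, add_zero, zero_add]
      have e6 : β * X 1 1 * β⁻¹ = X 1 1 := by rw [mul_comm β, mul_assoc, hβi, mul_one]
      rw [e6]
    rw [e3, e5, IsPseudo.rep_apply, haa, hdd, hbb, hbb, e4, mul_assoc]

/-- The standard representation spans the matrices. -/
theorem span_rep (h : IsPseudo t χ) (hc : c * c = 1) (hχ : (χ c : k) = -1) {i2 : k}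
    (h2 : 2 * i2 = 1) {g₀ k₀ : G} {v : k} (hv : IsPseudo.bb t c i2 g₀ k₀ * v = 1) :
    Submodule.span k (Set.range fun g => h.rep hc hχ h2 g₀ k₀ hv g) = ⊤ := by
  set r := h.rep hc hχ h2 g₀ k₀ hv with hrdef
  set W := Submodule.span k (Set.range fun g => r g) with hW
  have hmem : ∀ g, r g ∈ W := fun g => Submodule.subset_span ⟨g, rfl⟩
  have hmul : ∀ x ∈ W, ∀ y ∈ W, x * y ∈ W := by
    intro x hx y hy
    induction hx using Submodule.span_induction with
    | mem x hx =>
      obtain ⟨g, rfl⟩ := hx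
      induction hy using Submodule.span_induction with
      | mem y hy =>
        obtain ⟨h, rfl⟩ := hy
        change r g * r h ∈ W
        rw [← map_mul]
        exact hmem _
      | zero => rw [mul_zero]; exact W.zero_mem
      | add y z _ _ hy hz => rw [mul_add]; exact W.add_mem hy hz
      | smul a y _ hy => rw [mul_smul_comm]; exact W.smul_mem a hy
    | zero => rw [zero_mul]; exact W.zero_mem
    | add x z _ _ hx hz => rw [add_mul]; exact W.add_mem hx hz
    | smul a x _ hx => rw [smul_mul_assoc]; exact W.smul_mem a hx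
  have hone : (1 : Matrix (Fin 2) (Fin 2) k) ∈ W := by
    have := hmem 1
    rwa [map_one] at this
  have hcv : r c = !![1, 0; 0, -1] := by
    have e1 : ∀ g, IsPseudo.aa t c i2 (c * g) = IsPseudo.aa t c i2 g := by
      intro g
      rw [IsPseudo.aa, IsPseudo.aa, ← mul_assoc, hc, one_mul, add_comm]
    have e2 : IsPseudo.aa t c i2 c = 1 := by
      have := e1 1
      rwa [mul_one, h.aa_one hc hχ h2] at this
    have e3 : IsPseudo.dd t c i2 c = -1 := by
      have e4 := IsPseudo.aa_add_dd (t := t) (c := c) h2 c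
      rw [e2, h.t_c hc hχ h2] at e4
      linear_combination e4
    have e5 : IsPseudo.bb t c i2 c k₀ = 0 := by rw [IsPseudo.bb, e1, e2, one_mul, sub_self]
    have e6 : IsPseudo.bb t c i2 g₀ c = 0 := by
      have e7 : IsPseudo.aa t c i2 (g₀ * c) = IsPseudo.aa t c i2 g₀ := by
        rw [IsPseudo.aa, IsPseudo.aa, h.comm g₀ c]
        have e8 : t (c * (g₀ * c)) = t g₀ := by
          rw [h.comm, mul_assoc, hc, mul_one]
        rw [e8, add_comm]
      rw [IsPseudo.bb, e7, e2, mul_one, sub_self]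
    rw [hrdef, IsPseudo.rep_apply, e2, e3, e5, e6, zero_mul]
  have h20 : (2 : k) ≠ 0 := left_ne_zero_of_mul_eq_one h2
  have hE0 : (!![1, 0; 0, 0] : Matrix (Fin 2) (Fin 2) k) ∈ W := by
    have e1 : (!![1, 0; 0, 0] : Matrix (Fin 2) (Fin 2) k) = i2 • (1 + r c) := by
      rw [hcv]
      ext i j
      fin_cases i <;> fin_cases j <;> simp [Matrix.one_apply]
      linear_combination -h2
    rw [e1]
    exact W.smul_mem _ (W.add_mem hone (hmem c))
  have hE1 : (!![0, 0; 0, 1] : Matrix (Fin 2) (Fin 2) k) ∈ W := by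
    have e1 : (!![0, 0; 0, 1] : Matrix (Fin 2) (Fin 2) k) = i2 • (1 - r c) := by
      rw [hcv]
      ext i j
      fin_cases i <;> fin_cases j <;> simp [Matrix.one_apply]
      linear_combination -h2
    rw [e1]
    exact W.smul_mem _ (W.sub_mem hone (hmem c))
  have hg : r g₀ 0 1 = 1 := by rw [hrdef, IsPseudo.rep_apply]; exact hv
  have hk : r k₀ 1 0 * v = 1 := by rw [hrdef, IsPseudo.rep_apply]; exact hv
  have hF0 : (!![0, 1; 0, 0] : Matrix (Fin 2) (Fin 2) k) ∈ W := by
    have e1 : (!![0, 1; 0, 0] : Matrix (Fin 2) (Fin 2) k) = !![1, 0; 0, 0] * r g₀ *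
        !![0, 0; 0, 1] := by
      conv_rhs => rw [Matrix.eta_fin_two (r g₀)]
      rw [Matrix.mul_fin_two, Matrix.mul_fin_two, hg]
      simp
    rw [e1]
    exact hmul _ (hmul _ hE0 _ (hmem _)) _ hE1
  have hF1 : (!![0, 0; 1, 0] : Matrix (Fin 2) (Fin 2) k) ∈ W := by
    have e1 : (!![0, 0; 1, 0] : Matrix (Fin 2) (Fin 2) k) = v • (!![0, 0; 0, 1] * r k₀ *
        !![1, 0; 0, 0]) := by
      conv_rhs => rw [Matrix.eta_fin_two (r k₀)]
      rw [Matrix.mul_fin_two, Matrix.mul_fin_two]
      simp [mul_comm v, hk]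
    rw [e1]
    exact W.smul_mem _ (hmul _ (hmul _ hE1 _ (hmem _)) _ hE0)
  rw [eq_top_iff]
  intro X _
  have hX : X = X 0 0 • !![1, 0; 0, 0] + X 0 1 • !![0, 1; 0, 0] + X 1 0 • !![0, 0; 1, 0] +
      X 1 1 • !![0, 0; 0, 1] := by
    ext i j
    fin_cases i <;> fin_cases j <;> simp
  rw [hX]
  exact W.add_mem (W.add_mem (W.add_mem (W.smul_mem _ hE0) (W.smul_mem _ hF0))
    (W.smul_mem _ hF1)) (W.smul_mem _ hE1)

/-- **Representations with the given trace are absolutely irreducible.** -/
theorem span_of_trace (h : IsPseudo t χ) (hc : c * c = 1) (hχ : (χ c : k) = -1) {i2 : k}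
    (h2 : 2 * i2 = 1) {g₀ k₀ : G} {v : k} (hv : IsPseudo.bb t c i2 g₀ k₀ * v = 1)
    (r : G →* Matrix (Fin 2) (Fin 2) k) (hr : ∀ g, (r g).trace = t g) :
    Submodule.span k (Set.range fun g => r g) = ⊤ := by
  obtain ⟨P, P', h1, h1', h3⟩ := exists_conj_rep h hc hχ h2 hv r hr
  have h4 := span_rep h hc hχ h2 hv
  rw [eq_top_iff]
  intro X _
  have h5 : P * X * P' ∈ Submodule.span k (Set.range fun g => h.rep hc hχ h2 g₀ k₀ hv g) := by
    rw [h4]; trivial
  have key : ∀ Y ∈ Submodule.span k (Set.range fun g => h.rep hc hχ h2 g₀ k₀ hv g),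
      P' * Y * P ∈ Submodule.span k (Set.range fun g => r g) := by
    intro Y hY
    induction hY using Submodule.span_induction with
    | mem Y hY =>
      obtain ⟨g, rfl⟩ := hY
      have e1 : P' * (h.rep hc hχ h2 g₀ k₀ hv g) * P = r g := by
        rw [← h3]
        calc P' * (P * r g * P') * P = (P' * P) * r g * (P' * P) := by simp only [mul_assoc]
          _ = _ := by rw [h1', one_mul, mul_one]
      change P' * (h.rep hc hχ h2 g₀ k₀ hv g) * P ∈ _
      rw [e1]
      exact Submodule.subset_span ⟨g, rfl⟩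
    | zero => rw [mul_zero, zero_mul]; exact Submodule.zero_mem _
    | add y z _ _ hy hz => rw [mul_add, add_mul]; exact Submodule.add_mem _ hy hz
    | smul a y _ hy => rw [mul_smul_comm, smul_mul_assoc]; exact Submodule.smul_mem _ a hy
  have h6 := key _ h5
  have e2 : P' * (P * X * P') * P = X := by
    calc P' * (P * X * P') * P = (P' * P) * X * (P' * P) := by simp only [mul_assoc]
      _ = _ := by rw [h1', one_mul, mul_one]
  rwa [e2] at h6

end Conj

end Fermat.Agent.RT
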