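import Fermat.Agent.RT.FramedSt

set_option autoImplicit false
set_option maxHeartbeats 400000
set_option linter.style.haveILetI false
set_option linter.unusedSectionVars false
set_option linter.unusedVariables false

/-!
# The local relation over complete rings, and the splitting at Taylor–Wiles primes
-/

open IsLocalRing Matrix

namespace Fermat.Agent.RT

open Fermat.Agent.Coh Fermat.Agent.GalD Fermat.Agent.LocalCFT Fermat.Agent.GCFT
  Fermat.Agent.ESCore Module

/-- The absolute Galois group. -/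
local notation "GQ" => (AlgebraicClosure ℚ ≃ₐ[ℚ] AlgebraicClosure ℚ)

section Pow

variable {T : Type*} [CommRing T] (I : Ideal T)

/-- matrices with entries in an ideal -/
def MIn (X : Matrix (Fin 2) (Fin 2) T) : Prop := ∀ i j, X i j ∈ I

variable {I}

lemma MIn.mul_left {J : Ideal T} {X Y : Matrix (Fin 2) (Fin 2) T} (hX : MIn I X) (hY : MIn J Y) :
    MIn (I * J) (X * Y) := by
  intro i j
  rw [Matrix.mul_apply]
  exact Ideal.sum_mem _ fun l _ => Ideal.mul_mem_mul (hX _ _) (hY _ _)

lemma MIn.mul_right {X Y : Matrix (Fin 2) (Fin 2) T} (hX : MIn I X) : MIn I (X * Y) := by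
  intro i j
  rw [Matrix.mul_apply]
  exact Ideal.sum_mem _ fun l _ => Ideal.mul_mem_right _ _ (hX _ _)

lemma MIn.add {X Y : Matrix (Fin 2) (Fin 2) T} (hX : MIn I X) (hY : MIn I Y) : MIn I (X + Y) :=
  fun i j => I.add_mem (hX i j) (hY i j)

lemma MIn.mono {J : Ideal T} (h : I ≤ J) {X : Matrix (Fin 2) (Fin 2) T} (hX : MIn I X) : MIn J X :=
  fun i j => h (hX i j)

/-- The powers `p` of matrices congruent to `1`. -/
lemma MIn.pow_p {m : Ideal T} {p : ℕ} (hp : (p : T) ∈ m) (hp1 : 1 < p) (hI : I ≤ m)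
    {A : Matrix (Fin 2) (Fin 2) T} (hA : MIn I (A - 1)) : MIn (m * I) (A ^ p - 1) := by
  set X := A - 1 with hX
  have hA' : A = 1 + X := by rw [hX]; abel
  obtain ⟨n, rfl⟩ : ∃ n, p = n + 2 := ⟨p - 2, by omega⟩
  have hk : ∀ k, 1 ≤ k → MIn I (X ^ k) := by
    intro k hk
    obtain ⟨j, rfl⟩ : ∃ j, k = j + 1 := ⟨k - 1, by omega⟩
    rw [pow_succ']
    exact hA.mul_right
  have h1 : A ^ (n + 2) - 1 = ∑ k ∈ Finset.range (n + 2), X ^ (k + 1) * (((n + 2).choose (k + 1) : ℕ) :
      Matrix (Fin 2) (Fin 2) T) := by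
    rw [hA', add_comm, (Commute.one_right X).add_pow, Finset.sum_range_succ']
    simp
  rw [h1]
  intro i j
  rw [Matrix.sum_apply]
  refine Ideal.sum_mem _ fun k hk' => ?_
  rcases Nat.eq_zero_or_pos k with rfl | hk0
  · -- the linear term
    have e1 : (X ^ (0 + 1) * (((n + 2).choose (0 + 1) : ℕ) : Matrix (Fin 2) (Fin 2) T)) i j =
        ((n + 2 : ℕ) : T) * X i j := by
      rw [zero_add, pow_one, Nat.choose_one_right, ← nsmul_eq_mul', Matrix.smul_apply,
        nsmul_eq_mul]
    rw [e1]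
    exact Ideal.mul_mem_mul hp (hA i j)
  · have e2 : MIn (m * I) (X ^ (k + 1)) := by
      rw [pow_succ']
      exact (hA.mono hI).mul_left (hk k hk0)
    exact e2.mul_right i j

lemma MIn.pow_pow {m : Ideal T} {p : ℕ} (hp : (p : T) ∈ m) (hp1 : 1 < p)
    {A : Matrix (Fin 2) (Fin 2) T} (hA : MIn m (A - 1)) (n : ℕ) :
    MIn (m ^ (n + 1)) (A ^ p ^ n - 1) := by
  induction n with
  | zero => simpa using hA
  | succ n ih =>
    have e1 : A ^ p ^ (n + 1) = (A ^ p ^ n) ^ p := by rw [pow_succ p, pow_mul]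
    rw [e1, pow_succ' m]
    exact MIn.pow_p hp hp1 (Ideal.pow_le_self (Nat.succ_ne_zero n)) ih

end Pow

section Quot

variable {T : Type} [CommRing T] [IsLocalRing T]

/-- Reduction modulo a power of the maximal ideal. -/
noncomputable def redN (n : ℕ) : GL (Fin 2) T →* GL (Fin 2) (T ⧸ maximalIdeal T ^ n) :=
  GeneralLinearGroup.map (n := Fin 2) (Ideal.Quotient.mk (maximalIdeal T ^ n))

lemma redN_eq_iff {n : ℕ} {A B : GL (Fin 2) T} :
    redN n A = redN n B ↔ MIn (maximalIdeal T ^ n) (A.val - B.val) := by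
  constructor
  · intro h i j
    have h1 := congrArg (fun g : GL (Fin 2) (T ⧸ maximalIdeal T ^ n) => g.val i j) h
    change Ideal.Quotient.mk _ (A.val i j) = Ideal.Quotient.mk _ (B.val i j) at h1
    rw [Ideal.Quotient.eq] at h1
    exact h1
  · intro h
    apply Units.ext
    ext1 i j
    change Ideal.Quotient.mk _ (A.val i j) = Ideal.Quotient.mk _ (B.val i j)
    rw [Ideal.Quotient.eq]
    exact h i j

lemma redN_eq_one_iff {n : ℕ} {A : GL (Fin 2) T} :
    redN n A = 1 ↔ MIn (maximalIdeal T ^ n) (A.val - 1) := by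
  rw [← map_one (redN n), redN_eq_iff, Units.val_one]

lemma eq_of_redN [IsNoetherianRing T] {A B : GL (Fin 2) T} (h : ∀ n, redN n A = redN n B) :
    A = B := by
  apply Units.ext
  ext1 i j
  rw [← sub_eq_zero]
  have h1 : A.val i j - B.val i j ∈ ⨅ n : ℕ, maximalIdeal T ^ n := by
    rw [Ideal.mem_iInf]
    exact fun n => redN_eq_iff.mp (h n) i j
  rwa [Ideal.iInf_pow_eq_bot_of_isLocalRing _ (maximalIdeal.isMaximal T).ne_top,
    Ideal.mem_bot] at h1

end Quot

section Rel

variable {q : Nat.Primes} {p : ℕ} (hp : p.Prime) (hpq : p ≠ q) {T k : Type} [CommRing T]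
  [IsLocalRing T] [IsNoetherianRing T] [Field k] {π : T →+* k}
  (hπ : RingHom.ker π = maximalIdeal T) (hpT : (p : T) ∈ maximalIdeal T) {ρ : GQ →* GL (Fin 2) T}
  (hcont : ∀ n, ∃ U : Subgroup GQ, IsOpen (U : Set GQ) ∧ ∀ u ∈ U, ∀ i j,
    (ρ u).val i j - (1 : Matrix (Fin 2) (Fin 2) T) i j ∈ maximalIdeal T ^ n)
  (hpp : ∀ s ∈ Il (q : ℕ), ∃ n, resRep π ρ (rl q s) ^ p ^ n = 1)

include hcont in
lemma exists_open_redN (n : ℕ) : ∃ W : Subgroup (Gl q), (LF (q : ℕ)).IsOpen W ∧
    ∀ g ∈ W, (redN n) (ρ (rl q g)) = 1 := by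
  obtain ⟨U, hU, h1⟩ := hcont n
  refine ⟨U.comap (rl q), PT.rl_cont hU, fun g hg => ?_⟩
  rw [redN_eq_one_iff]
  exact fun i j => h1 _ hg i j

include hp hπ hpT hpp in
lemma exists_pow_redN (n : ℕ) (g : Gl q) (hg : g ∈ Il (q : ℕ)) :
    ∃ m, (redN n) (ρ (rl q g)) ^ p ^ m = 1 := by
  obtain ⟨s, hs⟩ := hpp g hg
  refine ⟨s + n, ?_⟩
  rw [← map_pow, redN_eq_one_iff, pow_add, pow_mul, Units.val_pow_eq_pow_val]
  refine (MIn.pow_pow hpT hp.one_lt (A := (ρ (rl q g) ^ p ^ s).val) ?_ n).mono
    (Ideal.pow_le_pow_right (Nat.le_succ n))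
  intro i j
  rw [← hπ, RingHom.mem_ker, Matrix.sub_apply, map_sub, sub_eq_zero]
  have h1 : (resRep π ρ (rl q g) ^ p ^ s).val i j = π ((ρ (rl q g) ^ p ^ s).val i j) := by
    rw [← map_pow, ← map_pow, ← map_pow, ← map_pow]; rfl
  rw [← h1, hs, Units.val_one, Matrix.one_apply, Matrix.one_apply]
  split_ifs
  · rw [map_one]
  · rw [map_zero]

include hp hpq hπ hpT hcont hpp in
/-- **The tame relation.** -/
theorem tame_rel {φ τ : Gl q} (hφ : IsFrobL φ) (hτ : τ ∈ Il (q : ℕ)) :
    ρ (rl q φ) * ρ (rl q τ) = ρ (rl q τ) ^ (q : ℕ) * ρ (rl q φ) := by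
  have h1 : ρ (rl q (φ * τ * φ⁻¹)) = ρ (rl q τ) ^ (q : ℕ) := by
    apply eq_of_redN
    intro n
    obtain ⟨W, hW, hW1⟩ := exists_open_redN (q := q) hcont n
    have h2 := frob_tame (h := (redN n).comp (ρ.comp (rl q))) hp hpq hW hW1
      (fun g hg => exists_pow_redN hp hπ hpT hpp n g hg) hφ hτ
    rw [map_pow]
    exact h2
  rw [map_mul, map_mul, map_mul, map_mul, map_inv, map_inv] at h1
  rw [← h1, inv_mul_cancel_right]

include hp hpq hπ hpT hcont hpp in
/-- Inertia is generated by the tame generator, in the form: a closed condition. -/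
theorem inertia_tame {τ : Gl q} (hτ : TameGen p q τ) {s : Gl q} (hs : s ∈ Il (q : ℕ)) (n : ℕ) :
    ∃ k : ℤ, redN n (ρ (rl q s)) = redN n (ρ (rl q τ) ^ k) := by
  obtain ⟨W, hW, hW1⟩ := exists_open_redN (q := q) hcont n
  have h2 := hτ.2 _ ((redN n).comp (ρ.comp (rl q))) W hW hW1
    (fun g hg => exists_pow_redN hp hπ hpT hpp n g hg) s hs
  obtain ⟨k, hk⟩ := Subgroup.mem_zpowers_iff.mp h2
  refine ⟨k, ?_⟩
  rw [map_zpow]
  exact hk.symm

end Rel

section Split

variable {T k : Type} [CommRing T] [IsLocalRing T] [Field k] {π : T →+* k}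
  (hπ : RingHom.ker π = maximalIdeal T)

/-- powers of a matrix residually equal to `1` -/
lemma exists_pow_lin {B : Matrix (Fin 2) (Fin 2) T} (hB : MIn (maximalIdeal T) (B - 1)) (n : ℕ) :
    ∃ c c' : T, B ^ n = c • B + c' • (1 : Matrix (Fin 2) (Fin 2) T) ∧
      c - n ∈ maximalIdeal T ∧ c + c' - 1 ∈ maximalIdeal T := by
  have hCH : B * B = B.trace • B - B.det • (1 : Matrix (Fin 2) (Fin 2) T) := by
    ext i j
    fin_cases i <;> fin_cases j <;>
      simp [Matrix.mul_apply, Fin.sum_univ_two, Matrix.trace_fin_two, Matrix.det_fin_two] <;> ring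
  have h00 : B 0 0 - 1 ∈ maximalIdeal T := by simpa using hB 0 0
  have h11 : B 1 1 - 1 ∈ maximalIdeal T := by simpa using hB 1 1
  have h01 : B 0 1 ∈ maximalIdeal T := by simpa using hB 0 1
  have ht : B.trace - 2 ∈ maximalIdeal T := by
    have : B.trace - 2 = (B 0 0 - 1) + (B 1 1 - 1) := by rw [Matrix.trace_fin_two]; ring
    rw [this]; exact Ideal.add_mem _ h00 h11
  have hd : B.det - 1 ∈ maximalIdeal T := by
    have : B.det - 1 = (B 0 0 - 1) * B 1 1 + (B 1 1 - 1) - B 0 1 * B 1 0 := by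
      rw [Matrix.det_fin_two]; ring
    rw [this]
    exact Ideal.sub_mem _ (Ideal.add_mem _ (Ideal.mul_mem_right _ _ h00) h11)
      (Ideal.mul_mem_right _ _ h01)
  induction n with
  | zero =>
    refine ⟨0, 1, ?_, ?_, ?_⟩
    · rw [pow_zero, zero_smul, zero_add, one_smul]
    · simp
    · simp
  | succ n ih =>
    obtain ⟨c, c', h1, h2, h3⟩ := ih
    refine ⟨c * B.trace + c', -(c * B.det), ?_, ?_, ?_⟩
    · rw [pow_succ, h1, add_mul, smul_mul_assoc, hCH, smul_mul_assoc, one_mul, smul_sub, smul_smul,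
        smul_smul, add_smul, neg_smul]
      abel
    · have : c * B.trace + c' - ((n + 1 : ℕ) : T) = c * (B.trace - 2) + (c - n) + (c + c' - 1) := by
        push_cast; ring
      rw [this]
      exact Ideal.add_mem _ (Ideal.add_mem _ (Ideal.mul_mem_left _ _ ht) h2) h3
    · have : c * B.trace + c' + -(c * B.det) - 1 = c * (B.trace - 2) - c * (B.det - 1) +
          (c + c' - 1) := by ring
      rw [this]
      exact Ideal.add_mem _ (Ideal.sub_mem _ (Ideal.mul_mem_left _ _ ht)
        (Ideal.mul_mem_left _ _ hd)) h3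

include hπ in
lemma isUnit_of_map_ne {x : T} (h : π x ≠ 0) : IsUnit x := by
  by_contra hx
  apply h
  rw [← RingHom.mem_ker, hπ]
  exact (mem_maximalIdeal x).mpr hx

include hπ in
/-- Diagonalisation. -/
lemma exists_diag [HenselianLocalRing T] (hsurj : Function.Surjective π)
    {A : Matrix (Fin 2) (Fin 2) T} {α β : k}
    (hαβ : α ≠ β) (htr : π A.trace = α + β) (hdet : π A.det = α * β) :
    ∃ (P P' : Matrix (Fin 2) (Fin 2) T) (a b : T), P * P' = 1 ∧ P' * P = 1 ∧
      P * A * P' = !![a, 0; 0, b] ∧ π a = α ∧ π b = β := by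
  -- the eigenvalue
  obtain ⟨a₀, ha₀⟩ := hsurj α
  have hmono : (Polynomial.X ^ 2 - Polynomial.C A.trace * Polynomial.X +
      Polynomial.C A.det : Polynomial T).Monic := by
    monicity!
  have hmem : ∀ x : T, x ∈ maximalIdeal T ↔ π x = 0 := fun x => by
    rw [← hπ, RingHom.mem_ker]
  obtain ⟨a, ha, haa⟩ := HenselianLocalRing.is_henselian
    (Polynomial.X ^ 2 - Polynomial.C A.trace * Polynomial.X + Polynomial.C A.det) hmono a₀ (by
      rw [hmem]
      simp only [Polynomial.eval_add, Polynomial.eval_sub, Polynomial.eval_mul,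
        Polynomial.eval_pow, Polynomial.eval_X, Polynomial.eval_C, map_add, map_sub, map_mul,
        map_pow, ha₀, htr, hdet]
      ring) (by
      apply isUnit_of_map_ne hπ
      have hder : Polynomial.eval a₀ (Polynomial.derivative (Polynomial.X ^ 2 -
          Polynomial.C A.trace * Polynomial.X + Polynomial.C A.det)) = 2 * a₀ - A.trace := by
        simp
        ring
      rw [hder, map_sub, map_mul, map_ofNat, ha₀, htr]
      intro h
      apply hαβ
      linear_combination h)
  have hπa : π a = α := by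
    rw [hmem, map_sub, sub_eq_zero] at haa
    rw [haa, ha₀]
  have hroot : a ^ 2 - A.trace * a + A.det = 0 := by
    have := ha
    simpa [Polynomial.IsRoot] using this
  obtain ⟨b, hb⟩ : ∃ b, b = A.trace - a := ⟨_, rfl⟩
  have hπb : π b = β := by rw [hb, map_sub, htr, hπa]; ring
  have hab : a * b = A.det := by rw [hb]; linear_combination -hroot
  have hsum : a + b = A.trace := by rw [hb]; ring
  have hd : A 0 0 * A 1 1 - A 0 1 * A 1 0 = a * b := by rw [hab, Matrix.det_fin_two]
  have ht : A 0 0 + A 1 1 = a + b := by rw [hsum, Matrix.trace_fin_two]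
  -- the cases for the eigenvectors
  have hne : π (A 0 1) ≠ 0 ∨ π (A 1 0) ≠ 0 ∨ (π (A 0 0) ≠ π a) ∨ (π (A 0 0) ≠ π b) := by
    by_contra h
    push Not at h
    exact hαβ (by rw [← hπa, ← hπb, ← h.2.2.1, ← h.2.2.2])
  -- it is enough to find a matrix of eigenvectors with unit determinant
  have key : ∀ Q : Matrix (Fin 2) (Fin 2) T, IsUnit Q.det → A * Q = Q * !![a, 0; 0, b] →
      ∃ (P P' : Matrix (Fin 2) (Fin 2) T) (a b : T), P * P' = 1 ∧ P' * P = 1 ∧
      P * A * P' = !![a, 0; 0, b] ∧ π a = α ∧ π b = β := by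
    intro Q hQ hAQ
    refine ⟨Q⁻¹, Q, a, b, Matrix.nonsing_inv_mul _ hQ, Matrix.mul_nonsing_inv _ hQ, ?_, hπa, hπb⟩
    rw [Matrix.mul_assoc, hAQ, ← Matrix.mul_assoc, Matrix.nonsing_inv_mul _ hQ, Matrix.one_mul]
  by_cases h01 : π (A 0 1) ≠ 0
  · -- eigenvectors `(A01, a - A00)` and `(A01, b - A00)`
    refine key !![A 0 1, A 0 1; a - A 0 0, b - A 0 0] ?_ ?_
    · apply isUnit_of_map_ne hπ
      rw [Matrix.det_fin_two_of]
      have : A 0 1 * (b - A 0 0) - A 0 1 * (a - A 0 0) = A 0 1 * (b - a) := by ring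
      rw [this, map_mul, map_sub, hπa, hπb]
      exact mul_ne_zero h01 (sub_ne_zero.mpr hαβ.symm)
    · ext i j
      fin_cases i <;> fin_cases j <;> simp [Matrix.mul_apply, Fin.sum_univ_two]
      · ring
      · ring
      · linear_combination (-hd) + a * ht
      · linear_combination (-hd) + b * ht
  by_cases h10 : π (A 1 0) ≠ 0
  · refine key !![a - A 1 1, b - A 1 1; A 1 0, A 1 0] ?_ ?_
    · apply isUnit_of_map_ne hπ
      rw [Matrix.det_fin_two_of]
      have : (a - A 1 1) * A 1 0 - (b - A 1 1) * A 1 0 = A 1 0 * (a - b) := by ring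
      rw [this, map_mul, map_sub, hπa, hπb]
      exact mul_ne_zero h10 (sub_ne_zero.mpr hαβ)
    · ext i j
      fin_cases i <;> fin_cases j <;> simp [Matrix.mul_apply, Fin.sum_univ_two]
      · linear_combination (-hd) + a * ht
      · linear_combination (-hd) + b * ht
      · ring
      · ring
  push Not at h01 h10
  -- residually diagonal
  have hd' : π (A 0 0) * π (A 1 1) = α * β := by
    have := congrArg π hd
    rw [map_sub, map_mul, map_mul, map_mul, h01, h10, hπa, hπb] at this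
    simpa using this
  have ht' : π (A 0 0) + π (A 1 1) = α + β := by
    have := congrArg π ht
    rwa [map_add, map_add, hπa, hπb] at this
  have hcase : π (A 0 0) = α ∨ π (A 0 0) = β := by
    have : (π (A 0 0) - α) * (π (A 0 0) - β) = 0 := by
      linear_combination π (A 0 0) * ht' - hd'
    rcases mul_eq_zero.mp this with h | h
    · exact Or.inl (sub_eq_zero.mp h)
    · exact Or.inr (sub_eq_zero.mp h)
  rcases hcase with h00 | h00
  · have h11 : π (A 1 1) = β := by linear_combination ht' - h00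
    refine key !![A 0 0 - b, A 0 1; A 1 0, A 1 1 - a] ?_ ?_
    · apply isUnit_of_map_ne hπ
      rw [Matrix.det_fin_two_of, map_sub, map_mul, map_mul, map_sub, map_sub, h00, h11, h01,
        hπa, hπb, zero_mul, sub_zero]
      exact mul_ne_zero (sub_ne_zero.mpr hαβ) (sub_ne_zero.mpr hαβ.symm)
    · ext i j
      fin_cases i <;> fin_cases j <;> simp [Matrix.mul_apply, Fin.sum_univ_two]
      · linear_combination (-hd) + A 0 0 * ht
      · linear_combination A 0 1 * ht
      · linear_combination A 1 0 * ht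
      · linear_combination (-hd) + A 1 1 * ht
  · have h11 : π (A 1 1) = α := by linear_combination ht' - h00
    refine key !![A 0 1, A 0 0 - a; A 1 1 - b, A 1 0] ?_ ?_
    · apply isUnit_of_map_ne hπ
      rw [Matrix.det_fin_two_of, map_sub, map_mul, map_mul, map_sub, map_sub, h00, h11, h01,
        hπa, hπb, zero_mul, zero_sub, neg_ne_zero]
      exact mul_ne_zero (sub_ne_zero.mpr hαβ.symm) (sub_ne_zero.mpr hαβ)
    · ext i j
      fin_cases i <;> fin_cases j <;> simp [Matrix.mul_apply, Fin.sum_univ_two]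
      · linear_combination A 0 1 * ht
      · linear_combination (-hd) + A 0 0 * ht
      · linear_combination (-hd) + A 1 1 * ht
      · linear_combination A 1 0 * ht

include hπ in
/-- **Splitting at a Taylor–Wiles prime.** -/
theorem exists_split [HenselianLocalRing T] (hsurj : Function.Surjective π) {q : ℕ} (hq1 : 1 < q)
    {A B : Matrix (Fin 2) (Fin 2) T} {α β : k} (hαβ : α ≠ β) (htr : π A.trace = α + β)
    (hdet : π A.det = α * β) (hAu : IsUnit A.det)
    (hB : MIn (maximalIdeal T) (B - 1)) (hBd : B.det = 1)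
    (hq : (q : T) - 1 ∈ maximalIdeal T) (hrel : A * B = B ^ q * A) :
    ∃ (P P' : Matrix (Fin 2) (Fin 2) T) (u u' : T), P * P' = 1 ∧ P' * P = 1 ∧
      P * B * P' = !![u, 0; 0, u'] ∧ u * u' = 1 ∧ u - 1 ∈ maximalIdeal T ∧ u ^ (q - 1) = 1 := by
  obtain ⟨P, P', a, b, h1, h1', h2, ha, hb⟩ := exists_diag hπ hsurj hαβ htr hdet
  set B' := P * B * P' with hB'
  have hpow : ∀ n, P * B ^ n * P' = B' ^ n := by
    intro n
    induction n with
    | zero => rw [pow_zero, pow_zero, Matrix.mul_one, h1]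
    | succ n ih =>
      rw [pow_succ, pow_succ, ← ih, hB']
      calc P * (B ^ n * B) * P' = P * B ^ n * 1 * B * P' := by
            rw [Matrix.mul_one]; simp only [Matrix.mul_assoc]
        _ = P * B ^ n * (P' * P) * B * P' := by rw [h1']
        _ = _ := by simp only [Matrix.mul_assoc]
  have hrel' : !![a, 0; 0, b] * B' = B' ^ q * !![a, 0; 0, b] := by
    rw [← h2, ← hpow, hB']
    calc P * A * P' * (P * B * P') = P * A * (P' * P) * B * P' := by
          simp only [Matrix.mul_assoc]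
      _ = P * (A * B) * P' := by rw [h1', Matrix.mul_one]; simp only [Matrix.mul_assoc]
      _ = P * B ^ q * 1 * A * P' := by rw [hrel, Matrix.mul_one]; simp only [Matrix.mul_assoc]
      _ = _ := by rw [← h1']; simp only [Matrix.mul_assoc]
  have hB'1 : MIn (maximalIdeal T) (B' - 1) := by
    have e1 : B' - 1 = P * ((B - 1) * P') := by
      rw [hB', Matrix.sub_mul, Matrix.one_mul, Matrix.mul_sub, h1, Matrix.mul_assoc]
    rw [e1]
    intro i j
    rw [Matrix.mul_apply]
    exact Ideal.sum_mem _ fun l _ => Ideal.mul_mem_left _ _ (hB.mul_right l j)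
  have hB'd : B'.det = 1 := by
    have e1 : P.det * P'.det = 1 := by rw [← Matrix.det_mul, h1, Matrix.det_one]
    rw [hB', Matrix.det_mul, Matrix.det_mul, hBd, mul_one, e1]
  obtain ⟨c, c', h3, h4, h5⟩ := exists_pow_lin hB'1 q
  have hab : IsUnit (a * b) := by
    have e1 : P.det * P'.det = 1 := by rw [← Matrix.det_mul, h1, Matrix.det_one]
    have e2 : a * b = A.det := by
      have := congrArg Matrix.det h2
      rw [Matrix.det_mul, Matrix.det_mul, Matrix.det_fin_two_of] at this
      linear_combination (-this) + A.det * e1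
    rw [e2]; exact hAu
  have hau : IsUnit a := isUnit_of_mul_isUnit_left hab
  have hbu : IsUnit b := isUnit_of_mul_isUnit_right hab
  -- the off-diagonal entries vanish
  have hmem : ∀ x : T, x ∈ maximalIdeal T ↔ π x = 0 := fun x => by
    rw [← hπ, RingHom.mem_ker]
  have hc1 : π c = 1 := by
    have e1 := (hmem _).mp h4
    have e2 := (hmem _).mp hq
    rw [map_sub, sub_eq_zero] at e1 e2
    rw [e1, e2, map_one]
  have e01 := congrFun (congrFun hrel' 0) 1
  have e10 := congrFun (congrFun hrel' 1) 0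
  rw [h3] at e01 e10
  simp [Matrix.mul_apply, Fin.sum_univ_two] at e01 e10
  have hy : B' 0 1 = 0 := by
    have h6 : (a - c * b) * B' 0 1 = 0 := by linear_combination e01
    have h7 : IsUnit (a - c * b) := by
      apply isUnit_of_map_ne hπ
      rw [map_sub, map_mul, hc1, ha, hb, one_mul]
      exact sub_ne_zero.mpr hαβ
    exact (h7.mul_right_eq_zero).mp h6
  have hz : B' 1 0 = 0 := by
    have h6 : (b - c * a) * B' 1 0 = 0 := by linear_combination e10
    have h7 : IsUnit (b - c * a) := by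
      apply isUnit_of_map_ne hπ
      rw [map_sub, map_mul, hc1, ha, hb, one_mul]
      exact sub_ne_zero.mpr hαβ.symm
    exact (h7.mul_right_eq_zero).mp h6
  have hBdiag : B' = !![B' 0 0, 0; 0, B' 1 1] := by
    ext i j
    fin_cases i <;> fin_cases j
    · rfl
    · exact hy
    · exact hz
    · rfl
  have hBpow : ∀ n, B' ^ n = !![B' 0 0 ^ n, 0; 0, B' 1 1 ^ n] := by
    intro n
    induction n with
    | zero => rw [pow_zero, pow_zero, pow_zero, Matrix.one_fin_two]
    | succ n ih =>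
      rw [pow_succ, ih]
      conv_lhs => rw [hBdiag]
      rw [Matrix.mul_fin_two]
      simp [pow_succ]
  have e00 := congrFun (congrFun hrel' 0) 0
  rw [hBpow] at e00
  simp [Matrix.mul_apply, Fin.sum_univ_two] at e00
  have huu : B' 0 0 * B' 1 1 = 1 := by
    rw [Matrix.det_fin_two, hy, hz, mul_zero, sub_zero] at hB'd
    exact hB'd
  have hupow : B' 0 0 ^ q = B' 0 0 := by
    apply hau.mul_left_cancel
    linear_combination -e00
  refine ⟨P, P', B' 0 0, B' 1 1, h1, h1', hBdiag, huu, by simpa using hB'1 0 0, ?_⟩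
  have hu : IsUnit (B' 0 0) := IsUnit.of_mul_eq_one _ huu
  apply hu.mul_left_cancel
  rw [← pow_succ', Nat.sub_add_cancel hq1.le, hupow, mul_one]

/-- elements of order dividing `q - 1` which are residually trivial -/
lemma pow_eq_one_of_cop {p : ℕ} (hpT : (p : T) ∈ maximalIdeal T) {m c : ℕ} (hc : c.Coprime p)
    {u : T} (hu : u - 1 ∈ maximalIdeal T) (h : u ^ (p ^ m * c) = 1) : u ^ p ^ m = 1 := by
  set x := u ^ p ^ m with hx
  have hx1 : x - 1 ∈ maximalIdeal T := by
    rw [hx]
    have := sub_dvd_pow_sub_pow u 1 (p ^ m)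
    rw [one_pow] at this
    obtain ⟨y, hy⟩ := this
    rw [hy]
    exact Ideal.mul_mem_right _ _ hu
  have hxc : x ^ c = 1 := by rw [hx, ← pow_mul, h]
  have hgs : (∑ i ∈ Finset.range c, x ^ i) * (x - 1) = 0 := by
    rw [geom_sum_mul, hxc, sub_self]
  have hunit : IsUnit (∑ i ∈ Finset.range c, x ^ i) := by
    by_contra hnu
    have h1 : (∑ i ∈ Finset.range c, x ^ i) ∈ maximalIdeal T := hnu
    have h2 : (∑ i ∈ Finset.range c, x ^ i) - c ∈ maximalIdeal T := by
      have : (∑ i ∈ Finset.range c, x ^ i) - c = ∑ i ∈ Finset.range c, (x ^ i - 1) := by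
        rw [Finset.sum_sub_distrib]; simp
      rw [this]
      refine Ideal.sum_mem _ fun i _ => ?_
      have := sub_dvd_pow_sub_pow x 1 i
      rw [one_pow] at this
      obtain ⟨y, hy⟩ := this
      rw [hy]
      exact Ideal.mul_mem_right _ _ hx1
    have h3 : (c : T) ∈ maximalIdeal T := by
      have := Ideal.sub_mem _ h1 h2
      rwa [sub_sub_cancel] at this
    obtain ⟨a, b, hab⟩ := Nat.isCoprime_iff_coprime.mpr hc
    have h4 : (1 : T) ∈ maximalIdeal T := by
      have h5 := congrArg (Int.cast : ℤ → T) hab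
      push_cast at h5
      rw [← h5]
      exact Ideal.add_mem _ (Ideal.mul_mem_left _ _ h3) (Ideal.mul_mem_left _ _ hpT)
    exact (Ideal.ne_top_iff_one _).mp (maximalIdeal.isMaximal T).ne_top h4
  exact sub_eq_zero.mp (hunit.mul_right_eq_zero.mp hgs)

end Split

end Fermat.Agent.RT
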