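import Fermat.Agent.RT.PsRep
import Fermat.Agent.RT.TWSplit
import Fermat.Agent.RT.FramedSt
import Fermat.Agent.RT.LocUni

set_option autoImplicit false
set_option maxHeartbeats 400000
set_option linter.style.haveILetI false
set_option linter.unusedSectionVars false
set_option linter.unusedVariables false

/-!
# Local behaviour of the representation at `q ≠ p`
-/

open IsLocalRing Matrix MvPowerSeries
open Fermat.Agent.ESCore Fermat.Agent.Coh Fermat.Agent.GalD Fermat.Agent.LocalCFT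
  Fermat.Agent.GCFT
open scoped Pointwise

noncomputable section

namespace Fermat.Agent.RT

section Inert

lemma conj_mem_inertia {A : ValuationSubring Qb} {g σ : GQ}
    (hσ : σ ∈ (g • A).inertiaSubgroupIn ℚ) : g⁻¹ * σ * g ∈ A.inertiaSubgroupIn ℚ := by
  rw [PT.mem_inertia_iff] at hσ ⊢
  obtain ⟨h1, h2⟩ := hσ
  refine ⟨?_, fun x hx => ?_⟩
  · have h3 : σ • (g • A) = g • A := h1
    change (g⁻¹ * σ * g) • A = A
    rw [mul_smul, mul_smul, h3, inv_smul_smul]
  · have h4 : g x ∈ (g • A) := ValuationSubring.smul_mem_pointwise_smul g x A hx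
    have h5 := h2 (g x) h4
    rw [mem_nonunits_smul] at h5
    have h6 : g⁻¹ (σ (g x) - g x) = (g⁻¹ * σ * g) x - x := by
      rw [map_sub]
      congr 1
      change (g⁻¹ * g : GQ) x = x
      rw [inv_mul_cancel]; rfl
    rwa [h6] at h5

end Inert

section Rho

variable {𝒪 : Type} [CommRing 𝒪] [IsLocalRing 𝒪] [IsNoetherianRing 𝒪] {T : Type} [CommRing T]
  [IsLocalRing T] [IsNoetherianRing T] [Algebra 𝒪 T] {k : Type} [Field k] {π : T →+* k}
  (hπ : RingHom.ker π = maximalIdeal T) {χ : GQ →* 𝒪ˣ} {p : ℕ} (hp : p.Prime)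
  (hp𝒪 : (p : 𝒪) ∈ maximalIdeal 𝒪) (hpT : (p : T) ∈ maximalIdeal T) (hχ : IsCyc p χ)
  {B : Set ℕ} {t : GQ → T} (ht : CycPs χ p B t) (b : PsB 𝒪 χ) (hg : b.Good t)

lemma isOpen_kerI (I : Ideal T) (hI : ∃ n : ℕ, (p : T) ^ n ∈ I) :
    IsOpen (PsB.kerI ht I : Set GQ) := by
  obtain ⟨n, hn⟩ := hI
  obtain ⟨L, hL, hL2⟩ := ht.cont n
  haveI := hL
  refine Subgroup.isOpen_mono (H₁ := L.fixingSubgroup) ?_ L.fixingSubgroup_isOpen
  intro σ hσ g
  rw [IntermediateField.mem_fixingSubgroup_iff] at hσ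
  have h1 := hL2 σ (fun x hx => hσ x hx) g
  exact (Ideal.span_singleton_le_iff_mem I).mpr hn h1

include hpT in
lemma rho_cont (n : ℕ) : ∃ U : Subgroup GQ, IsOpen (U : Set GQ) ∧ ∀ u ∈ U, ∀ i j,
    (b.rho ht hg u).val i j - (1 : Matrix (Fin 2) (Fin 2) T) i j ∈ maximalIdeal T ^ n :=
  ⟨PsB.kerI ht (maximalIdeal T ^ n), isOpen_kerI ht _ ⟨n, Ideal.pow_mem_pow hpT n⟩,
    fun u hu i j => by
      have := b.entries_kerI _ ht hg hu i j
      rwa [Matrix.sub_apply] at this⟩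

variable {q : Nat.Primes} (hqp : (q : ℕ) ≠ p)

include hp hp𝒪 hχ hqp in
lemma det_rho_inertia {s : Gl q} (hs : s ∈ Il (q : ℕ)) :
    (b.rho ht hg (rl q s)).val.det = 1 := by
  rw [b.det_rho, hχ.inertia hp hp𝒪 q.2 hqp (nonunits_padicPlace q) (rl_mem_inertia hs),
    Units.val_one, map_one]

include hp hp𝒪 hχ hqp in
lemma det_rho_frob {φ : Gl q} (hφ : IsFrobL φ) :
    (b.rho ht hg (rl q φ)).val.det = algebraMap 𝒪 T (q : ℕ) := by
  rw [b.det_rho, hχ.frob hp hp𝒪 q.2 hqp (nonunits_padicPlace q) (rl_isFrobeniusAt hφ)]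

/-- Unipotent matrices of order two. -/
lemma sq_zero_of_trace {R : Type*} [CommRing R] {A : Matrix (Fin 2) (Fin 2) R}
    (h1 : A.trace = 2) (h2 : A.det = 1) : (A - 1) * (A - 1) = 0 := by
  rw [Matrix.trace_fin_two] at h1
  rw [Matrix.det_fin_two] at h2
  ext i j
  rw [Matrix.mul_apply, Fin.sum_univ_two]
  fin_cases i <;> fin_cases j <;> simp
  · linear_combination A 0 0 * h1 - h2
  · linear_combination A 0 1 * h1
  · linear_combination A 1 0 * h1
  · linear_combination A 1 1 * h1 - h2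

lemma pow_of_sq_zero {R : Type*} [CommRing R] {A : Matrix (Fin 2) (Fin 2) R}
    (h : (A - 1) * (A - 1) = 0) (n : ℕ) : A ^ n = 1 + (n : R) • (A - 1) := by
  induction n with
  | zero => rw [pow_zero, Nat.cast_zero, zero_smul, add_zero]
  | succ n ih =>
    have h1 : A = 1 + (A - 1) := by abel
    rw [pow_succ, ih]
    conv_lhs => rw [h1]
    rw [add_sub_cancel_left, add_mul, one_mul, mul_add, mul_one, smul_mul_assoc, h, smul_zero,
      add_zero, Nat.cast_succ, add_smul, one_smul]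
    abel

include hπ hp hp𝒪 hχ hqp hpT in
lemma rho_hpp (hin : ∀ s ∈ Il (q : ℕ), π (t (rl q s)) = 2) (s : Gl q) (hs : s ∈ Il (q : ℕ)) :
    ∃ n, resRep π (b.rho ht hg) (rl q s) ^ p ^ n = 1 := by
  refine ⟨1, Units.ext ?_⟩
  rw [pow_one, Units.val_pow_eq_pow_val, Units.val_one]
  set A : Matrix (Fin 2) (Fin 2) k := (resRep π (b.rho ht hg) (rl q s)).val with hA
  have hA' : A = (b.rho ht hg (rl q s)).val.map π := rfl
  have h1 : A.trace = 2 := by
    rw [hA', Matrix.trace_fin_two, Matrix.map_apply, Matrix.map_apply, ← map_add,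
      ← Matrix.trace_fin_two, b.trace_rho, hin s hs]
  have h2 : A.det = 1 := by
    have h3 : A.det = π (b.rho ht hg (rl q s)).val.det := by
      rw [RingHom.map_det]; rfl
    rw [h3, det_rho_inertia hp hp𝒪 hχ ht b hg hqp hs, map_one]
  have hpk : (p : k) = 0 := by
    have : (p : T) ∈ RingHom.ker π := by rw [hπ]; exact hpT
    rw [RingHom.mem_ker, map_natCast] at this
    exact this
  rw [pow_of_sq_zero (sq_zero_of_trace h1 h2), hpk, zero_smul, add_zero]

include hπ hp hp𝒪 hχ hqp hpT in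
/-- **The inertia group is controlled by the tame generator.** -/
theorem trace_inertia_of_gen (hin : ∀ s ∈ Il (q : ℕ), π (t (rl q s)) = 2) {τ : Gl q}
    (hτ : TameGen p q τ) {J : Ideal T} (hJ : J ≠ ⊤)
    (h : ∀ m : ℤ, ((b.rho ht hg (rl q τ)) ^ m).val.trace - 2 ∈ J)
    {A : ValuationSubring Qb} (hA : A.LiesOverPrime (q : ℕ)) {σ : GQ}
    (hσ : σ ∈ A.inertiaSubgroupIn ℚ) : t σ - 2 ∈ J := by
  obtain ⟨g, hg'⟩ := exists_smul_eq q.2 (nonunits_padicPlace q) hA
  rw [hg'] at hσ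
  have h1 := conj_mem_inertia hσ
  have h2 : t σ = t (g⁻¹ * σ * g) := by
    rw [ht.ps.comm (g⁻¹ * σ) g, mul_inv_cancel_left]
  rw [h2]
  haveI : IsLocalRing (T ⧸ J) := isLocalRing_quotient hJ
  have key : ∀ n, Ideal.Quotient.mk J (t (g⁻¹ * σ * g) - 2) ∈ maximalIdeal (T ⧸ J) ^ n := by
    intro n
    obtain ⟨U, hU, hU2⟩ := rho_cont hpT ht b hg n
    obtain ⟨s, hs, u, hu, hsu⟩ := exists_rl_inertia hU h1
    obtain ⟨m, hm⟩ := inertia_tame hp hqp.symm hπ hpT (rho_cont hpT ht b hg)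
      (rho_hpp hπ hp hp𝒪 hpT hχ ht b hg hqp hin) hτ hs n
    have e1 : t (g⁻¹ * σ * g) - t (rl q s) ∈ maximalIdeal T ^ n := by
      rw [hsu, ← b.trace_rho ht hg, ← b.trace_rho ht hg, map_mul, Units.val_mul,
        ← Matrix.trace_sub]
      have e2 : (b.rho ht hg (rl q s)).val * (b.rho ht hg u).val - (b.rho ht hg (rl q s)).val =
          (b.rho ht hg (rl q s)).val * ((b.rho ht hg u).val - 1) := by rw [mul_sub, mul_one]
      rw [e2, Matrix.trace]
      refine Ideal.sum_mem _ fun i _ => ?_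
      rw [Matrix.diag_apply, Matrix.mul_apply]
      refine Ideal.sum_mem _ fun j _ => Ideal.mul_mem_left _ _ ?_
      have := hU2 u hu j i
      rwa [Matrix.sub_apply]
    have e3 : t (rl q s) - ((b.rho ht hg (rl q τ)) ^ m).val.trace ∈ maximalIdeal T ^ n := by
      rw [redN_eq_iff] at hm
      rw [← b.trace_rho ht hg, Matrix.trace_fin_two, Matrix.trace_fin_two]
      have e4 := Ideal.add_mem _ (hm 0 0) (hm 1 1)
      rw [Matrix.sub_apply, Matrix.sub_apply, sub_add_sub_comm] at e4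
      exact e4
    have e4 : t (g⁻¹ * σ * g) - 2 = (t (g⁻¹ * σ * g) - t (rl q s)) +
        (t (rl q s) - ((b.rho ht hg (rl q τ)) ^ m).val.trace) +
        (((b.rho ht hg (rl q τ)) ^ m).val.trace - 2) := by ring
    rw [e4, map_add, Ideal.Quotient.eq_zero_iff_mem.mpr (h m), add_zero]
    have e5 := Ideal.mem_map_of_mem (Ideal.Quotient.mk J) (Ideal.add_mem _ e1 e3)
    rw [Ideal.map_pow] at e5
    refine Ideal.pow_right_mono ?_ n e5
    rw [Ideal.map_le_iff_le_comap]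
    intro y hy
    exact mk_mem_maximalIdeal' hy
  have h3 : Ideal.Quotient.mk J (t (g⁻¹ * σ * g) - 2) ∈ ⨅ n : ℕ, maximalIdeal (T ⧸ J) ^ n := by
    rw [Submodule.mem_iInf]; exact key
  rw [Ideal.iInf_pow_eq_bot_of_isLocalRing _ (maximalIdeal.isMaximal _).ne_top,
    Submodule.mem_bot] at h3
  exact Ideal.Quotient.eq_zero_iff_mem.mp h3

include hπ hp hp𝒪 hχ hqp hpT in
/-- The tame relation for the representation. -/
theorem rho_tame (hin : ∀ s ∈ Il (q : ℕ), π (t (rl q s)) = 2) {φ τ : Gl q} (hφ : IsFrobL φ)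
    (hτ : τ ∈ Il (q : ℕ)) : (b.rho ht hg (rl q φ)).val * (b.rho ht hg (rl q τ)).val =
      (b.rho ht hg (rl q τ)).val ^ (q : ℕ) * (b.rho ht hg (rl q φ)).val := by
  have h1 := tame_rel hp hqp.symm hπ hpT (rho_cont hpT ht b hg)
    (rho_hpp hπ hp hp𝒪 hpT hχ ht b hg hqp hin) hφ hτ
  have h2 := congrArg Units.val h1
  rw [Units.val_mul, Units.val_mul, Units.val_pow_eq_pow_val] at h2
  exact h2

/-- The unipotent relations, in any quotient. -/
theorem unRel_of_trace {R : Type*} [CommRing R] {Φ A : Matrix (Fin 2) (Fin 2) R} {n : ℕ}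
    (htr : A.trace = 2) (hdet : A.det = 1) (hΦ : Φ.det = n) (hrel : Φ * A = A ^ n * Φ) :
    UnRel Φ (A - 1) (n : R) := by
  have h1 := sq_zero_of_trace htr hdet
  rw [pow_of_sq_zero h1] at hrel
  rw [Matrix.trace_fin_two] at htr
  rw [Matrix.det_fin_two] at hdet
  refine ⟨?_, ?_, ?_, hΦ⟩
  · rw [Matrix.trace_sub, Matrix.trace_one, Matrix.trace_fin_two, htr]; simp
  · rw [Matrix.det_fin_two]
    simp
    linear_combination hdet - htr
  · rw [mul_sub, hrel, add_mul, one_mul, mul_one, add_sub_cancel_left, smul_mul_assoc]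

end Rho

end Fermat.Agent.RT
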