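import Fermat.Agent.RT.S43One
import Fermat.Prelude.Def_FreyPackage_IsConductorLevel
import Fermat.Prelude.Def_FLTPrelim_Ramification

/-!
# Level lowering for the Frey curve
-/

set_option autoImplicit false
set_option linter.unusedSectionVars false
set_option maxHeartbeats 1600000

noncomputable section

open Matrix ModularFormClass CongruenceSubgroup IsLocalRing
open WeierstrassCurve WeierstrassCurve.Affine WeierstrassCurve.Affine.Point

namespace Fermat.Agent.RT

open Fermat.Agent.EC Fermat.Agent.ESCore Fermat.Agent.ESCore.ModP Fermat.Agent.GaloisBasics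
  Fermat.Agent.RT.Ihara Fermat.Agent.GCFT Fermat.Agent.Coh Fermat.Agent.GalD

/-- The field of algebraic numbers. -/
local notation "Kb" => AlgebraicClosure ℚ

/-- Lowering the level at the primes not congruent to `1`. -/
def LowerNe : Prop :=
  ∀ {W : WeierstrassCurve ℤ} (hΔ : W.Δ ≠ 0) (_ : W.IsSemistableModel)
    {p : ℕ} [Fact p.Prime] (_ : 5 ≤ p) (_ : W.ModRepIsIrreducible p) {N q : ℕ}
    (_ : Squarefree N) (_ : q.Prime) (_ : q ≠ p) (_ : q ∣ N) (_ : ¬ q ≡ 1 [MOD p])
    (_ : ∀ A : ValuationSubring Kb, A.LiesOverPrime q → ∀ σ ∈ A.inertiaSubgroupIn ℚ,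
      modRep (torsBasis p W hΔ) σ = 1)
    (_ : W.IsResiduallyModularOfLevel p N), W.IsResiduallyModularOfLevel p (N / q)

/-- **Level lowering for the Frey curve.** -/
theorem s43_of (h36 : S36P) (hLG : LGcP) (hb : LowerNe)
    (P : FreyPackage) {N q : ℕ} (hcond : P.IsConductorLevel N) (hq : q.Prime)
    (hqp : q ≠ P.p) (hqN : q ∣ N)
    (hirr : GaloisRepIsIrreducible (K := AlgebraicClosure ℚ) ℚ P.freyCurve P.p)
    (hmod : P.ModularRepOfLevel N) (hunr : P.GaloisRepUnramifiedAt q) :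
    ∃ M : ℕ, M ∣ N ∧ ¬ q ∣ M ∧ P.ModularRepOfLevel M := by
  haveI : Fact P.p.Prime := ⟨P.pp⟩
  have hN0 : N ≠ 0 := hcond.pos.ne'
  have hΔ : P.freyCurveInt.Δ ≠ 0 := freyInt_Δ_ne_zero P
  have hss : P.freyCurveInt.IsSemistableModel := freyInt_semistable P
  have hWmap := freyInt_map P
  have hW : P.freyCurveInt.IsIntegralModelOf P.freyCurve := hWmap ▸ ⟨1, by simp⟩
  have hres := residuallyModular_of_modularRep hN0 hmod hW
  have hirr' : P.freyCurveInt.ModRepIsIrreducible P.p := by
    unfold WeierstrassCurve.ModRepIsIrreducible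
    rw [hWmap]
    exact hirr
  have hunr' : ∀ A : ValuationSubring Kb, A.LiesOverPrime q → ∀ σ ∈ A.inertiaSubgroupIn ℚ,
      modRep (torsBasis P.p P.freyCurveInt hΔ) σ = 1 := by
    intro A hA σ hσ
    rw [modRep_eq_one_iff]
    have h : WeierstrassCurve.Affine.Point.GaloisRepUnramifiedAt (K := AlgebraicClosure ℚ) ℚ
        (P.freyCurveInt.map (Int.castRingHom ℚ)) P.p q := by
      rw [hWmap]
      exact hunr
    exact h A hA σ hσ
  have hNq : N / q * q = N := Nat.div_mul_cancel hqN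
  have hcop : (N / q).Coprime q := by
    have h := hcond.squarefree
    rw [← hNq] at h
    exact Nat.coprime_of_squarefree_mul h
  have hqM : ¬ q ∣ N / q := fun h => by
    have := Nat.Coprime.eq_one_of_dvd hcop.symm h
    exact hq.ne_one this
  by_cases hpq : P.p ∣ q - 1
  · have hsq : Squarefree (N / q) := hcond.squarefree.squarefree_of_dvd (Nat.div_dvd_of_dvd hqN)
    have hpΔ : P.p ∣ N / q → (P.p : ℤ) ∣ P.freyCurveInt.Δ := by
      intro h
      have h1 := hcond.p_dvd_abc (h.trans (Nat.div_dvd_of_dvd hqN))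
      have h2 := freyInt_Δ P
      have h3 : (P.p : ℤ) ∣ 256 * P.freyCurveInt.Δ := by
        rw [h2, ← mul_pow, ← mul_pow]
        exact dvd_pow (dvd_pow h1 P.pp.ne_zero) two_ne_zero
      rcases (Nat.prime_iff_prime_int.mp P.pp).dvd_or_dvd h3 with h4 | h4
      · exfalso
        have h5 : P.p ∣ 2 ^ 8 := by exact_mod_cast h4
        have h6 := (Nat.prime_dvd_prime_iff_eq P.pp Nat.prime_two).mp (P.pp.dvd_of_dvd_pow h5)
        have := P.hp5
        omega
      · exact h4
    obtain ⟨M₁, hM₁, -, h⟩ := lower_one hΔ hss P.hp5 hirr' hsq hq hcop hpq hqp hpΔ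
      (by rw [hNq]; exact hres) hunr' h36 hLG
    exact ⟨M₁, hM₁.trans (Nat.div_dvd_of_dvd hqN), fun h' => hqM (h'.trans hM₁),
      modularRep_of_residuallyModular h hW⟩
  · refine ⟨N / q, Nat.div_dvd_of_dvd hqN, hqM, modularRep_of_residuallyModular ?_ hW⟩
    refine hb hΔ hss P.hp5 hirr' hcond.squarefree hq hqp hqN (fun h => hpq ?_) hunr' hres
    exact (Nat.modEq_iff_dvd' hq.one_lt.le).mp h.symm

end Fermat.Agent.RT
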