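import Fermat.Agent.RT.LRMain
import Fermat.Agent.RT.LRClass
import Fermat.Agent.RT.LRGrp
import Fermat.Agent.RT.LRFinal

/-!
# Non-vanishing of the localised cohomology attached to an eigenform
-/

set_option autoImplicit false

open Matrix CongruenceSubgroup IsLocalRing
open scoped MatrixGroups

noncomputable section

namespace Fermat.Agent.RT.LR

open Fermat.Agent.RT Fermat.Agent.RT.Ihara ModularFormClass

/-- **The localised cohomology attached to an eigenform does not vanish.** -/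
theorem HM0_ne_bot {p N : ℕ} [hp : Fact p.Prime] [NeZero N]
    {f : CuspForm (Gamma0 N) 2} (hf : f.IsNormalizedEigenform) {k' : Type} [Field k'] [CharP k' p]
    (φ : integralClosure ℤ ℂ →+* k')
    {𝒪 : Type} [CommRing 𝒪] [IsDomain 𝒪] [IsDiscreteValuationRing 𝒪]
    [IsAdicComplete (maximalIdeal 𝒪) 𝒪] [Algebra (ZMod p) (ResidueField 𝒪)]
    (h8 : IsUnit (8 : 𝒪)) (I : Set ℕ) (n : ℕ → ℤ)
    (hI : ∀ l ∈ I, l.Prime ∧ ∃ b : integralClosure ℤ ℂ, (b : ℂ) = qCoeff f l ∧ φ b = n l) :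
    HM0 N I (fun l => (n l : 𝒪)) ≠ ⊥ := by
  obtain ⟨c, hc0, hc3, hc⟩ := exists_eigenclass_mod hf φ
  obtain ⟨g₀, hg₀⟩ : ∃ g, c.1 g ≠ 0 := by
    by_contra hcon
    push Not at hcon
    exact hc0 (Subtype.ext (funext hcon))
  letI : Algebra (ZMod p) k' := ZMod.algebra k' p
  obtain ⟨lam₀, hlam₀⟩ : ∃ lam : Module.Dual (ZMod p) k', lam (c.1 g₀) ≠ 0 := by
    by_contra hcon
    push Not at hcon
    exact hg₀ ((Module.forall_dual_apply_eq_zero_iff (ZMod p) (c.1 g₀)).mp hcon)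
  let lam : k' →+ ResidueField 𝒪 :=
    (algebraMap (ZMod p) (ResidueField 𝒪)).toAddMonoidHom.comp lam₀.toAddMonoidHom
  have hlam : lam (c.1 g₀) ≠ 0 := by
    change algebraMap (ZMod p) (ResidueField 𝒪) (lam₀ (c.1 g₀)) ≠ 0
    exact (map_ne_zero _).mpr hlam₀
  set cb : H1 𝒪 (ResidueField 𝒪) (Gamma0 N) := extH lam c with hcb
  have hcb0 : cb ≠ 0 := fun h => hlam (congrFun (congrArg Subtype.val h) g₀)
  have hcb3 : ∀ g : Gamma0 N, g ^ 3 = 1 → cb.1 g = 0 := fun g hg => by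
    change lam (c.1 g) = 0
    rw [hc3 g hg, map_zero]
  have hcbI : ∀ i ∈ I, hec (Gamma1_le N) le_rfl i cb = (n i : 𝒪) • cb := by
    intro l hl
    obtain ⟨hlp, b, hb, hbn⟩ := hI l hl
    refine extH_hec (𝒪 := 𝒪) lam (n := n l) ?_
    rw [hc l hlp b hb, hbn]
  have := finite_H1 (O := 𝒪) (A := 𝒪) (G := Gamma0 N)
  have := finite_H1 (O := 𝒪) (A := ResidueField 𝒪) (G := Gamma0 N)
  obtain ⟨c₀, hc₀⟩ := exists_mapH_lift h8 (resL 𝒪) resL_surjective cb hcb3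
  have hcloc : cb ∈ HM (ResidueField 𝒪) (Gamma1_le N) le_rfl I (fun l => (n l : 𝒪)) := by
    rintro i j
    refine ⟨1, ?_⟩
    rw [pow_one, LinearMap.sub_apply, LinearMap.smul_apply, Module.End.one_apply]
    have : hecI (Gamma1_le N) le_rfl I i cb = (n i : 𝒪) • cb := hcbI i i.2
    rw [this, sub_self]
    exact Submodule.zero_mem _
  obtain ⟨c₁, hc₁, hc₁c⟩ : ∃ c₁ ∈ HM 𝒪 (Gamma1_le N) le_rfl I (fun l => (n l : 𝒪)),
      mapH (resL 𝒪) c₁ = cb := by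
    have h1 := LocG.exists_preimage (M := H1 𝒪 𝒪 (Gamma0 N))
      (M' := H1 𝒪 (ResidueField 𝒪) (Gamma0 N)) (T := hecI (Gamma1_le N) le_rfl I)
      (T' := hecI (Gamma1_le N) le_rfl I) (a := fun i : I => (n i : 𝒪))
      (hecI_comm _ _ I) (hecI_comm _ _ I) (mapH (resL 𝒪)) (fun i m => hecI_mapH _ _ i m) (m := c₀)
      (by rw [hc₀]; exact hcloc)
    obtain ⟨c₁, h2, h3⟩ := h1
    exact ⟨c₁, h2, h3.trans hc₀⟩
  intro hbot
  apply hcb0
  have h1 : c₁ = 0 := by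
    have h2 : c₁ ∈ (⊥ : Submodule 𝒪 (H1 𝒪 𝒪 (Gamma0 N))) := by
      rw [← hbot]
      exact hc₁
    exact (Submodule.mem_bot _).mp h2
  rw [← hc₁c, h1, map_zero]

end Fermat.Agent.RT.LR
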