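import Fermat.Agent.RT.SetO
import Fermat.Agent.RT.SetE
import Fermat.Agent.RT.SetH
import Fermat.Agent.RT.HPDefs

/-!
# The setup of the level lowering theorem
-/

set_option autoImplicit false
set_option linter.unusedSectionVars false
set_option maxHeartbeats 1600000

noncomputable section

open Matrix ModularFormClass CongruenceSubgroup IsLocalRing
open WeierstrassCurve WeierstrassCurve.Affine WeierstrassCurve.Affine.Point

namespace Fermat.Agent.RT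

open Fermat.Agent.EC Fermat.Agent.ESCore Fermat.Agent.ESCore.ModP Fermat.Agent.GaloisBasics
  Fermat.Agent.RT.Ihara Fermat.Agent.GCFT Fermat.Agent.Coh

/-- The field of algebraic numbers. -/
local notation "Kb" => AlgebraicClosure ℚ

theorem isUnit_natCast_of_not_dvd {O : Type*} [CommRing O] [IsLocalRing O] {p : ℕ}
    (hp : p.Prime) (hpO : (p : O) ∈ maximalIdeal O) {n : ℕ} (hn : ¬ p ∣ n) : IsUnit (n : O) := by
  have hcop : IsCoprime (n : ℤ) (p : ℤ) := by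
    rw [Nat.isCoprime_iff_coprime]
    exact ((Nat.Prime.coprime_iff_not_dvd hp).mpr hn).symm
  obtain ⟨u, v, huv⟩ := hcop
  have h1 : (u : O) * n + v * p = 1 := by
    have := congrArg (Int.cast : ℤ → O) huv
    push_cast at this
    exact this
  by_contra hnu
  have h2 : (n : O) ∈ maximalIdeal O := hnu
  have h3 : (1 : O) ∈ maximalIdeal O := by
    rw [← h1]
    exact Ideal.add_mem _ (Ideal.mul_mem_left _ _ h2) (Ideal.mul_mem_left _ _ hpO)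
  exact (Ideal.ne_top_iff_one _).mp (maximalIdeal.isMaximal O).ne_top h3

/-- **The setup.** -/
theorem exists_setup {W : WeierstrassCurve ℤ} (hΔ : W.Δ ≠ 0) (hss : W.IsSemistableModel)
    {p : ℕ} [hp : Fact p.Prime] (hp2 : p ≠ 2) (hirr : W.ModRepIsIrreducible p) {M q₀ : ℕ}
    (hM : M ≠ 0) (hq₀ : q₀.Prime) (hcop : M.Coprime q₀) (hpq : p ∣ q₀ - 1)
    (h3 : p ≠ 3 ∨ ∀ g : Gamma0 (M * q₀), g ^ 3 = 1 → g = 1)
    (hres : W.IsResiduallyModularOfLevel p (M * q₀)) (m₀ : ℕ) {S₀ : Finset ℕ}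
    (hS₀ : ∀ l : ℕ, l.Prime → (l ∈ S₀ ↔ l ∣ M * q₀ ∨ l = p)) :
    ∃ (𝒪 : Type) (_ : CommRing 𝒪) (_ : IsDomain 𝒪) (_ : IsDiscreteValuationRing 𝒪)
      (_ : IsAdicComplete (maximalIdeal 𝒪) 𝒪) (_ : Finite (ResidueField 𝒪)) (_ : CharZero 𝒪)
      (_ : Algebra (ZMod p) (ResidueField 𝒪)) (χ : GQ →* 𝒪ˣ) (a : ℕ → 𝒪),
      (p : 𝒪) ∈ maximalIdeal 𝒪 ∧ (∃ ζ : 𝒪, IsPrimitiveRoot ζ (p ^ m₀)) ∧
      (∀ t d : ZMod p, ∃ x : ResidueField 𝒪,
        x ^ 2 - algebraMap (ZMod p) (ResidueField 𝒪) t * x +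
          algebraMap (ZMod p) (ResidueField 𝒪) d = 0) ∧
      HBase p M q₀ S₀ a (bc (ResidueField 𝒪) (modRep (torsBasis p W hΔ))) χ ∧
      HM0 (M * q₀) {l : ℕ | l.Prime ∧ l ∉ S₀} a ≠ ⊥ ∧
      ∀ T : Finset Nat.Primes, (∀ l : Nat.Primes, (l : ℕ) ∈ S₀ → l ∈ T) →
        (bc (ResidueField 𝒪) (modRep (torsBasis p W hΔ))).ker ∈ famS T := by
  have hp1 := hp.out
  have hN : M * q₀ ≠ 0 := mul_ne_zero hM hq₀.ne_zero
  haveI : NeZero (M * q₀) := ⟨hN⟩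
  obtain ⟨𝒪, i1, i2, i3, i4, i5, i6, i7, hp𝒪, hζ, hquad⟩ := exists_coeff_ring p m₀
  obtain ⟨χ, hχ⟩ := exists_isCyc (𝒪 := 𝒪) hp1 hp𝒪
  obtain ⟨f, 𝔪, hf, h𝔪, hp𝔪, hcong⟩ := hres
  letI fld := quotField 𝔪 h𝔪
  haveI hchar : CharP (integralClosure ℤ ℂ ⧸ 𝔪) p := charP_quot h𝔪 hp𝔪
  obtain ⟨ρ', L', hLf, hL', hunr, hfr⟩ := exists_matRep hf hp1 (Ideal.Quotient.mk 𝔪)
  let j : ZMod p →+* integralClosure ℤ ℂ ⧸ 𝔪 := ZMod.castHom dvd_rfl _
  have hcmp := trace_eq_modRep hΔ hN (Ideal.Quotient.mk 𝔪) j hL' hfr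
    (fun l hl hgood hlN hlp => by
      obtain ⟨a, ha, h1⟩ := hcong l hl hgood hlN hlp
      refine ⟨a, ha, ?_⟩
      rw [← map_intCast (Ideal.Quotient.mk 𝔪)]
      exact (Ideal.Quotient.eq).mpr h1)
  have hS1 : ∀ l : ℕ, l.Prime → l ∉ S₀ → ¬ l ∣ M * q₀ ∧ l ≠ p := by
    intro l hl hlS
    have := (hS₀ l hl).not.mp hlS
    push Not at this
    exact this
  -- unramifiedness
  have hunr' : ∀ l : ℕ, l.Prime → l ∉ S₀ → ∀ A : ValuationSubring Kb, A.LiesOverPrime l →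
      ∀ σ ∈ A.inertiaSubgroupIn ℚ, modRep (torsBasis p W hΔ) σ = 1 := by
    intro l hl hlS A hA σ hσ
    obtain ⟨h1, h2⟩ := hS1 l hl hlS
    have h3 := hunr l hl h1 h2 A hA σ hσ
    have hspan := span_imgSet_semistable (k := ZMod p) hΔ hss hp2 hirr (torsBasis p W hΔ) 0
    have h4 : bc (ZMod p) (modRep (torsBasis p W hΔ)) σ = 1 := by
      refine eq_one_of_trace_eq j hspan (ρ' := ρ') (fun τ => ?_) h3
      rw [(hcmp τ).1]
      congr 1
    have h5 : σ ∈ (bc (ZMod p) (modRep (torsBasis p W hΔ))).ker := MonoidHom.mem_ker.mpr h4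
    rw [ker_bc] at h5
    exact MonoidHom.mem_ker.mp h5
  -- the numbers
  have hex : ∀ l : ℕ, ∃ n : ℤ, l.Prime → l ∉ S₀ → ∀ B : ValuationSubring Kb, B.LiesOverPrime l →
      ∀ σ : GQ, B.IsFrobeniusAt σ l → (modRep (torsBasis p W hΔ) σ).val.trace = (n : ZMod p) := by
    intro l
    by_cases hl : l.Prime
    · by_cases hlS : l ∈ S₀
      · exact ⟨0, fun _ h => absurd hlS h⟩
      obtain ⟨B₀, hB₀⟩ := exists_liesOverPrime hl
      obtain ⟨σ₀, hσ₀⟩ := exists_isFrobeniusAt hl B₀ hB₀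
      refine ⟨((modRep (torsBasis p W hΔ) σ₀).val.trace.val : ℤ), fun _ _ B hB σ hσ => ?_⟩
      obtain ⟨h1, h2⟩ := hS1 l hl hlS
      obtain ⟨a₀, ha₀, ht₀, -⟩ := hfr l hl h1 h2 B₀ hB₀ σ₀ hσ₀
      obtain ⟨a₁, ha₁, ht₁, -⟩ := hfr l hl h1 h2 B hB σ hσ
      have haa : a₀ = a₁ := Subtype.ext (ha₀.trans ha₁.symm)
      rw [Int.cast_natCast, ZMod.natCast_val, ZMod.cast_id', id_eq]
      apply j.injective
      rw [← (hcmp σ).1, ← (hcmp σ₀).1, ht₀, ht₁, haa]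
    · exact ⟨0, fun h => absurd h hl⟩
  choose n hn using hex
  have hspanK := span_imgSet_semistable (k := ResidueField 𝒪) hΔ hss hp2 hirr
    (torsBasis p W hΔ) 0
  refine ⟨𝒪, i1, i2, i3, i4, i5, i6, i7, χ, fun l => (n l : 𝒪), hp𝒪, hζ, hquad, ?_, ?_, ?_⟩
  · refine ⟨hp1, hp2, hp𝒪, ?_, hq₀, hM, hcop, hpq, hS₀, ?_, hχ, ?_, ?_, ?_⟩
    · have h8 : ¬ p ∣ 8 := by
        intro h
        have h' : p ∣ 2 ^ 3 := h
        exact hp2 ((Nat.prime_dvd_prime_iff_eq hp1 Nat.prime_two).mp (hp1.dvd_of_dvd_pow h'))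
      exact_mod_cast isUnit_natCast_of_not_dvd hp1 hp𝒪 h8
    · rcases h3 with h3 | h3
      · left
        have h3' : ¬ p ∣ 3 := fun h => h3 ((Nat.prime_dvd_prime_iff_eq hp1 Nat.prime_three).mp h)
        exact_mod_cast isUnit_natCast_of_not_dvd hp1 hp𝒪 h3'
      · exact Or.inr h3
    · obtain ⟨L, hLfin, hL⟩ := exists_level_modRep (p := p) hΔ
      refine ⟨L, hLfin, fun σ hσ => ?_⟩
      have h1 : σ ∈ (modRep (torsBasis p W hΔ)).ker := MonoidHom.mem_ker.mpr (hL σ hσ)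
      rw [← ker_bc (k := ResidueField 𝒪)] at h1
      exact MonoidHom.mem_ker.mp h1
    · intro v hv
      refine not_comEig_of_span hspanK v ⟨hv.1, fun g hg => hv.2 g (Subgroup.mem_top g)⟩
    · intro l hl hlS B hB σ hσ
      obtain ⟨h1, h2⟩ := hS1 l hl hlS
      constructor
      · rw [bc_coe, ← RingHom.mapMatrix_apply, ← RingHom.map_det,
          modRep_det_frob hΔ hl h2 hB hσ, map_natCast]
      · rw [bc_coe]
        have h4 := hn l hl hlS B hB σ hσ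
        have h5 : ((modRep (torsBasis p W hΔ) σ).val.map
            (algebraMap (ZMod p) (ResidueField 𝒪))).trace =
            algebraMap (ZMod p) (ResidueField 𝒪) (modRep (torsBasis p W hΔ) σ).val.trace := by
          rw [Matrix.trace_fin_two, Matrix.trace_fin_two, map_add]
          rfl
        rw [h5, h4, map_intCast, map_intCast, map_intCast]
  · refine LR.HM0_ne_bot (p := p) hf (Ideal.Quotient.mk 𝔪) ?_ _ n ?_
    · have h8 : ¬ p ∣ 8 := by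
        intro h
        have h' : p ∣ 2 ^ 3 := h
        exact hp2 ((Nat.prime_dvd_prime_iff_eq hp1 Nat.prime_two).mp (hp1.dvd_of_dvd_pow h'))
      exact_mod_cast isUnit_natCast_of_not_dvd hp1 hp𝒪 h8
    · rintro l ⟨hl, hlS⟩
      refine ⟨hl, ?_⟩
      obtain ⟨h1, h2⟩ := hS1 l hl hlS
      obtain ⟨B₀, hB₀⟩ := exists_liesOverPrime hl
      obtain ⟨σ₀, hσ₀⟩ := exists_isFrobeniusAt hl B₀ hB₀
      obtain ⟨a₀, ha₀, ht₀, -⟩ := hfr l hl h1 h2 B₀ hB₀ σ₀ hσ₀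
      refine ⟨a₀, ha₀, ?_⟩
      rw [← ht₀, (hcmp σ₀).1, hn l hl hlS B₀ hB₀ σ₀ hσ₀, map_intCast]
  · intro T hT
    exact ker_mem_famS hΔ fun l hlT A hA σ hσ =>
      hunr' l l.2 (fun h => hlT (hT l h)) A hA σ hσ

end Fermat.Agent.RT
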