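import Fermat.Agent.RT.LvlMain
import Fermat.Agent.RT.FinalPt
import Fermat.Agent.RT.HPack
import Fermat.Agent.RT.Setup
import Fermat.Agent.RT.SetF
import Fermat.Agent.RT.OrdTr
import Fermat.Agent.RT.LvlP

/-!
# Level lowering at a prime congruent to `1` modulo `p`
-/

set_option autoImplicit false
set_option linter.unusedSectionVars false
set_option maxHeartbeats 1600000

noncomputable section

open Matrix ModularFormClass CongruenceSubgroup IsLocalRing
open WeierstrassCurve WeierstrassCurve.Affine WeierstrassCurve.Affine.Point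

namespace Fermat.Agent.RT

open Fermat.Agent.EC Fermat.Agent.ESCore Fermat.Agent.ESCore.ModP Fermat.Agent.GaloisBasics
  Fermat.Agent.RT.Ihara Fermat.Agent.GCFT Fermat.Agent.Coh Fermat.Agent.GalD

/-- The field of algebraic numbers. -/
local notation "Kb" => AlgebraicClosure ℚ

/-- **Lowering the level at a prime congruent to `1` modulo `p`.** -/
theorem lower_one {W : WeierstrassCurve ℤ} (hΔ : W.Δ ≠ 0) (hss : W.IsSemistableModel)
    {p : ℕ} [hp : Fact p.Prime] (hp5 : 5 ≤ p) (hirr : W.ModRepIsIrreducible p) {M q₀ : ℕ}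
    (hM : Squarefree M) (hq₀ : q₀.Prime) (hcop : M.Coprime q₀) (hpq : p ∣ q₀ - 1) (hqp : q₀ ≠ p)
    (hpM : p ∣ M → (p : ℤ) ∣ W.Δ)
    (hres : W.IsResiduallyModularOfLevel p (M * q₀))
    (hunr : ∀ A : ValuationSubring Kb, A.LiesOverPrime q₀ → ∀ σ ∈ A.inertiaSubgroupIn ℚ,
      modRep (torsBasis p W hΔ) σ = 1)
    (h36 : S36P) (hLG : LGcP) :
    ∃ M₁ : ℕ, M₁ ∣ M ∧ M₁ ≠ 0 ∧ W.IsResiduallyModularOfLevel p M₁ := by
  classical
  have hp2 : p ≠ 2 := by omega
  have hM0 : M ≠ 0 := hM.ne_zero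
  haveI : NeZero (M * q₀) := ⟨mul_ne_zero hM0 hq₀.ne_zero⟩
  have hq1 : q₀ - 1 ≠ 0 := by
    have := hq₀.two_le
    omega
  obtain ⟨m, c', hc', hqm⟩ := Nat.exists_eq_pow_mul_and_not_dvd hq1 p hp.out.ne_one
  have hc : c'.Coprime p := ((Nat.Prime.coprime_iff_not_dvd hp.out).mpr hc').symm
  have hm : 1 ≤ m := by
    by_contra h
    have : m = 0 := by omega
    subst this
    rw [pow_zero, one_mul] at hqm
    exact hc' (hqm ▸ hpq)
  let S₀ : Finset ℕ := (insert p (M * q₀).primeFactors)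
  have hS₀ : ∀ l : ℕ, l.Prime → (l ∈ S₀ ↔ l ∣ M * q₀ ∨ l = p) := by
    intro l hl
    rw [Finset.mem_insert, Nat.mem_primeFactors]
    constructor
    · rintro (h | h)
      · exact Or.inr h
      · exact Or.inl h.2.1
    · rintro (h | h)
      · exact Or.inr ⟨hl, h, NeZero.ne _⟩
      · exact Or.inl h
  obtain ⟨𝒪, i1, i2, i3, i4, i5, i6, i7, χ, a, hp𝒪, ⟨ζ, hζ⟩, hquad, hB, hne, hker⟩ :=
    exists_setup hΔ hss hp2 hirr hM0 hq₀ hcop hpq (Or.inl (by omega)) hres m hS₀
  obtain ⟨d, hd, ⟨Z⟩⟩ := exists_hZero hB hne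
  have hpl : PPlaceP Z := by
    by_cases h : p ∣ M
    · exact pplaceP_ord hB hM h (OrdTr.bc_of_mult hΔ hss hp2 (hpM h) (torsBasis p W hΔ)
        (ResidueField 𝒪))
    · exact pplaceP_flat hB h
  obtain ⟨b, hgZ, Q, hQ, τ₀, hτ₀, 𝔮₀, hprime, h0, h1⟩ :=
    exists_unramified_prime hB (Z := Z) hM h36 hd hqp hpl
      (fun σ => by
        have h := hquad (modRep (torsBasis p W hΔ) σ).val.trace
          (modRep (torsBasis p W hΔ) σ).val.det
        rw [bc_coe, ← RingHom.mapMatrix_apply, ← RingHom.map_det, RingHom.mapMatrix_apply]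
        rw [Matrix.trace_fin_two, Matrix.map_apply, Matrix.map_apply, ← map_add,
          ← Matrix.trace_fin_two]
        exact h)
      (fun n => span_imgSet_semistable (k := ResidueField 𝒪) hΔ hss hp2 hirr
        (torsBasis p W hΔ) n)
      hker
      (fun A hA σ hσ => by
        have h5 : σ ∈ (modRep (torsBasis p W hΔ)).ker := MonoidHom.mem_ker.mpr (hunr A hA σ hσ)
        rw [← ker_bc (k := ResidueField 𝒪)] at h5
        exact MonoidHom.mem_ker.mp h5)
      hc hqm hm hζ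
  exact exists_level_of_point hΔ hB hM Z hd b hgZ hQ hτ₀ 𝔮₀ h0 h1 hLG

end Fermat.Agent.RT
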