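import Fermat.Agent.RT.FramedSt

set_option autoImplicit false
set_option maxHeartbeats 400000
set_option linter.style.haveILetI false
set_option linter.unusedSectionVars false
set_option linter.unusedVariables false
set_option linter.unusedSimpArgs false

/-!
# The parameters of the framed local lift at `q ≠ p`, minimal ramified case
-/

open IsLocalRing MvPowerSeries Matrix

namespace Fermat.Agent.RT

open Fermat.Agent.Coh Fermat.Agent.GalD Fermat.Agent.LocalCFT Fermat.Agent.GCFT
  Fermat.Agent.ESCore Module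

/-- The absolute Galois group. -/
local notation "GQ" => (AlgebraicClosure ℚ ≃ₐ[ℚ] AlgebraicClosure ℚ)

section LA

variable {k : Type*} [Field k]

/-- the standard form of a nonzero nilpotent matrix -/
lemma exists_basis_nilp {N : Matrix (Fin 2) (Fin 2) k} (hN : N ≠ 0) (htr : N.trace = 0)
    (hdet : N.det = 0) : ∃ P R : Matrix (Fin 2) (Fin 2) k, P * R = 1 ∧ R * P = 1 ∧
      N * P = P * !![0, 1; 0, 0] := by
  rw [trace_fin_two] at htr
  rw [det_fin_two] at hdet
  have e : N 1 1 = - N 0 0 := by linear_combination htr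
  rw [e] at hdet
  have key : ∀ P : Matrix (Fin 2) (Fin 2) k, P.det ≠ 0 → N * P = P * !![0, 1; 0, 0] →
      ∃ P R : Matrix (Fin 2) (Fin 2) k, P * R = 1 ∧ R * P = 1 ∧
      N * P = P * !![0, 1; 0, 0] := by
    intro P hP h
    have hu : IsUnit P.det := isUnit_iff_ne_zero.mpr hP
    exact ⟨P, P⁻¹, Matrix.mul_nonsing_inv P hu, Matrix.nonsing_inv_mul P hu, h⟩
  by_cases hb : N 0 1 = 0
  · by_cases hc : N 1 0 = 0
    · exfalso
      apply hN
      rw [hb, hc] at hdet
      have ha : N 0 0 = 0 := by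
        have : N 0 0 * N 0 0 = 0 := by linear_combination -hdet
        exact mul_self_eq_zero.mp this
      ext i j
      fin_cases i <;> fin_cases j
      · exact ha
      · exact hb
      · exact hc
      · change N 1 1 = 0
        rw [e, ha, neg_zero]
    · refine key !![N 0 0, 1; N 1 0, 0] ?_ ?_
      · rw [det_fin_two_of]
        simpa using hc
      · ext i j
        fin_cases i <;> fin_cases j
        · simp [Matrix.mul_apply, Fin.sum_univ_two]; linear_combination -hdet
        · simp [Matrix.mul_apply, Fin.sum_univ_two]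
        · simp [Matrix.mul_apply, Fin.sum_univ_two, e]; ring
        · simp [Matrix.mul_apply, Fin.sum_univ_two]
  · refine key !![N 0 1, 0; N 1 1, 1] ?_ ?_
    · rw [det_fin_two_of]
      simpa using hb
    · ext i j
      fin_cases i <;> fin_cases j
      · simp [Matrix.mul_apply, Fin.sum_univ_two, e]; ring
      · simp [Matrix.mul_apply, Fin.sum_univ_two]
      · simp [Matrix.mul_apply, Fin.sum_univ_two, e]; linear_combination -hdet
      · simp [Matrix.mul_apply, Fin.sum_univ_two]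

lemma st_key0 (h2 : (2 : k) ≠ 0) {q : k} (hq : q ≠ 0) {N' F F' : Matrix (Fin 2) (Fin 2) k}
    (hE2 : !![0, 1; 0, 0] * N' + N' * !![0, 1; 0, 0] = 0) (htr : N'.trace = 0)
    (hE3 : F * !![0, 1; 0, 0] = q • (!![0, 1; 0, 0] * F))
    (hE4 : F' * !![0, 1; 0, 0] + F * N' = q • (N' * F + !![0, 1; 0, 0] * F'))
    (hF : F.det ≠ 0) (hdet : (F' * F.adjugate).trace = 0)
    (h00 : N' 0 0 = 0) (h01 : N' 0 1 = 0) (hy : F' 0 1 = 0) : N' = 0 ∧ F' = 0 := by
  have e00 := congrFun (congrFun hE2 0) 0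
  simp only [Matrix.mul_apply, Matrix.add_apply, Matrix.smul_apply, Fin.sum_univ_two, Matrix.of_apply,
    Matrix.cons_val', Matrix.cons_val_zero, Matrix.cons_val_one, Matrix.cons_val_fin_one,
    Matrix.zero_apply, smul_eq_mul, mul_zero, mul_one, add_zero, zero_add, zero_mul, one_mul] at e00
  rw [trace_fin_two, h00, zero_add] at htr
  have hN : N' = 0 := by
    ext i j
    fin_cases i <;> fin_cases j
    · exact h00
    · exact h01
    · exact e00
    · exact htr
  subst hN
  refine ⟨rfl, ?_⟩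
  rw [mul_zero, zero_mul, add_zero, zero_add] at hE4
  have f00 := congrFun (congrFun hE3 0) 0
  have f01 := congrFun (congrFun hE3 0) 1
  have f11 := congrFun (congrFun hE3 1) 1
  have g00 := congrFun (congrFun hE4 0) 0
  have g01 := congrFun (congrFun hE4 0) 1
  have g11 := congrFun (congrFun hE4 1) 1
  simp only [Matrix.mul_apply, Matrix.add_apply, Matrix.smul_apply, Fin.sum_univ_two, Matrix.of_apply,
    Matrix.cons_val', Matrix.cons_val_zero, Matrix.cons_val_one, Matrix.cons_val_fin_one,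
    Matrix.zero_apply, smul_eq_mul, mul_zero, mul_one, add_zero, zero_add, zero_mul, one_mul]
    at f00 f01 f11 g00 g01 g11
  rw [det_fin_two, f11, mul_zero, sub_zero] at hF
  have hF11 : F 1 1 ≠ 0 := right_ne_zero_of_mul hF
  have hd : F' 0 0 * F 1 1 + F' 1 1 * F 0 0 = 0 := by
    rw [adjugate_fin_two, trace_fin_two] at hdet
    simp [Matrix.mul_apply, Fin.sum_univ_two, f11, g11, hy] at hdet
    linear_combination hdet
  have h3 : F' 0 0 + q * F' 1 1 = 0 := by
    rw [f01] at hd
    have : F 1 1 * (F' 0 0 + q * F' 1 1) = 0 := by linear_combination hd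
    exact (mul_eq_zero.mp this).resolve_left hF11
  have h4 : F' 0 0 = 0 := by
    have : 2 * F' 0 0 = 0 := by linear_combination h3 + g01
    exact (mul_eq_zero.mp this).resolve_left h2
  have h5 : F' 1 1 = 0 := by
    rw [h4, zero_add] at h3
    exact (mul_eq_zero.mp h3).resolve_left hq
  ext i j
  fin_cases i <;> fin_cases j
  · exact h4
  · exact hy
  · exact g11
  · exact h5

lemma st_key (h2 : (2 : k) ≠ 0) {q : k} (hq : q ≠ 0) {N N' F F' Fi P R : Matrix (Fin 2) (Fin 2) k}
    (hPR : P * R = 1) (hRP : R * P = 1) (hNP : N * P = P * !![0, 1; 0, 0])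
    (hE2 : N * N' + N' * N = 0) (htr : N'.trace = 0) (hE3 : F * N = q • (N * F))
    (hE4 : F' * N + F * N' = q • (N' * F + N * F')) (hF : F * Fi = 1)
    (hdet : (F' * Fi).trace = 0) (h00 : (R * N' * P) 0 0 = 0) (h01 : (R * N' * P) 0 1 = 0)
    (hy : (R * F' * P) 0 1 = 0) : N' = 0 ∧ F' = 0 := by
  have hc : ∀ X Y : Matrix (Fin 2) (Fin 2) k, R * (X * Y) * P = (R * X * P) * (R * Y * P) := by
    intro X Y
    have : (R * X * P) * (R * Y * P) = R * X * (P * R) * Y * P := by simp only [mul_assoc]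
    rw [this, hPR, mul_one]
    simp only [mul_assoc]
  have hcN : R * N * P = !![0, 1; 0, 0] := by rw [mul_assoc, hNP, ← mul_assoc, hRP, one_mul]
  have htrc : ∀ X : Matrix (Fin 2) (Fin 2) k, (R * X * P).trace = X.trace := by
    intro X
    rw [trace_mul_comm, ← mul_assoc, hPR, one_mul]
  have hcF : (R * F * P) * (R * Fi * P) = 1 := by rw [← hc, hF, mul_one, hRP]
  have hFd : (R * F * P).det ≠ 0 := by
    intro h
    have := congrArg Matrix.det hcF
    rw [det_mul, h, zero_mul, det_one] at this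
    exact zero_ne_one this
  have had : (R * F * P).adjugate = (R * F * P).det • (R * Fi * P) := by
    have h1 : (R * F * P).adjugate * ((R * F * P) * (R * Fi * P)) =
        (R * F * P).det • (R * Fi * P) := by
      rw [← mul_assoc, adjugate_mul, smul_mul_assoc, one_mul]
    rwa [hcF, mul_one] at h1
  obtain ⟨h3, h4⟩ := st_key0 h2 hq (N' := R * N' * P) (F := R * F * P) (F' := R * F' * P)
    (by rw [← hcN, ← hc, ← hc, ← add_mul, ← mul_add, hE2, mul_zero, zero_mul])
    (by rw [htrc, htr])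
    (by rw [← hcN, ← hc, ← hc, hE3, mul_smul_comm, smul_mul_assoc])
    (by
      rw [← hcN, ← hc, ← hc, ← hc, ← hc, ← add_mul, ← mul_add, ← add_mul, ← mul_add, hE4,
        mul_smul_comm, smul_mul_assoc])
    hFd (by rw [had, mul_smul_comm, trace_smul, ← hc, htrc, hdet, smul_zero]) h00 h01 hy
  have hback : ∀ X : Matrix (Fin 2) (Fin 2) k, R * X * P = 0 → X = 0 := by
    intro X hX
    have : P * (R * X * P) * R = X := by
      have e : P * (R * X * P) * R = (P * R) * X * (P * R) := by simp only [mul_assoc]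
      rw [e, hPR, one_mul, mul_one]
    rw [← this, hX, mul_zero, zero_mul]
  exact ⟨hback _ h3, hback _ h4⟩

lemma sq_sub_one {A : Type*} [CommRing A] {M : Matrix (Fin 2) (Fin 2) A} (htr : M.trace = 2)
    (hdet : M.det = 1) : (M - 1) * (M - 1) = 0 := by
  rw [trace_fin_two] at htr
  rw [det_fin_two] at hdet
  ext i j
  fin_cases i <;> fin_cases j
  · simp [Matrix.mul_apply, Fin.sum_univ_two]
    linear_combination (M 0 0) * htr - hdet
  · simp [Matrix.mul_apply, Fin.sum_univ_two]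
    linear_combination (M 0 1) * htr
  · simp [Matrix.mul_apply, Fin.sum_univ_two]
    linear_combination (M 1 0) * htr
  · simp [Matrix.mul_apply, Fin.sum_univ_two]
    linear_combination (M 1 1) * htr - hdet

lemma pow_of_sq {A : Type*} [CommRing A] {M : Matrix (Fin 2) (Fin 2) A}
    (hsq : (M - 1) * (M - 1) = 0) (n : ℕ) : M ^ n = 1 + (n : A) • (M - 1) := by
  induction n with
  | zero => rw [pow_zero, Nat.cast_zero, zero_smul, add_zero]
  | succ n ih =>
    have h1 : M = 1 + (M - 1) := by abel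
    rw [pow_succ, ih]
    conv_lhs => rw [h1]
    rw [add_sub_cancel_left, add_mul, one_mul, mul_add, mul_one, smul_mul_assoc, hsq, smul_zero,
      add_zero, Nat.cast_succ, add_smul, one_smul]
    abel

lemma map_fst_mul (X Y : Matrix (Fin 2) (Fin 2) (DualNumber k)) :
    (X * Y).map TrivSqZeroExt.fst = X.map TrivSqZeroExt.fst * Y.map TrivSqZeroExt.fst := by
  ext i j
  simp [Matrix.mul_apply, Fin.sum_univ_two]

lemma map_snd_mul (X Y : Matrix (Fin 2) (Fin 2) (DualNumber k)) :
    (X * Y).map TrivSqZeroExt.snd = X.map TrivSqZeroExt.fst * Y.map TrivSqZeroExt.snd +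
      X.map TrivSqZeroExt.snd * Y.map TrivSqZeroExt.fst := by
  ext i j
  simp [Matrix.mul_apply, Fin.sum_univ_two]
  ring

lemma map_fst_nsmul (n : ℕ) (X : Matrix (Fin 2) (Fin 2) (DualNumber k)) :
    ((n : DualNumber k) • X).map TrivSqZeroExt.fst = (n : k) • X.map TrivSqZeroExt.fst := by
  ext i j
  have h1 : (n : DualNumber k) = TrivSqZeroExt.inl (n : k) := (TrivSqZeroExt.inl_natCast n).symm
  rw [Matrix.map_apply, Matrix.smul_apply, smul_eq_mul, h1, TrivSqZeroExt.fst_mul,
    TrivSqZeroExt.fst_inl, Matrix.smul_apply, Matrix.map_apply, smul_eq_mul]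

lemma map_snd_nsmul (n : ℕ) (X : Matrix (Fin 2) (Fin 2) (DualNumber k)) :
    ((n : DualNumber k) • X).map TrivSqZeroExt.snd = (n : k) • X.map TrivSqZeroExt.snd := by
  ext i j
  have h1 : (n : DualNumber k) = TrivSqZeroExt.inl (n : k) := (TrivSqZeroExt.inl_natCast n).symm
  rw [Matrix.map_apply, Matrix.smul_apply, smul_eq_mul, h1, TrivSqZeroExt.snd_mul,
    TrivSqZeroExt.fst_inl, TrivSqZeroExt.snd_inl, smul_zero, add_zero, Matrix.smul_apply,
    Matrix.map_apply]

end LA

section Main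

variable {q : Nat.Primes} {p : ℕ} {O T k : Type} [CommRing O] [CommRing T] [IsLocalRing T]
  [Field k] {φ : O →+* T} {π : T →+* k} (hπ : RingHom.ker π = maximalIdeal T)
  (hchar : (p : k) = 0) {ρ : GQ →* GL (Fin 2) T}
  (hcont : ∃ U : Subgroup GQ, IsOpen (U : Set GQ) ∧ ∀ u ∈ U, ∀ i j,
    (ρ u).val i j - (1 : Matrix (Fin 2) (Fin 2) T) i j ∈ maximalIdeal T ^ 2)
  (hpp : ∀ s ∈ Il (q : ℕ), ∃ n, resRep π ρ (rl q s) ^ p ^ n = 1)
  {φ₀ τ₀ : Gl q} (hφ₀ : IsFrobL φ₀) (hτ₀ : TameGen p q τ₀)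
  {V : Type} [Fintype V]

/-- the framed local representation over the dual numbers -/
noncomputable def frHom (q : Nat.Primes) (ρ : GQ →* GL (Fin 2) T) (v : V)
    (ψ : MvPowerSeries (V × Fin 3) T →+* DualNumber k) : Gl q →* GL (Fin 2) (DualNumber k) :=
  (GeneralLinearGroup.map (n := Fin 2) ψ).comp ((MulAut.conj (frm T v)).toMonoidHom.comp
    ((GeneralLinearGroup.map (n := Fin 2) (C : T →+* MvPowerSeries (V × Fin 3) T)).comp
      (ρ.comp (rl q))))

lemma frHom_val (v : V) (ψ : MvPowerSeries (V × Fin 3) T →+* DualNumber k) (g : Gl q) :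
    (frHom q ρ v ψ g).val = (frMat ρ v (rl q g)).map ψ := rfl

section

variable {v : V} {ψ : MvPowerSeries (V × Fin 3) T →+* DualNumber k}
  (h1 : ∀ a, (ψ a).fst = π (constantCoeff a))

include h1 in
lemma frHom_fst (g : Gl q) (i j : Fin 2) :
    ((frHom q ρ v ψ g).val i j).fst = (resRep π ρ (rl q g)).val i j := by
  rw [frHom_val, Matrix.map_apply, h1, frMat_constantCoeff]; rfl

include hπ hcont h1 in
lemma frHom_small : ∃ W : Subgroup (Gl q), (LF (q : ℕ)).IsOpen W ∧
    ∀ g ∈ W, frHom q ρ v ψ g = 1 := by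
  obtain ⟨U, hU, hUs⟩ := hcont
  have hWo : (LF (q : ℕ)).IsOpen (U.comap (rl q)) := PT.rl_cont hU
  have hm2 : ∀ t ∈ maximalIdeal T ^ 2, ψ (C t) = 0 := by
    intro t ht
    rw [pow_two] at ht
    refine Submodule.mul_induction_on ht (fun a ha b hb => ?_) (fun a b ha hb => ?_)
    · have ha' : π a = 0 := by rw [← RingHom.mem_ker, hπ]; exact ha
      have hb' : π b = 0 := by rw [← RingHom.mem_ker, hπ]; exact hb
      rw [map_mul, map_mul]
      apply TrivSqZeroExt.ext
      · rw [TrivSqZeroExt.fst_mul, h1, constantCoeff_C, ha', zero_mul, TrivSqZeroExt.fst_zero]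
      · rw [TrivSqZeroExt.snd_mul, h1, h1, constantCoeff_C, constantCoeff_C, ha', hb', zero_smul,
          MulOpposite.op_zero, zero_smul, add_zero, TrivSqZeroExt.snd_zero]
    · rw [map_add, map_add, ha, hb, add_zero]
  refine ⟨U.comap (rl q), hWo, fun g hg => ?_⟩
  apply Units.ext
  rw [frHom_val]
  have h5 : ((ρ (rl q g)).val.map (C : T →+* MvPowerSeries (V × Fin 3) T)).map ψ = 1 := by
    ext1 i j
    have h6 := hm2 _ (hUs _ hg i j)
    rw [map_sub, map_sub, sub_eq_zero] at h6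
    rw [Matrix.map_apply, Matrix.map_apply, h6, Matrix.one_apply, Matrix.one_apply]
    split_ifs
    · rw [map_one, map_one]
    · rw [map_zero, map_zero]
  rw [frMat, Matrix.map_mul, Matrix.map_mul, h5, mul_one, ← Matrix.map_mul, ← Units.val_mul,
    mul_inv_cancel, Units.val_one, Units.val_one]
  exact Matrix.map_one _ (map_zero _) (map_one _)

include hchar hpp h1 in
lemma frHom_pp : ∀ g ∈ Il (q : ℕ), ∃ n, frHom q ρ v ψ g ^ p ^ n = 1 := by
  intro g hg
  obtain ⟨n, hn⟩ := hpp g hg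
  refine ⟨n + 1, ?_⟩
  rw [pow_succ, pow_mul]
  apply dual_pow_p hchar
  intro i j
  rw [← map_pow, frHom_fst h1, map_pow, map_pow, hn, Units.val_one]

include hπ hchar hcont hpp hφ₀ hτ₀ h1 in
/-- a derivation is locally trivial when it is so on the generators -/
theorem frHom_eq (hφ : frHom q ρ v ψ φ₀ = GeneralLinearGroup.map (n := Fin 2)
      (TrivSqZeroExt.inlHom k k) (resRep π ρ (rl q φ₀)))
    (hτ : frHom q ρ v ψ τ₀ = GeneralLinearGroup.map (n := Fin 2)
      (TrivSqZeroExt.inlHom k k) (resRep π ρ (rl q τ₀))) (δ : Gl q) :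
    frHom q ρ v ψ δ = GeneralLinearGroup.map (n := Fin 2)
      (TrivSqZeroExt.inlHom k k) (resRep π ρ (rl q δ)) := by
  obtain ⟨W, hW, hW₁⟩ := frHom_small (q := q) (v := v) hπ hcont h1
  let h₂ : Gl q →* GL (Fin 2) (DualNumber k) :=
    (GeneralLinearGroup.map (n := Fin 2) (TrivSqZeroExt.inlHom k k)).comp
      ((resRep π ρ).comp (rl q))
  have hres : ∀ g ∈ W, resRep π ρ (rl q g) = 1 := by
    intro g hg
    apply Units.ext
    ext1 i j
    rw [← frHom_fst (v := v) (ψ := ψ) h1, hW₁ g hg, Units.val_one, Units.val_one,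
      Matrix.one_apply, Matrix.one_apply]
    split_ifs
    · rw [TrivSqZeroExt.fst_one]
    · rw [TrivSqZeroExt.fst_zero]
  have hW₂ : ∀ g ∈ W, h₂ g = 1 := by
    intro g hg
    change GeneralLinearGroup.map (n := Fin 2) (TrivSqZeroExt.inlHom k k)
      (resRep π ρ (rl q g)) = 1
    rw [hres g hg, map_one]
  have hp₂ : ∀ g ∈ Il (q : ℕ), ∃ n, h₂ g ^ p ^ n = 1 := by
    intro g hg
    obtain ⟨n, hn⟩ := hpp g hg
    refine ⟨n, ?_⟩
    rw [← map_pow]
    change GeneralLinearGroup.map (n := Fin 2) (TrivSqZeroExt.inlHom k k)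
      (resRep π ρ (rl q (g ^ p ^ n))) = 1
    rw [map_pow, map_pow, hn, map_one]
  exact eq_of_tame (h₂ := h₂) hW hW₁ hW₂ (frHom_pp hchar hpp h1) hp₂ hφ₀ hτ₀ hφ hτ δ

end

lemma frMat_trace (v : V) (g : GQ) :
    (frMat ρ v g).trace = C (ρ g).val.trace := by
  have h1 : ((frm T v)⁻¹).val * (frm T v).val = 1 := by
    rw [← Units.val_mul, inv_mul_cancel, Units.val_one]
  rw [frMat, trace_mul_comm, ← mul_assoc, h1, one_mul, trace_fin_two, trace_fin_two,
    Matrix.map_apply, Matrix.map_apply, map_add]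

lemma frMat_det (v : V) (g : GQ) :
    (frMat ρ v g).det = C (ρ g).val.det := by
  have h1 : (frm T v).val.det * ((frm T v)⁻¹).val.det = 1 := by
    rw [← det_mul, ← Units.val_mul, mul_inv_cancel, Units.val_one, det_one]
  have h2 : ((ρ g).val.map (C : T →+* MvPowerSeries (V × Fin 3) T)).det = C (ρ g).val.det := by
    rw [det_fin_two, det_fin_two]
    simp only [Matrix.map_apply, map_sub, map_mul]
  rw [frMat, det_mul, det_mul, mul_comm (frm T v).val.det, mul_assoc, h1, mul_one, h2]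

/-- the value of a derivation on a matrix -/
noncomputable def mapD {A : Type} [CommRing A] (φ : O →+* A) (π : A →+* k)
    (M : Matrix (Fin 2) (Fin 2) A) :
    DerSp φ π →ₗ[k] Matrix (Fin 2) (Fin 2) k where
  toFun D := M.map D.1
  map_add' _ _ := rfl
  map_smul' _ _ := rfl

/-- an entry after a change of basis -/
noncomputable def entL (R P : Matrix (Fin 2) (Fin 2) k) (i j : Fin 2) :
    Matrix (Fin 2) (Fin 2) k →ₗ[k] k where
  toFun X := (R * X * P) i j
  map_add' X Y := by rw [mul_add, add_mul, Matrix.add_apply]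
  map_smul' c X := by
    rw [mul_smul_comm, smul_mul_assoc, Matrix.smul_apply, RingHom.id_apply]

include hπ hchar hcont in
/-- **The local count at `q ≠ p`**, minimal ramified case. -/
theorem st_functionals (hp : p.Prime) (hp2 : p ≠ 2) (hqp : (q : ℕ) ≠ p)
    (hdet : ∀ g, ∃ o, (ρ g).val.det = φ o)
    (hun : ∀ s ∈ Il (q : ℕ), (ρ (rl q s)).val.trace = 2 ∧ (ρ (rl q s)).val.det = 1)
    (hram : ∃ s ∈ Il (q : ℕ), resRep π ρ (rl q s) ≠ 1) (v : V) :
    ∃ θ : DerSp (frφ φ V) (frπ π V) →ₗ[k] (Fin 3 → k), ∀ D, θ D = 0 →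
      ∀ δ : Gl q, (frMat ρ v (rl q δ)).map D.1 = 0 := by
  haveI : Fact p.Prime := ⟨hp⟩
  haveI : CharP k p := by
    obtain ⟨c, hc⟩ := CharP.exists k
    have h1 : c ∣ p := (CharP.cast_eq_zero_iff k c p).mp hchar
    rcases (Nat.dvd_prime hp).mp h1 with h | h
    · subst h
      exact absurd (CharP.cast_eq_zero k 1) (by rw [Nat.cast_one]; exact one_ne_zero)
    · rwa [h] at hc
  have h2 : (2 : k) ≠ 0 := by
    intro h
    have h3 : ((2 : ℕ) : k) = 0 := by exact_mod_cast h
    rw [CharP.cast_eq_zero_iff k p, Nat.prime_dvd_prime_iff_eq hp Nat.prime_two] at h3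
    exact hp2 h3
  have hq0 : ((q : ℕ) : k) ≠ 0 := by
    rw [Ne, CharP.cast_eq_zero_iff k p, Nat.prime_dvd_prime_iff_eq hp q.2]
    exact fun h => hqp h.symm
  -- residual facts
  have hrt : ∀ s ∈ Il (q : ℕ), (resRep π ρ (rl q s)).val.trace = 2 ∧
      (resRep π ρ (rl q s)).val.det = 1 := by
    intro s hs
    obtain ⟨e1, e2⟩ := hun s hs
    constructor
    · rw [resRep_coe, trace_fin_two, Matrix.map_apply, Matrix.map_apply, ← map_add,
        ← trace_fin_two, e1, map_ofNat]
    · rw [resRep_coe, ← RingHom.mapMatrix_apply, ← RingHom.map_det, e2, map_one]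
  have hpp : ∀ s ∈ Il (q : ℕ), ∃ n, resRep π ρ (rl q s) ^ p ^ n = 1 := by
    intro s hs
    obtain ⟨e1, e2⟩ := hrt s hs
    refine ⟨1, Units.ext ?_⟩
    rw [pow_one, Units.val_pow_eq_pow_val, pow_of_sq (sq_sub_one e1 e2), hchar, zero_smul,
      add_zero, Units.val_one]
  obtain ⟨φ₀, hφ₀⟩ := exists_isFrobL (q : ℕ)
  obtain ⟨τ₀, hτ₀⟩ := exists_tameGen (q := q) hp (Ne.symm hqp)
  -- the residual monodromy is nontrivial
  have hτ1 : resRep π ρ (rl q τ₀) ≠ 1 := by
    obtain ⟨s, hs, hs1⟩ := hram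
    intro h
    apply hs1
    obtain ⟨U, hU, hUs⟩ := hcont
    have hWo : (LF (q : ℕ)).IsOpen (U.comap (rl q)) := PT.rl_cont hU
    have h3 := hτ₀.2 (GL (Fin 2) k) ((resRep π ρ).comp (rl q)) _ hWo (fun g hg => by
      apply Units.ext
      ext i j
      have h5 := hUs _ hg i j
      have h6 : (ρ (rl q g)).val i j - (1 : Matrix (Fin 2) (Fin 2) T) i j ∈ RingHom.ker π := by
        rw [hπ]
        exact Ideal.pow_le_self two_ne_zero h5
      rw [RingHom.mem_ker, map_sub, sub_eq_zero] at h6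
      change π ((ρ (rl q g)).val i j) = _
      rw [h6, Units.val_one, Matrix.one_apply, Matrix.one_apply]
      split_ifs
      · exact map_one _
      · exact map_zero _) hpp s hs
    obtain ⟨n, hn⟩ := Subgroup.mem_zpowers_iff.mp h3
    have hn' : resRep π ρ (rl q τ₀) ^ n = resRep π ρ (rl q s) := hn
    rw [← hn', h, _root_.one_zpow]
  obtain ⟨et, ed⟩ := hrt τ₀ hτ₀.1
  set A₀ := (resRep π ρ (rl q τ₀)).val with hA₀
  have hN0 : A₀ - 1 ≠ 0 := by
    intro h
    apply hτ1
    apply Units.ext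
    exact sub_eq_zero.mp h
  have hNtr : (A₀ - 1).trace = 0 := by
    rw [trace_sub, et, trace_one, Fintype.card_fin]
    norm_num
  have hNdet : (A₀ - 1).det = 0 := by
    rw [trace_fin_two] at et
    rw [det_fin_two] at ed ⊢
    simp only [Matrix.sub_apply, Matrix.one_apply_eq, ne_eq, zero_ne_one, one_ne_zero,
      not_false_eq_true, Matrix.one_apply_ne, sub_zero]
    linear_combination ed - et
  obtain ⟨P, R, hPR, hRP, hNP⟩ := exists_basis_nilp hN0 hNtr hNdet
  let Mτ := mapD (frφ φ V) (frπ π V) (frMat ρ v (rl q τ₀))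
  let Mφ := mapD (frφ φ V) (frπ π V) (frMat ρ v (rl q φ₀))
  refine ⟨LinearMap.pi ![(entL R P 0 0).comp Mτ, (entL R P 0 1).comp Mτ,
    (entL R P 0 1).comp Mφ], fun D hD => ?_⟩
  have hD0 : (R * (frMat ρ v (rl q τ₀)).map D.1 * P) 0 0 = 0 := congrFun hD 0
  have hD1 : (R * (frMat ρ v (rl q τ₀)).map D.1 * P) 0 1 = 0 := congrFun hD 1
  have hD2 : (R * (frMat ρ v (rl q φ₀)).map D.1 * P) 0 1 = 0 := congrFun hD 2
  let ψ := dualOf D
  have h1 : ∀ a, (ψ a).fst = π (constantCoeff a) := fun a => dualOf_fst D a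
  set At := (frHom q ρ v ψ τ₀).val with hAt
  set Ft := (frHom q ρ v ψ φ₀).val with hFt
  have hAtr : At.trace = 2 := by
    rw [hAt, frHom_val, trace_fin_two, Matrix.map_apply, Matrix.map_apply, ← map_add,
      ← trace_fin_two, frMat_trace, (hun τ₀ hτ₀.1).1, map_ofNat, map_ofNat]
  have hAdet : At.det = 1 := by
    rw [hAt, frHom_val, ← RingHom.mapMatrix_apply, ← RingHom.map_det, frMat_det,
      (hun τ₀ hτ₀.1).2, map_one, map_one]
  have hsq := sq_sub_one hAtr hAdet
  have hpow := pow_of_sq hsq (q : ℕ)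
  have hfrob : frHom q ρ v ψ φ₀ * frHom q ρ v ψ τ₀ =
      frHom q ρ v ψ τ₀ ^ (q : ℕ) * frHom q ρ v ψ φ₀ := by
    obtain ⟨W, hW, hW1⟩ := frHom_small (q := q) (v := v) hπ hcont h1
    have h3 := frob_tame (h := frHom q ρ v ψ) hp (Ne.symm hqp) hW hW1
      (frHom_pp hchar hpp h1) hφ₀ hτ₀.1
    rw [map_mul, map_mul, map_inv] at h3
    rw [← h3, inv_mul_cancel_right]
  have hrel : Ft * (At - 1) = ((q : ℕ) : DualNumber k) • ((At - 1) * Ft) := by
    have h3 := congrArg Units.val hfrob
    rw [Units.val_mul, Units.val_mul, Units.val_pow_eq_pow_val, ← hAt, ← hFt, hpow, add_mul,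
      one_mul, smul_mul_assoc] at h3
    rw [mul_sub, mul_one, h3, add_sub_cancel_left]
  have hN : (At - 1).map TrivSqZeroExt.fst = A₀ - 1 := by
    ext i j
    rw [Matrix.map_apply, Matrix.sub_apply, TrivSqZeroExt.fst_sub, hAt, frHom_fst h1,
      Matrix.sub_apply, hA₀, Matrix.one_apply, Matrix.one_apply]
    split_ifs
    · rw [TrivSqZeroExt.fst_one]
    · rw [TrivSqZeroExt.fst_zero]
  have hN' : (At - 1).map TrivSqZeroExt.snd = (frMat ρ v (rl q τ₀)).map D.1 := by
    ext i j
    rw [Matrix.map_apply, Matrix.sub_apply, TrivSqZeroExt.snd_sub, hAt, frHom_val,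
      Matrix.map_apply, Matrix.map_apply, dualOf_snd, Matrix.one_apply]
    split_ifs
    · rw [TrivSqZeroExt.snd_one, sub_zero]
    · rw [TrivSqZeroExt.snd_zero, sub_zero]
  have hF : Ft.map TrivSqZeroExt.fst = (resRep π ρ (rl q φ₀)).val := by
    ext i j
    rw [Matrix.map_apply, hFt, frHom_fst h1]
  have hF' : Ft.map TrivSqZeroExt.snd = (frMat ρ v (rl q φ₀)).map D.1 := by
    ext i j
    rw [Matrix.map_apply, hFt, frHom_val, Matrix.map_apply, Matrix.map_apply, dualOf_snd]
  have hE2 := congrArg (fun X => X.map TrivSqZeroExt.snd) hsq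
  have hE3 := congrArg (fun X => X.map TrivSqZeroExt.fst) hrel
  have hE4 := congrArg (fun X => X.map TrivSqZeroExt.snd) hrel
  simp only [map_snd_mul, map_fst_mul, map_fst_nsmul, map_snd_nsmul, hN, hN', hF, hF'] at hE2 hE3 hE4
  obtain ⟨o, ho⟩ := hdet (rl q φ₀)
  obtain ⟨k1, k2⟩ := st_key h2 hq0 (N := A₀ - 1) (N' := (frMat ρ v (rl q τ₀)).map D.1)
    (F := (resRep π ρ (rl q φ₀)).val) (F' := (frMat ρ v (rl q φ₀)).map D.1)
    (Fi := (resRep π ρ (rl q φ₀)⁻¹).val) hPR hRP hNP
    (by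
      rw [hE2]
      ext i j
      rfl)
    (by
      rw [map_trace_der D.2, frMat_trace, (hun τ₀ hτ₀.1).1]
      have : (C (2 : T) : MvPowerSeries (V × Fin 3) T) = frφ φ V 2 := by
        rw [RingHom.comp_apply, map_ofNat, map_ofNat, map_ofNat]
      rw [this, der_cst D.2])
    hE3
    (by rw [add_comm, hE4, add_comm ((A₀ - 1) * _)])
    (mul_inv_coe _ _)
    (trace_map_der_mul D.2 (by
      have : (frMat ρ v (rl q φ₀)).map (frπ π V) = (resRep π ρ (rl q φ₀)).val := by
        ext i j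
        rw [Matrix.map_apply, RingHom.comp_apply, frMat_constantCoeff]
        rfl
      rw [this]
      exact mul_inv_coe _ _) (o := o) (by rw [frMat_det, ho]; rfl))
    hD0 hD1 hD2
  have key := frHom_eq (v := v) (ψ := ψ) hπ hchar hcont hpp hφ₀ hτ₀ h1
    (by
      apply Units.ext
      ext i j
      · rw [frHom_fst h1]; rfl
      · have h3 := congrFun (congrFun hF' i) j
        rw [k2] at h3
        exact h3)
    (by
      apply Units.ext
      ext i j
      · rw [frHom_fst h1]; rfl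
      · have h3 := congrFun (congrFun (hN'.trans k1) i) j
        rw [Matrix.map_apply, Matrix.sub_apply, TrivSqZeroExt.snd_sub, Matrix.zero_apply,
          Matrix.one_apply] at h3
        have h4 : ((if i = j then 1 else 0 : DualNumber k)).snd = 0 := by split_ifs <;> rfl
        rw [h4, sub_zero] at h3
        exact h3)
  intro δ
  ext i j
  have h3 := congrArg (fun X : GL (Fin 2) (DualNumber k) => (X.val i j).snd) (key δ)
  have h4 : ((frHom q ρ v ψ δ).val i j).snd = D.1 (frMat ρ v (rl q δ) i j) := by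
    rw [frHom_val, Matrix.map_apply, dualOf_snd]
  rw [Matrix.map_apply, ← h4, h3]
  rfl

end Main

end Fermat.Agent.RT
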