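import Fermat.Agent.RT.S56Set

set_option autoImplicit false
set_option linter.unusedSectionVars false

/-!
# The number of generators of the deformation ring
-/

open IsLocalRing Matrix Polynomial Module
open Fermat.Agent.Coh Fermat.Agent.GCFT Fermat.Agent.UnivDef Fermat.Agent.ESCore
  ExtCitation

namespace Fermat.Agent.RT

/-- The field of algebraic numbers. -/
local notation "Qb" => AlgebraicClosure ℚ
/-- The absolute Galois group. -/
local notation "GQ" => (AlgebraicClosure ℚ ≃ₐ[ℚ] AlgebraicClosure ℚ)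

section Core

variable {𝒪 : Type} [CommRing 𝒪] [IsDomain 𝒪] [IsDiscreteValuationRing 𝒪]
  [IsAdicComplete (maximalIdeal 𝒪) 𝒪] {ρbar : ResidualGaloisRep (ResidueField 𝒪)}

/-- **The core count.** -/
theorem core_count [Finite (ResidueField 𝒪)] {p : ℕ} [hp : Fact p.Prime] (hp2 : p ≠ 2)
    (hp𝒪 : (p : 𝒪) ∈ maximalIdeal 𝒪)
    {𝒟 : ∀ ⦃A : Type⦄ [CommRing A] [IsLocalRing A] [Algebra 𝒪 A], GaloisRepAdic A → Prop}
    (DQ : GaloisRep.DeformationRingData 𝒪 ρbar 𝒟) (F : FrameData 𝒪 ρbar)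
    (T Q : Finset Nat.Primes) (hpT : pPrime p ∈ T)
    (hcyc : DQ.ρ.DetIsCyclotomic p)
    (hunr : ∀ q : Nat.Primes, q ∉ T ∪ Q → DQ.ρ.IsUnramifiedAt q)
    (hunip : ∀ q ∈ T, (q : ℕ) ≠ p → DQ.ρ.IsUnipotentOnInertiaAt q)
    (hram : ∀ q ∈ T, (q : ℕ) ≠ p → ¬ ρbar.IsUnramifiedAt q)
    (hstab : ∀ (ψ : DQ.R →ₐ[𝒪] DualNumber (ResidueField 𝒪))
      (hψ : IsLocalHom (ψ : DQ.R →+* DualNumber (ResidueField 𝒪))), Function.Surjective ψ →
      𝒟 (DQ.ρ.baseChangeAlong (ψ : DQ.R →+* DualNumber (ResidueField 𝒪)) hψ))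
    (hloc : ∀ (b : Basis (Fin 2) DQ.R DQ.ρ.V) (_ : IsLiftMat F (matOf DQ.ρ b))
      (π : DQ.R →+* ResidueField 𝒪) (_ : RingHom.ker π = maximalIdeal DQ.R)
      (_ : ∀ o, π (algebraMap 𝒪 DQ.R o) = residue 𝒪 o) (v : T),
      ∃ θ : DerSp (frφ (algebraMap 𝒪 DQ.R) T) (frπ π T) →ₗ[ResidueField 𝒪]
        (Fin 4 → ResidueField 𝒪), ∀ D, θ D = 0 →
        ∀ δ : Gl (pPrime p), (frMat (glOf DQ.ρ b) v (rl (pPrime p) δ)).map D.1 = 0)
    (hfin : FiniteDimensional (ResidueField 𝒪)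
      (selK (T ∪ Q) (ad0 (resMat ρbar F.b)) (fun v : T => v.1)))
    {r : ℕ} (hr : finrank (ResidueField 𝒪)
      (selK (T ∪ Q) (ad0 (resMat ρbar F.b)) (fun v : T => v.1)) +
      ∑ v : T, finrank (ResidueField 𝒪) (H0 ((ad0 (resMat ρbar F.b)).comp (rl v.1))) + 1 ≤ r) :
    ∃ γ : MvPowerSeries (Fin r) 𝒪 →ₐ[𝒪] DQ.R, Function.Surjective γ := by
  obtain ⟨b, hb⟩ := exists_basis_isLiftMat F DQ.ρ DQ.residual_isEquiv
  obtain ⟨π, hπ, hπ'⟩ := exists_pi DQ
  have hres := resRep_glOf DQ F b hb hπ hπ'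
  have hpk : (p : ResidueField 𝒪) = 0 := by
    rw [← map_natCast (residue 𝒪), residue_eq_zero_iff]
    exact hp𝒪
  have hchar : CharP (ResidueField 𝒪) p := (CharP.charP_iff_prime_eq_zero hp.out).mpr hpk
  have h2 : (2 : ResidueField 𝒪) ≠ 0 := by
    intro h
    have h1 : ((2 : ℕ) : ResidueField 𝒪) = 0 := by exact_mod_cast h
    have h3 := (CharP.cast_eq_zero_iff (ResidueField 𝒪) p 2).mp h1
    exact hp2 ((Nat.prime_dvd_prime_iff_eq hp.out Nat.prime_two).mp h3)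
  have hdet : ∀ g, ∃ o, (glOf DQ.ρ b g).val.det = algebraMap 𝒪 DQ.R o := by
    intro g
    rw [glOf_coe, matOf_apply, LinearMap.det_toMatrix]
    exact det_mem_range hp𝒪 hcyc g
  have hcont := exists_famS_cont DQ.ρ b hunr 2
  have hcont' : ∃ U ∈ famS (T ∪ Q), ∀ u ∈ U, ∀ i j,
      (glOf DQ.ρ b u).val i j - (1 : Matrix (Fin 2) (Fin 2) DQ.R) i j ∈ RingHom.ker π ^ 2 := by
    rw [hπ]
    exact hcont
  have hinj : ∀ D : DerSp (algebraMap 𝒪 DQ.R) π,
      derMap hdet D ∈ B1 (ad0 (resRep π (glOf DQ.ρ b))) → D = 0 := fun D hD =>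
    der_eq_zero_of_coboundary DQ F b hb hπ hπ' hstab hdet D hD
  let m : T → ℕ := fun v => 3 + if v.1 = pPrime p then 1 else 0
  have hθ : ∀ v : T, ∃ θ : DerSp (frφ (algebraMap 𝒪 DQ.R) T) (frπ π T) →ₗ[ResidueField 𝒪]
      (Fin (m v) → ResidueField 𝒪), ∀ D, θ D = 0 →
        ∀ δ : Gl v.1, (frMat (glOf DQ.ρ b) v (rl v.1 δ)).map D.1 = 0 := by
    intro v
    by_cases hv : v.1 = pPrime p
    · have hm : m v = 4 := by simp [m, hv]
      rw [hm, hv]
      exact hloc b hb π hπ hπ' v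
    · have hm : m v = 3 := by simp [m, hv]
      have hvp : (v.1 : ℕ) ≠ p := fun h => hv (Subtype.ext h)
      rw [hm]
      refine st_functionals (p := p) hπ hpk (exists_cont DQ.ρ b 2) hp.out hp2 hvp hdet
        (fun s hs => ?_) ?_ v
      · have h3 := hunip v.1 v.2 hvp (padicPlace (v.1 : ℕ)) (nonunits_padicPlace v.1) _
          (rl_mem_inertia hs)
        rw [← LinearMap.charpoly_toMatrix _ b] at h3
        have h4 : (glOf DQ.ρ b (rl v.1 s)).val.charpoly = (X - C 1) * (X - C 1) := by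
          rw [C_1, ← sq]
          exact h3
        obtain ⟨h5, h6⟩ := trace_det_of_charpoly h4
        exact ⟨by rw [h5]; norm_num, by rw [h6, mul_one]⟩
      · rw [hres]
        exact exists_ramified ρbar F.b (hram v.1 v.2 hvp)
  choose θ hθ using hθ
  have hfin' : FiniteDimensional (ResidueField 𝒪)
      (selK (T ∪ Q) (ad0 (resRep π (glOf DQ.ρ b))) (fun v : T => v.1)) := by rwa [hres]
  obtain ⟨hf, hle⟩ := framed_count hdet (T ∪ Q) h2 hcont' hinj (fun v : T => v.1) m θ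
    (fun v D hD δ => hθ v D hD δ)
  have hsum : ∑ v : T, m v = 3 * Fintype.card T + 1 := by
    have h1 : ∑ v : T, m v = ∑ _v : T, 3 + ∑ v : T, (if v = ⟨pPrime p, hpT⟩ then 1 else 0) := by
      rw [← Finset.sum_add_distrib]
      refine Finset.sum_congr rfl fun v _ => ?_
      simp only [m, Subtype.ext_iff]
    rw [h1, Finset.sum_ite_eq', if_pos (Finset.mem_univ _), Finset.sum_const, Finset.card_univ,
      smul_eq_mul, mul_comm]
  rw [hsum, hres] at hle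
  refine exists_algHom_surjective hπ (fun o ho => ?_) (fun a => ?_) hf r ?_
  · have h1 : (maximalIdeal 𝒪).map (algebraMap 𝒪 DQ.R) ≤ maximalIdeal DQ.R :=
      ((IsLocalRing.local_hom_TFAE (algebraMap 𝒪 DQ.R)).out 0 2).mp DQ.instIsLocalHom
    exact h1 (Ideal.mem_map_of_mem _ ho)
  · obtain ⟨o, ho⟩ := DQ.residue_surjective (residue DQ.R a)
    refine ⟨o, ?_⟩
    rw [← residue_eq_zero_iff, map_sub, sub_eq_zero]
    exact ho.symm
  · omega

end Core

end Fermat.Agent.RT
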