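import Fermat.Agent.RT.FramedSt

set_option autoImplicit false

/-!
# The tangent space of a deformation ring: the framed count
-/

open IsLocalRing MvPowerSeries Matrix

namespace Fermat.Agent.RT

open Fermat.Agent.GCFT Fermat.Agent.Coh

/-- The absolute Galois group. -/
local notation "GQ" => (AlgebraicClosure ℚ ≃ₐ[ℚ] AlgebraicClosure ℚ)

section Ext

variable {O T k : Type*} [CommRing O] [CommRing T] [Field k] {φ : O →+* T} {π : T →+* k}
  {V : Type*} [Fintype V]

theorem coeff_single_mul {ι : Type*} (i : ι) (f g : MvPowerSeries ι T) :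
    coeff (Finsupp.single i 1) (f * g) =
      constantCoeff f * coeff (Finsupp.single i 1) g +
        coeff (Finsupp.single i 1) f * constantCoeff g := by
  classical
  rw [coeff_mul, Finsupp.antidiagonal_single, Finset.sum_map, Finset.Nat.antidiagonal_succ]
  simp

/-- extension of a derivation to the framed ring -/
noncomputable def derExt (φ : O →+* T) (π : T →+* k) (V : Type*) [Fintype V] :
    DerSp φ π × (V × Fin 3 → k) →ₗ[k] DerSp (frφ φ V) (frπ π V) where
  toFun x := ⟨fun f => x.1.1 (constantCoeff f) +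
      ∑ i, x.2 i * π (coeff (Finsupp.single i 1) f), by
    rw [mem_DerSp]
    refine ⟨fun a b => ?_, fun a b => ?_, fun o => ?_⟩
    · rw [RingHom.map_add constantCoeff, der_add x.1.2]
      simp only [map_add, mul_add, Finset.sum_add_distrib]
      ring
    · rw [RingHom.map_mul constantCoeff, der_mul x.1.2]
      simp only [coeff_single_mul, map_add, map_mul, RingHom.comp_apply]
      rw [mul_add, mul_add, Finset.mul_sum, Finset.mul_sum]
      have : ∀ i : V × Fin 3, x.2 i * (π (constantCoeff a) * π (coeff (Finsupp.single i 1) b) +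
          π (coeff (Finsupp.single i 1) a) * π (constantCoeff b)) =
          π (constantCoeff a) * (x.2 i * π (coeff (Finsupp.single i 1) b)) +
          π (constantCoeff b) * (x.2 i * π (coeff (Finsupp.single i 1) a)) := by
        intro i; ring
      rw [Finset.sum_congr rfl fun i _ => this i, Finset.sum_add_distrib]
      ring
    · rw [RingHom.comp_apply, constantCoeff_C, der_cst x.1.2, zero_add]
      refine Finset.sum_eq_zero fun i _ => ?_
      classical
      rw [coeff_C, if_neg (by simp), map_zero, mul_zero]⟩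
  map_add' x y := by
    apply Subtype.ext
    funext f
    change (x.1.1 + y.1.1) _ + ∑ i, (x.2 i + y.2 i) * _ = (_ + _) + (_ + _)
    simp only [Pi.add_apply, add_mul, Finset.sum_add_distrib]
    ring
  map_smul' c x := by
    apply Subtype.ext
    funext f
    change (c • x.1.1) _ + ∑ i, (c * x.2 i) * _ = c * (_ + _)
    simp only [Pi.smul_apply, smul_eq_mul, mul_add, Finset.mul_sum, mul_assoc]

theorem derExt_injective : Function.Injective (derExt φ π V) := by
  rw [← LinearMap.ker_eq_bot, LinearMap.ker_eq_bot']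
  intro x hx
  have h0 : ∀ f : MvPowerSeries (V × Fin 3) T, x.1.1 (constantCoeff f) +
      ∑ i, x.2 i * π (coeff (Finsupp.single i 1) f) = 0 := fun f =>
    congrFun (congrArg Subtype.val hx) f
  have h1 : x.1 = 0 := by
    apply Subtype.ext
    funext t
    have := h0 (C t)
    rw [constantCoeff_C, Finset.sum_eq_zero (fun i _ => by
      classical
      rw [coeff_C, if_neg (by simp), map_zero, mul_zero]), add_zero] at this
    exact this
  refine Prod.ext h1 ?_
  funext j
  have := h0 (X j)
  classical
  rw [constantCoeff_X, der_zero x.1.2, zero_add, Finset.sum_eq_single_of_mem j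
    (Finset.mem_univ j)] at this
  · rw [coeff_index_single_self_X, map_one, mul_one] at this
    exact this
  · intro i _ hi
    rw [coeff_index_single_X, if_neg hi, map_zero, mul_zero]

end Ext

section Rank

variable {k X Y : Type*} [Field k] [AddCommGroup X] [Module k X] [AddCommGroup Y] [Module k Y]

theorem finrank_le_of_ker [FiniteDimensional k Y] (Θ : X →ₗ[k] Y) {n : ℕ}
    (hfin : FiniteDimensional k (LinearMap.ker Θ)) (h : Module.finrank k (LinearMap.ker Θ) ≤ n) :
    FiniteDimensional k X ∧ Module.finrank k X ≤ Module.finrank k Y + n := by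
  have hX : FiniteDimensional k X := by
    have : Module.Finite k (X ⧸ LinearMap.ker Θ) :=
      Module.Finite.equiv (LinearMap.quotKerEquivRange Θ).symm
    exact Module.Finite.of_submodule_quotient (LinearMap.ker Θ)
  refine ⟨hX, ?_⟩
  have h3 := LinearMap.finrank_range_add_finrank_ker Θ
  have h4 : Module.finrank k (LinearMap.range Θ) ≤ Module.finrank k Y := Submodule.finrank_le _
  omega

end Rank

section Main

variable {O T k : Type} [CommRing O] [CommRing T] [IsLocalRing T] [Field k] {φ : O →+* T}
  {π : T →+* k} {V : Type} [Fintype V] {ρ : GQ →* GL (Fin 2) T}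
  (hdet : ∀ g, ∃ o, (ρ g).val.det = φ o) (S : Finset Nat.Primes)

include hdet in
/-- **The framed count.** -/
theorem framed_count (h2 : (2 : k) ≠ 0)
    (hcont : ∃ U ∈ famS S, ∀ u ∈ U, ∀ i j,
      (ρ u).val i j - (1 : Matrix (Fin 2) (Fin 2) T) i j ∈ RingHom.ker π ^ 2)
    (hinj : ∀ D : DerSp φ π, derMap hdet D ∈ B1 (ad0 (resRep π ρ)) → D = 0)
    (pl : V → Nat.Primes) (m : V → ℕ)
    (θ : ∀ v, DerSp (frφ φ V) (frπ π V) →ₗ[k] (Fin (m v) → k))
    (hloc : ∀ v D, θ v D = 0 → ∀ δ : Gl (pl v), (frMat ρ v (rl (pl v) δ)).map D.1 = 0)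
    [FiniteDimensional k (selK S (ad0 (resRep π ρ)) pl)] :
    FiniteDimensional k (DerSp φ π) ∧
    Module.finrank k (DerSp φ π) + 3 * Fintype.card V ≤ ∑ v, m v +
      (Module.finrank k (selK S (ad0 (resRep π ρ)) pl) +
        ∑ v, Module.finrank k (H0 ((ad0 (resRep π ρ)).comp (rl (pl v))))) := by
  -- the kernel of all the functionals
  let Θ : DerSp (frφ φ V) (frπ π V) →ₗ[k] (∀ v, Fin (m v) → k) := LinearMap.pi θ
  have hK : ∀ D : LinearMap.ker Θ, ∀ v, θ v D.1 = 0 := fun D v => congrFun D.2 v
  have hW : ∀ (v : V) (D : LinearMap.ker Θ) (δ : Gl (pl v)),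
      derMap hdet (derRes φ π V D.1) (rl (pl v) δ) =
        ad0 (resRep π ρ) (rl (pl v) δ) (frD0 h2 v D.1.1) - frD0 h2 v D.1.1 :=
    fun v D δ => loc_triv hdet h2 D.1.2 v (hloc v D.1 (hK D v) δ)
  have hΘ : ∀ D : LinearMap.ker Θ,
      ((classMap hdet S hcont).comp ((derRes φ π V).comp (LinearMap.ker Θ).subtype)) D ∈
        selK S (ad0 (resRep π ρ)) pl := by
    intro D
    rw [mem_selK]
    intro v
    change locMap S (ad0 (resRep π ρ)) (pl v) (H1.mk (famS S) (ad0 (resRep π ρ)) _) = 0
    rw [locMap_mk]
    exact ⟨frD0 h2 v D.1.1, fun δ => hW v D δ⟩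
  have hker : ∀ D : LinearMap.ker Θ,
      ((classMap hdet S hcont).comp ((derRes φ π V).comp (LinearMap.ker Θ).subtype)) D = 0 →
      derRes φ π V D.1 = 0 := by
    intro D hD
    change classMap hdet S hcont (derRes φ π V D.1) = 0 at hD
    rw [classMap_apply, H1.mk_eq_zero] at hD
    exact hinj _ (mem_B1.mpr hD)
  obtain ⟨hfin, hle⟩ := finrank_le_add_sum (X := LinearMap.ker Θ) (Y := sl2 k)
    (K := selK S (ad0 (resRep π ρ)) pl) (LinearMap.codRestrict _ _ hΘ)
    (fun v => (frD0 h2 v).comp ((Submodule.subtype _).comp (LinearMap.ker Θ).subtype))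
    (fun v => H0 ((ad0 (resRep π ρ)).comp (rl (pl v)))) (by
      intro v D hD
      have h0 := hker D (congrArg Subtype.val hD)
      rw [mem_H0]
      intro δ
      have h1 := hW v D δ
      rw [h0, map_zero] at h1
      exact (sub_eq_zero.mp h1.symm)) (by
      intro D hD hv
      have h0 := hker D (congrArg Subtype.val hD)
      apply Subtype.ext
      apply Subtype.ext
      exact der_ext_framed h2 D.1.2 (fun t => congrFun (congrArg Subtype.val h0) t) hv)
  obtain ⟨hfin', hle'⟩ := finrank_le_of_ker Θ hfin hle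
  have hinj' : Function.Injective (derExt φ π V) := derExt_injective
  have hfin2 : FiniteDimensional k (DerSp φ π × (V × Fin 3 → k)) :=
    FiniteDimensional.of_injective _ hinj'
  have hfin1 : FiniteDimensional k (DerSp φ π) :=
    FiniteDimensional.of_injective (LinearMap.inl k (DerSp φ π) (V × Fin 3 → k))
      LinearMap.inl_injective
  refine ⟨hfin1, ?_⟩
  have h1 := LinearMap.finrank_le_finrank_of_injective hinj'
  rw [Module.finrank_prod, Module.finrank_fintype_fun_eq_card, Fintype.card_prod,
    Fintype.card_fin] at h1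
  have h3 : Module.finrank k (∀ v, Fin (m v) → k) = ∑ v, m v := by
    rw [Module.finrank_pi_fintype]
    exact Finset.sum_congr rfl fun v _ => by rw [Module.finrank_fin_fun]
  rw [h3] at hle'
  omega

end Main

section Gen

variable {O T k : Type} [CommRing O] [IsLocalRing O] [CommRing T] [IsLocalRing T] [Field k]
  {φ : O →+* T} {π : T →+* k}

/-- generators from the dimension of the tangent space -/
theorem exists_generators [IsAdicComplete (maximalIdeal O) O] [IsNoetherianRing T]
    [IsAdicComplete (maximalIdeal T) T] (hπ : RingHom.ker π = maximalIdeal T)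
    (hφ : ∀ o ∈ maximalIdeal O, φ o ∈ maximalIdeal T)
    (hres : ∀ a : T, ∃ o : O, a - φ o ∈ maximalIdeal T)
    (hfin : FiniteDimensional k (DerSp φ π)) (g : ℕ) (hg : Module.finrank k (DerSp φ π) ≤ g) :
    ∃ z : Fin g → T, ∃ hz : ∀ j, z j ∈ maximalIdeal T,
      Function.Surjective (evalHom (maximalIdeal T) φ z hz) := by
  have : Nonempty (maximalIdeal T) := ⟨0⟩
  obtain ⟨z, hz⟩ := exists_separating (X := DerSp φ π) (J := maximalIdeal T)
    (fun a => { toFun := fun D => D.1 a.1, map_add' := fun _ _ => rfl, map_smul' := fun _ _ => rfl })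
    (fun D hD => by
      apply Subtype.ext
      funext a
      obtain ⟨o, ho⟩ := hres a
      have h1 : a = φ o + (a - φ o) := by ring
      rw [h1, der_add D.2, der_cst D.2, zero_add]
      exact hD ⟨_, ho⟩) g hg
  refine ⟨fun j => (z j).1, fun j => (z j).2, ?_⟩
  refine evalHom_surjective_of_der hπ hφ hres _ _ ?_
  rintro D ⟨hD, hD'⟩
  have h1 := hz ⟨D, hD⟩ fun j => hD' j
  exact congrArg Subtype.val h1

/-- the same, as an algebra homomorphism -/
theorem exists_algHom_surjective [Algebra O T] [IsAdicComplete (maximalIdeal O) O]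
    [IsNoetherianRing T] [IsAdicComplete (maximalIdeal T) T]
    (hπ : RingHom.ker π = maximalIdeal T)
    (hφ : ∀ o ∈ maximalIdeal O, algebraMap O T o ∈ maximalIdeal T)
    (hres : ∀ a : T, ∃ o : O, a - algebraMap O T o ∈ maximalIdeal T)
    (hfin : FiniteDimensional k (DerSp (algebraMap O T) π)) (g : ℕ)
    (hg : Module.finrank k (DerSp (algebraMap O T) π) ≤ g) :
    ∃ γ : MvPowerSeries (Fin g) O →ₐ[O] T, Function.Surjective γ := by
  obtain ⟨z, hz, h⟩ := exists_generators hπ hφ hres hfin g hg
  refine ⟨{ evalHom (maximalIdeal T) (algebraMap O T) z hz with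
    commutes' := fun o => ?_ }, h⟩
  exact evalHom_C (maximalIdeal T) (algebraMap O T) z hz o

end Gen

end Fermat.Agent.RT
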