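import Fermat.Agent.RT.S56Half
import Fermat.Agent.FB.Fin3
import Fermat.Agent.FO.Rep
import Fermat.Agent.Conn.Line

set_option autoImplicit false
set_option linter.unusedSectionVars false

/-!
# The local count at `p`: flat deformations, reducible case
-/

open Fermat.Agent.Coh Fermat.Agent.GalD Fermat.Agent.LocalCFT Module IntermediateField IsLocalRing
open Fermat.Agent.OrdP Matrix Fermat.Agent.GCFT MvPowerSeries Fermat.Agent.UnivDef
  Fermat.Agent.ESCore ExtCitation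

namespace Fermat.Agent.RT

/-- The field of algebraic numbers. -/
local notation "Qb" => AlgebraicClosure ℚ
/-- The absolute Galois group. -/
local notation "GQ" => (AlgebraicClosure ℚ ≃ₐ[ℚ] AlgebraicClosure ℚ)

section Loc

variable {p : ℕ} [hp : Fact p.Prime] {A : Type*} [CommRing A]

/-- **The flat ordinary case**: four parameters. -/
theorem exists_flat_params [IsLocalRing A] {O k : Type*} [CommRing O] [Field k] [Finite k]
    {φ : O →+* A} {π : A →+* k}
    (hp2 : p ≠ 2) (hker : RingHom.ker π = maximalIdeal A)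
    (hsurj : ∀ x : k, ∃ o : O, π (φ o) = x)
    (hH : ∀ x : A, (∀ n, x ∈ maximalIdeal A ^ n) → x = 0)
    (hpA : (p : A) ∈ maximalIdeal A)
    {r : Gal(PadicAlgCl p/ℚ_[p]) →* GL (Fin 2) A} {v : Fin 2 → A}
    (H : OrdRep p (maximalIdeal A) r v) (hv : ∃ i, v i ∉ maximalIdeal A)
    (hfl : ∀ g ∈ IL p, (∀ y ∈ YL p, g y = y) → r g = 1) :
    ∃ x : Fin 4 → A, ∀ D ∈ DerSp φ π, (∀ i, D (x i) = 0) → ∀ σ, (r σ).val.map D = 0 := by
  obtain ⟨d⟩ := exists_dat hp2
  obtain ⟨c₀, s, s', P, Q, hss, hPQ, hQP, hP, hPD⟩ := exists_frame φ π hv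
  obtain ⟨R, hR, hrR⟩ := (H.scale hss).conj P Q hPQ hQP hP
  obtain ⟨t, z₁, z₂, z₃, ht, hz₁, hz₂, hz₃, htz, -, hz0, ⟨w, hw, -, -⟩, hD⟩ :=
    UT.exists_params (φ := φ) hker hsurj hH hpA hR hp2 d
  have hRτ : R d.τ 0 1 = 0 := by
    have h1 := hrR d.τ
    rw [hfl d.τ d.hτ d.hτY, Units.val_one] at h1
    have h2 : R d.τ = Q * (P * R d.τ * Q) * P := by
      rw [mul_assoc P, ← mul_assoc Q P, hQP, one_mul, mul_assoc, hQP, mul_one]
    rw [h2, ← h1, mul_one, hQP, Matrix.one_apply_ne (by decide)]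
  refine ⟨![c₀, t, z₁, z₂], ?_⟩
  intro D hDer h0 σ
  have hz3 : D z₃ = 0 := by
    have h1 : z₃ = R d.τ 0 1 - φ w := by rw [hw]; ring
    rw [h1, hRτ, der_sub hDer, der_cst hDer, der_zero hDer, sub_zero]
  have h1 := hD D hDer (h0 1) (h0 2) (h0 3) hz3 σ
  have h2 : D c₀ = 0 := h0 0
  obtain ⟨hPm, hQm⟩ := hPD D hDer h2
  have h3 : (R σ).map D = 0 := by
    ext i j
    exact h1 i j
  rw [hrR, map_mul_der hDer, map_mul_der hDer, hPm, hQm, h3, mul_zero, mul_zero, zero_mul,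
    add_zero, zero_mul, add_zero]

end Loc

/-- **The flat ordinary case, framed form.** -/
theorem framed_flat_functionals {l : Nat.Primes} (hl2 : (l : ℕ) ≠ 2)
    {O T k : Type} [CommRing O] [CommRing T] [IsLocalRing T] [IsNoetherianRing T] [Field k]
    [Finite k] {φ : O →+* T} {π : T →+* k} (hπ : RingHom.ker π = maximalIdeal T)
    (hsurj : ∀ x : k, ∃ o : O, π (φ o) = x) (hpT : ((l : ℕ) : T) ∈ maximalIdeal T)
    {ρ : GQ →* GL (Fin 2) T} {v₀ : Fin 2 → T}
    (H : OrdRep (l : ℕ) (maximalIdeal T) (ρ.comp (rl l)) v₀)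
    (hv₀ : ∃ i, v₀ i ∉ maximalIdeal T)
    (hfl : ∀ g ∈ IL (l : ℕ), (∀ y ∈ YL (l : ℕ), g y = y) → ρ (rl l g) = 1)
    {V : Type} [Fintype V] (v : V) :
    ∃ θ : DerSp (frφ φ V) (frπ π V) →ₗ[k] (Fin 4 → k), ∀ D, θ D = 0 →
      ∀ δ : Gl l, (frMat ρ v (rl l δ)).map D.1 = 0 := by
  set A := MvPowerSeries (V × Fin 3) T with hA
  have hπA : RingHom.ker (frπ π V) = maximalIdeal A := by
    ext f
    rw [mem_maximalIdeal_iff, ← hπ]
    exact Iff.rfl
  have hC : (maximalIdeal T).map (C : T →+* A) ≤ maximalIdeal A := by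
    rw [Ideal.map_le_iff_le_comap]
    intro t ht
    rw [Ideal.mem_comap, mem_maximalIdeal_iff]
    simpa using ht
  have hH : ∀ x : A, (∀ n, x ∈ maximalIdeal A ^ n) → x = 0 := by
    intro x hx
    have h1 : x ∈ ⨅ n : ℕ, maximalIdeal A ^ n := by
      rw [Ideal.mem_iInf]
      exact hx
    rwa [Ideal.iInf_pow_eq_bot_of_isLocalRing _ (maximalIdeal.isMaximal A).ne_top,
      Ideal.mem_bot] at h1
  let r' : Gl l →* GL (Fin 2) A := (MulAut.conj (frm T v)).toMonoidHom.comp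
    ((GeneralLinearGroup.map (n := Fin 2) (C : T →+* A)).comp (ρ.comp (rl l)))
  have hr' : ∀ δ, (r' δ).val = (frm T v).val * ((ρ.comp (rl l)) δ).val.map (C : T →+* A) *
      ((frm T v)⁻¹).val := fun δ => rfl
  have HA := H.change (C : T →+* A) hC (frm T v) r' hr'
  obtain ⟨x, hD⟩ := exists_flat_params (φ := frφ φ V) (π := frπ π V) hl2 hπA
    (fun y => by
      obtain ⟨o, ho⟩ := hsurj y
      exact ⟨o, by simpa using ho⟩) hH (by
      have := hC (Ideal.mem_map_of_mem (C : T →+* A) hpT)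
      rwa [map_natCast] at this) HA (exists_not_mem_change hv₀ _ _) (fun g hg hy => by
    have h1 := hfl g hg hy
    change (MulAut.conj (frm T v)) ((GeneralLinearGroup.map (n := Fin 2) (C : T →+* A))
      (ρ (rl l g))) = 1
    rw [h1, map_one, map_one])
  exact ⟨evD x, fun D hD0 δ => hD D.1 D.2 (fun i => congrFun hD0 i) δ⟩

end Fermat.Agent.RT
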