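import Fermat.Agent.RT.S56Image

set_option autoImplicit false
set_option linter.unusedSectionVars false

/-!
# Taylor–Wiles primes and generators of deformation rings
-/

open IsLocalRing Matrix Polynomial Module
open Fermat.Agent.Coh Fermat.Agent.GCFT Fermat.Agent.UnivDef Fermat.Agent.ESCore
  ExtCitation

namespace Fermat.Agent.RT

/-- The field of algebraic numbers. -/
local notation "Qb" => AlgebraicClosure ℚ
/-- The absolute Galois group. -/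
local notation "GQ" => (AlgebraicClosure ℚ ≃ₐ[ℚ] AlgebraicClosure ℚ)

section Half

variable {𝒪 : Type} [CommRing 𝒪] [IsDomain 𝒪] [IsDiscreteValuationRing 𝒪]
  [IsAdicComplete (maximalIdeal 𝒪) 𝒪]

/-- **Taylor–Wiles primes**: one half of the statement, for a family of deformation conditions. -/
theorem tw_half [Finite (ResidueField 𝒪)]
    (p : ℕ) [Fact p.Prime] (hp2 : p ≠ 2) (hp𝒪 : (p : 𝒪) ∈ maximalIdeal 𝒪)
    (ρbar : ResidualGaloisRep (ResidueField 𝒪))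
    (habs : ρbar.IsAbsolutelyIrreducible)
    (hdet : (GaloisRepAdic.ofResidualGaloisRep ρbar).DetIsCyclotomic p)
    (hsplit : ∀ σ : AlgebraicClosure ℚ ≃ₐ[ℚ] AlgebraicClosure ℚ,
      ∃ α β : ResidueField 𝒪, LinearMap.charpoly (ρbar.ρ σ) = (X - C α) * (X - C β))
    (hTW : ∀ (K : Type) [Field K] [Algebra (ResidueField 𝒪) K]
      (G : Subgroup (AlgebraicClosure ℚ ≃ₐ[ℚ] AlgebraicClosure ℚ)), G.index = 2 →
      ∀ V : Submodule K (ρbar.baseChange K).V,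
        (∀ σ ∈ G, ∀ x ∈ V, (ρbar.baseChange K).ρ σ x ∈ V) → V = ⊥ ∨ V = ⊤)
    (S Smin : Finset ℕ) (hpSmin : p ∈ Smin) (hSmin : Smin ⊆ S) (hS : ∀ q ∈ S, q.Prime)
    (hmin : ∀ q : ℕ, q.Prime → q ≠ p → (q ∈ Smin ↔ ¬ ρbar.IsUnramifiedAt q))
    (𝒟 : Finset ℕ → ∀ ⦃A : Type⦄ [CommRing A] [IsLocalRing A] [Algebra 𝒪 A],
      GaloisRepAdic A → Prop)
    (h𝒟1 : ∀ (S' : Finset ℕ) ⦃A : Type⦄ [CommRing A] [IsLocalRing A] [Algebra 𝒪 A]
      (ρ : GaloisRepAdic A), 𝒟 S' ρ → ρ.DetIsCyclotomic p)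
    (h𝒟2 : ∀ (S' : Finset ℕ) ⦃A : Type⦄ [CommRing A] [IsLocalRing A] [Algebra 𝒪 A]
      (ρ : GaloisRepAdic A), 𝒟 S' ρ → ∀ q : ℕ, q.Prime → q ∉ S' → ρ.IsUnramifiedAt q)
    (h𝒟3 : ∀ (S' : Finset ℕ) ⦃A : Type⦄ [CommRing A] [IsLocalRing A] [Algebra 𝒪 A]
      (ρ : GaloisRepAdic A), 𝒟 S' ρ → ∀ q ∈ Smin, q.Prime → q ≠ p → ρ.IsUnipotentOnInertiaAt q)
    (h𝒟4 : ∀ (S' : Finset ℕ) ⦃A B : Type⦄ [CommRing A] [IsLocalRing A] [Algebra 𝒪 A]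
      [CommRing B] [IsLocalRing B] [Algebra 𝒪 B] (ρ : GaloisRepAdic A) (ψ : A →+* B)
      (hψ : IsLocalHom ψ), Function.Surjective ψ → 𝒟 S' ρ → 𝒟 S' (ρ.baseChangeAlong ψ hψ))
    (hloc : ∀ (S' : Finset ℕ) (DQ : GaloisRep.DeformationRingData 𝒪 ρbar (𝒟 S'))
      (F : FrameData 𝒪 ρbar) (b : Basis (Fin 2) DQ.R DQ.ρ.V) (_ : IsLiftMat F (matOf DQ.ρ b))
      (π : DQ.R →+* ResidueField 𝒪) (_ : RingHom.ker π = maximalIdeal DQ.R)
      (_ : ∀ o, π (algebraMap 𝒪 DQ.R o) = residue 𝒪 o) (T : Finset Nat.Primes) (v : T),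
      ∃ θ : DerSp (frφ (algebraMap 𝒪 DQ.R) T) (frπ π T) →ₗ[ResidueField 𝒪]
        (Fin 4 → ResidueField 𝒪), ∀ D, θ D = 0 →
        ∀ δ : Gl (pPrime p), (frMat (glOf DQ.ρ b) v (rl (pPrime p) δ)).map D.1 = 0) :
    ∃ r : ℕ, ∀ n : ℕ, ∃ qv : Fin r → ℕ, Function.Injective qv ∧
      (∀ i, (qv i).Prime ∧ qv i ∉ S ∧ p ^ (n + 1) ∣ qv i - 1) ∧
      (∀ i, ∀ P : ValuationSubring (AlgebraicClosure ℚ), P.LiesOverPrime (qv i) →
        ∀ φ : AlgebraicClosure ℚ ≃ₐ[ℚ] AlgebraicClosure ℚ, P.IsFrobeniusAt φ (qv i) →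
          ∃ α β : ResidueField 𝒪, α ≠ β ∧ LinearMap.charpoly (ρbar.ρ φ) = (X - C α) * (X - C β)) ∧
      ∀ DQ : GaloisRep.DeformationRingData 𝒪 ρbar (𝒟 (Smin ∪ Finset.univ.image qv)),
        ∃ γ : MvPowerSeries (Fin r) 𝒪 →ₐ[𝒪] DQ.R, Function.Surjective γ := by
  obtain ⟨F⟩ := nonempty_frameData (𝒪 := 𝒪) ρbar habs
  set ρ₀ := resMat ρbar F.b with hρ₀
  have hpk : (p : ResidueField 𝒪) = 0 := by
    rw [← map_natCast (residue 𝒪), residue_eq_zero_iff]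
    exact hp𝒪
  have hchar : CharP (ResidueField 𝒪) p := (CharP.charP_iff_prime_eq_zero Fact.out).mpr hpk
  let T : Finset Nat.Primes := Smin.subtype Nat.Prime
  let bad : Finset Nat.Primes := S.subtype Nat.Prime
  have hT : ∀ q : Nat.Primes, q ∈ T ↔ (q : ℕ) ∈ Smin := fun q => Finset.mem_subtype
  have hbad : ∀ q : Nat.Primes, q ∈ bad ↔ (q : ℕ) ∈ S := fun q => Finset.mem_subtype
  have hpT : pPrime p ∈ T := (hT _).mpr hpSmin
  have hker : ρ₀.ker ∈ famS T := ker_resMat_mem_famS ρbar F.b fun q hq => by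
    by_contra hcon
    refine hq ((hT q).mpr ?_)
    by_cases hqp : (q : ℕ) = p
    · rw [hqp]
      exact hpSmin
    · exact (hmin q q.2 hqp).mpr hcon
  refine ⟨finrank (ResidueField 𝒪) (H1 (famS T) (adRep ρ₀ (detChar ρ₀))), fun n => ?_⟩
  obtain ⟨Q, hQcard, hQd, hQ, hfin, hr⟩ := exists_TW_final hp2 ρ₀ (χ := detChar ρ₀)
    (fun g => detChar_coe ρ₀ g) (ZMod.castHom (dvd_refl p) (ResidueField 𝒪))
    (det_resMat ρbar F.b hdet) hker hpT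
    (span_general ρbar F.b habs hTW hp2) (Nat.succ_pos n) bad
  rw [← hQcard] at hr ⊢
  let e : Fin Q.card ≃ Q := Q.equivFin.symm
  have hqS : ∀ q ∈ Q, (q : ℕ) ∉ S := by
    intro q hq hqS
    exact (Finset.disjoint_left.mp hQd hq) (Finset.mem_union_right _ ((hbad q).mpr hqS))
  refine ⟨fun i => ((e i).1 : ℕ), fun i j hij => ?_, fun i => ⟨(e i).1.2, hqS _ (e i).2,
    (hQ _ (e i).2).dvd⟩, fun i P hP φ hφ => ?_, fun DQ => ?_⟩
  · exact e.injective (Subtype.ext (Subtype.ext hij))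
  · obtain ⟨α, β, hαβ⟩ := hsplit φ
    refine ⟨α, β, fun heq => ?_, hαβ⟩
    obtain ⟨h1, h2⟩ := (hQ _ (e i).2).frob P hP φ hφ
    have h3 : (ρ₀ φ).val.charpoly = (X - C α) * (X - C β) := by
      rw [hρ₀, resMat_coe, LinearMap.charpoly_toMatrix, hαβ]
    obtain ⟨h4, h5⟩ := trace_det_of_charpoly h3
    apply h2
    rw [h4]
    rw [h5] at h1
    rw [← heq] at h1 ⊢
    linear_combination 4 * h1
  · have hty := DQ.isOfType
    refine core_count hp2 hp𝒪 DQ F T Q hpT (h𝒟1 _ _ hty) (fun q hq => ?_) (fun q hq hqp => ?_)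
      (fun q hq hqp => ?_) (fun ψ hψ hs => h𝒟4 _ _ _ hψ hs hty)
      (fun b hb π hπ hπ' v => hloc _ DQ F b hb π hπ hπ' T v) hfin hr
    · refine h𝒟2 _ _ hty q q.2 fun hmem => hq ?_
      rcases Finset.mem_union.mp hmem with h | h
      · exact Finset.mem_union_left _ ((hT q).mpr h)
      · obtain ⟨i, -, hi⟩ := Finset.mem_image.mp h
        have h1 : (e i).1 = q := Subtype.ext hi
        rw [← h1]
        exact Finset.mem_union_right _ (e i).2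
    · exact h𝒟3 _ _ hty q ((hT q).mp hq) q.2 hqp
    · exact (hmin q q.2 hqp).mp ((hT q).mp hq)

/-- **The strictly ordinary half.** -/
theorem half_strict [Finite (ResidueField 𝒪)]
    (p : ℕ) [Fact p.Prime] (hp2 : p ≠ 2) (hp𝒪 : (p : 𝒪) ∈ maximalIdeal 𝒪)
    (ρbar : ResidualGaloisRep (ResidueField 𝒪))
    (habs : ρbar.IsAbsolutelyIrreducible)
    (hdet : (GaloisRepAdic.ofResidualGaloisRep ρbar).DetIsCyclotomic p)
    (hsplit : ∀ σ : AlgebraicClosure ℚ ≃ₐ[ℚ] AlgebraicClosure ℚ,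
      ∃ α β : ResidueField 𝒪, LinearMap.charpoly (ρbar.ρ σ) = (X - C α) * (X - C β))
    (hTW : ∀ (K : Type) [Field K] [Algebra (ResidueField 𝒪) K]
      (G : Subgroup (AlgebraicClosure ℚ ≃ₐ[ℚ] AlgebraicClosure ℚ)), G.index = 2 →
      ∀ V : Submodule K (ρbar.baseChange K).V,
        (∀ σ ∈ G, ∀ x ∈ V, (ρbar.baseChange K).ρ σ x ∈ V) → V = ⊥ ∨ V = ⊤)
    (S Smin : Finset ℕ) (hpSmin : p ∈ Smin) (hSmin : Smin ⊆ S) (hS : ∀ q ∈ S, q.Prime)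
    (hmin : ∀ q : ℕ, q.Prime → q ≠ p → (q ∈ Smin ↔ ¬ ρbar.IsUnramifiedAt q)) :
    ∃ r : ℕ, ∀ n : ℕ, ∃ qv : Fin r → ℕ, Function.Injective qv ∧
      (∀ i, (qv i).Prime ∧ qv i ∉ S ∧ p ^ (n + 1) ∣ qv i - 1) ∧
      (∀ i, ∀ P : ValuationSubring (AlgebraicClosure ℚ), P.LiesOverPrime (qv i) →
        ∀ φ : AlgebraicClosure ℚ ≃ₐ[ℚ] AlgebraicClosure ℚ, P.IsFrobeniusAt φ (qv i) →
          ∃ α β : ResidueField 𝒪, α ≠ β ∧ LinearMap.charpoly (ρbar.ρ φ) = (X - C α) * (X - C β)) ∧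
      ∀ DQ : GaloisRep.DeformationRingData 𝒪 ρbar (fun _A _ _ _ ρ =>
          GaloisRep.strictOrdinaryCondition 𝒪 p (Smin ∪ Finset.univ.image qv) ρ ∧
            ∀ q ∈ Smin, q.Prime → q ≠ p → ρ.IsUnipotentOnInertiaAt q),
        ∃ γ : MvPowerSeries (Fin r) 𝒪 →ₐ[𝒪] DQ.R, Function.Surjective γ :=
  tw_half p hp2 hp𝒪 ρbar habs hdet hsplit hTW S Smin hpSmin hSmin hS hmin
    (fun S' _A _ _ _ ρ => GaloisRep.strictOrdinaryCondition 𝒪 p S' ρ ∧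
      ∀ q ∈ Smin, q.Prime → q ≠ p → ρ.IsUnipotentOnInertiaAt q)
    (fun _ _ _ _ _ _ h => h.1.1) (fun _ _ _ _ _ _ h => h.1.2.2) (fun _ _ _ _ _ _ h => h.2)
    (fun _ _ _ _ _ _ _ _ _ ρ ψ hψ _ h => ⟨⟨detIsCyclotomic_baseChangeAlong ψ hψ ρ h.1.1,
      isStrictOrdinaryAt_baseChangeAlong ψ hψ ρ h.1.2.1,
      fun q hq hqS => isUnramifiedAt_baseChangeAlong ψ hψ ρ (h.1.2.2 q hq hqS)⟩,
      fun q hq hqp hne => isUnipotentOnInertiaAt_baseChangeAlong ψ hψ ρ (h.2 q hq hqp hne)⟩)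
    (fun _ DQ _ b _ π hπ hπ' _ v => strict_loc hp2 DQ.ρ DQ.isOfType.1.2.1 DQ.isOfType.1.1 b hπ
      hπ' v)

end Half

end Fermat.Agent.RT
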