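import Fermat.Agent.RT.S56Strict
import Fermat.Agent.RT.IndexTwoTW

set_option autoImplicit false
set_option linter.unusedSectionVars false

/-!
# The image of the residual representation
-/

open IsLocalRing Matrix Polynomial Module
open Fermat.Agent.Coh Fermat.Agent.GCFT Fermat.Agent.UnivDef Fermat.Agent.ESCore
  ExtCitation

namespace Fermat.Agent.RT

/-- The field of algebraic numbers. -/
local notation "Qb" => AlgebraicClosure ℚ
/-- The absolute Galois group. -/
local notation "GQ" => (AlgebraicClosure ℚ ≃ₐ[ℚ] AlgebraicClosure ℚ)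

section Image

variable {k : Type} [Field k]

theorem not_comEig_of_submodule (K : Type) [Field K] [Algebra k K] (ρ : ResidualGaloisRep k)
    (b : Basis (Fin 2) k ρ.V) {G : Subgroup GQ}
    (h : ∀ W : Submodule K (ρ.baseChange K).V,
      (∀ σ ∈ G, ∀ x ∈ W, (ρ.baseChange K).ρ σ x ∈ W) → W = ⊥ ∨ W = ⊤) (v : Fin 2 → K) :
    ¬ ComEig (bc K (resMat ρ b)) G v := by
  rintro ⟨hv0, hv⟩
  let B : Basis (Fin 2) K (ρ.baseChange K).V := Algebra.TensorProduct.basis K b
  have hmat : ∀ σ, LinearMap.toMatrix B B ((ρ.baseChange K).ρ σ) =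
      (bc K (resMat ρ b) σ).val := fun σ => LinearMap.toMatrix_baseChange K (ρ.ρ σ) b b
  set x : (ρ.baseChange K).V := B.equivFun.symm v with hx
  have hxv : ∀ i, B.repr x i = v i := by
    intro i
    rw [← Basis.equivFun_apply, hx, LinearEquiv.apply_symm_apply]
  have hx0 : x ≠ 0 := by
    intro h0
    apply hv0
    funext i
    rw [← hxv i, h0, map_zero]
    rfl
  have key := h (K ∙ x) (by
    intro σ hσ y hy
    obtain ⟨c, rfl⟩ := Submodule.mem_span_singleton.mp hy
    obtain ⟨a, ha⟩ := hv σ hσ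
    have h1 : (ρ.baseChange K).ρ σ x = a • x := by
      apply B.repr.injective
      ext i
      have h2 := congrFun (LinearMap.toMatrix_mulVec_repr B B ((ρ.baseChange K).ρ σ) x) i
      rw [hmat] at h2
      have h3 : (fun i => B.repr x i) = v := funext hxv
      have h4 : ((bc K (resMat ρ b) σ).val *ᵥ (fun i => B.repr x i)) i = a * v i := by
        rw [h3, ha]
        rfl
      have h5 : ((bc K (resMat ρ b) σ).val *ᵥ ⇑(B.repr x)) i = a * v i := h4
      rw [h5] at h2
      rw [← h2, map_smul, Finsupp.smul_apply, smul_eq_mul, hxv]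
    rw [LinearMap.map_smul, h1]
    exact Submodule.smul_mem _ _ (Submodule.smul_mem _ _ (Submodule.mem_span_singleton_self _)))
  rcases key with h1 | h1
  · rw [Submodule.span_singleton_eq_bot] at h1
    exact hx0 h1
  · have h2 := finrank_span_singleton (K := K) hx0
    rw [h1, finrank_top, (ρ.baseChange K).finrank_eq] at h2
    exact absurd h2 (by norm_num)

/-- **The span of the image**, general case. -/
theorem span_general (ρ : ResidualGaloisRep k) (b : Basis (Fin 2) k ρ.V)
    (habs : ρ.IsAbsolutelyIrreducible)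
    (hTW : ∀ (K : Type) [Field K] [Algebra k K] (G : Subgroup GQ), G.index = 2 →
      ∀ V : Submodule K (ρ.baseChange K).V,
        (∀ σ ∈ G, ∀ x ∈ V, (ρ.baseChange K).ρ σ x ∈ V) → V = ⊥ ∨ V = ⊤)
    {p : ℕ} [hp : Fact p.Prime] (hp2 : p ≠ 2) (n : ℕ) :
    Submodule.span k (imgSet (resMat ρ b) (cyc (p ^ n)).ker) = ⊤ := by
  obtain ⟨g₁, hg₁⟩ := exists_cyc_generator p hp2 n
  have : (cyc (p ^ n)).ker.Normal := MonoidHom.normal_ker _
  refine span_imgSet_eq_top (AlgebraicClosure k) ?_
  refine not_comEig_of_normal hg₁ ?_ ?_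
  · exact not_comEig_of_submodule (AlgebraicClosure k) ρ b fun W hW =>
      habs W fun σ x hx => hW σ trivial x hx
  · intro G hG
    exact not_comEig_of_submodule (AlgebraicClosure k) ρ b (hTW (AlgebraicClosure k) G hG)

end Image

section Num

variable {k : Type} [Field k] [Finite k] {p : ℕ} [hp : Fact p.Prime] [CharP k p]

/-- the determinant character -/
noncomputable def detChar (ρ : GQ →* GL (Fin 2) k) : GQ →* kˣ :=
  GeneralLinearGroup.det.comp ρ

theorem detChar_coe (ρ : GQ →* GL (Fin 2) k) (g : GQ) : (detChar ρ g : k) = (ρ g).val.det := rfl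

theorem det_resMat (ρ : ResidualGaloisRep k) (b : Basis (Fin 2) k ρ.V)
    (hdet : (GaloisRepAdic.ofResidualGaloisRep ρ).DetIsCyclotomic p) (g : GQ) :
    (resMat ρ b g).val.det = ZMod.castHom (dvd_refl p) k ((cyc p g : (ZMod p)ˣ) : ZMod p) := by
  rw [resMat_coe, LinearMap.det_toMatrix]
  have h1 := hdet.2 1 g ((cyc p g : (ZMod p)ˣ) : ZMod p).val (fun μ hμ => by
    rw [pow_one] at hμ
    exact cyc_spec g hμ)
  rw [pow_one, CharP.cast_eq_zero, Ideal.span_singleton_eq_bot.mpr rfl, Ideal.mem_bot,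
    sub_eq_zero] at h1
  refine h1.trans ?_
  conv_rhs => rw [← ZMod.natCast_zmod_val ((cyc p g : (ZMod p)ˣ) : ZMod p)]
  rw [map_natCast]

end Num

end Fermat.Agent.RT
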