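import Fermat.Agent.OrdP.Framed
import Fermat.Agent.RT.S56Count

set_option autoImplicit false
set_option linter.unusedSectionVars false

/-!
# The local count at `p`: strictly ordinary deformations
-/

open Fermat.Agent.Coh Fermat.Agent.GalD Fermat.Agent.LocalCFT Module IntermediateField IsLocalRing
open Fermat.Agent.OrdP Matrix Fermat.Agent.GCFT MvPowerSeries

namespace Fermat.Agent.RT

/-- The absolute Galois group. -/
local notation "GQ" => (AlgebraicClosure ℚ ≃ₐ[ℚ] AlgebraicClosure ℚ)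

section Loc

variable {p : ℕ} [hp : Fact p.Prime] {A : Type*} [CommRing A]

/-- **The strictly ordinary case**: four parameters. -/
theorem exists_strict_params [IsLocalRing A] {O k : Type*} [CommRing O] [Field k] [Finite k]
    {φ : O →+* A} {π : A →+* k}
    (hp2 : p ≠ 2) (hker : RingHom.ker π = maximalIdeal A)
    (hsurj : ∀ x : k, ∃ o : O, π (φ o) = x)
    (hH : ∀ x : A, (∀ n, x ∈ maximalIdeal A ^ n) → x = 0)
    (hpA : (p : A) ∈ maximalIdeal A)
    {r : Gal(PadicAlgCl p/ℚ_[p]) →* GL (Fin 2) A} {v : Fin 2 → A}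
    (H : OrdRep p (maximalIdeal A) r v) (hv : ∃ i, v i ∉ maximalIdeal A)
    (hstr : ∀ g : Gal(PadicAlgCl p/ℚ_[p]), ∀ a : A, (r g).val *ᵥ v = a • v →
      (r g).val.det ^ 2 = a ^ 2) :
    ∃ x : Fin 4 → A, ∀ D ∈ DerSp φ π, (∀ i, D (x i) = 0) → ∀ σ, (r σ).val.map D = 0 := by
  have hmem : ∀ x : A, x ∈ maximalIdeal A ↔ π x = 0 := fun x => by rw [← hker]; exact Iff.rfl
  have hunit : ∀ x : A, IsUnit x ↔ π x ≠ 0 := fun x => by
    rw [← not_iff_not, not_not, ← hmem]
    exact Iff.rfl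
  obtain ⟨d⟩ := exists_dat hp2
  obtain ⟨c₀, s, s', P, Q, hss, hPQ, hQP, hP, hPD⟩ := exists_frame φ π hv
  obtain ⟨R, hR, hrR⟩ := (H.scale hss).conj P Q hPQ hQP hP
  obtain ⟨t, z₁, z₂, z₃, ht, hz₁, hz₂, hz₃, htz, ⟨u, huu, hdu, -⟩, hz0, -, hD⟩ :=
    UT.exists_params (φ := φ) hker hsurj hH hpA hR hp2 d
  have h2k : (2 : k) ≠ 0 := by
    have hchar : CharP k p := by
      rw [CharP.charP_iff_prime_eq_zero hp.out, ← map_natCast π]
      exact (hmem _).mp hpA
    intro h
    have h1 : ((2 : ℕ) : k) = 0 := by exact_mod_cast h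
    have h3 := (CharP.cast_eq_zero_iff k p 2).mp h1
    exact hp2 ((Nat.prime_dvd_prime_iff_eq hp.out Nat.prime_two).mp h3)
  -- the quotient character is quadratic
  have hsq : R d.φ 1 1 ^ 2 = 1 := by
    have h2 : (r d.φ).val *ᵥ v = (R d.φ 0 0) • v := by
      have h3 : P *ᵥ ![1, 0] = s • v := by
        funext i
        rw [← hP i]
        simp [mulVec, dotProduct, Fin.sum_univ_two]
      have h4 : v = s' • (s • v) := by rw [smul_smul, hss, one_smul]
      have h5 : (r d.φ).val *ᵥ (s • v) = (R d.φ 0 0) • (s • v) := by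
        rw [hrR, ← h3, mulVec_mulVec, mul_assoc, mul_assoc, hQP, mul_one, ← mulVec_mulVec,
          ← mulVec_smul]
        congr 1
        funext i
        fin_cases i
        · simp [mulVec, dotProduct, Fin.sum_univ_two]
        · simp [mulVec, dotProduct, Fin.sum_univ_two, hR.low]
      rw [h4, mulVec_smul, h5, smul_comm]
    have h6 : (r d.φ).val.det = (R d.φ).det := by
      rw [hrR, det_mul, det_mul, mul_comm P.det, mul_assoc, ← det_mul, hPQ, det_one, mul_one]
    have h7 := hstr d.φ _ h2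
    rw [h6, hR.det_eq, mul_pow] at h7
    have h8 : IsUnit (R d.φ 0 0 ^ 2) := by
      have h9 : IsUnit (R d.φ).det := by
        rw [← h6]
        exact (Matrix.isUnit_iff_isUnit_det _).mp (r d.φ).isUnit
      rw [hR.det_eq] at h9
      exact (isUnit_of_mul_isUnit_left h9).pow 2
    have h10 : R d.φ 0 0 ^ 2 * (R d.φ 1 1 ^ 2 - 1) = 0 := by linear_combination h7
    exact sub_eq_zero.mp ((h8.mul_right_eq_zero).mp h10)
  refine ⟨![c₀, z₁, z₂, z₃], ?_⟩
  intro D hDer h0 σ
  have hD11 : D (R d.φ 1 1) = 0 := by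
    have h1 : D (R d.φ 1 1 ^ 2) = 0 := by rw [hsq, der_one hDer]
    rw [sq, der_mul hDer] at h1
    have h3 : 2 * (π (R d.φ 1 1) * D (R d.φ 1 1)) = 0 := by linear_combination h1
    exact (mul_eq_zero.mp ((mul_eq_zero.mp h3).resolve_left h2k)).resolve_left
      (hR.pi_ne_zero π d.φ)
  have hDt : D t = 0 := by
    rw [hdu, der_mul hDer, der_add hDer, der_one hDer, der_cst hDer, zero_add, mul_zero,
      add_zero] at hD11
    exact (mul_eq_zero.mp hD11).resolve_left ((hunit _).mp huu)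
  have h1 := hD D hDer hDt (h0 1) (h0 2) (h0 3) σ
  have h2 : D c₀ = 0 := h0 0
  obtain ⟨hPm, hQm⟩ := hPD D hDer h2
  have h3 : (R σ).map D = 0 := by
    ext i j
    exact h1 i j
  rw [hrR, map_mul_der hDer, map_mul_der hDer, hPm, hQm, h3, mul_zero, mul_zero, zero_mul,
    add_zero, zero_mul, add_zero]

end Loc

/-- evaluation of derivations at elements -/
noncomputable def evD {O A k : Type*} [CommRing O] [CommRing A] [Field k] {φ : O →+* A}
    {π : A →+* k} {n : ℕ} (x : Fin n → A) : DerSp φ π →ₗ[k] (Fin n → k) where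
  toFun D := fun i => D.1 (x i)
  map_add' _ _ := rfl
  map_smul' _ _ := rfl

/-- **The strictly ordinary case, framed form.** -/
theorem framed_strict_functionals {l : Nat.Primes} (hl2 : (l : ℕ) ≠ 2)
    {O T k : Type} [CommRing O] [CommRing T] [IsLocalRing T] [IsNoetherianRing T] [Field k]
    [Finite k] {φ : O →+* T} {π : T →+* k} (hπ : RingHom.ker π = maximalIdeal T)
    (hsurj : ∀ x : k, ∃ o : O, π (φ o) = x) (hpT : ((l : ℕ) : T) ∈ maximalIdeal T)
    {ρ : GQ →* GL (Fin 2) T} {v₀ : Fin 2 → T}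
    (H : OrdRep (l : ℕ) (maximalIdeal T) (ρ.comp (rl l)) v₀)
    (hv₀ : ∃ i, v₀ i ∉ maximalIdeal T)
    (hstr : ∀ g : Gl l, ∀ a : T, (ρ (rl l g)).val *ᵥ v₀ = a • v₀ →
      (ρ (rl l g)).val.det ^ 2 = a ^ 2) {V : Type} [Fintype V] (v : V) :
    ∃ θ : DerSp (frφ φ V) (frπ π V) →ₗ[k] (Fin 4 → k), ∀ D, θ D = 0 →
      ∀ δ : Gl l, (frMat ρ v (rl l δ)).map D.1 = 0 := by
  set A := MvPowerSeries (V × Fin 3) T with hA
  have hπA : RingHom.ker (frπ π V) = maximalIdeal A := by
    ext f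
    rw [mem_maximalIdeal_iff, ← hπ]
    exact Iff.rfl
  have hC : (maximalIdeal T).map (C : T →+* A) ≤ maximalIdeal A := by
    rw [Ideal.map_le_iff_le_comap]
    intro t ht
    rw [Ideal.mem_comap, mem_maximalIdeal_iff]
    simpa using ht
  have hH : ∀ x : A, (∀ n, x ∈ maximalIdeal A ^ n) → x = 0 := by
    intro x hx
    have h1 : x ∈ ⨅ n : ℕ, maximalIdeal A ^ n := by
      rw [Ideal.mem_iInf]
      exact hx
    rwa [Ideal.iInf_pow_eq_bot_of_isLocalRing _ (maximalIdeal.isMaximal A).ne_top,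
      Ideal.mem_bot] at h1
  let r' : Gl l →* GL (Fin 2) A := (MulAut.conj (frm T v)).toMonoidHom.comp
    ((GeneralLinearGroup.map (n := Fin 2) (C : T →+* A)).comp (ρ.comp (rl l)))
  have hr' : ∀ δ, (r' δ).val = (frm T v).val * ((ρ.comp (rl l)) δ).val.map (C : T →+* A) *
      ((frm T v)⁻¹).val := fun δ => rfl
  have HA := H.change (C : T →+* A) hC (frm T v) r' hr'
  obtain ⟨x, hD⟩ := exists_strict_params (φ := frφ φ V) (π := frπ π V) hl2 hπA
    (fun y => by
      obtain ⟨o, ho⟩ := hsurj y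
      exact ⟨o, by simpa using ho⟩) hH (by
      have := hC (Ideal.mem_map_of_mem (C : T →+* A) hpT)
      rwa [map_natCast] at this) HA (exists_not_mem_change hv₀ _ _) (fun g a' ha' => by
    obtain ⟨a, ha⟩ := H.line g
    have h1 := hstr g a ha
    have hgg : ((frm T v)⁻¹).val * (frm T v).val = 1 := by
      rw [← Units.val_mul, inv_mul_cancel, Units.val_one]
    have hgg' : (frm T v).val * ((frm T v)⁻¹).val = 1 := by
      rw [← Units.val_mul, mul_inv_cancel, Units.val_one]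
    have h4 : (r' g).val *ᵥ ((frm T v).val *ᵥ ((C : T →+* A) ∘ v₀)) =
        (C a : A) • ((frm T v).val *ᵥ ((C : T →+* A) ∘ v₀)) := by
      rw [hr', mulVec_mulVec, mul_assoc, mul_assoc, hgg, mul_one, ← mulVec_mulVec, ← mulVec_smul]
      congr 1
      funext i
      have h5 := congrArg (C : T →+* A) (congrFun ha i)
      rw [Pi.smul_apply, smul_eq_mul, map_mul] at h5
      rw [Pi.smul_apply, smul_eq_mul, Function.comp_apply, ← h5, RingHom.map_mulVec]
    obtain ⟨i, hi⟩ := exists_not_mem_change hv₀ (C : T →+* A) (frm T v)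
    have hi' : IsUnit (((frm T v).val *ᵥ ((C : T →+* A) ∘ v₀)) i) := by
      by_contra h
      exact hi ((mem_maximalIdeal _).mpr h)
    have h5 := congrFun (ha'.symm.trans h4) i
    rw [Pi.smul_apply, Pi.smul_apply, smul_eq_mul, smul_eq_mul] at h5
    have h6 : a' = C a := hi'.mul_right_cancel h5
    have h7 : (r' g).val.det = C ((ρ (rl l g)).val.det) := by
      rw [hr', det_mul, det_mul, mul_comm (frm T v).val.det, mul_assoc, ← det_mul, hgg', det_one,
        mul_one, RingHom.map_det]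
      rfl
    rw [h6, h7, ← map_pow, ← map_pow, h1])
  exact ⟨evD x, fun D hD0 δ => hD D.1 D.2 (fun i => congrFun hD0 i) δ⟩

end Fermat.Agent.RT
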