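import Fermat.Prelude.Def_GaloisRep_StrictOrdinary
import Fermat.Prelude.Def_GaloisRep_Flat
import Fermat.Agent.UnivDef.MatrixRep

set_option autoImplicit false
set_option linter.unusedSectionVars false

/-!
# Stability of the deformation conditions under base change
-/

open IsLocalRing TensorProduct Fermat.Agent.UnivDef

namespace Fermat.Agent.RT

/-- The absolute Galois group. -/
local notation "GQ" => (AlgebraicClosure ℚ ≃ₐ[ℚ] AlgebraicClosure ℚ)

section Plain

variable {A B V : Type*} [CommRing A] [CommRing B] [Algebra A B] [AddCommGroup V] [Module A V]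

theorem bc_line {T : Module.End A V} {v₀ : V} {y : A} (h : T v₀ = y • v₀) (c : B) :
    T.baseChange B (c • ((1 : B) ⊗ₜ[A] v₀)) = algebraMap A B y • (c • ((1 : B) ⊗ₜ[A] v₀)) := by
  rw [LinearMap.map_smul, LinearMap.baseChange_tmul, h, smul_comm, TensorProduct.tmul_smul]
  congr 1
  exact (algebraMap_smul B y _).symm

theorem bc_mem {T : Module.End A V} {v₀ : V} (hT : ∀ v, T v ∈ A ∙ v₀) (w : B ⊗[A] V) :
    T.baseChange B w ∈ B ∙ ((1 : B) ⊗ₜ[A] v₀) := by
  induction w using TensorProduct.induction_on with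
  | zero => rw [LinearMap.map_zero]; exact Submodule.zero_mem _
  | tmul c v =>
    rw [LinearMap.baseChange_tmul]
    obtain ⟨y, hy⟩ := Submodule.mem_span_singleton.mp (hT v)
    rw [← hy, Submodule.mem_span_singleton]
    refine ⟨c * algebraMap A B y, ?_⟩
    rw [TensorProduct.smul_tmul', TensorProduct.tmul_smul, TensorProduct.smul_tmul',
      smul_eq_mul, mul_one, Algebra.smul_def, mul_comm]
  | add x y hx hy => rw [LinearMap.map_add]; exact Submodule.add_mem _ hx hy

theorem bc_sub_mem {T : Module.End A V} {v₀ : V} {z : A} (hT : ∀ v, T v - z • v ∈ A ∙ v₀)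
    (w : B ⊗[A] V) :
    T.baseChange B w - algebraMap A B z • w ∈ B ∙ ((1 : B) ⊗ₜ[A] v₀) := by
  have h1 := bc_mem (B := B) (T := T - z • 1) (v₀ := v₀) (fun v => by
    rw [LinearMap.sub_apply, LinearMap.smul_apply, Module.End.one_apply]
    exact hT v) w
  rwa [LinearMap.baseChange_sub, LinearMap.sub_apply, LinearMap.baseChange_smul,
    LinearMap.baseChange_one, LinearMap.smul_apply, Module.End.one_apply,
    ← algebraMap_smul B z w] at h1

end Plain

section Stab

variable {A B : Type} [CommRing A] [IsLocalRing A] [CommRing B] [IsLocalRing B]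
  (ψ : A →+* B) (hψ : IsLocalHom ψ) (ρ : GaloisRepAdic A)

include ψ hψ in
theorem natCast_mem_baseChange {p : ℕ} (h : (p : A) ∈ maximalIdeal A) :
    (p : B) ∈ maximalIdeal B := by
  have := map_mem_maximalIdeal_pow ψ hψ (n := 1) (by rwa [pow_one])
  rwa [pow_one, map_natCast] at this

theorem mem_span_baseChange {m : ℕ} {x : A} (h : x ∈ Ideal.span {(m : A)}) :
    ψ x ∈ Ideal.span {(m : B)} := by
  rw [Ideal.mem_span_singleton] at h ⊢
  have := map_dvd ψ h
  rwa [map_natCast] at this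

theorem det_baseChangeAlong (σ : GQ) : LinearMap.det ((ρ.baseChangeAlong ψ hψ).ρ σ) =
    ψ (LinearMap.det (ρ.ρ σ)) := by
  let _ : Algebra A B := ψ.toAlgebra
  exact LinearMap.det_baseChange _

theorem charpoly_baseChangeAlong (σ : GQ) : LinearMap.charpoly ((ρ.baseChangeAlong ψ hψ).ρ σ) =
    (LinearMap.charpoly (ρ.ρ σ)).map ψ := by
  let _ : Algebra A B := ψ.toAlgebra
  exact LinearMap.charpoly_baseChange _ _

theorem detIsCyclotomic_baseChangeAlong {p : ℕ} (h : ρ.DetIsCyclotomic p) :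
    (ρ.baseChangeAlong ψ hψ).DetIsCyclotomic p := by
  refine ⟨natCast_mem_baseChange ψ hψ h.1, fun n σ a ha => ?_⟩
  have h1 := mem_span_baseChange ψ (h.2 n σ a ha)
  rwa [map_sub, map_natCast, ← det_baseChangeAlong ψ hψ] at h1

theorem isUnramifiedAt_baseChangeAlong {q : ℕ} (h : ρ.IsUnramifiedAt q) :
    (ρ.baseChangeAlong ψ hψ).IsUnramifiedAt q := by
  intro P hP σ hσ
  let _ : Algebra A B := ψ.toAlgebra
  change (ρ.ρ σ).baseChange B = 1
  rw [h P hP σ hσ, LinearMap.baseChange_one]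

theorem isUnipotentOnInertiaAt_baseChangeAlong {q : ℕ} (h : ρ.IsUnipotentOnInertiaAt q) :
    (ρ.baseChangeAlong ψ hψ).IsUnipotentOnInertiaAt q := by
  intro P hP σ hσ
  rw [charpoly_baseChangeAlong, h P hP σ hσ]
  simp

theorem isStrictOrdinaryAt_baseChangeAlong {p : ℕ} (h : ρ.IsStrictOrdinaryAt p) :
    (ρ.baseChangeAlong ψ hψ).IsStrictOrdinaryAt p := by
  let _ : Algebra A B := ψ.toAlgebra
  refine ⟨natCast_mem_baseChange ψ hψ h.1, fun P hP => ?_⟩
  obtain ⟨L, ⟨b, hL⟩, hD, hI, hs⟩ := h.2 P hP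
  subst hL
  have hb0 : (basisBaseChangeAlong ψ hψ ρ b) 0 = ((1 : B) ⊗ₜ[A] (b 0 : ρ.V)) :=
    Algebra.TensorProduct.basis_apply b 0
  refine ⟨B ∙ (basisBaseChangeAlong ψ hψ ρ b) 0, ⟨basisBaseChangeAlong ψ hψ ρ b, rfl⟩, ?_, ?_, ?_⟩
  · intro σ hσ v hv
    rw [hb0] at hv ⊢
    obtain ⟨c, rfl⟩ := Submodule.mem_span_singleton.mp hv
    obtain ⟨y, hy⟩ := Submodule.mem_span_singleton.mp (hD σ hσ (b 0)
      (Submodule.mem_span_singleton_self _))
    have h1 := bc_line (B := B) hy.symm c
    have h2 : ((ρ.baseChangeAlong ψ hψ).ρ σ) (c • ((1 : B) ⊗ₜ[A] (b 0 : ρ.V))) =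
      ψ y • (c • ((1 : B) ⊗ₜ[A] (b 0 : ρ.V))) := h1
    refine (congrArg (· ∈ B ∙ ((1 : B) ⊗ₜ[A] (b 0 : ρ.V))) h2).mpr ?_
    exact Submodule.smul_mem _ _ hv
  · intro σ hσ v
    rw [hb0]
    have h1 := bc_sub_mem (B := B) (T := ρ.ρ σ) (v₀ := b 0) (z := 1) (fun v => by
      rw [one_smul]
      exact hI σ hσ v) v
    rw [map_one, one_smul] at h1
    exact h1
  · intro σ hσ
    obtain ⟨x, z, hx, hz, hxz⟩ := hs σ hσ
    refine ⟨ψ x, ψ z, ?_, ?_, ?_⟩
    · intro w hw
      rw [hb0] at hw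
      obtain ⟨c, rfl⟩ := Submodule.mem_span_singleton.mp hw
      exact bc_line (B := B) (hx _ (Submodule.mem_span_singleton_self _)) c
    · intro v
      rw [hb0]
      exact bc_sub_mem (B := B) hz v
    · intro n a ha
      have h1 := mem_span_baseChange ψ (hxz n a ha)
      rwa [map_sub, map_mul, map_natCast] at h1

theorem isFlatAt_baseChangeAlong (hs : Function.Surjective ψ) {p : ℕ} (h : ρ.IsFlatAt p) :
    (ρ.baseChangeAlong ψ hψ).IsFlatAt p := by
  let _ : Algebra A B := ψ.toAlgebra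
  refine ⟨?_, fun J hJ => ?_⟩
  · haveI := h.1
    have hs' : Function.Surjective (ResidueField.map ψ) := by
      intro x
      obtain ⟨b, rfl⟩ := residue_surjective x
      obtain ⟨a, rfl⟩ := hs b
      exact ⟨residue A a, ResidueField.map_residue _ _⟩
    exact Finite.of_surjective _ hs'
  set I : Ideal A := J.comap ψ with hI
  have hfin : Finite (A ⧸ I) := by
    have := hJ
    refine Finite.of_injective (Ideal.quotientMap J ψ le_rfl) ?_
    exact Ideal.quotientMap_injective
  obtain ⟨H, i1, i2, h1, h2, h3, e, he, hσ⟩ := h.2 I hfin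
  -- the comparison of the quotients
  let b := Module.finBasisOfFinrankEq A ρ.V ρ.finrank_eq
  let f : ρ.V →ₗ[A] ((B ⊗[A] ρ.V) ⧸ (J • (⊤ : Submodule B (B ⊗[A] ρ.V)))) :=
    ((J • (⊤ : Submodule B (B ⊗[A] ρ.V))).mkQ.restrictScalars A).comp
      (TensorProduct.mk A B ρ.V 1)
  have hf : ∀ v, f v = Submodule.Quotient.mk ((1 : B) ⊗ₜ[A] v) := fun v => rfl
  have hle : I • (⊤ : Submodule A ρ.V) ≤ LinearMap.ker f := by
    rw [Submodule.smul_le]
    intro a ha v _
    rw [LinearMap.mem_ker, hf, Submodule.Quotient.mk_eq_zero, TensorProduct.tmul_smul,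
      ← algebraMap_smul B a]
    exact Submodule.smul_mem_smul ha Submodule.mem_top
  let g := (I • (⊤ : Submodule A ρ.V)).liftQ f hle
  have hg : ∀ v, g (Submodule.Quotient.mk v) = Submodule.Quotient.mk ((1 : B) ⊗ₜ[A] v) :=
    fun v => rfl
  have hbij : Function.Bijective g := by
    constructor
    · rw [← LinearMap.ker_eq_bot, LinearMap.ker_eq_bot']
      intro v hv
      obtain ⟨v, rfl⟩ := Submodule.Quotient.mk_surjective _ v
      rw [hg, Submodule.Quotient.mk_eq_zero] at hv
      rw [Submodule.Quotient.mk_eq_zero]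
      have h4 : ∀ w ∈ J • (⊤ : Submodule B (B ⊗[A] ρ.V)), ∀ i,
          (Algebra.TensorProduct.basis B b).repr w i ∈ J := by
        intro w hw i
        refine Submodule.smul_induction_on hw (fun c hc x _ => ?_) (fun x y hx hy => ?_)
        · rw [map_smul, Finsupp.smul_apply, smul_eq_mul]
          exact J.mul_mem_right _ hc
        · rw [map_add, Finsupp.add_apply]
          exact J.add_mem hx hy
      rw [← b.sum_repr v]
      refine Submodule.sum_mem _ fun i _ => ?_
      refine Submodule.smul_mem_smul ?_ Submodule.mem_top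
      have h5 := h4 _ hv i
      rw [Algebra.TensorProduct.basis_repr_tmul] at h5
      change ψ (b.repr v i) ∈ J
      have h6 : ψ (b.repr v i) = algebraMap A B (b.repr v i) := rfl
      rw [h6]
      simpa using h5
    · intro w
      obtain ⟨w, rfl⟩ := Submodule.Quotient.mk_surjective _ w
      induction w using TensorProduct.induction_on with
      | zero => exact ⟨0, by rw [map_zero]; rfl⟩
      | tmul c v =>
        obtain ⟨a, rfl⟩ := hs c
        refine ⟨Submodule.Quotient.mk (a • v), ?_⟩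
        rw [hg, TensorProduct.tmul_smul, TensorProduct.smul_tmul', Algebra.smul_def, mul_one]
        rfl
      | add x y hx hy =>
        obtain ⟨x', hx'⟩ := hx
        obtain ⟨y', hy'⟩ := hy
        exact ⟨x' + y', by rw [map_add, hx', hy']; rfl⟩
  refine ⟨H, i1, i2, h1, h2, h3, e.trans (Equiv.ofBijective g hbij), fun f₁ f₂ => ?_,
    fun σ f₁ g₁ hfg => ?_⟩
  · rw [Equiv.trans_apply, Equiv.trans_apply, Equiv.trans_apply, he, Equiv.ofBijective_apply,
      Equiv.ofBijective_apply, Equiv.ofBijective_apply, map_add]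
    rfl
  · rw [Equiv.trans_apply, Equiv.trans_apply, hσ σ f₁ g₁ hfg, Equiv.ofBijective_apply,
      Equiv.ofBijective_apply]
    obtain ⟨v, hv⟩ := Submodule.Quotient.mk_surjective _ (e f₁)
    rw [← hv]
    rfl

end Stab

end Fermat.Agent.RT
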