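import Fermat.Agent.RT.S56Univ
import Fermat.Agent.RT.S56Stab
import Fermat.Agent.RT.S56A
import Fermat.Agent.RT.S56Ord
import Fermat.Agent.RT.Numer
import Fermat.Agent.ESCore.PseudoLim

set_option autoImplicit false
set_option linter.unusedSectionVars false

/-!
# The deformation ring: determinant, continuity, residual representation
-/

open IsLocalRing Matrix Polynomial
open scoped Pointwise
open Fermat.Agent.Coh Fermat.Agent.GCFT Fermat.Agent.UnivDef Fermat.Agent.ESCore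

namespace Fermat.Agent.RT

/-- The field of algebraic numbers. -/
local notation "Qb" => AlgebraicClosure ℚ
/-- The absolute Galois group. -/
local notation "GQ" => (AlgebraicClosure ℚ ≃ₐ[ℚ] AlgebraicClosure ℚ)

section Cyc

theorem exists_exponent (m : ℕ) [NeZero m] (g : GQ) : ∃ a : ℕ, ∀ μ : Qb, μ ^ m = 1 → g μ = μ ^ a :=
  ⟨_, fun _ hμ => cyc_spec g hμ⟩

theorem exponent_modEq {m : ℕ} [NeZero m] {g : GQ} {a b : ℕ} (ha : ∀ μ : Qb, μ ^ m = 1 → g μ = μ ^ a)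
    (hb : ∀ μ : Qb, μ ^ m = 1 → g μ = μ ^ b) : a ≡ b [MOD m] := by
  obtain ⟨ζ, hζ⟩ := exists_primitiveRoot m
  have h1 : ζ ^ a = ζ ^ b := by rw [← ha ζ hζ.pow_eq_one, ← hb ζ hζ.pow_eq_one]
  have hu : IsUnit ζ := hζ.isUnit (NeZero.ne m)
  have h2 : hu.unit ^ a = hu.unit ^ b := by
    apply Units.ext
    rw [Units.val_pow_eq_pow_val, Units.val_pow_eq_pow_val, IsUnit.unit_spec, h1]
  rw [pow_eq_pow_iff_modEq, ← orderOf_units, IsUnit.unit_spec, ← hζ.eq_orderOf] at h2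
  exact h2

theorem natCast_sub_mem_span {O : Type*} [CommRing O] {m a b : ℕ} (h : a ≡ b [MOD m]) :
    (a : O) - b ∈ Ideal.span {((m : ℕ) : O)} := by
  rw [Ideal.mem_span_singleton]
  have h1 : (m : ℤ) ∣ (a : ℤ) - b := by
    have := (Nat.modEq_iff_dvd.mp h.symm)
    exact this
  obtain ⟨c, hc⟩ := h1
  refine ⟨(c : O), ?_⟩
  have := congrArg (Int.cast : ℤ → O) hc
  push_cast at this
  exact this

end Cyc

section Det

variable {𝒪 : Type} [CommRing 𝒪] [IsDomain 𝒪] [IsDiscreteValuationRing 𝒪]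
  [IsAdicComplete (maximalIdeal 𝒪) 𝒪]

theorem det_mem_range {A : Type} [CommRing A] [IsLocalRing A] [IsNoetherianRing A]
    [IsAdicComplete (maximalIdeal A) A] [Algebra 𝒪 A]
    {p : ℕ} [hp : Fact p.Prime] (hp𝒪 : (p : 𝒪) ∈ maximalIdeal 𝒪) {ρ : GaloisRepAdic A}
    (h : ρ.DetIsCyclotomic p) (g : GQ) :
    ∃ o : 𝒪, LinearMap.det (ρ.ρ g) = algebraMap 𝒪 A o := by
  have hne : ∀ n, NeZero (p ^ n) := fun n => ⟨pow_ne_zero n hp.out.ne_zero⟩
  let F : ℕ → Set 𝒪 := fun n => {x | ∃ a : ℕ, (∀ μ : Qb, μ ^ p ^ n = 1 → g μ = μ ^ a) ∧ x = a}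
  obtain ⟨t, ht⟩ := exists_lim (p := (p : 𝒪)) hp𝒪 F
    (fun n => by
      obtain ⟨a, ha⟩ := exists_exponent (p ^ n) g
      exact ⟨a, a, ha, rfl⟩)
    (fun n => by
      rintro x ⟨a, ha, rfl⟩
      refine ⟨a, fun μ hμ => ha μ ?_, rfl⟩
      rw [pow_succ, pow_mul, hμ, one_pow])
    (fun n => by
      rintro x ⟨a, ha, rfl⟩ y ⟨b, hb, rfl⟩
      have := natCast_sub_mem_span (O := 𝒪) (exponent_modEq ha hb)
      rwa [Nat.cast_pow] at this)
  refine ⟨t, eq_of_forall_sub_mem (p := (p : A)) h.1 fun n => ?_⟩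
  obtain ⟨a, ha⟩ := exists_exponent (p ^ n) g
  have h1 := h.2 n g a ha
  have h2 := ht n a ⟨a, ha, rfl⟩
  rw [Nat.cast_pow] at h1
  rw [Ideal.mem_span_singleton] at h1 h2 ⊢
  have h3 := map_dvd (algebraMap 𝒪 A) h2
  rw [map_pow, map_sub, map_natCast, map_natCast] at h3
  have h4 := dvd_sub h1 h3
  convert h4 using 1
  ring

end Det

section Cont

variable {A : Type} [CommRing A] [IsLocalRing A]

theorem exists_cont (ρ : GaloisRepAdic A) (b : Module.Basis (Fin 2) A ρ.V) (n : ℕ) :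
    ∃ U : Subgroup GQ, IsOpen (U : Set GQ) ∧ ∀ u ∈ U, ∀ i j,
      (glOf ρ b u).val i j - (1 : Matrix (Fin 2) (Fin 2) A) i j ∈ maximalIdeal A ^ n := by
  obtain ⟨L, hL, h⟩ := isContMat_matOf ρ b n
  refine ⟨L.fixingSubgroup, IntermediateField.fixingSubgroup_isOpen L, fun u hu i j => ?_⟩
  exact h u (fun x hx => hu ⟨x, hx⟩) i j

theorem exists_famS_cont (ρ : GaloisRepAdic A) (b : Module.Basis (Fin 2) A ρ.V)
    {S : Finset Nat.Primes} (hunr : ∀ q : Nat.Primes, q ∉ S → ρ.IsUnramifiedAt q) (n : ℕ) :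
    ∃ U ∈ famS S, ∀ u ∈ U, ∀ i j,
      (glOf ρ b u).val i j - (1 : Matrix (Fin 2) (Fin 2) A) i j ∈ maximalIdeal A ^ n := by
  let f : GQ →* GL (Fin 2) (A ⧸ maximalIdeal A ^ n) :=
    (GeneralLinearGroup.map (Ideal.Quotient.mk (maximalIdeal A ^ n))).comp (glOf ρ b)
  have hf : ∀ g, g ∈ f.ker ↔ ∀ i j,
      (glOf ρ b g).val i j - (1 : Matrix (Fin 2) (Fin 2) A) i j ∈ maximalIdeal A ^ n := by
    intro g
    rw [MonoidHom.mem_ker]
    have h1 : (f g = 1) ↔ (glOf ρ b g).val.map (Ideal.Quotient.mk (maximalIdeal A ^ n)) = 1 := by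
      rw [Units.ext_iff]
      rfl
    rw [h1]
    have h2 : (1 : Matrix (Fin 2) (Fin 2) (A ⧸ maximalIdeal A ^ n)) =
        (1 : Matrix (Fin 2) (Fin 2) A).map (Ideal.Quotient.mk (maximalIdeal A ^ n)) :=
      (Matrix.map_one _ (map_zero _) (map_one _)).symm
    rw [h2]
    constructor
    · intro h i j
      rw [← Ideal.Quotient.eq]
      exact congrFun (congrFun h i) j
    · intro h
      ext i j
      exact (Ideal.Quotient.eq).mpr (h i j)
  refine ⟨f.ker, ⟨MonoidHom.normal_ker f, ?_, fun q hq P hP σ hσ => ?_⟩, fun u hu => (hf u).mp hu⟩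
  · obtain ⟨U, hU, h⟩ := exists_cont ρ b n
    exact Subgroup.isOpen_mono (fun u hu => (hf u).mpr (h u hu)) hU
  · rw [hf]
    intro i j
    have h1 : (glOf ρ b σ).val = 1 := by
      rw [glOf_coe, matOf_apply, hunr q hq P hP σ hσ, Module.End.one_eq_id, LinearMap.toMatrix_id]
    rw [h1, sub_self]
    exact Ideal.zero_mem _

end Cont

section Res

variable {𝒪 : Type} [CommRing 𝒪] [IsDomain 𝒪] [IsDiscreteValuationRing 𝒪]
  [IsAdicComplete (maximalIdeal 𝒪) 𝒪] {ρbar : ResidualGaloisRep (ResidueField 𝒪)}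

/-- the residual representation in matrix form -/
noncomputable def resMat {k : Type} [Field k] (ρ : ResidualGaloisRep k)
    (b : Module.Basis (Fin 2) k ρ.V) : GQ →* GL (Fin 2) k :=
  MonoidHom.toHomUnits
    { toFun := fun g => LinearMap.toMatrix b b (ρ.ρ g)
      map_one' := by rw [map_one]; exact LinearMap.toMatrix_one b
      map_mul' := fun σ τ => by rw [map_mul]; exact LinearMap.toMatrix_mul b _ _ }

theorem resMat_coe {k : Type} [Field k] (ρ : ResidualGaloisRep k)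
    (b : Module.Basis (Fin 2) k ρ.V) (g : GQ) :
    (resMat ρ b g).val = LinearMap.toMatrix b b (ρ.ρ g) := rfl

theorem resMat_eq_one {k : Type} [Field k] (ρ : ResidualGaloisRep k)
    (b : Module.Basis (Fin 2) k ρ.V) (g : GQ) : resMat ρ b g = 1 ↔ ρ.ρ g = 1 := by
  rw [Units.ext_iff, resMat_coe, Units.val_one, ← LinearMap.toMatrix_one b]
  exact (LinearMap.toMatrix b b).injective.eq_iff

theorem resRep_glOf {𝒟 : ∀ ⦃A : Type⦄ [CommRing A] [IsLocalRing A] [Algebra 𝒪 A],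
    GaloisRepAdic A → Prop} (DQ : GaloisRep.DeformationRingData 𝒪 ρbar 𝒟)
    (F : FrameData 𝒪 ρbar) (b : Module.Basis (Fin 2) DQ.R DQ.ρ.V)
    (hb : IsLiftMat F (matOf DQ.ρ b))
    {π : DQ.R →+* ResidueField 𝒪} (hπ : RingHom.ker π = maximalIdeal DQ.R)
    (hπ' : ∀ o, π (algebraMap 𝒪 DQ.R o) = residue 𝒪 o) :
    resRep π (glOf DQ.ρ b) = resMat ρbar F.b := by
  ext g i j
  rw [resRep_coe, resMat_coe, Matrix.map_apply, ← F.lift_spec, ← hπ', ← sub_eq_zero, ← map_sub,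
    ← RingHom.mem_ker, hπ]
  exact hb g i j

theorem isOpen_ker_resMat {k : Type} [Field k] (ρ : ResidualGaloisRep k)
    (b : Module.Basis (Fin 2) k ρ.V) : IsOpen ((resMat ρ b).ker : Set GQ) := by
  obtain ⟨L, hL, h⟩ := ρ.factorsThroughFiniteLevel
  refine Subgroup.isOpen_mono (H₁ := L.fixingSubgroup) (fun u hu => ?_)
    (IntermediateField.fixingSubgroup_isOpen L)
  rw [MonoidHom.mem_ker, resMat_eq_one]
  exact h u fun x hx => hu ⟨x, hx⟩

theorem ker_resMat_mem_famS {k : Type} [Field k] (ρ : ResidualGaloisRep k)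
    (b : Module.Basis (Fin 2) k ρ.V) {S : Finset Nat.Primes}
    (hunr : ∀ q : Nat.Primes, q ∉ S → ρ.IsUnramifiedAt q) : (resMat ρ b).ker ∈ famS S :=
  ⟨MonoidHom.normal_ker _, isOpen_ker_resMat ρ b, fun q hq P hP σ hσ => by
    rw [MonoidHom.mem_ker, resMat_eq_one]
    exact hunr q hq P hP σ hσ⟩

theorem exists_ramified {k : Type} [Field k] (ρ : ResidualGaloisRep k)
    (b : Module.Basis (Fin 2) k ρ.V) {q : Nat.Primes} (h : ¬ ρ.IsUnramifiedAt q) :
    ∃ s ∈ Il (q : ℕ), resMat ρ b (rl q s) ≠ 1 := by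
  rw [ResidualGaloisRep.IsUnramifiedAt] at h
  push Not at h
  obtain ⟨P, hP, σ, hσ, hne⟩ := h
  obtain ⟨γ, hγ, -⟩ := exists_rl_conj hP
  have h1 : γ⁻¹ * σ * γ ∈ (padicPlace (q : ℕ)).inertiaSubgroupIn ℚ := by
    rw [PT.mem_inertia_iff] at hσ ⊢
    obtain ⟨hD, hI⟩ := hσ
    refine ⟨?_, fun x hx => ?_⟩
    · have h1 : σ • P = P := hD
      change (γ⁻¹ * σ * γ) • padicPlace (q : ℕ) = padicPlace (q : ℕ)
      rw [mul_smul, ← hγ, mul_smul, h1, hγ, inv_smul_smul]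
    · have h2 : γ x ∈ P := by
        rw [hγ]
        exact ValuationSubring.smul_mem_pointwise_smul γ x _ hx
      have h3 := hI _ h2
      rw [hγ, mem_nonunits_smul, map_sub] at h3
      have h4 : γ⁻¹ (γ x) = x := by
        rw [← AlgEquiv.mul_apply, inv_mul_cancel, AlgEquiv.one_apply]
      rw [h4] at h3
      exact h3
  obtain ⟨s, hs, u, hu, he⟩ := exists_rl_inertia (isOpen_ker_resMat ρ b) h1
  refine ⟨s, hs, fun hcon => hne ?_⟩
  rw [← resMat_eq_one ρ b]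
  have h2 : resMat ρ b (γ⁻¹ * σ * γ) = 1 := by
    rw [he, map_mul, hcon, one_mul]
    exact hu
  rw [map_mul, map_mul, map_inv] at h2
  have h3 : resMat ρ b σ = resMat ρ b γ * ((resMat ρ b γ)⁻¹ * resMat ρ b σ * resMat ρ b γ) *
      (resMat ρ b γ)⁻¹ := by group
  rw [h3, h2, mul_one, mul_inv_cancel]

theorem trace_det_of_charpoly {A : Type*} [CommRing A] {M : Matrix (Fin 2) (Fin 2) A} {α β : A}
    (h : M.charpoly = (X - C α) * (X - C β)) : M.trace = α + β ∧ M.det = α * β := by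
  rcases subsingleton_or_nontrivial A with hA | hA
  · exact ⟨Subsingleton.elim _ _, Subsingleton.elim _ _⟩
  rw [Matrix.charpoly_fin_two] at h
  have h0 := congrArg (fun f : A[X] => f.coeff 0) h
  have h1 := congrArg (fun f : A[X] => f.coeff 1) h
  have e : (X - C α) * (X - C β) = X ^ 2 - C (α + β) * X + C (α * β) := by
    rw [C_add, C_mul]; ring
  rw [e] at h0 h1
  simp at h0 h1
  exact ⟨by linear_combination -h1, h0⟩

end Res

end Fermat.Agent.RT
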