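import Fermat.Agent.RT.S56Core

set_option autoImplicit false
set_option linter.unusedSectionVars false

/-!
# The first half: strictly ordinary deformations
-/

open IsLocalRing Matrix Polynomial Module
open Fermat.Agent.Coh Fermat.Agent.GCFT Fermat.Agent.UnivDef Fermat.Agent.ESCore
  ExtCitation Fermat.Agent.OrdP

namespace Fermat.Agent.RT

/-- The field of algebraic numbers. -/
local notation "Qb" => AlgebraicClosure ℚ
/-- The absolute Galois group. -/
local notation "GQ" => (AlgebraicClosure ℚ ≃ₐ[ℚ] AlgebraicClosure ℚ)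

section Line

variable {T : Type} [CommRing T] [IsLocalRing T] [IsNoetherianRing T]
  [IsAdicComplete (maximalIdeal T) T]

/-- The strictly ordinary line in matrix form. -/
theorem exists_strict_line {l : Nat.Primes} (ρ' : GaloisRepAdic T)
    (h : ρ'.IsStrictOrdinaryAt (l : ℕ)) (hdet : ρ'.DetIsCyclotomic (l : ℕ))
    (b₀ : Basis (Fin 2) T ρ'.V) :
    ∃ v₀ : Fin 2 → T, (∃ i, v₀ i ∉ maximalIdeal T) ∧
      (∀ δ : Gl l, ∃ a : T, LinearMap.toMatrix b₀ b₀ (ρ'.ρ (rl l δ)) *ᵥ v₀ = a • v₀) ∧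
      (∀ δ ∈ IL (l : ℕ), ∃ f : Fin 2 → T,
        LinearMap.toMatrix b₀ b₀ (ρ'.ρ (rl l δ)) = 1 + vecMulVec v₀ f) ∧
      (∀ δ : Gl l, ∀ a : T, LinearMap.toMatrix b₀ b₀ (ρ'.ρ (rl l δ)) *ᵥ v₀ = a • v₀ →
        (LinearMap.toMatrix b₀ b₀ (ρ'.ρ (rl l δ))).det ^ 2 = a ^ 2) := by
  obtain ⟨L, ⟨b, rfl⟩, h1, h2, h3⟩ := h.2 (padicPlace (l : ℕ)) (padicPlace_liesOver l)
  have hnm : ∃ i, b₀.repr (b 0) i ∉ maximalIdeal T := by
    by_contra hcon
    push Not at hcon
    have h3 : b.repr (b 0) 0 ∈ maximalIdeal T := by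
      have e : b.repr (b 0) 0 = b.repr (∑ i, b₀.repr (b 0) i • b₀ i) 0 := by rw [b₀.sum_repr]
      rw [e, map_sum, Finsupp.finsetSum_apply]
      refine Ideal.sum_mem _ fun i _ => ?_
      rw [map_smul, Finsupp.smul_apply, smul_eq_mul]
      exact Ideal.mul_mem_right _ _ (hcon i)
    rw [b.repr_self, Finsupp.single_eq_same] at h3
    exact (mem_maximalIdeal _).mp h3 isUnit_one
  have hmul : ∀ (σ : GQ) (x : T), ρ'.ρ σ (b 0) = x • b 0 →
      LinearMap.toMatrix b₀ b₀ (ρ'.ρ σ) *ᵥ (fun i => b₀.repr (b 0) i) =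
        x • (fun i => b₀.repr (b 0) i) := by
    intro σ x hx
    have h4 := LinearMap.toMatrix_mulVec_repr b₀ b₀ (ρ'.ρ σ) (b 0)
    funext i
    have h5 := congrFun h4 i
    rw [hx, map_smul] at h5
    exact h5
  refine ⟨fun i => b₀.repr (b 0) i, hnm, fun δ => ?_, fun δ hδ => ?_, fun δ a ha => ?_⟩
  · have h3 := h1 _ (localGaloisToGlobal_mem_decompositionSubgroup _ δ) (b 0)
      (Submodule.mem_span_singleton_self _)
    obtain ⟨a, ha⟩ := Submodule.mem_span_singleton.mp h3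
    exact ⟨a, hmul _ a ha.symm⟩
  · have h3 := h2 _ (OrdP.rl_mem_inertia hδ)
    choose f hf using fun v => Submodule.mem_span_singleton.mp (h3 v)
    refine ⟨fun j => f (b₀ j), ?_⟩
    ext i j
    rw [LinearMap.toMatrix_apply, Matrix.add_apply, vecMulVec_apply]
    have h4 : ρ'.ρ (rl l δ) (b₀ j) = b₀ j + f (b₀ j) • b 0 := by
      rw [hf]
      abel
    rw [h4, map_add, map_smul, Finsupp.add_apply, Finsupp.smul_apply, smul_eq_mul, b₀.repr_self,
      Finsupp.single_apply, Matrix.one_apply, mul_comm]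
    congr 1
    simp only [eq_comm]
  · obtain ⟨x, z, hx, hz, hxz⟩ := h3 _ (localGaloisToGlobal_mem_decompositionSubgroup _ δ)
    have hx0 := hx _ (Submodule.mem_span_singleton_self (b 0))
    -- `a = x`
    have hax : a = x := by
      obtain ⟨i, hi⟩ := hnm
      have hu : IsUnit (b₀.repr (b 0) i) := by
        by_contra hcon
        exact hi ((mem_maximalIdeal _).mpr hcon)
      have h5 := congrFun (ha.symm.trans (hmul _ x hx0)) i
      rw [Pi.smul_apply, Pi.smul_apply, smul_eq_mul, smul_eq_mul] at h5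
      exact hu.mul_right_cancel h5
    -- the determinant
    have hd : (LinearMap.toMatrix b₀ b₀ (ρ'.ρ (rl l δ))).det = x * z := by
      rw [LinearMap.det_toMatrix, ← LinearMap.det_toMatrix b, det_fin_two]
      obtain ⟨y, hy⟩ := Submodule.mem_span_singleton.mp (hz (b 1))
      have hb1 : ρ'.ρ (rl l δ) (b 1) = y • b 0 + z • b 1 := by rw [hy, sub_add_cancel]
      simp only [LinearMap.toMatrix_apply]
      have hx0' : ρ'.ρ (rl l δ) (b 0) = x • b 0 := hx0
      have e00 : b.repr (ρ'.ρ (rl l δ) (b 0)) 0 = x := by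
        rw [hx0', map_smul, b.repr_self]; simp
      have e10 : b.repr (ρ'.ρ (rl l δ) (b 0)) 1 = 0 := by
        rw [hx0', map_smul, b.repr_self]; simp
      have e11 : b.repr (ρ'.ρ (rl l δ) (b 1)) 1 = z := by
        rw [hb1, map_add, map_smul, map_smul, b.repr_self, b.repr_self]; simp
      rw [e00, e10, e11]
      ring
    rw [hax]
    refine eq_of_forall_sub_mem (p := ((l : ℕ) : T)) hdet.1 fun n => ?_
    have hne : NeZero ((l : ℕ) ^ n) := ⟨pow_ne_zero n l.2.ne_zero⟩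
    obtain ⟨e, he⟩ := exists_exponent ((l : ℕ) ^ n) (rl l δ)
    have h6 := hxz n e he
    have h7 := hdet.2 n _ e he
    rw [← LinearMap.det_toMatrix b₀, hd] at h7
    rw [Nat.cast_pow] at h6 h7
    rw [hd]
    have h8 : (x * z) ^ 2 - x ^ 2 = (x * z) * (x * z - e) - x * (x - e * z) := by ring
    rw [h8]
    exact Ideal.sub_mem _ (Ideal.mul_mem_left _ _ h7) (Ideal.mul_mem_left _ _ h6)

end Line

section Strict

variable {𝒪 : Type} [CommRing 𝒪] [IsDomain 𝒪] [IsDiscreteValuationRing 𝒪]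
  [IsAdicComplete (maximalIdeal 𝒪) 𝒪]

theorem strict_loc [Finite (ResidueField 𝒪)] {p : ℕ} [hp : Fact p.Prime] (hp2 : p ≠ 2)
    {R : Type} [CommRing R] [IsLocalRing R] [IsNoetherianRing R]
    [IsAdicComplete (maximalIdeal R) R] [Algebra 𝒪 R] (ρ' : GaloisRepAdic R)
    (h : ρ'.IsStrictOrdinaryAt p) (hdet : ρ'.DetIsCyclotomic p)
    (b : Basis (Fin 2) R ρ'.V)
    {π : R →+* ResidueField 𝒪} (hπ : RingHom.ker π = maximalIdeal R)
    (hπ' : ∀ o, π (algebraMap 𝒪 R o) = residue 𝒪 o) {V : Type} [Fintype V] (v : V) :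
    ∃ θ : DerSp (frφ (algebraMap 𝒪 R) V) (frπ π V) →ₗ[ResidueField 𝒪]
        (Fin 4 → ResidueField 𝒪), ∀ D, θ D = 0 →
        ∀ δ : Gl (pPrime p), (frMat (glOf ρ' b) v (rl (pPrime p) δ)).map D.1 = 0 := by
  obtain ⟨v₀, h1, h2, h3, h4⟩ := exists_strict_line (l := pPrime p) ρ' h hdet b
  refine framed_strict_functionals (l := pPrime p) hp2 hπ (fun x => ?_) hdet.1
    (OrdRep.of_global (exists_cont ρ' b) (fun n σ a ha => ?_) h2 h3) h1 h4 v
  · obtain ⟨o, rfl⟩ := residue_surjective x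
    exact ⟨o, hπ' o⟩
  · rw [glOf_coe, matOf_apply, LinearMap.det_toMatrix]
    exact hdet.2 n σ a ha

end Strict

end Fermat.Agent.RT
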