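import Fermat.Agent.RT.S56Count
import Fermat.Agent.RT.Idem
import Fermat.Agent.UnivDef.NormalExists
import Fermat.Prelude.Def_GaloisRep_DeformationRingData

set_option autoImplicit false
set_option linter.unusedSectionVars false

/-!
# Universality and the tangent space
-/

open IsLocalRing Matrix
open Fermat.Agent.Coh Fermat.Agent.GCFT Fermat.Agent.UnivDef

namespace Fermat.Agent.RT

/-- The absolute Galois group. -/
local notation "GQ" => (AlgebraicClosure ℚ ≃ₐ[ℚ] AlgebraicClosure ℚ)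

section Dual

variable {k : Type} [Field k]

theorem mem_maximalIdeal_dual {x : DualNumber k} : x ∈ maximalIdeal (DualNumber k) ↔ x.fst = 0 := by
  rw [DualNumber.maximalIdeal_eq_span_singleton_eps, Ideal.mem_span_singleton,
    DualNumber.fst_eq_zero_iff_eps_dvd]

instance isAdicComplete_dual : IsAdicComplete (maximalIdeal (DualNumber k)) (DualNumber k) := by
  refine isAdicComplete_of_pow_le (I := ⊥) bot_le (n := 2) ?_
  rw [pow_two, Ideal.mul_le]
  intro a ha b hb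
  rw [mem_maximalIdeal_dual] at ha hb
  rw [Ideal.mem_bot]
  apply TrivSqZeroExt.ext
  · rw [TrivSqZeroExt.fst_mul, ha, zero_mul, TrivSqZeroExt.fst_zero]
  · rw [TrivSqZeroExt.snd_mul, ha, hb]
    simp

theorem map_inl_mul_inl (A B : Matrix (Fin 2) (Fin 2) k) :
    A.map (TrivSqZeroExt.inl : k → DualNumber k) * B.map TrivSqZeroExt.inl =
      (A * B).map TrivSqZeroExt.inl := by
  ext i j
  · simp [Matrix.mul_apply, Fin.sum_univ_two]
  · simp [Matrix.mul_apply, Fin.sum_univ_two]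

theorem map_inl_mul_inr (A B : Matrix (Fin 2) (Fin 2) k) :
    A.map (TrivSqZeroExt.inl : k → DualNumber k) * B.map TrivSqZeroExt.inr =
      (A * B).map TrivSqZeroExt.inr := by
  ext i j
  · simp [Matrix.mul_apply, Fin.sum_univ_two]
  · change _ = TrivSqZeroExt.snd (TrivSqZeroExt.inr ((A * B) i j))
    rw [Matrix.mul_apply, Matrix.mul_apply, Fin.sum_univ_two, Fin.sum_univ_two]
    simp
    ring

theorem map_inr_mul_inl (A B : Matrix (Fin 2) (Fin 2) k) :
    A.map (TrivSqZeroExt.inr : k → DualNumber k) * B.map TrivSqZeroExt.inl =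
      (A * B).map TrivSqZeroExt.inr := by
  ext i j
  · simp [Matrix.mul_apply, Fin.sum_univ_two]
  · change _ = TrivSqZeroExt.snd (TrivSqZeroExt.inr ((A * B) i j))
    rw [Matrix.mul_apply, Matrix.mul_apply, Fin.sum_univ_two, Fin.sum_univ_two]
    simp [mul_comm]

theorem map_inr_mul_inr (A B : Matrix (Fin 2) (Fin 2) k) :
    A.map (TrivSqZeroExt.inr : k → DualNumber k) * B.map TrivSqZeroExt.inr = 0 := by
  ext i j
  · simp [Matrix.mul_apply]
  · simp [Matrix.mul_apply]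

theorem dual_intertwine (R Y : Matrix (Fin 2) (Fin 2) k) :
    (R.map (TrivSqZeroExt.inl : k → DualNumber k) + (R * Y - Y * R).map TrivSqZeroExt.inr) *
      (1 - Y.map TrivSqZeroExt.inr) = (1 - Y.map TrivSqZeroExt.inr) * R.map TrivSqZeroExt.inl := by
  have h : (R * Y - Y * R).map (TrivSqZeroExt.inr : k → DualNumber k) =
      (R * Y).map TrivSqZeroExt.inr - (Y * R).map TrivSqZeroExt.inr := by
    ext i j
    · simp
    · simp
  rw [h, mul_sub, mul_one, add_mul, sub_mul, map_inl_mul_inr, map_inr_mul_inr, map_inr_mul_inr,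
    sub_mul, one_mul, map_inr_mul_inl]
  abel

theorem dual_inv (Y : Matrix (Fin 2) (Fin 2) k) :
    ((1 : Matrix (Fin 2) (Fin 2) (DualNumber k)) - Y.map TrivSqZeroExt.inr) *
      (1 + Y.map TrivSqZeroExt.inr) = 1 := by
  rw [sub_mul, mul_add, mul_add, map_inr_mul_inr, one_mul, mul_one, one_mul]
  abel

theorem dual_inv' (Y : Matrix (Fin 2) (Fin 2) k) :
    ((1 : Matrix (Fin 2) (Fin 2) (DualNumber k)) + Y.map TrivSqZeroExt.inr) *
      (1 - Y.map TrivSqZeroExt.inr) = 1 := by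
  rw [add_mul, mul_sub, mul_sub, map_inr_mul_inr, one_mul, mul_one, one_mul]
  abel

end Dual

section Univ

variable {𝒪 : Type} [CommRing 𝒪] [IsDomain 𝒪] [IsDiscreteValuationRing 𝒪]
  [IsAdicComplete (maximalIdeal 𝒪) 𝒪]


theorem algebraMap_dual (o : 𝒪) : algebraMap 𝒪 (DualNumber (ResidueField 𝒪)) o =
    TrivSqZeroExt.inl (residue 𝒪 o) := rfl

instance isLocalHom_dual : IsLocalHom (algebraMap 𝒪 (DualNumber (ResidueField 𝒪))) := by
  refine ⟨fun o ho => ?_⟩
  rw [algebraMap_dual] at ho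
  have h1 : IsUnit (residue 𝒪 o) := by
    have := ho.map (TrivSqZeroExt.fstHom 𝒪 (ResidueField 𝒪) (ResidueField 𝒪))
    simpa using this
  exact (isUnit_map_iff (residue 𝒪) o).mp h1

theorem residue_surjective_dual : Function.Surjective
    (residue (DualNumber (ResidueField 𝒪)) ∘ algebraMap 𝒪 (DualNumber (ResidueField 𝒪))) := by
  intro x
  obtain ⟨x, rfl⟩ := residue_surjective x
  obtain ⟨o, ho⟩ := residue_surjective x.fst
  refine ⟨o, ?_⟩
  rw [Function.comp_apply, algebraMap_dual, ← sub_eq_zero, ← map_sub, residue_eq_zero_iff,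
    mem_maximalIdeal_dual, TrivSqZeroExt.fst_sub, TrivSqZeroExt.fst_inl, ho, sub_self]

theorem isEquiv_of_intertwine {A : Type} [CommRing A] [IsLocalRing A] {ρ₁ ρ₂ : GaloisRepAdic A}
    (b₁ : Module.Basis (Fin 2) A ρ₁.V) (b₂ : Module.Basis (Fin 2) A ρ₂.V)
    {P Q : Matrix (Fin 2) (Fin 2) A} (hPQ : P * Q = 1) (hQP : Q * P = 1)
    (h : ∀ σ, LinearMap.toMatrix b₂ b₂ (ρ₂.ρ σ) * P = P * LinearMap.toMatrix b₁ b₁ (ρ₁.ρ σ)) :
    ρ₁.IsEquiv ρ₂ := by
  let e : ρ₁.V ≃ₗ[A] ρ₂.V := LinearEquiv.ofLinearMap (Matrix.toLin b₁ b₂ P) (Matrix.toLin b₂ b₁ Q)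
    (by rw [← Matrix.toLin_mul, hPQ, Matrix.toLin_one])
    (by rw [← Matrix.toLin_mul, hQP, Matrix.toLin_one])
  refine ⟨⟨e, fun σ x => ?_⟩⟩
  have h1 : (Matrix.toLin b₁ b₂ P) ∘ₗ (ρ₁.ρ σ) = (ρ₂.ρ σ) ∘ₗ (Matrix.toLin b₁ b₂ P) := by
    apply (LinearMap.toMatrix b₁ b₂).injective
    rw [LinearMap.toMatrix_comp b₁ b₁ b₂, LinearMap.toMatrix_comp b₁ b₂ b₂,
      LinearMap.toMatrix_toLin, h]
  exact LinearMap.congr_fun h1 x

variable {ρbar : ResidualGaloisRep (ResidueField 𝒪)}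
  {𝒟 : ∀ ⦃A : Type⦄ [CommRing A] [IsLocalRing A] [Algebra 𝒪 A], GaloisRepAdic A → Prop}

/-- **Uniqueness of classifying maps**, in matrix form. -/
theorem algHom_eq_of_conj (DQ : GaloisRep.DeformationRingData 𝒪 ρbar 𝒟) (F : FrameData 𝒪 ρbar)
    {A : Type} [CommRing A] [IsLocalRing A] [IsNoetherianRing A]
    [IsAdicComplete (maximalIdeal A) A] [Algebra 𝒪 A] [IsLocalHom (algebraMap 𝒪 A)]
    (hA : Function.Surjective (residue A ∘ algebraMap 𝒪 A)) (ψ₁ ψ₂ : DQ.R →ₐ[𝒪] A)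
    (h₁ : IsLocalHom (ψ₁ : DQ.R →+* A)) (h₂ : IsLocalHom (ψ₂ : DQ.R →+* A))
    (h𝒟 : 𝒟 (DQ.ρ.baseChangeAlong (ψ₁ : DQ.R →+* A) h₁))
    (b : Module.Basis (Fin 2) DQ.R DQ.ρ.V) (hb : IsLiftMat F (matOf DQ.ρ b))
    {P Q : Matrix (Fin 2) (Fin 2) A} (hPQ : P * Q = 1) (hQP : Q * P = 1)
    (hP : ∀ g, (matOf DQ.ρ b g).map ψ₁ * P = P * (matOf DQ.ρ b g).map ψ₂) : ψ₁ = ψ₂ := by
  have hres : (DQ.ρ.baseChangeAlong (ψ₁ : DQ.R →+* A) h₁).residual.IsEquiv
      (ρbar.baseChangeAlong (ResidueField.map (algebraMap 𝒪 A))) := by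
    refine residual_isEquiv_of_toMatrix_eq _ _
      (basisResidual _ (basisBaseChangeAlong (ψ₁ : DQ.R →+* A) h₁ DQ.ρ b))
      (basisBaseChangeAlongRes (ResidueField.map (algebraMap 𝒪 A)) ρbar F.b) fun σ => ?_
    rw [toMatrix_residual, toMatrix_baseChangeAlong, toMatrix_baseChangeAlongRes]
    ext i j
    rw [Matrix.map_apply, Matrix.map_apply, Matrix.map_apply, ← F.lift_spec,
      ResidueField.map_residue, ← sub_eq_zero, ← map_sub, residue_eq_zero_iff]
    have h1 := map_mem_maximalIdeal_pow (ψ₁ : DQ.R →+* A) h₁ (n := 1)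
      (by rw [pow_one]; exact hb σ i j)
    rw [pow_one, map_sub] at h1
    have h2 := (ψ₁.commutes (F.lift σ i j)).symm
    convert h1 using 2
    · rfl
    · exact h2
  obtain ⟨φ, -, huniq⟩ := DQ.universal A hA (DQ.ρ.baseChangeAlong (ψ₁ : DQ.R →+* A) h₁) h𝒟 hres
  have e₁ := huniq ψ₁ ⟨h₁, ⟨GaloisRepAdic.Equiv.refl _⟩⟩
  have e₂ := huniq ψ₂ ⟨h₂, isEquiv_of_intertwine
    (basisBaseChangeAlong (ψ₂ : DQ.R →+* A) h₂ DQ.ρ b)
    (basisBaseChangeAlong (ψ₁ : DQ.R →+* A) h₁ DQ.ρ b) hPQ hQP fun σ => by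
      rw [toMatrix_baseChangeAlong, toMatrix_baseChangeAlong]
      exact hP σ⟩
  rw [e₁, e₂]

/-- the representation with values in `GL₂` -/
noncomputable def glOf {A : Type} [CommRing A] [IsLocalRing A] (ρ : GaloisRepAdic A)
    (b : Module.Basis (Fin 2) A ρ.V) : GQ →* GL (Fin 2) A := (matOf ρ b).toHomUnits

theorem glOf_coe {A : Type} [CommRing A] [IsLocalRing A] (ρ : GaloisRepAdic A)
    (b : Module.Basis (Fin 2) A ρ.V) (g : GQ) : (glOf ρ b g).val = matOf ρ b g := rfl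

theorem exists_pi (DQ : GaloisRep.DeformationRingData 𝒪 ρbar 𝒟) :
    ∃ π : DQ.R →+* ResidueField 𝒪, RingHom.ker π = maximalIdeal DQ.R ∧
      ∀ o, π (algebraMap 𝒪 DQ.R o) = residue 𝒪 o := by
  let f : ResidueField 𝒪 →+* ResidueField DQ.R := ResidueField.map (algebraMap 𝒪 DQ.R)
  have hf : Function.Bijective f := by
    refine ⟨f.injective, fun x => ?_⟩
    obtain ⟨o, ho⟩ := DQ.residue_surjective x
    exact ⟨residue 𝒪 o, by rw [ResidueField.map_residue]; exact ho⟩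
  let e := RingEquiv.ofBijective f hf
  refine ⟨(e.symm : ResidueField DQ.R →+* ResidueField 𝒪).comp (residue DQ.R), ?_, fun o => ?_⟩
  · ext x
    rw [RingHom.mem_ker, RingHom.comp_apply, RingHom.coe_coe, map_eq_zero_iff _ e.symm.injective,
      residue_eq_zero_iff]
  · rw [RingHom.comp_apply, RingHom.coe_coe, RingEquiv.symm_apply_eq]
    exact (ResidueField.map_residue _ _).symm

/-- the homomorphism of algebras attached to a derivation -/
noncomputable def dualAlg (DQ : GaloisRep.DeformationRingData 𝒪 ρbar 𝒟)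
    {π : DQ.R →+* ResidueField 𝒪} (hπ' : ∀ o, π (algebraMap 𝒪 DQ.R o) = residue 𝒪 o)
    (D : DerSp (algebraMap 𝒪 DQ.R) π) : DQ.R →ₐ[𝒪] DualNumber (ResidueField 𝒪) :=
  { dualOf D with
    commutes' := fun o => by
      apply TrivSqZeroExt.ext
      · change (dualOf D _).fst = _
        rw [dualOf_fst, hπ', algebraMap_dual, TrivSqZeroExt.fst_inl]
      · change (dualOf D _).snd = _
        rw [dualOf_snd, der_cst D.2, algebraMap_dual, TrivSqZeroExt.snd_inl] }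

theorem dualAlg_fst (DQ : GaloisRep.DeformationRingData 𝒪 ρbar 𝒟)
    {π : DQ.R →+* ResidueField 𝒪} (hπ' : ∀ o, π (algebraMap 𝒪 DQ.R o) = residue 𝒪 o)
    (D : DerSp (algebraMap 𝒪 DQ.R) π) (x : DQ.R) : (dualAlg DQ hπ' D x).fst = π x :=
  dualOf_fst D x

theorem dualAlg_snd (DQ : GaloisRep.DeformationRingData 𝒪 ρbar 𝒟)
    {π : DQ.R →+* ResidueField 𝒪} (hπ' : ∀ o, π (algebraMap 𝒪 DQ.R o) = residue 𝒪 o)
    (D : DerSp (algebraMap 𝒪 DQ.R) π) (x : DQ.R) : (dualAlg DQ hπ' D x).snd = D.1 x :=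
  dualOf_snd D x

/-- **The tangent space embeds into cohomology.** -/
theorem der_eq_zero_of_coboundary (DQ : GaloisRep.DeformationRingData 𝒪 ρbar 𝒟)
    (F : FrameData 𝒪 ρbar) (b : Module.Basis (Fin 2) DQ.R DQ.ρ.V)
    (hb : IsLiftMat F (matOf DQ.ρ b))
    {π : DQ.R →+* ResidueField 𝒪} (hπ : RingHom.ker π = maximalIdeal DQ.R)
    (hπ' : ∀ o, π (algebraMap 𝒪 DQ.R o) = residue 𝒪 o)
    (hstab : ∀ (ψ : DQ.R →ₐ[𝒪] DualNumber (ResidueField 𝒪))
      (hψ : IsLocalHom (ψ : DQ.R →+* DualNumber (ResidueField 𝒪))), Function.Surjective ψ →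
      𝒟 (DQ.ρ.baseChangeAlong (ψ : DQ.R →+* DualNumber (ResidueField 𝒪)) hψ))
    (hdet : ∀ g, ∃ o, (glOf DQ.ρ b g).val.det = algebraMap 𝒪 DQ.R o)
    (D : DerSp (algebraMap 𝒪 DQ.R) π)
    (hD : derMap hdet D ∈ B1 (ad0 (resRep π (glOf DQ.ρ b)))) : D = 0 := by
  by_contra hne
  have hloc : ∀ E : DerSp (algebraMap 𝒪 DQ.R) π,
      IsLocalHom (dualAlg DQ hπ' E : DQ.R →+* DualNumber (ResidueField 𝒪)) := by
    intro E
    refine ⟨fun a ha => ?_⟩
    by_contra hna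
    have h1 : π a = 0 := by
      rw [← RingHom.mem_ker, hπ]
      exact (mem_maximalIdeal _).mpr hna
    have h2 : (dualAlg DQ hπ' E a).fst = 0 := by rw [dualAlg_fst, h1]
    have h3 := mem_maximalIdeal_dual.mpr h2
    exact (mem_maximalIdeal _).mp h3 ha
  -- surjectivity
  have hsurj : Function.Surjective (dualAlg DQ hπ' D) := by
    obtain ⟨a, ha⟩ : ∃ a, D.1 a ≠ 0 := by
      by_contra hcon
      push Not at hcon
      exact hne (Subtype.ext (funext hcon))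
    obtain ⟨o, ho⟩ := residue_surjective (R := 𝒪) (π a)
    set m := a - algebraMap 𝒪 DQ.R o with hm
    have hπm : π m = 0 := by rw [hm, map_sub, hπ', ho, sub_self]
    have hDm : D.1 m ≠ 0 := by rwa [hm, der_sub D.2, der_cst D.2, sub_zero]
    intro x
    obtain ⟨c, hc⟩ := residue_surjective (R := 𝒪) (x.snd / D.1 m)
    obtain ⟨o', ho'⟩ := residue_surjective (R := 𝒪) x.fst
    refine ⟨algebraMap 𝒪 DQ.R o' + algebraMap 𝒪 DQ.R c * m, ?_⟩
    apply TrivSqZeroExt.ext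
    · rw [dualAlg_fst, map_add, map_mul, hπm, mul_zero, add_zero, hπ', ho']
    · rw [dualAlg_snd, der_add D.2, der_cst D.2, der_mul D.2, der_cst D.2, hπ', hc, mul_zero,
        add_zero, zero_add, div_mul_cancel₀ _ hDm]
  apply hne
  obtain ⟨Y, hY⟩ := mem_B1.mp hD
  have hmat : ∀ (E : DerSp (algebraMap 𝒪 DQ.R) π) g,
      (matOf DQ.ρ b g).map (dualAlg DQ hπ' E) =
        (resRep π (glOf DQ.ρ b) g).val.map TrivSqZeroExt.inl +
          ((glOf DQ.ρ b g).val.map E.1).map TrivSqZeroExt.inr := by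
    intro E g
    ext i j
    · rw [Matrix.map_apply, dualAlg_fst]
      simp
      rfl
    · rw [Matrix.map_apply, dualAlg_snd]
      simp
      rfl
  have key : dualAlg DQ hπ' D = dualAlg DQ hπ' 0 := by
    refine algHom_eq_of_conj DQ F residue_surjective_dual _ _ (hloc D) (hloc 0)
      (hstab _ (hloc D) hsurj) b hb (dual_inv Y.1) (dual_inv' Y.1) fun g => ?_
    have h2 : (glOf DQ.ρ b g).val.map D.1 = (resRep π (glOf DQ.ρ b) g).val * Y.1 -
        Y.1 * (resRep π (glOf DQ.ρ b) g).val := by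
      rw [map_der_eq (hdet := hdet) D g, hY g, Submodule.coe_sub, ad0_coe, sub_mul, mul_assoc _ _
        (resRep π (glOf DQ.ρ b) g).val, inv_mul_coe, mul_one]
    have h4 : (glOf DQ.ρ b g).val.map (0 : DerSp (algebraMap 𝒪 DQ.R) π).1 = 0 := by
      ext i j
      rfl
    have h5 : (0 : Matrix (Fin 2) (Fin 2) (ResidueField 𝒪)).map
        (TrivSqZeroExt.inr : _ → DualNumber (ResidueField 𝒪)) = 0 := by
      ext i j <;> simp
    rw [hmat, hmat, h2, h4, h5, add_zero]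
    exact dual_intertwine _ _
  apply Subtype.ext
  funext x
  have h3 := congrArg TrivSqZeroExt.snd (DFunLike.congr_fun key x)
  rw [dualAlg_snd, dualAlg_snd] at h3
  exact h3

end Univ

end Fermat.Agent.RT
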