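import Fermat.Agent.ESCore.EigenChar
import Fermat.Agent.ES.HeckeFinite
import Fermat.Agent.RT.DvrExt
import Fermat.Agent.EC.TatePs

set_option autoImplicit false
set_option maxHeartbeats 400000
set_option linter.style.haveILetI false
set_option linter.unusedSectionVars false

/-!
# Embedding the Hecke ring of an eigenform in a complete discrete valuation ring
-/

noncomputable section

open IsLocalRing CongruenceSubgroup Matrix.SpecialLinearGroup ModularFormClass
open Fermat.Agent.ESCore

namespace Fermat.Agent.RT.S58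

/-- A finite domain over `ℤ` embeds in a finite extension of `ℤ_p`. -/
theorem exists_dvr_of_finite (R : Type) [CommRing R] [IsDomain R] [CharZero R] [Module.Finite ℤ R]
    (p : ℕ) [Fact p.Prime] :
    ∃ (O' : Type) (_ : CommRing O') (_ : IsDomain O') (_ : IsDiscreteValuationRing O')
      (_ : IsAdicComplete (maximalIdeal O') O') (_ : Finite (ResidueField O')) (_ : CharZero O')
      (_ : Algebra ℤ_[p] O') (_ : Module.Finite ℤ_[p] O') (_ : IsLocalHom (algebraMap ℤ_[p] O')),
      Function.Injective (algebraMap ℤ_[p] O') ∧ Nonempty (R →+* O') := by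
  let L : Type := AlgebraicClosure ℚ_[p]
  haveI : CharZero L := charZero_of_injective_algebraMap (algebraMap ℚ_[p] L).injective
  haveI : Module.IsTorsionFree ℤ L := inferInstance
  haveI : Module.IsTorsionFree ℤ R := inferInstance
  haveI : Algebra.IsIntegral ℤ R := Algebra.IsIntegral.of_finite ℤ R
  haveI : Algebra.IsAlgebraic ℤ R := inferInstance
  let j : R →ₐ[ℤ] L := IsAlgClosed.lift
  letI : Algebra ℤ_[p] L := ((algebraMap ℚ_[p] L).comp (algebraMap ℤ_[p] ℚ_[p])).toAlgebra
  let m : TensorProduct ℤ ℤ_[p] R →ₐ[ℤ_[p]] L :=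
    Algebra.TensorProduct.lift (Algebra.ofId ℤ_[p] L) j (fun _ _ => mul_comm _ _)
  let B : Subalgebra ℤ_[p] L := m.range
  haveI : Module.Finite ℤ_[p] (TensorProduct ℤ ℤ_[p] R) := inferInstance
  haveI hBf : Module.Finite ℤ_[p] B :=
    Module.Finite.of_surjective m.rangeRestrict.toLinearMap m.rangeRestrict_surjective
  have hinj : Function.Injective (algebraMap ℤ_[p] B) := by
    intro x y hxy
    have h1 : algebraMap ℤ_[p] L x = algebraMap ℤ_[p] L y := congrArg Subtype.val hxy
    exact (IsFractionRing.injective ℤ_[p] ℚ_[p]) ((algebraMap ℚ_[p] L).injective h1)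
  obtain ⟨O', _, _, _, _, _, _, _, _, _, hinj', f, -⟩ := exists_dvr_ext (𝒪 := ℤ_[p]) B hinj
  refine ⟨O', inferInstance, inferInstance, inferInstance, inferInstance, inferInstance,
    inferInstance, inferInstance, inferInstance, inferInstance, hinj', ⟨?_⟩⟩
  exact (f : B →+* O').comp (RingHom.codRestrict (j : R →+* L) B.toSubring (fun x =>
    ⟨1 ⊗ₜ[ℤ] x, by
      change m (1 ⊗ₜ[ℤ] x) = j x
      rw [Algebra.TensorProduct.lift_tmul, map_one, one_mul]⟩))

end Fermat.Agent.RT.S58
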