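import Fermat.Agent.RT.S58A
import Fermat.Agent.ESCore.S35Final
import Fermat.Agent.KL.Final
import Fermat.Agent.GaloisBasics.FrobeniusExists
import Fermat.Agent.RT.PointLoc3

set_option autoImplicit false
set_option maxHeartbeats 400000
set_option linter.style.haveILetI false
set_option linter.unusedSectionVars false

/-!
# Comparison of the Galois representations of a newform and of an elliptic curve
-/

noncomputable section

open IsLocalRing CongruenceSubgroup Matrix.SpecialLinearGroup ModularFormClass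
open Fermat.Agent.ESCore Fermat.Agent.EC.Tate Fermat.Agent.UnivDef

namespace Fermat.Agent.RT.S58

open Polynomial in
theorem trace_of_charpoly {R : Type} [CommRing R] [IsLocalRing R] (ρ : GaloisRepAdic R)
    (β : Module.Basis (Fin 2) R ρ.V) {σ : GQ} {a d : R}
    (h : LinearMap.charpoly (ρ.ρ σ) = X ^ 2 - C a * X + C d) : (matOf ρ β σ).trace = a := by
  rw [← LinearMap.charpoly_toMatrix (ρ.ρ σ) β] at h
  change (matOf ρ β σ).charpoly = _ at h
  rw [Matrix.charpoly_fin_two] at h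
  have h4 := congrArg (fun P : Polynomial R => P.coeff 1) h
  simp only [Polynomial.coeff_add, Polynomial.coeff_sub, Polynomial.coeff_X_pow,
    Polynomial.coeff_C_mul, Polynomial.coeff_X_one, Polynomial.coeff_C_succ, mul_one,
    add_zero] at h4
  simpa using h4

theorem isHom_injective {R O : Type} [CommRing R] [IsDomain R] [CharZero R] [Module.Finite ℤ R]
    [CommRing O] [IsDomain O] [CharZero O] (f : R →+* O) : Function.Injective f := by
  haveI : Algebra.IsIntegral ℤ R := Algebra.IsIntegral.of_finite ℤ R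
  rw [injective_iff_map_eq_zero]
  intro x hx
  have h1 : RingHom.ker f = ⊥ := by
    refine Ideal.eq_bot_of_comap_eq_bot (R := ℤ) ?_
    rw [eq_bot_iff]
    intro n hn
    rw [Ideal.mem_comap, RingHom.mem_ker, eq_intCast, map_intCast] at hn
    rw [Ideal.mem_bot]
    exact_mod_cast hn
  have h2 : x ∈ RingHom.ker f := hx
  rw [h1] at h2
  exact h2

section

variable {W : WeierstrassCurve ℤ} {M N : ℕ} [NeZero M] {g : CuspForm (Gamma0 M) 2}

/-- the values of the embedding at the primes not dividing `N` -/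
theorem iota_T (hg : g.IsNormalizedEigenform) {S : Finset ℕ}
    {O : Type} [CommRing O] (iota : (eigenHomC hg (↑S : Set ℕ)).range →+* O)
    {l : ℕ} (hl : l.Prime) (hlM : ¬ l ∣ M) (hlS : l ∉ (↑S : Set ℕ)) {a : ℤ}
    (ha : qCoeff g l = (a : ℂ)) :
    iota ((eigenHomC hg (↑S : Set ℕ)).rangeRestrict (CuspForm.heckeAlgebra.T hl hlM hlS)) = a := by
  have h1 : (eigenHomC hg (↑S : Set ℕ)).rangeRestrict (CuspForm.heckeAlgebra.T hl hlM hlS) =
      ((a : ℤ) : (eigenHomC hg (↑S : Set ℕ)).range) := by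
    apply Subtype.ext
    rw [RingHom.coe_rangeRestrict]
    have h2 : eigenHomC hg (↑S : Set ℕ) (CuspForm.heckeAlgebra.T hl hlM hlS) = qCoeff g l :=
      eigenHom_T hg hl hlM hlS
    rw [h2, ha]
    push_cast
    rfl
  rw [h1, map_intCast]

/-- **Comparison** of the `p`-adic representations. -/
theorem exists_compare (hΔ : W.Δ ≠ 0) (hg : g.IsNewform) (hMN : M ∣ N) (hN : N ≠ 0)
    (hag : ∀ l : ℕ, l.Prime → ¬ l ∣ N → W.IsGoodPrimeFor l ∧ qCoeff g l = (W.apOfModel l : ℂ))
    {q : ℕ} (hq : q.Prime) (hgood : W.IsGoodPrimeFor q) :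
    (¬ q ∣ M → qCoeff g q = (W.apOfModel q : ℂ)) ∧
    (q ∣ M → ¬ q ^ 2 ∣ M → W.apOfModel q = q + 1 ∨ W.apOfModel q = -(q + 1)) := by
  obtain ⟨p, hpq, hp⟩ : ∃ p : ℕ, p ≠ q ∧ p.Prime := by
    by_cases h2 : q = 2
    · exact ⟨3, by omega, Nat.prime_three⟩
    · exact ⟨2, fun h => h2 h.symm, Nat.prime_two⟩
  haveI : Fact p.Prime := ⟨hp⟩
  haveI : Fact q.Prime := ⟨hq⟩
  have hM0 : M ≠ 0 := NeZero.ne M
  let S : Finset ℕ := insert p M.primeFactors
  have hpS : p ∈ S := Finset.mem_insert_self _ _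
  have hMS : ∀ l : ℕ, l.Prime → l ∣ M → l ∈ S := fun l hl hlM =>
    Finset.mem_insert_of_mem (Nat.mem_primeFactors.mpr ⟨hl, hlM, hM0⟩)
  let R : Subring ℂ := (eigenHomC hg.1 (↑S : Set ℕ)).range
  haveI hfin : Module.Finite ℤ (CuspForm.heckeAlgebra M 2 (↑S : Set ℕ)) :=
    Fermat.Agent.ES.moduleFinite_heckeAlgebra 2 (↑S : Set ℕ)
  haveI hRf : Module.Finite ℤ R := by
    refine Module.Finite.of_surjective
      ((eigenHomC hg.1 (↑S : Set ℕ)).rangeRestrict.toIntAlgHom).toLinearMap ?_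
    exact (eigenHomC hg.1 (↑S : Set ℕ)).rangeRestrict_surjective
  obtain ⟨O', _, _, _, _, _, _, _, _, _, hinj, ⟨iota⟩⟩ := exists_dvr_of_finite R p
  have hpO : (p : O') ∈ maximalIdeal O' := by
    rw [← map_natCast (algebraMap ℤ_[p] O')]
    exact map_nonunit (algebraMap ℤ_[p] O') _ (p_mem p)
  obtain ⟨ρ, hρ1, hρ2⟩ := exists_rep_newform hg hp hpS hMS
    (fun l hl hlN hlp B hB n => Fermat.Agent.KL.klProp (pow_pos hp.pos n) hl hlN
      (fun h => hlp ((Nat.prime_dvd_prime_iff_eq hl hp).mp (hl.dvd_of_dvd_pow h))) hB)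
    hpO (eigenHomC hg.1 (↑S : Set ℕ)) (fun l hl hlM hlS => eigenHom_T hg.1 hl hlM hlS) iota
  obtain ⟨β⟩ := GaloisRepAdic.exists_basis ρ
  obtain ⟨B, -⟩ := exists_tb (p := p) hΔ (torsBasis p W hΔ)
  obtain ⟨χ, hχ⟩ := exists_isCyc (𝒪 := ℤ_[p]) hp (p_mem p)
  have hps := (tateTr_cycPs B (𝒪 := ℤ_[p]) hΔ (p_mem p) hχ).map (Algebra.ofId ℤ_[p] O')
  have htt : ∀ σ, (Algebra.ofId ℤ_[p] O') (tateTr B ℤ_[p] σ) = tateTr B O' σ := fun σ => rfl
  have h20 : ∀ y : O', 2 * y = 0 → y = 0 := fun y hy =>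
    (mul_eq_zero.mp hy).resolve_left two_ne_zero
  have htr : ∀ σ, (matOf ρ β σ).trace = tateTr B O' σ := fun σ =>
    (hps.trace_det hp hpO (p_mem p) hχ h20 ρ (insert p N.primeFactors) (by
      intro l hl hlS A hA σ hσ
      rw [Finset.mem_insert, not_or] at hlS
      have hlN : ¬ l ∣ N := fun h => hlS.2 (Nat.mem_primeFactors.mpr ⟨hl, h, hN⟩)
      have hlM : ¬ l ∣ M := fun h => hlN (h.trans hMN)
      have hlS' : l ∉ (↑S : Set ℕ) := by
        intro h
        rcases Finset.mem_insert.mp h with h | h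
        · exact hlS.1 h
        · exact hlM (Nat.dvd_of_mem_primeFactors h)
      obtain ⟨hgl, hal⟩ := hag l hl hlN
      rw [hρ1 l hl hlM hlS' A hA σ hσ, RingHom.comp_apply, iota_T hg.1 iota hl hlM hlS' hal]
      rw [htt, tateTr_frob B hl hlS.1 hgl hA hσ]) β σ).1
  obtain ⟨A, hA⟩ := Fermat.Agent.GaloisBasics.exists_liesOverPrime hq
  obtain ⟨σ, hσ⟩ := Fermat.Agent.GaloisBasics.exists_isFrobeniusAt hq A hA
  have hWq : (matOf ρ β σ).trace = (W.apOfModel q : O') := by
    rw [htr, tateTr_frob B hq (Ne.symm hpq) hgood hA hσ]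
  refine ⟨fun hqM => ?_, fun hqM hqM2 => ?_⟩
  · have hqS : q ∉ (↑S : Set ℕ) := by
      intro h
      rcases Finset.mem_insert.mp h with h | h
      · exact hpq h.symm
      · exact hqM (Nat.dvd_of_mem_primeFactors h)
    have h1 := trace_of_charpoly ρ β (hρ1 q hq hqM hqS A hA σ hσ)
    rw [hWq, RingHom.comp_apply, ← map_intCast iota] at h1
    have h2 := isHom_injective iota h1
    have h3 := congrArg Subtype.val h2
    rw [RingHom.coe_rangeRestrict] at h3
    have h4 : eigenHomC hg.1 (↑S : Set ℕ) (CuspForm.heckeAlgebra.T hq hqM hqS) = qCoeff g q :=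
      eigenHom_T hg.1 hq hqM hqS
    rw [h4] at h3
    rw [← h3]
    push_cast
    rfl
  · rcases hρ2 q hq (Ne.symm hpq) hqM hqM2 A hA σ hσ with h | h
    · left
      have h1 := trace_of_charpoly ρ β h
      rw [hWq] at h1
      exact_mod_cast h1
    · right
      have h1 := trace_of_charpoly ρ β (a := -((q : O') + 1)) (d := (q : O'))
        (by rw [h, map_neg, neg_mul, sub_neg_eq_add])
      rw [hWq] at h1
      exact_mod_cast h1

end

end Fermat.Agent.RT.S58
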