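import Fermat.Agent.EFrob.Galois

set_option autoImplicit false

/-!
# A weak Hasse bound
-/

noncomputable section

namespace Fermat.Agent.RT.S58

open WeierstrassCurve WeierstrassCurve.Affine
open Fermat.Agent.EFrob

/-- coordinates of a point -/
def optPair {F : Type*} [CommRing F] {W : WeierstrassCurve.Affine F} : W.Point → Option (F × F)
  | .zero => none
  | .some x y _ => Option.some (x, y)

theorem optPair_injective {F : Type*} [CommRing F] {W : WeierstrassCurve.Affine F} :
    Function.Injective (optPair (W := W)) := by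
  rintro (_ | ⟨x₁, y₁, h₁⟩) (_ | ⟨x₂, y₂, h₂⟩) h <;>
    simp only [optPair, Option.some.injEq, Prod.mk.injEq, reduceCtorEq] at h
  · rfl
  · obtain ⟨rfl, rfl⟩ := h; rfl

theorem card_le {F : Type*} [CommRing F] [Finite F] (W : WeierstrassCurve F) :
    W.card ≤ Nat.card F ^ 2 + 1 := by
  have h1 : W.card ≤ Nat.card (Option (F × F)) :=
    Nat.card_le_card_of_injective _ (optPair_injective (W := W.toAffine))
  rw [Finite.card_option, Nat.card_prod] at h1
  rw [pow_two]
  exact h1

theorem one_le_card {F : Type*} [CommRing F] [Finite F] (W : WeierstrassCurve F) :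
    1 ≤ W.card := by
  haveI : Nonempty W.toAffine.Point := ⟨.zero⟩
  exact Nat.card_pos

variable {W : WeierstrassCurve ℤ} {q : ℕ}

/-- **Weak Hasse bound.** -/
theorem ap_ne (hq : q.Prime) (hgood : W.IsGoodPrimeFor q) :
    W.apOfModel q ≠ q + 1 ∧ W.apOfModel q ≠ -(q + 1) := by
  haveI : Fact q.Prime := ⟨hq⟩
  have hcard : W.apOfModel q = (q : ℤ) + 1 - ((W.reductionMod q).card : ℤ) := by
    rw [apOfModel, traceOfFrobenius, Nat.card_zmod]
  constructor
  · intro h
    have h1 := one_le_card (W.reductionMod q)
    rw [hcard] at h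
    omega
  · intro h
    by_cases hq2 : q = 2
    · subst hq2
      have h1 := card_le (W.reductionMod 2)
      rw [Nat.card_zmod] at h1
      rw [hcard] at h
      push_cast at h
      omega
    · have hq3 : 3 ≤ q := by
        have := hq.two_le
        omega
      let k : Type := AlgebraicClosure (ZMod q)
      haveI : DecidableEq k := Classical.decEq _
      haveI hell := isElliptic_int (k := k) hgood
      have h2 : ((2 : ℕ) : k) ≠ 0 := by
        rw [Ne, CharP.cast_eq_zero_iff k q]
        intro hd
        have := Nat.le_of_dvd (by norm_num) hd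
        omega
      have h3 := card_frob_add (hk_int (k := k) (ℓ := q) W) 2 h2
      rw [aℓ_eq_apOfModel, h] at h3
      push_cast at h3
      have h4 : (0 : ℤ) ≤ (Nat.card {T : (W.map (Int.castRingHom k)).toAffine.Point //
        frobP q (hk_int (k := k) W) T + 2 • T = 0} : ℤ) := Int.natCast_nonneg _
      rw [h3] at h4
      have : (3 : ℤ) ≤ q := by exact_mod_cast hq3
      linarith

end Fermat.Agent.RT.S58
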