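import Fermat.Agent.Hecke.Eigenform
import Fermat.Agent.ESCore.EigenChar
import Fermat.Agent.ESCore.MForm
import Fermat.Agent.Pet.Gamma0

set_option autoImplicit false
set_option maxHeartbeats 400000
set_option linter.style.haveILetI false
set_option linter.unusedSectionVars false

/-!
# Raising the level of an eigenform
-/

noncomputable section

open CongruenceSubgroup Matrix.SpecialLinearGroup ModularFormClass UpperHalfPlane
open Fermat.Agent.ESCore Fermat.Agent.Hecke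
open scoped ModularForm

namespace Fermat.Agent.RT.S58

variable {M R : ℕ} [NeZero M] [NeZero R]

theorem Gamma0_le_of_dvd' (h : M ∣ R) : Gamma0 R ≤ Gamma0 M := by
  intro g hg
  rw [Gamma0_mem] at hg ⊢
  have h1 : ((g.1 1 0 : ℤ) : ZMod R) = 0 := hg
  rw [ZMod.intCast_zmod_eq_zero_iff_dvd] at h1
  exact (ZMod.intCast_zmod_eq_zero_iff_dvd _ _).mpr
    ((Int.natCast_dvd_natCast.mpr h).trans h1)

theorem mem_of_dvd (h : M ∣ R) (g : CuspForm (Gamma0 M) 2) :
    (⇑g : ℍ → ℂ) ∈ mform (1 : Gamma0 R →* ℂˣ) 2 := by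
  obtain ⟨⟨h1, h2, h3⟩, -⟩ := Fermat.Agent.Pet.cusp_mem_S2 g
  refine ⟨h1, fun δ => ?_, h3⟩
  have := h2 ⟨δ.1, Gamma0_le_of_dvd' h δ.2⟩
  rw [MonoidHom.one_apply] at this ⊢
  exact this

/-- The form at the higher level. -/
def lift (h : M ∣ R) (g : CuspForm (Gamma0 M) 2) : CuspForm (Gamma0 R) 2 :=
  toCusp (mem_of_dvd h g) (Fermat.Agent.Pet.cusp_mem_S2 g).2

theorem coe_lift (h : M ∣ R) (g : CuspForm (Gamma0 M) 2) : ⇑(lift h g) = ⇑g := rfl

theorem heckeT_lift (h : M ∣ R) {g : CuspForm (Gamma0 M) 2} (hg : g.IsNormalizedEigenform)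
    {l : ℕ} (hl : l.Prime) (hlR : ¬ l ∣ R) :
    CuspForm.heckeTLin 2 hl hlR (lift h g) = qCoeff g l • lift h g := by
  apply DFunLike.coe_injective
  have h1 := congrArg (fun f : CuspForm (Gamma0 M) 2 => (⇑f : ℍ → ℂ))
    (heckeTLin_eigen hg hl (fun h' => hlR (h'.trans h)))
  simp only [CuspForm.coe_heckeTLin_apply] at h1
  rw [CuspForm.coe_heckeTLin_apply, coe_lift, h1]
  rfl

/-- **Raising the level.** -/
theorem raise_level (h : M ∣ R) {g : CuspForm (Gamma0 M) 2} (hg : g.IsNormalizedEigenform) :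
    ∃ F : CuspForm (Gamma0 R) 2, F.IsNormalizedEigenform ∧
      ∀ l : ℕ, l.Prime → ¬ l ∣ R → qCoeff F l = qCoeff g l := by
  set g₀ := lift h g with hg₀
  have hg0 : g₀ ≠ 0 := by
    intro h0
    have h1 : qCoeff g₀ 1 = 1 := hg.qCoeff_one
    rw [h0] at h1
    have h2 : qCoeff (0 : CuspForm (Gamma0 R) 2) 1 = 0 := by
      have := qCoeff_smul (0 : ℂ) (0 : CuspForm (Gamma0 R) 2) 1
      rwa [zero_smul, zero_mul] at this
    rw [h2] at h1
    exact zero_ne_one h1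
  let I : Ideal (complexHecke R 2) :=
    { carrier := {t | (t : Module.End ℂ (CuspForm (Gamma0 R) 2)) g₀ = 0}
      add_mem' := fun {a b} ha hb => by
        change (a : Module.End ℂ (CuspForm (Gamma0 R) 2)) g₀ + (b : Module.End ℂ _) g₀ = 0
        rw [show (a : Module.End ℂ (CuspForm (Gamma0 R) 2)) g₀ = 0 from ha,
          show (b : Module.End ℂ (CuspForm (Gamma0 R) 2)) g₀ = 0 from hb, add_zero]
      zero_mem' := by
        change (0 : Module.End ℂ (CuspForm (Gamma0 R) 2)) g₀ = 0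
        rfl
      smul_mem' := fun c x hx => by
        change (c : Module.End ℂ (CuspForm (Gamma0 R) 2)) ((x : Module.End ℂ _) g₀) = 0
        rw [show (x : Module.End ℂ (CuspForm (Gamma0 R) 2)) g₀ = 0 from hx, map_zero] }
  have hI : I ≠ ⊤ := by
    intro htop
    have h1 : (1 : complexHecke R 2) ∈ I := by rw [htop]; trivial
    exact hg0 h1
  obtain ⟨𝔪, hmax, hle⟩ := Ideal.exists_le_maximal I hI
  letI : Field (complexHecke R 2 ⧸ 𝔪) := Ideal.Quotient.field 𝔪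
  haveI : FiniteDimensional ℂ (complexHecke R 2 ⧸ 𝔪) := inferInstance
  haveI : Algebra.IsIntegral ℂ (complexHecke R 2 ⧸ 𝔪) := Algebra.IsIntegral.of_finite ℂ _
  have hbij := IsAlgClosed.algebraMap_bijective_of_isIntegral (k := ℂ)
    (K := complexHecke R 2 ⧸ 𝔪)
  let e : ℂ ≃ₐ[ℂ] (complexHecke R 2 ⧸ 𝔪) := AlgEquiv.ofBijective (Algebra.ofId ℂ _) hbij
  let lam : complexHecke R 2 →ₐ[ℂ] ℂ := (e.symm : _ →ₐ[ℂ] ℂ).comp (Ideal.Quotient.mkₐ ℂ 𝔪)
  have hlam : ∀ t ∈ I, lam t = 0 := by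
    intro t ht
    change e.symm (Ideal.Quotient.mk 𝔪 t) = 0
    rw [Ideal.Quotient.eq_zero_iff_mem.mpr (hle ht), map_zero]
  have hT : ∀ (l : ℕ) (hl : l.Prime) (hlR : ¬ l ∣ R),
      lam ⟨CuspForm.heckeTLin 2 hl hlR, heckeTLin_mem hl hlR⟩ = qCoeff g l := by
    intro l hl hlR
    have h1 : (⟨CuspForm.heckeTLin 2 hl hlR, heckeTLin_mem hl hlR⟩ : complexHecke R 2) -
        algebraMap ℂ (complexHecke R 2) (qCoeff g l) ∈ I := by
      change CuspForm.heckeTLin 2 hl hlR g₀ - (qCoeff g l) • g₀ = 0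
      rw [hg₀, heckeT_lift h hg hl hlR, sub_self]
    have h2 := hlam _ h1
    rw [map_sub, sub_eq_zero, AlgHom.commutes] at h2
    exact h2
  obtain ⟨F, hF1, hF⟩ := exists_eigenform lam
  have hTF : ∀ (l : ℕ) (hl : l.Prime) (hlR : ¬ l ∣ R),
      CuspForm.heckeTLin 2 hl hlR F = qCoeff g l • F := by
    intro l hl hlR
    rw [← hT l hl hlR]
    exact hF ⟨CuspForm.heckeTLin 2 hl hlR, heckeTLin_mem hl hlR⟩
  refine ⟨F, isNormalizedEigenform_of_eigen F hF1 (fun l hl hlR => ⟨_, hTF l hl hlR⟩)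
    (fun l hl hlR => ⟨_, hF ⟨CuspForm.heckeULin 2 hlR, heckeULin_mem hl hlR⟩⟩), fun l hl hlR => ?_⟩
  have h2 := qCoeff_heckeTLin hl hlR F 1
  have hn1 : ¬ l ∣ 1 := fun h => hl.one_lt.ne' (Nat.dvd_one.mp h)
  rwa [hTF l hl hlR, qCoeff_smul, hF1, mul_one, one_mul, if_neg hn1, add_zero, eq_comm] at h2

end Fermat.Agent.RT.S58
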