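import Fermat.Agent.RT.S58B
import Fermat.Agent.RT.S58R
import Fermat.Agent.RT.S58H
import Fermat.Agent.RT.AL5
import Fermat.Prelude.Def_WeierstrassCurve_ConductorLevel

set_option autoImplicit false
set_option maxHeartbeats 400000
set_option linter.style.haveILetI false
set_option linter.unusedSectionVars false

/-!
# S58 from Carayol's theorem
-/

noncomputable section

open IsLocalRing CongruenceSubgroup Matrix.SpecialLinearGroup ModularFormClass
open Fermat.Agent.ESCore Fermat.Agent.EC.Tate Fermat.Agent.UnivDef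

namespace Fermat.Agent.RT.S58

variable {W : WeierstrassCurve ℤ} {M N : ℕ} [NeZero M] {g : CuspForm (Gamma0 M) 2}

/-- **No prime `q ≠ p` with `q² ∥ M`.** -/
theorem factorization_ne_two (h36 : S36P) (hΔ : W.Δ ≠ 0) (hss : W.IsSemistableModel)
    {p : ℕ} [hpf : Fact p.Prime] (hp2 : p ≠ 2) (hirr : W.ModRepIsIrreducible p)
    (hg : g.IsNewform) (hMN : M ∣ N) (hN : N ≠ 0)
    (hag : ∀ l : ℕ, l.Prime → ¬ l ∣ N → W.IsGoodPrimeFor l ∧ qCoeff g l = (W.apOfModel l : ℂ))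
    {q : ℕ} (hq : q.Prime) (hqp : q ≠ p) : M.factorization q ≠ 2 := by
  intro hfac
  have hp : p.Prime := hpf.out
  have hM0 : M ≠ 0 := NeZero.ne M
  let S : Finset ℕ := insert p M.primeFactors
  have hpS : p ∈ S := Finset.mem_insert_self _ _
  have hMS : ∀ l : ℕ, l.Prime → l ∣ M → l ∈ S := fun l hl hlM =>
    Finset.mem_insert_of_mem (Nat.mem_primeFactors.mpr ⟨hl, hlM, hM0⟩)
  let R : Subring ℂ := (eigenHomC hg.1 (↑S : Set ℕ)).range
  haveI hfin : Module.Finite ℤ (CuspForm.heckeAlgebra M 2 (↑S : Set ℕ)) :=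
    Fermat.Agent.ES.moduleFinite_heckeAlgebra 2 (↑S : Set ℕ)
  haveI hRf : Module.Finite ℤ R := by
    refine Module.Finite.of_surjective
      ((eigenHomC hg.1 (↑S : Set ℕ)).rangeRestrict.toIntAlgHom).toLinearMap ?_
    exact (eigenHomC hg.1 (↑S : Set ℕ)).rangeRestrict_surjective
  obtain ⟨O', _, _, _, _, _, _, _, _, _, hinj, ⟨iota⟩⟩ := exists_dvr_of_finite R p
  have hpO : (p : O') ∈ maximalIdeal O' := by
    rw [← map_natCast (algebraMap ℤ_[p] O')]
    exact map_nonunit (algebraMap ℤ_[p] O') _ (p_mem p)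
  obtain ⟨B, hB⟩ := exists_tb (p := p) hΔ (torsBasis p W hΔ)
  obtain ⟨χ, hχ⟩ := exists_isCyc (𝒪 := ℤ_[p]) hp (p_mem p)
  obtain ⟨b, hgd⟩ := exists_psB B hΔ hp2 hirr (torsBasis p W hΔ) hB hχ
  have hps := tateTr_cycPs B (𝒪 := ℤ_[p]) hΔ (p_mem p) hχ
  have hcp : ∀ (O'' : Type) [CommRing O''] [IsDomain O''] [IsDiscreteValuationRing O'']
      [IsAdicComplete (maximalIdeal O'') O''] [CharZero O''] [Algebra O' O'']
      [IsLocalHom (algebraMap O' O'')] (ρ : GaloisRepAdic O''),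
      (∀ (ℓ : ℕ) (hℓ : ℓ.Prime) (hℓlam : ℓ ≠ p) (hℓM : ¬ ℓ ∣ M) (hℓS : ℓ ∉ (↑S : Set ℕ)),
        ∀ A : ValuationSubring Qb, A.LiesOverPrime ℓ → ∀ σ : GQ, A.IsFrobeniusAt σ ℓ →
          LinearMap.charpoly (ρ.ρ σ) = Polynomial.X ^ 2 - Polynomial.C (algebraMap O' O''
            ((iota.comp (eigenHomC hg.1 (↑S : Set ℕ)).rangeRestrict)
              (CuspForm.heckeAlgebra.T hℓ hℓM hℓS))) * Polynomial.X
              + Polynomial.C ((ℓ : O''))) →
      ρ.residual.IsAbsolutelyIrreducible ∧ ρ.residual.IsOdd ∧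
      ∃ β : Module.Basis (Fin 2) O'' ρ.V, ∀ σ, (matOf ρ β σ).trace =
        algebraMap O' O'' (tateTr B O' σ) ∧
        (matOf ρ β σ).det = algebraMap O' O'' (algebraMap ℤ_[p] O' (χ σ)) := by
    intro O'' _ _ _ _ _ _ _ ρ hρ
    letI : Algebra ℤ_[p] O'' := ((algebraMap O' O'').comp (algebraMap ℤ_[p] O')).toAlgebra
    have hpO'' : (p : O'') ∈ maximalIdeal O'' := by
      rw [← map_natCast (algebraMap O' O'')]
      exact map_nonunit (algebraMap O' O'') _ hpO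
    have ht'' := hps.map (Algebra.ofId ℤ_[p] O'')
    obtain ⟨β⟩ := GaloisRepAdic.exists_basis ρ
    have h20 : ∀ y : O'', 2 * y = 0 → y = 0 := fun y hy =>
      (mul_eq_zero.mp hy).resolve_left two_ne_zero
    have htd := ht''.trace_det hp hpO'' (p_mem p) hχ h20 ρ (insert p N.primeFactors) (by
      intro l hl hlS A hA σ hσ
      rw [Finset.mem_insert, not_or] at hlS
      have hlN : ¬ l ∣ N := fun h => hlS.2 (Nat.mem_primeFactors.mpr ⟨hl, h, hN⟩)
      have hlM : ¬ l ∣ M := fun h => hlN (h.trans hMN)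
      have hlS' : l ∉ (↑S : Set ℕ) := by
        intro h
        rcases Finset.mem_insert.mp h with h | h
        · exact hlS.1 h
        · exact hlM (Nat.dvd_of_mem_primeFactors h)
      obtain ⟨hgl, hal⟩ := hag l hl hlN
      rw [hρ l hl hlS.1 hlM hlS' A hA σ hσ, RingHom.comp_apply, iota_T hg.1 iota hl hlM hlS' hal]
      have h1 : (Algebra.ofId ℤ_[p] O'') (tateTr B ℤ_[p] σ) = algebraMap O' O'' (tateTr B O' σ) :=
        rfl
      rw [h1, tateTr_frob B hl hlS.1 hgl hA hσ]) β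
    have hgood : b.Good (fun σ => (Algebra.ofId ℤ_[p] O'') (tateTr B ℤ_[p] σ)) :=
      hgd.map b (Algebra.ofId ℤ_[p] O'') (fun _ => rfl)
    exact ⟨PsB.Good.absIrr b ht'' hgood ρ β fun σ => (htd σ).1,
      isOdd_of_det hp (p_mem p) hχ ρ β fun σ => (htd σ).2, β, fun σ => htd σ⟩
  obtain ⟨O'', _, _, _, _, _, _, _, _, _, hinj', ρ, hρ, hnot⟩ := h36 hg p S O' hpO hp2
    (eigenHomC hg.1 (↑S : Set ℕ)) (fun l hl hlM hlS => eigenHom_T hg.1 hl hlM hlS) iota hpS hMS
    (fun O'' _ _ _ _ _ _ _ _ _ hinj ρ hρ => by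
      obtain ⟨h3, h4, -⟩ := hcp O'' ρ hρ
      exact ⟨h3, h4⟩)
  obtain ⟨-, -, β, hβ⟩ := hcp O'' ρ (fun l hl _ hlM hlS A hA σ hσ => hρ l hl hlM hlS A hA σ hσ)
  refine hnot q hq hqp hfac ?_
  intro A hA σ hσ
  refine charpoly_eq_of_trace β _ ?_ ?_
  · have e1 := (hβ σ).1
    rw [tateTr_unip B hΔ hss hp2 hq hqp hA hσ, map_ofNat] at e1
    exact e1
  · have e1 := (hβ σ).2
    rw [hχ.inertia hp (p_mem p) hq hqp hA hσ, Units.val_one, map_one, map_one] at e1
    exact e1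

/-- **S58** from Carayol's theorem. -/
theorem s58_of (h36 : S36P) (W : WeierstrassCurve ℤ) (hss : W.IsSemistableModel) (N : ℕ)
    (p : ℕ) [Fact p.Prime] (hp2 : p ≠ 2) (hirr : W.ModRepIsIrreducible p)
    (hp2N : ¬ p ^ 2 ∣ N)
    (hN : W.IsModularModelOfLevel N) (hbad : ∀ ℓ : ℕ, ℓ.Prime → (ℓ : ℤ) ∣ W.Δ → ℓ ∣ N)
    (hN3 : ∀ q : ℕ, q.Prime → ¬ q ^ 3 ∣ N) :
    W.IsModularModelOfLevel W.conductorLevel := by
  have hN0 : N ≠ 0 := by
    rintro rfl
    exact hN3 2 Nat.prime_two (dvd_zero _)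
  have hΔ : W.Δ ≠ 0 := by
    intro h0
    obtain ⟨l, hl1, hl2⟩ := Nat.exists_infinite_primes (N + 1)
    have h1 := hbad l hl2 (by rw [h0]; exact dvd_zero _)
    have h2 := Nat.le_of_dvd (Nat.pos_of_ne_zero hN0) h1
    omega
  obtain ⟨f, hf, hfW⟩ := hN
  obtain ⟨M, g, hMN, hg, hgf⟩ := RT.AL.exists_newform N (Nat.pos_of_ne_zero hN0) f hf
  have hM0 : M ≠ 0 := fun h => hN0 (by rw [h, zero_dvd_iff] at hMN; exact hMN)
  haveI : NeZero M := ⟨hM0⟩
  have hgoodN : ∀ l : ℕ, l.Prime → ¬ l ∣ N → W.IsGoodPrimeFor l := fun l hl hlN h =>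
    hlN (hbad l hl h)
  have hag : ∀ l : ℕ, l.Prime → ¬ l ∣ N → W.IsGoodPrimeFor l ∧
      qCoeff g l = (W.apOfModel l : ℂ) := fun l hl hlN =>
    ⟨hgoodN l hl hlN, by rw [hgf l hl hlN, hfW l hl (hgoodN l hl hlN) hlN]⟩
  -- `M` is squarefree
  have hsq : ∀ q : ℕ, q.Prime → ¬ q ^ 2 ∣ M := by
    intro q hq hq2
    by_cases hqp : q = p
    · rw [hqp] at hq2
      exact hp2N (hq2.trans hMN)
    · refine factorization_ne_two h36 hΔ hss hp2 hirr hg hMN hN0 hag hq hqp ?_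
      have h1 := (hq.pow_dvd_iff_le_factorization hM0).mp hq2
      have h2 : ¬ 3 ≤ M.factorization q := fun h3 =>
        hN3 q hq (((hq.pow_dvd_iff_le_factorization hM0).mpr h3).trans hMN)
      omega
  -- the primes of `M` are bad
  have hbadM : ∀ q : ℕ, q.Prime → q ∣ M → (q : ℤ) ∣ W.Δ := by
    intro q hq hqM
    by_contra hgood
    rcases (exists_compare hΔ hg hMN hN0 hag hq hgood).2 hqM (hsq q hq) with h | h
    · exact (ap_ne hq hgood).1 h
    · exact (ap_ne hq hgood).2 h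
  have hsqM : Squarefree M := by
    rw [Nat.squarefree_iff_prime_squarefree]
    intro q hq h
    exact hsq q hq (by rwa [pow_two])
  have hdvd : M ∣ W.conductorLevel := by
    rw [← Nat.factorization_le_iff_dvd hM0 (WeierstrassCurve.conductorLevel_pos W).ne']
    intro q
    by_cases hq : q.Prime
    · have h1 : M.factorization q ≤ 1 := hsqM.natFactorization_le_one q
      by_cases hqM : q ∣ M
      · have h2 : q ∣ W.conductorLevel :=
          (WeierstrassCurve.prime_dvd_conductorLevel_iff W hΔ hq).mpr (hbadM q hq hqM)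
        have h3 := (hq.dvd_iff_one_le_factorization
          (WeierstrassCurve.conductorLevel_pos W).ne').mp h2
        omega
      · rw [Nat.factorization_eq_zero_of_not_dvd hqM]
        exact Nat.zero_le _
    · rw [Nat.factorization_eq_zero_of_not_prime _ hq]
      exact Nat.zero_le _
  obtain ⟨F, hF, hFa⟩ := raise_level hdvd hg.1
  refine ⟨F, hF, fun l hl hgood hlc => ?_⟩
  rw [hFa l hl hlc]
  exact (exists_compare hΔ hg hMN hN0 hag hl hgood).1 (fun h => hlc (h.trans hdvd))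

end Fermat.Agent.RT.S58
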