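import Fermat.Agent.RT.SetT
import Fermat.Agent.RT.LRCurve

/-!
# Two integral models of the same curve
-/

set_option autoImplicit false
set_option linter.unusedSectionVars false

noncomputable section

open Matrix
open WeierstrassCurve WeierstrassCurve.Affine WeierstrassCurve.Affine.Point

namespace Fermat.Agent.RT

open Fermat.Agent.EC Fermat.Agent.ESCore Fermat.Agent.GaloisBasics

/-- The field of algebraic numbers. -/
local notation "Kb" => AlgebraicClosure ℚ
/-- The absolute Galois group. -/
local notation "GQ" => (AlgebraicClosure ℚ ≃ₐ[ℚ] AlgebraicClosure ℚ)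

section Transfer

variable {E E' : WeierstrassCurve ℚ} {p : ℕ}

/-- Equivariantly isomorphic groups of points give the same traces. -/
theorem trace_eq_of_equiv (e : (E'⁄Kb).Point ≃+ (E⁄Kb).Point)
    (he : ∀ (σ : GQ) (P : (E'⁄Kb).Point), e (σ • P) = σ • e P) (σ : GQ) :
    LinearMap.trace (ZMod p) (TorsP E' p) (galoisRepModuleEnd (K := Kb) ℚ E' p σ) =
      LinearMap.trace (ZMod p) (TorsP E p) (galoisRepModuleEnd (K := Kb) ℚ E p σ) := by
  set f : TorsP E' p →ₗ[ZMod p] TorsP E p := (LR.torsMap e).toZModLinearMap p with hf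
  have hfc : ∀ x : TorsP E' p, ((f x : TorsP E p) : (E⁄Kb).Point) = e x.1 := fun x => rfl
  have hinj : Function.Injective f := by
    intro x y hxy
    apply Subtype.ext
    apply e.injective
    rw [← hfc, ← hfc, hxy]
  have hsurj : Function.Surjective f := by
    intro y
    refine ⟨⟨e.symm y.1, ?_⟩, Subtype.ext ?_⟩
    · have h := y.2
      rw [Submodule.mem_torsionBy_iff] at h ⊢
      rw [← map_zsmul, h, _root_.map_zero]
    · rw [hfc]
      exact e.apply_symm_apply _
  have hfs : ∀ (σ : GQ) (x : TorsP E' p), f (σ • x) = σ • f x := by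
    intro σ x
    apply Subtype.ext
    rw [hfc]
    exact he σ x.1
  let F : TorsP E' p ≃ₗ[ZMod p] TorsP E p := LinearEquiv.ofBijective f ⟨hinj, hsurj⟩
  have h1 : F.conj (galoisRepModuleEnd (K := Kb) ℚ E' p σ) =
      galoisRepModuleEnd (K := Kb) ℚ E p σ := by
    apply LinearMap.ext
    intro x
    obtain ⟨y, rfl⟩ := F.surjective x
    rw [LinearEquiv.conj_apply_apply, LinearEquiv.symm_apply_apply]
    exact hfs σ y
  rw [← h1, LinearMap.trace_conj']

end Transfer

variable {W W' : WeierstrassCurve ℤ} {E : WeierstrassCurve ℚ} {p : ℕ} [hp : Fact p.Prime]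

/-- The traces of the representations of two integral models agree. -/
theorem trace_modRep_eq (hW : W.IsIntegralModelOf E) (hW' : W'.IsIntegralModelOf E)
    (hΔ : W.Δ ≠ 0) (hΔ' : W'.Δ ≠ 0) (σ : GQ) :
    (modRep (torsBasis p W hΔ) σ).val.trace = (modRep (torsBasis p W' hΔ') σ).val.trace := by
  obtain ⟨C, hC⟩ := hW
  obtain ⟨C', hC'⟩ := hW'
  have hCC : (C * C'⁻¹) • (W'.map (Int.castRingHom ℚ)) = W.map (Int.castRingHom ℚ) := by
    rw [← hC', ← hC, mul_smul, inv_smul_smul]
  obtain ⟨e, he⟩ := LR.exists_equiv_of_variableChange hCC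
  rw [modRep_trace, modRep_trace]
  exact trace_eq_of_equiv e he σ

end Fermat.Agent.RT
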