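import Mathlib
import Fermat.Agent.RT.DvrExt

/-!
# Coefficient rings with many roots of unity
-/

set_option autoImplicit false
set_option linter.unusedSectionVars false

open IsLocalRing Polynomial

namespace Fermat.Agent.RT

section Field

variable {k : Type*} [Field k] {p : ℕ} [hp : Fact p.Prime] [Algebra (ZMod p) k]

/-- Quadratic polynomials over `𝔽_p` split in a field with a primitive root of unity of order
`p² - 1`. -/
theorem exists_quadratic_root {ξ : k} (hξ : IsPrimitiveRoot ξ (p ^ 2 - 1)) (t d : ZMod p) :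
    ∃ x : k, x ^ 2 - algebraMap (ZMod p) k t * x + algebraMap (ZMod p) k d = 0 := by
  classical
  let K := AlgebraicClosure k
  haveI : CharP k p := charP_of_injective_algebraMap (algebraMap (ZMod p) k).injective p
  haveI : CharP K p := charP_of_injective_algebraMap (algebraMap k K).injective p
  haveI : ExpChar K p := ExpChar.prime hp.out
  let t' : K := algebraMap k K (algebraMap (ZMod p) k t)
  let d' : K := algebraMap k K (algebraMap (ZMod p) k d)
  have ht : t' ^ p = t' := by
    simp only [t']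
    rw [← map_pow, ← map_pow, ZMod.pow_card]
  have hd : d' ^ p = d' := by
    simp only [d']
    rw [← map_pow, ← map_pow, ZMod.pow_card]
  obtain ⟨x, hx⟩ : ∃ x : K, x ^ 2 - t' * x + d' = 0 := by
    have hdeg : (X ^ 2 - C t' * X + C d' : K[X]).degree = 2 := by compute_degree!
    obtain ⟨x, hx⟩ := IsAlgClosed.exists_root (X ^ 2 - C t' * X + C d' : K[X]) (by
      rw [hdeg]; decide)
    refine ⟨x, ?_⟩
    simpa [IsRoot] using hx
  have hxp : (x ^ p) ^ 2 - t' * x ^ p + d' = 0 := by
    have h1 : (x ^ 2 - t' * x + d') ^ p = 0 := by rw [hx, zero_pow hp.out.ne_zero]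
    rw [add_pow_expChar, sub_pow_expChar, mul_pow, ht, hd, ← pow_mul, mul_comm 2 p, pow_mul] at h1
    exact h1
  have hxx : (x ^ p) ^ p = x := by
    have h2 : (x ^ p - x) * (x ^ p - (t' - x)) = 0 := by linear_combination hxp - hx
    rcases mul_eq_zero.mp h2 with h3 | h3
    · rw [sub_eq_zero] at h3
      rw [h3, h3]
    · rw [sub_eq_zero] at h3
      rw [h3, sub_pow_expChar, ht, h3]
      ring
  by_cases hx0 : x = 0
  · refine ⟨0, ?_⟩
    have h4 : d' = 0 := by simpa [hx0] using hx
    have h5 : algebraMap (ZMod p) k d = 0 := by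
      apply (algebraMap k K).injective
      rw [_root_.map_zero]
      exact h4
    rw [h5]; ring
  have hone : x ^ (p ^ 2 - 1) = 1 := by
    have hpp : 1 ≤ p ^ 2 := Nat.one_le_pow _ _ hp.out.pos
    apply mul_left_cancel₀ hx0
    rw [mul_one, ← pow_succ', Nat.sub_add_cancel hpp, pow_two, pow_mul, hxx]
  have hp2 : 0 < p ^ 2 - 1 := by
    have := hp.out.two_le
    have : 4 ≤ p ^ 2 := by nlinarith
    omega
  have : NeZero (p ^ 2 - 1) := ⟨hp2.ne'⟩
  obtain ⟨i, -, hi⟩ := (hξ.map_of_injective (algebraMap k K).injective).eq_pow_of_pow_eq_one hone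
  refine ⟨ξ ^ i, ?_⟩
  apply (algebraMap k K).injective
  rw [_root_.map_zero, map_add, map_sub, map_mul, map_pow, map_pow, hi]
  exact hx

end Field

/-- reduction of primitive roots of unity of order prime to the residue characteristic -/
theorem isPrimitiveRoot_residue {O : Type*} [CommRing O] [IsDomain O] [IsLocalRing O] {ξ : O}
    {m : ℕ} (hξ : IsPrimitiveRoot ξ m) (hm : (m : ResidueField O) ≠ 0) :
    IsPrimitiveRoot (residue O ξ) m := by
  have hm0 : m ≠ 0 := by
    rintro rfl
    exact hm Nat.cast_zero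
  refine ⟨by rw [← map_pow, hξ.pow_eq_one, map_one], fun j hj => ?_⟩
  apply hξ.dvd_of_pow_eq_one
  by_contra hne
  have h1 : (ξ ^ j - 1) * ∑ i ∈ Finset.range m, (ξ ^ j) ^ i = 0 := by
    rw [mul_geom_sum, ← pow_mul, mul_comm j m, pow_mul, hξ.pow_eq_one, one_pow, sub_self]
  rcases mul_eq_zero.mp h1 with h2 | h2
  · exact hne (sub_eq_zero.mp h2)
  · apply hm
    have h3 := congrArg (residue O) h2
    rw [map_sum, _root_.map_zero] at h3
    rw [← h3]
    have h4 : ∀ i ∈ Finset.range m, residue O ((ξ ^ j) ^ i) = 1 := fun i _ => by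
      rw [map_pow, map_pow, hj, one_pow]
    rw [Finset.sum_congr rfl h4, Finset.sum_const, Finset.card_range, nsmul_eq_mul, mul_one]

/-- **Coefficient rings with many roots of unity.** -/
theorem exists_coeff_ring (p : ℕ) [hp : Fact p.Prime] (m₀ : ℕ) :
    ∃ (O : Type) (_ : CommRing O) (_ : IsDomain O) (_ : IsDiscreteValuationRing O)
      (_ : IsAdicComplete (maximalIdeal O) O) (_ : Finite (ResidueField O)) (_ : CharZero O)
      (_ : Algebra (ZMod p) (ResidueField O)),
      (p : O) ∈ maximalIdeal O ∧ (∃ ζ : O, IsPrimitiveRoot ζ (p ^ m₀)) ∧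
      ∀ t d : ZMod p, ∃ x : ResidueField O,
        x ^ 2 - algebraMap (ZMod p) (ResidueField O) t * x +
          algebraMap (ZMod p) (ResidueField O) d = 0 := by
  classical
  have hp2 : 0 < p ^ 2 - 1 := by
    have := hp.out.two_le
    have : 4 ≤ p ^ 2 := by nlinarith
    omega
  set n : ℕ := p ^ m₀ * (p ^ 2 - 1) with hn
  have hn0 : 0 < n := Nat.mul_pos (pow_pos hp.out.pos _) hp2
  haveI : NeZero n := ⟨hn0.ne'⟩
  let Ω := AlgebraicClosure ℚ_[p]
  haveI : CharZero Ω := charZero_of_injective_algebraMap (algebraMap ℚ_[p] Ω).injective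
  haveI : NeZero (n : Ω) := ⟨by exact_mod_cast hn0.ne'⟩
  obtain ⟨ζ, hζ⟩ := HasEnoughRootsOfUnity.exists_primitiveRoot Ω n
  have hint : IsIntegral ℤ_[p] ζ := by
    refine ⟨X ^ n - 1, monic_X_pow_sub_C 1 hn0.ne', ?_⟩
    simp [hζ.pow_eq_one]
  let B := Algebra.adjoin ℤ_[p] {ζ}
  haveI : Module.Finite ℤ_[p] B :=
    Module.Finite.iff_fg.mpr hint.fg_adjoin_singleton
  have hinj : Function.Injective (algebraMap ℤ_[p] B) := by
    have h1 : Function.Injective (algebraMap ℤ_[p] Ω) := by
      rw [IsScalarTower.algebraMap_eq ℤ_[p] ℚ_[p] Ω]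
      exact (algebraMap ℚ_[p] Ω).injective.comp (IsFractionRing.injective ℤ_[p] ℚ_[p])
    intro x y hxy
    exact h1 (congrArg Subtype.val hxy)
  obtain ⟨O, i1, i2, i3, i4, i5, i6, i7, i8, i9, hO, f, hf⟩ := exists_dvr_ext (𝒪 := ℤ_[p]) B hinj
  let z : B := ⟨ζ, Algebra.subset_adjoin rfl⟩
  have hz : IsPrimitiveRoot z n := by
    refine IsPrimitiveRoot.of_map_of_injective (f := B.val) ?_ Subtype.val_injective
    exact hζ
  have hfz : IsPrimitiveRoot (f z) n := hz.map_of_injective hf
  have hpO : (p : O) ∈ maximalIdeal O := by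
    have h1 : algebraMap ℤ_[p] O (p : ℤ_[p]) ∈ maximalIdeal O := by
      rw [mem_maximalIdeal, mem_nonunits_iff, isUnit_map_iff]
      exact fun h => (PadicInt.prime_p (p := p)).not_unit h
    rwa [map_natCast] at h1
  haveI : CharP (ResidueField O) p := by
    refine (CharP.charP_iff_prime_eq_zero hp.out).mpr ?_
    rw [← map_natCast (residue O)]
    exact (residue_eq_zero_iff _).mpr hpO
  refine ⟨O, i1, i2, i3, i4, i5, i6, ZMod.algebra (ResidueField O) p, hpO,
    ⟨f z ^ (p ^ 2 - 1), hfz.pow hn0 (by rw [hn, mul_comm])⟩, ?_⟩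
  letI : Algebra (ZMod p) (ResidueField O) := ZMod.algebra (ResidueField O) p
  have hξ : IsPrimitiveRoot (f z ^ (p ^ m₀)) (p ^ 2 - 1) := hfz.pow hn0 hn
  refine exists_quadratic_root (isPrimitiveRoot_residue hξ ?_)
  rw [Nat.cast_sub (Nat.one_le_pow _ _ hp.out.pos), Nat.cast_pow, CharP.cast_eq_zero,
    zero_pow two_ne_zero, Nat.cast_one, zero_sub]
  exact neg_ne_zero.mpr one_ne_zero

end Fermat.Agent.RT
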