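import Fermat.Agent.RT.TWSigma
import Fermat.Agent.UnivDef.Burnside

set_option autoImplicit false

/-!
# The image of a residual representation: Clifford theory and vanishing of cohomology
-/

open Matrix
open Fermat.Agent.Coh

namespace Fermat.Agent.RT

section Clifford

variable {K : Type*} [Field K] {Γ : Type*} [Group Γ]

/-- `v` is a common eigenvector -/
def ComEig (ρ : Γ →* GL (Fin 2) K) (H : Subgroup Γ) (v : Fin 2 → K) : Prop :=
  v ≠ 0 ∧ ∀ h ∈ H, ∃ a : K, (ρ h : Matrix (Fin 2) (Fin 2) K) *ᵥ v = a • v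

variable {ρ : Γ →* GL (Fin 2) K}

theorem mulVec_ne_zero (g : Γ) {v : Fin 2 → K} (hv : v ≠ 0) :
    (ρ g : Matrix (Fin 2) (Fin 2) K) *ᵥ v ≠ 0 := by
  intro h
  apply hv
  have h1 : (ρ g⁻¹ : Matrix (Fin 2) (Fin 2) K) *ᵥ ((ρ g : Matrix (Fin 2) (Fin 2) K) *ᵥ v) = v := by
    rw [mulVec_mulVec, inv_mul_coe, one_mulVec]
  rw [h, mulVec_zero] at h1
  exact h1.symm

theorem mulVec_mul (g h : Γ) (v : Fin 2 → K) : (ρ (g * h) : Matrix (Fin 2) (Fin 2) K) *ᵥ v =
    (ρ g : Matrix (Fin 2) (Fin 2) K) *ᵥ ((ρ h : Matrix (Fin 2) (Fin 2) K) *ᵥ v) := by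
  rw [map_mul, Units.val_mul, mulVec_mulVec]

theorem mulVec_inv {g : Γ} {v w : Fin 2 → K} (h : (ρ g : Matrix (Fin 2) (Fin 2) K) *ᵥ v = w) :
    (ρ g⁻¹ : Matrix (Fin 2) (Fin 2) K) *ᵥ w = v := by
  rw [← h, mulVec_mulVec, inv_mul_coe, one_mulVec]

theorem ComEig.conj {H : Subgroup Γ} [hH : H.Normal] {v : Fin 2 → K} (h : ComEig ρ H v) (g : Γ) :
    ComEig ρ H ((ρ g : Matrix (Fin 2) (Fin 2) K) *ᵥ v) := by
  refine ⟨mulVec_ne_zero g h.1, fun n hn => ?_⟩
  obtain ⟨a, ha⟩ := h.2 (g⁻¹ * n * g) (by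
    have := hH.conj_mem n hn g⁻¹
    rwa [inv_inv] at this)
  refine ⟨a, ?_⟩
  rw [← mulVec_mul, show n * g = g * (g⁻¹ * n * g) by group, mulVec_mul, ha, mulVec_smul]

/-- **Clifford theory** for two-dimensional representations. -/
theorem not_comEig_of_normal [IsAlgClosed K] {H : Subgroup Γ} [hH : H.Normal] {g₁ : Γ}
    (hcyc : ∀ g : Γ, ∃ i : ℤ, g * g₁ ^ i ∈ H)
    (habs : ∀ v, ¬ ComEig ρ ⊤ v) (hTW : ∀ G : Subgroup Γ, G.index = 2 → ∀ v, ¬ ComEig ρ G v)
    (v : Fin 2 → K) : ¬ ComEig ρ H v := by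
  intro hv
  -- a conjugate line
  obtain ⟨g₀, hg₀⟩ : ∃ g₀ : Γ, ∀ a : K, (ρ g₀ : Matrix (Fin 2) (Fin 2) K) *ᵥ v ≠ a • v := by
    by_contra hcon
    push Not at hcon
    exact habs v ⟨hv.1, fun g _ => hcon g⟩
  set w := (ρ g₀ : Matrix (Fin 2) (Fin 2) K) *ᵥ v with hw
  have hwH : ComEig ρ H w := hv.conj g₀
  have hli : LinearIndependent K ![v, w] := by
    rw [LinearIndependent.pair_iff' hv.1]
    intro a h
    exact hg₀ a h.symm
  have hcoef : ∀ {a b a' b' : K}, a • v + b • w = a' • v + b' • w → a = a' ∧ b = b' := by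
    intro a b a' b' h
    have h1 : (a - a') • v + (b - b') • w = 0 := by
      rw [sub_smul, sub_smul]
      calc a • v - a' • v + (b • w - b' • w) = (a • v + b • w) - (a' • v + b' • w) := by abel
        _ = 0 := by rw [h, sub_self]
    have h2 := (LinearIndependent.pair_iff.mp hli) _ _ h1
    exact ⟨sub_eq_zero.mp h2.1, sub_eq_zero.mp h2.2⟩
  have hspan : ∀ u : Fin 2 → K, ∃ a b : K, u = a • v + b • w := by
    intro u
    have h1 : Submodule.span K (Set.range ![v, w]) = ⊤ :=
      hli.span_eq_top_of_card_eq_finrank' (by simp)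
    have h2 : u ∈ Submodule.span K (Set.range ![v, w]) := by rw [h1]; trivial
    rw [Matrix.range_cons, Matrix.range_cons, Matrix.range_empty, Set.union_empty,
      Set.singleton_union, Submodule.mem_span_pair] at h2
    obtain ⟨a, b, h⟩ := h2
    exact ⟨a, b, h.symm⟩
  choose α hα using hv.2
  choose β hβ using hwH.2
  by_cases hne : ∃ n, ∃ hn : n ∈ H, α n hn ≠ β n hn
  · -- exactly two lines
    obtain ⟨n₀, hn₀, hαβ⟩ := hne
    have htwo : ∀ u, ComEig ρ H u → (∃ a : K, u = a • v) ∨ ∃ b : K, u = b • w := by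
      intro u hu
      obtain ⟨a, b, rfl⟩ := hspan u
      obtain ⟨e, he⟩ := hu.2 n₀ hn₀
      rw [mulVec_add, mulVec_smul, mulVec_smul, hα n₀ hn₀, hβ n₀ hn₀, smul_add, smul_smul,
        smul_smul, smul_smul, smul_smul] at he
      obtain ⟨h1, h2⟩ := hcoef he
      by_cases ha : a = 0
      · right; exact ⟨b, by rw [ha, zero_smul, zero_add]⟩
      · left
        have hb : b = 0 := by
          by_contra hb
          apply hαβ
          have e1 : α n₀ hn₀ = e := mul_left_cancel₀ ha (by rw [h1, mul_comm])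
          have e2 : β n₀ hn₀ = e := mul_left_cancel₀ hb (by rw [h2, mul_comm])
          rw [e1, e2]
        exact ⟨a, by rw [hb, zero_smul, add_zero]⟩
    -- the stabiliser of the first line
    let G : Subgroup Γ :=
      { carrier := {g | ∃ a : K, (ρ g : Matrix (Fin 2) (Fin 2) K) *ᵥ v = a • v}
        mul_mem' := by
          rintro g h ⟨a, ha⟩ ⟨b, hb⟩
          exact ⟨b * a, by rw [mulVec_mul, hb, mulVec_smul, ha, smul_smul]⟩
        one_mem' := ⟨1, by rw [map_one, Units.val_one, one_mulVec, one_smul]⟩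
        inv_mem' := by
          rintro g ⟨a, ha⟩
          have ha0 : a ≠ 0 := by
            rintro rfl
            rw [zero_smul] at ha
            exact mulVec_ne_zero g hv.1 ha
          refine ⟨a⁻¹, ?_⟩
          have h1 := mulVec_inv (w := a • v) ha
          rw [mulVec_smul] at h1
          rw [← h1, smul_smul, inv_mul_cancel₀ ha0, one_smul, h1] }
    have hmemG : ∀ g, g ∈ G ↔ ∃ a : K, (ρ g : Matrix (Fin 2) (Fin 2) K) *ᵥ v = a • v :=
      fun g => Iff.rfl
    have hnotG : ∀ g, g ∉ G → ∃ b : K, b ≠ 0 ∧ (ρ g : Matrix (Fin 2) (Fin 2) K) *ᵥ v = b • w := by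
      intro g hg
      obtain ⟨b, hb⟩ := (htwo _ (hv.conj g)).resolve_left hg
      refine ⟨b, ?_, hb⟩
      rintro rfl
      rw [zero_smul] at hb
      exact mulVec_ne_zero g hv.1 hb
    have hg₀G : g₀ ∉ G := fun h => by
      obtain ⟨a, ha⟩ := h
      exact hg₀ a ha
    have hindex : G.index = 2 := by
      rw [Subgroup.index_eq_two_iff]
      refine ⟨g₀⁻¹, fun g => ?_⟩
      -- `g * g₀⁻¹ ∈ G` xor `g ∈ G`, applied to inverses
      by_cases hg : g ∈ G
      · refine Or.inr ⟨hg, fun h => hg₀G ?_⟩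
        have h1 := G.mul_mem (G.inv_mem hg) h
        rw [inv_mul_cancel_left] at h1
        exact (G.inv_mem_iff).mp h1
      · refine Or.inl ⟨?_, hg⟩
        have hg' : g⁻¹ ∉ G := fun h => hg ((G.inv_mem_iff).mp h)
        obtain ⟨b, hb0, hb⟩ := hnotG _ hg'
        -- `g₀ * g⁻¹` inverse
        have h2 : g₀⁻¹ * g⁻¹ ∈ G := by
          refine ⟨b, ?_⟩
          rw [mulVec_mul, hb, mulVec_smul, mulVec_inv hw.symm]
        -- the element `g₀` normalises
        have h3 : g * g₀ ∈ G := by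
          have := G.inv_mem h2
          rwa [_root_.mul_inv_rev, inv_inv, inv_inv] at this
        -- `g₀² ∈ G`
        have h4 : g₀⁻¹ * g₀⁻¹ ∈ G := by
          have hg₀' : g₀⁻¹ ∉ G := fun h => hg₀G ((G.inv_mem_iff).mp h)
          obtain ⟨c, hc0, hc⟩ := hnotG _ hg₀'
          exact ⟨c, by rw [mulVec_mul, hc, mulVec_smul, mulVec_inv hw.symm]⟩
        have h5 := G.mul_mem h3 h4
        have h6 : g * g₀ * (g₀⁻¹ * g₀⁻¹) = g * g₀⁻¹ := by group
        rwa [h6] at h5
    exact hTW G hindex v ⟨hv.1, fun g hg => hg⟩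
  · -- scalars
    push Not at hne
    have hscal : ∀ n ∈ H, ∃ a : K, ∀ u, (ρ n : Matrix (Fin 2) (Fin 2) K) *ᵥ u = a • u := by
      intro n hn
      refine ⟨α n hn, fun u => ?_⟩
      obtain ⟨a, b, rfl⟩ := hspan u
      rw [mulVec_add, mulVec_smul, mulVec_smul, hα n hn, hβ n hn, hne n hn, smul_add,
        smul_comm a, smul_comm b]
    -- an eigenvector of `g₁`
    obtain ⟨a, ha⟩ := Module.End.exists_eigenvalue (Matrix.toLin' (ρ g₁ : Matrix (Fin 2) (Fin 2) K))
    obtain ⟨u, hu⟩ := ha.exists_hasEigenvector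
    have hu1 : (ρ g₁ : Matrix (Fin 2) (Fin 2) K) *ᵥ u = a • u := by
      have := hu.apply_eq_smul
      rwa [Matrix.toLin'_apply] at this
    have hu0 : u ≠ 0 := hu.2
    have ha0 : a ≠ 0 := by
      rintro rfl
      rw [zero_smul] at hu1
      exact mulVec_ne_zero g₁ hu0 hu1
    have hz : ∀ i : ℤ, ∃ b : K, (ρ (g₁ ^ i) : Matrix (Fin 2) (Fin 2) K) *ᵥ u = b • u := by
      intro i
      let G : Subgroup Γ :=
        { carrier := {g | ∃ a : K, (ρ g : Matrix (Fin 2) (Fin 2) K) *ᵥ u = a • u}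
          mul_mem' := by
            rintro g h ⟨a, ha⟩ ⟨b, hb⟩
            exact ⟨b * a, by rw [mulVec_mul, hb, mulVec_smul, ha, smul_smul]⟩
          one_mem' := ⟨1, by rw [map_one, Units.val_one, one_mulVec, one_smul]⟩
          inv_mem' := by
            rintro g ⟨a, ha⟩
            have ha0 : a ≠ 0 := by
              rintro rfl
              rw [zero_smul] at ha
              exact mulVec_ne_zero g hu0 ha
            refine ⟨a⁻¹, ?_⟩
            have h1 := mulVec_inv (w := a • u) ha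
            rw [mulVec_smul] at h1
            rw [← h1, smul_smul, inv_mul_cancel₀ ha0, one_smul, h1] }
      have h1 : g₁ ∈ G := ⟨a, hu1⟩
      exact G.zpow_mem h1 i
    refine habs u ⟨hu0, fun g _ => ?_⟩
    obtain ⟨i, hi⟩ := hcyc g
    obtain ⟨b, hb⟩ := hscal _ hi
    obtain ⟨c, hc⟩ := hz (-i)
    refine ⟨c * b, ?_⟩
    have h1 : g = (g * g₁ ^ i) * g₁ ^ (-i) := by group
    rw [h1, mulVec_mul, hc, mulVec_smul, hb, smul_smul]

end Clifford

section Burn

variable {k : Type*} [Field k] {Γ : Type*} [Group Γ] {ρ : Γ →* GL (Fin 2) k}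

/-- the action on vectors of a subgroup -/
noncomputable def vecRep {K : Type*} [Field K] (ρ : Γ →* GL (Fin 2) K) (H : Subgroup Γ) :
    H →* Module.End K (Fin 2 → K) where
  toFun h := Matrix.toLin' (ρ h : Matrix (Fin 2) (Fin 2) K)
  map_one' := by rw [Subgroup.coe_one, map_one, Units.val_one, Matrix.toLin'_one]; rfl
  map_mul' g h := by rw [Subgroup.coe_mul, map_mul, Units.val_mul, Matrix.toLin'_mul]; rfl

theorem span_of_not_comEig_algClosed {K : Type*} [Field K] [IsAlgClosed K]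
    {ρ : Γ →* GL (Fin 2) K} {H : Subgroup Γ} (h : ∀ v, ¬ ComEig ρ H v) :
    Submodule.span K (imgSet ρ H) = ⊤ := by
  have h1 := UnivDef.span_range_eq_top_algClosed (vecRep ρ H) (by
    intro W hW
    by_contra hcon
    rw [not_or] at hcon
    obtain ⟨v, hv, hv0⟩ := Submodule.exists_mem_ne_zero_of_ne_bot hcon.1
    have hfr : Module.finrank K W = 1 := by
      have h1 : Module.finrank K W < 2 := by
        have := Submodule.finrank_lt hcon.2
        simpa using this
      have h2 : 0 < Module.finrank K W := by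
        rw [Module.finrank_pos_iff_exists_ne_zero]
        exact ⟨⟨v, hv⟩, fun h => hv0 (congrArg Subtype.val h)⟩
      omega
    refine h v ⟨hv0, fun g hg => ?_⟩
    obtain ⟨c, hc⟩ := exists_smul_eq_of_finrank_eq_one hfr (x := ⟨v, hv⟩)
      (fun h => hv0 (congrArg Subtype.val h)) ⟨_, hW ⟨g, hg⟩ v hv⟩
    exact ⟨c, (congrArg Subtype.val hc).symm⟩)
  have h2 : (Submodule.span K (imgSet ρ H)).map
      (Matrix.toLin' (R := K) (m := Fin 2) (n := Fin 2)).toLinearMap = ⊤ := by
    rw [Submodule.map_span, ← h1]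
    congr 1
    ext f
    constructor
    · rintro ⟨_, ⟨g, hg, rfl⟩, rfl⟩
      exact ⟨⟨g, hg⟩, rfl⟩
    · rintro ⟨g, rfl⟩
      exact ⟨_, ⟨g.1, g.2, rfl⟩, rfl⟩
  have h3 := congrArg (Submodule.comap
    (Matrix.toLin' (R := K) (m := Fin 2) (n := Fin 2)).toLinearMap) h2
  rwa [Submodule.comap_map_eq_of_injective (Matrix.toLin' (R := K) (m := Fin 2)
    (n := Fin 2)).injective, Submodule.comap_top] at h3

/-- base change of a matrix representation -/
noncomputable def bc (K : Type*) [Field K] [Algebra k K] (ρ : Γ →* GL (Fin 2) k) :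
    Γ →* GL (Fin 2) K := (Units.map (algebraMap k K).mapMatrix.toMonoidHom).comp ρ

theorem bc_coe {K : Type*} [Field K] [Algebra k K] (g : Γ) :
    (bc K ρ g : Matrix (Fin 2) (Fin 2) K) =
      (ρ g : Matrix (Fin 2) (Fin 2) k).map (algebraMap k K) := rfl

theorem span_descent {K : Type*} [Field K] [Algebra k K] {s : Set (Matrix (Fin 2) (Fin 2) k)}
    (h : Submodule.span K ((fun M : Matrix (Fin 2) (Fin 2) k => M.map (algebraMap k K)) '' s) = ⊤) :
    Submodule.span k s = ⊤ := by
  by_contra hcon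
  obtain ⟨f, hf0, hf⟩ := Submodule.exists_le_ker_of_lt_top _ (lt_top_iff_ne_top.mpr hcon)
  set F : Matrix (Fin 2) (Fin 2) K →ₗ[K] K :=
    ∑ i, ∑ j, (algebraMap k K (f (Matrix.single i j 1))) • Matrix.entryLinearMap K K i j with hF
  have hFM : ∀ M : Matrix (Fin 2) (Fin 2) k, F (M.map (algebraMap k K)) = algebraMap k K (f M) := by
    intro M
    conv_rhs => rw [Matrix.matrix_eq_sum_single M]
    rw [hF]
    simp only [LinearMap.sum_apply, LinearMap.smul_apply, Matrix.entryLinearMap_apply, map_sum,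
      Matrix.map_apply, smul_eq_mul]
    refine Finset.sum_congr rfl fun i _ => Finset.sum_congr rfl fun j _ => ?_
    have h1 : Matrix.single i j (M i j) = M i j • Matrix.single i j (1 : k) := by
      rw [Matrix.smul_single, smul_eq_mul, mul_one]
    rw [h1, map_smul, smul_eq_mul, map_mul, mul_comm]
  have hF0 : F = 0 := by
    have h1 : Submodule.span K ((fun M : Matrix (Fin 2) (Fin 2) k => M.map (algebraMap k K)) '' s) ≤
        LinearMap.ker F := by
      rw [Submodule.span_le]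
      rintro _ ⟨M, hM, rfl⟩
      change F (M.map (algebraMap k K)) = 0
      rw [hFM, show f M = 0 from hf (Submodule.subset_span hM), map_zero]
    rw [h] at h1
    exact LinearMap.ker_eq_top.mp (top_le_iff.mp h1)
  apply hf0
  ext M
  have h2 := hFM M
  rw [hF0, LinearMap.zero_apply] at h2
  exact (map_eq_zero _).mp h2.symm

/-- **Spanning**: if the base change to an algebraically closed field has no common eigenvector
for the subgroup, then the image of the subgroup spans the matrix algebra. -/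
theorem span_imgSet_eq_top (K : Type*) [Field K] [IsAlgClosed K] [Algebra k K] {H : Subgroup Γ}
    (h : ∀ v, ¬ ComEig (bc K ρ) H v) : Submodule.span k (imgSet ρ H) = ⊤ := by
  refine span_descent (K := K) ?_
  rw [← span_of_not_comEig_algClosed h]
  congr 1
  ext M
  constructor
  · rintro ⟨_, ⟨g, hg, rfl⟩, rfl⟩
    exact ⟨g, hg, rfl⟩
  · rintro ⟨g, hg, rfl⟩
    exact ⟨_, ⟨g, hg, rfl⟩, rfl⟩

end Burn

section Vanish

variable {k : Type*} [Field k] {Γ : Type*} [Group Γ] {V : Type*} [AddCommGroup V] [Module k V]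
  {τ : Representation k Γ V}

/-- cocycles trivial on a subgroup of index prime to the characteristic are coboundaries -/
theorem exists_coboundary_on {N M : Subgroup Γ} (hMN : M ≤ N) [(M.subgroupOf N).FiniteIndex]
    (hind : ((M.relIndex N : ℕ) : k) ≠ 0) {c : Γ → V}
    (hc : ∀ g h, c (g * h) = τ g (c h) + c g) (hM : ∀ t ∈ M, c t = 0) :
    ∃ Y : V, ∀ h ∈ N, c h = τ h Y - Y := by
  classical
  haveI : Fintype (N ⧸ M.subgroupOf N) := Fintype.ofFinite _
  let F : N ⧸ M.subgroupOf N → V := Quotient.lift (fun n : N => c n) (by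
    intro a b hab
    change c a = c b
    have h1 : (a : Γ)⁻¹ * b ∈ M := by
      have h0 : a⁻¹ * b ∈ M.subgroupOf N := QuotientGroup.leftRel_apply.mp hab
      exact h0
    have h2 := hc a ((a : Γ)⁻¹ * b)
    rw [mul_inv_cancel_left, hM _ h1, map_zero, zero_add] at h2
    exact h2.symm)
  have hFmk : ∀ n : N, F (QuotientGroup.mk n) = c n := fun n => rfl
  set Sg := ∑ x, F x with hS
  set m : k := ((M.relIndex N : ℕ) : k) with hm
  have hcard : ((Fintype.card (N ⧸ M.subgroupOf N) : ℕ) : k) = m := by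
    rw [hm, Subgroup.relIndex, Subgroup.index_eq_card, Nat.card_eq_fintype_card]
  have key : ∀ h : N, Sg = τ h Sg + m • c h := by
    intro h
    have h1 : ∀ x : N ⧸ M.subgroupOf N, F (h • x) = τ h (F x) + c h := by
      intro x
      induction x using QuotientGroup.induction_on with
      | H n =>
        rw [MulAction.Quotient.smul_mk, hFmk, hFmk]
        exact hc h n
    have h2 : Sg = ∑ x, F (h • x) :=
      (Equiv.sum_comp (MulAction.toPerm h : Equiv.Perm (N ⧸ M.subgroupOf N)) F).symm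
    conv_lhs => rw [h2]
    simp only [h1]
    rw [Finset.sum_add_distrib, ← map_sum, Finset.sum_const, Finset.card_univ, ← hcard,
      Nat.cast_smul_eq_nsmul]
  refine ⟨-(m⁻¹ • Sg), fun h hh => ?_⟩
  have h3 := key ⟨h, hh⟩
  have h4 : m • c h = Sg - τ h Sg := (sub_eq_of_eq_add' h3).symm
  rw [map_neg, map_smul, sub_neg_eq_add, ← inv_smul_smul₀ hind (c h), h4, smul_sub]
  abel

/-- vanishing through a normal subgroup without invariants -/
theorem mem_B1_of_normal {N M : Subgroup Γ} [hN : N.Normal] (hMN : M ≤ N)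
    [(M.subgroupOf N).FiniteIndex] (hind : ((M.relIndex N : ℕ) : k) ≠ 0)
    (hinv : ∀ v : V, (∀ n ∈ N, τ n v = v) → v = 0) {c : Γ → V}
    (hc : ∀ g h, c (g * h) = τ g (c h) + c g) (hM : ∀ t ∈ M, c t = 0) : c ∈ B1 τ := by
  obtain ⟨Y, hY⟩ := exists_coboundary_on hMN hind hc hM
  rw [mem_B1]
  refine ⟨Y, fun g => ?_⟩
  rw [← sub_eq_zero]
  apply hinv
  intro n hn
  -- the modified cocycle
  set c' : Γ → V := fun g => c g - (τ g Y - Y) with hc'
  have hcoc : ∀ g h, c' (g * h) = τ g (c' h) + c' g := by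
    intro g h
    simp only [hc', hc, map_sub, map_mul, Module.End.mul_apply]
    abel
  have hN0 : ∀ n ∈ N, c' n = 0 := by
    intro n hn
    simp only [hc', hY n hn, sub_self]
  have h1 : c' (n * g) = τ n (c' g) := by rw [hcoc, hN0 n hn, add_zero]
  have h2 : c' (n * g) = c' g := by
    have h3 : n * g = g * (g⁻¹ * n * g) := by group
    have h4 : g⁻¹ * n * g ∈ N := by
      have := hN.conj_mem n hn g⁻¹
      rwa [inv_inv] at this
    rw [h3, hcoc, hN0 _ h4, map_zero, zero_add]
  rw [h1] at h2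
  exact h2

end Vanish

end Fermat.Agent.RT
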