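import Mathlib

set_option autoImplicit false

/-!
# Taylor–Wiles primes: linear algebra

For an absolutely irreducible group `H` of `2 × 2` matrices of determinant one and a nonzero
`H`-stable space `W` of matrices of trace zero there are `h ∈ H` with distinct eigenvalues and
`X ∈ W` with `tr (h X) ≠ 0`.
-/

open Matrix

namespace Fermat.Agent.RT

variable {k : Type*} [Field k]

/-- nondegeneracy of the trace form, on a spanning set -/
theorem eq_zero_of_trace_mul {s : Set (Matrix (Fin 2) (Fin 2) k)}
    (hs : Submodule.span k s = ⊤) {X : Matrix (Fin 2) (Fin 2) k}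
    (h : ∀ Y ∈ s, (Y * X).trace = 0) : X = 0 := by
  have h1 : ∀ Y : Matrix (Fin 2) (Fin 2) k, (Y * X).trace = 0 := by
    intro Y
    have hY : Y ∈ Submodule.span k s := by rw [hs]; trivial
    induction hY using Submodule.span_induction with
    | mem y hy => exact h y hy
    | zero => simp
    | add x y _ _ hx hy => rw [add_mul, trace_add, hx, hy, add_zero]
    | smul a x _ hx => rw [smul_mul_assoc, trace_smul, hx, smul_zero]
  ext i j
  have h2 := h1 (Matrix.single j i 1)
  rw [Matrix.trace_single_mul] at h2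
  simpa using h2

theorem comm_nilp {M X : Matrix (Fin 2) (Fin 2) k} (hM : M.trace = 0) (hM2 : M.det = 0)
    (hM0 : M ≠ 0) (hX : X.trace = 0) (h : (M * X).trace = 0) :
    ∃ l : k, M * X - X * M = l • M := by
  rw [trace_fin_two] at hM hX
  rw [det_fin_two] at hM2
  have e1 : M 1 1 = - M 0 0 := by linear_combination hM
  have e2 : X 1 1 = - X 0 0 := by linear_combination hX
  rw [e1] at hM2
  rw [trace_fin_two, mul_apply, mul_apply, Fin.sum_univ_two, Fin.sum_univ_two, e1, e2] at h
  by_cases hb : M 0 1 = 0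
  · have ha : M 0 0 = 0 := by
      have : M 0 0 ^ 2 = 0 := by rw [hb] at hM2; linear_combination -hM2
      exact pow_eq_zero_iff two_ne_zero |>.mp this
    have hc : M 1 0 ≠ 0 := by
      intro hc
      apply hM0
      ext i j
      fin_cases i <;> fin_cases j <;> simp [ha, hb, hc, e1]
    rw [ha, hb] at h
    have hy : X 0 1 = 0 := by
      have : M 1 0 * X 0 1 = 0 := by linear_combination h
      exact (mul_eq_zero.mp this).resolve_left hc
    refine ⟨2 * X 0 0, ?_⟩
    ext i j
    fin_cases i <;> fin_cases j <;>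
      simp [mul_apply, Fin.sum_univ_two, ha, hb, hy, e1, e2]
    ring
  · refine ⟨2 * (M 0 0 * X 0 1 - M 0 1 * X 0 0) / M 0 1, ?_⟩
    ext i j
    fin_cases i <;> fin_cases j <;>
      simp only [Fin.zero_eta, Fin.mk_one, Fin.isValue, Matrix.sub_apply, Matrix.smul_apply, smul_eq_mul,
        mul_apply, Fin.sum_univ_two, e1, e2]
    · field_simp
      linear_combination M 0 1 * h + 2 * X 0 1 * hM2
    · field_simp
      ring
    · field_simp
      linear_combination (-2 * M 0 0) * h + (-4 * X 0 0) * hM2
    · field_simp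
      linear_combination (-M 0 1) * h - 2 * X 0 1 * hM2

theorem comm_nilp' {M X : Matrix (Fin 2) (Fin 2) k} (h2 : (2 : k) ≠ 0) (hM : M.trace = 0)
    (hM2 : M.det = 0) (hM0 : M ≠ 0) (hX : X.trace = 0) (h : M * X = X * M) :
    ∃ l : k, X = l • M := by
  rw [trace_fin_two] at hM hX
  rw [det_fin_two] at hM2
  have e1 : M 1 1 = - M 0 0 := by linear_combination hM
  have e2 : X 1 1 = - X 0 0 := by linear_combination hX
  rw [e1] at hM2
  have h00 := congrFun (congrFun h 0) 0
  have h01 := congrFun (congrFun h 0) 1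
  have h10 := congrFun (congrFun h 1) 0
  simp only [mul_apply, Fin.sum_univ_two, e1, e2] at h00 h01 h10
  have k01 : M 0 0 * X 0 1 = M 0 1 * X 0 0 := by
    have : 2 * (M 0 0 * X 0 1 - M 0 1 * X 0 0) = 0 := by linear_combination h01
    exact sub_eq_zero.mp ((mul_eq_zero.mp this).resolve_left h2)
  have k10 : M 0 0 * X 1 0 = M 1 0 * X 0 0 := by
    have : 2 * (M 0 0 * X 1 0 - M 1 0 * X 0 0) = 0 := by linear_combination -h10
    exact sub_eq_zero.mp ((mul_eq_zero.mp this).resolve_left h2)
  by_cases hb : M 0 1 = 0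
  · have ha : M 0 0 = 0 := by
      have : M 0 0 ^ 2 = 0 := by rw [hb] at hM2; linear_combination -hM2
      exact pow_eq_zero_iff two_ne_zero |>.mp this
    have hc : M 1 0 ≠ 0 := by
      intro hc
      apply hM0
      ext i j
      fin_cases i <;> fin_cases j <;> simp [ha, hb, hc, e1]
    rw [ha, zero_mul] at k10
    have hx : X 0 0 = 0 := (mul_eq_zero.mp k10.symm).resolve_left hc
    rw [hb] at h00
    have hy : X 0 1 = 0 := by
      have : M 1 0 * X 0 1 = 0 := by linear_combination -h00
      exact (mul_eq_zero.mp this).resolve_left hc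
    refine ⟨X 1 0 / M 1 0, ?_⟩
    ext i j
    fin_cases i <;> fin_cases j <;> simp [ha, hb, hx, hy, e1, e2, hc]
  · refine ⟨X 0 1 / M 0 1, ?_⟩
    ext i j
    fin_cases i <;> fin_cases j <;>
      simp only [Fin.zero_eta, Fin.mk_one, Fin.isValue, Matrix.smul_apply, smul_eq_mul, e1, e2]
    · field_simp
      linear_combination -k01
    · field_simp
    · field_simp
      linear_combination h00
    · field_simp
      linear_combination k01

theorem nilp_sandwich {M X : Matrix (Fin 2) (Fin 2) k} (hM : M.trace = 0) (hM2 : M.det = 0) :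
    M * X * M = (M * X).trace • M := by
  rw [trace_fin_two] at hM
  rw [det_fin_two] at hM2
  have e1 : M 1 1 = - M 0 0 := by linear_combination hM
  rw [e1] at hM2
  ext i j
  fin_cases i <;> fin_cases j <;>
    simp only [Fin.zero_eta, Fin.mk_one, Fin.isValue, Matrix.smul_apply, smul_eq_mul, mul_apply,
      Fin.sum_univ_two, trace_fin_two, e1]
  · linear_combination (-X 1 1) * hM2
  · linear_combination (X 0 1) * hM2
  · linear_combination (X 1 0) * hM2
  · linear_combination (-X 0 0) * hM2

theorem nilp_sq {M : Matrix (Fin 2) (Fin 2) k} (hM : M.trace = 0) (hM2 : M.det = 0) :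
    M * M = 0 := by
  have h := nilp_sandwich (X := 1) hM hM2
  rw [mul_one, hM, zero_smul] at h
  exact h

section Main

variable {Γ : Type*} [Group Γ] (ρ : Γ →* GL (Fin 2) k) {H : Subgroup Γ}
  {W : Submodule k (Matrix (Fin 2) (Fin 2) k)}

/-- the matrices of the elements of a subgroup -/
def imgSet (ρ : Γ →* GL (Fin 2) k) (H : Subgroup Γ) : Set (Matrix (Fin 2) (Fin 2) k) :=
  {A | ∃ h ∈ H, (ρ h : Matrix (Fin 2) (Fin 2) k) = A}

variable {ρ}

theorem det_sub_one {u : Matrix (Fin 2) (Fin 2) k} (hdet : u.det = 1) (htr : u.trace = 2) :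
    (u - 1).trace = 0 ∧ (u - 1).det = 0 := by
  rw [det_fin_two] at hdet
  rw [trace_fin_two] at htr
  constructor
  · rw [trace_sub, trace_one, trace_fin_two, htr]
    simp
  · rw [det_fin_two]
    simp only [Matrix.sub_apply, one_apply_eq]
    rw [one_apply_ne (by decide), one_apply_ne (by decide)]
    linear_combination hdet - htr

/-- a nilpotent element in the stable subspace -/
theorem nilp_mem (h2 : (2 : k) ≠ 0) (htr : ∀ X ∈ W, X.trace = 0) (hW : W ≠ ⊥)
    {M : Matrix (Fin 2) (Fin 2) k} (hM : M.trace = 0) (hM2 : M.det = 0) (hM0 : M ≠ 0)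
    (hst : ∀ X ∈ W, (1 + M) * X * (1 - M) ∈ W) : M ∈ W := by
  have hsq := nilp_sq hM hM2
  obtain ⟨X, hX, hX0⟩ := Submodule.exists_mem_ne_zero_of_ne_bot hW
  have key : ∀ X ∈ W, M * X - X * M - (M * X).trace • M ∈ W := by
    intro X hX
    have h1 := W.sub_mem (hst X hX) hX
    have e : (1 + M) * X * (1 - M) - X = M * X - X * M - (M * X).trace • M := by
      rw [← nilp_sandwich hM hM2]
      noncomm_ring
    rwa [e] at h1
  have hY := key X hX
  by_cases hc : (M * X).trace = 0
  · rw [hc, zero_smul, sub_zero] at hY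
    obtain ⟨l, hl⟩ := comm_nilp hM hM2 hM0 (htr X hX) hc
    by_cases hl0 : l = 0
    · rw [hl0, zero_smul, sub_eq_zero] at hl
      obtain ⟨m, hm⟩ := comm_nilp' h2 hM hM2 hM0 (htr X hX) hl
      have hm0 : m ≠ 0 := by
        rintro rfl
        rw [zero_smul] at hm
        exact hX0 hm
      rw [hm] at hX
      exact (W.smul_mem_iff hm0).mp hX
    · rw [hl] at hY
      exact (W.smul_mem_iff hl0).mp hY
  · have hZ := key _ hY
    have e1 : M * (M * X - X * M - (M * X).trace • M) = - ((M * X).trace • M) := by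
      rw [mul_sub, mul_sub, ← mul_assoc, hsq, zero_mul, mul_smul_comm, hsq, smul_zero,
        ← mul_assoc, nilp_sandwich hM hM2]
      simp
    have e2 : (M * X - X * M - (M * X).trace • M) * M = (M * X).trace • M := by
      rw [sub_mul, sub_mul, mul_assoc X M M, hsq, mul_zero, smul_mul_assoc, hsq, smul_zero,
        nilp_sandwich hM hM2]
      simp
    rw [e1, e2, trace_neg, trace_smul, hM, smul_zero, neg_zero, zero_smul, sub_zero] at hZ
    have e3 : -((M * X).trace • M) - (M * X).trace • M = (-(2 * (M * X).trace)) • M := by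
      rw [neg_smul, two_mul, add_smul]
      abel
    rw [e3] at hZ
    exact (W.smul_mem_iff (neg_ne_zero.mpr (mul_ne_zero h2 hc))).mp hZ

/-- **Linear algebra for Taylor–Wiles primes.** -/
theorem exists_tw (h2 : (2 : k) ≠ 0) (hdet : ∀ h ∈ H, (ρ h : Matrix (Fin 2) (Fin 2) k).det = 1)
    (hspan : Submodule.span k (imgSet ρ H) = ⊤) (htr : ∀ X ∈ W, X.trace = 0)
    (hst : ∀ h ∈ H, ∀ X ∈ W, (ρ h : Matrix (Fin 2) (Fin 2) k) * X * (ρ h⁻¹ :
      Matrix (Fin 2) (Fin 2) k) ∈ W) (hW : W ≠ ⊥) :
    ∃ h ∈ H, (ρ h : Matrix (Fin 2) (Fin 2) k).trace ^ 2 ≠ 4 ∧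
      ∃ X ∈ W, ((ρ h : Matrix (Fin 2) (Fin 2) k) * X).trace ≠ 0 := by
  by_contra hcon
  push Not at hcon
  by_cases hu : ∃ v ∈ H, (ρ v : Matrix (Fin 2) (Fin 2) k).trace = 2 ∧
      (ρ v : Matrix (Fin 2) (Fin 2) k) ≠ 1
  · obtain ⟨v, hv, hv2, hv1⟩ := hu
    set M : Matrix (Fin 2) (Fin 2) k := (ρ v : Matrix (Fin 2) (Fin 2) k) - 1 with hMdef
    have hM : M.trace = 0 := (det_sub_one (hdet v hv) hv2).1
    have hM2 : M.det = 0 := (det_sub_one (hdet v hv) hv2).2
    have hM0 : M ≠ 0 := sub_ne_zero.mpr hv1
    have hsq := nilp_sq hM hM2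
    have hvM : (ρ v : Matrix (Fin 2) (Fin 2) k) = 1 + M := by rw [hMdef]; abel
    have hvi : ((ρ v⁻¹ : GL (Fin 2) k) : Matrix (Fin 2) (Fin 2) k) = 1 - M := by
      have e1 : (ρ v : Matrix (Fin 2) (Fin 2) k) * (1 - M) = 1 := by
        rw [hvM]
        have : (1 + M) * (1 - M) = 1 - M * M := by noncomm_ring
        rw [this, hsq, sub_zero]
      have e2 : ((ρ v⁻¹ : GL (Fin 2) k) : Matrix (Fin 2) (Fin 2) k) *
          (ρ v : Matrix (Fin 2) (Fin 2) k) = 1 := by
        rw [← Units.val_mul, ← map_mul, inv_mul_cancel, map_one, Units.val_one]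
      calc ((ρ v⁻¹ : GL (Fin 2) k) : Matrix (Fin 2) (Fin 2) k)
          = ((ρ v⁻¹ : GL (Fin 2) k) : Matrix (Fin 2) (Fin 2) k) *
            ((ρ v : Matrix (Fin 2) (Fin 2) k) * (1 - M)) := by rw [e1, mul_one]
        _ = 1 - M := by rw [← mul_assoc, e2, one_mul]
    have hMW : M ∈ W := nilp_mem h2 htr hW hM hM2 hM0 fun X hX => by
      have := hst v hv X hX
      rwa [hvM, hvi] at this
    -- an element `h` with `tr (h M) ≠ 0`
    obtain ⟨h, hh, hhM⟩ : ∃ h ∈ H, ((ρ h : Matrix (Fin 2) (Fin 2) k) * M).trace ≠ 0 := by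
      by_contra hc
      push Not at hc
      refine hM0 (eq_zero_of_trace_mul hspan ?_)
      rintro _ ⟨h, hh, rfl⟩
      exact hc h hh
    set a := ((ρ h : Matrix (Fin 2) (Fin 2) k) * M).trace with ha
    set t := (ρ h : Matrix (Fin 2) (Fin 2) k).trace with ht
    have hpow : ∀ j : ℕ, ((ρ (v ^ j) : GL (Fin 2) k) : Matrix (Fin 2) (Fin 2) k) =
        1 + (j : k) • M := by
      intro j
      induction j with
      | zero => simp
      | succ j ih =>
        rw [pow_succ, map_mul, Units.val_mul, ih, hvM]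
        have : (1 + (j : k) • M) * (1 + M) = 1 + (j : k) • M + M + (j : k) • (M * M) := by
          rw [mul_add, add_mul, add_mul, smul_mul_assoc]
          simp only [mul_one, one_mul, smul_mul_assoc]
          abel
        rw [this, hsq, smul_zero, add_zero, Nat.cast_succ, add_smul, one_smul, add_assoc]
    have h4 : ∀ j : ℕ, (t + j * a) ^ 2 = 4 := by
      intro j
      have e1 : ((ρ (v ^ j * h) : GL (Fin 2) k) : Matrix (Fin 2) (Fin 2) k).trace = t + j * a := by
        rw [map_mul, Units.val_mul, hpow, add_mul, one_mul, smul_mul_assoc, trace_add, trace_smul,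
          trace_mul_comm M, smul_eq_mul]
      have e2 : (((ρ (v ^ j * h) : GL (Fin 2) k) : Matrix (Fin 2) (Fin 2) k) * M).trace = a := by
        rw [map_mul, Units.val_mul, hpow, add_mul, one_mul, smul_mul_assoc, add_mul,
          smul_mul_assoc, trace_add, trace_smul, nilp_sandwich hM hM2, trace_smul, hM, smul_zero,
          smul_zero, add_zero]
      by_contra hne
      rw [← e1] at hne
      refine hhM ?_
      rw [← e2]
      exact hcon _ (H.mul_mem (H.pow_mem hv j) hh) hne M hMW
    have q0 := h4 0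
    have q1 := h4 1
    have q2 := h4 2
    simp only [Nat.cast_zero, zero_mul, add_zero, Nat.cast_one, one_mul, Nat.cast_ofNat] at q0 q1 q2
    have e1 : a * (2 * t + a) = 0 := by linear_combination q1 - q0
    have e2 : a * (4 * (t + a)) = 0 := by linear_combination q2 - q0
    have e3 := (mul_eq_zero.mp e1).resolve_left hhM
    have e4 := (mul_eq_zero.mp e2).resolve_left hhM
    have e5 : 2 * a = 0 := by linear_combination e4 - 2 * e3
    exact (mul_ne_zero h2 hhM) e5
  · push Not at hu
    have hone : ∀ h ∈ H, ∀ X ∈ W, ((ρ h : Matrix (Fin 2) (Fin 2) k) * X).trace = 0 := by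
      intro h hh X hX
      by_cases ht : (ρ h : Matrix (Fin 2) (Fin 2) k).trace ^ 2 = 4
      · have h3 : ((ρ h : Matrix (Fin 2) (Fin 2) k).trace - 2) *
            ((ρ h : Matrix (Fin 2) (Fin 2) k).trace + 2) = 0 := by linear_combination ht
        rcases mul_eq_zero.mp h3 with h4 | h4
        · rw [hu h hh (sub_eq_zero.mp h4), one_mul, htr X hX]
        · -- trace `-2`: the square has trace `2`
          have hd := hdet h hh
          set A := (ρ h : Matrix (Fin 2) (Fin 2) k) with hA
          have htA : A.trace = -2 := by linear_combination h4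
          have hsq : ((ρ (h * h) : GL (Fin 2) k) : Matrix (Fin 2) (Fin 2) k) = A * A := by
            rw [map_mul, Units.val_mul]
          have hCH : A * A = A.trace • A - A.det • (1 : Matrix (Fin 2) (Fin 2) k) := by
            ext i j
            fin_cases i <;> fin_cases j <;>
              simp [mul_apply, Fin.sum_univ_two, trace_fin_two, det_fin_two] <;> ring
          rw [htA, hd, one_smul] at hCH
          have htr2 : (A * A).trace = 2 := by
            rw [hCH, trace_sub, trace_smul, htA, trace_one]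
            simp
            norm_num
          have h5 := hu (h * h) (H.mul_mem hh hh) (by rw [hsq]; exact htr2)
          rw [hsq, hCH] at h5
          have h6 : A = -1 := by
            have h7 : (2 : k) • (A + 1) = 0 := by
              rw [neg_smul] at h5
              have h8 : -((2 : k) • A) - 1 - 1 = (0 : Matrix (Fin 2) (Fin 2) k) := by
                rw [h5, sub_self]
              rw [smul_add, ← neg_eq_zero]
              rw [← h8, two_smul k (1 : Matrix (Fin 2) (Fin 2) k)]
              abel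
            exact eq_neg_of_add_eq_zero_left ((smul_eq_zero.mp h7).resolve_left h2)
          rw [h6, neg_one_mul, trace_neg, htr X hX, neg_zero]
      · exact hcon h hh ht X hX
    obtain ⟨X, hX, hX0⟩ := Submodule.exists_mem_ne_zero_of_ne_bot hW
    refine hX0 (eq_zero_of_trace_mul hspan ?_)
    rintro _ ⟨h, hh, rfl⟩
    exact hone h hh X hX

end Main

end Fermat.Agent.RT
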