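import Fermat.Agent.RT.TWGroup
import Fermat.Agent.RT.PatchLimit

set_option autoImplicit false
set_option maxHeartbeats 400000
set_option linter.style.haveILetI false
set_option linter.unusedSectionVars false
set_option linter.unusedVariables false

/-!
# Changing the structure of module over the group ring
-/

open IsLocalRing MvPowerSeries

namespace Fermat.Agent.RT

section Tw

variable {Λ : Type} [CommRing Λ] {d : ℕ}

/-- The module `Λ ^ d` with the structure given by a ring homomorphism to matrices. -/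
def TwV (Ψ : Λ →+* Matrix (Fin d) (Fin d) Λ) : Type := Fin d → Λ

namespace TwV

variable (Ψ : Λ →+* Matrix (Fin d) (Fin d) Λ)

instance : AddCommGroup (TwV Ψ) := inferInstanceAs (AddCommGroup (Fin d → Λ))

/-- The underlying vector. -/
def get (v : TwV Ψ) : Fin d → Λ := v

/-- From a vector. -/
def mk (v : Fin d → Λ) : TwV Ψ := v

@[ext] lemma ext {v w : TwV Ψ} (h : get Ψ v = get Ψ w) : v = w := h

@[simp] lemma get_mk (v : Fin d → Λ) : get Ψ (mk Ψ v) = v := rfl
@[simp] lemma get_add (v w : TwV Ψ) : get Ψ (v + w) = get Ψ v + get Ψ w := rfl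
@[simp] lemma get_zero : get Ψ (0 : TwV Ψ) = 0 := rfl

instance : Module Λ (TwV Ψ) where
  smul a v := mk Ψ (Matrix.mulVec (Ψ a) (get Ψ v))
  one_smul v := by
    change mk Ψ (Matrix.mulVec (Ψ 1) (get Ψ v)) = v
    rw [map_one, Matrix.one_mulVec]; rfl
  mul_smul a b v := by
    change mk Ψ (Matrix.mulVec (Ψ (a * b)) (get Ψ v)) =
      mk Ψ (Matrix.mulVec (Ψ a) (Matrix.mulVec (Ψ b) (get Ψ v)))
    rw [map_mul, Matrix.mulVec_mulVec]
  smul_zero a := by
    change mk Ψ (Matrix.mulVec (Ψ a) 0) = 0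
    rw [Matrix.mulVec_zero]; rfl
  smul_add a v w := by
    change mk Ψ (Matrix.mulVec (Ψ a) (get Ψ v + get Ψ w)) = _
    rw [Matrix.mulVec_add]; rfl
  add_smul a b v := by
    change mk Ψ (Matrix.mulVec (Ψ (a + b)) (get Ψ v)) = _
    rw [map_add, Matrix.add_mulVec]; rfl
  zero_smul v := by
    change mk Ψ (Matrix.mulVec (Ψ 0) (get Ψ v)) = 0
    rw [map_zero, Matrix.zero_mulVec]; rfl

lemma get_smul (a : Λ) (v : TwV Ψ) : get Ψ (a • v) = Matrix.mulVec (Ψ a) (get Ψ v) := rfl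

end TwV

/-- The comparison map. -/
noncomputable def twMap (Ψ : Λ →+* Matrix (Fin d) (Fin d) Λ) : (Fin d → Λ) →ₗ[Λ] TwV Ψ :=
  Fintype.linearCombination Λ (fun j => TwV.mk Ψ (Pi.single j 1))

lemma get_twMap (Ψ : Λ →+* Matrix (Fin d) (Fin d) Λ) (v : Fin d → Λ) :
    TwV.get Ψ (twMap Ψ v) = ∑ j, Matrix.mulVec (Ψ (v j)) (Pi.single j 1) := by
  rw [twMap, Fintype.linearCombination_apply]
  have h : ∀ s : Finset (Fin d), ∀ w : Fin d → TwV Ψ,
      TwV.get Ψ (∑ j ∈ s, w j) = ∑ j ∈ s, TwV.get Ψ (w j) := by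
    intro s w
    induction s using Finset.cons_induction with
    | empty => rfl
    | cons a s ha ih => rw [Finset.sum_cons, Finset.sum_cons, TwV.get_add, ih]
  rw [h]
  rfl

lemma twMap_single (Ψ : Λ →+* Matrix (Fin d) (Fin d) Λ) (j : Fin d) (a : Λ) :
    TwV.get Ψ (twMap Ψ (Pi.single j a)) = Matrix.mulVec (Ψ a) (Pi.single j 1) := by
  rw [twMap, Fintype.linearCombination_apply_single]; rfl

end Tw

section Main

variable {𝒪 : Type} [CommRing 𝒪] [IsDomain 𝒪] [IsDiscreteValuationRing 𝒪]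
  [IsAdicComplete (maximalIdeal 𝒪) 𝒪] {p r : ℕ} {D : Type} [CommGroup D] [Finite D] (G : GenGroup p r D)
  [IsLocalRing (MonoidAlgebra 𝒪 D)] {d : ℕ}
  (Ψ : MonoidAlgebra 𝒪 D →ₐ[𝒪] Matrix (Fin d) (Fin d) (MonoidAlgebra 𝒪 D))
  (a a' : Fin r → Matrix (Fin d) (Fin d) (MonoidAlgebra 𝒪 D))
  (ha : ∀ i, a i * a' i = 1)
  (hΨ : ∀ i, Ψ (MonoidAlgebra.of 𝒪 D (G.δ i) - 1) = (MonoidAlgebra.of 𝒪 D (G.δ i) - 1) • a i)

/-- The underlying ring homomorphism. -/
noncomputable abbrev ψr : MonoidAlgebra 𝒪 D →+* Matrix (Fin d) (Fin d) (MonoidAlgebra 𝒪 D) :=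
  (Ψ : MonoidAlgebra 𝒪 D →+* Matrix (Fin d) (Fin d) (MonoidAlgebra 𝒪 D))

include ha hΨ in
lemma twMap_surjective : Function.Surjective (twMap (ψr Ψ)) := by
  rw [← LinearMap.range_eq_top]
  have hfg : (⊤ : Submodule (MonoidAlgebra 𝒪 D) (TwV (ψr Ψ))).FG := by
    -- generated by the old generators over `𝒪`
    letI : Module 𝒪 (TwV (ψr Ψ)) := Module.compHom _ (algebraMap 𝒪 (MonoidAlgebra 𝒪 D))
    haveI : IsScalarTower 𝒪 (MonoidAlgebra 𝒪 D) (TwV (ψr Ψ)) := by
      refine ⟨fun c x v => ?_⟩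
      rw [Algebra.smul_def, mul_smul]; rfl
    have hsm : ∀ (c : 𝒪) (v : TwV (ψr Ψ)), TwV.get _ (c • v) = c • TwV.get _ v := by
      intro c v
      change Matrix.mulVec (Ψ (algebraMap 𝒪 (MonoidAlgebra 𝒪 D) c)) (TwV.get _ v) = _
      rw [AlgHom.commutes, Algebra.algebraMap_eq_smul_one, Matrix.smul_mulVec, Matrix.one_mulVec]
    let e : TwV (ψr Ψ) ≃ₗ[𝒪] (Fin d → MonoidAlgebra 𝒪 D) :=
      { toFun := TwV.get _, invFun := TwV.mk _, left_inv := fun _ => rfl, right_inv := fun _ => rfl,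
        map_add' := fun _ _ => rfl, map_smul' := fun c v => hsm c v }
    haveI : Module.Finite 𝒪 (TwV (ψr Ψ)) := Module.Finite.equiv e.symm
    exact (Module.Finite.of_restrictScalars_finite 𝒪 (MonoidAlgebra 𝒪 D) (TwV (ψr Ψ))).fg_top
  refine top_le_iff.mp (Submodule.le_of_le_smul_of_le_jacobson_bot
    (I := maximalIdeal (MonoidAlgebra 𝒪 D)) hfg (IsLocalRing.maximalIdeal_le_jacobson ⊥) ?_)
  intro v _
  -- decompose the coordinates
  have h1 : ∀ x : MonoidAlgebra 𝒪 D, x - algebraMap 𝒪 _ (aug 𝒪 D x) ∈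
      Ideal.span (Set.range fun i => MonoidAlgebra.of 𝒪 D (G.δ i) - 1) :=
    sub_aug_mem (G.of_sub_one_mem _ fun i => Ideal.subset_span ⟨i, rfl⟩)
  have h2 : ∀ x ∈ Ideal.span (Set.range fun i => MonoidAlgebra.of 𝒪 D (G.δ i) - 1), ∀ j : Fin d,
      TwV.mk (ψr Ψ) (Pi.single j x) ∈
        (maximalIdeal (MonoidAlgebra 𝒪 D) • ⊤ : Submodule (MonoidAlgebra 𝒪 D) (TwV (ψr Ψ))) := by
    intro x hx j
    obtain ⟨c, rfl⟩ := (Ideal.mem_span_range_iff_exists_fun).mp hx
    have h3 : TwV.mk (ψr Ψ) (Pi.single j (∑ i, c i * (MonoidAlgebra.of 𝒪 D (G.δ i) - 1))) =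
        ∑ i, (MonoidAlgebra.of 𝒪 D (G.δ i) - 1) •
          TwV.mk (ψr Ψ) (Matrix.mulVec (a' i) (Pi.single j (c i))) := by
      apply TwV.ext
      have hsum : ∀ s : Finset (Fin r), ∀ w : Fin r → TwV (ψr Ψ),
          TwV.get (ψr Ψ) (∑ j ∈ s, w j) = ∑ j ∈ s, TwV.get (ψr Ψ) (w j) := by
        intro s w
        induction s using Finset.cons_induction with
        | empty => rfl
        | cons a s ha ih => rw [Finset.sum_cons, Finset.sum_cons, TwV.get_add, ih]
      rw [hsum, TwV.get_mk]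
      have h4 : ∀ i, TwV.get (ψr Ψ) ((MonoidAlgebra.of 𝒪 D (G.δ i) - 1) •
          TwV.mk (ψr Ψ) (Matrix.mulVec (a' i) (Pi.single j (c i)))) =
          Pi.single j (c i * (MonoidAlgebra.of 𝒪 D (G.δ i) - 1)) := by
        intro i
        rw [TwV.get_smul, TwV.get_mk]
        change Matrix.mulVec (Ψ (MonoidAlgebra.of 𝒪 D (G.δ i) - 1)) _ = _
        rw [hΨ, Matrix.smul_mulVec, Matrix.mulVec_mulVec, ha, Matrix.one_mulVec]
        funext l
        rw [Pi.smul_apply, smul_eq_mul]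
        by_cases hl : l = j
        · subst hl; rw [Pi.single_eq_same, Pi.single_eq_same, mul_comm]
        · rw [Pi.single_eq_of_ne hl, Pi.single_eq_of_ne hl, mul_zero]
      rw [Finset.sum_congr rfl fun i _ => h4 i]
      funext l
      rw [Finset.sum_apply]
      by_cases hl : l = j
      · subst hl
        rw [Pi.single_eq_same]
        exact Finset.sum_congr rfl fun i _ => by rw [Pi.single_eq_same]
      · rw [Pi.single_eq_of_ne hl, Finset.sum_eq_zero fun i _ => by rw [Pi.single_eq_of_ne hl]]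
    rw [h3]
    exact Submodule.sum_mem _ fun i _ =>
      Submodule.smul_mem_smul (of_sub_one_mem_maximalIdeal _) Submodule.mem_top
  have h5 : v = ∑ j, (twMap (ψr Ψ) (Pi.single j (algebraMap 𝒪 _ (aug 𝒪 D (TwV.get _ v j)))) +
      TwV.mk (ψr Ψ) (Pi.single j (TwV.get _ v j - algebraMap 𝒪 _ (aug 𝒪 D (TwV.get _ v j))))) := by
    apply TwV.ext
    have hsum : ∀ s : Finset (Fin d), ∀ w : Fin d → TwV (ψr Ψ),
        TwV.get (ψr Ψ) (∑ j ∈ s, w j) = ∑ j ∈ s, TwV.get (ψr Ψ) (w j) := by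
      intro s w
      induction s using Finset.cons_induction with
      | empty => rfl
      | cons a s ha ih => rw [Finset.sum_cons, Finset.sum_cons, TwV.get_add, ih]
    rw [hsum]
    have h6 : ∀ j, TwV.get (ψr Ψ) (twMap (ψr Ψ) (Pi.single j (algebraMap 𝒪 _ (aug 𝒪 D
        (TwV.get _ v j)))) + TwV.mk (ψr Ψ) (Pi.single j (TwV.get _ v j -
        algebraMap 𝒪 _ (aug 𝒪 D (TwV.get _ v j))))) = Pi.single j (TwV.get _ v j) := by
      intro j
      rw [TwV.get_add, twMap_single, TwV.get_mk]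
      change Matrix.mulVec (Ψ (algebraMap 𝒪 _ _)) _ + _ = _
      rw [AlgHom.commutes, Algebra.algebraMap_eq_smul_one, Matrix.smul_mulVec, Matrix.one_mulVec]
      funext l
      rw [Pi.add_apply, Pi.smul_apply]
      by_cases hl : l = j
      · subst hl
        rw [Pi.single_eq_same, Pi.single_eq_same, Pi.single_eq_same, Algebra.smul_def, mul_one,
          add_sub_cancel]
      · rw [Pi.single_eq_of_ne hl, Pi.single_eq_of_ne hl, Pi.single_eq_of_ne hl, smul_zero,
          add_zero]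
    rw [Finset.sum_congr rfl fun j _ => h6 j]
    exact (Finset.univ_sum_single _).symm
  rw [h5]
  refine Submodule.sum_mem _ fun j _ => Submodule.add_mem_sup (LinearMap.mem_range_self _ _) ?_
  exact h2 _ (h1 _) j

include ha hΨ in
lemma twMap_bijective : Function.Bijective (twMap (ψr Ψ)) := by
  have hs := twMap_surjective G Ψ a a' ha hΨ
  refine ⟨?_, hs⟩
  -- as an `𝒪`-linear endomorphism of `Λ ^ d`
  let f : (Fin d → MonoidAlgebra 𝒪 D) →ₗ[𝒪] (Fin d → MonoidAlgebra 𝒪 D) :=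
    { toFun := fun v => TwV.get _ (twMap (ψr Ψ) v)
      map_add' := fun v w => by rw [map_add]; rfl
      map_smul' := fun c v => by
        have h1 : c • v = algebraMap 𝒪 (MonoidAlgebra 𝒪 D) c • v := (algebraMap_smul _ c v).symm
        rw [h1, map_smul, TwV.get_smul, RingHom.id_apply]
        change Matrix.mulVec (Ψ (algebraMap 𝒪 _ c)) _ = _
        rw [AlgHom.commutes, Algebra.algebraMap_eq_smul_one, Matrix.smul_mulVec,
          Matrix.one_mulVec] }
  have hf : Function.Surjective f := hs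
  have hi := IsNoetherian.injective_of_surjective_endomorphism f hf
  exact hi

end Main

end Fermat.Agent.RT
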