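import Fermat.Agent.RT.RhoLoc
import Fermat.Agent.RT.DvrExt
import Fermat.Agent.RT.HeckeRep

set_option autoImplicit false
set_option maxHeartbeats 400000
set_option linter.style.haveILetI false
set_option linter.unusedSectionVars false
set_option linter.unusedVariables false

/-!
# The eigenvalues of the tame generator at the points
-/

open IsLocalRing Matrix

noncomputable section

namespace Fermat.Agent.RT

section Lin

variable {L : Type*} [Field L]

lemma cayley_two {A : Matrix (Fin 2) (Fin 2) L} {α β : L} (htr : A.trace = α + β)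
    (hdet : A.det = α * β) : A * A = (α + β) • A - (α * β) • (1 : Matrix (Fin 2) (Fin 2) L) := by
  rw [← htr, ← hdet, Matrix.trace_fin_two, Matrix.det_fin_two]
  ext i j
  rw [Matrix.mul_apply, Fin.sum_univ_two]
  fin_cases i <;> fin_cases j <;> simp <;> ring

lemma trace_pow_eq' {A : Matrix (Fin 2) (Fin 2) L} {α β : L} (htr : A.trace = α + β)
    (hdet : A.det = α * β) : ∀ n : ℕ, (A ^ n).trace = α ^ n + β ^ n
  | 0 => by rw [pow_zero, pow_zero, pow_zero, Matrix.trace_one]; norm_num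
  | 1 => by rw [pow_one, pow_one, pow_one, htr]
  | (n + 2) => by
    have h1 := trace_pow_eq' htr hdet (n + 1)
    have h0 := trace_pow_eq' htr hdet n
    have h2 : A ^ (n + 2) = (α + β) • A ^ (n + 1) - (α * β) • A ^ n := by
      rw [pow_add, pow_two, cayley_two htr hdet, mul_sub, Matrix.mul_smul, Matrix.mul_smul,
        mul_one, ← pow_succ]
    rw [h2, Matrix.trace_sub, Matrix.trace_smul, Matrix.trace_smul, h1, h0, smul_eq_mul,
      smul_eq_mul]
    ring

lemma smul_pow_eq {A : Matrix (Fin 2) (Fin 2) L} {α β : L} (htr : A.trace = α + β)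
    (hdet : A.det = α * β) (n : ℕ) : (α - β) • A ^ (n + 1) =
      (α ^ (n + 1) - β ^ (n + 1)) • A -
        (α * β * (α ^ n - β ^ n)) • (1 : Matrix (Fin 2) (Fin 2) L) := by
  induction n with
  | zero => simp
  | succ n ih =>
    rw [pow_succ, ← smul_mul_assoc, ih, sub_mul, smul_mul_assoc, smul_mul_assoc, one_mul,
      cayley_two htr hdet]
    module

/-- Matrices `A` with `Φ A = A ^ q Φ`, of determinant one: the eigenvalues. -/
lemma eig_of_rel {A Φ : Matrix (Fin 2) (Fin 2) L} {α β : L} (htr : A.trace = α + β)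
    (hdet : A.det = 1) (hαβ : α * β = 1) (hΦ : Φ.det ≠ 0) {q : ℕ} (hq : 0 < q)
    (hrel : Φ * A = A ^ q * Φ) : α ^ (q - 1) = 1 ∨ α ^ (q + 1) = 1 := by
  have hu : IsUnit Φ.det := isUnit_iff_ne_zero.mpr hΦ
  have h1 : (A ^ q).trace = A.trace := by
    have h2 : A ^ q = Φ * A * Φ⁻¹ := by
      rw [hrel, mul_assoc, Matrix.mul_nonsing_inv _ hu, mul_one]
    rw [h2, Matrix.trace_mul_cycle, Matrix.nonsing_inv_mul _ hu, one_mul]
  rw [trace_pow_eq' htr (by rw [hdet, hαβ]) q, htr] at h1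
  have hα0 : α ≠ 0 := left_ne_zero_of_mul_eq_one hαβ
  have h3 : α ^ q * β ^ q = 1 := by rw [← mul_pow, hαβ, one_pow]
  have h4 : (α ^ q - α) * (α ^ q - β) = 0 := by
    linear_combination (α ^ q) * h1 - h3 + hαβ
  rcases mul_eq_zero.mp h4 with h | h
  · left
    apply mul_left_cancel₀ hα0
    rw [← pow_succ', Nat.sub_add_cancel hq, mul_one]
    exact sub_eq_zero.mp h
  · right
    rw [pow_succ, sub_eq_zero.mp h, mul_comm, hαβ]

/-- In the non-unipotent case the matrices commute. -/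
lemma comm_of_rel {A Φ : Matrix (Fin 2) (Fin 2) L} {α β : L} (htr : A.trace = α + β)
    (hdet : A.det = 1) (hαβ : α * β = 1) (hne : α ≠ β) {q : ℕ} (hq : 0 < q)
    (hα : α ^ (q - 1) = 1) (hrel : Φ * A = A ^ q * Φ) : Φ * A = A * Φ := by
  have hβ : β ^ (q - 1) = 1 := by
    have : (α * β) ^ (q - 1) = 1 := by rw [hαβ, one_pow]
    rwa [mul_pow, hα, one_mul] at this
  have h1 := smul_pow_eq htr (by rw [hdet, hαβ]) (q - 1)
  rw [Nat.sub_add_cancel hq, hα, hβ, sub_self, mul_zero, zero_smul, sub_zero] at h1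
  have h2 : ∀ x : L, x ^ (q - 1) = 1 → x ^ q = x := by
    intro x hx
    obtain ⟨n, rfl⟩ : ∃ n, q = n + 1 := ⟨q - 1, (Nat.sub_add_cancel hq).symm⟩
    rw [Nat.add_sub_cancel] at hx
    rw [pow_succ, hx, one_mul]
  rw [h2 α hα, h2 β hβ] at h1
  have h3 : A ^ q = A := smul_right_injective _ (sub_ne_zero.mpr hne) h1
  rw [hrel, h3]

end Lin

section Pt

variable {𝒪 : Type} [CommRing 𝒪] [IsDomain 𝒪] [IsDiscreteValuationRing 𝒪]
  [IsAdicComplete (maximalIdeal 𝒪) 𝒪] [Finite (ResidueField 𝒪)] [CharZero 𝒪]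
  {T : Type} [CommRing T] [IsLocalRing T] [Algebra 𝒪 T] [Module.Finite 𝒪 T]
  {L : Type} [Field L] [IsAlgClosed L] [CharZero L] [Algebra 𝒪 L]
  (hL : Function.Injective (algebraMap 𝒪 L)) (lam : T →ₐ[𝒪] L)

include hL in
/-- Elements near `1` at a point. -/
theorem exists_local_ext {s : T} (hs : s - 2 ∈ maximalIdeal T) {α : L}
    (hα : α ^ 2 - lam s * α + 1 = 0) :
    ∃ (R : Subalgebra 𝒪 L) (_ : IsLocalRing R) (_ : Module.Finite 𝒪 R) (α' : R),
      (α' : L) = α ∧ α' - 1 ∈ maximalIdeal R := by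
  have hfin : Module.Finite 𝒪 lam.range :=
    Module.Finite.of_surjective lam.rangeRestrict.toLinearMap (fun y => by
      obtain ⟨z, hz⟩ := y.2
      exact ⟨z, Subtype.ext hz⟩)
  have hint : ∀ y : T, IsIntegral 𝒪 (lam y) := fun y =>
    (IsIntegral.of_finite 𝒪 y).map lam
  -- `α` is integral
  have hαint : IsIntegral 𝒪 α := by
    have h1 : IsIntegral lam.range α := by
      refine ⟨Polynomial.X ^ 2 - Polynomial.C ⟨lam s, ⟨s, rfl⟩⟩ * Polynomial.X + 1, ?_, ?_⟩
      · have : (Polynomial.X ^ 2 - Polynomial.C (⟨lam s, ⟨s, rfl⟩⟩ : lam.range) * Polynomial.X + 1 :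
            Polynomial lam.range) = Polynomial.X ^ 2 + (- Polynomial.C ⟨lam s, ⟨s, rfl⟩⟩ *
              Polynomial.X + Polynomial.C 1) := by
          rw [map_one]; ring
        rw [this]
        refine Polynomial.monic_X_pow_add ?_
        refine (Polynomial.degree_add_le _ _).trans_lt (max_lt ?_ ?_)
        · rw [← map_neg]
          exact (Polynomial.degree_C_mul_X_le _).trans_lt (by norm_num)
        · exact Polynomial.degree_C_le.trans_lt (by norm_num)
      · simp only [Polynomial.eval₂_add, Polynomial.eval₂_sub, Polynomial.eval₂_mul,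
          Polynomial.eval₂_pow, Polynomial.eval₂_X, Polynomial.eval₂_C, Polynomial.eval₂_one]
        exact hα
    haveI : Algebra.IsIntegral 𝒪 lam.range := Algebra.IsIntegral.of_finite 𝒪 _
    exact isIntegral_trans α h1
  have hfin2 : Module.Finite 𝒪 (Algebra.adjoin 𝒪 {α}) :=
    Module.Finite.iff_fg.mpr hαint.fg_adjoin_singleton
  let R : Subalgebra 𝒪 L := lam.range ⊔ Algebra.adjoin 𝒪 {α}
  have hR : Module.Finite 𝒪 R := Subalgebra.finite_sup lam.range (Algebra.adjoin 𝒪 {α})
  have hRi : Function.Injective (algebraMap 𝒪 R) := fun x y h => hL (congrArg Subtype.val h)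
  haveI : FaithfulSMul 𝒪 R := (faithfulSMul_iff_algebraMap_injective 𝒪 R).mpr hRi
  have hloc : IsLocalRing R := isLocalRing_of_finite_domain (𝒪 := 𝒪) R
  have hαR : α ∈ R := (le_sup_right : Algebra.adjoin 𝒪 {α} ≤ R)
    (Algebra.subset_adjoin (Set.mem_singleton α))
  let g : T →ₐ[𝒪] R := (Subalgebra.inclusion (le_sup_left : lam.range ≤ R)).comp
    lam.rangeRestrict
  have hg : ∀ y, ((g y : R) : L) = lam y := fun y => rfl
  have hgm : ∀ y ∈ maximalIdeal T, g y ∈ maximalIdeal R := by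
    intro y hy
    obtain ⟨n, hn⟩ := exists_pow_le_map (𝒪 := 𝒪) T
    have h1 : g y ^ n ∈ (maximalIdeal 𝒪).map (algebraMap 𝒪 R) := by
      have h2 := Ideal.mem_map_of_mem (g : T →+* R) (hn (Ideal.pow_mem_pow hy n))
      rw [Ideal.map_map, map_pow] at h2
      have h3 : (g : T →+* R).comp (algebraMap 𝒪 T) = algebraMap 𝒪 R := g.comp_algebraMap
      rw [h3] at h2
      exact h2
    have h2 : (maximalIdeal 𝒪).map (algebraMap 𝒪 R) ≤ maximalIdeal R := by
      have hint2 : Algebra.IsIntegral 𝒪 R := Algebra.IsIntegral.of_finite 𝒪 R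
      have h3 := Ideal.isMaximal_comap_of_isIntegral_of_isMaximal (R := 𝒪) (maximalIdeal R)
      rw [Ideal.map_le_iff_le_comap, IsLocalRing.eq_maximalIdeal h3]
    exact (maximalIdeal.isMaximal R).isPrime.mem_of_pow_mem n (h2 h1)
  refine ⟨R, hloc, hR, ⟨α, hαR⟩, rfl, ?_⟩
  have h1 : ((⟨α, hαR⟩ : R) - 1) ^ 2 = ⟨α, hαR⟩ * g (s - 2) := by
    apply Subtype.ext
    change (α - 1) ^ 2 = α * lam (s - 2)
    rw [map_sub, map_ofNat]
    linear_combination hα
  have h2 : ((⟨α, hαR⟩ : R) - 1) ^ 2 ∈ maximalIdeal R := by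
    rw [h1]
    exact Ideal.mul_mem_left _ _ (hgm _ hs)
  exact (maximalIdeal.isMaximal R).isPrime.mem_of_pow_mem 2 h2

include hL in
/-- **The tame generator at a non-unipotent point.** -/
theorem chi_at_point {p : ℕ} (hp : p.Prime) (hp2 : p ≠ 2) (hp𝒪 : (p : 𝒪) ∈ maximalIdeal 𝒪)
    {m c q : ℕ} (hq : 0 < q) (hc : c.Coprime p) (hqm : q - 1 = p ^ m * c) (hm : 1 ≤ m) {ζ : 𝒪}
    (hζ : IsPrimitiveRoot ζ (p ^ m)) {A Φ : Matrix (Fin 2) (Fin 2) T}
    (hs : A.trace - 2 ∈ maximalIdeal T) (hdet : A.det = 1)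
    (hΦ : IsUnit Φ.det) (hrel : Φ * A = A ^ q * Φ) (hne : lam A.trace ≠ 2) :
    (∀ i j, lam ((Φ * A - A * Φ) i j) = 0) ∧
      ∃ z : 𝒪, z ^ p ^ m = 1 ∧ z ≠ 1 ∧ lam A.trace = algebraMap 𝒪 L z +
        algebraMap 𝒪 L (z ^ (p ^ m - 1)) := by
  set A' := A.map lam with hA'
  set Φ' := Φ.map lam with hΦ'
  have hpow : ∀ n, (A ^ n).map lam = A' ^ n := fun n => by
    have := map_pow ((lam : T →+* L).mapMatrix (m := Fin 2)) A n
    exact this
  have hrel' : Φ' * A' = A' ^ q * Φ' := by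
    rw [← hpow, hA', hΦ', ← Matrix.map_mul, ← Matrix.map_mul, hrel]
  have htr' : A'.trace = lam A.trace := by
    rw [Matrix.trace_fin_two, Matrix.trace_fin_two, map_add]; rfl
  have hdet' : A'.det = 1 := by
    have : A'.det = lam A.det := by
      rw [AlgHom.map_det]; rfl
    rw [this, hdet, map_one]
  have hΦ0 : Φ'.det ≠ 0 := by
    have : Φ'.det = lam Φ.det := by
      rw [AlgHom.map_det]; rfl
    rw [this]
    exact (hΦ.map lam).ne_zero
  -- the eigenvalue
  obtain ⟨α, hα⟩ : ∃ α : L, α ^ 2 - lam A.trace * α + 1 = 0 := by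
    have hdeg : (Polynomial.X ^ 2 - Polynomial.C (lam A.trace) * Polynomial.X + 1 :
        Polynomial L).degree ≠ 0 := by
      have : (Polynomial.X ^ 2 - Polynomial.C (lam A.trace) * Polynomial.X + 1 : Polynomial L) =
          Polynomial.C 1 * Polynomial.X ^ 2 + Polynomial.C (-lam A.trace) * Polynomial.X +
            Polynomial.C 1 := by
        rw [map_one, map_neg]; ring
      rw [this, Polynomial.degree_quadratic one_ne_zero]
      norm_num
    obtain ⟨α, hα⟩ := IsAlgClosed.exists_root _ hdeg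
    refine ⟨α, ?_⟩
    simpa [Polynomial.IsRoot] using hα
  set β := lam A.trace - α with hβ
  have hαβ : α * β = 1 := by rw [hβ]; linear_combination -hα
  have hsum : A'.trace = α + β := by rw [htr', hβ]; ring
  obtain ⟨R, _, _, α', hα', hαm⟩ := exists_local_ext hL lam hs hα
  have hpR : (p : R) ∈ maximalIdeal R := by
    have hint2 : Algebra.IsIntegral 𝒪 R := Algebra.IsIntegral.of_finite 𝒪 R
    have h3 := Ideal.isMaximal_comap_of_isIntegral_of_isMaximal (R := 𝒪) (maximalIdeal R)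
    have h4 := IsLocalRing.eq_maximalIdeal h3
    rw [← h4, Ideal.mem_comap, map_natCast] at hp𝒪
    exact hp𝒪
  have hα1 : α ≠ 1 := by
    intro h
    apply hne
    rw [h, one_pow, mul_one] at hα
    linear_combination -hα
  have hαpow : α ^ p ^ m = 1 := by
    rcases eig_of_rel hsum hdet' hαβ hΦ0 hq hrel' with h | h
    · have h5 : α' ^ (p ^ m * c) = 1 := by
        apply Subtype.ext
        rw [← hqm]
        change (α' : L) ^ (q - 1) = 1
        rw [hα', h]
      have h6 := pow_eq_one_of_cop hpR hc hαm h5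
      have h7 := congrArg (fun z : R => (z : L)) h6
      change (α' : L) ^ p ^ m = 1 at h7
      rwa [hα'] at h7
    · exfalso
      have hcop : (q + 1).Coprime p := by
        refine Nat.Coprime.symm ((Nat.Prime.coprime_iff_not_dvd hp).mpr fun hd => ?_)
        have h8 : p ∣ q - 1 := by
          rw [hqm]
          exact Dvd.dvd.mul_right (dvd_pow_self p (by omega)) c
        have h9 : p ∣ 2 := by
          have h10 : (q + 1) - (q - 1) = 2 := by omega
          rw [← h10]
          exact Nat.dvd_sub hd h8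
        exact hp2 ((Nat.prime_dvd_prime_iff_eq hp Nat.prime_two).mp h9)
      have h5 : α' ^ (p ^ 0 * (q + 1)) = 1 := by
        apply Subtype.ext
        rw [pow_zero, one_mul]
        change (α' : L) ^ (q + 1) = 1
        rw [hα', h]
      have h6 := pow_eq_one_of_cop hpR hcop hαm h5
      have h7 := congrArg (fun z : R => (z : L)) h6
      change (α' : L) ^ p ^ 0 = 1 at h7
      rw [hα', pow_zero, pow_one] at h7
      exact hα1 h7
  have hne' : α ≠ β := by
    intro h
    have h5 : α ^ 2 = 1 := by rw [pow_two]; nth_rewrite 2 [h]; exact hαβ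
    have h6 : Odd (p ^ m) := (hp.odd_of_ne_two hp2).pow
    obtain ⟨j, hj⟩ := h6
    apply hα1
    rw [← hαpow, hj, pow_succ, pow_mul, h5, one_pow, one_mul]
  have hαq : α ^ (q - 1) = 1 := by rw [hqm, pow_mul, hαpow, one_pow]
  have hcomm := comm_of_rel hsum hdet' hαβ hne' hq hαq hrel'
  refine ⟨fun i j => ?_, ?_⟩
  · have h5 : (Φ * A - A * Φ).map lam = 0 := by
      have h6 : (Φ * A - A * Φ).map lam = Φ' * A' - A' * Φ' := by
        rw [hA', hΦ', ← Matrix.map_mul, ← Matrix.map_mul]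
        ext i j
        rw [Matrix.map_apply, Matrix.sub_apply, map_sub]; rfl
      rw [h6, hcomm, sub_self]
    exact congrFun (congrFun h5 i) j
  · have hpm : p ^ m ≠ 0 := (pow_pos hp.pos m).ne'
    haveI : NeZero (p ^ m) := ⟨hpm⟩
    have hζL : IsPrimitiveRoot (algebraMap 𝒪 L ζ) (p ^ m) := hζ.map_of_injective hL
    obtain ⟨j, -, hj⟩ := hζL.eq_pow_of_pow_eq_one hαpow
    refine ⟨ζ ^ j, ?_, ?_, ?_⟩
    · rw [← pow_mul, mul_comm, pow_mul, hζ.pow_eq_one, one_pow]
    · intro h
      apply hα1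
      rw [← hj, ← map_pow, h, map_one]
    · rw [map_pow, map_pow, map_pow, hj]
      have h5 : β = α ^ (p ^ m - 1) := by
        have hα0 : α ≠ 0 := left_ne_zero_of_mul_eq_one hαβ
        apply mul_left_cancel₀ hα0
        rw [hαβ, ← pow_succ', Nat.sub_add_cancel (Nat.one_le_iff_ne_zero.mpr hpm), hαpow]
      rw [← h5, hβ]
      ring

end Pt

end Fermat.Agent.RT
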