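import Fermat.Agent.RT.LocG

set_option autoImplicit false

/-!
# A root of the Hecke polynomial
-/

open IsLocalRing

namespace Fermat.Agent.RT

section Ring

variable {𝒪 : Type*} [CommRing 𝒪] [IsLocalRing 𝒪] [IsNoetherianRing 𝒪]
  [IsAdicComplete (maximalIdeal 𝒪) 𝒪] {S : Type*} [CommRing S] [Algebra 𝒪 S] [Module.Finite 𝒪 S]

theorem exists_root_ring {t : S} {N : ℕ} (ht : t ^ N ∈ (maximalIdeal 𝒪).map (algebraMap 𝒪 S))
    {a b q : 𝒪} (hab : a * b - q ∈ maximalIdeal 𝒪) (hu : IsUnit (a - b)) :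
    ∃ A : S, A * A - (t + algebraMap 𝒪 S (a + b)) * A + algebraMap 𝒪 S q = 0 ∧
      ∃ n, (A - algebraMap 𝒪 S a) ^ n ∈ (maximalIdeal 𝒪).map (algebraMap 𝒪 S) := by
  set I := (maximalIdeal 𝒪).map (algebraMap 𝒪 S) with hI
  have h1 : IsAdicComplete I S := isAdicComplete_algebra (R := 𝒪) S
  have hJ : (I ⊔ Ideal.span {t}) ^ (1 + N) ≤ I := by
    refine Ideal.sup_pow_add_le_pow_sup_pow.trans (sup_le (by rw [pow_one]) ?_)
    rw [Ideal.span_singleton_pow, Ideal.span_singleton_le_iff_mem]
    exact ht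
  set J := I ⊔ Ideal.span {t} with hJd
  have h2 : IsAdicComplete J S := isAdicComplete_of_pow_le le_sup_left hJ
  have h3 : HenselianRing S J := inferInstance
  have htJ : t ∈ J := Ideal.mem_sup_right (Ideal.mem_span_singleton_self t)
  have hIJ : I ≤ J := le_sup_left
  have haI : algebraMap 𝒪 S (a * b - q) ∈ J := hIJ (Ideal.mem_map_of_mem _ hab)
  obtain ⟨A, hA, hA2⟩ := h3.is_henselian
    (Polynomial.X ^ 2 + (Polynomial.C (-(t + algebraMap 𝒪 S (a + b))) * Polynomial.X +
      Polynomial.C (algebraMap 𝒪 S q))) (by monicity!) (algebraMap 𝒪 S a) (by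
        simp only [Polynomial.eval_add, Polynomial.eval_pow, Polynomial.eval_X,
          Polynomial.eval_mul, Polynomial.eval_C]
        have : algebraMap 𝒪 S a ^ 2 + (-(t + algebraMap 𝒪 S (a + b)) * algebraMap 𝒪 S a +
            algebraMap 𝒪 S q) = -(algebraMap 𝒪 S (a * b - q)) - t * algebraMap 𝒪 S a := by
          rw [map_add, map_sub, map_mul]; ring
        rw [this]
        exact J.sub_mem (J.neg_mem haI) (J.mul_mem_right _ htJ)) (by
        have h4 : Polynomial.eval (algebraMap 𝒪 S a) (Polynomial.derivative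
          (Polynomial.X ^ 2 + (Polynomial.C (-(t + algebraMap 𝒪 S (a + b))) * Polynomial.X +
            Polynomial.C (algebraMap 𝒪 S q)))) = algebraMap 𝒪 S (a - b) - t := by
          simp only [Polynomial.derivative_add, Polynomial.derivative_X_pow,
            Polynomial.derivative_mul, Polynomial.derivative_C, Polynomial.derivative_X,
            Polynomial.eval_add, Polynomial.eval_mul, Polynomial.eval_C, Polynomial.eval_X,
            Polynomial.eval_pow, Polynomial.eval_zero, Polynomial.eval_one, map_add, map_sub]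
          push_cast
          ring
        rw [h4, map_sub, Ideal.Quotient.eq_zero_iff_mem.mpr htJ, sub_zero]
        exact (hu.map (algebraMap 𝒪 S)).map _)
  refine ⟨A, ?_, 1 + N, hJ (Ideal.pow_mem_pow hA2 _)⟩
  have h5 := hA
  rw [Polynomial.IsRoot.def] at h5
  simp only [Polynomial.eval_add, Polynomial.eval_pow, Polynomial.eval_X,
          Polynomial.eval_mul, Polynomial.eval_C] at h5
  linear_combination h5

end Ring

section Mod

variable {𝒪 : Type*} [CommRing 𝒪] [IsLocalRing 𝒪] [IsNoetherianRing 𝒪]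
  [IsAdicComplete (maximalIdeal 𝒪) 𝒪] {X : Type*} [AddCommGroup X] [Module 𝒪 X]
  [Module.Finite 𝒪 X]

/-- **A root of the Hecke polynomial** -/
theorem exists_root {T : Module.End 𝒪 X} {a b q : 𝒪} (hT : TopNil (T - (a + b) • 1))
    (hab : a * b - q ∈ maximalIdeal 𝒪) (hu : IsUnit (a - b)) :
    ∃ A : Module.End 𝒪 X, A * A - T * A + q • 1 = 0 ∧ TopNil (A - a • 1) ∧
      ∀ S : Module.End 𝒪 X, S * T = T * S → S * A = A * S := by
  set ρ : Polynomial 𝒪 →ₐ[𝒪] Module.End 𝒪 X := Polynomial.aeval (T - (a + b) • 1) with hρ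
  set S := Polynomial 𝒪 ⧸ RingHom.ker ρ with hS
  have : Module.Finite 𝒪 (Module.End 𝒪 X) := finite_end X X
  have hinj := Ideal.kerLiftAlg_injective ρ
  have hfin : Module.Finite 𝒪 S := Module.Finite.of_injective
    (Ideal.kerLiftAlg ρ).toLinearMap hinj
  set t : S := Ideal.Quotient.mk _ Polynomial.X with ht
  have hρt : Ideal.kerLiftAlg ρ t = T - (a + b) • 1 := by
    rw [ht, Ideal.kerLiftAlg_mk, hρ, Polynomial.aeval_X]
  obtain ⟨n, hn⟩ := hT
  -- Cayley–Hamilton
  have h1 : ∃ N, t ^ N ∈ (maximalIdeal 𝒪).map (algebraMap 𝒪 S) := by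
    obtain ⟨P, hP, -, hc, hP0⟩ :=
      LinearMap.exists_monic_and_natDegree_eq_and_coeff_mem_pow_and_aeval_eq_zero 𝒪
      ((T - (a + b) • 1) ^ n) (maximalIdeal 𝒪) (by rintro _ ⟨x, rfl⟩; exact hn x)
    refine ⟨n * P.natDegree, ?_⟩
    have h2 : Polynomial.aeval (t ^ n) P = 0 := by
      apply hinj
      rw [map_zero, ← Polynomial.aeval_algHom_apply, map_pow, hρt, hP0]
    rw [Polynomial.aeval_eq_sum_range, Finset.sum_range_succ, hP.coeff_natDegree, one_smul,
      ← pow_mul] at h2
    rw [eq_neg_of_add_eq_zero_right h2]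
    refine Submodule.neg_mem _ (Submodule.sum_mem _ fun i hi => ?_)
    rw [Algebra.smul_def]
    refine Ideal.mul_mem_right _ _ (Ideal.mem_map_of_mem _ ?_)
    have h3 := hc i
    refine Ideal.pow_le_self ?_ h3
    have := Finset.mem_range.mp hi
    omega
  obtain ⟨N, hN⟩ := h1
  obtain ⟨A, hA, m, hm⟩ := exists_root_ring hN hab hu
  have h4 : ∀ x : S, x ∈ (maximalIdeal 𝒪).map (algebraMap 𝒪 S) → ∀ m : X,
      Ideal.kerLiftAlg ρ x m ∈ maximalIdeal 𝒪 • (⊤ : Submodule 𝒪 X) := by
    intro x hx m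
    induction hx using Submodule.span_induction generalizing m with
    | mem x hx =>
      obtain ⟨a, ha, rfl⟩ := hx
      rw [AlgHom.commutes, Module.algebraMap_end_apply]
      exact Submodule.smul_mem_smul ha Submodule.mem_top
    | zero => rw [map_zero]; simp
    | add x y _ _ hx hy =>
      rw [map_add, LinearMap.add_apply]
      exact Submodule.add_mem _ (hx m) (hy m)
    | smul a x _ hx =>
      rw [smul_eq_mul, mul_comm, map_mul, Module.End.mul_apply]
      exact hx _
  refine ⟨Ideal.kerLiftAlg ρ A, ?_, ⟨m, fun x => ?_⟩, fun B hB => ?_⟩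
  · have h5 := congrArg (Ideal.kerLiftAlg ρ) hA
    rw [map_add, map_sub, map_mul, map_mul, map_add, hρt, AlgHom.commutes, AlgHom.commutes,
      map_zero, Algebra.algebraMap_eq_smul_one, Algebra.algebraMap_eq_smul_one,
      sub_add_cancel] at h5
    exact h5
  · have h5 := h4 _ hm x
    rw [map_pow, map_sub, AlgHom.commutes, Algebra.algebraMap_eq_smul_one] at h5
    exact h5
  · obtain ⟨P, rfl⟩ := Ideal.Quotient.mk_surjective A
    rw [Ideal.kerLiftAlg_mk, hρ]
    have h6 : Commute B (T - (a + b) • 1) := by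
      refine Commute.sub_right hB ?_
      rw [Commute, SemiconjBy, mul_smul_comm, smul_mul_assoc, mul_one, one_mul]
    have h7 : Commute B (Polynomial.aeval (T - (a + b) • 1) P) := by
      rw [Polynomial.aeval_eq_sum_range]
      refine Commute.sum_right _ _ _ fun i _ => ?_
      exact (h6.pow_right i).smul_right _
    exact h7

end Mod

end Fermat.Agent.RT
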