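import Fermat.Agent.RT.TWImage

set_option autoImplicit false

/-!
# Subgroups of `GL₂(𝔽_p)` and vanishing of `H¹(ρ(G), ad⁰(1))`
-/

open Matrix
open Fermat.Agent.Coh

namespace Fermat.Agent.RT

section SL

variable {F : Type*} [Field F]

/-- upper elementary matrix -/
def eU (x : F) : GL (Fin 2) F := ⟨!![1, x; 0, 1], !![1, -x; 0, 1],
  by ext i j; fin_cases i <;> fin_cases j <;> simp [Matrix.mul_apply, Fin.sum_univ_two],
  by ext i j; fin_cases i <;> fin_cases j <;> simp [Matrix.mul_apply, Fin.sum_univ_two]⟩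

/-- lower elementary matrix -/
def eL (x : F) : GL (Fin 2) F := ⟨!![1, 0; x, 1], !![1, 0; -x, 1],
  by ext i j; fin_cases i <;> fin_cases j <;> simp [Matrix.mul_apply, Fin.sum_univ_two],
  by ext i j; fin_cases i <;> fin_cases j <;> simp [Matrix.mul_apply, Fin.sum_univ_two]⟩

theorem eU_coe (x : F) : (eU x : Matrix (Fin 2) (Fin 2) F) = !![1, x; 0, 1] := rfl
theorem eL_coe (x : F) : (eL x : Matrix (Fin 2) (Fin 2) F) = !![1, 0; x, 1] := rfl

theorem eU_add (x y : F) : eU (x + y) = eU x * eU y := by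
  apply Units.ext
  rw [Units.val_mul, eU_coe, eU_coe, eU_coe]
  ext i j; fin_cases i <;> fin_cases j <;> simp [Matrix.mul_apply, Fin.sum_univ_two, add_comm]

theorem eL_add (x y : F) : eL (x + y) = eL x * eL y := by
  apply Units.ext
  rw [Units.val_mul, eL_coe, eL_coe, eL_coe]
  ext i j; fin_cases i <;> fin_cases j <;> simp [Matrix.mul_apply, Fin.sum_univ_two]

theorem eU_zero : eU (0 : F) = 1 := by
  apply Units.ext
  rw [eU_coe, Units.val_one]
  ext i j; fin_cases i <;> fin_cases j <;> simp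

theorem eL_zero : eL (0 : F) = 1 := by
  apply Units.ext
  rw [eL_coe, Units.val_one]
  ext i j; fin_cases i <;> fin_cases j <;> simp

theorem eU_nsmul (n : ℕ) (x : F) : eU (n * x) = eU x ^ n := by
  induction n with
  | zero => rw [Nat.cast_zero, zero_mul, eU_zero, pow_zero]
  | succ n ih => rw [Nat.cast_succ, add_mul, one_mul, eU_add, ih, pow_succ]

theorem eL_nsmul (n : ℕ) (x : F) : eL (n * x) = eL x ^ n := by
  induction n with
  | zero => rw [Nat.cast_zero, zero_mul, eL_zero, pow_zero]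
  | succ n ih => rw [Nat.cast_succ, add_mul, one_mul, eL_add, ih, pow_succ]

theorem mem_of_elementary {G : Subgroup (GL (Fin 2) F)} (hU : ∀ x, eU x ∈ G) (hL : ∀ x, eL x ∈ G)
    {M : GL (Fin 2) F} (hM : (M : Matrix (Fin 2) (Fin 2) F).det = 1) : M ∈ G := by
  -- the case of nonzero lower left entry
  have key : ∀ M : GL (Fin 2) F, (M : Matrix (Fin 2) (Fin 2) F).det = 1 →
      (M : Matrix (Fin 2) (Fin 2) F) 1 0 ≠ 0 → M ∈ G := by
    intro M hM hc
    set a := (M : Matrix (Fin 2) (Fin 2) F) 0 0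
    set b := (M : Matrix (Fin 2) (Fin 2) F) 0 1
    set c := (M : Matrix (Fin 2) (Fin 2) F) 1 0
    set d := (M : Matrix (Fin 2) (Fin 2) F) 1 1
    have hdet : a * d - b * c = 1 := by rw [← hM, det_fin_two]
    have h1 : M = eU ((a - 1) / c) * eL c * eU ((d - 1) / c) := by
      apply Units.ext
      rw [Units.val_mul, Units.val_mul, eU_coe, eU_coe, eL_coe]
      ext i j
      fin_cases i <;> fin_cases j
      · simp [Matrix.mul_apply, Fin.sum_univ_two]
        change a = _
        field_simp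
        ring
      · simp [Matrix.mul_apply, Fin.sum_univ_two]
        change b = _
        field_simp
        linear_combination -hdet
      · simp [Matrix.mul_apply, Fin.sum_univ_two]
        rfl
      · simp [Matrix.mul_apply, Fin.sum_univ_two]
        change d = _
        field_simp
        ring
    rw [h1]
    exact G.mul_mem (G.mul_mem (hU _) (hL _)) (hU _)
  by_cases hc : (M : Matrix (Fin 2) (Fin 2) F) 1 0 = 0
  · have h1 : M * eL 1 ∈ G := by
      apply key
      · rw [Units.val_mul, det_mul, hM, eL_coe, det_fin_two]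
        simp
      · rw [Units.val_mul, eL_coe]
        simp [Matrix.mul_apply, Fin.sum_univ_two, hc]
        intro hd
        rw [det_fin_two, hc, hd] at hM
        simp at hM
    have h2 := G.mul_mem h1 (G.inv_mem (hL 1))
    rwa [mul_inv_cancel_right] at h2
  · exact key M hM hc

end SL

section P

variable {p : ℕ} [hp : Fact p.Prime]

theorem eU_mem {G : Subgroup (GL (Fin 2) (ZMod p))} {x : ZMod p} (hx : x ≠ 0) (h : eU x ∈ G)
    (y : ZMod p) : eU y ∈ G := by
  have h1 : y = ((y / x).val : ℕ) * x := by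
    rw [ZMod.natCast_zmod_val, div_mul_cancel₀ _ hx]
  rw [h1, eU_nsmul]
  exact G.pow_mem h _

theorem eL_mem {G : Subgroup (GL (Fin 2) (ZMod p))} {x : ZMod p} (hx : x ≠ 0) (h : eL x ∈ G)
    (y : ZMod p) : eL y ∈ G := by
  have h1 : y = ((y / x).val : ℕ) * x := by
    rw [ZMod.natCast_zmod_val, div_mul_cancel₀ _ hx]
  rw [h1, eL_nsmul]
  exact G.pow_mem h _

/-- nilpotent `2 × 2` matrices have square zero -/
theorem sq_zero_of_pow_zero {F : Type*} [Field F] {N : Matrix (Fin 2) (Fin 2) F} {n : ℕ}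
    (h : N ^ n = 0) : N.trace = 0 ∧ N.det = 0 := by
  have hnil : IsNilpotent N := ⟨n, h⟩
  have h1 : N.det = 0 := by
    have : IsNilpotent N.det := ⟨n, by rw [← det_pow, h, det_zero]⟩
    exact this.eq_zero
  refine ⟨?_, h1⟩
  exact (Matrix.isNilpotent_trace_of_isNilpotent hnil).eq_zero

variable {Γ : Type*} [Group Γ] {ρ₀ : Γ →* GL (Fin 2) (ZMod p)}

/-- A subgroup of `GL₂(𝔽_p)` without invariant line and of order divisible by `p` contains
`SL₂(𝔽_p)`. -/
theorem sl2_le_of_order (hirr : ∀ v, ¬ ComEig ρ₀ ⊤ v) {g : Γ} (hg : ρ₀ g ^ p = 1)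
    (hg1 : ρ₀ g ≠ 1) {M : GL (Fin 2) (ZMod p)}
    (hM : (M : Matrix (Fin 2) (Fin 2) (ZMod p)).det = 1) : M ∈ ρ₀.range := by
  set u : Matrix (Fin 2) (Fin 2) (ZMod p) := (ρ₀ g).val with hu
  set N := u - 1 with hN
  have hNp : N ^ p = 0 := by
    rw [hN, sub_pow_char_of_commute _ (Commute.one_right u), one_pow]
    have : u ^ p = 1 := by rw [hu, ← Units.val_pow_eq_pow_val, hg, Units.val_one]
    rw [this, sub_self]
  obtain ⟨htr, hdet⟩ := sq_zero_of_pow_zero hNp
  have hsq := nilp_sq htr hdet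
  have hN0 : N ≠ 0 := by
    intro h
    apply hg1
    apply Units.ext
    rw [Units.val_one]
    exact sub_eq_zero.mp h
  -- a vector in the image
  obtain ⟨e, he⟩ : ∃ e, N *ᵥ e ≠ 0 := by
    by_contra hcon
    push Not at hcon
    apply hN0
    apply Matrix.ext_of_mulVec_single
    intro i
    rw [hcon, zero_mulVec]
  set v := N *ᵥ e with hv
  have hNv : N *ᵥ v = 0 := by rw [hv, mulVec_mulVec, hsq, zero_mulVec]
  obtain ⟨g₀, hg₀⟩ : ∃ g₀ : Γ, ∀ a : ZMod p,
      (ρ₀ g₀ : Matrix (Fin 2) (Fin 2) (ZMod p)) *ᵥ v ≠ a • v := by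
    by_contra hcon
    push Not at hcon
    exact hirr v ⟨he, fun g _ => hcon g⟩
  set A : Matrix (Fin 2) (Fin 2) (ZMod p) := (ρ₀ g₀).val with hA
  set A' : Matrix (Fin 2) (Fin 2) (ZMod p) := (ρ₀ g₀⁻¹).val with hA'
  have hAA' : A * A' = 1 := mul_inv_coe ρ₀ g₀
  have hA'A : A' * A = 1 := inv_mul_coe ρ₀ g₀
  set w := A *ᵥ v with hw
  have hli : LinearIndependent (ZMod p) ![v, w] := by
    rw [LinearIndependent.pair_iff' he]
    intro a h
    exact hg₀ a h.symm
  have hspan : ∀ z : Fin 2 → ZMod p, ∃ a b : ZMod p, z = a • v + b • w := by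
    intro z
    have h1 : Submodule.span (ZMod p) (Set.range ![v, w]) = ⊤ :=
      hli.span_eq_top_of_card_eq_finrank' (by simp)
    have h2 : z ∈ Submodule.span (ZMod p) (Set.range ![v, w]) := by rw [h1]; trivial
    rw [Matrix.range_cons, Matrix.range_cons, Matrix.range_empty, Set.union_empty,
      Set.singleton_union, Submodule.mem_span_pair] at h2
    obtain ⟨a, b, h⟩ := h2
    exact ⟨a, b, h.symm⟩
  have hcoef : ∀ {a b : ZMod p}, a • v + b • w = 0 → a = 0 ∧ b = 0 :=
    fun {a b} h => (LinearIndependent.pair_iff.mp hli) _ _ h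
  -- the image of `N` is the line of `v`
  obtain ⟨x, hx⟩ : ∃ x : ZMod p, N *ᵥ w = x • v := by
    obtain ⟨a, b, hab⟩ := hspan (N *ᵥ w)
    have h1 : N *ᵥ (N *ᵥ w) = 0 := by rw [mulVec_mulVec, hsq, zero_mulVec]
    rw [hab, mulVec_add, mulVec_smul, mulVec_smul, hNv, smul_zero, zero_add, hab, smul_add,
      smul_smul, smul_smul] at h1
    have h2 := (hcoef h1).2
    have hb : b = 0 := by simpa using h2
    exact ⟨a, by rw [hab, hb, zero_smul, add_zero]⟩
  have hx0 : x ≠ 0 := by
    rintro rfl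
    rw [zero_smul] at hx
    obtain ⟨a, b, hab⟩ := hspan e
    apply he
    change N *ᵥ e = 0
    rw [hab, mulVec_add, mulVec_smul, mulVec_smul, hNv, hx, smul_zero, smul_zero, add_zero]
  -- the conjugate
  set u' : Matrix (Fin 2) (Fin 2) (ZMod p) := A * u * A' with hu'
  set N' := A * N * A' with hN'
  have hu'N' : u' = 1 + N' := by
    rw [hN', hN, mul_sub, sub_mul, mul_one, hAA']
    abel
  have hN'w : N' *ᵥ w = 0 := by
    rw [hN', hw, mulVec_mulVec, mul_assoc, hA'A, mul_one, ← mulVec_mulVec, hNv, mulVec_zero]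
  have hsq' : N' * N' = 0 := by
    rw [hN']
    calc A * N * A' * (A * N * A') = A * N * (A' * A) * N * A' := by noncomm_ring
      _ = A * (N * N) * A' := by rw [hA'A]; noncomm_ring
      _ = 0 := by rw [hsq]; simp
  obtain ⟨y, hy⟩ : ∃ y : ZMod p, N' *ᵥ v = y • w := by
    obtain ⟨a, b, hab⟩ := hspan (N' *ᵥ v)
    have h1 : N' *ᵥ (N' *ᵥ v) = 0 := by rw [mulVec_mulVec, hsq', zero_mulVec]
    rw [hab, mulVec_add, mulVec_smul, mulVec_smul, hN'w, smul_zero, add_zero, hab, smul_add,
      smul_smul, smul_smul] at h1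
    have h2 := (hcoef h1).1
    have ha : a = 0 := by simpa using h2
    exact ⟨b, by rw [hab, ha, zero_smul, zero_add]⟩
  have hN'0 : N' ≠ 0 := by
    intro h
    apply hN0
    have : N = A' * N' * A := by
      rw [hN']
      calc N = (A' * A) * N * (A' * A) := by rw [hA'A, one_mul, mul_one]
        _ = A' * (A * N * A') * A := by noncomm_ring
    rw [this, h]
    simp
  have hy0 : y ≠ 0 := by
    rintro rfl
    rw [zero_smul] at hy
    apply hN'0
    apply Matrix.ext_of_mulVec_single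
    intro i
    obtain ⟨a, b, hab⟩ := hspan (Pi.single i 1)
    rw [hab, mulVec_add, mulVec_smul, mulVec_smul, hN'w, hy, smul_zero, smul_zero, add_zero,
      zero_mulVec]
  -- change of basis
  set P : Matrix (Fin 2) (Fin 2) (ZMod p) := Matrix.of fun i j => ![v, w] j i with hP
  have hPdet : P.det ≠ 0 := by
    intro h
    obtain ⟨z, hz0, hz⟩ := Matrix.exists_mulVec_eq_zero_iff.mpr h
    have h1 : z 0 • v + z 1 • w = 0 := by
      rw [← hz]
      ext i
      simp [hP, Matrix.mulVec, dotProduct, Fin.sum_univ_two, mul_comm]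
    obtain ⟨h2, h3⟩ := hcoef h1
    apply hz0
    ext i
    fin_cases i
    · exact h2
    · exact h3
  have hPe : ∀ z : Fin 2 → ZMod p, P *ᵥ z = z 0 • v + z 1 • w := by
    intro z
    ext i
    simp [hP, Matrix.mulVec, dotProduct, Fin.sum_univ_two, mul_comm]
  set Pu : GL (Fin 2) (ZMod p) := Matrix.GeneralLinearGroup.mkOfDetNeZero P hPdet with hPu
  have hPuc : (Pu : Matrix (Fin 2) (Fin 2) (ZMod p)) = P := rfl
  have eU1 : ρ₀ g * Pu = Pu * eU x := by
    apply Units.ext
    rw [Units.val_mul, Units.val_mul, hPuc, eU_coe]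
    apply Matrix.ext_of_mulVec_single
    intro i
    rw [← mulVec_mulVec, ← mulVec_mulVec, hPe, hPe]
    change u *ᵥ _ = _
    rw [show u = 1 + N by rw [hN]; abel, add_mulVec, one_mulVec, mulVec_add, mulVec_smul,
      mulVec_smul, hNv, hx]
    fin_cases i
    · simp [Matrix.mulVec, dotProduct, Fin.sum_univ_two]
    · simp [Matrix.mulVec, dotProduct, Fin.sum_univ_two]
      rw [add_comm]
  have eL1 : ρ₀ (g₀ * g * g₀⁻¹) * Pu = Pu * eL y := by
    apply Units.ext
    have h0 : (ρ₀ (g₀ * g * g₀⁻¹)).val = 1 + N' := by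
      rw [map_mul, map_mul, Units.val_mul, Units.val_mul, ← hu'N']
    rw [Units.val_mul, Units.val_mul, hPuc, eL_coe, h0]
    apply Matrix.ext_of_mulVec_single
    intro i
    rw [← mulVec_mulVec, ← mulVec_mulVec, hPe, hPe]
    rw [add_mulVec, one_mulVec, mulVec_add, mulVec_smul, mulVec_smul, hN'w, hy]
    fin_cases i
    · simp [Matrix.mulVec, dotProduct, Fin.sum_univ_two]
    · simp [Matrix.mulVec, dotProduct, Fin.sum_univ_two]
  -- the conjugated subgroup
  set G' : Subgroup (GL (Fin 2) (ZMod p)) := ρ₀.range.comap (MulAut.conj Pu).toMonoidHom with hG'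
  have memG' : ∀ X, X ∈ G' ↔ Pu * X * Pu⁻¹ ∈ ρ₀.range := fun X => Iff.rfl
  have hU1 : eU x ∈ G' := by
    rw [memG', ← eU1, mul_inv_cancel_right]
    exact ⟨g, rfl⟩
  have hL1 : eL y ∈ G' := by
    rw [memG', ← eL1, mul_inv_cancel_right]
    exact ⟨_, rfl⟩
  have h1 : Pu⁻¹ * M * Pu ∈ G' := by
    apply mem_of_elementary (eU_mem hx0 hU1) (eL_mem hy0 hL1)
    rw [Units.val_mul, Units.val_mul, det_mul_comm, ← mul_assoc, ← Units.val_mul, mul_inv_cancel,
      Units.val_one, one_mul, hM]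
  rw [memG'] at h1
  have h2 : Pu * (Pu⁻¹ * M * Pu) * Pu⁻¹ = M := by group
  rwa [h2] at h1

end P

end Fermat.Agent.RT
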