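import Mathlib
import Fermat.Agent.RT.TWLemma
import Fermat.Agent.Coh.Cochains

set_option autoImplicit false

/-!
# Taylor–Wiles primes: the group theoretic part
-/

open Matrix
open Fermat.Agent.Coh

namespace Fermat.Agent.RT

/-- powers and coboundaries -/
theorem cocycle_pow {k : Type*} [CommRing k] {Γ : Type*} [Group Γ] {V : Type*}
    [AddCommGroup V] [Module k V] {τ : Representation k Γ V}
    {c : Γ → V} (hc : ∀ g h, c (g * h) = τ g (c h) + c g) {φ : Γ} {Y : V} (h : c φ = τ φ Y - Y)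
    (i : ℕ) : c (φ ^ i) = τ (φ ^ i) Y - Y := by
  have h1 : c 1 = 0 := by
    have := hc 1 1
    rw [mul_one, map_one, Module.End.one_apply] at this
    simpa using this
  induction i with
  | zero => rw [pow_zero, h1, map_one, Module.End.one_apply, sub_self]
  | succ i ih =>
    rw [pow_succ, hc, h, ih, map_mul, Module.End.mul_apply, map_sub]
    abel

theorem cocycle_one {k : Type*} [CommRing k] {Γ : Type*} [Group Γ] {V : Type*}
    [AddCommGroup V] [Module k V] {τ : Representation k Γ V}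
    {c : Γ → V} (hc : ∀ g h, c (g * h) = τ g (c h) + c g) : c 1 = 0 := by
  have := hc 1 1
  rw [mul_one, map_one, Module.End.one_apply] at this
  simpa using this

theorem cocycle_conj {k : Type*} [CommRing k] {Γ : Type*} [Group Γ] {V : Type*}
    [AddCommGroup V] [Module k V] {τ : Representation k Γ V}
    {c : Γ → V} (hc : ∀ g h, c (g * h) = τ g (c h) + c g) (g : Γ) {t : Γ}
    (ht : ∀ v, τ t v = v) : c (g * t * g⁻¹) = τ g (c t) := by
  have h1 : c g + τ g (c g⁻¹) = 0 := by
    have := hc g g⁻¹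
    rw [mul_inv_cancel, cocycle_one hc] at this
    rw [add_comm]
    exact this.symm
  rw [hc, hc, map_mul, Module.End.mul_apply, ht]
  calc τ g (c g⁻¹) + (τ g (c t) + c g) = τ g (c t) + (c g + τ g (c g⁻¹)) := by abel
    _ = τ g (c t) := by rw [h1, add_zero]

section Rep

variable {k : Type*} [Field k]

variable (k) in
/-- matrices of trace zero -/
def sl2 : Submodule k (Matrix (Fin 2) (Fin 2) k) := LinearMap.ker (Matrix.traceLinearMap (Fin 2) k k)

theorem mem_sl2 {X : Matrix (Fin 2) (Fin 2) k} : X ∈ sl2 k ↔ X.trace = 0 := by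
  rw [sl2, LinearMap.mem_ker, Matrix.traceLinearMap_apply]

variable {Γ : Type*} [Group Γ] (ρ : Γ →* GL (Fin 2) k) (χ : Γ →* kˣ)

/-- conjugation by `ρ g`, twisted by `χ g` -/
noncomputable def conjLin (g : Γ) : Matrix (Fin 2) (Fin 2) k →ₗ[k] Matrix (Fin 2) (Fin 2) k :=
  ((χ g : kˣ) : k) • ((LinearMap.mulRight k ((ρ g⁻¹ : GL (Fin 2) k) : Matrix (Fin 2) (Fin 2) k)).comp
    (LinearMap.mulLeft k ((ρ g : GL (Fin 2) k) : Matrix (Fin 2) (Fin 2) k)))

theorem conjLin_apply (g : Γ) (X : Matrix (Fin 2) (Fin 2) k) :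
    conjLin ρ χ g X = (χ g : k) • ((ρ g : Matrix (Fin 2) (Fin 2) k) * X *
      (ρ g⁻¹ : Matrix (Fin 2) (Fin 2) k)) := rfl

theorem inv_mul_coe (g : Γ) : ((ρ g⁻¹ : GL (Fin 2) k) : Matrix (Fin 2) (Fin 2) k) *
    (ρ g : Matrix (Fin 2) (Fin 2) k) = 1 := by
  rw [← Units.val_mul, ← map_mul, inv_mul_cancel, map_one, Units.val_one]

theorem mul_inv_coe (g : Γ) : (ρ g : Matrix (Fin 2) (Fin 2) k) *
    ((ρ g⁻¹ : GL (Fin 2) k) : Matrix (Fin 2) (Fin 2) k) = 1 := by
  rw [← Units.val_mul, ← map_mul, mul_inv_cancel, map_one, Units.val_one]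

theorem trace_conjLin (g : Γ) (X : Matrix (Fin 2) (Fin 2) k) :
    (conjLin ρ χ g X).trace = (χ g : k) * X.trace := by
  rw [conjLin_apply, trace_smul, trace_mul_comm, ← mul_assoc, inv_mul_coe, one_mul, smul_eq_mul]

/-- The twisted adjoint representation on matrices of trace zero. -/
noncomputable def adRep : Representation k Γ (sl2 k) where
  toFun g := (conjLin ρ χ g).restrict (fun X hX => by
    rw [mem_sl2] at hX ⊢
    rw [trace_conjLin, hX, mul_zero])
  map_one' := by
    refine LinearMap.ext fun X => Subtype.ext ?_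
    change conjLin ρ χ 1 X.1 = X.1
    rw [conjLin_apply, inv_one, map_one, map_one]
    simp
  map_mul' g h := by
    refine LinearMap.ext fun X => Subtype.ext ?_
    change conjLin ρ χ (g * h) X.1 = conjLin ρ χ g (conjLin ρ χ h X.1)
    simp only [conjLin_apply, _root_.mul_inv_rev, map_mul, Units.val_mul, mul_smul, mul_smul_comm,
      smul_mul_assoc, mul_assoc]

theorem adRep_coe (g : Γ) (X : sl2 k) : (adRep ρ χ g X : Matrix (Fin 2) (Fin 2) k) =
    (χ g : k) • ((ρ g : Matrix (Fin 2) (Fin 2) k) * X.1 * (ρ g⁻¹ : Matrix (Fin 2) (Fin 2) k)) := rfl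

theorem adRep_of_one {g : Γ} (h : ρ g = 1) (h' : χ g = 1) (X : sl2 k) : adRep ρ χ g X = X := by
  apply Subtype.ext
  rw [adRep_coe, map_inv, h, h', inv_one]
  simp

theorem trace_mul_adRep {g : Γ} (h' : χ g = 1) (X : sl2 k) :
    ((ρ g : Matrix (Fin 2) (Fin 2) k) * (adRep ρ χ g X).1).trace =
      ((ρ g : Matrix (Fin 2) (Fin 2) k) * X.1).trace := by
  rw [adRep_coe, h', Units.val_one, one_smul, trace_mul_comm, mul_assoc, inv_mul_coe, mul_one]

variable {ρ χ}

/-- **Selection of an element.** -/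
theorem exists_sigma (h2 : (2 : k) ≠ 0) {H : Subgroup Γ} (hcomm : ∀ g t : Γ, g * t * g⁻¹ * t⁻¹ ∈ H)
    (hdet : ∀ h ∈ H, (ρ h : Matrix (Fin 2) (Fin 2) k).det = 1) (hχ : ∀ h ∈ H, χ h = 1)
    (hχ' : ∀ t, ρ t = 1 → χ t = 1) (hspan : Submodule.span k (imgSet ρ H) = ⊤)
    {c : Γ → sl2 k} (hc : ∀ g h, c (g * h) = adRep ρ χ g (c h) + c g)
    (hvan : (∀ t, ρ t = 1 → c t = 0) → c ∈ B1 (adRep ρ χ)) (hcB : c ∉ B1 (adRep ρ χ)) :
    ∃ s ∈ H, (ρ s : Matrix (Fin 2) (Fin 2) k).trace ^ 2 ≠ 4 ∧
      ((ρ s : Matrix (Fin 2) (Fin 2) k) * (c s).1).trace ≠ 0 := by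
  -- the values on the kernel
  have hker : ∀ t, ρ t = 1 → ∀ v : sl2 k, adRep ρ χ t v = v := fun t ht v =>
    adRep_of_one ρ χ ht (hχ' t ht) v
  -- `c` does not vanish on the kernel intersected with `H`
  obtain ⟨t₀, ht₀, ht₀H, hct₀⟩ : ∃ t, ρ t = 1 ∧ t ∈ H ∧ c t ≠ 0 := by
    by_contra hcon
    push Not at hcon
    apply hcB
    refine hvan fun t ht => ?_
    -- `c t` is invariant under `H`
    have hinv : ∀ g : Γ, adRep ρ χ g (c t) = c t := by
      intro g
      have e1 := cocycle_conj hc g (hker t ht)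
      have ht' : ρ (g * t * g⁻¹ * t⁻¹) = 1 := by
        rw [map_mul, map_mul, map_mul, map_inv, map_inv, ht]
        simp
      have e2 := hcon _ ht' (hcomm g t)
      have e3 : c (g * t * g⁻¹ * t⁻¹ * t) = c t := by
        rw [hc, e2, add_zero]
        exact hker _ ht' _
      rw [inv_mul_cancel_right, e1] at e3
      exact e3
    -- hence commutes with everything
    have hcom : ∀ Y : Matrix (Fin 2) (Fin 2) k, Y * (c t).1 = (c t).1 * Y := by
      intro Y
      have hY : Y ∈ Submodule.span k (imgSet ρ H) := by rw [hspan]; trivial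
      induction hY using Submodule.span_induction with
      | mem y hy =>
        obtain ⟨h, hh, rfl⟩ := hy
        have e1 := congrArg Subtype.val (hinv h)
        rw [adRep_coe, hχ h hh, Units.val_one, one_smul] at e1
        calc (ρ h : Matrix (Fin 2) (Fin 2) k) * (c t).1
            = (ρ h : Matrix (Fin 2) (Fin 2) k) * (c t).1 *
              (((ρ h⁻¹ : GL (Fin 2) k) : Matrix (Fin 2) (Fin 2) k) *
                (ρ h : Matrix (Fin 2) (Fin 2) k)) := by rw [inv_mul_coe, mul_one]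
          _ = (c t).1 * (ρ h : Matrix (Fin 2) (Fin 2) k) := by rw [← mul_assoc, e1]
      | zero => simp
      | add x y _ _ hx hy => rw [add_mul, mul_add, hx, hy]
      | smul a x _ hx => rw [smul_mul_assoc, mul_smul_comm, hx]
    have htr := mem_sl2.mp (c t).2
    rw [trace_fin_two] at htr
    apply Subtype.ext
    have h01 := congrFun (congrFun (hcom !![0, 1; 0, 0]) 0) 0
    have h01' := congrFun (congrFun (hcom !![0, 1; 0, 0]) 0) 1
    have h10 := congrFun (congrFun (hcom !![0, 0; 1, 0]) 0) 0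
    simp [mul_apply, Fin.sum_univ_two] at h01 h01' h10
    have hd : 2 * (c t).1 0 0 = 0 := by linear_combination htr - h01'
    have hd0 := (mul_eq_zero.mp hd).resolve_left h2
    ext i j
    fin_cases i <;> fin_cases j
    · exact hd0
    · exact h10.symm ▸ rfl
    · exact h01
    · simpa [h01'] using hd0
  -- the stable subspace
  set W : Submodule k (Matrix (Fin 2) (Fin 2) k) :=
    Submodule.span k {X | ∃ t, ρ t = 1 ∧ t ∈ H ∧ (c t).1 = X} with hW
  have hWtr : ∀ X ∈ W, X.trace = 0 := by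
    intro X hX
    rw [← mem_sl2]
    refine (Submodule.span_le (p := sl2 k)).mpr ?_ hX
    rintro _ ⟨t, -, -, rfl⟩
    exact (c t).2
  have hWst : ∀ h ∈ H, ∀ X ∈ W, (ρ h : Matrix (Fin 2) (Fin 2) k) * X *
      (ρ h⁻¹ : Matrix (Fin 2) (Fin 2) k) ∈ W := by
    intro h hh X hX
    induction hX using Submodule.span_induction with
    | mem x hx =>
      obtain ⟨t, ht, htH, rfl⟩ := hx
      have e1 := congrArg Subtype.val (cocycle_conj hc h (hker t ht))
      rw [adRep_coe, hχ h hh, Units.val_one, one_smul] at e1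
      rw [← e1]
      refine Submodule.subset_span ⟨_, ?_, ?_, rfl⟩
      · rw [map_mul, map_mul, ht, mul_one, map_inv, mul_inv_cancel]
      · have : h * t * h⁻¹ = (h * t * h⁻¹ * t⁻¹) * t := by group
        rw [this]
        exact H.mul_mem (hcomm h t) htH
    | zero => simp
    | add x y _ _ hx hy => rw [mul_add, add_mul]; exact W.add_mem hx hy
    | smul a x _ hx => rw [mul_smul_comm, smul_mul_assoc]; exact W.smul_mem a hx
  have hW0 : W ≠ ⊥ := by
    intro h0
    apply hct₀
    have h1 : (c t₀).1 ∈ W := Submodule.subset_span ⟨t₀, ht₀, ht₀H, rfl⟩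
    rw [h0, Submodule.mem_bot] at h1
    exact Subtype.ext h1
  obtain ⟨h, hh, htr4, X, hX, hXh⟩ := exists_tw h2 hdet hspan hWtr hWst hW0
  by_cases hch : ((ρ h : Matrix (Fin 2) (Fin 2) k) * (c h).1).trace = 0
  · -- modify by an element of the kernel
    obtain ⟨t, ht, htH, hct⟩ : ∃ t, ρ t = 1 ∧ t ∈ H ∧
        ((ρ h : Matrix (Fin 2) (Fin 2) k) * (c t).1).trace ≠ 0 := by
      by_contra hcon
      push Not at hcon
      apply hXh
      have hle : W ≤ LinearMap.ker ((Matrix.traceLinearMap (Fin 2) k k).comp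
          (LinearMap.mulLeft k (ρ h : Matrix (Fin 2) (Fin 2) k))) := by
        refine Submodule.span_le.mpr ?_
        rintro _ ⟨t, ht, htH, rfl⟩
        exact hcon t ht htH
      exact hle hX
    refine ⟨t * h, H.mul_mem htH hh, ?_, ?_⟩
    · rw [map_mul, ht, one_mul]
      exact htr4
    · rw [map_mul, ht, one_mul, hc, hker t ht]
      change ((ρ h : Matrix (Fin 2) (Fin 2) k) * ((c h).1 + (c t).1)).trace ≠ 0
      rw [mul_add, trace_add, hch, zero_add]
      exact hct
  · exact ⟨h, hh, htr4, hch⟩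

end Rep

end Fermat.Agent.RT
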