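import Fermat.Agent.RT.TWStepB
import Fermat.Agent.RT.LevelFree
import Fermat.Agent.RT.DegNew

set_option autoImplicit false

/-!
# The Taylor–Wiles step: from level `N` to level `N q`
-/

open Matrix CongruenceSubgroup IsLocalRing
open scoped MatrixGroups

namespace Fermat.Agent.RT.Ihara

open Fermat.Agent.RT

variable {G : Subgroup SL(2, ℤ)} {N q : ℕ}
variable {𝒪 : Type*} [CommRing 𝒪] [IsDomain 𝒪] [IsDiscreteValuationRing 𝒪]
variable [IsAdicComplete (maximalIdeal 𝒪) 𝒪]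

/-- Absence of new vectors -/
def NoNew (N : ℕ) (hq : q.Prime) (hqN : IsCoprime (N : ℤ) (q : ℤ)) (I : Set ℕ) (a : ℕ → 𝒪) :
    Prop :=
  ∀ v ∈ HM 𝒪 (le_Gq (Gamma1_le N)) (Gq_le_Gamma0 le_rfl hqN) I a,
    tr1 (Gamma1_le N) hq hqN v = 0 → tr2 (Gamma1_le N) le_rfl hq hqN v = 0 → v = 0

/-- The residual eigenvalue of `T_q` -/
def EigAt (N q : ℕ) (I : Set ℕ) (a : ℕ → 𝒪) (s : 𝒪) : Prop :=
  ∀ v ∈ HM 𝒪 (Gamma1_le N) le_rfl I a,
    NilAt (hec (Gamma1_le N) le_rfl q - s • (1 : Module.End 𝒪 (H1 𝒪 𝒪 (Gamma0 N)))) v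

/-- **The Taylor–Wiles step.** -/
theorem tw_step [NeZero N] {I : Set ℕ} {a : ℕ → 𝒪} {b : 𝒪} (hq : q.Prime)
    (hqN : IsCoprime (N : ℤ) (q : ℤ)) (hI : q ∉ I)
    (hnew : NoNew N hq hqN I a) (hT : EigAt N q I a (a q + b))
    (hab : a q * b - q ∈ maximalIdeal 𝒪) (hu1 : IsUnit (a q - b)) (hu2 : IsUnit (b - q * a q))
    (hu3 : IsUnit (((q : 𝒪) + 1) * (q + 1) - (a q + b) * (a q + b))) :
    ∃ e : HM 𝒪 (le_Gq (q := q) (Gamma1_le N)) (Gq_le_Gamma0 le_rfl hqN) (insert q I) a ≃ₗ[𝒪]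
      HM 𝒪 (Gamma1_le N) le_rfl I a,
      ∀ v, (e v : H1 𝒪 𝒪 (Gamma0 N)) = tr1 (Gamma1_le N) hq hqN v.1 := by
  have : NeZero q := ⟨hq.ne_zero⟩
  have : (Gq (Gamma0 N) q).FiniteIndex := Subgroup.finiteIndex_of_le (le_Gq (Gamma1_le N))
  have := finite_H1 (O := 𝒪) (A := 𝒪) (G := Gamma0 N)
  have := finite_H1 (O := 𝒪) (A := 𝒪) (G := Gq (Gamma0 N) q)
  refine step_loc (M := H1 𝒪 𝒪 (Gamma0 N)) (M' := H1 𝒪 𝒪 (Gq (Gamma0 N) q))
    (H := hec (Gamma1_le N) le_rfl)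
    (H' := hec (le_Gq (Gamma1_le N)) (Gq_le_Gamma0 le_rfl hqN))
    (α := resH Gq_le) (β := degB (Gamma1_le N) le_rfl hq hqN) (t₁ := tr1 (Gamma1_le N) hq hqN)
    (t₂ := tr2 (Gamma1_le N) le_rfl hq hqN) (b := b)
    (fun i j => hec_comm (Gamma1_le N) le_rfl i j)
    (fun i j => hec_comm (le_Gq (Gamma1_le N)) (Gq_le_Gamma0 le_rfl hqN) i j) hI
    (fun n hn x => hec_degA (Gamma1_le N) le_rfl hq hqN n hn x)
    (fun n hn x => hec_degB (Gamma1_le N) le_rfl hq hqN n hn x)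
    (fun n hn x => hec_tr1 (Gamma1_le N) le_rfl hq hqN n hn x)
    (fun n hn x => hec_tr2 (Gamma1_le N) le_rfl hq hqN n hn x)
    (fun x => tr1_degA (Gamma1_le N) le_rfl hq hqN x) ?_
    (fun x => tr2_degA (Gamma1_le N) le_rfl hq hqN x)
    (fun x => tr2_degB (Gamma1_le N) le_rfl hq hqN x) ?_
    (fun x => U_degB (Gamma1_le N) le_rfl hq hqN x) hnew hT hab hu1 hu2 hu3
  · intro x
    have h1 := tr1_degB (Gamma1_le N) le_rfl hq hqN x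
    rwa [diaH_of_mem (Gamma1_le N) le_rfl (σ := sq N q) (sq N q).2, LinearMap.id_apply] at h1
  · intro x
    have h1 := degA_T (Gamma1_le N) le_rfl hq hqN x
    rwa [diaH_of_mem (Gamma1_le N) le_rfl (σ := sq N q) (sq N q).2, LinearMap.id_apply] at h1

end Fermat.Agent.RT.Ihara
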