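import Fermat.Agent.RT.TWRoot

set_option autoImplicit false

/-!
# The Taylor–Wiles step: linear algebra
-/

open IsLocalRing

namespace Fermat.Agent.RT

section Nil

variable {𝒪 : Type*} [CommRing 𝒪] [IsLocalRing 𝒪] {X : Type*} [AddCommGroup X] [Module 𝒪 X]
  {Y : Type*} [AddCommGroup Y] [Module 𝒪 Y]

theorem TopNil.nilAt {g : Module.End 𝒪 X} (h : TopNil g) (x : X) : NilAt g x := by
  obtain ⟨n, hn⟩ := h
  have h1 : ∀ j, ∀ y ∈ maximalIdeal 𝒪 ^ j • (⊤ : Submodule 𝒪 X),
      (g ^ n) y ∈ maximalIdeal 𝒪 ^ (j + 1) • (⊤ : Submodule 𝒪 X) := by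
    intro j y hy
    induction hy using Submodule.smul_induction_on' with
    | smul a ha x _ =>
      rw [map_smul, pow_succ, mul_smul]
      exact Submodule.smul_mem_smul ha (hn x)
    | add x _ y _ hx hy => rw [map_add]; exact Submodule.add_mem _ hx hy
  intro j
  refine ⟨n * j, ?_⟩
  induction j with
  | zero => simp
  | succ j ih =>
    have h2 : g ^ (n * (j + 1)) = g ^ n * g ^ (n * j) := by rw [← pow_add]; congr 1; ring
    rw [h2, Module.End.mul_apply]
    exact h1 j _ ih

theorem NilAt.topNil [Module.Finite 𝒪 X] {g : Module.End 𝒪 X} (h : ∀ x, NilAt g x) :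
    TopNil g := topNil_of_forall fun x => by
  obtain ⟨n, hn⟩ := h x 1
  exact ⟨n, by rwa [pow_one] at hn⟩

theorem TopNil.add {g g' : Module.End 𝒪 X} (h : TopNil g) (h' : TopNil g')
    (hc : Commute g g') : TopNil (g + g') := by
  obtain ⟨n, hn⟩ := h
  obtain ⟨n', hn'⟩ := h'
  refine ⟨n + n', fun x => ?_⟩
  rw [hc.add_pow, LinearMap.sum_apply]
  refine Submodule.sum_mem _ fun i hi => ?_
  rw [Module.End.mul_apply]
  by_cases hin : n ≤ i
  · obtain ⟨k, rfl⟩ := Nat.exists_eq_add_of_le hin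
    rw [pow_add, mul_assoc, Module.End.mul_apply]
    exact hn _
  · have h2 : n' ≤ n + n' - i := by omega
    obtain ⟨k, hk⟩ := Nat.exists_eq_add_of_le h2
    rw [hk, (hc.pow_pow i (n' + k)).eq, pow_add, mul_assoc, Module.End.mul_apply]
    exact hn' _

theorem TopNil.smul {g : Module.End 𝒪 X} (h : TopNil g) (c : 𝒪) : TopNil (c • g) := by
  obtain ⟨n, hn⟩ := h
  refine ⟨n, fun x => ?_⟩
  rw [smul_pow, LinearMap.smul_apply]
  exact Submodule.smul_mem _ _ (hn x)

theorem TopNil.mul {g g' : Module.End 𝒪 X} (h : TopNil g) (hc : Commute g g') :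
    TopNil (g * g') := by
  obtain ⟨n, hn⟩ := h
  refine ⟨n, fun x => ?_⟩
  rw [hc.mul_pow, Module.End.mul_apply]
  exact hn _

theorem TopNil.algebraMap {c : 𝒪} (hc : c ∈ maximalIdeal 𝒪) :
    TopNil (c • (1 : Module.End 𝒪 X)) := by
  refine ⟨1, fun x => ?_⟩
  rw [pow_one, LinearMap.smul_apply, Module.End.one_apply]
  exact Submodule.smul_mem_smul hc Submodule.mem_top

theorem smul_one_commute (c : 𝒪) (g : Module.End 𝒪 X) : Commute (c • (1 : Module.End 𝒪 X)) g := by
  rw [Commute, SemiconjBy, mul_smul_comm, smul_mul_assoc, mul_one, one_mul]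

theorem intertwine {A : Module.End 𝒪 X} {U : Module.End 𝒪 Y} (s : X →ₗ[𝒪] Y)
    (h : ∀ x, U (s x) = s (A x)) (a : 𝒪) (x : X) : s ((A - a • 1) x) = (U - a • 1) (s x) := by
  rw [LinearMap.sub_apply, LinearMap.sub_apply, map_sub, h]
  simp only [LinearMap.smul_apply, Module.End.one_apply, map_smul]

/-- uniqueness of the generalised eigenvalue -/
theorem NilAt.eq_zero [IsNoetherianRing 𝒪] [Module.Finite 𝒪 X] {U : Module.End 𝒪 X} {a b : 𝒪}
    (hu : IsUnit (a - b)) {x : X} (ha : NilAt (U - a • 1) x) (hb : NilAt (U - b • 1) x)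
    [IsAdicComplete (maximalIdeal 𝒪) 𝒪] : x = 0 := by
  have hT : ∀ i j : Bool, (fun _ : Bool => U) i * (fun _ : Bool => U) j =
      (fun _ : Bool => U) j * (fun _ : Bool => U) i := fun _ _ => rfl
  set W : Submodule 𝒪 X := LocG (fun _ : Bool => U) (fun i => if i then a else b) with hW
  have hx : x ∈ W := by
    rintro (_ | _)
    · exact hb
    · exact ha
  have h1 := LocG.bijective_X (a := fun i : Bool => if i then a else b) hT true (c := b)
    (by simpa using hu)
  have h2 : TopNil (LocG.res (a := fun i : Bool => if i then a else b) (U - b • 1)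
      (LocG.sub_comm hT true b)) := by
    refine topNil_of_forall fun y => ?_
    obtain ⟨n, hn⟩ := y.2 false 1
    rw [pow_one] at hn
    refine ⟨n, ?_⟩
    have h3 : (((LocG.res (a := fun i : Bool => if i then a else b) (U - b • 1)
      (LocG.sub_comm hT true b) ^ n) y : W) : X) ∈ maximalIdeal 𝒪 • (⊤ : Submodule 𝒪 X) := by
      rw [LocG.res_pow]
      exact hn
    exact LocG.mem_smul hT _ h3
  obtain ⟨n, hn⟩ := h2
  have h3 : (⊤ : Submodule 𝒪 W) ≤ maximalIdeal 𝒪 • (⊤ : Submodule 𝒪 W) := by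
    intro y _
    have h4 : Function.Surjective ((LocG.res (a := fun i : Bool => if i then a else b) (U - b • 1)
      (LocG.sub_comm hT true b) ^ n : Module.End 𝒪 W)) := by
      rw [Module.End.coe_pow]
      exact h1.2.iterate n
    obtain ⟨z, rfl⟩ := h4 y
    exact hn z
  have h4 : (⊤ : Submodule 𝒪 W) = ⊥ := by
    refine Submodule.eq_bot_of_le_smul_of_le_jacobson_bot (maximalIdeal 𝒪) ⊤
      (IsNoetherian.noetherian ⊤) h3 (IsLocalRing.maximalIdeal_le_jacobson ⊥)
  have h5 : (⟨x, hx⟩ : W) ∈ (⊤ : Submodule 𝒪 W) := Submodule.mem_top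
  rw [h4, Submodule.mem_bot] at h5
  exact congrArg Subtype.val h5

end Nil

section Step

variable {𝒪 : Type*} [CommRing 𝒪] [IsLocalRing 𝒪] [IsNoetherianRing 𝒪]
  [IsAdicComplete (maximalIdeal 𝒪) 𝒪] {X : Type*} [AddCommGroup X] [Module 𝒪 X]
  [Module.Finite 𝒪 X] {Y : Type*} [AddCommGroup Y] [Module 𝒪 Y] [Module.Finite 𝒪 Y]
  {α β : X →ₗ[𝒪] Y} {t₁ t₂ : Y →ₗ[𝒪] X} {T : Module.End 𝒪 X} {U : Module.End 𝒪 Y} {q a b : 𝒪}

omit [IsNoetherianRing 𝒪] [IsAdicComplete (maximalIdeal 𝒪) 𝒪] [Module.Finite 𝒪 Y] in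
/-- `(α, β)` is surjective when there are no new vectors. -/
theorem step_surj (h11 : ∀ x, t₁ (α x) = (q + 1) • x) (h12 : ∀ x, t₁ (β x) = T x)
    (h21 : ∀ x, t₂ (α x) = T x) (h22 : ∀ x, t₂ (β x) = (q + 1) • x)
    (hnew : ∀ y, t₁ y = 0 → t₂ y = 0 → y = 0) (hT : TopNil (T - (a + b) • 1))
    (hu : IsUnit ((q + 1) * (q + 1) - (a + b) * (a + b))) (y : Y) : ∃ x₁ x₂, y = α x₁ + β x₂ := by
  have h1 : Function.Bijective (((q + 1) * (q + 1)) • (1 : Module.End 𝒪 X) - (T * T : Module.End 𝒪 X) :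
      Module.End 𝒪 X) := by
    refine TopNil.bijective_of_sub hu ?_
    have h2 : ((q + 1) * (q + 1)) • (1 : Module.End 𝒪 X) - T * T - ((q + 1) * (q + 1) - (a + b) * (a + b)) • 1 =
        (T - (a + b) • 1) * (-(T + (a + b) • 1)) := by
      generalize a + b = s
      generalize q + 1 = r
      rw [mul_neg, sub_mul, mul_add, smul_mul_assoc, one_mul,
        mul_smul_comm, mul_one, sub_smul, smul_add, smul_smul]
      abel
    rw [h2]
    refine hT.mul ?_
    refine Commute.neg_right ?_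
    refine Commute.add_right (Commute.sub_left (Commute.refl T) (smul_one_commute _ _)) ?_
    exact (smul_one_commute _ _).symm
  obtain ⟨x₁, hx₁⟩ := h1.2 ((q + 1) • t₁ y - T (t₂ y))
  obtain ⟨x₂, hx₂⟩ := h1.2 ((q + 1) • t₂ y - T (t₁ y))
  refine ⟨x₁, x₂, ?_⟩
  rw [← sub_eq_zero]
  set D : Module.End 𝒪 X := ((q + 1) * (q + 1)) • (1 : Module.End 𝒪 X) - (T * T : Module.End 𝒪 X) with hD
  have hDT : ∀ x, D (T x) = T (D x) := by
    intro x
    rw [hD]
    simp only [LinearMap.sub_apply, LinearMap.smul_apply, Module.End.one_apply,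
      Module.End.mul_apply, map_sub, map_smul]
  apply hnew
  · rw [map_sub, map_add, h11, h12]
    apply h1.1
    change D _ = D 0
    rw [map_sub, map_add, map_smul, hDT, hx₁, hx₂, map_zero, hD]
    simp only [LinearMap.sub_apply, LinearMap.smul_apply, Module.End.one_apply,
      Module.End.mul_apply, map_sub, map_smul, smul_sub, smul_smul]
    abel
  · rw [map_sub, map_add, h21, h22]
    apply h1.1
    change D _ = D 0
    rw [map_sub, map_add, map_smul, hDT, hx₁, hx₂, map_zero, hD]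
    simp only [LinearMap.sub_apply, LinearMap.smul_apply, Module.End.one_apply,
      Module.End.mul_apply, map_sub, map_smul, smul_sub, smul_smul]
    abel

/-- **The Taylor–Wiles step** -/
theorem step_bij (h11 : ∀ x, t₁ (α x) = (q + 1) • x) (h12 : ∀ x, t₁ (β x) = T x)
    (h21 : ∀ x, t₂ (α x) = T x) (h22 : ∀ x, t₂ (β x) = (q + 1) • x)
    (hUα : ∀ x, U (α x) = α (T x) - β x) (hUβ : ∀ x, U (β x) = q • α x)
    (hnew : ∀ y, t₁ y = 0 → t₂ y = 0 → y = 0) (hT : TopNil (T - (a + b) • 1))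
    (hab : a * b - q ∈ maximalIdeal 𝒪) (hu1 : IsUnit (a - b)) (hu2 : IsUnit (b - q * a))
    (hu3 : IsUnit ((q + 1) * (q + 1) - (a + b) * (a + b))) :
    (∀ y, NilAt (U - a • 1) y → t₁ y = 0 → y = 0) ∧
      ∀ x, ∃ y, NilAt (U - a • 1) y ∧ t₁ y = x := by
  obtain ⟨A, hA, hAn, hAc⟩ := exists_root hT hab hu1
  have hAT : T * A = A * T := hAc T rfl
  set B := T - A with hB
  have hAB : ∀ x, A (T x) = T (A x) := fun x => (LinearMap.congr_fun hAT x).symm
  have hA2 : ∀ x, A (A x) = T (A x) - q • x := by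
    intro x
    have := LinearMap.congr_fun hA x
    simp only [LinearMap.add_apply, LinearMap.sub_apply, LinearMap.smul_apply,
      Module.End.one_apply, Module.End.mul_apply, LinearMap.zero_apply] at this
    rw [sub_add_eq_add_sub, sub_eq_zero] at this
    rw [← this]; abel
  have hcAT : Commute (A - a • 1) (T - (a + b) • 1) := by
    refine Commute.sub_left ?_ (smul_one_commute _ _)
    exact Commute.sub_right hAT.symm (smul_one_commute _ _).symm
  have hBn : TopNil (B - b • 1) := by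
    have h1 : B - b • 1 = (T - (a + b) • 1) + ((-1 : 𝒪) • (A - a • 1)) := by
      rw [hB, add_smul, smul_sub, neg_smul, one_smul, neg_smul, one_smul]; abel
    rw [h1]
    exact hT.add (hAn.smul _) (hcAT.symm.smul_right _)
  -- the three bijective operators
  have hcAB : Commute (A - a • 1) (B - b • 1) := by
    refine Commute.sub_left ?_ (smul_one_commute _ _)
    refine Commute.sub_right ?_ (smul_one_commute _ _).symm
    exact Commute.sub_right hAT.symm (Commute.refl A)
  have hbij1 : Function.Bijective (A - B) := by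
    refine TopNil.bijective_of_sub hu1 ?_
    have h1 : A - B - (a - b) • 1 = (A - a • 1) + ((-1 : 𝒪) • (B - b • 1)) := by
      rw [sub_smul, smul_sub, neg_smul, one_smul, neg_smul, one_smul]; abel
    rw [h1]
    exact hAn.add (hBn.smul _) (hcAB.smul_right _)
  have hbij2 : Function.Bijective (B - q • A) := by
    refine TopNil.bijective_of_sub hu2 ?_
    have h1 : B - q • A - (b - q * a) • 1 = (B - b • 1) + ((-q) • (A - a • 1)) := by
      rw [sub_smul, smul_sub, smul_smul, neg_smul, neg_mul, neg_smul]; abel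
    rw [h1]
    exact hBn.add (hAn.smul _) (hcAB.symm.smul_right _)
  -- the eigenvectors
  set sA : X →ₗ[𝒪] Y := β - α ∘ₗ A with hsA
  set sB : X →ₗ[𝒪] Y := β - α ∘ₗ B with hsB
  have sA_apply : ∀ x, sA x = β x - α (A x) := fun x => rfl
  have sB_apply : ∀ x, sB x = β x - α (B x) := fun x => rfl
  have hUA : ∀ x, U (sA x) = sA (A x) := by
    intro x
    rw [sA_apply, sA_apply, map_sub, hUα, hUβ, hA2, map_sub, map_smul]
    abel
  have hB2 : ∀ x, B (B x) = T (B x) - q • x := by
    intro x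
    rw [hB]
    simp only [LinearMap.sub_apply, map_sub, hA2, hAB]
    abel
  have hUB : ∀ x, U (sB x) = sB (B x) := by
    intro x
    rw [sB_apply, sB_apply, map_sub, hUα, hUβ, hB2, map_sub, map_smul]
    abel
  have hnA : ∀ x, NilAt (U - a • 1) (sA x) := fun x =>
    (hAn.nilAt x).map sA fun x => intertwine sA hUA a x
  have hnB : ∀ x, NilAt (U - b • 1) (sB x) := fun x =>
    (hBn.nilAt x).map sB fun x => intertwine sB hUB b x
  have ht1 : ∀ x, t₁ (sA x) = (B - q • A) x := by
    intro x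
    rw [sA_apply, map_sub, h12, h11, hB, add_smul, one_smul]
    simp only [LinearMap.sub_apply, LinearMap.smul_apply]
    abel
  -- the decomposition
  have hdec : ∀ y, ∃ u v, y = sA u + sB v := by
    intro y
    obtain ⟨x₁, x₂, rfl⟩ := step_surj h11 h12 h21 h22 hnew hT hu3 y
    obtain ⟨u, hu⟩ := hbij1.2 (-x₁ - B x₂)
    refine ⟨u, x₂ - u, ?_⟩
    rw [sA_apply, sB_apply, map_sub, map_sub, map_sub]
    have h1 : A u - B u = -x₁ - B x₂ := hu
    have h2 : α x₁ = α (-(A u) + B u - B x₂) := by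
      congr 1
      have h3 : x₁ = -(A u - B u) - B x₂ := by rw [h1]; abel
      rw [h3]; abel
    rw [h2, map_sub, map_add, map_neg]
    abel
  refine ⟨fun y hy hy0 => ?_, fun x => ?_⟩
  · obtain ⟨u, v, rfl⟩ := hdec y
    have h1 : NilAt (U - a • 1) (sB v) := by
      have h2 : sB v = (sA u + sB v) - sA u := by abel
      rw [h2]
      exact (LocG (fun _ : Unit => U) (fun _ => a)).sub_mem (fun _ => hy) (fun _ => hnA u) ()
    have h2 : sB v = 0 := NilAt.eq_zero hu1 h1 (hnB v)
    rw [h2, add_zero, ht1] at hy0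
    have h3 : u = 0 := hbij2.1 (by rw [hy0, map_zero])
    rw [h3, h2, map_zero, add_zero]
  · obtain ⟨u, hu⟩ := hbij2.2 x
    exact ⟨sA u, hnA u, by rw [ht1, hu]⟩

end Step

end Fermat.Agent.RT
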