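import Fermat.Agent.RT.TWEigen

set_option autoImplicit false
set_option maxHeartbeats 400000
set_option linter.style.haveILetI false
set_option linter.unusedSectionVars false
set_option linter.unusedVariables false

/-!
# From eigenvalues to the structure of the Hecke module, II
-/

open IsLocalRing

namespace Fermat.Agent.RT

section Integrality

variable {𝒪 : Type} [CommRing 𝒪] [IsDomain 𝒪] [IsLocalRing 𝒪] {p : ℕ} [Fact p.Prime] {ζ : 𝒪}
  (hζ : IsPrimitiveRoot ζ p) (hp : (p : 𝒪) ∈ maximalIdeal 𝒪)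

include hζ in
lemma natCast_dvd_pow : (p : 𝒪) ∣ (ζ - 1) ^ (p - 1) := by
  obtain ⟨n, hn⟩ : ∃ n, p = n + 1 := ⟨p - 1, (Nat.sub_add_cancel (Fact.out : p.Prime).one_le).symm⟩
  have hζ' : IsPrimitiveRoot ζ (n + 1) := hn ▸ hζ
  have h1 := hζ'.prod_one_sub_pow_eq_order
  have h2 : (p : 𝒪) = ∏ k ∈ Finset.range n, (1 - ζ ^ (k + 1)) := by
    rw [h1, hn]; push_cast; ring
  rw [h2, hn, Nat.add_sub_cancel, ← Finset.card_range n, ← Finset.prod_const,
    Finset.card_range]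
  refine Finset.prod_dvd_prod_of_dvd _ _ fun k hk => ?_
  rw [Finset.mem_range] at hk
  have hcop : Nat.Coprime (k + 1) p := by
    refine Nat.Coprime.symm ((Nat.Prime.coprime_iff_not_dvd (Fact.out : p.Prime)).mpr fun h => ?_)
    have := Nat.le_of_dvd (Nat.succ_pos k) h
    omega
  have h3 : IsPrimitiveRoot (ζ ^ (k + 1)) p := hζ.pow_of_coprime _ hcop
  haveI : NeZero p := ⟨(Fact.out : p.Prime).ne_zero⟩
  obtain ⟨i, -, hi⟩ := h3.eq_pow_of_pow_eq_one hζ.pow_eq_one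
  have h4 : 1 - ζ ^ (k + 1) ∣ 1 ^ i - (ζ ^ (k + 1)) ^ i := sub_dvd_pow_sub_pow _ _ _
  rw [hi, one_pow] at h4
  obtain ⟨c, hc⟩ := h4
  exact ⟨-c, by linear_combination -hc⟩

include hζ hp in
lemma natCast_dvd_pow' (k : ℕ) : ((k + 1 : ℕ) : 𝒪) ∣ (ζ - 1) ^ k := by
  obtain ⟨a, k', hk', hk⟩ := Nat.exists_eq_pow_mul_and_not_dvd (Nat.succ_ne_zero k) p
    (Fact.out : p.Prime).ne_one
  have hu : IsUnit ((k' : ℕ) : 𝒪) := by
    have hcop : IsCoprime (k' : ℤ) (p : ℤ) := by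
      rw [Nat.isCoprime_iff_coprime]
      exact ((Nat.Prime.coprime_iff_not_dvd (Fact.out : p.Prime)).mpr hk').symm
    obtain ⟨u, v, huv⟩ := hcop
    have h1 : (u : 𝒪) * (k' : 𝒪) = 1 - v * (p : 𝒪) := by
      have := congrArg (Int.cast : ℤ → 𝒪) huv
      push_cast at this
      linear_combination this
    by_contra hne
    have h2 : (1 : 𝒪) ∈ maximalIdeal 𝒪 := by
      have : (1 : 𝒪) = u * k' + v * p := by rw [h1]; ring
      rw [this]
      exact Ideal.add_mem _ (Ideal.mul_mem_left _ _ hne) (Ideal.mul_mem_left _ _ hp)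
    exact h2 isUnit_one
  have h1 : a * (p - 1) ≤ k := by
    have h2 : 1 + a * (p - 1) ≤ p ^ a := by
      have h3 := one_add_mul_le_pow (R := ℤ) (a := (p : ℤ) - 1) (by
        have := (Fact.out : p.Prime).pos
        omega) a
      have h4 : (1 + ((p : ℤ) - 1)) ^ a = (p : ℤ) ^ a := by ring_nf
      rw [h4] at h3
      have h5 : ((p - 1 : ℕ) : ℤ) = (p : ℤ) - 1 := by
        rw [Nat.cast_sub (Fact.out : p.Prime).one_le]; simp
      have h6 : ((1 + a * (p - 1) : ℕ) : ℤ) ≤ ((p ^ a : ℕ) : ℤ) := by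
        push_cast [h5]
        exact h3
      exact_mod_cast h6
    have hk'0 : 0 < k' := Nat.pos_of_ne_zero fun h => hk' (h ▸ dvd_zero p)
    have h3 : p ^ a ≤ k + 1 := by
      have : k.succ = p ^ a * k' := hk
      rw [← Nat.succ_eq_add_one, this]
      exact Nat.le_mul_of_pos_right _ hk'0
    omega
  have h2 : ((k + 1 : ℕ) : 𝒪) = (p : 𝒪) ^ a * (k' : 𝒪) := by
    have : k.succ = p ^ a * k' := hk
    rw [← Nat.succ_eq_add_one, this]
    push_cast; ring
  rw [h2]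
  obtain ⟨c, hc⟩ := hu.exists_right_inv
  have h3 : (p : 𝒪) ^ a ∣ (ζ - 1) ^ k := by
    refine (pow_dvd_pow_of_dvd (natCast_dvd_pow hζ) a).trans ?_
    rw [← pow_mul, mul_comm (p - 1) a]
    exact pow_dvd_pow _ h1
  obtain ⟨e, he⟩ := h3
  exact ⟨c * e, by rw [he]; linear_combination -(p : 𝒪) ^ a * e * hc⟩

variable {d : ℕ}

include hζ hp in
/-- A matrix `M` such that `1 + (ζ - 1) M` has finite order and no eigenvalue `1` is invertible. -/
theorem exists_inverse [CharZero 𝒪] {n : ℕ} (hn : 0 < n) (M : Matrix (Fin d) (Fin d) 𝒪)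
    (hM : (1 + (ζ - 1) • M) ^ n = 1) (hinj : ∀ N : Matrix (Fin d) (Fin d) 𝒪, M * N = 0 → N = 0) :
    ∃ N, M * N = 1 := by
  choose e he using fun k => natCast_dvd_pow' hζ hp k
  -- the coefficients
  set c : ℕ → 𝒪 := fun j => ((n - 1).choose j : 𝒪) * e j with hc
  have hcc : ∀ j, ((n.choose (j + 1) : ℕ) : 𝒪) * (ζ - 1) ^ j = n * c j := by
    intro j
    obtain ⟨n', rfl⟩ : ∃ n', n = n' + 1 := ⟨n - 1, (Nat.sub_add_cancel hn).symm⟩
    have h1 := congrArg (Nat.cast : ℕ → 𝒪) (Nat.add_one_mul_choose_eq n' j)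
    push_cast at h1
    have h2 := he j
    push_cast at h2
    rw [h2, hc, Nat.add_sub_cancel]
    push_cast
    linear_combination -e j * h1
  have hc0 : c 0 = 1 := by
    have := he 0
    rw [pow_zero] at this
    push_cast at this
    rw [hc]
    simp only [Nat.choose_zero_right, Nat.cast_one, one_mul]
    linear_combination -this
  have hζ1 : ζ - 1 ≠ 0 := by
    intro h
    exact hζ.ne_one (Fact.out : p.Prime).one_lt (sub_eq_zero.mp h)
  have hn0 : (n : 𝒪) ≠ 0 := Nat.cast_ne_zero.mpr hn.ne'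
  have h1 : ∑ j ∈ Finset.range n, c j • M ^ (j + 1) = 0 := by
    have h2 : (1 + (ζ - 1) • M) ^ n = 1 + ((n : 𝒪) * (ζ - 1)) •
        ∑ j ∈ Finset.range n, c j • M ^ (j + 1) := by
      rw [add_comm, (Commute.one_right ((ζ - 1) • M)).add_pow, Finset.sum_range_succ',
        Finset.smul_sum]
      rw [add_comm]
      congr 1
      · simp
      · refine Finset.sum_congr rfl fun j _ => ?_
        rw [one_pow, mul_one, smul_pow, smul_smul, ← nsmul_eq_mul', ← Nat.cast_smul_eq_nsmul 𝒪,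
          smul_smul]
        congr 1
        rw [pow_succ]
        linear_combination (ζ - 1) * hcc j
    rw [hM] at h2
    have h3 : ((n : 𝒪) * (ζ - 1)) • ∑ j ∈ Finset.range n, c j • M ^ (j + 1) = 0 := by
      have := h2.symm
      rwa [add_eq_left] at this
    exact (smul_eq_zero.mp h3).resolve_left (mul_ne_zero hn0 hζ1)
  have h2 : ∑ j ∈ Finset.range n, c j • M ^ j = 0 := by
    apply hinj
    rw [Finset.mul_sum, ← h1]
    refine Finset.sum_congr rfl fun j _ => ?_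
    rw [Matrix.mul_smul, ← pow_succ']
  obtain ⟨n', rfl⟩ : ∃ n', n = n' + 1 := ⟨n - 1, (Nat.sub_add_cancel hn).symm⟩
  rw [Finset.sum_range_succ', hc0, one_smul, pow_zero] at h2
  refine ⟨-∑ j ∈ Finset.range n', c (j + 1) • M ^ j, ?_⟩
  rw [Matrix.mul_neg, Finset.mul_sum, neg_eq_iff_add_eq_zero, ← h2]
  congr 1
  refine Finset.sum_congr rfl fun j _ => ?_
  rw [Matrix.mul_smul, ← pow_succ']

end Integrality

section Eigen

variable {𝒪 : Type} [CommRing 𝒪] [IsDomain 𝒪] [IsDiscreteValuationRing 𝒪]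
  [IsAdicComplete (maximalIdeal 𝒪) 𝒪] [CharZero 𝒪] {p r : ℕ} [Fact p.Prime] {D : Type}
  [CommGroup D] [Finite D] (G : GenGroup p r D) {d : ℕ}
  {T : Type} [CommRing T] [Algebra 𝒪 T] (w : MonoidAlgebra 𝒪 D →ₐ[𝒪] T)
  (Φ : T →ₐ[𝒪] Matrix (Fin d) (Fin d) (MonoidAlgebra 𝒪 D))
  {L : Type} [Field L] [IsAlgClosed L] [CharZero L] [Algebra 𝒪 L]
  (hL : Function.Injective (algebraMap 𝒪 L))

/-- The property of the eigensystems: the Galois element of `D` at `i` is trivial exactly when the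
diamond element is. -/
def EigProp : Prop :=
  ∀ (ψ : MonoidAlgebra 𝒪 D →ₐ[𝒪] L) (v : Fin d → L) (lam : T → L), v ≠ 0 →
    (∀ t, Matrix.mulVec ((Φ t).map ψ) v = lam t • v) →
    ∀ i, lam (w (MonoidAlgebra.of 𝒪 D (G.δ i))) = 1 ↔ ψ (MonoidAlgebra.of 𝒪 D (G.δ i)) = 1

variable (ψ : MonoidAlgebra 𝒪 D →ₐ[𝒪] L)

/-- The action on the specialisation. -/
noncomputable def spAct (t : T) : Module.End L (Fin d → L) := Matrix.mulVecLin ((Φ t).map ψ)

lemma spAct_apply (t : T) (v : Fin d → L) : spAct Φ ψ t v = Matrix.mulVec ((Φ t).map ψ) v := rfl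

lemma spAct_mul (s t : T) : spAct Φ ψ (s * t) = spAct Φ ψ s * spAct Φ ψ t := by
  refine LinearMap.ext fun v => ?_
  change Matrix.mulVec ((Φ (s * t)).map ψ) v =
    Matrix.mulVec ((Φ s).map ψ) (Matrix.mulVec ((Φ t).map ψ) v)
  have h : (Φ (s * t)).map ψ = (Φ s).map ψ * (Φ t).map ψ := by
    rw [map_mul]
    exact map_mul ((ψ : MonoidAlgebra 𝒪 D →+* L).mapMatrix (m := Fin d)) (Φ s) (Φ t)
  rw [Matrix.mulVec_mulVec, h]

lemma spAct_comm (s t : T) : Commute (spAct Φ ψ s) (spAct Φ ψ t) := by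
  rw [Commute, SemiconjBy, ← spAct_mul, ← spAct_mul, mul_comm]

lemma spAct_one : spAct Φ ψ 1 = 1 := by
  refine LinearMap.ext fun v => ?_
  change Matrix.mulVec ((Φ 1).map ψ) _ = _
  rw [map_one, Matrix.map_one _ (map_zero ψ) (map_one ψ), Matrix.one_mulVec]; rfl

lemma spAct_pow (t : T) (n : ℕ) : spAct Φ ψ (t ^ n) = spAct Φ ψ t ^ n := by
  induction n with
  | zero => rw [pow_zero, pow_zero, spAct_one]
  | succ n ih => rw [pow_succ, pow_succ, spAct_mul, ih]

variable {G w Φ ψ}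

lemma EigProp.exists_eigen (W : Submodule L (Fin d → L)) (hW : W ≠ ⊥)
    (hst : ∀ s, ∀ v ∈ W, spAct Φ ψ s v ∈ W) (hE : EigProp G w Φ (L := L)) :
    ∃ v ∈ W, v ≠ 0 ∧ ∃ lam : T → L, (∀ t, spAct Φ ψ t v = lam t • v) ∧
      ∀ i, lam (w (MonoidAlgebra.of 𝒪 D (G.δ i))) = 1 ↔
        ψ (MonoidAlgebra.of 𝒪 D (G.δ i)) = 1 := by
  obtain ⟨v, hv, hv0, h⟩ := exists_common_eigenvector (spAct Φ ψ) (spAct_comm Φ ψ) _ W rfl hW hst
  choose lam hlam using h
  exact ⟨v, hv, hv0, lam, hlam, hE ψ v lam hv0 hlam⟩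

lemma spAct_u_pow (i : Fin r) :
    spAct Φ ψ (w (MonoidAlgebra.of 𝒪 D (G.δ i))) ^ p ^ G.m i = 1 := by
  rw [← spAct_pow, ← map_pow, ← map_pow, G.pow, map_one, map_one, spAct_one]

/-- Characters trivial on `δ i`. -/
lemma EigProp.eq_one (hE : EigProp G w Φ (L := L)) (i : Fin r)
    (hψ : ψ (MonoidAlgebra.of 𝒪 D (G.δ i)) = 1) :
    spAct Φ ψ (w (MonoidAlgebra.of 𝒪 D (G.δ i))) = 1 := by
  by_contra hne
  set U := spAct Φ ψ (w (MonoidAlgebra.of 𝒪 D (G.δ i))) with hU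
  set n := p ^ G.m i with hn
  have hUn : U ^ n = 1 := spAct_u_pow i
  have hgs : (∑ j ∈ Finset.range n, U ^ j) * (U - 1) = 0 := by
    rw [geom_sum_mul, hUn, sub_self]
  obtain ⟨v, hv, hv0, lam, hlam, h1⟩ := hE.exists_eigen (ψ := ψ) (LinearMap.range (U - 1))
    (fun h => hne (sub_eq_zero.mp (LinearMap.range_eq_bot.mp h)))
    (fun s v hv => by
      obtain ⟨u, rfl⟩ := hv
      refine ⟨spAct Φ ψ s u, ?_⟩
      have h2 : Commute (U - 1) (spAct Φ ψ s) :=
        (spAct_comm Φ ψ _ _).sub_left (Commute.one_left _)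
      exact congrArg (fun g : Module.End L (Fin d → L) => g u) h2.eq)
  have h2 : U v = v := by
    rw [hU, hlam, (h1 i).mpr hψ, one_smul]
  have h3 : ∀ j, (U ^ j) v = v := by
    intro j
    induction j with
    | zero => rfl
    | succ j ih => rw [pow_succ, Module.End.mul_apply, h2, ih]
  obtain ⟨u, hu⟩ := hv
  have h4 : (∑ j ∈ Finset.range n, U ^ j) v = 0 := by
    rw [← hu, ← Module.End.mul_apply, hgs]; rfl
  rw [LinearMap.sum_apply, Finset.sum_congr rfl fun j _ => h3 j, Finset.sum_const,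
    Finset.card_range, ← Nat.cast_smul_eq_nsmul L] at h4
  rcases smul_eq_zero.mp h4 with h5 | h5
  · rw [Nat.cast_eq_zero] at h5
    exact (pow_pos (Fact.out : p.Prime).pos _).ne' h5
  · exact hv0 h5

/-- Characters non-trivial on `δ i`. -/
lemma EigProp.injective (hE : EigProp G w Φ (L := L)) (i : Fin r)
    (hψ : ψ (MonoidAlgebra.of 𝒪 D (G.δ i)) ≠ 1) {v : Fin d → L}
    (hv : spAct Φ ψ (w (MonoidAlgebra.of 𝒪 D (G.δ i)) - 1) v = 0) : v = 0 := by
  by_contra hv0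
  set A := spAct Φ ψ (w (MonoidAlgebra.of 𝒪 D (G.δ i)) - 1) with hA
  obtain ⟨u, hu, hu0, lam, hlam, h1⟩ := hE.exists_eigen (ψ := ψ) (LinearMap.ker A)
    (fun h => hv0 (by
      have : v ∈ LinearMap.ker A := hv
      rw [h] at this
      exact (Submodule.mem_bot L).mp this))
    (fun s v hv => by
      rw [LinearMap.mem_ker] at hv ⊢
      have h2 := congrArg (fun g : Module.End L (Fin d → L) => g v)
        (spAct_comm Φ ψ (w (MonoidAlgebra.of 𝒪 D (G.δ i)) - 1) s).eq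
      change A (spAct Φ ψ s v) = spAct Φ ψ s (A v) at h2
      rw [h2, hv, map_zero])
  apply hψ
  rw [← h1 i]
  rw [LinearMap.mem_ker] at hu
  have h2 : A u = (lam (w (MonoidAlgebra.of 𝒪 D (G.δ i))) - 1) • u := by
    rw [hA, spAct_apply, map_sub, map_one]
    have h3 : ((Φ (w (MonoidAlgebra.of 𝒪 D (G.δ i))) - 1).map ψ) =
        (Φ (w (MonoidAlgebra.of 𝒪 D (G.δ i)))).map ψ - 1 := by
      ext a b
      rw [Matrix.map_apply, Matrix.sub_apply, map_sub, Matrix.sub_apply, Matrix.map_apply,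
        Matrix.one_apply, Matrix.one_apply]
      split_ifs
      · rw [map_one]
      · rw [map_zero]
    rw [h3, Matrix.sub_mulVec, Matrix.one_mulVec, ← spAct_apply, hlam, sub_smul, one_smul]
  rw [h2] at hu
  rcases smul_eq_zero.mp hu with h3 | h3
  · exact sub_eq_zero.mp h3
  · exact absurd h3 hu0

include hL in
/-- **The structure of the action of the Galois elements.** -/
theorem EigProp.exists_units [IsLocalRing (MonoidAlgebra 𝒪 D)] (hE : EigProp G w Φ (L := L))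
    {ζ : 𝒪} (hζ : IsPrimitiveRoot ζ p) (hp : (p : 𝒪) ∈ maximalIdeal 𝒪) (hm : ∀ i, 1 ≤ G.m i) :
    ∃ a a' : Fin r → Matrix (Fin d) (Fin d) (MonoidAlgebra 𝒪 D), (∀ i, a i * a' i = 1) ∧
      ∀ i, Φ (w (MonoidAlgebra.of 𝒪 D (G.δ i) - 1)) = (MonoidAlgebra.of 𝒪 D (G.δ i) - 1) • a i := by
  have h1 : ∀ i, ∀ k l, Φ (w (MonoidAlgebra.of 𝒪 D (G.δ i) - 1)) k l ∈
      Ideal.span {MonoidAlgebra.of 𝒪 D (G.δ i) - 1} := by
    intro i k l
    refine mem_span_of_forall_char hL _ _ fun ψ hψ => ?_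
    have h2 := hE.eq_one i hψ
    have h3 := congrFun (congrArg (fun g : Module.End L (Fin d → L) => g (Pi.single l 1)) h2) k
    change Matrix.mulVec ((Φ (w (MonoidAlgebra.of 𝒪 D (G.δ i)))).map ψ) (Pi.single l 1) k =
      (Pi.single l 1 : Fin d → L) k at h3
    rw [Matrix.mulVec_single_one, Matrix.col_apply, Matrix.map_apply] at h3
    rw [map_sub, map_sub, Matrix.sub_apply, map_sub, h3, map_one, map_one, Matrix.one_apply,
      Pi.single_apply]
    split_ifs
    · rw [map_one, sub_self]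
    · rw [map_zero, sub_self]
  choose b hb using fun i k l => Ideal.mem_span_singleton.mp (h1 i k l)
  let a : Fin r → Matrix (Fin d) (Fin d) (MonoidAlgebra 𝒪 D) := fun i => Matrix.of (b i)
  have ha : ∀ i, Φ (w (MonoidAlgebra.of 𝒪 D (G.δ i) - 1)) =
      (MonoidAlgebra.of 𝒪 D (G.δ i) - 1) • a i := by
    intro i
    ext1 k l
    rw [hb, Matrix.smul_apply, smul_eq_mul]; rfl
  suffices h : ∀ i, IsUnit (a i).det by
    exact ⟨a, fun i => (a i)⁻¹, fun i => Matrix.mul_nonsing_inv _ (h i), ha⟩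
  intro i
  -- the character of order `p`
  obtain ⟨φ, hφ⟩ := G.lift 𝒪 (fun j => if j = i then ζ else 1) (fun j => by
    split_ifs with h
    · subst h
      obtain ⟨m', hm'⟩ : ∃ m', G.m j = m' + 1 := ⟨G.m j - 1, (Nat.sub_add_cancel (hm j)).symm⟩
      rw [hm', pow_succ', pow_mul, hζ.pow_eq_one, one_pow]
    · rw [one_pow])
  let χ : MonoidAlgebra 𝒪 D →ₐ[𝒪] 𝒪 := MonoidAlgebra.lift 𝒪 𝒪 D φ
  have hχ : χ (MonoidAlgebra.of 𝒪 D (G.δ i)) = ζ := by
    rw [MonoidAlgebra.lift_of, hφ, if_pos rfl]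
  have hχs : Function.Surjective χ := fun x => ⟨algebraMap 𝒪 _ x, AlgHom.commutes _ _⟩
  haveI : IsLocalHom (χ : MonoidAlgebra 𝒪 D →+* 𝒪) := IsLocalHom.of_surjective _ hχs
  set M : Matrix (Fin d) (Fin d) 𝒪 := (a i).map χ with hM
  have hU : (Φ (w (MonoidAlgebra.of 𝒪 D (G.δ i)))).map χ = 1 + (ζ - 1) • M := by
    have h2 := congrArg (fun N : Matrix (Fin d) (Fin d) (MonoidAlgebra 𝒪 D) => N.map χ) (ha i)
    beta_reduce at h2
    have h3 : ((MonoidAlgebra.of 𝒪 D (G.δ i) - 1) • a i).map χ = (ζ - 1) • M := by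
      ext k l
      rw [Matrix.map_apply, Matrix.smul_apply, smul_eq_mul, map_mul, map_sub, hχ, map_one,
        Matrix.smul_apply, smul_eq_mul, hM, Matrix.map_apply]
    rw [h3] at h2
    rw [← h2]
    ext k l
    rw [Matrix.map_apply, Matrix.add_apply, Matrix.map_apply, map_sub, map_sub, map_one, map_one,
      Matrix.sub_apply, map_sub, Matrix.one_apply, Matrix.one_apply]
    split_ifs
    · rw [map_one]; ring
    · rw [map_zero]; ring
  have hpow : (1 + (ζ - 1) • M) ^ p ^ G.m i = 1 := by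
    rw [← hU]
    have h2 : (Φ (w (MonoidAlgebra.of 𝒪 D (G.δ i)))) ^ p ^ G.m i = 1 := by
      rw [← map_pow, ← map_pow, ← map_pow, G.pow, map_one, map_one, map_one]
    have h3 := congrArg ((χ : MonoidAlgebra 𝒪 D →+* 𝒪).mapMatrix) h2
    rw [map_pow, map_one] at h3
    exact h3
  -- the character with values in `L`
  let ψ : MonoidAlgebra 𝒪 D →ₐ[𝒪] L := (Algebra.ofId 𝒪 L).comp χ
  have hψ : ψ (MonoidAlgebra.of 𝒪 D (G.δ i)) ≠ 1 := by
    change algebraMap 𝒪 L (χ (MonoidAlgebra.of 𝒪 D (G.δ i))) ≠ 1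
    rw [hχ]
    intro h
    apply hζ.ne_one (Fact.out : p.Prime).one_lt
    apply hL
    rw [h, map_one]
  have hinj : ∀ N : Matrix (Fin d) (Fin d) 𝒪, M * N = 0 → N = 0 := by
    intro N hN
    have h2 : ∀ l, (fun k => algebraMap 𝒪 L (N k l)) = 0 := by
      intro l
      apply hE.injective (ψ := ψ) i hψ
      rw [spAct_apply]
      have h3 : (Φ (w (MonoidAlgebra.of 𝒪 D (G.δ i)) - 1)).map ψ =
          algebraMap 𝒪 L (ζ - 1) • M.map (algebraMap 𝒪 L) := by
        have h4 : w (MonoidAlgebra.of 𝒪 D (G.δ i)) - 1 = w (MonoidAlgebra.of 𝒪 D (G.δ i) - 1) := by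
          rw [map_sub, map_one]
        rw [h4, ha]
        ext k l
        rw [Matrix.map_apply, Matrix.smul_apply, Matrix.smul_apply, smul_eq_mul, smul_eq_mul,
          map_mul, Matrix.map_apply]
        congr 1
        change algebraMap 𝒪 L (χ _) = _
        rw [map_sub, hχ, map_one]
      rw [h3, Matrix.smul_mulVec]
      have h5 : Matrix.mulVec (M.map (algebraMap 𝒪 L)) (fun k => algebraMap 𝒪 L (N k l)) = 0 := by
        funext k
        have h6 := congrArg (algebraMap 𝒪 L) (congrFun (congrFun hN k) l)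
        rw [Matrix.mul_apply, map_sum] at h6
        rw [Pi.zero_apply, Matrix.mulVec, dotProduct]
        rw [Matrix.zero_apply, map_zero] at h6
        rw [← h6]
        exact Finset.sum_congr rfl fun j _ => by rw [map_mul]; rfl
      rw [h5, smul_zero]
    ext k l
    apply hL
    rw [congrFun (h2 l) k, Matrix.zero_apply, map_zero]; rfl
  obtain ⟨N, hN⟩ := exists_inverse hζ hp (pow_pos (Fact.out : p.Prime).pos _) M hpow hinj
  have hdet : IsUnit M.det := by
    have := congrArg Matrix.det hN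
    rw [Matrix.det_mul, Matrix.det_one] at this
    exact IsUnit.of_mul_eq_one _ this
  have h2 : (χ : MonoidAlgebra 𝒪 D →+* 𝒪) (a i).det = M.det := by
    rw [RingHom.map_det]; rfl
  rw [← h2] at hdet
  exact isUnit_of_map_unit (χ : MonoidAlgebra 𝒪 D →+* 𝒪) _ hdet

end Eigen

end Fermat.Agent.RT
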