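import Mathlib

set_option autoImplicit false
set_option maxHeartbeats 400000
set_option linter.style.haveILetI false
set_option linter.unusedSectionVars false
set_option linter.unusedVariables false

/-!
# Ultralimits in complete rings with finite quotients
-/

open Filter

namespace Fermat.Agent.RT

/-- The nonprincipal ultrafilter used for all limits. -/
noncomputable abbrev UU : Ultrafilter ℕ := Filter.hyperfilter ℕ

lemma eventually_of_atTop {p : ℕ → Prop} (h : ∀ᶠ n in atTop, p n) : ∀ᶠ n in (UU : Filter ℕ), p n :=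
  h.filter_mono Nat.hyperfilter_le_atTop

section ULim

variable {R : Type*} [CommRing R] (I : Ideal R)

/-- `a` is the ultralimit of the sequence `x` for the `I`-adic topology. -/
def IsULim (x : ℕ → R) (a : R) : Prop :=
  ∀ k : ℕ, ∀ᶠ n in (UU : Filter ℕ), x n - a ∈ I ^ k

variable {I}

lemma IsULim.const (a : R) : IsULim I (fun _ => a) a := fun k =>
  Eventually.of_forall fun n => by simp

lemma IsULim.add {x y : ℕ → R} {a b : R} (hx : IsULim I x a) (hy : IsULim I y b) :
    IsULim I (fun n => x n + y n) (a + b) := fun k => by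
  filter_upwards [hx k, hy k] with n h1 h2
  have : x n + y n - (a + b) = (x n - a) + (y n - b) := by ring
  rw [this]
  exact Ideal.add_mem _ h1 h2

lemma IsULim.neg {x : ℕ → R} {a : R} (hx : IsULim I x a) :
    IsULim I (fun n => - x n) (- a) := fun k => by
  filter_upwards [hx k] with n h1
  have : - x n - - a = - (x n - a) := by ring
  rw [this]
  exact (Ideal.neg_mem_iff _).mpr h1

lemma IsULim.sub {x y : ℕ → R} {a b : R} (hx : IsULim I x a) (hy : IsULim I y b) :
    IsULim I (fun n => x n - y n) (a - b) := fun k => by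
  filter_upwards [hx k, hy k] with n h1 h2
  have : x n - y n - (a - b) = (x n - a) - (y n - b) := by ring
  rw [this]
  exact Ideal.sub_mem _ h1 h2

lemma IsULim.mul {x y : ℕ → R} {a b : R} (hx : IsULim I x a) (hy : IsULim I y b) :
    IsULim I (fun n => x n * y n) (a * b) := fun k => by
  filter_upwards [hx k, hy k] with n h1 h2
  have : x n * y n - (a * b) = (x n - a) * y n + a * (y n - b) := by ring
  rw [this]
  exact Ideal.add_mem _ (Ideal.mul_mem_right _ _ h1) (Ideal.mul_mem_left _ _ h2)

lemma IsULim.sum {ι : Type*} (s : Finset ι) {x : ι → ℕ → R} {a : ι → R}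
    (h : ∀ i ∈ s, IsULim I (x i) (a i)) :
    IsULim I (fun n => ∑ i ∈ s, x i n) (∑ i ∈ s, a i) := by
  classical
  induction s using Finset.induction_on with
  | empty => simpa using IsULim.const (I := I) (0 : R)
  | insert i s hi ih =>
    simp only [Finset.sum_insert hi]
    exact (h i (Finset.mem_insert_self _ _)).add
      (ih fun j hj => h j (Finset.mem_insert_of_mem hj))

lemma IsULim.congr {x y : ℕ → R} {a : R} (hx : IsULim I x a)
    (h : ∀ k, ∀ᶠ n in (UU : Filter ℕ), y n - x n ∈ I ^ k) : IsULim I y a := fun k => by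
  filter_upwards [hx k, h k] with n h1 h2
  have : y n - a = (y n - x n) + (x n - a) := by ring
  rw [this]
  exact Ideal.add_mem _ h2 h1

lemma IsULim.unique [IsHausdorff I R] {x : ℕ → R} {a b : R} (ha : IsULim I x a)
    (hb : IsULim I x b) : a = b := by
  rw [← sub_eq_zero]
  apply IsHausdorff.haus (I := I) ‹_›
  intro k
  rw [SModEq.zero, smul_eq_mul, Ideal.mul_top]
  obtain ⟨n, h1, h2⟩ := ((ha k).and (hb k)).exists
  have : a - b = (x n - b) - (x n - a) := by ring
  rw [this]
  exact Ideal.sub_mem _ h2 h1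

/-- Ultralimits stay in closed ideals. -/
lemma IsULim.mem_sup {x : ℕ → R} {a : R} (ha : IsULim I x a) {K : Ideal R}
    (hK : ∀ᶠ n in (UU : Filter ℕ), x n ∈ K) (k : ℕ) : a ∈ K ⊔ I ^ k := by
  obtain ⟨n, h1, h2⟩ := ((ha k).and hK).exists
  have : a = x n - (x n - a) := by ring
  rw [this]
  exact Ideal.sub_mem _ (Ideal.mem_sup_left h2) (Ideal.mem_sup_right h1)

lemma exists_isULim [IsAdicComplete I R] (hfin : ∀ k : ℕ, Finite (R ⧸ I ^ k)) (x : ℕ → R) :
    ∃ a, IsULim I x a := by
  classical
  have h1 : ∀ k : ℕ, ∃ b : R ⧸ I ^ k, ∀ᶠ n in (UU : Filter ℕ), Ideal.Quotient.mk (I ^ k) (x n) = b := by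
    intro k
    haveI := hfin k
    haveI : Fintype (R ⧸ I ^ k) := Fintype.ofFinite _
    have := (Ultrafilter.eventually_exists_iff (f := UU)
      (P := fun (b : R ⧸ I ^ k) n => Ideal.Quotient.mk (I ^ k) (x n) = b)).mp
      (Eventually.of_forall fun n => ⟨_, rfl⟩)
    exact this
  choose b hb using h1
  have h2 : ∀ k : ℕ, ∃ c : R, ∀ᶠ n in (UU : Filter ℕ), x n - c ∈ I ^ k := by
    intro k
    obtain ⟨c, hc⟩ := Ideal.Quotient.mk_surjective (b k)
    refine ⟨c, ?_⟩
    filter_upwards [hb k] with n hn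
    rw [← hc] at hn
    exact Ideal.Quotient.eq.mp hn
  choose c hc using h2
  have h3 : ∀ {m n : ℕ}, m ≤ n → c m ≡ c n [SMOD (I ^ m • ⊤ : Submodule R R)] := by
    intro m n hmn
    rw [SModEq.sub_mem, smul_eq_mul, Ideal.mul_top]
    obtain ⟨j, h4, h5⟩ := ((hc m).and (hc n)).exists
    have : c m - c n = (x j - c n) - (x j - c m) := by ring
    rw [this]
    exact Ideal.sub_mem _ (Ideal.pow_le_pow_right hmn h5) h4
  obtain ⟨a, ha⟩ := IsPrecomplete.prec (I := I) inferInstance h3
  refine ⟨a, fun k => ?_⟩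
  filter_upwards [hc k] with n hn
  have h4 := ha k
  rw [SModEq.sub_mem, smul_eq_mul, Ideal.mul_top] at h4
  have : x n - a = (x n - c k) + (c k - a) := by ring
  rw [this]
  exact Ideal.add_mem _ hn h4

end ULim

end Fermat.Agent.RT
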